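import Mathlib
import Fermat.Agent.S30.Model.Main
import Fermat.Agent.S30.Model.Defs
import Fermat.Agent.S30.Model.ChartInf
import Fermat.Agent.S30.Model.ChartProv
import Fermat.Agent.S30.Model.ChartSwap
import Fermat.Agent.S30.Model.ChartLD
import Fermat.Agent.S30.Model.ChartReg
import Fermat.Agent.S30.Model.FamilyTSD
import Fermat.Agent.S30.Model.SFN.Pack

/-!
# PROGRAM U, row `U.E1.Normal`: the special fibre of BOTH chart rings of the model is normal

Setting of the Model theorem (`S30/Model/Main.lean`): `O` a DVR with uniformiser `π`,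
`E = Frac O` of characteristic zero, `L / E(u)` finite, `E` algebraically closed in `L`,
hypotheses (i) `GaussUnram π u` and (ii) `HorizUnram S u`.  For `t ∈ {u, u⁻¹}` let
`C_t := integralClosure (Algebra.adjoin O {t}) L` and `piC t π` the image of `π` in `C_t`.

EXIT (the interface asked by Program U, two-chart form):

    IsIntegrallyClosed (C_u ⧸ span {piC u π}) ∧ IsIntegrallyClosed (C_{u⁻¹} ⧸ span {piC u⁻¹ π})

This file is WIRING ONLY.  It contains no branch-point mathematics: the two branch-point local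
theorems enter as hypotheses in their consumer shapes

* `hLD : ChartLD.BranchStatement`     ("locally a domain modulo `π`" at a branch point),
* `hB  : ChartReg.RegBranchStatement` ("regular modulo `π`" at a branch point),

so that any implementation of them can be plugged in (`main_a_normal_of`).

What is new here, on top of `ChartReg.reg_zero / reg_inf` and `SFN.Pack`:

* `normAt_inf_of_normAt_zero` : transfer of `SFN.NormAt` from the chart `C_u` to the maximal
  ideals of the chart `C_{u⁻¹}` not containing `u⁻¹` (twin of `ChartInf.ldAt_inf_of_ldAt_zero`;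
  `NormAt` is used instead of `RegAt` because it transfers without knowing that the contraction
  of the maximal ideal to `C_u` is maximal);
* `prime_zero_of`, `prime_inf_of` : `π` is a prime element of `C_u` AND of `C_{u⁻¹}`
  (`ChartInf.prime_integralClosure` applied to `u` and to `u⁻¹`);
* `isIntegrallyClosed_zero_of`, `isIntegrallyClosed_inf_of`, `main_a_normal_tsd_of`,
  `main_a_normal_of` : the exits.
-/

set_option autoImplicit false
set_option linter.unusedSectionVars false

open Polynomial

namespace Fermat.Agent.S34.ModelNormal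

open Fermat.Agent.S30.Model
open Fermat.Agent.S30.Model.GlueChart Fermat.Agent.S30.Model.ChartInf

section Overlap

variable {O L : Type*} [CommRing O] [Field L] [Algebra O L]

/-- **Transfer of `NormAt` from the chart `C_u` to the chart at infinity**, at the maximal
ideals not containing `u⁻¹` (such a point also lies on the chart `C_u`). -/
theorem normAt_inf_of_normAt_zero (π : O) (u : L) (hu : u ≠ 0)
    (hN0 : ∀ M : Ideal (integralClosure (Algebra.adjoin O ({u} : Set L)) L), M.IsMaximal →
      piElt (Algebra.adjoin O ({u} : Set L)) π ∈ M →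
      SFN.NormAt (piElt (Algebra.adjoin O ({u} : Set L)) π) M)
    (M : Ideal (integralClosure (Algebra.adjoin O ({u⁻¹} : Set L)) L)) (hM : M.IsMaximal)
    (hπM : piElt (Algebra.adjoin O ({u⁻¹} : Set L)) π ∈ M) (htM : tInf u ∉ M) :
    SFN.NormAt (piElt (Algebra.adjoin O ({u⁻¹} : Set L)) π) M := by
  classical
  have hMp : M.IsPrime := hM.isPrime
  set P := contract u hu M with hP
  -- `P` is proper and contains `π`
  have hPne : P ≠ ⊤ := by
    intro h
    have h1 : (1 : integralClosure (Algebra.adjoin O ({u} : Set L)) L) ∈ P := by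
      rw [h]; exact Submodule.mem_top
    obtain ⟨n, y, hy, hmem⟩ := (mem_contract u hu M 1).mp h1
    have e : y = tInf u ^ n := by
      apply Subtype.ext
      rw [hy, Subalgebra.coe_pow, coe_tInf, Subalgebra.coe_one, mul_one]
    rw [e] at hmem
    exact htM (hMp.mem_of_pow_mem n hmem)
  obtain ⟨M0, hM0, hPM0⟩ := Ideal.exists_le_maximal P hPne
  have hπP : piElt (Algebra.adjoin O ({u} : Set L)) π ∈ P := by
    rw [hP, mem_contract]
    exact ⟨0, piElt (Algebra.adjoin O ({u⁻¹} : Set L)) π,
      by rw [pow_zero, one_mul, coe_piElt, coe_piElt], hπM⟩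
  have huk : ∀ k : ℕ, u⁻¹ ^ k * u ^ k = 1 := fun k => by
    rw [← mul_pow, inv_mul_cancel₀ hu, one_pow]
  intro a b n c hdiv
  -- the case `n = 0` is impossible: `π` would be a unit
  rcases Nat.eq_zero_or_pos n with rfl | hn
  · exfalso
    rw [pow_zero, Finset.range_zero, Finset.sum_empty, add_zero] at hdiv
    exact hM.ne_top (Ideal.eq_top_of_isUnit_mem M hπM (isUnit_of_dvd_one hdiv))
  obtain ⟨w, hw, habw⟩ := (piElt_dvd_iff _ π _).mp hdiv
  -- the relation in `L`
  have habw' : (a : L) ^ n + ∑ k ∈ Finset.range n, (c k : L) * (a : L) ^ k * (b : L) ^ (n - k) =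
      algebraMap O L π * w := by
    rw [← habw]
    simp only [Subalgebra.coe_add, Subalgebra.coe_pow, Subalgebra.coe_mul,
      AddSubmonoidClass.coe_finsetSum]
  -- move everything to the chart `C_u`
  obtain ⟨ka, hka⟩ := exists_forall_ge_isIntegral u hu (a : L) (isIntegral_overlap_of_inf u a.2)
  obtain ⟨kb, hkb⟩ := exists_forall_ge_isIntegral u hu (b : L) (isIntegral_overlap_of_inf u b.2)
  obtain ⟨kw, hkw⟩ := exists_forall_ge_isIntegral u hu w (isIntegral_overlap_of_inf u hw)
  have hc : ∀ k : ℕ, ∃ m : ℕ, ∀ j, m ≤ j →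
      IsIntegral (Algebra.adjoin O ({u} : Set L)) (u ^ j * (c k : L)) := fun k =>
    exists_forall_ge_isIntegral u hu (c k : L) (isIntegral_overlap_of_inf u (c k).2)
  choose kc hkc using hc
  set J := (Finset.range n).sup kc with hJ
  set K := max ka (max kb kw) with hK
  have hKa : ka ≤ K + J := (le_max_left _ _).trans (Nat.le_add_right _ _)
  have hKb : kb ≤ K := (le_max_left _ _).trans (le_max_right _ _)
  have hKw : kw ≤ (K + J) * n :=
    calc kw ≤ K := (le_max_right _ _).trans (le_max_right _ _)
      _ ≤ K + J := Nat.le_add_right _ _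
      _ ≤ (K + J) * n := Nat.le_mul_of_pos_right _ hn
  have hJc : ∀ k, k < n → kc k ≤ J * (n - k) := fun k hk =>
    calc kc k ≤ J := Finset.le_sup (Finset.mem_range.mpr hk)
      _ ≤ J * (n - k) := Nat.le_mul_of_pos_right _ (Nat.sub_pos_of_lt hk)
  let a0 : integralClosure (Algebra.adjoin O ({u} : Set L)) L := ⟨u ^ (K + J) * a, hka _ hKa⟩
  let b0 : integralClosure (Algebra.adjoin O ({u} : Set L)) L := ⟨u ^ K * b, hkb _ hKb⟩
  let c0 : ℕ → integralClosure (Algebra.adjoin O ({u} : Set L)) L := fun k =>
    if hk : k < n then ⟨u ^ (J * (n - k)) * (c k : L), hkc k _ (hJc k hk)⟩ else 0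
  have hc0 : ∀ k, k < n → ((c0 k : integralClosure (Algebra.adjoin O ({u} : Set L)) L) : L) =
      u ^ (J * (n - k)) * (c k : L) := fun k hk => by
    simp only [c0, dif_pos hk]
  have hrel0 : piElt (Algebra.adjoin O ({u} : Set L)) π ∣
      a0 ^ n + ∑ k ∈ Finset.range n, c0 k * a0 ^ k * b0 ^ (n - k) := by
    rw [piElt_dvd_iff]
    refine ⟨u ^ ((K + J) * n) * w, hkw _ hKw, ?_⟩
    have hterm : ∀ k ∈ Finset.range n,
        ((c0 k : integralClosure (Algebra.adjoin O ({u} : Set L)) L) : L) *
            (u ^ (K + J) * (a : L)) ^ k * (u ^ K * (b : L)) ^ (n - k) =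
          u ^ ((K + J) * n) * ((c k : L) * (a : L) ^ k * (b : L) ^ (n - k)) := by
      intro k hk
      have hkn : k < n := Finset.mem_range.mp hk
      obtain ⟨d, rfl⟩ := Nat.exists_eq_add_of_le hkn.le
      rw [hc0 k hkn, Nat.add_sub_cancel_left]
      have e1 : u ^ ((K + J) * (k + d)) = u ^ (J * d) * u ^ ((K + J) * k) * u ^ (K * d) := by
        rw [← pow_add, ← pow_add]; congr 1; ring
      rw [e1, mul_pow, mul_pow, ← pow_mul, ← pow_mul]
      ring
    have hsum : ((a0 ^ n + ∑ k ∈ Finset.range n, c0 k * a0 ^ k * b0 ^ (n - k) :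
        integralClosure (Algebra.adjoin O ({u} : Set L)) L) : L) =
        (u ^ (K + J) * (a : L)) ^ n + ∑ k ∈ Finset.range n,
          ((c0 k : integralClosure (Algebra.adjoin O ({u} : Set L)) L) : L) *
            (u ^ (K + J) * (a : L)) ^ k * (u ^ K * (b : L)) ^ (n - k) := by
      simp only [Subalgebra.coe_add, Subalgebra.coe_pow, Subalgebra.coe_mul,
        AddSubmonoidClass.coe_finsetSum, a0, b0]
    rw [hsum, Finset.sum_congr rfl hterm, ← Finset.mul_sum, mul_pow, ← pow_mul,
      ← mul_add, habw']
    ring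
  obtain ⟨s, hsM0, y, hdvd⟩ := hN0 M0 hM0 (hPM0 hπP) a0 b0 n c0 hrel0
  have hsP : s ∉ P := fun h => hsM0 (hPM0 h)
  obtain ⟨v, hv, hsv⟩ := (piElt_dvd_iff _ π _).mp hdvd
  have hsv' : (s : L) * (u ^ (K + J) * (a : L)) - u ^ K * (b : L) * (y : L) =
      algebraMap O L π * v := by
    rw [← hsv]
    simp only [Subalgebra.coe_sub, Subalgebra.coe_mul, a0, b0]
  -- back to the chart at infinity
  obtain ⟨ms, hms⟩ := exists_forall_ge_isIntegral_inv u hu (s : L)
    (isIntegral_overlap_of_zero u s.2)
  obtain ⟨my, hmy⟩ := exists_forall_ge_isIntegral_inv u hu (y : L)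
    (isIntegral_overlap_of_zero u y.2)
  obtain ⟨mv, hmv⟩ := exists_forall_ge_isIntegral_inv u hu v (isIntegral_overlap_of_zero u hv)
  set N := max ms (max my mv) with hN
  have hNs : ms ≤ N := le_max_left _ _
  have hNy : my ≤ N + J := ((le_max_left _ _).trans (le_max_right _ _)).trans
    (Nat.le_add_right _ _)
  have hNv : mv ≤ N + K + J := by
    have h1 : mv ≤ N := (le_max_right _ _).trans (le_max_right _ _)
    omega
  refine ⟨⟨u⁻¹ ^ N * s, hms N hNs⟩, ?_, ⟨u⁻¹ ^ (N + J) * y, hmy _ hNy⟩, ?_⟩
  · intro hmem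
    exact hsP ((mem_contract u hu M s).mpr ⟨N, ⟨u⁻¹ ^ N * s, hms N hNs⟩, rfl, hmem⟩)
  · rw [piElt_dvd_iff]
    refine ⟨u⁻¹ ^ (N + K + J) * v, hmv _ hNv, ?_⟩
    have h1 : u⁻¹ ^ (N + K + J) * u ^ (K + J) = u⁻¹ ^ N := by
      rw [add_assoc, pow_add, mul_assoc, huk, mul_one]
    have h2 : u⁻¹ ^ (N + K + J) * u ^ K = u⁻¹ ^ (N + J) := by
      have e : N + K + J = (N + J) + K := by ring
      rw [e, pow_add, mul_assoc, huk, mul_one]
    rw [Subalgebra.coe_sub, Subalgebra.coe_mul, Subalgebra.coe_mul]
    show u⁻¹ ^ N * (s : L) * (a : L) - (b : L) * (u⁻¹ ^ (N + J) * (y : L)) = _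
    calc u⁻¹ ^ N * (s : L) * (a : L) - (b : L) * (u⁻¹ ^ (N + J) * (y : L))
        = (u⁻¹ ^ (N + K + J) * u ^ (K + J)) * ((s : L) * (a : L)) -
            (u⁻¹ ^ (N + K + J) * u ^ K) * ((b : L) * (y : L)) := by rw [h1, h2]; ring
      _ = u⁻¹ ^ (N + K + J) *
            ((s : L) * (u ^ (K + J) * (a : L)) - u ^ K * (b : L) * (y : L)) := by ring
      _ = algebraMap O L π * (u⁻¹ ^ (N + K + J) * v) := by rw [hsv']; ring

end Overlap

section Main

universe uO uE uL

variable {O : Type uO} {E : Type uE} {L : Type uL} [CommRing O] [IsDomain O]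
  [IsDiscreteValuationRing O]
  [Field E] [CharZero E] [Algebra O E] [IsFractionRing O E]
  [Field L] [Algebra E L] [Algebra O L] [IsScalarTower O E L]

/-- The image of `π` in the chart ring `integralClosure (Algebra.adjoin O {t}) L`
(definitionally `GlueChart.piElt (Algebra.adjoin O {t}) π`). -/
noncomputable abbrev piC (t : L) (π : O) : integralClosure (Algebra.adjoin O {t}) L :=
  algebraMap (Algebra.adjoin O {t}) _ (algebraMap O (Algebra.adjoin O {t}) π)

theorem piC_eq_piElt (t : L) (π : O) : piC t π = GlueChart.piElt (Algebra.adjoin O {t}) π := rfl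

/-- `O` is integrally closed in `L` when `E` is algebraically closed in `L`. -/
theorem exists_of_isIntegral_of_algClosedIn [IsIntegrallyClosed O] (halg : AlgClosedIn E L)
    (x : L) (hx : IsIntegral O x) : ∃ a : O, algebraMap O L a = x := by
  have hxE : IsAlgebraic E x := (hx.tower_top (A := E)).isAlgebraic
  obtain ⟨e, rfl⟩ := halg x hxE
  have he : IsIntegral O e :=
    (isIntegral_algebraMap_iff (algebraMap E L).injective).1 hx
  obtain ⟨a, rfl⟩ := IsIntegrallyClosed.isIntegral_iff.1 he
  exact ⟨a, (IsScalarTower.algebraMap_apply O E L a)⟩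

/-- "Locally a domain modulo `π`" on the whole chart `C_u`. -/
theorem ldAt_zero_of (hLD : ChartLD.BranchStatement.{uL})
    (π : O) (hπ : Irreducible π) (u : L) (hu : Transcendental E u)
    [FiniteDimensional (IntermediateField.adjoin E {u}) L]
    (hi : GaussTSD (E := E) π u)
    (S : Finset O) (hS : ∀ c ∈ S, ∀ c' ∈ S, c ≠ c' → IsUnit (c - c'))
    (hii : HorizTSD (E := E) S u)
    (M : Ideal (integralClosure (Algebra.adjoin O {u}) L)) (hM : M.IsMaximal)
    (hπM : GlueChart.piElt (Algebra.adjoin O {u}) π ∈ M) :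
    LocalDomain.LDAt (GlueChart.piElt (Algebra.adjoin O {u}) π) M :=
  ChartLD.chart_ld_of_branch hLD π hπ u hu S hS M hM hπM
    (fun f hf _ hfS => ChartSwap.chartUnram_of π hπ u hu S hi hii f hf hfS)

/-- "Locally a domain modulo `π`" on the whole chart `C_{u⁻¹}`. -/
theorem ldAt_inf_of (hLD : ChartLD.BranchStatement.{uL})
    (π : O) (hπ : Irreducible π) (u : L) (hu : Transcendental E u)
    [FiniteDimensional (IntermediateField.adjoin E {u}) L]
    (hi : GaussTSD (E := E) π u)
    (S : Finset O) (hS : ∀ c ∈ S, ∀ c' ∈ S, c ≠ c' → IsUnit (c - c'))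
    (hii : HorizTSD (E := E) S u)
    (M : Ideal (integralClosure (Algebra.adjoin O {u⁻¹}) L)) (hM : M.IsMaximal)
    (hπM : GlueChart.piElt (Algebra.adjoin O {u⁻¹}) π ∈ M) :
    LocalDomain.LDAt (GlueChart.piElt (Algebra.adjoin O {u⁻¹}) π) M := by
  classical
  have hu0 : u ≠ 0 := fun h => hu (h ▸ isAlgebraic_zero)
  have hu' : Transcendental E u⁻¹ := fun h => hu (by simpa using h.inv)
  have hK : IntermediateField.adjoin E {u⁻¹} = IntermediateField.adjoin E {u} := by
    apply le_antisymm
    · rw [IntermediateField.adjoin_simple_le_iff]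
      exact inv_mem (IntermediateField.mem_adjoin_simple_self E u)
    · rw [IntermediateField.adjoin_simple_le_iff]
      have := inv_mem (IntermediateField.mem_adjoin_simple_self E u⁻¹)
      simpa using this
  have : FiniteDimensional (IntermediateField.adjoin E {u⁻¹}) L := by
    rw [hK]; infer_instance
  by_cases htM : ChartInf.tInf u ∈ M
  · exact ChartLD.chart_ld_of_branch hLD π hπ u⁻¹ hu' {0}
      (fun c hc c' hc' hne => absurd ((Finset.mem_singleton.1 hc).trans
        (Finset.mem_singleton.1 hc').symm) hne) M hM hπM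
      (fun f hf hfM hfS => ChartSwap.chartUnram_inf π hπ u hu S hi hii M hM hπM htM f hf hfM
        (by simpa using hfS 0 (Finset.mem_singleton_self 0)))
  · exact ChartInf.ldAt_inf_of_ldAt_zero π u hu0
      (fun M0 hM0 hπM0 => ldAt_zero_of hLD π hπ u hu hi S hS hii M0 hM0 hπM0) M hM hπM htM

/-- **`π` is a prime element of the chart ring `C_u`** (= `Assembly.main_a_tsd`, with the
branch-point theorem as a hypothesis). -/
theorem prime_zero_of (hLD : ChartLD.BranchStatement.{uL})
    (π : O) (hπ : Irreducible π) (u : L) (hu : Transcendental E u)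
    [FiniteDimensional (IntermediateField.adjoin E {u}) L] (halg : AlgClosedIn E L)
    (hi : GaussTSD (E := E) π u)
    (S : Finset O) (hS : ∀ c ∈ S, ∀ c' ∈ S, c ≠ c' → IsUnit (c - c'))
    (hii : HorizTSD (E := E) S u) :
    Prime (GlueChart.piElt (Algebra.adjoin O {u}) π) := by
  classical
  have hinj : Function.Injective (algebraMap O L) := by
    rw [IsScalarTower.algebraMap_eq O E L]
    exact (algebraMap E L).injective.comp (IsFractionRing.injective O E)
  have hu0 : u ≠ 0 := fun h => hu (h ▸ isAlgebraic_zero)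
  have hu' : Transcendental E u⁻¹ := fun h => hu (by simpa using h.inv)
  have hK : IntermediateField.adjoin E {u⁻¹} = IntermediateField.adjoin E {u} := by
    apply le_antisymm
    · rw [IntermediateField.adjoin_simple_le_iff]
      exact inv_mem (IntermediateField.mem_adjoin_simple_self E u)
    · rw [IntermediateField.adjoin_simple_le_iff]
      have := inv_mem (IntermediateField.mem_adjoin_simple_self E u⁻¹)
      simpa using this
  have : FiniteDimensional (IntermediateField.adjoin E {u⁻¹}) L := by
    rw [hK]; infer_instance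
  have := ChartProv.chart_finite (O := O) (E := E) u hu
  have := ChartProv.chart_finite (O := O) (E := E) u⁻¹ hu'
  exact ChartInf.prime_integralClosure π hπ.prime hinj
    (exists_of_isIntegral_of_algClosedIn halg) u hu0
    (ChartProv.chart_not_unit (E := E) π hπ u hu)
    (fun x hx h => ChartProv.chart_nzd (E := E) π hπ u⁻¹ hu' x hx h)
    (fun M hM hπM => ldAt_zero_of hLD π hπ u hu hi S hS hii M hM hπM)
    (fun M hM hπM _ => ldAt_inf_of hLD π hπ u hu hi S hS hii M hM hπM)

/-- **`π` is a prime element of the chart ring at infinity `C_{u⁻¹}`**: the gluing theorem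
`ChartInf.prime_integralClosure` applied to the pair of charts `u⁻¹`, `(u⁻¹)⁻¹ = u`. -/
theorem prime_inf_of (hLD : ChartLD.BranchStatement.{uL})
    (π : O) (hπ : Irreducible π) (u : L) (hu : Transcendental E u)
    [FiniteDimensional (IntermediateField.adjoin E {u}) L] (halg : AlgClosedIn E L)
    (hi : GaussTSD (E := E) π u)
    (S : Finset O) (hS : ∀ c ∈ S, ∀ c' ∈ S, c ≠ c' → IsUnit (c - c'))
    (hii : HorizTSD (E := E) S u) :
    Prime (GlueChart.piElt (Algebra.adjoin O {u⁻¹}) π) := by
  classical
  have hinj : Function.Injective (algebraMap O L) := by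
    rw [IsScalarTower.algebraMap_eq O E L]
    exact (algebraMap E L).injective.comp (IsFractionRing.injective O E)
  have hu0 : u ≠ 0 := fun h => hu (h ▸ isAlgebraic_zero)
  have hu' : Transcendental E u⁻¹ := fun h => hu (by simpa using h.inv)
  have hu'' : Transcendental E u⁻¹⁻¹ := by rw [inv_inv]; exact hu
  have hK : IntermediateField.adjoin E {u⁻¹} = IntermediateField.adjoin E {u} := by
    apply le_antisymm
    · rw [IntermediateField.adjoin_simple_le_iff]
      exact inv_mem (IntermediateField.mem_adjoin_simple_self E u)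
    · rw [IntermediateField.adjoin_simple_le_iff]
      have := inv_mem (IntermediateField.mem_adjoin_simple_self E u⁻¹)
      simpa using this
  have : FiniteDimensional (IntermediateField.adjoin E {u⁻¹}) L := by
    rw [hK]; infer_instance
  have hfd'' : FiniteDimensional (IntermediateField.adjoin E {u⁻¹⁻¹}) L := by
    rw [inv_inv]; infer_instance
  have := ChartProv.chart_finite (O := O) (E := E) u⁻¹ hu'
  have := ChartProv.chart_finite (O := O) (E := E) u⁻¹⁻¹ hu''
  have hi'' : GaussTSD (E := E) π u⁻¹⁻¹ := by rw [inv_inv]; exact hi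
  have hii'' : HorizTSD (E := E) S u⁻¹⁻¹ := by rw [inv_inv]; exact hii
  exact ChartInf.prime_integralClosure π hπ.prime hinj
    (exists_of_isIntegral_of_algClosedIn halg) u⁻¹ (inv_ne_zero hu0)
    (ChartProv.chart_not_unit (E := E) π hπ u⁻¹ hu')
    (fun x hx h => ChartProv.chart_nzd (E := E) π hπ u⁻¹⁻¹ hu'' x hx h)
    (fun M hM hπM => ldAt_inf_of hLD π hπ u hu hi S hS hii M hM hπM)
    (fun M hM hπM _ => ldAt_zero_of hLD π hπ u⁻¹⁻¹ hu'' hi'' S hS hii'' M hM hπM)

/-- **Normality of the special fibre of the chart `C_u`.** -/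
theorem isIntegrallyClosed_zero_of (hLD : ChartLD.BranchStatement.{uL})
    (hB : ChartReg.RegBranchStatement.{uL})
    (π : O) (hπ : Irreducible π) (u : L) (hu : Transcendental E u)
    [FiniteDimensional (IntermediateField.adjoin E {u}) L] (halg : AlgClosedIn E L)
    (hi : GaussTSD (E := E) π u)
    (S : Finset O) (hS : ∀ c ∈ S, ∀ c' ∈ S, c ≠ c' → IsUnit (c - c'))
    (hii : HorizTSD (E := E) S u) :
    IsIntegrallyClosed (integralClosure (Algebra.adjoin O {u}) L ⧸ Ideal.span {piC u π}) := by
  have := ChartProv.chart_finite (O := O) (E := E) u hu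
  have := GlueChart.isNoetherianRing_adjoin_singleton (O := O) u
  have : IsNoetherianRing (integralClosure (Algebra.adjoin O ({u} : Set L)) L) :=
    IsNoetherianRing.of_finite (Algebra.adjoin O ({u} : Set L)) _
  exact SFN.isIntegrallyClosed_of_regAt (GlueChart.piElt (Algebra.adjoin O {u}) π)
    (prime_zero_of hLD π hπ u hu halg hi S hS hii)
    (fun M hM hπM => ChartReg.reg_zero hB π hπ u hu S hS hi hii M hM hπM)

/-- **Normality of the special fibre of the chart at infinity `C_{u⁻¹}`.** -/
theorem isIntegrallyClosed_inf_of (hLD : ChartLD.BranchStatement.{uL})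
    (hB : ChartReg.RegBranchStatement.{uL})
    (π : O) (hπ : Irreducible π) (u : L) (hu : Transcendental E u)
    [FiniteDimensional (IntermediateField.adjoin E {u}) L] (halg : AlgClosedIn E L)
    (hi : GaussTSD (E := E) π u)
    (S : Finset O) (hS : ∀ c ∈ S, ∀ c' ∈ S, c ≠ c' → IsUnit (c - c'))
    (hii : HorizTSD (E := E) S u) :
    IsIntegrallyClosed
      (integralClosure (Algebra.adjoin O {u⁻¹}) L ⧸ Ideal.span {piC u⁻¹ π}) := by
  classical
  have hu0 : u ≠ 0 := fun h => hu (h ▸ isAlgebraic_zero)
  have hu' : Transcendental E u⁻¹ := fun h => hu (by simpa using h.inv)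
  have hK : IntermediateField.adjoin E {u⁻¹} = IntermediateField.adjoin E {u} := by
    apply le_antisymm
    · rw [IntermediateField.adjoin_simple_le_iff]
      exact inv_mem (IntermediateField.mem_adjoin_simple_self E u)
    · rw [IntermediateField.adjoin_simple_le_iff]
      have := inv_mem (IntermediateField.mem_adjoin_simple_self E u⁻¹)
      simpa using this
  have : FiniteDimensional (IntermediateField.adjoin E {u⁻¹}) L := by
    rw [hK]; infer_instance
  have := ChartProv.chart_finite (O := O) (E := E) u hu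
  have := ChartProv.chart_finite (O := O) (E := E) u⁻¹ hu'
  have := GlueChart.isNoetherianRing_adjoin_singleton (O := O) u
  have := GlueChart.isNoetherianRing_adjoin_singleton (O := O) u⁻¹
  have : IsNoetherianRing (integralClosure (Algebra.adjoin O ({u} : Set L)) L) :=
    IsNoetherianRing.of_finite (Algebra.adjoin O ({u} : Set L)) _
  have : IsNoetherianRing (integralClosure (Algebra.adjoin O ({u⁻¹} : Set L)) L) :=
    IsNoetherianRing.of_finite (Algebra.adjoin O ({u⁻¹} : Set L)) _
  have hp0 := prime_zero_of hLD π hπ u hu halg hi S hS hii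
  have hpinf := prime_inf_of hLD π hπ u hu halg hi S hS hii
  -- `NormAt` on the whole chart `C_u`
  have hN0 : ∀ M : Ideal (integralClosure (Algebra.adjoin O ({u} : Set L)) L), M.IsMaximal →
      GlueChart.piElt (Algebra.adjoin O ({u} : Set L)) π ∈ M →
      SFN.NormAt (GlueChart.piElt (Algebra.adjoin O ({u} : Set L)) π) M :=
    fun M hM hπM => SFN.normAt_of_regAt _ hp0 M hM hπM
      (ChartReg.reg_zero hB π hπ u hu S hS hi hii M hM hπM)
  refine SFN.isIntegrallyClosed_of_normAt (GlueChart.piElt (Algebra.adjoin O {u⁻¹}) π) hpinf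
    (fun M hM hπM => ?_)
  by_cases htM : ChartInf.tInf u ∈ M
  · exact SFN.normAt_of_regAt _ hpinf M hM hπM
      (ChartReg.reg_inf hB π hπ u hu S hi hii M hM hπM htM)
  · exact normAt_inf_of_normAt_zero π u hu0 hN0 M hM hπM htM

/-- **The special fibres of both chart rings are normal** (TSD form of the hypotheses). -/
theorem main_a_normal_tsd_of (hLD : ChartLD.BranchStatement.{uL})
    (hB : ChartReg.RegBranchStatement.{uL})
    (π : O) (hπ : Irreducible π) (u : L) (hu : Transcendental E u)
    [FiniteDimensional (IntermediateField.adjoin E {u}) L] (halg : AlgClosedIn E L)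
    (hi : GaussTSD (E := E) π u)
    (S : Finset O) (hS : ∀ c ∈ S, ∀ c' ∈ S, c ≠ c' → IsUnit (c - c'))
    (hii : HorizTSD (E := E) S u) :
    IsIntegrallyClosed (integralClosure (Algebra.adjoin O {u}) L ⧸ Ideal.span {piC u π}) ∧
    IsIntegrallyClosed (integralClosure (Algebra.adjoin O {u⁻¹}) L ⧸ Ideal.span {piC u⁻¹ π}) :=
  ⟨isIntegrallyClosed_zero_of hLD hB π hπ u hu halg hi S hS hii,
    isIntegrallyClosed_inf_of hLD hB π hπ u hu halg hi S hS hii⟩

/-- **INTERFACE U ← E1 (`main_a_normal`), modulo the two branch-point statements**: under the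
hypotheses of `Model.main_a`, the special fibres `C_u / π` and `C_{u⁻¹} / π` of the two chart
rings are integrally closed domains. -/
theorem main_a_normal_of (hLD : ChartLD.BranchStatement.{uL})
    (hB : ChartReg.RegBranchStatement.{uL})
    (π : O) (hπ : Irreducible π) (u : L) (hu : Transcendental E u)
    [FiniteDimensional (IntermediateField.adjoin E {u}) L] (halg : AlgClosedIn E L)
    (hi : GaussUnram (E := E) π u)
    (S : Finset O) (hS : ∀ c ∈ S, ∀ c' ∈ S, c ≠ c' → IsUnit (c - c'))
    (hii : HorizUnram (E := E) S u) :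
    IsIntegrallyClosed (integralClosure (Algebra.adjoin O {u}) L ⧸ Ideal.span {piC u π}) ∧
    IsIntegrallyClosed (integralClosure (Algebra.adjoin O {u⁻¹}) L ⧸ Ideal.span {piC u⁻¹ π}) :=
  main_a_normal_tsd_of hLD hB π hπ u hu halg (FamilyTSD.gaussTSD_of_gaussUnram π hπ u hu hi)
    S hS (FamilyTSD.horizTSD_of_horizUnram u hu S hii)

/-- Both chart rings have `π` as a prime element (hypotheses of `Model.main_a`), modulo the
branch-point statement. -/
theorem main_a_prime_of (hLD : ChartLD.BranchStatement.{uL})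
    (π : O) (hπ : Irreducible π) (u : L) (hu : Transcendental E u)
    [FiniteDimensional (IntermediateField.adjoin E {u}) L] (halg : AlgClosedIn E L)
    (hi : GaussUnram (E := E) π u)
    (S : Finset O) (hS : ∀ c ∈ S, ∀ c' ∈ S, c ≠ c' → IsUnit (c - c'))
    (hii : HorizUnram (E := E) S u) :
    Prime (piC u π) ∧ Prime (piC u⁻¹ π) :=
  ⟨prime_zero_of hLD π hπ u hu halg (FamilyTSD.gaussTSD_of_gaussUnram π hπ u hu hi) S hS
      (FamilyTSD.horizTSD_of_horizUnram u hu S hii),
    prime_inf_of hLD π hπ u hu halg (FamilyTSD.gaussTSD_of_gaussUnram π hπ u hu hi) S hS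
      (FamilyTSD.horizTSD_of_horizUnram u hu S hii)⟩

end Main

end Fermat.Agent.S34.ModelNormal
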