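import Mathlib
import Fermat.Agent.S34.ModelNormal
import Fermat.Agent.S30.Model.LdAtBranch
import Fermat.Agent.S30.Normal.RegBranch

/-!
# PROGRAM U, row `U.E1.Normal`: INTERFACE U ← E1, final form (no hypothesis left)

`main_a_normal` : under the hypotheses of the Model theorem `Model.main_a`
(`O` a DVR with uniformiser `π`, `E = Frac O` of characteristic zero, `L / E(u)` finite,
`E` algebraically closed in `L`, (i) `GaussUnram π u`, (ii) `HorizUnram S u`),
the special fibres of BOTH chart rings `C_t := integralClosure (Algebra.adjoin O {t}) L`,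
`t ∈ {u, u⁻¹}`, are integrally closed:

    IsIntegrallyClosed (C_u ⧸ span {piC u π}) ∧ IsIntegrallyClosed (C_{u⁻¹} ⧸ span {piC u⁻¹ π})

and `main_a_prime` : `π` is a prime element of both chart rings (so both quotients are
integrally closed DOMAINS).

Proof = `ModelNormal.main_a_normal_of` (wiring) applied to the two branch-point theorems
`LdAtBranch.branchStatement` (locally a domain) and `RegBranch.regBranchStatement` (regular).
-/

set_option autoImplicit false

namespace Fermat.Agent.S34.ModelNormal

open Fermat.Agent.S30.Model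

universe uO uE uL

variable {O : Type uO} {E : Type uE} {L : Type uL} [CommRing O] [IsDomain O]
  [IsDiscreteValuationRing O]
  [Field E] [CharZero E] [Algebra O E] [IsFractionRing O E]
  [Field L] [Algebra E L] [Algebra O L] [IsScalarTower O E L]

/-- **INTERFACE U ← E1: the special fibre of the chart rings is NORMAL** (both charts). -/
theorem main_a_normal (π : O) (hπ : Irreducible π) (u : L) (hu : Transcendental E u)
    [FiniteDimensional (IntermediateField.adjoin E {u}) L] (halg : AlgClosedIn E L)
    (hi : GaussUnram (E := E) π u)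
    (S : Finset O) (hS : ∀ c ∈ S, ∀ c' ∈ S, c ≠ c' → IsUnit (c - c'))
    (hii : HorizUnram (E := E) S u) :
    IsIntegrallyClosed (integralClosure (Algebra.adjoin O {u}) L ⧸ Ideal.span {piC u π}) ∧
    IsIntegrallyClosed (integralClosure (Algebra.adjoin O {u⁻¹}) L ⧸ Ideal.span {piC u⁻¹ π}) :=
  main_a_normal_of LdAtBranch.branchStatement Fermat.Agent.S30.Normal.RegBranch.regBranchStatement
    π hπ u hu halg hi S hS hii

/-- **`π` is a prime element of both chart rings** (the `u`-chart statement is `Model.main_a`). -/
theorem main_a_prime (π : O) (hπ : Irreducible π) (u : L) (hu : Transcendental E u)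
    [FiniteDimensional (IntermediateField.adjoin E {u}) L] (halg : AlgClosedIn E L)
    (hi : GaussUnram (E := E) π u)
    (S : Finset O) (hS : ∀ c ∈ S, ∀ c' ∈ S, c ≠ c' → IsUnit (c - c'))
    (hii : HorizUnram (E := E) S u) :
    Prime (piC u π) ∧ Prime (piC u⁻¹ π) :=
  main_a_prime_of LdAtBranch.branchStatement π hπ u hu halg hi S hS hii

/-- Pointwise form on the `u`-chart: the special fibre is regular at every closed point. -/
theorem regAt_zero (π : O) (hπ : Irreducible π) (u : L) (hu : Transcendental E u)
    [FiniteDimensional (IntermediateField.adjoin E {u}) L]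
    (hi : GaussUnram (E := E) π u)
    (S : Finset O) (hS : ∀ c ∈ S, ∀ c' ∈ S, c ≠ c' → IsUnit (c - c'))
    (hii : HorizUnram (E := E) S u)
    (M : Ideal (integralClosure (Algebra.adjoin O {u}) L)) (hM : M.IsMaximal)
    (hπM : piC u π ∈ M) :
    RegNB.RegAt (piC u π) M :=
  ChartReg.reg_zero Fermat.Agent.S30.Normal.RegBranch.regBranchStatement π hπ u hu S hS
    (FamilyTSD.gaussTSD_of_gaussUnram π hπ u hu hi) (FamilyTSD.horizTSD_of_horizUnram u hu S hii)
    M hM hπM

/-- Pointwise form on the `u⁻¹`-chart, at the closed points over `u = ∞`. -/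
theorem regAt_inf (π : O) (hπ : Irreducible π) (u : L) (hu : Transcendental E u)
    [FiniteDimensional (IntermediateField.adjoin E {u}) L]
    (hi : GaussUnram (E := E) π u)
    (S : Finset O) (hii : HorizUnram (E := E) S u)
    (M : Ideal (integralClosure (Algebra.adjoin O {u⁻¹}) L)) (hM : M.IsMaximal)
    (hπM : piC u⁻¹ π ∈ M) (htM : ChartInf.tInf u ∈ M) :
    RegNB.RegAt (piC u⁻¹ π) M :=
  ChartReg.reg_inf Fermat.Agent.S30.Normal.RegBranch.regBranchStatement π hπ u hu S
    (FamilyTSD.gaussTSD_of_gaussUnram π hπ u hu hi) (FamilyTSD.horizTSD_of_horizUnram u hu S hii)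
    M hM hπM htM

end Fermat.Agent.S34.ModelNormal
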