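import Mathlib
import Fermat.Agent.S34.ModelNormalMain

/-!
# PROGRAM U, row `U.E1.Normal`, Dedekind exits

Same setting and hypotheses as `Model.main_a` / `ModelNormal.main_a_normal`.

* `dimensionLEOne_quotient` (abstract): `C` integral over `A`, `A ⧸ (q)` a principal ideal
  domain, `p ∣ q` in `C`, `p` prime in `C`  ⟹  `C ⧸ (p)` has Krull dimension `≤ 1`.
* `dimensionLEOne_fibre` : the special fibre of a chart ring has dimension `≤ 1`.
* `main_a_dedekind` : the special fibres of BOTH chart rings are Dedekind domains.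
* `regAt_inf_all` : the special fibre of the `u⁻¹`-chart is regular at EVERY closed point
  (also off `u = ∞`).
-/

set_option autoImplicit false

namespace Fermat.Agent.S34.ModelNormal

open Fermat.Agent.S30.Model

section Abstract

/-- `C` integral over `A`, `A ⧸ (q)` a principal ideal domain, `p` a prime element of `C`
dividing the image of `q`: then every nonzero prime ideal of `C ⧸ (p)` is maximal. -/
theorem dimensionLEOne_quotient {A C : Type*} [CommRing A] [CommRing C] [Algebra A C]
    [Algebra.IsIntegral A C] (q : A) (p : C) (hp : Prime p) (hqp : p ∣ algebraMap A C q)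
    [IsDomain (A ⧸ Ideal.span {q})] [IsPrincipalIdealRing (A ⧸ Ideal.span {q})] :
    Ring.DimensionLEOne (C ⧸ Ideal.span {p}) := by
  classical
  have hprime : (Ideal.span {p}).IsPrime := (Ideal.span_singleton_prime hp.ne_zero).mpr hp
  have hdom : IsDomain (C ⧸ Ideal.span {p}) := Ideal.Quotient.isDomain _
  let ψ : A ⧸ Ideal.span {q} →+* C ⧸ Ideal.span {p} :=
    Ideal.Quotient.lift (Ideal.span {q})
      ((Ideal.Quotient.mk (Ideal.span {p})).comp (algebraMap A C)) (by
        intro a ha
        obtain ⟨b, rfl⟩ := Ideal.mem_span_singleton.mp ha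
        rw [RingHom.comp_apply, Ideal.Quotient.eq_zero_iff_mem, map_mul]
        exact Ideal.mul_mem_right _ _ (Ideal.mem_span_singleton.mpr hqp))
  let algψ : Algebra (A ⧸ Ideal.span {q}) (C ⧸ Ideal.span {p}) := ψ.toAlgebra
  have hcomp : (algebraMap (A ⧸ Ideal.span {q}) (C ⧸ Ideal.span {p})).comp
      (Ideal.Quotient.mk (Ideal.span {q})) =
      (Ideal.Quotient.mk (Ideal.span {p})).comp (algebraMap A C) := by
    ext a
    rfl
  have hint : Algebra.IsIntegral (A ⧸ Ideal.span {q}) (C ⧸ Ideal.span {p}) := by
    refine ⟨fun x => ?_⟩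
    obtain ⟨c, rfl⟩ := Ideal.Quotient.mk_surjective x
    obtain ⟨P, hPm, hP⟩ := Algebra.IsIntegral.isIntegral (R := A) c
    refine ⟨P.map (Ideal.Quotient.mk (Ideal.span {q})), hPm.map _, ?_⟩
    rw [Polynomial.eval₂_map, hcomp, ← Polynomial.hom_eval₂, hP, map_zero]
  refine ⟨fun {Q} hQ0 hQp => ?_⟩
  have hc : Q.comap (algebraMap (A ⧸ Ideal.span {q}) (C ⧸ Ideal.span {p})) ≠ ⊥ :=
    fun h => hQ0 (Ideal.eq_bot_of_comap_eq_bot h)
  have hcp : (Q.comap (algebraMap (A ⧸ Ideal.span {q}) (C ⧸ Ideal.span {p}))).IsPrime :=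
    Ideal.comap_isPrime _ _
  have hcm := Ideal.IsPrime.isMaximal hcp hc
  exact Ideal.isMaximal_of_isIntegral_of_isMaximal_comap Q hcm

/-- Packaging: a Noetherian ring modulo a prime element, of dimension `≤ 1` and integrally
closed, is a Dedekind domain. -/
theorem isDedekindDomain_quotient {C : Type*} [CommRing C] [IsNoetherianRing C] (p : C)
    (hp : Prime p) (hdim : Ring.DimensionLEOne (C ⧸ Ideal.span {p}))
    (hic : IsIntegrallyClosed (C ⧸ Ideal.span {p})) : IsDedekindDomain (C ⧸ Ideal.span {p}) := by
  have : (Ideal.span {p}).IsPrime := (Ideal.span_singleton_prime hp.ne_zero).mpr hp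
  have : IsDomain (C ⧸ Ideal.span {p}) := Ideal.Quotient.isDomain _
  exact { }

end Abstract

section Main

universe uO uE uL

variable {O : Type uO} {E : Type uE} {L : Type uL} [CommRing O] [IsDomain O]
  [IsDiscreteValuationRing O]
  [Field E] [CharZero E] [Algebra O E] [IsFractionRing O E]
  [Field L] [Algebra E L] [Algebra O L] [IsScalarTower O E L]

omit [CharZero E] in
/-- The special fibre of a chart ring has Krull dimension `≤ 1`. -/
theorem dimensionLEOne_fibre (π : O) (hπ : Irreducible π) (t : L) (ht : Transcendental E t)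
    (hp : Prime (piC t π)) :
    Ring.DimensionLEOne (integralClosure (Algebra.adjoin O {t}) L ⧸ Ideal.span {piC t π}) := by
  have htO : Transcendental O t := ht.restrictScalars (IsFractionRing.injective O E)
  have hπA : Prime (algebraMap O (Algebra.adjoin O {t}) π) :=
    ChartInst.prime_algebraMap_adjoin O t htO hπ.prime
  have hmaxπ : (Ideal.span {π}).IsMaximal := by
    rw [← hπ.maximalIdeal_eq]
    exact IsLocalRing.maximalIdeal.isMaximal O
  have pirA : IsPrincipalIdealRing
      (Algebra.adjoin O {t} ⧸ Ideal.span {algebraMap O (Algebra.adjoin O {t}) π}) :=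
    ChartInst.isPrincipalIdealRing_quotient_adjoin O t htO π
  have : (Ideal.span {algebraMap O (Algebra.adjoin O {t}) π}).IsPrime :=
    (Ideal.span_singleton_prime hπA.ne_zero).mpr hπA
  have : IsDomain (Algebra.adjoin O {t} ⧸ Ideal.span {algebraMap O (Algebra.adjoin O {t}) π}) :=
    Ideal.Quotient.isDomain _
  exact dimensionLEOne_quotient (algebraMap O (Algebra.adjoin O {t}) π) (piC t π) hp dvd_rfl

/-- **The special fibres of both chart rings are Dedekind domains.** -/
theorem main_a_dedekind (π : O) (hπ : Irreducible π) (u : L) (hu : Transcendental E u)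
    [FiniteDimensional (IntermediateField.adjoin E {u}) L] (halg : AlgClosedIn E L)
    (hi : GaussUnram (E := E) π u)
    (S : Finset O) (hS : ∀ c ∈ S, ∀ c' ∈ S, c ≠ c' → IsUnit (c - c'))
    (hii : HorizUnram (E := E) S u) :
    IsDedekindDomain (integralClosure (Algebra.adjoin O {u}) L ⧸ Ideal.span {piC u π}) ∧
    IsDedekindDomain (integralClosure (Algebra.adjoin O {u⁻¹}) L ⧸ Ideal.span {piC u⁻¹ π}) := by
  have hu' : Transcendental E u⁻¹ := fun h => hu (by simpa using h.inv)
  have hK : IntermediateField.adjoin E {u⁻¹} = IntermediateField.adjoin E {u} := by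
    apply le_antisymm
    · rw [IntermediateField.adjoin_simple_le_iff]
      exact inv_mem (IntermediateField.mem_adjoin_simple_self E u)
    · rw [IntermediateField.adjoin_simple_le_iff]
      have := inv_mem (IntermediateField.mem_adjoin_simple_self E u⁻¹)
      simpa using this
  have : FiniteDimensional (IntermediateField.adjoin E {u⁻¹}) L := by
    rw [hK]; infer_instance
  have := ChartProv.chart_finite (O := O) (E := E) u hu
  have := ChartProv.chart_finite (O := O) (E := E) u⁻¹ hu'
  have := GlueChart.isNoetherianRing_adjoin_singleton (O := O) u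
  have := GlueChart.isNoetherianRing_adjoin_singleton (O := O) u⁻¹
  have : IsNoetherianRing (integralClosure (Algebra.adjoin O ({u} : Set L)) L) :=
    IsNoetherianRing.of_finite (Algebra.adjoin O ({u} : Set L)) _
  have : IsNoetherianRing (integralClosure (Algebra.adjoin O ({u⁻¹} : Set L)) L) :=
    IsNoetherianRing.of_finite (Algebra.adjoin O ({u⁻¹} : Set L)) _
  obtain ⟨hp0, hpinf⟩ := main_a_prime π hπ u hu halg hi S hS hii
  obtain ⟨hn0, hninf⟩ := main_a_normal π hπ u hu halg hi S hS hii
  exact ⟨isDedekindDomain_quotient (piC u π) hp0 (dimensionLEOne_fibre π hπ u hu hp0) hn0,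
    isDedekindDomain_quotient (piC u⁻¹ π) hpinf (dimensionLEOne_fibre π hπ u⁻¹ hu' hpinf) hninf⟩

/-- **The special fibre of the `u⁻¹`-chart is regular at every closed point** (also at the
points not over `u = ∞`). -/
theorem regAt_inf_all (π : O) (hπ : Irreducible π) (u : L) (hu : Transcendental E u)
    [FiniteDimensional (IntermediateField.adjoin E {u}) L] (halg : AlgClosedIn E L)
    (hi : GaussUnram (E := E) π u)
    (S : Finset O) (hS : ∀ c ∈ S, ∀ c' ∈ S, c ≠ c' → IsUnit (c - c'))
    (hii : HorizUnram (E := E) S u)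
    (M : Ideal (integralClosure (Algebra.adjoin O {u⁻¹}) L)) (hM : M.IsMaximal)
    (hπM : piC u⁻¹ π ∈ M) :
    RegNB.RegAt (piC u⁻¹ π) M := by
  have := (main_a_dedekind π hπ u hu halg hi S hS hii).2
  exact SFN.regAt_of_isDedekindDomain (piC u⁻¹ π) M hM hπM

end Main

end Fermat.Agent.S34.ModelNormal
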