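import Mathlib
import Fermat.Agent.S30.GaussDVR
import Fermat.Agent.S30.GaussDescent
import Fermat.Agent.S18.K1Defs
import Fermat.Agent.S18.K1Top
import Fermat.Agent.S30.Congr

/-!
# S34 / Program U, ruling #1 (R4)(T): `TrivMod` for inertia

`O` a discrete valuation ring with fraction field `E`, `L ⊆ E((q))` a field, `D ⊆ L` an
`O`-subalgebra contained in the Gauss ring `V`.  A ring automorphism `τ` of `L` that acts
coefficientwise through a ring endomorphism of `E` which is *trivial on the residue field of `O`*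
("`τ` in the inertia group") satisfies `red (τ x) = red x` on the Gauss ring.  If moreover `W` is
a second automorphism commuting with `τ` ("Atkin–Lehner"), and the chart ring
`B = integral closure of D in L` is *saturated* for the two Gauss valuations `v_∞ = red` and
`v_0 = red ∘ W`:

  `(SAT)`  `x ∈ B`, `red x = 0`, `red (W x) = 0`  ⟹  `x ∈ π B`,

then `τ b - b ∈ π B` for every `b ∈ B`.  This is exactly the hypothesis `TrivMod` of the
semistable Kummer step (`τ` is the identity on the special fibre of the chart).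

* `coeffMap_mem_V`, `red_coeffMap` : Part A, the residually trivial coefficient action on `V`.
* `trivMod_of_sat`                 : Part B, the generic statement.
* `trivMod_inertia`                : Part C, the instantiation for `L = LE N E`, `E ⊆ ℚ̄` a
  number field normal over `ℚ`, `O = A ∩ E`, `τ` in the inertia group of `A`.
-/

set_option autoImplicit false

open ModularCurve

noncomputable section

namespace Fermat.Agent.S34.TrivModE

open Fermat.Agent.S30

/-! ### Part A: a residually trivial coefficient action preserves the Gauss ring and `red` -/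

section PartA

variable {O E : Type*} [CommRing O] [IsDomain O] [IsDiscreteValuationRing O] [Field E]
  [Algebra O E] [FaithfulSMul O E]

omit [IsDomain O] [IsDiscreteValuationRing O] [FaithfulSMul O E] in
/-- Coefficientwise action on integral series commutes with `ι`. -/
theorem coeffMap_iota (σO : O →+* O) (σE : E →+* E)
    (hσ : ∀ a : O, σE (algebraMap O E a) = algebraMap O E (σO a)) (a : LaurentSeries O) :
    coeffMap σE (GaussDVR.iota O E a) = GaussDVR.iota O E (coeffMap σO a) := by
  ext k
  simp only [coeffMap_coeff]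
  exact hσ _

/-- A residually trivial action does not change the reduction of an integral series. -/
theorem rho_coeffMap (σO : O →+* O)
    (hres : ∀ a : O, IsLocalRing.residue O (σO a) = IsLocalRing.residue O a)
    (a : LaurentSeries O) : GaussDVR.rho O (coeffMap σO a) = GaussDVR.rho O a := by
  ext k
  simp only [coeffMap_coeff]
  exact hres _

/-- The Gauss ring is stable under a coefficientwise action that is residually trivial. -/
theorem coeffMap_mem_V (σO : O →+* O)
    (hres : ∀ a : O, IsLocalRing.residue O (σO a) = IsLocalRing.residue O a)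
    (σE : E →+* E) (hσ : ∀ a : O, σE (algebraMap O E a) = algebraMap O E (σO a))
    {x : LaurentSeries E} (hx : x ∈ GaussDVR.V O E) : coeffMap σE x ∈ GaussDVR.V O E := by
  obtain ⟨a, b, hb, h⟩ := (GaussDVR.mem_V O E).mp hx
  refine (GaussDVR.mem_V O E).mpr ⟨coeffMap σO a, coeffMap σO b, ?_, ?_⟩
  · rw [rho_coeffMap σO hres]; exact hb
  · rw [← coeffMap_iota σO σE hσ, ← coeffMap_iota σO σE hσ, ← map_mul, h]

/-- A residually trivial coefficientwise action is the identity after reduction. -/
theorem red_coeffMap (σO : O →+* O)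
    (hres : ∀ a : O, IsLocalRing.residue O (σO a) = IsLocalRing.residue O a)
    (σE : E →+* E) (hσ : ∀ a : O, σE (algebraMap O E a) = algebraMap O E (σO a))
    {x : LaurentSeries E} (hx : x ∈ GaussDVR.V O E) :
    GaussDVR.red O E ⟨coeffMap σE x, coeffMap_mem_V σO hres σE hσ hx⟩
      = GaussDVR.red O E ⟨x, hx⟩ := by
  obtain ⟨a, b, hb, h⟩ := (GaussDVR.mem_V O E).mp hx
  have hb' : GaussDVR.rho O (coeffMap σO b) ≠ 0 := by rw [rho_coeffMap σO hres]; exact hb
  have h' : coeffMap σE x * GaussDVR.iota O E (coeffMap σO b)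
      = GaussDVR.iota O E (coeffMap σO a) := by
    rw [← coeffMap_iota σO σE hσ, ← coeffMap_iota σO σE hσ, ← map_mul, h]
  rw [GaussDVR.red_eq O E ⟨coeffMap σE x, _⟩ (coeffMap σO a) (coeffMap σO b) hb' h',
    GaussDVR.red_eq O E ⟨x, hx⟩ a b hb h, rho_coeffMap σO hres, rho_coeffMap σO hres]

end PartA

/-! ### Part B: the generic statement -/

section PartB

variable {O E : Type*} [CommRing O] [IsDomain O] [IsDiscreteValuationRing O] [Field E]
  [Algebra O E] [FaithfulSMul O E]

/-- A ring endomorphism stabilising a subalgebra preserves integrality over it. -/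
theorem isIntegral_map_of_stable {O L : Type*} [CommRing O] [CommRing L] [Algebra O L]
    (D : Subalgebra O L) (τ : L →+* L) (hτD : ∀ d : L, d ∈ D → τ d ∈ D) {b : L}
    (hb : IsIntegral D b) : IsIntegral D (τ b) := by
  obtain ⟨p, hp, hroot⟩ := hb
  let τD : D →+* D := (τ.comp (algebraMap D L)).codRestrict D (fun d => hτD _ d.2)
  refine ⟨p.map τD, hp.map _, ?_⟩
  rw [Polynomial.eval₂_map]
  have h1 : (algebraMap D L).comp τD = τ.comp (algebraMap D L) := RingHom.ext fun d => rfl
  rw [h1, ← Polynomial.hom_eval₂, hroot, map_zero]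

/-- Elements integral over a subalgebra of the Gauss ring lie in the Gauss ring. -/
theorem mem_V_of_isIntegral (L : IntermediateField E (LaurentSeries E)) [Algebra O L]
    (hfrac : ∀ x : L, (x : LaurentSeries E) ∈ GaussDVR.fracField O E)
    (π : O) (hπ : Irreducible π)
    (D : Subalgebra O L) (hDV : ∀ d : L, d ∈ D → (d : LaurentSeries E) ∈ GaussDVR.V O E)
    {b : L} (hb : IsIntegral D b) : (b : LaurentSeries E) ∈ GaussDVR.V O E := by
  obtain ⟨p, hp, hroot⟩ := hb
  let φ : D →+* LaurentSeries E := (L.val : L →+* LaurentSeries E).comp (algebraMap D L)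
  refine GaussDVR.mem_of_isIntegralElem E π hπ φ (fun d => hDV _ d.2) _ (hfrac b) ⟨p, hp, ?_⟩
  have h1 := Polynomial.hom_eval₂ p (algebraMap D L) (L.val : L →+* LaurentSeries E) b
  rw [hroot, map_zero] at h1
  exact h1.symm

/-- **`TrivMod`, generic form.**  `τ` acts coefficientwise and residually trivially, `W` commutes
with `τ` and preserves the chart ring, and the chart ring is saturated for the two Gauss
valuations `red`, `red ∘ W`.  Then `τ` is the identity modulo `π` on the chart ring. -/
theorem trivMod_of_sat (L : IntermediateField E (LaurentSeries E)) [Algebra O L]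
    (hfrac : ∀ x : L, (x : LaurentSeries E) ∈ GaussDVR.fracField O E)
    (π : O) (hπ : Irreducible π)
    (D : Subalgebra O L) (hDV : ∀ d : L, d ∈ D → (d : LaurentSeries E) ∈ GaussDVR.V O E)
    (σO : O →+* O) (hres : ∀ a : O, IsLocalRing.residue O (σO a) = IsLocalRing.residue O a)
    (σE : E →+* E) (hσ : ∀ a : O, σE (algebraMap O E a) = algebraMap O E (σO a))
    (τ : L ≃+* L)
    (hτ : ∀ x : L, ((τ x : L) : LaurentSeries E) = coeffMap σE (x : LaurentSeries E))
    (hτD : ∀ d : L, d ∈ D → τ d ∈ D)
    (W : L ≃+* L) (hWτ : ∀ x : L, W (τ x) = τ (W x))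
    (hWint : ∀ b : L, IsIntegral D b → IsIntegral D (W b))
    (hsat : ∀ (x : L) (hx : (x : LaurentSeries E) ∈ GaussDVR.V O E)
      (hWx : ((W x : L) : LaurentSeries E) ∈ GaussDVR.V O E), IsIntegral D x →
      GaussDVR.red O E ⟨_, hx⟩ = 0 → GaussDVR.red O E ⟨_, hWx⟩ = 0 →
      ∃ c : L, IsIntegral D c ∧ x = algebraMap O L π * c) :
    ∀ b : L, IsIntegral D b → ∃ c : L, IsIntegral D c ∧ τ b - b = algebraMap O L π * c := by
  intro b hb
  -- the four Gauss-integral elements `b`, `τ b`, `W b`, `τ (W b)`
  have hτint : ∀ y : L, IsIntegral D y → IsIntegral D (τ y) := fun y hy =>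
    isIntegral_map_of_stable D (τ : L →+* L) hτD hy
  have hV : ∀ y : L, IsIntegral D y → (y : LaurentSeries E) ∈ GaussDVR.V O E := fun y hy =>
    mem_V_of_isIntegral L hfrac π hπ D hDV hy
  -- `red (τ y) = red y` on the chart ring
  have hredτ : ∀ (y : L) (hy : IsIntegral D y),
      GaussDVR.red O E ⟨((τ y : L) : LaurentSeries E), hV _ (hτint y hy)⟩
        = GaussDVR.red O E ⟨(y : LaurentSeries E), hV y hy⟩ := by
    intro y hy
    have h1 := red_coeffMap σO hres σE hσ (hV y hy)
    rw [← h1]
    congr 1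
    exact Subtype.ext (hτ y)
  have hx_int : IsIntegral D (τ b - b) := (hτint b hb).sub hb
  have hWx_eq : W (τ b - b) = τ (W b) - W b := by rw [map_sub, hWτ]
  have hWb : IsIntegral D (W b) := hWint b hb
  have hx : ((τ b - b : L) : LaurentSeries E) ∈ GaussDVR.V O E := hV _ hx_int
  have hWx : ((W (τ b - b) : L) : LaurentSeries E) ∈ GaussDVR.V O E := hV _ (hWint _ hx_int)
  refine hsat (τ b - b) hx hWx hx_int ?_ ?_
  · have h2 : (⟨((τ b - b : L) : LaurentSeries E), hx⟩ : GaussDVR.V O E)
        = ⟨((τ b : L) : LaurentSeries E), hV _ (hτint b hb)⟩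
          - ⟨(b : LaurentSeries E), hV b hb⟩ := Subtype.ext rfl
    rw [h2, map_sub, hredτ b hb, sub_self]
  · have h2 : (⟨((W (τ b - b) : L) : LaurentSeries E), hWx⟩ : GaussDVR.V O E)
        = ⟨((τ (W b) : L) : LaurentSeries E), hV _ (hτint _ hWb)⟩
          - ⟨((W b : L) : LaurentSeries E), hV _ hWb⟩ := by
      apply Subtype.ext
      show ((W (τ b - b) : L) : LaurentSeries E) = _
      rw [hWx_eq]
      rfl
    rw [h2, map_sub, hredτ _ hWb, sub_self]

end PartB

/-! ### Part B′: the chart rings `D = O[S]` -/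

section Adjoin

variable {O E : Type*} [CommRing O] [IsDomain O] [IsDiscreteValuationRing O] [Field E]
  [Algebra O E] [FaithfulSMul O E]

/-- The image of a constant of `O` in `L ⊆ E((q))` is the constant series. -/
theorem coe_algebraMap_OL (L : IntermediateField E (LaurentSeries E)) [Algebra O L]
    [IsScalarTower O E L] (a : O) :
    ((algebraMap O L a : L) : LaurentSeries E) = GaussDVR.iota O E (HahnSeries.C a) := by
  rw [IsScalarTower.algebraMap_apply O E L, GaussDVR.iota_C, HahnSeries.C_apply,
    ← algebraMap_laurentSeries_eq_single]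
  rfl

/-- `O[S] ⊆ V` if `S ⊆ V`. -/
theorem adjoin_le_V (L : IntermediateField E (LaurentSeries E)) [Algebra O L]
    [IsScalarTower O E L] (S : Set L)
    (hSV : ∀ s ∈ S, ((s : L) : LaurentSeries E) ∈ GaussDVR.V O E) :
    ∀ d : L, d ∈ Algebra.adjoin O S → (d : LaurentSeries E) ∈ GaussDVR.V O E := by
  intro d hd
  induction hd using Algebra.adjoin_induction with
  | mem x hx => exact hSV x hx
  | algebraMap a =>
      rw [coe_algebraMap_OL]
      exact GaussDVR.mem_of_int O E _
  | add x y _ _ hx hy => exact (GaussDVR.V O E).add_mem hx hy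
  | mul x y _ _ hx hy => exact (GaussDVR.V O E).mul_mem hx hy

/-- A coefficientwise automorphism maps constants of `O` to constants of `O`. -/
theorem map_algebraMap_OL (L : IntermediateField E (LaurentSeries E)) [Algebra O L]
    [IsScalarTower O E L] (σO : O →+* O) (σE : E →+* E)
    (hσ : ∀ a : O, σE (algebraMap O E a) = algebraMap O E (σO a)) (τ : L ≃+* L)
    (hτ : ∀ x : L, ((τ x : L) : LaurentSeries E) = coeffMap σE (x : LaurentSeries E)) (a : O) :
    τ (algebraMap O L a) = algebraMap O L (σO a) := by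
  apply Subtype.ext
  rw [hτ, coe_algebraMap_OL, coe_algebraMap_OL, coeffMap_iota σO σE hσ]
  congr 1
  rw [HahnSeries.C_apply, coeffMap_single, HahnSeries.C_apply]

/-- `O[S]` is stable under a coefficientwise automorphism fixing `S`. -/
theorem adjoin_stable (L : IntermediateField E (LaurentSeries E)) [Algebra O L]
    [IsScalarTower O E L] (σO : O →+* O) (σE : E →+* E)
    (hσ : ∀ a : O, σE (algebraMap O E a) = algebraMap O E (σO a)) (τ : L ≃+* L)
    (hτ : ∀ x : L, ((τ x : L) : LaurentSeries E) = coeffMap σE (x : LaurentSeries E))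
    (S : Set L) (hτS : ∀ s ∈ S, τ s = s) :
    ∀ d : L, d ∈ Algebra.adjoin O S → τ d ∈ Algebra.adjoin O S := by
  intro d hd
  induction hd using Algebra.adjoin_induction with
  | mem x hx => rw [hτS x hx]; exact Algebra.subset_adjoin hx
  | algebraMap a =>
      rw [map_algebraMap_OL L σO σE hσ τ hτ]
      exact Subalgebra.algebraMap_mem _ _
  | add x y _ _ hx hy => rw [map_add]; exact Subalgebra.add_mem _ hx hy
  | mul x y _ _ hx hy => rw [map_mul]; exact Subalgebra.mul_mem _ hx hy

omit [IsDomain O] [IsDiscreteValuationRing O] in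
/-- `O[S]` is fixed pointwise by a ring automorphism fixing `O` and `S`. -/
theorem adjoin_fixed {L : Type*} [CommRing L] [Algebra O L] (W : L ≃+* L)
    (hWO : ∀ a : O, W (algebraMap O L a) = algebraMap O L a) (S : Set L)
    (hWS : ∀ s ∈ S, W s = s) : ∀ d : L, d ∈ Algebra.adjoin O S → W d = d := by
  intro d hd
  induction hd using Algebra.adjoin_induction with
  | mem x hx => exact hWS x hx
  | algebraMap a => exact hWO a
  | add x y _ _ hx hy => rw [map_add, hx, hy]
  | mul x y _ _ hx hy => rw [map_mul, hx, hy]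

/-- **`TrivMod` for a chart ring `O[S]`** (`S = {u}`, `{u⁻¹}`, `{u, u⁻¹}`): `τ` coefficientwise,
residually trivial, fixing `S`; `W` an `O`-linear automorphism fixing `S` and commuting with
`τ`; `(SAT)` for the integral closure of `O[S]`. -/
theorem trivMod_adjoin (L : IntermediateField E (LaurentSeries E)) [Algebra O L]
    [IsScalarTower O E L]
    (hfrac : ∀ x : L, (x : LaurentSeries E) ∈ GaussDVR.fracField O E)
    (π : O) (hπ : Irreducible π)
    (S : Set L) (hSV : ∀ s ∈ S, ((s : L) : LaurentSeries E) ∈ GaussDVR.V O E)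
    (σO : O →+* O) (hres : ∀ a : O, IsLocalRing.residue O (σO a) = IsLocalRing.residue O a)
    (σE : E →+* E) (hσ : ∀ a : O, σE (algebraMap O E a) = algebraMap O E (σO a))
    (τ : L ≃+* L)
    (hτ : ∀ x : L, ((τ x : L) : LaurentSeries E) = coeffMap σE (x : LaurentSeries E))
    (hτS : ∀ s ∈ S, τ s = s)
    (W : L ≃+* L) (hWτ : ∀ x : L, W (τ x) = τ (W x))
    (hWO : ∀ a : O, W (algebraMap O L a) = algebraMap O L a) (hWS : ∀ s ∈ S, W s = s)
    (hsat : ∀ (x : L) (hx : (x : LaurentSeries E) ∈ GaussDVR.V O E)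
      (hWx : ((W x : L) : LaurentSeries E) ∈ GaussDVR.V O E), IsIntegral (Algebra.adjoin O S) x →
      GaussDVR.red O E ⟨_, hx⟩ = 0 → GaussDVR.red O E ⟨_, hWx⟩ = 0 →
      ∃ c : L, IsIntegral (Algebra.adjoin O S) c ∧ x = algebraMap O L π * c) :
    ∀ b : L, IsIntegral (Algebra.adjoin O S) b →
      ∃ c : L, IsIntegral (Algebra.adjoin O S) c ∧ τ b - b = algebraMap O L π * c :=
  trivMod_of_sat L hfrac π hπ (Algebra.adjoin O S) (adjoin_le_V L S hSV) σO hres σE hσ τ hτ
    (adjoin_stable L σO σE hσ τ hτ S hτS) W hWτ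
    (fun _ hb => isIntegral_map_of_stable (Algebra.adjoin O S) (W : L →+* L)
      (fun d hd => by
        have h := adjoin_fixed W hWO S hWS d hd
        show W d ∈ Algebra.adjoin O S
        rw [h]; exact hd) hb)
    hsat

end Adjoin

/-! ### Part C: inertia at a number field `E ⊆ ℚ̄` normal over `ℚ` -/

section PartC

open Fermat.Agent.S18.K1Defs Fermat.Agent.S18.K1Top

local notation "Qb" => AlgebraicClosure ℚ
local notation "Gq" => (AlgebraicClosure ℚ ≃ₐ[ℚ] AlgebraicClosure ℚ)

variable (A : ValuationSubring Qb) (E : IntermediateField ℚ Qb) [Normal ℚ E]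

/-- The restriction to `O_E = A ∩ E` of an element of the decomposition group of `A`. -/
def sOE (τ : A.decompositionSubgroup ℚ) : OE A E →+* OE A E :=
  ((((τ : Gq).restrictNormal E : E ≃ₐ[ℚ] E) : E →+* E).comp (OE A E).subtype).codRestrict
    (OE A E) (fun x => by
      show algebraMap E Qb ((τ : Gq).restrictNormal E (x : E)) ∈ A
      rw [AlgEquiv.restrictNormal_commutes]
      exact (Congr.sA A τ (inclOA A E x)).2)

theorem coe_sOE (τ : A.decompositionSubgroup ℚ) (x : OE A E) :
    ((sOE A E τ x : OE A E) : E) = (τ : Gq).restrictNormal E (x : E) := rfl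

theorem inclOA_sOE (τ : A.decompositionSubgroup ℚ) (x : OE A E) :
    inclOA A E (sOE A E τ x) = Congr.sA A τ (inclOA A E x) := by
  apply Subtype.ext
  show algebraMap E Qb ((τ : Gq).restrictNormal E (x : E)) = (τ : Gq) (algebraMap E Qb (x : E))
  exact AlgEquiv.restrictNormal_commutes _ _ _

/-- Inertia acts trivially on the residue field of `O_E`. -/
theorem residue_sOE_inertia (τ : A.decompositionSubgroup ℚ) (hτ : τ ∈ A.inertiaSubgroup ℚ)
    (x : OE A E) :
    IsLocalRing.residue (OE A E) (sOE A E τ x) = IsLocalRing.residue (OE A E) x := by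
  rw [← sub_eq_zero, ← map_sub, ← residue_inclOA_eq_zero_iff, map_sub, inclOA_sOE, map_sub,
    Congr.residue_sA_inertia A τ hτ, sub_self]

theorem restrictNormal_algebraMap_OE (τ : A.decompositionSubgroup ℚ) (a : OE A E) :
    (((τ : Gq).restrictNormal E : E ≃ₐ[ℚ] E) : E →+* E) (algebraMap (OE A E) E a)
      = algebraMap (OE A E) E (sOE A E τ a) := rfl

/-- The coefficientwise action of `τ|_E` on the level-`N` function field over `E`. -/
def galE (N : ℕ) (τ : Gq) : LE N E ≃+* LE N E :=
  arithmeticRingAut (modularFunctionFieldFull N) (τ.restrictNormal E)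

theorem coe_galE (N : ℕ) (τ : Gq) (x : LE N E) :
    ((galE E N τ x : LE N E) : LaurentSeries E)
      = coeffMap ((τ.restrictNormal E : E ≃ₐ[ℚ] E) : E →+* E) (x : LaurentSeries E) := rfl

/-- The action of `τ|_E` is compatible with the action of `τ` over `ℚ̄`. -/
theorem up_galE (N : ℕ) (τ : Gq) (x : LE N E) :
    GaussDescent.up E ((galE E N τ x : LE N E) : LaurentSeries E)
      = coeffMap ((τ : Qb ≃ₐ[ℚ] Qb) : Qb →+* Qb) (GaussDescent.up E (x : LaurentSeries E)) := by
  rw [coe_galE]
  show coeffMap (algebraMap E Qb) (coeffMap _ _) = coeffMap _ (coeffMap (algebraMap E Qb) _)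
  rw [coeffMap_coeffMap, coeffMap_coeffMap]
  refine coeffMap_congr (RingHom.ext fun c => ?_) _
  exact AlgEquiv.restrictNormal_commutes τ E c

variable [IsDiscreteValuationRing (OE A E)]

omit [Normal ℚ E] in
/-- Elements of the level-`N` function field over `E` are fractions of `O_E`-integral series. -/
theorem mem_fracField_LE (N : ℕ) [NeZero N] (x : LE N E) :
    (x : LaurentSeries E) ∈ GaussDVR.fracField (OE A E) E :=
  GaussDescent.mem_fracField_of_mem_laurentBaseChange A E (modularFunctionFieldFull N)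
    (GaussDescent.intFrac_of_mem_full N) x.2

/-- **`TrivMod` for inertia, chart ring `O_E[S]`.**  `τ` in the inertia group of `A`, acting
coefficientwise on `L = LE N E`; `S ⊆ L ∩ V` fixed by `τ` (e.g. `S = {u*}`, `u* = j + W j`, which
has rational coefficients); `W` an `O_E`-linear automorphism of `L` fixing `S` and commuting
with the Galois action; `(SAT)`.  Conclusion: `τ b - b ∈ π B` for every `b` in the chart ring
`B` = integral closure of `O_E[S]` in `L`. -/
theorem trivMod_inertia (N : ℕ) [NeZero N] [Algebra (OE A E) (LE N E)]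
    [IsScalarTower (OE A E) E (LE N E)] (π : OE A E) (hπ : Irreducible π)
    {τ : Gq} (hτ : τ ∈ A.inertiaSubgroupIn ℚ)
    (S : Set (LE N E))
    (hSV : ∀ s ∈ S, ((s : LE N E) : LaurentSeries E) ∈ GaussDVR.V (OE A E) E)
    (hτS : ∀ s ∈ S, galE E N τ s = s)
    (W : LE N E ≃+* LE N E) (hWτ : ∀ x : LE N E, W (galE E N τ x) = galE E N τ (W x))
    (hWO : ∀ a : OE A E, W (algebraMap (OE A E) (LE N E) a) = algebraMap (OE A E) (LE N E) a)
    (hWS : ∀ s ∈ S, W s = s)
    (hsat : ∀ (x : LE N E) (hx : (x : LaurentSeries E) ∈ GaussDVR.V (OE A E) E)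
      (hWx : ((W x : LE N E) : LaurentSeries E) ∈ GaussDVR.V (OE A E) E),
      IsIntegral (Algebra.adjoin (OE A E) S) x →
      GaussDVR.red (OE A E) E ⟨_, hx⟩ = 0 → GaussDVR.red (OE A E) E ⟨_, hWx⟩ = 0 →
      ∃ c : LE N E, IsIntegral (Algebra.adjoin (OE A E) S) c ∧
        x = algebraMap (OE A E) (LE N E) π * c) :
    ∀ b : LE N E, IsIntegral (Algebra.adjoin (OE A E) S) b →
      ∃ c : LE N E, IsIntegral (Algebra.adjoin (OE A E) S) c ∧
        galE E N τ b - b = algebraMap (OE A E) (LE N E) π * c := by
  obtain ⟨τ', hτ', rfl⟩ := hτ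
  exact trivMod_adjoin (LE N E) (mem_fracField_LE A E N) π hπ S hSV (sOE A E τ')
    (residue_sOE_inertia A E τ' hτ')
    ((((τ' : Gq).restrictNormal E : E ≃ₐ[ℚ] E) : E →+* E))
    (restrictNormal_algebraMap_OE A E τ') (galE E N (τ' : Gq)) (coe_galE E N (τ' : Gq)) hτS W hWτ
    hWO hWS hsat

end PartC

end Fermat.Agent.S34.TrivModE
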