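import Mathlib
import Fermat.Agent.S30.Model.CechP1

/-!
# S34, step (ii): inertia acts trivially on classes with an invertible `m`-th root divisor

Abstract commutative algebra; no nodes, no graphs, no discriminants, no localisation types.

`O` a DVR with uniformiser `π`, `F` a field over `O`, `u : F`; the chart rings are the integral
closures of `O[u]`, `O[u⁻¹]` in `F`.  `τ : F ≃+* F` fixes `u`, preserves `O` and is the identity
modulo `π` on both chart rings (`TrivMod`).  `h : F` is such that `(1/m) div h` is an invertible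
divisor on both charts, in the elementwise form of a partition of unity (`CartierRoot`).  Then
`τ h / h` is an `m`-th power in `F` (`mem_range_of_cartierRoot`), provided the Kummer extension
`L = F(θ)`, `θ ^ m = τ h / h`, has `O` integrally closed in it and a finite chart ring (the
hypotheses of `CechP1.connected`).
-/

set_option autoImplicit false

namespace Fermat.Agent.S34.ToricInertia

open Polynomial Finset
open Fermat.Agent.S30.Model.CechP1

/-! ### Averaging idempotents -/

section Avg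

variable {R : Type*} [CommRing R]

/-- `m' * ∑_{j < m} t ^ j`: for `m' = 1 / m` and `t ^ m = 1` the idempotent of the locus `t = 1`. -/
def avg (m : ℕ) (m' t : R) : R := m' * ∑ j ∈ range m, t ^ j

theorem avg_mul_sub_one (m : ℕ) (m' t : R) : avg m m' t * (t - 1) = m' * (t ^ m - 1) := by
  unfold avg
  rw [mul_assoc, geom_sum_mul]

theorem avg_mul_pow (m : ℕ) (m' t : R) (j : ℕ) :
    avg m m' t * t ^ j = avg m m' t + m' * (t ^ m - 1) * ∑ i ∈ range j, t ^ i := by
  have h : avg m m' t * (t ^ j - 1) = m' * (t ^ m - 1) * ∑ i ∈ range j, t ^ i := by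
    rw [← geom_sum_mul t j]
    linear_combination (∑ i ∈ range j, t ^ i) * avg_mul_sub_one m m' t
  linear_combination h

theorem avg_sq_sub (m : ℕ) (m' t : R) (hm : m' * (m : R) = 1) :
    avg m m' t ^ 2 - avg m m' t =
      m' ^ 2 * (t ^ m - 1) * ∑ j ∈ range m, ∑ i ∈ range j, t ^ i := by
  have h2 : avg m m' t ^ 2 = m' * ∑ j ∈ range m, avg m m' t * t ^ j := by
    rw [← mul_sum, sq]
    unfold avg
    ring
  rw [h2]
  simp_rw [avg_mul_pow]
  rw [sum_add_distrib, sum_const, card_range, ← mul_sum, nsmul_eq_mul]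
  linear_combination (avg m m' t) * hm

/-- The idempotents of the loci `t = z ^ (-a)` sum to one. -/
theorem sum_avg (m : ℕ) (hm0 : 0 < m) (m' z t : R) (hm : m' * (m : R) = 1)
    (hz : ∀ j : ℕ, 0 < j → j < m → ∑ a ∈ range m, (z ^ a) ^ j = 0) :
    ∑ a ∈ range m, avg m m' (z ^ a * t) = 1 := by
  unfold avg
  rw [← mul_sum, sum_comm]
  have h1 : ∀ j ∈ range m, ∑ a ∈ range m, (z ^ a * t) ^ j = if j = 0 then (m : R) else 0 := by
    intro j hj
    simp_rw [mul_pow]
    rw [← sum_mul]
    by_cases hj0 : j = 0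
    · subst hj0
      simp
    · rw [if_neg hj0, hz j (Nat.pos_of_ne_zero hj0) (mem_range.mp hj), zero_mul]
  rw [sum_congr rfl h1, sum_ite_eq' (range m) 0 (fun _ => (m : R)), if_pos (mem_range.mpr hm0)]
  exact hm

end Avg

/-- In a domain, the powers of a primitive `m`-th root of unity have vanishing power sums. -/
theorem sum_pow_pow_eq_zero {O : Type*} [CommRing O] [IsDomain O] {m : ℕ} {ζ : O}
    (hζ : IsPrimitiveRoot ζ m) (j : ℕ) (hj0 : 0 < j) (hjm : j < m) :
    ∑ a ∈ range m, (ζ ^ a) ^ j = 0 := by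
  have hne : ζ ^ j ≠ 1 := hζ.pow_ne_one_of_pos_of_lt (Nat.pos_iff_ne_zero.mp hj0) hjm
  have h1 : (∑ a ∈ range m, (ζ ^ j) ^ a) * (ζ ^ j - 1) = 0 := by
    rw [geom_sum_mul, ← pow_mul, mul_comm, pow_mul, hζ.pow_eq_one, one_pow, sub_self]
  have h2 : ∑ a ∈ range m, (ζ ^ j) ^ a = 0 :=
    (mul_eq_zero.mp h1).resolve_right (sub_ne_zero.mpr hne)
  rw [← h2]
  refine sum_congr rfl fun a _ => ?_
  rw [← pow_mul, ← pow_mul, mul_comm]


/-! ### The connectedness core (everything inside one field `L`) -/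

section Core

variable {O L : Type*} [CommRing O] [Field L] [Algebra O L]

/-- `π⁻¹` is not integral over both charts. -/
theorem false_of_one_eq (π : O) (hπ : Prime π) (hinj : Function.Injective (algebraMap O L))
    (hOL : ∀ x : L, IsIntegral O x → ∃ a : O, algebraMap O L a = x) (u : L) (hu : u ≠ 0)
    {w0 winf : L} (hw0 : w0 ∈ chart O ({u} : Set L)) (hwinf : winf ∈ chart O ({u⁻¹} : Set L))
    (h0 : (1 : L) = algebraMap O L π * w0) (hinf : (1 : L) = algebraMap O L π * winf) :
    False := by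
  have hπL : algebraMap O L π ≠ 0 := fun h => hπ.ne_zero (hinj (by rw [h, map_zero]))
  have heq : w0 = winf := mul_left_cancel₀ hπL (h0.symm.trans hinf)
  subst heq
  obtain ⟨a, ha⟩ := hOL w0 (isIntegral_of_two_charts u hu w0 hw0 hwinf)
  have h1 : algebraMap O L (π * a) = algebraMap O L 1 := by rw [map_mul, ha, ← h0, map_one]
  exact hπ.not_isUnit (IsUnit.of_mul_eq_one _ (hinj h1))

/-- **Connectedness core.**  Two chart elements `t0`, `tinf` which are `m`-th roots of unity
modulo `π` and agree modulo `π` on the overlap are congruent to one and the same root of unity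
`z ^ (-a)` on both charts. -/
theorem exists_pow_mul_sub_one [IsNoetherianRing O] (π : O) (hπ : Prime π)
    (hinj : Function.Injective (algebraMap O L))
    (hOL : ∀ x : L, IsIntegral O x → ∃ a : O, algebraMap O L a = x)
    (u : L) (hu : u ≠ 0)
    (hfin : ∃ s : Finset L, (∀ β ∈ s, IsIntegral (Algebra.adjoin O {u}) β) ∧
      ∀ x : L, IsIntegral (Algebra.adjoin O {u}) x →
        ∃ f : L → O[X], x = ∑ β ∈ s, aeval u (f β) * β)
    (m : ℕ) (hm0 : 0 < m) (m' z : O) (hm : m' * (m : O) = 1) (hzm : z ^ m = 1)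
    (hz : ∀ j : ℕ, 0 < j → j < m → ∑ a ∈ range m, (z ^ a) ^ j = 0)
    (t0 tinf a0 ainf w : L)
    (ht0 : t0 ∈ chart O ({u} : Set L)) (htinf : tinf ∈ chart O ({u⁻¹} : Set L))
    (ha0 : a0 ∈ chart O ({u} : Set L)) (hainf : ainf ∈ chart O ({u⁻¹} : Set L))
    (hw : w ∈ chart O ({u, u⁻¹} : Set L))
    (h0 : t0 ^ m = 1 + algebraMap O L π * a0) (hinf : tinf ^ m = 1 + algebraMap O L π * ainf)
    (h0inf : t0 - tinf = algebraMap O L π * w) :
    ∃ a ∈ range m, ∃ c0 ∈ chart O ({u} : Set L), ∃ cinf ∈ chart O ({u⁻¹} : Set L),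
      algebraMap O L z ^ a * t0 - 1 = algebraMap O L π * c0 ∧
      algebraMap O L z ^ a * tinf - 1 = algebraMap O L π * cinf := by
  classical
  set P : L := algebraMap O L π with hP
  set M' : L := algebraMap O L m' with hM'
  set Z : L := algebraMap O L z with hZ
  have hmL : M' * (m : L) = 1 := by
    rw [hM', ← map_natCast (algebraMap O L), ← map_mul, hm, map_one]
  have hZm : Z ^ m = 1 := by rw [hZ, ← map_pow, hzm, map_one]
  have hzL : ∀ j : ℕ, 0 < j → j < m → ∑ a ∈ range m, (Z ^ a) ^ j = 0 := by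
    intro j hj0 hjm
    have := congrArg (algebraMap O L) (hz j hj0 hjm)
    simpa [hZ, map_sum, map_pow] using this
  have hle0 : chart O ({u} : Set L) ≤ chart O ({u, u⁻¹} : Set L) := chart_mono (by simp)
  have hleinf : chart O ({u⁻¹} : Set L) ≤ chart O ({u, u⁻¹} : Set L) := chart_mono (by simp)
  -- membership helpers
  have hx0 : ∀ a : ℕ, Z ^ a * t0 ∈ chart O ({u} : Set L) := fun a =>
    Subalgebra.mul_mem _ (Subalgebra.pow_mem _ (Subalgebra.algebraMap_mem _ z) a) ht0
  have hxinf : ∀ a : ℕ, Z ^ a * tinf ∈ chart O ({u⁻¹} : Set L) := fun a =>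
    Subalgebra.mul_mem _ (Subalgebra.pow_mem _ (Subalgebra.algebraMap_mem _ z) a) htinf
  have hxm0 : ∀ a : ℕ, (Z ^ a * t0) ^ m - 1 = P * a0 := by
    intro a
    rw [mul_pow, ← pow_mul, mul_comm a m, pow_mul, hZm, one_pow, one_mul, h0]; ring
  have hxminf : ∀ a : ℕ, (Z ^ a * tinf) ^ m - 1 = P * ainf := by
    intro a
    rw [mul_pow, ← pow_mul, mul_comm a m, pow_mul, hZm, one_pow, one_mul, hinf]; ring
  have havg0 : ∀ a : ℕ, avg m M' (Z ^ a * t0) ∈ chart O ({u} : Set L) := fun a =>
    Subalgebra.mul_mem _ (Subalgebra.algebraMap_mem _ m')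
      (Subalgebra.sum_mem _ fun j _ => Subalgebra.pow_mem _ (hx0 a) j)
  have havginf : ∀ a : ℕ, avg m M' (Z ^ a * tinf) ∈ chart O ({u⁻¹} : Set L) := fun a =>
    Subalgebra.mul_mem _ (Subalgebra.algebraMap_mem _ m')
      (Subalgebra.sum_mem _ fun j _ => Subalgebra.pow_mem _ (hxinf a) j)
  -- the dichotomy for each `a`
  have hdich : ∀ a : ℕ,
      ((∃ w, IsIntegral (Algebra.adjoin O {u}) w ∧ avg m M' (Z ^ a * t0) = P * w) ∧
        (∃ w, IsIntegral (Algebra.adjoin O {u⁻¹}) w ∧ avg m M' (Z ^ a * tinf) = P * w)) ∨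
      ((∃ w, IsIntegral (Algebra.adjoin O {u}) w ∧ avg m M' (Z ^ a * t0) - 1 = P * w) ∧
        (∃ w, IsIntegral (Algebra.adjoin O {u⁻¹}) w ∧
          avg m M' (Z ^ a * tinf) - 1 = P * w)) := by
    intro a
    refine connected π hπ hinj hOL u hu hfin _ _ (havg0 a) (havginf a) ?_ ?_ ?_
    · refine ⟨M' ^ 2 * a0 * ∑ j ∈ range m, ∑ i ∈ range j, (Z ^ a * t0) ^ i, ?_, ?_⟩
      · exact Subalgebra.mul_mem _ (Subalgebra.mul_mem _
          (Subalgebra.pow_mem _ (Subalgebra.algebraMap_mem _ m') 2) ha0)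
          (Subalgebra.sum_mem _ fun j _ => Subalgebra.sum_mem _ fun i _ =>
            Subalgebra.pow_mem _ (hx0 a) i)
      · rw [avg_sq_sub m M' _ hmL, hxm0 a]; ring
    · refine ⟨M' ^ 2 * ainf * ∑ j ∈ range m, ∑ i ∈ range j, (Z ^ a * tinf) ^ i, ?_, ?_⟩
      · exact Subalgebra.mul_mem _ (Subalgebra.mul_mem _
          (Subalgebra.pow_mem _ (Subalgebra.algebraMap_mem _ m') 2) hainf)
          (Subalgebra.sum_mem _ fun j _ => Subalgebra.sum_mem _ fun i _ =>
            Subalgebra.pow_mem _ (hxinf a) i)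
      · rw [avg_sq_sub m M' _ hmL, hxminf a]; ring
    · refine ⟨M' * ∑ j ∈ range m, Z ^ a * w *
          ∑ i ∈ range j, (Z ^ a * t0) ^ i * (Z ^ a * tinf) ^ (j - 1 - i), ?_, ?_⟩
      · refine Subalgebra.mul_mem _ (Subalgebra.algebraMap_mem _ m')
          (Subalgebra.sum_mem _ fun j _ => Subalgebra.mul_mem _
            (Subalgebra.mul_mem _ (Subalgebra.pow_mem _ (Subalgebra.algebraMap_mem _ z) a) hw)
            (Subalgebra.sum_mem _ fun i _ => Subalgebra.mul_mem _
              (Subalgebra.pow_mem _ (hle0 (hx0 a)) i)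
              (Subalgebra.pow_mem _ (hleinf (hxinf a)) _)))
      · unfold avg
        rw [← mul_sub, ← sum_sub_distrib]
        have hterm : ∀ j ∈ range m, (Z ^ a * t0) ^ j - (Z ^ a * tinf) ^ j =
            P * (Z ^ a * w *
              ∑ i ∈ range j, (Z ^ a * t0) ^ i * (Z ^ a * tinf) ^ (j - 1 - i)) := by
          intro j _
          have hg := (Commute.all (Z ^ a * t0) (Z ^ a * tinf)).geom_sum₂_mul j
          have hd : Z ^ a * t0 - Z ^ a * tinf = P * (Z ^ a * w) := by
            rw [← mul_sub, h0inf]; ring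
          rw [← hg, hd]; ring
        rw [sum_congr rfl hterm, ← mul_sum]; ring
  -- conclusion
  by_contra hcon
  have hfirst : ∀ a ∈ range m,
      (∃ w, IsIntegral (Algebra.adjoin O {u}) w ∧ avg m M' (Z ^ a * t0) = P * w) ∧
        (∃ w, IsIntegral (Algebra.adjoin O {u⁻¹}) w ∧ avg m M' (Z ^ a * tinf) = P * w) := by
    intro a ha
    rcases hdich a with h | ⟨⟨w0, hw0, he0⟩, ⟨winf, hwinf, heinf⟩⟩
    · exact h
    · exfalso
      apply hcon
      refine ⟨a, ha, M' * a0 - w0 * (Z ^ a * t0 - 1), ?_, M' * ainf - winf * (Z ^ a * tinf - 1),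
        ?_, ?_, ?_⟩
      · exact Subalgebra.sub_mem _ (Subalgebra.mul_mem _ (Subalgebra.algebraMap_mem _ m') ha0)
          (Subalgebra.mul_mem _ hw0 (Subalgebra.sub_mem _ (hx0 a) (Subalgebra.one_mem _)))
      · exact Subalgebra.sub_mem _ (Subalgebra.mul_mem _ (Subalgebra.algebraMap_mem _ m') hainf)
          (Subalgebra.mul_mem _ hwinf (Subalgebra.sub_mem _ (hxinf a) (Subalgebra.one_mem _)))
      · have h1 := avg_mul_sub_one m M' (Z ^ a * t0)
        rw [hxm0 a] at h1
        linear_combination h1 - (Z ^ a * t0 - 1) * he0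
      · have h1 := avg_mul_sub_one m M' (Z ^ a * tinf)
        rw [hxminf a] at h1
        linear_combination h1 - (Z ^ a * tinf - 1) * heinf
  have hf0 : ∀ a ∈ range m, ∃ w, IsIntegral (Algebra.adjoin O {u}) w ∧
      avg m M' (Z ^ a * t0) = P * w := fun a ha => (hfirst a ha).1
  have hfinf : ∀ a ∈ range m, ∃ w, IsIntegral (Algebra.adjoin O {u⁻¹}) w ∧
      avg m M' (Z ^ a * tinf) = P * w := fun a ha => (hfirst a ha).2
  choose! w0 hw0 using hf0
  choose! winf hwinf using hfinf
  have hsum0 : (1 : L) = P * ∑ a ∈ range m, w0 a := by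
    rw [mul_sum, ← sum_avg m hm0 M' Z t0 hmL hzL]
    exact sum_congr rfl fun a ha => (hw0 a ha).2
  have hsuminf : (1 : L) = P * ∑ a ∈ range m, winf a := by
    rw [mul_sum, ← sum_avg m hm0 M' Z tinf hmL hzL]
    exact sum_congr rfl fun a ha => (hwinf a ha).2
  exact false_of_one_eq π hπ hinj hOL u hu
    (Subalgebra.sum_mem _ fun a ha => (hw0 a ha).1)
    (Subalgebra.sum_mem _ fun a ha => (hwinf a ha).1) hsum0 hsuminf

end Core


/-! ### Kummer extensions are Galois -/

/-- If `L = F(θ)`, `θ ^ m = k ∈ F`, `F ∋ ζ_m`, `m ≠ 0` in `F`, and `θ ∉ F`, then some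
`F`-automorphism of `L` moves `θ`. -/
theorem exists_algEquiv_ne {F L : Type*} [Field F] [Field L] [Algebra F L] {m : ℕ}
    (hm0 : 0 < m) (hmF : (m : F) ≠ 0) {ζ : F} (hζ : IsPrimitiveRoot ζ m) {k : F} (hk : k ≠ 0)
    {θ : L} (hθ : θ ^ m = algebraMap F L k) (hgen : IntermediateField.adjoin F {θ} = ⊤)
    (hne : θ ∉ Set.range (algebraMap F L)) : ∃ σ : L ≃ₐ[F] L, σ θ ≠ θ := by
  have hne0 : (X ^ m - C k : F[X]) ≠ 0 := X_pow_sub_C_ne_zero hm0 k
  have hroot : aeval θ (X ^ m - C k : F[X]) = 0 := by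
    rw [aeval_def, eval₂_sub, eval₂_X_pow, eval₂_C, hθ, sub_self]
  have halg : IsAlgebraic F θ := ⟨X ^ m - C k, hne0, hroot⟩
  have hsplit : IsSplittingField F L (X ^ m - C k) := by
    constructor
    · rw [Polynomial.map_sub, Polynomial.map_pow, Polynomial.map_C, Polynomial.map_X]
      exact X_pow_sub_C_splits_of_isPrimitiveRoot
        (hζ.map_of_injective (algebraMap F L).injective) hθ
    · rw [eq_top_iff, ← IntermediateField.top_toSubalgebra, ← hgen,
        IntermediateField.adjoin_simple_toSubalgebra_of_isAlgebraic halg]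
      apply Algebra.adjoin_mono
      rw [Set.singleton_subset_iff, mem_rootSet_of_ne hne0]
      exact hroot
  have hsep : (X ^ m - C k : F[X]).Separable := separable_X_pow_sub_C k hmF hk
  have : IsGalois F L := IsGalois.of_separable_splitting_field hsep
  have : FiniteDimensional F L := IsSplittingField.finiteDimensional L (X ^ m - C k)
  by_contra hcon
  push Not at hcon
  exact hne ((IsGalois.mem_range_algebraMap_iff_fixed θ).mpr hcon)

/-! ### Transfer of integrality -/

section Transfer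

variable {O F L : Type*} [CommRing O] [Field F] [Algebra O F] [Field L] [Algebra F L]
  [Algebra O L] [IsScalarTower O F L]

/-- The chart rings of `F` map into the chart rings of `L`. -/
theorem map_mem_chart (t : Set F) {x : F} (hx : x ∈ chart O t) :
    algebraMap F L x ∈ chart O (algebraMap F L '' t) := by
  let φ : F →ₐ[O] L := IsScalarTower.toAlgHom O F L
  have hmap : ∀ y : Algebra.adjoin O t, (φ : F →+* L) y ∈ Algebra.adjoin O (algebraMap F L '' t) := by
    intro y
    have h1 : Algebra.adjoin O (algebraMap F L '' t) = (Algebra.adjoin O t).map φ :=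
      (AlgHom.map_adjoin φ t).symm
    rw [h1]
    exact ⟨y, y.2, rfl⟩
  let g : Algebra.adjoin O t →+* Algebra.adjoin O (algebraMap F L '' t) :=
    RingHom.codRestrict ((φ : F →+* L).comp (Algebra.adjoin O t).val.toRingHom)
      (Algebra.adjoin O (algebraMap F L '' t)) hmap
  exact IsIntegral.map_of_comp_eq g (algebraMap F L) (by ext y; rfl) hx

omit [Field L] [Algebra F L] [Algebra O L] [IsScalarTower O F L] in
/-- A ring automorphism preserving `O` and `O[t]` preserves the chart ring. -/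
theorem ringEquiv_mem_chart (τ : F ≃+* F)
    (hτO : ∀ a : O, ∃ a' : O, τ (algebraMap O F a) = algebraMap O F a') (t : Set F)
    (ht : ∀ x ∈ t, τ x ∈ Algebra.adjoin O t) {x : F} (hx : x ∈ chart O t) :
    τ x ∈ chart O t := by
  have hstab : ∀ y : F, y ∈ Algebra.adjoin O t → τ y ∈ Algebra.adjoin O t := by
    intro y hy
    induction hy using Algebra.adjoin_induction with
    | mem y hy => exact ht y hy
    | algebraMap a =>
      obtain ⟨a', ha'⟩ := hτO a
      rw [ha']
      exact Subalgebra.algebraMap_mem _ a'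
    | add y z _ _ hy hz => rw [map_add]; exact Subalgebra.add_mem _ hy hz
    | mul y z _ _ hy hz => rw [map_mul]; exact Subalgebra.mul_mem _ hy hz
  let g : Algebra.adjoin O t →+* Algebra.adjoin O t :=
    RingHom.codRestrict ((τ : F →+* F).comp (Algebra.adjoin O t).val.toRingHom)
      (Algebra.adjoin O t) (fun y => hstab y y.2)
  exact IsIntegral.map_of_comp_eq g (τ : F →+* F) (by ext y; rfl) hx

end Transfer


/-! ### The interface: `TrivMod` and `CartierRoot` -/

section FPart

variable {O F : Type*} [CommRing O] [Field F] [Algebra O F]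

/-- `τ` is the identity modulo `π` on the integral closure of `O[t]` in `F`. -/
def TrivMod (π : O) (t : Set F) (τ : F ≃+* F) : Prop :=
  ∀ b : F, IsIntegral (Algebra.adjoin O t) b →
    ∃ c : F, IsIntegral (Algebra.adjoin O t) c ∧ τ b - b = algebraMap O F π * c

/-- "`(1/m) div h` is an invertible divisor on the chart `Spec` (integral closure of `O[t]`)":
a partition of unity `∑ cᵢ c'ᵢ = 1` with `cᵢ ^ m / h` and `c'ᵢ ^ m * h` integral over `O[t]`. -/
def CartierRoot (O : Type*) {F : Type*} [CommRing O] [Field F] [Algebra O F] (t : Set F)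
    (m : ℕ) (h : F) : Prop :=
  ∃ (n : ℕ) (c c' : Fin n → F), (∀ i, IsIntegral (Algebra.adjoin O t) (c i ^ m / h)) ∧
    (∀ i, IsIntegral (Algebra.adjoin O t) (c' i ^ m * h)) ∧ ∑ i, c i * c' i = 1

/-- `TrivMod` passes from the chart `O[u]` to the overlap `O[u, u⁻¹]`. -/
theorem trivMod_pair (π : O) (u : F) (hu : u ≠ 0) (τ : F ≃+* F) (hτu : τ u = u)
    (hT : TrivMod π ({u} : Set F) τ) : TrivMod π ({u, u⁻¹} : Set F) τ := by
  intro b hb
  obtain ⟨n, hn⟩ := exists_pow_mul_isIntegral u hu b hb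
  obtain ⟨c, hc, hcb⟩ := hT _ hn
  refine ⟨u⁻¹ ^ n * c, ?_, ?_⟩
  · have h1 : u⁻¹ ∈ chart O ({u, u⁻¹} : Set F) :=
      isIntegral_adjoin_of_mem (Algebra.subset_adjoin (by simp))
    have h2 : c ∈ chart O ({u, u⁻¹} : Set F) :=
      chart_mono (O := O) (s := {u}) (t := {u, u⁻¹}) (by simp) hc
    exact Subalgebra.mul_mem _ (Subalgebra.pow_mem _ h1 n) h2
  · rw [map_mul, map_pow, hτu] at hcb
    have hun : u ^ n ≠ 0 := pow_ne_zero n hu
    have h3 : u⁻¹ ^ n * u ^ n = 1 := by
      rw [← mul_pow, inv_mul_cancel₀ hu, one_pow]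
    calc τ b - b = u⁻¹ ^ n * u ^ n * (τ b - b) := by rw [h3, one_mul]
      _ = u⁻¹ ^ n * (u ^ n * τ b - u ^ n * b) := by ring
      _ = algebraMap O F π * (u⁻¹ ^ n * c) := by rw [hcb]; ring

/-- **Key computation 1.**  `(∑ c'ᵢ τ(cᵢ)) ^ m * (h / τ h) ≡ 1` modulo `π`. -/
theorem exists_pow_eq (π : O) (t : Set F) (τ : F ≃+* F) (hT : TrivMod π t τ) (m : ℕ)
    (hm0 : 0 < m)
    (h : F) (hh : h ≠ 0) {n : ℕ} (c c' : Fin n → F) (hc : ∀ i, c i ^ m / h ∈ chart O t)
    (hc' : ∀ i, c' i ^ m * h ∈ chart O t) (hsum : ∑ i, c i * c' i = 1) :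
    ∃ a ∈ chart O t, (∑ i, c' i * τ (c i)) ^ m * (h / τ h) = 1 + algebraMap O F π * a := by
  classical
  have hτh : τ h ≠ 0 := (map_ne_zero_iff τ τ.injective).mpr hh
  set I : Finset (Fin m → Fin n) := Fintype.piFinset fun _ : Fin m => (Finset.univ : Finset (Fin n))
  let A : (Fin m → Fin n) → F := fun p => h * ∏ j, c' (p j)
  let A' : (Fin m → Fin n) → F := fun p => (∏ j, c (p j)) / h
  have hA : ∀ p, A p ∈ chart O t := by
    intro p
    have hpow : A p ^ m = ∏ j : Fin m, (c' (p j) ^ m * h) := by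
      simp only [A]
      rw [mul_pow, ← Finset.prod_pow, Finset.prod_mul_distrib, Finset.prod_const,
        Finset.card_univ, Fintype.card_fin]
      ring
    have h1 : A p ^ m ∈ chart O t := by
      rw [hpow]; exact Subalgebra.prod_mem _ fun j _ => hc' (p j)
    exact IsIntegral.of_pow hm0 h1
  have hA' : ∀ p, A' p ∈ chart O t := by
    intro p
    have hpow : A' p ^ m = ∏ j : Fin m, (c (p j) ^ m / h) := by
      simp only [A']
      rw [div_pow, ← Finset.prod_pow, Finset.prod_div_distrib, Finset.prod_const,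
        Finset.card_univ, Fintype.card_fin]
    have h1 : A' p ^ m ∈ chart O t := by
      rw [hpow]; exact Subalgebra.prod_mem _ fun j _ => hc (p j)
    exact IsIntegral.of_pow hm0 h1
  have hw : ∀ p, ∃ w : F, w ∈ chart O t ∧ τ (A' p) - A' p = algebraMap O F π * w :=
    fun p => hT _ (hA' p)
  choose w hw hwe using hw
  refine ⟨∑ p ∈ I, A p * w p, Subalgebra.sum_mem _ fun p _ => Subalgebra.mul_mem _ (hA p) (hw p),
    ?_⟩
  have hterm : ∀ p ∈ I, (∏ j, c' (p j) * τ (c (p j))) * (h / τ h) =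
      (∏ j, c (p j) * c' (p j)) + algebraMap O F π * (A p * w p) := by
    intro p _
    have h1 : (∏ j, c' (p j) * τ (c (p j))) * (h / τ h) = A p * τ (A' p) := by
      simp only [A, A']
      rw [map_div₀, map_prod, Finset.prod_mul_distrib]
      field_simp
    have h2 : A p * A' p = ∏ j, c (p j) * c' (p j) := by
      simp only [A, A']
      rw [Finset.prod_mul_distrib]
      field_simp
    rw [h1, ← h2]
    linear_combination (A p) * hwe p
  rw [Finset.sum_pow', Finset.sum_mul, Finset.sum_congr rfl hterm, Finset.sum_add_distrib,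
    ← Finset.mul_sum]
  congr 1
  have h3 := Finset.sum_pow' (Finset.univ : Finset (Fin n)) (fun i => c i * c' i) m
  rw [hsum, one_pow] at h3
  exact h3.symm

/-- **Key computation 2.**  The sections built from two partitions of unity agree modulo `π`. -/
theorem exists_sub_eq (π : O) (t : Set F) (τ : F ≃+* F) (hT : TrivMod π t τ) {n n' : ℕ}
    (c c' : Fin n → F) (d d' : Fin n' → F) (hcd : ∀ i j, c i * d' j ∈ chart O t)
    (hsum : ∑ i, c i * c' i = 1) (hsum' : ∑ j, d j * d' j = 1) :
    ∃ w : Fin n → Fin n' → F, (∀ i j, w i j ∈ chart O t) ∧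
      (∑ i, c' i * τ (c i)) - (∑ j, d' j * τ (d j)) =
        algebraMap O F π * ∑ i, ∑ j, c' i * τ (d j) * w i j := by
  have hw : ∀ i j, ∃ w : F, w ∈ chart O t ∧ τ (c i * d' j) - c i * d' j = algebraMap O F π * w :=
    fun i j => hT _ (hcd i j)
  choose w hw hwe using hw
  refine ⟨w, hw, ?_⟩
  have h1 : ∑ i, c' i * τ (c i) = ∑ i, ∑ j, c' i * τ (d j) * τ (c i * d' j) := by
    refine Finset.sum_congr rfl fun i _ => ?_
    have : ∑ j, c' i * τ (d j) * τ (c i * d' j) = c' i * τ (c i) * τ (∑ j, d j * d' j) := by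
      rw [map_sum, Finset.mul_sum]
      refine Finset.sum_congr rfl fun j _ => ?_
      rw [map_mul, map_mul]; ring
    rw [this, hsum', map_one, mul_one]
  have h2 : ∑ j, d' j * τ (d j) = ∑ i, ∑ j, c' i * τ (d j) * (c i * d' j) := by
    have : ∑ i, ∑ j, c' i * τ (d j) * (c i * d' j) =
        (∑ i, c i * c' i) * ∑ j, d' j * τ (d j) := by
      rw [Finset.sum_mul]
      refine Finset.sum_congr rfl fun i _ => ?_
      rw [Finset.mul_sum]
      refine Finset.sum_congr rfl fun j _ => ?_
      ring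
    rw [this, hsum, one_mul]
  rw [h1, h2, ← Finset.sum_sub_distrib, Finset.mul_sum]
  refine Finset.sum_congr rfl fun i _ => ?_
  rw [← Finset.sum_sub_distrib, Finset.mul_sum]
  refine Finset.sum_congr rfl fun j _ => ?_
  linear_combination (c' i * τ (d j)) * hwe i j

end FPart


/-! ### The theorem -/

section Main

variable {O F L : Type*} [CommRing O] [IsDomain O] [IsDiscreteValuationRing O]
  [Field F] [Algebra O F] [Field L] [Algebra F L] [Algebra O L] [IsScalarTower O F L]

/-- For a root of unity `r ≠ 1` of order dividing `m`: `m = (1 - r) * q` with `q` a polynomial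
in `r`. -/
theorem natCast_eq_one_sub_mul {K : Type*} [Field K] (m : ℕ) (r : K) (hr : r ≠ 1)
    (hrm : r ^ m = 1) :
    (m : K) = (1 - r) * ∑ j ∈ range m, ∑ i ∈ range j, r ^ i := by
  have h1 : (∑ j ∈ range m, r ^ j) * (r - 1) = 0 := by rw [geom_sum_mul, hrm, sub_self]
  have h2 : ∑ j ∈ range m, r ^ j = 0 := (mul_eq_zero.mp h1).resolve_right (sub_ne_zero.mpr hr)
  have h3 : ∑ j ∈ range m, (r ^ j - 1) = (∑ j ∈ range m, ∑ i ∈ range j, r ^ i) * (r - 1) := by
    rw [sum_mul]
    exact sum_congr rfl fun j _ => (geom_sum_mul r j).symm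
  rw [sum_sub_distrib, h2, sum_const, card_range, nsmul_eq_mul, mul_one] at h3
  linear_combination -h3

/-- **Inertia acts trivially on classes with an invertible `m`-th root divisor.**
`τ` is the identity modulo `π` on both chart rings of `F`, and `(1/m) div h` is invertible on
both charts; then `τ h / h` is an `m`-th power in `F`: any `θ` with `θ ^ m = τ h / h` generating
a field `L = F(θ)` in which `O` is integrally closed and whose chart ring is finite lies in
`F`. -/
theorem mem_range_of_cartierRoot (π : O) (hπ : Irreducible π)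
    (hinj : Function.Injective (algebraMap O F)) (u : F) (hu : u ≠ 0)
    (m : ℕ) (hm0 : 0 < m) (hmO : IsUnit (m : O)) (ζ : O) (hζ : IsPrimitiveRoot ζ m)
    (τ : F ≃+* F) (hτu : τ u = u)
    (hτO : ∀ a : O, ∃ a' : O, τ (algebraMap O F a) = algebraMap O F a')
    (hT0 : TrivMod π ({u} : Set F) τ) (hTinf : TrivMod π ({u⁻¹} : Set F) τ)
    (h : F) (hh : h ≠ 0)
    (hC0 : CartierRoot O ({u} : Set F) m h) (hCinf : CartierRoot O ({u⁻¹} : Set F) m h)
    (hOL : ∀ x : L, IsIntegral O x → ∃ a : O, algebraMap O L a = x)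
    (hfin : ∃ s : Finset L, (∀ β ∈ s, IsIntegral (Algebra.adjoin O {algebraMap F L u}) β) ∧
      ∀ x : L, IsIntegral (Algebra.adjoin O {algebraMap F L u}) x →
        ∃ f : L → O[X], x = ∑ β ∈ s, aeval (algebraMap F L u) (f β) * β)
    (θ : L) (hθ : θ ^ m = algebraMap F L (τ h / h))
    (hgen : IntermediateField.adjoin F {θ} = ⊤) :
    θ ∈ Set.range (algebraMap F L) := by
  classical
  by_contra hne
  have hinjL : Function.Injective (algebraMap O L) := by
    rw [IsScalarTower.algebraMap_eq O F L]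
    exact (algebraMap F L).injective.comp hinj
  have hπL : ∀ x : F, algebraMap F L (algebraMap O F π * x) =
      algebraMap O L π * algebraMap F L x := by
    intro x
    rw [map_mul, ← IsScalarTower.algebraMap_apply O F L]
  have huL0 : algebraMap F L u ≠ 0 := (map_ne_zero (algebraMap F L)).mpr hu
  have hτh : τ h ≠ 0 := (map_ne_zero_iff τ τ.injective).mpr hh
  have hk : τ h / h ≠ 0 := div_ne_zero hτh hh
  have hθ0 : θ ≠ 0 := by
    intro h0
    rw [h0, zero_pow hm0.ne'] at hθ
    exact hk ((map_eq_zero (algebraMap F L)).mp hθ.symm)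
  obtain ⟨m', hm'⟩ := hmO.exists_left_inv
  obtain ⟨n, c, c', hc, hc', hsum⟩ := hC0
  obtain ⟨n', d, d', hd, hd', hsum'⟩ := hCinf
  -- `τ` preserves the chart rings
  have hτ0 : ∀ x : F, x ∈ chart O ({u} : Set F) → τ x ∈ chart O ({u} : Set F) := fun x hx =>
    ringEquiv_mem_chart τ hτO {u}
      (by rintro x rfl; rw [hτu]; exact Algebra.subset_adjoin rfl) hx
  have hτinf : ∀ x : F, x ∈ chart O ({u⁻¹} : Set F) → τ x ∈ chart O ({u⁻¹} : Set F) :=
    fun x hx => ringEquiv_mem_chart τ hτO {u⁻¹}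
      (by rintro x rfl; rw [map_inv₀, hτu]; exact Algebra.subset_adjoin rfl) hx
  have hle0 : chart O ({u} : Set F) ≤ chart O ({u, u⁻¹} : Set F) := chart_mono (by simp)
  have hleinf : chart O ({u⁻¹} : Set F) ≤ chart O ({u, u⁻¹} : Set F) := chart_mono (by simp)
  -- the computations in `F`
  obtain ⟨a0, ha0, hs0⟩ := exists_pow_eq π ({u} : Set F) τ hT0 m hm0 h hh c c' hc hc' hsum
  obtain ⟨ainf, hainf, hsinf⟩ :=
    exists_pow_eq π ({u⁻¹} : Set F) τ hTinf m hm0 h hh d d' hd hd' hsum'
  have hT0inf := trivMod_pair π u hu τ hτu hT0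
  have hcd : ∀ i j, c i * d' j ∈ chart O ({u, u⁻¹} : Set F) := by
    intro i j
    have h1 : (c i * d' j) ^ m = (c i ^ m / h) * (d' j ^ m * h) := by
      rw [mul_pow]
      field_simp
    apply IsIntegral.of_pow hm0
    rw [h1]
    exact Subalgebra.mul_mem _ (hle0 (hc i)) (hleinf (hd' j))
  obtain ⟨w, hw, hsw⟩ := exists_sub_eq π ({u, u⁻¹} : Set F) τ hT0inf c c' d d' hcd hsum hsum'
  -- transfer to `L`
  have key : ∀ (t : Set F) (x : F), x ^ m * (h / τ h) ∈ chart O t →
      algebraMap F L x / θ ∈ chart O (algebraMap F L '' t) := by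
    intro t x hx
    have h1 : (algebraMap F L x / θ) ^ m = algebraMap F L (x ^ m * (h / τ h)) := by
      rw [div_pow, hθ, ← map_pow, ← map_div₀]
      congr 1
      field_simp
    apply IsIntegral.of_pow hm0
    rw [h1]
    exact map_mem_chart t hx
  have himg0 : algebraMap F L '' ({u} : Set F) = {algebraMap F L u} := Set.image_singleton
  have himginf : algebraMap F L '' ({u⁻¹} : Set F) = {(algebraMap F L u)⁻¹} := by
    rw [Set.image_singleton, map_inv₀]
  have himg0inf : algebraMap F L '' ({u, u⁻¹} : Set F) =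
      {algebraMap F L u, (algebraMap F L u)⁻¹} := by
    rw [Set.image_pair, map_inv₀]
  have hterm0 : ∀ i, algebraMap F L (c' i * τ (c i)) / θ ∈
      chart O ({algebraMap F L u} : Set L) := by
    intro i
    rw [← himg0]
    apply key
    have h1 : (c' i * τ (c i)) ^ m * (h / τ h) = (c' i ^ m * h) * τ (c i ^ m / h) := by
      rw [map_div₀, map_pow, mul_pow]
      field_simp
    rw [h1]
    exact Subalgebra.mul_mem _ (hc' i) (hτ0 _ (hc i))
  have hterminf : ∀ j, algebraMap F L (d' j * τ (d j)) / θ ∈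
      chart O ({(algebraMap F L u)⁻¹} : Set L) := by
    intro j
    rw [← himginf]
    apply key
    have h1 : (d' j * τ (d j)) ^ m * (h / τ h) = (d' j ^ m * h) * τ (d j ^ m / h) := by
      rw [map_div₀, map_pow, mul_pow]
      field_simp
    rw [h1]
    exact Subalgebra.mul_mem _ (hd' j) (hτinf _ (hd j))
  have hterm0inf : ∀ i j, algebraMap F L (c' i * τ (d j)) / θ ∈
      chart O ({algebraMap F L u, (algebraMap F L u)⁻¹} : Set L) := by
    intro i j
    rw [← himg0inf]
    apply key
    have h1 : (c' i * τ (d j)) ^ m * (h / τ h) = (c' i ^ m * h) * τ (d j ^ m / h) := by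
      rw [map_div₀, map_pow, mul_pow]
      field_simp
    rw [h1]
    exact Subalgebra.mul_mem _ (hle0 (hc' i)) (hleinf (hτinf _ (hd j)))
  set s0 : F := ∑ i, c' i * τ (c i) with hs0def
  set sinf : F := ∑ j, d' j * τ (d j) with hsinfdef
  have ht0 : algebraMap F L s0 / θ ∈ chart O ({algebraMap F L u} : Set L) := by
    rw [hs0def, map_sum, Finset.sum_div]
    exact Subalgebra.sum_mem _ fun i _ => hterm0 i
  have htinf : algebraMap F L sinf / θ ∈ chart O ({(algebraMap F L u)⁻¹} : Set L) := by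
    rw [hsinfdef, map_sum, Finset.sum_div]
    exact Subalgebra.sum_mem _ fun j _ => hterminf j
  have hpow : ∀ s : F, (algebraMap F L s / θ) ^ m = algebraMap F L (s ^ m * (h / τ h)) := by
    intro s
    rw [div_pow, hθ, ← map_pow, ← map_div₀]
    congr 1
    field_simp
  have h0 : (algebraMap F L s0 / θ) ^ m = 1 + algebraMap O L π * algebraMap F L a0 := by
    rw [hpow, hs0, map_add, map_one, hπL]
  have hinf : (algebraMap F L sinf / θ) ^ m = 1 + algebraMap O L π * algebraMap F L ainf := by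
    rw [hpow, hsinf, map_add, map_one, hπL]
  have ha0L : algebraMap F L a0 ∈ chart O ({algebraMap F L u} : Set L) := by
    rw [← himg0]; exact map_mem_chart _ ha0
  have hainfL : algebraMap F L ainf ∈ chart O ({(algebraMap F L u)⁻¹} : Set L) := by
    rw [← himginf]; exact map_mem_chart _ hainf
  have hwL : ∀ i j, algebraMap F L (w i j) ∈
      chart O ({algebraMap F L u, (algebraMap F L u)⁻¹} : Set L) := by
    intro i j
    rw [← himg0inf]; exact map_mem_chart _ (hw i j)
  have h0inf : algebraMap F L s0 / θ - algebraMap F L sinf / θ = algebraMap O L π *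
      ∑ i, ∑ j, algebraMap F L (c' i * τ (d j)) / θ * algebraMap F L (w i j) := by
    rw [← sub_div, ← map_sub, hsw, hπL, map_sum, mul_div_assoc, Finset.sum_div]
    congr 1
    refine Finset.sum_congr rfl fun i _ => ?_
    rw [map_sum, Finset.sum_div]
    refine Finset.sum_congr rfl fun j _ => ?_
    rw [map_mul]
    ring
  obtain ⟨a, -, c0, hc0, cinf, hcinf, he0, heinf⟩ :=
    exists_pow_mul_sub_one π hπ.prime hinjL hOL (algebraMap F L u) huL0 hfin m hm0 m' ζ hm'
      hζ.pow_eq_one (fun j hj0 hjm => sum_pow_pow_eq_zero hζ j hj0 hjm)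
      (algebraMap F L s0 / θ) (algebraMap F L sinf / θ) (algebraMap F L a0)
      (algebraMap F L ainf) _ ht0 htinf ha0L hainfL
      (Subalgebra.sum_mem _ fun i _ => Subalgebra.sum_mem _ fun j _ =>
        Subalgebra.mul_mem _ (hterm0inf i j) (hwL i j))
      h0 hinf h0inf
  -- the Galois step
  have hmF : (m : F) ≠ 0 := by
    have h1 : IsUnit ((m : O) : O) := hmO
    have h2 := h1.map (algebraMap O F)
    rw [map_natCast] at h2
    exact h2.ne_zero
  obtain ⟨σ, hσ⟩ := exists_algEquiv_ne hm0 hmF (hζ.map_of_injective hinj) hk hθ hgen hne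
  set r : L := σ θ / θ with hr
  have hr1 : r ≠ 1 := by
    intro h1
    apply hσ
    rw [hr, div_eq_one_iff_eq hθ0] at h1
    exact h1
  have hrm : r ^ m = 1 := by
    rw [hr, div_pow, ← map_pow, hθ, σ.commutes, div_self]
    rw [← hθ]
    exact pow_ne_zero m hθ0
  have hσθ : σ θ = r * θ := by rw [hr, div_mul_cancel₀ _ hθ0]
  have hr0 : r ≠ 0 := by
    intro h0
    rw [h0, zero_pow hm0.ne'] at hrm
    exact zero_ne_one hrm
  have hσO : ∀ x : O, σ (algebraMap O L x) = algebraMap O L x := by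
    intro x
    rw [IsScalarTower.algebraMap_apply O F L, σ.commutes]
  have hσt : ∀ s : F, σ (algebraMap F L s / θ) = (algebraMap F L s / θ) / r := by
    intro s
    rw [map_div₀, σ.commutes, hσθ]
    field_simp
  have hσchart : ∀ (t : Set F) (x : L), x ∈ chart O (algebraMap F L '' t) →
      σ x ∈ chart O (algebraMap F L '' t) := by
    intro t x hx
    refine ringEquiv_mem_chart (σ : L ≃+* L) (fun x => ⟨x, hσO x⟩) _ ?_ hx
    rintro y ⟨z, hz, rfl⟩
    have : (σ : L ≃+* L) (algebraMap F L z) = algebraMap F L z := σ.commutes z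
    rw [this]
    exact Algebra.subset_adjoin ⟨z, hz, rfl⟩
  have hrchart : ∀ t : Set L, r ∈ chart O t := by
    intro t
    apply IsIntegral.of_pow hm0
    rw [hrm]
    exact isIntegral_one
  set q : L := ∑ j ∈ range m, ∑ i ∈ range j, r ^ i with hq
  have hqchart : ∀ t : Set L, q ∈ chart O t := fun t =>
    Subalgebra.sum_mem _ fun j _ => Subalgebra.sum_mem _ fun i _ =>
      Subalgebra.pow_mem _ (hrchart t) i
  have hmq : (m : L) = (1 - r) * q := natCast_eq_one_sub_mul m r hr1 hrm
  have hm'L : algebraMap O L m' * (m : L) = 1 := by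
    rw [← map_natCast (algebraMap O L), ← map_mul, hm', map_one]
  -- on each chart, `1 = π * (integral)`
  have hfinal : ∀ (t : Set F) (x cx : L), cx ∈ chart O (algebraMap F L '' t) →
      σ x = x / r → algebraMap O L ζ ^ a * x - 1 = algebraMap O L π * cx →
      ∃ y : L, y ∈ chart O (algebraMap F L '' t) ∧ (1 : L) = algebraMap O L π * y := by
    intro t x cx hcx hσx hex
    have h1 : algebraMap O L ζ ^ a * (x / r) - 1 = algebraMap O L π * σ cx := by
      have := congrArg σ hex
      rw [map_sub, map_mul, map_mul, map_pow, hσO, hσO, hσx, map_one] at this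
      exact this
    have h2 : r - 1 = algebraMap O L π * (cx - r * σ cx) := by
      have h3 : algebraMap O L ζ ^ a * x = r * (algebraMap O L ζ ^ a * (x / r)) := by
        field_simp
      linear_combination hex - r * h1 - h3
    refine ⟨-(algebraMap O L m' * q * (cx - r * σ cx)), ?_, ?_⟩
    · exact Subalgebra.neg_mem _ (Subalgebra.mul_mem _ (Subalgebra.mul_mem _
        (Subalgebra.algebraMap_mem _ m') (hqchart _))
        (Subalgebra.sub_mem _ hcx (Subalgebra.mul_mem _ (hrchart _) (hσchart t cx hcx))))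
    · linear_combination (-1 : L) * hm'L + algebraMap O L m' * hmq -
        (algebraMap O L m' * q) * h2
  obtain ⟨y0, hy0, hy0e⟩ := hfinal ({u} : Set F) _ c0 (by rw [himg0]; exact hc0) (hσt s0) he0
  obtain ⟨yinf, hyinf, hyinfe⟩ :=
    hfinal ({u⁻¹} : Set F) _ cinf (by rw [himginf]; exact hcinf) (hσt sinf) heinf
  rw [himg0] at hy0
  rw [himginf] at hyinf
  exact false_of_one_eq π hπ.prime hinjL hOL (algebraMap F L u) huL0 hy0 hyinf hy0e hyinfe

end Main

end Fermat.Agent.S34.ToricInertia
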