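import Mathlib
import Fermat.Agent.S34.ToricInertia

/-!
# S34, step (ii): the pointwise form `(STAR)` of `CartierRoot`

`Star O t m h M`: at the ideal `M` of the chart ring `B = integralClosure O[t]` in `F`, the
element `h` is, up to an `m`-th power of `F`, an element of `B` outside `M` (a unit at `M` when
`M` is maximal).  This is literally the conclusion of `Cart.cart` for the chart ring.

* `cartierRoot_of_star` : `(STAR)` at every maximal ideal of the chart ring gives the partition
  of unity `CartierRoot`.
* `mem_range_of_star` : the exit theorem `mem_range_of_cartierRoot` with pointwise hypotheses.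
-/

set_option autoImplicit false

namespace Fermat.Agent.S34.ToricInertia

open Polynomial Finset
open Fermat.Agent.S30.Model.CechP1

section Conv

variable {O F : Type*} [CommRing O] [Field F] [Algebra O F]

/-- **(STAR) at `M`**: `h` is an `m`-th power times an element of the chart ring outside `M`. -/
def Star (O : Type*) {F : Type*} [CommRing O] [Field F] [Algebra O F] (t : Set F) (m : ℕ)
    (h : F) (M : Ideal (integralClosure (Algebra.adjoin O t) F)) : Prop :=
  ∃ (f : F) (a : integralClosure (Algebra.adjoin O t) F), a ∉ M ∧ f ^ m * h = (a : F)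

theorem star_iff (t : Set F) (m : ℕ) (h : F)
    (M : Ideal (integralClosure (Algebra.adjoin O t) F)) :
    Star O t m h M ↔ ∃ (f : F) (a : integralClosure (Algebra.adjoin O t) F),
      a ∉ M ∧ f ^ m * h = algebraMap (integralClosure (Algebra.adjoin O t) F) F a :=
  Iff.rfl

/-- Elements of the chart ring that are finite sums `∑ cᵢ c'ᵢ` with `cᵢ ^ m / h` and
`c'ᵢ ^ m * h` integral form an ideal; here: the span of the single products lies in it. -/
theorem exists_sum_of_mem_span (t : Set F) (m : ℕ) (h : F)
    (x : integralClosure (Algebra.adjoin O t) F)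
    (hx : x ∈ Ideal.span {y : integralClosure (Algebra.adjoin O t) F |
      ∃ c c' : F, IsIntegral (Algebra.adjoin O t) (c ^ m / h) ∧
        IsIntegral (Algebra.adjoin O t) (c' ^ m * h) ∧ (y : F) = c * c'}) :
    ∃ (n : ℕ) (c c' : Fin n → F), (∀ i, IsIntegral (Algebra.adjoin O t) (c i ^ m / h)) ∧
      (∀ i, IsIntegral (Algebra.adjoin O t) (c' i ^ m * h)) ∧ ∑ i, c i * c' i = (x : F) := by
  induction hx using Submodule.span_induction with
  | mem y hy =>
    obtain ⟨c, c', hc, hc', hy⟩ := hy
    exact ⟨1, fun _ => c, fun _ => c', fun _ => hc, fun _ => hc', by simp [hy]⟩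
  | zero => exact ⟨0, Fin.elim0, Fin.elim0, fun i => i.elim0, fun i => i.elim0, by simp⟩
  | add y z _ _ hy hz =>
    obtain ⟨n₁, c₁, c₁', h₁, h₁', hs₁⟩ := hy
    obtain ⟨n₂, c₂, c₂', h₂, h₂', hs₂⟩ := hz
    refine ⟨n₁ + n₂, Fin.append c₁ c₂, Fin.append c₁' c₂', ?_, ?_, ?_⟩
    · intro i
      induction i using Fin.addCases with
      | left i => simpa using h₁ i
      | right i => simpa using h₂ i
    · intro i
      induction i using Fin.addCases with
      | left i => simpa using h₁' i
      | right i => simpa using h₂' i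
    · rw [Fin.sum_univ_add]
      simp only [Fin.append_left, Fin.append_right]
      rw [hs₁, hs₂]
      rfl
  | smul a y _ hy =>
    obtain ⟨n, c, c', h₁, h₁', hs⟩ := hy
    refine ⟨n, fun i => (a : F) * c i, c', ?_, h₁', ?_⟩
    · intro i
      have h2 : ((a : F) * c i) ^ m / h = (a : F) ^ m * (c i ^ m / h) := by
        rw [mul_pow, mul_div_assoc]
      rw [h2]
      exact (a.2.pow m).mul (h₁ i)
    · have h3 : ∀ i, (a : F) * c i * c' i = (a : F) * (c i * c' i) := fun i => mul_assoc _ _ _
      simp only [h3]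
      rw [← Finset.mul_sum, hs]
      rfl

/-- **conv2.** `(STAR)` at every maximal ideal of the chart ring gives `CartierRoot`. -/
theorem cartierRoot_of_star (t : Set F) (m : ℕ) (hm0 : 0 < m) (h : F)
    (hstar : ∀ M : Ideal (integralClosure (Algebra.adjoin O t) F), M.IsMaximal →
      Star O t m h M) :
    CartierRoot O t m h := by
  classical
  set J : Ideal (integralClosure (Algebra.adjoin O t) F) :=
    Ideal.span {y : integralClosure (Algebra.adjoin O t) F |
      ∃ c c' : F, IsIntegral (Algebra.adjoin O t) (c ^ m / h) ∧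
        IsIntegral (Algebra.adjoin O t) (c' ^ m * h) ∧ (y : F) = c * c'} with hJ
  have hJtop : J = ⊤ := by
    by_contra hne
    obtain ⟨M, hM, hJM⟩ := Ideal.exists_le_maximal J hne
    obtain ⟨f, a, haM, hfa⟩ := hstar M hM
    have ha0 : (a : F) ≠ 0 := by
      intro h0
      apply haM
      have : a = 0 := Subtype.ext h0
      rw [this]
      exact M.zero_mem
    have hf0 : f ≠ 0 := by
      rintro rfl
      rw [zero_pow hm0.ne', zero_mul] at hfa
      exact ha0 hfa.symm
    have hh0 : h ≠ 0 := by
      rintro rfl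
      rw [mul_zero] at hfa
      exact ha0 hfa.symm
    apply haM
    apply hJM
    apply Ideal.subset_span
    refine ⟨(a : F) / f, f, ?_, ?_, ?_⟩
    · have h1 : ((a : F) / f) ^ m / h = (a : F) ^ (m - 1) := by
        obtain ⟨k, rfl⟩ : ∃ k, m = k + 1 := ⟨m - 1, (Nat.sub_add_cancel hm0).symm⟩
        rw [Nat.add_sub_cancel, div_pow, div_div, hfa, pow_succ, mul_div_assoc, div_self ha0,
          mul_one]
      rw [h1]
      exact a.2.pow _
    · rw [hfa]
      exact a.2
    · rw [div_mul_cancel₀ _ hf0]
  have h1 : (1 : integralClosure (Algebra.adjoin O t) F) ∈ J := by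
    rw [hJtop]
    exact Submodule.mem_top
  obtain ⟨n, c, c', hc, hc', hs⟩ := exists_sum_of_mem_span t m h 1 h1
  exact ⟨n, c, c', hc, hc', by rw [hs]; rfl⟩

end Conv

section Exit

variable {O F L : Type*} [CommRing O] [IsDomain O] [IsDiscreteValuationRing O]
  [Field F] [Algebra O F] [Field L] [Algebra F L] [Algebra O L] [IsScalarTower O F L]

/-- **Exit theorem of step (ii), pointwise form.**  `τ` is the identity modulo `π` on both
chart rings, and `h` is an `m`-th power times a unit at every closed point of both charts; then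
`τ h / h` is an `m`-th power in `F`. -/
theorem mem_range_of_star (π : O) (hπ : Irreducible π)
    (hinj : Function.Injective (algebraMap O F)) (u : F) (hu : u ≠ 0)
    (m : ℕ) (hm0 : 0 < m) (hmO : IsUnit (m : O)) (ζ : O) (hζ : IsPrimitiveRoot ζ m)
    (τ : F ≃+* F) (hτu : τ u = u)
    (hτO : ∀ a : O, ∃ a' : O, τ (algebraMap O F a) = algebraMap O F a')
    (hT0 : TrivMod π ({u} : Set F) τ) (hTinf : TrivMod π ({u⁻¹} : Set F) τ)
    (h : F) (hh : h ≠ 0)
    (hS0 : ∀ M : Ideal (integralClosure (Algebra.adjoin O ({u} : Set F)) F), M.IsMaximal →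
      Star O ({u} : Set F) m h M)
    (hSinf : ∀ M : Ideal (integralClosure (Algebra.adjoin O ({u⁻¹} : Set F)) F), M.IsMaximal →
      Star O ({u⁻¹} : Set F) m h M)
    (hOL : ∀ x : L, IsIntegral O x → ∃ a : O, algebraMap O L a = x)
    (hfin : ∃ s : Finset L, (∀ β ∈ s, IsIntegral (Algebra.adjoin O {algebraMap F L u}) β) ∧
      ∀ x : L, IsIntegral (Algebra.adjoin O {algebraMap F L u}) x →
        ∃ f : L → O[X], x = ∑ β ∈ s, aeval (algebraMap F L u) (f β) * β)
    (θ : L) (hθ : θ ^ m = algebraMap F L (τ h / h))
    (hgen : IntermediateField.adjoin F {θ} = ⊤) :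
    θ ∈ Set.range (algebraMap F L) :=
  mem_range_of_cartierRoot π hπ hinj u hu m hm0 hmO ζ hζ τ hτu hτO hT0 hTinf h hh
    (cartierRoot_of_star _ m hm0 h hS0) (cartierRoot_of_star _ m hm0 h hSinf) hOL hfin θ hθ hgen

end Exit

end Fermat.Agent.S34.ToricInertia
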