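import Mathlib
import Fermat.Agent.Lib.LocalUFD
import Fermat.Agent.S30.Model.Main
import Fermat.Agent.S30.Model.GlueChart
import Fermat.Agent.S34.ToricInertiaConv
import Fermat.Agent.S34.Nodal.Defs

/-!
# PROGRAM U (S34), step (ii): (STAR) at the REGULAR points of a nodal chart

Row `U.ii.Regular` (captain ruling #1).  Vocabulary of `S34/Nodal/Defs.lean` and
`S30/Model/Main.lean`: `O` a DVR with uniformiser `π`, `E = Frac O`, `L` a field over `E`, chart
ring `Chart O t` = integral closure of `O[t]` in `L`.  Output shape = helper244's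
`ToricInertia.Star O {t} m h M` (`∃ f a, a ∉ M ∧ f ^ m * h = a`), the input of
`ToricInertia.cartierRoot_of_star`.

For `h : L` with `m ∣ div h` on the generic fibre (`Model.LocPow m t h`) which is a unit at the
two components `p₁`, `p₂` of the special fibre (e.g. `h` toric), (STAR) holds at every maximal
ideal `M` of the chart ring which is NOT a crossing point:

* `star_of_not_mem`    : `π ∉ M` (directly from `LocPow`; no regularity needed);
* `star_of_one_branch` : `π ∈ M`, `p₁ ≤ M`, `¬ p₂ ≤ M`, `B / p₁` a Dedekind domain: then `B_M` is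
  a regular local ring (`B_M / π` is a DVR or a field), hence a UFD
  (`Lib.LocalUFD.uniqueFactorizationMonoid`), and `h = unit * (m-th power)` in `B_M`;
* `star_of_isNodalChart`, `star_chartZero`, `star_chartInf` : the same in the vocabulary of
  `Nodal.IsNodalChart` / `Nodal.NodalDatum` (both charts), for every maximal ideal not containing
  both components.

Level-free bricks (Mathlib only):
* `exists_eq_unit_mul_pow`, `exists_pow_assoc` : the UFD argument;
* `exists_pow_assoc_of_regular` : the local statement at a maximal ideal `M ∋ π` with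
  `LDAt π M` and `RegAt π M` (unfolded shapes of `LocalDomain.LDAt`, `RegNB.RegAt`);
* `ld_of_one_branch`, `reg_of_one_branch` : these two hypotheses at a one-branch point;
* `exists_unit_at_of_locPow` : `LocPow` at a horizontal prime of the chart ring.
-/

set_option autoImplicit false

namespace Fermat.Agent.S34.Regular

section UFD

variable {R : Type*} [CommRing R] [IsDomain R] [UniqueFactorizationMonoid R]

/-- In a UFD, a nonzero element all of whose prime multiplicities are divisible by `m` is a unit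
times an `m`-th power. -/
theorem exists_eq_unit_mul_pow (m : ℕ) (x : R) (hx : x ≠ 0)
    (h : ∀ p : R, Prime p → m ∣ multiplicity p x) : ∃ (ε : Rˣ) (c : R), x = ε * c ^ m := by
  revert hx h
  induction x using UniqueFactorizationMonoid.induction_on_coprime with
  | h0 => intro hx; exact absurd rfl hx
  | h1 hu =>
    intro _ _
    obtain ⟨ε, rfl⟩ := hu
    exact ⟨ε, 1, by simp⟩
  | hpr i hp =>
    intro _ h
    obtain ⟨j, hj⟩ := (multiplicity_pow_self_of_prime hp i) ▸ h _ hp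
    subst hj
    exact ⟨1, _ ^ j, by rw [Units.val_one, one_mul, ← pow_mul, mul_comm]⟩
  | hcp hxy ihx ihy =>
    rename_i x y
    intro hxy0 h
    have hx0 : x ≠ 0 := left_ne_zero_of_mul hxy0
    have hy0 : y ≠ 0 := right_ne_zero_of_mul hxy0
    have key : ∀ p : R, Prime p → m ∣ multiplicity p x ∧ m ∣ multiplicity p y := by
      intro p hp
      have h1 := h p hp
      rw [multiplicity_mul hp (FiniteMultiplicity.of_prime_left hp hxy0)] at h1
      by_cases hpx : p ∣ x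
      · have hpy : ¬ p ∣ y := fun hpy => hp.not_isUnit (hxy hpx hpy)
        have h2 : multiplicity p y = 0 := multiplicity_eq_zero.2 hpy
        rw [h2, add_zero] at h1
        exact ⟨h1, by rw [h2]; exact dvd_zero m⟩
      · have h2 : multiplicity p x = 0 := multiplicity_eq_zero.2 hpx
        rw [h2, zero_add] at h1
        exact ⟨by rw [h2]; exact dvd_zero m, h1⟩
    obtain ⟨ε, c, hc⟩ := ihx hx0 fun p hp => (key p hp).1
    obtain ⟨ε', c', hc'⟩ := ihy hy0 fun p hp => (key p hp).2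
    exact ⟨ε * ε', c * c', by rw [hc, hc', Units.val_mul, mul_pow]; ring⟩

/-- In a UFD: if `a / b` is, at every prime `p`, an `m`-th power times a unit at `p`, then
`a * b ^ (m - 1)` is a unit times an `m`-th power. -/
theorem exists_pow_assoc (m : ℕ) (hm : 0 < m) (a b : R) (ha : a ≠ 0) (hb : b ≠ 0)
    (h : ∀ p : R, Prime p → ∃ τ₁ τ₂ s r : R, τ₂ ≠ 0 ∧ ¬ p ∣ s ∧ ¬ p ∣ r ∧
      a * s * τ₂ ^ m = b * r * τ₁ ^ m) :
    ∃ (ε : Rˣ) (c : R), a * b ^ (m - 1) = ε * c ^ m := by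
  refine exists_eq_unit_mul_pow m _ (mul_ne_zero ha (pow_ne_zero _ hb)) fun p hp => ?_
  obtain ⟨τ₁, τ₂, s, r, hτ₂, hs, hr, heq⟩ := h p hp
  have hs0 : s ≠ 0 := fun h0 => hs (h0 ▸ dvd_zero p)
  have hr0 : r ≠ 0 := fun h0 => hr (h0 ▸ dvd_zero p)
  have hτ₁ : τ₁ ≠ 0 := by
    rintro rfl
    rw [zero_pow hm.ne', mul_zero] at heq
    exact mul_ne_zero (mul_ne_zero ha hs0) (pow_ne_zero _ hτ₂) heq
  have hbm : b * b ^ (m - 1) = b ^ m := by
    rw [← pow_succ']; congr 1; omega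
  have e : a * b ^ (m - 1) * (s * τ₂ ^ m) = r * (b * τ₁) ^ m := by
    calc a * b ^ (m - 1) * (s * τ₂ ^ m) = (a * s * τ₂ ^ m) * b ^ (m - 1) := by ring
      _ = (b * r * τ₁ ^ m) * b ^ (m - 1) := by rw [heq]
      _ = r * (b * b ^ (m - 1)) * τ₁ ^ m := by ring
      _ = r * (b * τ₁) ^ m := by rw [hbm, mul_pow]; ring
  have hx0 : a * b ^ (m - 1) ≠ 0 := mul_ne_zero ha (pow_ne_zero _ hb)
  have hfin : ∀ y : R, y ≠ 0 → FiniteMultiplicity p y := fun y hy =>
    FiniteMultiplicity.of_prime_left hp hy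
  have h1 := congrArg (multiplicity p) e
  rw [multiplicity_mul hp (hfin _ (mul_ne_zero hx0 (mul_ne_zero hs0 (pow_ne_zero _ hτ₂)))),
    multiplicity_mul hp (hfin _ (mul_ne_zero hs0 (pow_ne_zero _ hτ₂))),
    multiplicity_eq_zero.2 hs, zero_add, (hfin _ hτ₂).multiplicity_pow hp,
    multiplicity_mul hp (hfin _ (mul_ne_zero hr0 (pow_ne_zero _ (mul_ne_zero hb hτ₁)))),
    multiplicity_eq_zero.2 hr, zero_add,
    (hfin _ (mul_ne_zero hb hτ₁)).multiplicity_pow hp] at h1
  exact (Nat.dvd_add_left (dvd_mul_right m _)).1 (h1 ▸ dvd_mul_right m _)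

end UFD

section Local

variable {B : Type*} [CommRing B] [IsDomain B]

/-- **Regular points: the local statement.**  `B` a Noetherian domain, `M` a maximal ideal
containing `π` such that `B_M / π` is a domain (`hld`) whose maximal ideal is principal (`hreg`),
i.e. `B_M` is a two-dimensional regular local ring with `π` part of a regular system of
parameters (or a DVR with uniformiser `π`).  If `a / b` is a unit at `π` and, at every prime
`𝔭 ⊆ M` not containing `π`, an `m`-th power times a unit, then `a * b ^ (m - 1)` is an `m`-th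
power times a unit at `M`. -/
theorem exists_pow_assoc_of_regular [IsNoetherianRing B] (π : B) (hπ0 : π ≠ 0) (M : Ideal B)
    [hM : M.IsMaximal] (hπM : π ∈ M)
    (hld : ∀ x y : B, π ∣ x * y → ∃ s, s ∉ M ∧ (π ∣ s * x ∨ π ∣ s * y))
    (hreg : ∃ z ∈ M, ∀ x ∈ M, ∃ s, s ∉ M ∧ s * x ∈ Ideal.span {π, z})
    (m : ℕ) (hm : 0 < m) (a b : B)
    (ha : ∀ s, s ∉ M → ¬ π ∣ s * a) (hb : ∀ s, s ∉ M → ¬ π ∣ s * b)
    (hhor : ∀ 𝔭 : Ideal B, 𝔭.IsPrime → π ∉ 𝔭 → 𝔭 ≤ M →
      ∃ τ₁ τ₂ s r : B, τ₂ ≠ 0 ∧ s ∉ 𝔭 ∧ r ∉ 𝔭 ∧ a * s * τ₂ ^ m = b * r * τ₁ ^ m) :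
    ∃ c s r : B, s ∉ M ∧ r ∉ M ∧ a * b ^ (m - 1) * s = c ^ m * r := by
  classical
  have hMp : M.IsPrime := hM.isPrime
  have h1M : (1 : B) ∉ M := fun h => hMp.ne_top ((Ideal.eq_top_iff_one M).2 h)
  have ha0 : a ≠ 0 := by
    rintro rfl
    exact ha 1 h1M (by simp)
  have hb0 : b ≠ 0 := by
    rintro rfl
    exact hb 1 h1M (by simp)
  set φ : B →+* Localization.AtPrime M := algebraMap B (Localization.AtPrime M) with hφ
  have hφinj : Function.Injective φ :=
    IsLocalization.injective (Localization.AtPrime M) (Ideal.primeCompl_le_nonZeroDivisors M)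
  have hunit : ∀ x : B, IsUnit (φ x) ↔ x ∉ M := fun x =>
    IsLocalization.AtPrime.isUnit_to_map_iff (Localization.AtPrime M) M x
  have hsurj : ∀ y : Localization.AtPrime M, ∃ (x s : B), s ∉ M ∧ y * φ s = φ x := by
    intro y
    obtain ⟨⟨x, s⟩, h⟩ := IsLocalization.surj M.primeCompl y
    exact ⟨x, s, s.2, h⟩
  have hD1 : ∀ w : B, φ π ∣ φ w → ∃ s₀, s₀ ∉ M ∧ π ∣ s₀ * w := by
    rintro w ⟨v, hv⟩
    obtain ⟨z₀, s₀, hs₀, hz⟩ := hsurj v
    refine ⟨s₀, hs₀, z₀, hφinj ?_⟩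
    rw [map_mul, map_mul, hv, ← hz]; ring
  have hD2 : ∀ (s w : B), s ∉ M → π ∣ s * w → φ π ∣ φ w := by
    rintro s w hs ⟨e, he⟩
    have h1 : φ π ∣ φ s * φ w := ⟨φ e, by rw [← map_mul, he, map_mul]⟩
    exact ((hunit s).2 hs).dvd_mul_left.1 h1
  -- `π` is prime in the localisation
  have hprime : Prime (φ π) := by
    refine ⟨fun h => hπ0 (hφinj (by rw [h, map_zero])), fun h => (hunit π).1 h hπM, ?_⟩
    intro y y' hyy'
    obtain ⟨x, s, hs, hx⟩ := hsurj y
    obtain ⟨x', s', hs', hx'⟩ := hsurj y'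
    have h1 : φ π ∣ φ (x * x') := by
      rw [map_mul, ← hx, ← hx']
      have : y * φ s * (y' * φ s') = y * y' * (φ s * φ s') := by ring
      rw [this]
      exact Dvd.dvd.mul_right hyy' _
    obtain ⟨s₀, hs₀, h2⟩ := hD1 _ h1
    obtain ⟨s₁, hs₁, h3⟩ := hld (s₀ * x) x' (by rwa [mul_assoc])
    rcases h3 with h3 | h3
    · left
      have h4 : φ π ∣ φ x :=
        hD2 (s₁ * s₀) x (fun h => (hMp.mem_or_mem h).elim hs₁ hs₀) (by rwa [mul_assoc])
      rw [← hx] at h4
      exact ((hunit s).2 hs).dvd_mul_right.1 h4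
    · right
      have h4 : φ π ∣ φ x' := hD2 s₁ x' hs₁ h3
      rw [← hx'] at h4
      exact ((hunit s').2 hs').dvd_mul_right.1 h4
  have hπ'0 : φ π ≠ 0 := hprime.ne_zero
  have hIp : (Ideal.span {φ π}).IsPrime := (Ideal.span_singleton_prime hπ'0).2 hprime
  have : IsNoetherianRing (Localization.AtPrime M) :=
    IsLocalization.isNoetherianRing M.primeCompl (Localization.AtPrime M) inferInstance
  have : IsLocalRing (Localization.AtPrime M ⧸ Ideal.span {φ π}) :=
    IsLocalRing.of_surjective' (Ideal.Quotient.mk _) Ideal.Quotient.mk_surjective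
  -- the maximal ideal of `B_M / π` is principal
  have hprinc : (IsLocalRing.maximalIdeal (Localization.AtPrime M ⧸ Ideal.span {φ π})).IsPrincipal := by
    obtain ⟨z, hzM, hz⟩ := hreg
    refine ⟨⟨Ideal.Quotient.mk _ (φ z), le_antisymm ?_ ?_⟩⟩
    · intro y hy
      obtain ⟨y₀, rfl⟩ := Ideal.Quotient.mk_surjective y
      have hy₀ : ¬ IsUnit y₀ := fun hu => (IsLocalRing.mem_maximalIdeal _).1 hy (hu.map _)
      obtain ⟨x, s, hs, hx⟩ := hsurj y₀
      have hxM : x ∈ M := by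
        by_contra hxM
        have : IsUnit (y₀ * φ s) := hx ▸ (hunit x).2 hxM
        exact hy₀ (isUnit_of_mul_isUnit_left this)
      obtain ⟨s', hs', hmem⟩ := hz x hxM
      obtain ⟨e, e', hee⟩ := Ideal.mem_span_pair.1 hmem
      have hu : IsUnit (φ s * φ s') := ((hunit s).2 hs).mul ((hunit s').2 hs')
      have h1 : y₀ * (φ s * φ s') = φ e * φ π + φ e' * φ z := by
        rw [← mul_assoc, hx, ← map_mul, mul_comm x s', ← hee, map_add, map_mul, map_mul]
      obtain ⟨v, hv⟩ := hu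
      have h2 : y₀ = (φ e * φ π + φ e' * φ z) * ↑v⁻¹ := by
        rw [← h1, ← hv, mul_assoc, Units.mul_inv, mul_one]
      rw [Ideal.submodule_span_eq, Ideal.mem_span_singleton]
      refine ⟨Ideal.Quotient.mk _ (φ e' * ↑v⁻¹), ?_⟩
      rw [← map_mul, ← sub_eq_zero, ← map_sub, Ideal.Quotient.eq_zero_iff_mem,
        Ideal.mem_span_singleton]
      exact ⟨φ e * ↑v⁻¹, by rw [h2]; ring⟩
    · rw [Ideal.submodule_span_eq, Ideal.span_singleton_le_iff_mem, IsLocalRing.mem_maximalIdeal]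
      intro hu
      obtain ⟨w, hw⟩ := hu.exists_right_inv
      obtain ⟨w₀, rfl⟩ := Ideal.Quotient.mk_surjective w
      rw [← map_mul, ← sub_eq_zero, ← map_one (Ideal.Quotient.mk _), ← map_sub,
        Ideal.Quotient.eq_zero_iff_mem, Ideal.mem_span_singleton] at hw
      obtain ⟨v, hv⟩ := hw
      have hzmem : φ z ∈ IsLocalRing.maximalIdeal (Localization.AtPrime M) := by
        rw [IsLocalRing.mem_maximalIdeal]
        exact fun h => (hunit z).1 h hzM
      have hπmem : φ π ∈ IsLocalRing.maximalIdeal (Localization.AtPrime M) := by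
        rw [IsLocalRing.mem_maximalIdeal]
        exact fun h => (hunit π).1 h hπM
      have h1 : (1 : Localization.AtPrime M) ∈ IsLocalRing.maximalIdeal (Localization.AtPrime M) := by
        have : (1 : Localization.AtPrime M) = φ z * w₀ - φ π * v := by rw [← hv]; ring
        rw [this]
        exact Ideal.sub_mem _ (Ideal.mul_mem_right _ _ hzmem) (Ideal.mul_mem_right _ _ hπmem)
      exact (IsLocalRing.mem_maximalIdeal _).1 h1 isUnit_one
  have : IsPrincipalIdealRing (Localization.AtPrime M ⧸ Ideal.span {φ π}) :=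
    ((tfae_of_isNoetherianRing_of_isLocalRing_of_isDomain
      (R := Localization.AtPrime M ⧸ Ideal.span {φ π})).out 4 0).1 hprinc
  have : UniqueFactorizationMonoid (Localization.AtPrime M) :=
    Fermat.Agent.Lib.LocalUFD.uniqueFactorizationMonoid (φ π) hprime
  -- apply the UFD lemma
  obtain ⟨ε, c', hc'⟩ := exists_pow_assoc m hm (φ a) (φ b)
    (fun h => ha0 (hφinj (by rw [h, map_zero]))) (fun h => hb0 (hφinj (by rw [h, map_zero])))
    (by
      intro p hp
      have hpI : (Ideal.span {p}).IsPrime := (Ideal.span_singleton_prime hp.ne_zero).2 hp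
      set 𝔭 : Ideal B := (Ideal.span {p}).comap φ with h𝔭
      have h𝔭p : 𝔭.IsPrime := Ideal.comap_isPrime φ _
      have hmem : ∀ x : B, x ∈ 𝔭 ↔ p ∣ φ x := fun x => by
        rw [h𝔭, Ideal.mem_comap, Ideal.mem_span_singleton]
      have h𝔭M : 𝔭 ≤ M := by
        intro x hx
        by_contra hxM
        exact hp.not_isUnit (isUnit_of_dvd_unit ((hmem x).1 hx) ((hunit x).2 hxM))
      by_cases hπ𝔭 : π ∈ 𝔭
      · -- vertical prime: `p` is associated to `π`
        obtain ⟨q, hq⟩ := (hmem π).1 hπ𝔭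
        have hπp : φ π ∣ p := by
          rcases hprime.dvd_or_dvd (hq ▸ dvd_rfl : φ π ∣ p * q) with h | ⟨q', hq'⟩
          · exact h
          · exfalso
            apply hp.not_isUnit
            have : φ π * 1 = φ π * (p * q') := by
              calc φ π * 1 = p * q := by rw [mul_one, hq]
                _ = p * (φ π * q') := by rw [hq']
                _ = φ π * (p * q') := by ring
            exact IsUnit.of_mul_eq_one q' (mul_left_cancel₀ hπ'0 this).symm
        refine ⟨1, 1, φ b, φ a, one_ne_zero, ?_, ?_, by ring⟩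
        · intro h
          obtain ⟨s₀, hs₀, h2⟩ := hD1 b (hπp.trans h)
          exact hb s₀ hs₀ h2
        · intro h
          obtain ⟨s₀, hs₀, h2⟩ := hD1 a (hπp.trans h)
          exact ha s₀ hs₀ h2
      · obtain ⟨τ₁, τ₂, s, r, hτ₂, hs, hr, heq⟩ := hhor 𝔭 h𝔭p hπ𝔭 h𝔭M
        refine ⟨φ τ₁, φ τ₂, φ s, φ r, fun h => hτ₂ (hφinj (by rw [h, map_zero])),
          fun h => hs ((hmem s).2 h), fun h => hr ((hmem r).2 h), ?_⟩
        rw [← map_mul, ← map_pow, ← map_mul, heq, map_mul, map_mul, map_pow])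
  obtain ⟨c₁, s₁, hs₁, hc₁⟩ := hsurj c'
  obtain ⟨e₂, s₂, hs₂, he₂⟩ := hsurj (ε : Localization.AtPrime M)
  have he₂M : e₂ ∉ M := by
    rw [← hunit, ← he₂]
    exact ε.isUnit.mul ((hunit s₂).2 hs₂)
  refine ⟨c₁, s₁ ^ m * s₂, e₂, ?_, he₂M, hφinj ?_⟩
  · intro h
    rcases hMp.mem_or_mem h with h | h
    · exact hs₁ (hMp.mem_of_pow_mem m h)
    · exact hs₂ h
  · rw [map_mul, map_mul, map_mul, map_pow, map_pow, map_mul, map_pow, hc', ← hc₁, ← he₂]
    ring

end Local

section OneBranch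

variable {B : Type*} [CommRing B]

/-- At a point lying on only one of the two components, the special fibre is locally a domain. -/
theorem ld_of_one_branch (π : B) (p₁ p₂ : Ideal B) [hp₁ : p₁.IsPrime]
    (hinf : p₁ ⊓ p₂ = Ideal.span {π}) (M : Ideal B) (h₂ : ¬ p₂ ≤ M) :
    ∀ x y : B, π ∣ x * y → ∃ s, s ∉ M ∧ (π ∣ s * x ∨ π ∣ s * y) := by
  obtain ⟨c, hc₂, hcM⟩ := SetLike.not_le_iff_exists.1 h₂
  have key : ∀ x ∈ p₁, π ∣ c * x := fun x hx => by
    rw [← Ideal.mem_span_singleton, ← hinf]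
    exact ⟨p₁.mul_mem_left _ hx, p₂.mul_mem_right _ hc₂⟩
  intro x y hxy
  have h1 : x * y ∈ p₁ := by
    have : x * y ∈ p₁ ⊓ p₂ := by rw [hinf, Ideal.mem_span_singleton]; exact hxy
    exact this.1
  rcases hp₁.mem_or_mem h1 with h | h
  · exact ⟨c, hcM, Or.inl (key x h)⟩
  · exact ⟨c, hcM, Or.inr (key y h)⟩

/-- At a point lying on only one of the two components, and if that component is normal, the
maximal ideal is locally generated by `π` and one more element. -/
theorem reg_of_one_branch (π : B) (p₁ p₂ : Ideal B)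
    (hinf : p₁ ⊓ p₂ = Ideal.span {π}) [IsDedekindDomain (B ⧸ p₁)] (M : Ideal B) [hM : M.IsMaximal]
    (h₁ : p₁ ≤ M) (h₂ : ¬ p₂ ≤ M) :
    ∃ z ∈ M, ∀ x ∈ M, ∃ s, s ∉ M ∧ s * x ∈ Ideal.span {π, z} := by
  classical
  have hMp : M.IsPrime := hM.isPrime
  obtain ⟨c, hc₂, hcM⟩ := SetLike.not_le_iff_exists.1 h₂
  have hπM : π ∈ M := by
    have : π ∈ p₁ ⊓ p₂ := by rw [hinf]; exact Ideal.mem_span_singleton_self π
    exact h₁ this.1
  have key : ∀ x ∈ p₁, π ∣ c * x := fun x hx => by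
    rw [← Ideal.mem_span_singleton, ← hinf]
    exact ⟨p₁.mul_mem_left _ hx, p₂.mul_mem_right _ hc₂⟩
  set 𝔫 : Ideal (B ⧸ p₁) := M.map (Ideal.Quotient.mk p₁) with h𝔫
  have hmk : ∀ s : B, Ideal.Quotient.mk p₁ s ∈ 𝔫 → s ∈ M := by
    intro s hs
    obtain ⟨s', hs', he⟩ := (Ideal.mem_map_iff_of_surjective _ Ideal.Quotient.mk_surjective).1 hs
    have : s' - s ∈ p₁ := Ideal.Quotient.eq.1 he
    have h3 : s = s' - (s' - s) := by ring
    rw [h3]
    exact M.sub_mem hs' (h₁ this)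
  by_cases hbot : 𝔫 = ⊥
  · refine ⟨π, hπM, fun x hx => ⟨c, hcM, ?_⟩⟩
    have hx1 : x ∈ p₁ := by
      have : Ideal.Quotient.mk p₁ x ∈ 𝔫 := Ideal.mem_map_of_mem _ hx
      rw [hbot, Ideal.mem_bot] at this
      exact Ideal.Quotient.eq_zero_iff_mem.1 this
    obtain ⟨w, hw⟩ := key x hx1
    rw [hw]
    exact Ideal.mul_mem_right _ _ (Ideal.subset_span (Set.mem_insert _ _))
  · have htop : 𝔫 ≠ ⊤ := by
      intro h
      have : (1 : B ⧸ p₁) ∈ 𝔫 := by rw [h]; exact Submodule.mem_top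
      exact hMp.ne_top ((Ideal.eq_top_iff_one M).2 (hmk 1 (by simpa using this)))
    have hsq : 𝔫 * 𝔫 ≠ 𝔫 := by
      intro h
      have h' : 𝔫 * 𝔫 = 𝔫 * ⊤ := by rw [h, Ideal.mul_top]
      exact htop (mul_left_cancel₀ hbot h')
    obtain ⟨z', hz'𝔫, hz'⟩ : ∃ z' ∈ 𝔫, z' ∉ 𝔫 * 𝔫 := by
      by_contra hcon
      exact hsq (le_antisymm Ideal.mul_le_left fun x hx => by_contra fun hx' => hcon ⟨x, hx, hx'⟩)
    obtain ⟨𝔞, h𝔞⟩ : 𝔫 ∣ Ideal.span {z'} :=
      Ideal.dvd_iff_le.2 ((Ideal.span_singleton_le_iff_mem 𝔫).2 hz'𝔫)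
    have h𝔞𝔫 : ¬ 𝔞 ≤ 𝔫 := by
      intro hle
      apply hz'
      have : z' ∈ 𝔫 * 𝔞 := by rw [← h𝔞]; exact Ideal.mem_span_singleton_self z'
      exact Ideal.mul_mono_right hle this
    obtain ⟨s', hs'𝔞, hs'𝔫⟩ := SetLike.not_le_iff_exists.1 h𝔞𝔫
    obtain ⟨z, hzM, rfl⟩ :=
      (Ideal.mem_map_iff_of_surjective _ Ideal.Quotient.mk_surjective).1 hz'𝔫
    obtain ⟨s, rfl⟩ := Ideal.Quotient.mk_surjective s'
    have hsM : s ∉ M := fun h => hs'𝔫 (Ideal.mem_map_of_mem _ h)
    refine ⟨z, hzM, fun x hx => ⟨c * s, fun h => (hMp.mem_or_mem h).elim hcM hsM, ?_⟩⟩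
    have h1 : Ideal.Quotient.mk p₁ s * Ideal.Quotient.mk p₁ x ∈ Ideal.span {Ideal.Quotient.mk p₁ z} := by
      rw [h𝔞, mul_comm 𝔫 𝔞]
      exact Ideal.mul_mem_mul hs'𝔞 (Ideal.mem_map_of_mem _ hx)
    obtain ⟨e', he'⟩ := Ideal.mem_span_singleton'.1 h1
    obtain ⟨e, rfl⟩ := Ideal.Quotient.mk_surjective e'
    have h2 : s * x - e * z ∈ p₁ := by
      rw [← Ideal.Quotient.eq, map_mul, map_mul]
      exact he'.symm
    obtain ⟨w, hw⟩ := key _ h2
    have h3 : c * s * x = w * π + (c * e) * z := by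
      have : c * s * x = c * (s * x - e * z) + c * e * z := by ring
      rw [this, hw]; ring
    rw [h3]
    exact Ideal.mem_span_pair.2 ⟨w, c * e, rfl⟩

end OneBranch

section Horizontal

open Polynomial Fermat.Agent.S30.Model

variable {O E L : Type*} [CommRing O] [Field E] [Field L] [Algebra O E] [Algebra E L]
  [Algebra O L] [IsScalarTower O E L]

theorem mem_adjoin_of_mem_adjoin (t : L) {x : L} (hx : x ∈ Algebra.adjoin O ({t} : Set L)) :
    x ∈ Algebra.adjoin E ({t} : Set L) := by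
  induction hx using Algebra.adjoin_induction with
  | mem x hx => exact Algebra.subset_adjoin hx
  | algebraMap r =>
    rw [IsScalarTower.algebraMap_apply O E L]
    exact Subalgebra.algebraMap_mem _ _
  | add x y _ _ hx hy => exact add_mem hx hy
  | mul x y _ _ hx hy => exact mul_mem hx hy

/-- Clearing the denominators of a polynomial: `E = O[1/π]`. -/
theorem exists_pow_mul_aeval_mem (π : O)
    (hπE : ∀ x : E, ∃ (k : ℕ) (a : O), algebraMap O E π ^ k * x = algebraMap O E a) (t : L)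
    (g : E[X]) :
    ∃ k₀ : ℕ, ∀ k, k₀ ≤ k →
      algebraMap O L π ^ k * aeval t g ∈ Algebra.adjoin O ({t} : Set L) := by
  have ht : t ∈ Algebra.adjoin O ({t} : Set L) := Algebra.subset_adjoin (Set.mem_singleton t)
  have hπ : algebraMap O L π ∈ Algebra.adjoin O ({t} : Set L) := Subalgebra.algebraMap_mem _ π
  induction g using Polynomial.induction_on' with
  | add p q hp hq =>
    obtain ⟨k₁, h₁⟩ := hp
    obtain ⟨k₂, h₂⟩ := hq
    refine ⟨max k₁ k₂, fun k hk => ?_⟩
    rw [map_add, mul_add]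
    exact add_mem (h₁ k (le_trans (le_max_left _ _) hk)) (h₂ k (le_trans (le_max_right _ _) hk))
  | monomial n a =>
    obtain ⟨k₀, a₀, ha₀⟩ := hπE a
    refine ⟨k₀, fun k hk => ?_⟩
    have e : algebraMap O L π ^ k * aeval t (monomial n a) =
        algebraMap O L π ^ (k - k₀) * algebraMap O L a₀ * t ^ n := by
      have hk' : k = (k - k₀) + k₀ := by omega
      rw [aeval_monomial, IsScalarTower.algebraMap_apply O E L a₀, ← ha₀, map_mul, map_pow,
        ← IsScalarTower.algebraMap_apply O E L]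
      conv_lhs => rw [hk', pow_add]
      ring
    rw [e]
    exact mul_mem (mul_mem (pow_mem hπ _) (Subalgebra.algebraMap_mem _ a₀)) (pow_mem ht n)

/-- An element integral over `E[t]` becomes integral over `O[t]` after multiplication by a power
of `π`. -/
theorem exists_pow_mul_isIntegral (π : O)
    (hπE : ∀ x : E, ∃ (k : ℕ) (a : O), algebraMap O E π ^ k * x = algebraMap O E a) (t : L)
    (w : L) (hw : IsIntegral (Algebra.adjoin E ({t} : Set L)) w) :
    ∃ n : ℕ, IsIntegral (Algebra.adjoin O ({t} : Set L)) (algebraMap O L π ^ n * w) := by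
  classical
  obtain ⟨P, hP, hPw⟩ := hw
  have hm : ∀ i : ℕ, ∃ k₀ : ℕ, ∀ k, k₀ ≤ k →
      algebraMap O L π ^ k * ((P.coeff i : Algebra.adjoin E ({t} : Set L)) : L) ∈
        Algebra.adjoin O ({t} : Set L) := by
    intro i
    have hc : ((P.coeff i : Algebra.adjoin E ({t} : Set L)) : L) ∈
        (aeval t : E[X] →ₐ[E] L).range := by
      rw [← Algebra.adjoin_singleton_eq_range_aeval]
      exact (P.coeff i).2
    obtain ⟨g, hg⟩ := hc
    obtain ⟨k₀, hk₀⟩ := exists_pow_mul_aeval_mem π hπE t g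
    refine ⟨k₀, fun k hk => ?_⟩
    rw [← hg]
    exact hk₀ k hk
  choose k₀ hk₀ using hm
  set d := P.natDegree with hd
  set n := (Finset.range d).sup k₀ with hn
  have hc : ∀ i : ℕ, ∃ c : Algebra.adjoin O ({t} : Set L), i < d →
      (c : L) = algebraMap O L π ^ (n * (d - i)) *
        ((P.coeff i : Algebra.adjoin E ({t} : Set L)) : L) := by
    intro i
    by_cases hi : i < d
    · refine ⟨⟨_, hk₀ i (n * (d - i)) ?_⟩, fun _ => rfl⟩
      have h1 : k₀ i ≤ n := Finset.le_sup (f := k₀) (Finset.mem_range.mpr hi)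
      have h2 : n ≤ n * (d - i) := Nat.le_mul_of_pos_right n (by omega)
      exact h1.trans h2
    · exact ⟨0, fun h => absurd h hi⟩
  choose c hc using hc
  refine ⟨n, X ^ d + ∑ i ∈ Finset.range d, C (c i) * X ^ i, ?_, ?_⟩
  · apply monic_X_pow_add
    refine (degree_sum_le _ _).trans_lt ?_
    rw [Finset.sup_lt_iff (WithBot.bot_lt_coe _)]
    intro i hi
    exact (degree_C_mul_X_pow_le i _).trans_lt (by exact_mod_cast Finset.mem_range.1 hi)
  · have h1 : eval₂ (algebraMap (Algebra.adjoin E ({t} : Set L)) L) w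
        (X ^ d + ∑ i ∈ Finset.range d, C (P.coeff i) * X ^ i) = 0 := by
      rw [← hP.as_sum]; exact hPw
    rw [eval₂_add, eval₂_pow, eval₂_X, eval₂_finsetSum] at h1 ⊢
    have h2 : ∀ i ∈ Finset.range d,
        eval₂ (algebraMap (Algebra.adjoin O ({t} : Set L)) L) (algebraMap O L π ^ n * w)
          (C (c i) * X ^ i) = algebraMap O L π ^ (n * d) *
        eval₂ (algebraMap (Algebra.adjoin E ({t} : Set L)) L) w (C (P.coeff i) * X ^ i) := by
      intro i hi
      have hi' := Finset.mem_range.1 hi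
      rw [eval₂_mul, eval₂_C, eval₂_pow, eval₂_X, eval₂_mul, eval₂_C, eval₂_pow, eval₂_X]
      have e1 : algebraMap (Algebra.adjoin O ({t} : Set L)) L (c i) = (c i : L) := rfl
      have e2 : algebraMap (Algebra.adjoin E ({t} : Set L)) L (P.coeff i) =
          ((P.coeff i : Algebra.adjoin E ({t} : Set L)) : L) := rfl
      rw [e1, e2, hc i hi']
      have : n * d = n * (d - i) + n * i := by rw [← Nat.mul_add]; congr 1; omega
      rw [this, pow_add, mul_pow, ← pow_mul]; ring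
    rw [Finset.sum_congr rfl h2, ← Finset.mul_sum, mul_pow, ← pow_mul, ← mul_add, h1, mul_zero]

/-- **Horizontal primes.**  `m ∣ div h` on the generic fibre (`LocPow`) gives, at every prime
`𝔭` of the chart ring not containing `π`: `h = τ ^ m * (unit at 𝔭)`. -/
theorem exists_unit_at_of_locPow (π : O)
    (hπE : ∀ x : E, ∃ (k : ℕ) (a : O), algebraMap O E π ^ k * x = algebraMap O E a) (t : L)
    (m : ℕ) (h : L) (hh : h ≠ 0) (hdiv : LocPow (E := E) m t h)
    (𝔭 : Ideal (integralClosure (Algebra.adjoin O ({t} : Set L)) L)) [h𝔭 : 𝔭.IsPrime]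
    (hπ𝔭 : GlueChart.piElt (Algebra.adjoin O ({t} : Set L)) π ∉ 𝔭) :
    ∃ τ : L, τ ≠ 0 ∧ ∃ s r : integralClosure (Algebra.adjoin O ({t} : Set L)) L,
      s ∉ 𝔭 ∧ r ∉ 𝔭 ∧ h * (s : L) = τ ^ m * (r : L) := by
  classical
  set ϖ : integralClosure (Algebra.adjoin O ({t} : Set L)) L :=
    GlueChart.piElt (Algebra.adjoin O ({t} : Set L)) π with hϖ
  have hϖL : (ϖ : L) = algebraMap O L π := rfl
  have hAC : ∀ x : L, x ∈ Algebra.adjoin O ({t} : Set L) →
      ∃ y : integralClosure (Algebra.adjoin O ({t} : Set L)) L, (y : L) = x := fun x hx =>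
    ⟨⟨x, isIntegral_algebraMap (x := (⟨x, hx⟩ : Algebra.adjoin O ({t} : Set L)))⟩, rfl⟩
  let J : Ideal E[X] :=
    { carrier := {g | ∃ (k : ℕ) (y : integralClosure (Algebra.adjoin O ({t} : Set L)) L),
        y ∈ 𝔭 ∧ (y : L) = algebraMap O L π ^ k * aeval t g}
      zero_mem' := ⟨0, 0, 𝔭.zero_mem, by simp⟩
      add_mem' := by
        rintro g g' ⟨k, y, hy, hyg⟩ ⟨k', y', hy', hyg'⟩
        refine ⟨k + k', ϖ ^ k' * y + ϖ ^ k * y',
          𝔭.add_mem (𝔭.mul_mem_left _ hy) (𝔭.mul_mem_left _ hy'), ?_⟩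
        push_cast
        rw [hyg, hyg', hϖL, map_add, pow_add]; ring
      smul_mem' := by
        rintro c g ⟨k, y, hy, hyg⟩
        obtain ⟨k₀, hk₀⟩ := exists_pow_mul_aeval_mem π hπE t c
        obtain ⟨z, hz⟩ := hAC _ (hk₀ k₀ le_rfl)
        refine ⟨k₀ + k, z * y, 𝔭.mul_mem_left _ hy, ?_⟩
        rw [smul_eq_mul, map_mul]
        push_cast
        rw [hz, hyg, pow_add]; ring }
  have hJ_mem : ∀ g, g ∈ J ↔ ∃ (k : ℕ) (y : integralClosure (Algebra.adjoin O ({t} : Set L)) L),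
      y ∈ 𝔭 ∧ (y : L) = algebraMap O L π ^ k * aeval t g := fun g => Iff.rfl
  have hJtop : J ≠ ⊤ := by
    intro hJ
    have h1 : (1 : E[X]) ∈ J := by rw [hJ]; exact Submodule.mem_top
    obtain ⟨k, y, hy, hyk⟩ := (hJ_mem 1).1 h1
    rw [map_one, mul_one] at hyk
    have h2 : y = ϖ ^ k := Subtype.ext (by rw [hyk]; push_cast; rw [hϖL])
    rw [h2] at hy
    exact hπ𝔭 (h𝔭.mem_of_pow_mem k hy)
  obtain ⟨N, hNmax, hJN⟩ := Ideal.exists_le_maximal J hJtop
  obtain ⟨f, hf⟩ : ∃ f, N = Ideal.span {f} := ⟨_, (Ideal.span_singleton_generator N).symm⟩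
  have hf0 : f ≠ 0 := by
    rintro rfl
    have : N = ⊥ := by rw [hf]; simp
    exact Ring.ne_bot_of_isMaximal_of_not_isField hNmax (Polynomial.not_isField E) this
  have hfirr : Irreducible f := by
    have : (Ideal.span {f}).IsPrime := hf ▸ hNmax.isPrime
    exact ((Ideal.span_singleton_prime hf0).1 this).irreducible
  obtain ⟨τ, hτ, ⟨s₁, hs₁D, hs₁f, hint₁⟩, ⟨s₂, hs₂D, hs₂f, hint₂⟩⟩ := hdiv f hfirr
  have step5 : ∀ s : L, s ∈ Algebra.adjoin E ({t} : Set L) →
      (∀ c : L, c ∈ Algebra.adjoin E ({t} : Set L) → s ≠ aeval t f * c) →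
      ∃ (k : ℕ) (r : integralClosure (Algebra.adjoin O ({t} : Set L)) L),
        r ∉ 𝔭 ∧ (r : L) = algebraMap O L π ^ k * s := by
    intro s hs hsf
    rw [Algebra.adjoin_singleton_eq_range_aeval] at hs
    obtain ⟨g, rfl⟩ := hs
    obtain ⟨k₀, hk₀⟩ := exists_pow_mul_aeval_mem π hπE t g
    obtain ⟨r, hr⟩ := hAC _ (hk₀ k₀ le_rfl)
    refine ⟨k₀, r, fun hr𝔭 => ?_, hr⟩
    have hgJ : g ∈ J := (hJ_mem g).2 ⟨k₀, r, hr𝔭, hr⟩
    have hgN : g ∈ Ideal.span {f} := hf ▸ hJN hgJ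
    obtain ⟨c, rfl⟩ := Ideal.mem_span_singleton.1 hgN
    refine hsf (aeval t c) ?_ (map_mul _ _ _)
    rw [Algebra.adjoin_singleton_eq_range_aeval]
    exact ⟨c, rfl⟩
  obtain ⟨i₁, r₁, hr₁, hr₁e⟩ := step5 s₁ hs₁D hs₁f
  obtain ⟨i₂, r₂, hr₂, hr₂e⟩ := step5 s₂ hs₂D hs₂f
  obtain ⟨j₁, hj₁⟩ := exists_pow_mul_isIntegral π hπE t _ hint₁
  obtain ⟨j₂, hj₂⟩ := exists_pow_mul_isIntegral π hπE t _ hint₂
  set y₁ : integralClosure (Algebra.adjoin O ({t} : Set L)) L := ⟨_, hj₁⟩ with hy₁def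
  set y₂ : integralClosure (Algebra.adjoin O ({t} : Set L)) L := ⟨_, hj₂⟩ with hy₂def
  have hy₁L : (y₁ : L) = algebraMap O L π ^ j₁ * (s₁ * (h / τ ^ m)) := rfl
  have hy₂L : (y₂ : L) = algebraMap O L π ^ j₂ * (s₂ * (τ ^ m / h)) := rfl
  have hτm : τ ^ m ≠ 0 := pow_ne_zero _ hτ
  have hprod : ϖ ^ (i₁ + i₂) * (y₁ * y₂) = ϖ ^ (j₁ + j₂) * (r₁ * r₂) := by
    apply Subtype.ext
    push_cast
    rw [hr₁e, hr₂e, hϖL, hy₁L, hy₂L]
    field_simp
    ring
  have hy₁ : y₁ ∉ 𝔭 := by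
    intro hy
    have h1 : ϖ ^ (j₁ + j₂) * (r₁ * r₂) ∈ 𝔭 := by
      rw [← hprod]; exact 𝔭.mul_mem_left _ (𝔭.mul_mem_right _ hy)
    rcases h𝔭.mem_or_mem h1 with h2 | h2
    · exact hπ𝔭 (h𝔭.mem_of_pow_mem _ h2)
    · exact (h𝔭.mem_or_mem h2).elim hr₁ hr₂
  refine ⟨τ, hτ, ϖ ^ j₁ * r₁, ϖ ^ i₁ * y₁, ?_, ?_, ?_⟩
  · intro h1
    rcases h𝔭.mem_or_mem h1 with h2 | h2
    · exact hπ𝔭 (h𝔭.mem_of_pow_mem _ h2)
    · exact hr₁ h2
  · intro h1
    rcases h𝔭.mem_or_mem h1 with h2 | h2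
    · exact hπ𝔭 (h𝔭.mem_of_pow_mem _ h2)
    · exact hy₁ h2
  · push_cast
    rw [hr₁e, hϖL, hy₁L]
    field_simp

end Horizontal

section Chart

open Polynomial Fermat.Agent.S30.Model Fermat.Agent.S30.Model.GlueChart
  Fermat.Agent.S34.ToricInertia Fermat.Agent.S34.Nodal

variable {O E L : Type*} [CommRing O] [Field E] [Field L] [Algebra O E] [Algebra E L]
  [Algebra O L] [IsScalarTower O E L]

/-- `E = O[1/π]` for a discrete valuation ring `O` with uniformiser `π` and fraction field `E`. -/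
theorem exists_pow_mul_eq_algebraMap [IsDomain O] [IsDiscreteValuationRing O]
    [IsFractionRing O E] (π : O) (hπ : Irreducible π) (x : E) :
    ∃ (k : ℕ) (a : O), algebraMap O E π ^ k * x = algebraMap O E a := by
  obtain ⟨a, b, hb, rfl⟩ := IsFractionRing.div_surjective (A := O) x
  have hb0 : b ≠ 0 := nonZeroDivisors.ne_zero hb
  obtain ⟨k, v, rfl⟩ := IsDiscreteValuationRing.eq_unit_mul_pow_irreducible hb0 hπ
  refine ⟨k, a * ↑v⁻¹, ?_⟩
  have hπ0 : algebraMap O E π ≠ 0 := fun h =>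
    hπ.ne_zero (IsFractionRing.injective O E (by rw [h, map_zero]))
  have hv : algebraMap O E ↑v * algebraMap O E ↑v⁻¹ = 1 := by
    rw [← map_mul, Units.mul_inv, map_one]
  have hv0 : algebraMap O E ↑v ≠ 0 := left_ne_zero_of_mul_eq_one hv
  have hvi : algebraMap O E ↑v⁻¹ = (algebraMap O E ↑v)⁻¹ := eq_inv_of_mul_eq_one_right hv
  rw [map_mul, map_mul, map_pow, hvi]
  field_simp

/-- **(STAR) at the primes not containing `π`** (closed points of the generic fibre which do not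
specialise into the chart, among others). -/
theorem star_of_not_mem (π : O)
    (hπE : ∀ x : E, ∃ (k : ℕ) (a : O), algebraMap O E π ^ k * x = algebraMap O E a) (t : L)
    (m : ℕ) (hm : 0 < m) (h : L) (hh : h ≠ 0) (hdiv : LocPow (E := E) m t h)
    (M : Ideal (integralClosure (Algebra.adjoin O ({t} : Set L)) L)) [hM : M.IsPrime]
    (hπM : piElt (Algebra.adjoin O ({t} : Set L)) π ∉ M) : Star O {t} m h M := by
  obtain ⟨τ, hτ, s, r, hs, hr, heq⟩ := exists_unit_at_of_locPow π hπE t m h hh hdiv M hπM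
  refine ⟨(s : L) / τ, s ^ (m - 1) * r, ?_, ?_⟩
  · intro h1
    rcases hM.mem_or_mem h1 with h2 | h2
    · exact hs (hM.mem_of_pow_mem _ h2)
    · exact hr h2
  · have hsm : (s : L) ^ m = (s : L) ^ (m - 1) * s := by
      rw [← pow_succ]; congr 1; omega
    have hτm : τ ^ m ≠ 0 := pow_ne_zero _ hτ
    push_cast
    rw [div_pow, hsm, div_mul_eq_mul_div, div_eq_iff hτm]
    calc (s : L) ^ (m - 1) * s * h = (s : L) ^ (m - 1) * (h * s) := by ring
      _ = (s : L) ^ (m - 1) * r * τ ^ m := by rw [heq]; ring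

/-- **(STAR) at the points of the special fibre lying on exactly one component**, when that
component is normal. -/
theorem star_of_one_branch (π : O)
    (hπE : ∀ x : E, ∃ (k : ℕ) (a : O), algebraMap O E π ^ k * x = algebraMap O E a)
    (hπ0 : algebraMap O L π ≠ 0) (t : L)
    [IsNoetherianRing (integralClosure (Algebra.adjoin O ({t} : Set L)) L)]
    (p₁ p₂ : Ideal (integralClosure (Algebra.adjoin O ({t} : Set L)) L)) [hp₁ : p₁.IsPrime]
    (hinf : p₁ ⊓ p₂ = Ideal.span {piElt (Algebra.adjoin O ({t} : Set L)) π})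
    [IsDedekindDomain (integralClosure (Algebra.adjoin O ({t} : Set L)) L ⧸ p₁)]
    (m : ℕ) (hm : 0 < m) (h : L)
    (hunit : ∃ a b : integralClosure (Algebra.adjoin O ({t} : Set L)) L,
      a ∉ p₁ ∧ b ∉ p₁ ∧ h * (b : L) = (a : L))
    (hdiv : LocPow (E := E) m t h)
    (M : Ideal (integralClosure (Algebra.adjoin O ({t} : Set L)) L)) [hM : M.IsMaximal]
    (h₁ : p₁ ≤ M) (h₂ : ¬ p₂ ≤ M) : Star O {t} m h M := by
  classical
  have hMp : M.IsPrime := hM.isPrime
  set ϖ : integralClosure (Algebra.adjoin O ({t} : Set L)) L :=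
    piElt (Algebra.adjoin O ({t} : Set L)) π with hϖ
  have hϖL : (ϖ : L) = algebraMap O L π := rfl
  have hϖ0 : ϖ ≠ 0 := fun h0 => hπ0 (by rw [← hϖL, h0]; rfl)
  have hϖ12 : ϖ ∈ p₁ ⊓ p₂ := by rw [hinf]; exact Ideal.mem_span_singleton_self ϖ
  have hϖM : ϖ ∈ M := h₁ hϖ12.1
  obtain ⟨a, b, ha, hb, hab⟩ := hunit
  have ha0 : a ≠ 0 := fun h0 => ha (h0 ▸ p₁.zero_mem)
  have hb0 : b ≠ 0 := fun h0 => hb (h0 ▸ p₁.zero_mem)
  have haL : (a : L) ≠ 0 := fun h0 => ha0 (Subtype.ext h0)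
  have hbL : (b : L) ≠ 0 := fun h0 => hb0 (Subtype.ext h0)
  have hh : h ≠ 0 := by
    rintro rfl
    rw [zero_mul] at hab
    exact haL hab.symm
  have hnd : ∀ x : integralClosure (Algebra.adjoin O ({t} : Set L)) L, x ∉ p₁ →
      ∀ s, s ∉ M → ¬ ϖ ∣ s * x := by
    intro x hx s hs hdvd
    have h1 : s * x ∈ p₁ ⊓ p₂ := by rw [hinf, Ideal.mem_span_singleton]; exact hdvd
    rcases hp₁.mem_or_mem h1.1 with h2 | h2
    · exact hs (h₁ h2)
    · exact hx h2
  obtain ⟨c, s, r, hs, hr, heq⟩ := exists_pow_assoc_of_regular ϖ hϖ0 M hϖM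
    (ld_of_one_branch ϖ p₁ p₂ hinf M h₂) (reg_of_one_branch ϖ p₁ p₂ hinf M h₁ h₂) m hm a b
    (hnd a ha) (hnd b hb) (by
      intro 𝔭 h𝔭 hϖ𝔭 _
      obtain ⟨τ, hτ, s, r, hs, hr, heq⟩ := exists_unit_at_of_locPow π hπE t m h hh hdiv 𝔭 hϖ𝔭
      have hr0 : r ≠ 0 := fun h0 => hr (h0 ▸ 𝔭.zero_mem)
      have hbm : (b : L) ^ m = (b : L) ^ (m - 1) * b := by
        rw [← pow_succ]; congr 1; omega
      have hrm : (r : L) ^ m = (r : L) ^ (m - 1) * r := by
        rw [← pow_succ]; congr 1; omega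
      have hpow : (τ * (b : L) * (r : L)) ^ m =
          ((a * s * b ^ (m - 1) * r ^ (m - 1) :
            integralClosure (Algebra.adjoin O ({t} : Set L)) L) : L) := by
        push_cast
        rw [← hab, mul_pow, mul_pow, hbm, hrm]
        calc τ ^ m * ((b : L) ^ (m - 1) * b) * ((r : L) ^ (m - 1) * r)
            = (τ ^ m * r) * b * (b : L) ^ (m - 1) * (r : L) ^ (m - 1) := by ring
          _ = h * b * s * (b : L) ^ (m - 1) * (r : L) ^ (m - 1) := by rw [← heq]; ring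
      have hint : IsIntegral (Algebra.adjoin O ({t} : Set L)) (τ * (b : L) * (r : L)) := by
        apply IsIntegral.of_pow hm
        rw [hpow]
        exact (a * s * b ^ (m - 1) * r ^ (m - 1)).2
      refine ⟨⟨_, hint⟩, b * r, s, r, mul_ne_zero hb0 hr0, hs, hr, Subtype.ext ?_⟩
      push_cast
      rw [← hab]
      calc h * (b : L) * s * ((b : L) * r) ^ m = (h * s) * b * ((b : L) * r) ^ m := by ring
        _ = (τ ^ m * r) * b * ((b : L) * r) ^ m := by rw [heq]
        _ = b * r * (τ * (b : L) * r) ^ m := by ring)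
  have hs0 : s ≠ 0 := fun h0 => hs (h0 ▸ M.zero_mem)
  have hc0 : c ≠ 0 := by
    rintro rfl
    rw [zero_pow hm.ne', zero_mul] at heq
    exact mul_ne_zero (mul_ne_zero ha0 (pow_ne_zero _ hb0)) hs0 heq
  have hcL : (c : L) ≠ 0 := fun h0 => hc0 (Subtype.ext h0)
  have heqL : (a : L) * (b : L) ^ (m - 1) * s = (c : L) ^ m * r := by
    have := congrArg (Subtype.val) heq
    push_cast at this
    exact this
  refine ⟨(b : L) * s / c, r * s ^ (m - 1), ?_, ?_⟩
  · intro h1
    rcases hMp.mem_or_mem h1 with h2 | h2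
    · exact hr h2
    · exact hs (hMp.mem_of_pow_mem _ h2)
  · have hbm : (b : L) ^ m = (b : L) ^ (m - 1) * b := by
      rw [← pow_succ]; congr 1; omega
    have hsm : (s : L) ^ m = (s : L) ^ (m - 1) * s := by
      rw [← pow_succ]; congr 1; omega
    have hcm : (c : L) ^ m ≠ 0 := pow_ne_zero _ hcL
    push_cast
    rw [div_pow, mul_pow, hbm, hsm, div_mul_eq_mul_div, div_eq_iff hcm]
    calc (b : L) ^ (m - 1) * b * ((s : L) ^ (m - 1) * s) * h
        = (h * b) * (b : L) ^ (m - 1) * s * (s : L) ^ (m - 1) := by ring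
      _ = (a * (b : L) ^ (m - 1) * s) * (s : L) ^ (m - 1) := by rw [hab]
      _ = r * (s : L) ^ (m - 1) * (c : L) ^ m := by rw [heqL]; ring

end Chart

section Adapter

open Fermat.Agent.S30.Model Fermat.Agent.S30.Model.GlueChart Fermat.Agent.S34.Nodal

variable {O L : Type*} [CommRing O] [Field L] [Algebra O L]

/-- `h ≡ 1` at a prime `P` of the overlap chart gives "`h` is a unit at the contraction of `P`"
on a chart `t` of which the overlap is the localisation at `t`. -/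
theorem exists_unit_of_congrOneAt (u t tinv : L) (htt : t * tinv = 1)
    (hle : Algebra.adjoin O ({t} : Set L) ≤ Algebra.adjoin O ({u, u⁻¹} : Set L))
    (htinv : tinv ∈ Algebra.adjoin O ({u, u⁻¹} : Set L))
    (hloc : ∀ w : L, IsIntegral (Algebra.adjoin O ({u, u⁻¹} : Set L)) w →
      ∃ n : ℕ, IsIntegral (Algebra.adjoin O ({t} : Set L)) (t ^ n * w))
    (P : Ideal (Overlap O u)) (h : L) (hh : CongrOneAt P h) :
    ∃ a b : Chart O t, a ∉ P.comap (inclHom hle) ∧ b ∉ P.comap (inclHom hle) ∧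
      h * (b : L) = (a : L) := by
  obtain ⟨a, b, ha, hb, hab⟩ := hh
  have htmem : t ∈ Algebra.adjoin O ({t} : Set L) := Algebra.subset_adjoin (Set.mem_singleton t)
  have ht : IsIntegral (Algebra.adjoin O ({t} : Set L)) t := CechP1.isIntegral_adjoin_of_mem htmem
  obtain ⟨n₁, hn₁⟩ := hloc (b : L) b.2
  obtain ⟨n₂, hn₂⟩ := hloc ((b : L) + (a : L)) (by
    have := (b + a).2
    rwa [Subalgebra.coe_add] at this)
  have hb' : IsIntegral (Algebra.adjoin O ({t} : Set L)) (t ^ (n₁ + n₂) * (b : L)) := by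
    rw [pow_add, mul_comm (t ^ n₁), mul_assoc]
    exact (ht.pow n₂).mul hn₁
  have ha' : IsIntegral (Algebra.adjoin O ({t} : Set L))
      (t ^ (n₁ + n₂) * ((b : L) + (a : L))) := by
    rw [pow_add, mul_assoc]
    exact (ht.pow n₁).mul hn₂
  set T : Overlap O u := ⟨t, CechP1.isIntegral_adjoin_of_mem (hle htmem)⟩ with hT
  set Tinv : Overlap O u := ⟨tinv, CechP1.isIntegral_adjoin_of_mem htinv⟩ with hTinv
  have hTT : Tinv * T = 1 := Subtype.ext (by
    rw [Subalgebra.coe_mul, Subalgebra.coe_one, mul_comm]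
    exact htt)
  have key : ∀ x : Overlap O u, x ∉ P → ∀ y : Chart O t,
      (y : L) = t ^ (n₁ + n₂) * (x : L) → y ∉ P.comap (inclHom hle) := by
    intro x hx y hy hmem
    rw [Ideal.mem_comap] at hmem
    have e : inclHom hle y = T ^ (n₁ + n₂) * x := Subtype.ext (by
      rw [coe_inclHom, hy, Subalgebra.coe_mul, Subalgebra.coe_pow])
    rw [e] at hmem
    apply hx
    have h3 : x = Tinv ^ (n₁ + n₂) * (T ^ (n₁ + n₂) * x) := by
      rw [← mul_assoc, ← mul_pow, hTT, one_pow, one_mul]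
    rw [h3]
    exact P.mul_mem_left _ hmem
  refine ⟨⟨_, ha'⟩, ⟨_, hb'⟩, key (b + a) ?_ _ ?_, key b hb _ rfl, ?_⟩
  · intro h1
    apply hb
    have h2 := P.sub_mem h1 ha
    rwa [add_sub_cancel_right] at h2
  · rw [Subalgebra.coe_add]
  · show h * (t ^ (n₁ + n₂) * (b : L)) = t ^ (n₁ + n₂) * ((b : L) + (a : L))
    rw [← hab]; ring

/-- `CongrOneAt` on the overlap gives a unit at the contraction to the chart `u`. -/
theorem exists_unit_zero (u : L) (hu : u ≠ 0) (P : Ideal (Overlap O u)) (h : L)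
    (hh : CongrOneAt P h) :
    ∃ a b : Chart O u, a ∉ P.comap (toOverlapZero O u) ∧ b ∉ P.comap (toOverlapZero O u) ∧
      h * (b : L) = (a : L) :=
  exists_unit_of_congrOneAt u u u⁻¹ (mul_inv_cancel₀ hu) (adjoin_le_overlap O u)
    (Algebra.subset_adjoin (by simp)) (fun w hw => CechP1.exists_pow_mul_isIntegral u hu w hw)
    P h hh

/-- `CongrOneAt` on the overlap gives a unit at the contraction to the chart `u⁻¹`. -/
theorem exists_unit_inf (u : L) (hu : u ≠ 0) (P : Ideal (Overlap O u)) (h : L)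
    (hh : CongrOneAt P h) :
    ∃ a b : Chart O u⁻¹, a ∉ P.comap (toOverlapInf O u) ∧ b ∉ P.comap (toOverlapInf O u) ∧
      h * (b : L) = (a : L) :=
  exists_unit_of_congrOneAt u u⁻¹ u (inv_mul_cancel₀ hu) (adjoin_inv_le_overlap O u)
    (Algebra.subset_adjoin (by simp)) (fun w hw => by
      have hw' : IsIntegral (Algebra.adjoin O ({u⁻¹, u⁻¹⁻¹} : Set L)) w := by
        rw [inv_inv, Set.pair_comm]; exact hw
      exact CechP1.exists_pow_mul_isIntegral u⁻¹ (inv_ne_zero hu) w hw')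
    P h hh

end Adapter

section Nodal

open Fermat.Agent.S30.Model Fermat.Agent.S30.Model.GlueChart Fermat.Agent.S34.ToricInertia
  Fermat.Agent.S34.Nodal

variable {O E L : Type*} [CommRing O] [IsDomain O] [IsDiscreteValuationRing O] [Field E]
  [Algebra O E] [IsFractionRing O E] [Field L] [Algebra E L] [Algebra O L] [IsScalarTower O E L]

/-- **(STAR) at every maximal ideal of a nodal chart which is not a crossing point**, for `h` a
unit at both components with `m ∣ div h` on the generic fibre. -/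
theorem star_of_isNodalChart (π : O) (hπ : Irreducible π) (t : L) [IsNoetherianRing (Chart O t)]
    {p₁ p₂ : Ideal (Chart O t)} (hN : IsNodalChart π t p₁ p₂) (m : ℕ) (hm : 0 < m) (h : L)
    (hu₁ : ∃ a b : Chart O t, a ∉ p₁ ∧ b ∉ p₁ ∧ h * (b : L) = (a : L))
    (hu₂ : ∃ a b : Chart O t, a ∉ p₂ ∧ b ∉ p₂ ∧ h * (b : L) = (a : L))
    (hdiv : LocPow (E := E) m t h) (M : Ideal (Chart O t)) [hM : M.IsMaximal]
    (hnode : ¬ (p₁ ≤ M ∧ p₂ ≤ M)) : Star O {t} m h M := by
  have hπE := exists_pow_mul_eq_algebraMap (E := E) π hπ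
  have hπ0 : algebraMap O L π ≠ 0 := by
    rw [IsScalarTower.algebraMap_apply O E L]
    intro h0
    have h1 : algebraMap O E π = 0 := (algebraMap E L).injective (by rw [h0, map_zero])
    exact hπ.ne_zero (IsFractionRing.injective O E (by rw [h1, map_zero]))
  by_cases hπM : piElt (Algebra.adjoin O ({t} : Set L)) π ∈ M
  · have hle : p₁ ⊓ p₂ ≤ M := by
      rw [hN.inf_eq, Ideal.span_singleton_le_iff_mem]; exact hπM
    have hp₁ := hN.isPrime₁
    have hp₂ := hN.isPrime₂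
    have hd₁ := hN.dedekind₁
    have hd₂ := hN.dedekind₂
    rcases (hM.isPrime.inf_le).1 hle with h1 | h2
    · exact star_of_one_branch π hπE hπ0 t p₁ p₂ hN.inf_eq m hm h hu₁ hdiv M h1
        (fun h2 => hnode ⟨h1, h2⟩)
    · exact star_of_one_branch π hπE hπ0 t p₂ p₁ (by rw [inf_comm]; exact hN.inf_eq) m hm h hu₂
        hdiv M h2 (fun h1 => hnode ⟨h1, h2⟩)
  · have hh : h ≠ 0 := by
      obtain ⟨a, b, ha, -, hab⟩ := hu₁
      rintro rfl
      rw [zero_mul] at hab
      exact ha ((Subtype.ext hab.symm : a = 0) ▸ p₁.zero_mem)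
    exact star_of_not_mem π hπE t m hm h hh hdiv M hπM

/-- **(STAR) on the chart `u`** at every maximal ideal which is not a crossing point, for a
toric `h` with `m ∣ div h`. -/
theorem star_chartZero (π : O) (hπ : Irreducible π) (u : L) (hu : u ≠ 0) [IsNoetherianRing (Chart O u)]
    (D : NodalDatum π u) (m : ℕ) (hm : 0 < m) (h : L) (hh : D.Toric h)
    (hdiv : LocPow (E := E) m u h) (M : Ideal (Chart O u)) [M.IsMaximal]
    (hnode : ¬ (D.P₁.comap (toOverlapZero O u) ≤ M ∧ D.P₂.comap (toOverlapZero O u) ≤ M)) :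
    Star O {u} m h M :=
  star_of_isNodalChart π hπ u D.chartZero m hm h (exists_unit_zero u hu D.P₁ h hh.1)
    (exists_unit_zero u hu D.P₂ h hh.2) hdiv M hnode

/-- **(STAR) on the chart `u⁻¹`** at every maximal ideal which is not a crossing point, for a
toric `h` with `m ∣ div h`. -/
theorem star_chartInf (π : O) (hπ : Irreducible π) (u : L) (hu : u ≠ 0)
    [IsNoetherianRing (Chart O u⁻¹)]
    (D : NodalDatum π u) (m : ℕ) (hm : 0 < m) (h : L) (hh : D.Toric h)
    (hdiv : LocPow (E := E) m u⁻¹ h) (M : Ideal (Chart O u⁻¹)) [M.IsMaximal]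
    (hnode : ¬ (D.P₁.comap (toOverlapInf O u) ≤ M ∧ D.P₂.comap (toOverlapInf O u) ≤ M)) :
    Star O {u⁻¹} m h M :=
  star_of_isNodalChart π hπ u⁻¹ D.chartInf m hm h (exists_unit_inf u hu D.P₁ h hh.1)
    (exists_unit_inf u hu D.P₂ h hh.2) hdiv M hnode

end Nodal

end Fermat.Agent.S34.Regular
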