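import Mathlib
import Fermat.Agent.S18.LocPow
import Fermat.Agent.S18.PlaceUp
import Fermat.Agent.S18.K1Defs
import Fermat.Agent.S30.E4.Defs
import Fermat.Agent.S30.Model.Main

/-!
# PROGRAM U, brick U.SSb.LocPow: `m ∣ div h` at the places ⇒ `Model.LocPow` on BOTH charts

The `K`-level consumers of Program U (`S34/Nodal/Main.lean`: `star_zero`, `star_inf`, `inj_ss`,
`inj_ss_swapping`; `S34/Regular.lean`) take the hypothesis "`m ∣ div h`" in the elementwise form
`Model.LocPow m u h` AND `Model.LocPow m u⁻¹ h` (chart `u` and chart `u⁻¹`) for an abstract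
coordinate `u` of the function field `L / E`.  This file produces both from divisibility of the
orders at the places:

* generic (`E` of characteristic zero, `u : L` transcendental over `E`, `L / E(u)` finite):
  `transcendental_inv`, `adjoin_inv_eq`, `finiteDimensional_adjoin_inv` (the chart `u⁻¹` satisfies
  the standing hypotheses of the chart `u`), `locPow_of_places`, `locPow_inv_of_places`,
  `locPow_both_of_places`;
* closure of the place hypothesis under products, inverses, quotients and ring automorphisms of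
  the function field (`dvd_ord_mul`, `dvd_ord_inv`, `dvd_ord_div`), so that `τ h / h` inherits it;
* modular (`E ⊆ ℚ̄` an intermediate field, `L = LE N E ⊆ E((q))`): `dvd_ord_of_divBy` (from
  `E4.DivBy N m` of the extension of constants to `ℚ̄`, via `S18.PlaceUp`), `locPow_both_of_divBy`,
  and the literal `q`-expansion forms `locPow_both_of_divBy'` (vocabulary of `S34.Descend.InjSSE`).
-/

set_option autoImplicit false

namespace Fermat.Agent.S34.LocPowK

open Polynomial AlgebraicCurve ModularCurve

section Generic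

variable {E L : Type*} [Field E] [Field L] [Algebra E L]

/-- The coordinate `u⁻¹` is transcendental if `u` is. -/
theorem transcendental_inv {u : L} (hu : Transcendental E u) : Transcendental E u⁻¹ :=
  fun h => hu (by simpa using h.inv)

/-- `E(u⁻¹) = E(u)`. -/
theorem adjoin_inv_eq (u : L) :
    IntermediateField.adjoin E {u⁻¹} = IntermediateField.adjoin E {u} := by
  apply le_antisymm
  · rw [IntermediateField.adjoin_simple_le_iff]
    exact inv_mem (IntermediateField.mem_adjoin_simple_self E u)
  · rw [IntermediateField.adjoin_simple_le_iff]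
    have := inv_mem (IntermediateField.mem_adjoin_simple_self E u⁻¹)
    simpa using this

/-- `L / E(u⁻¹)` is finite if `L / E(u)` is. -/
theorem finiteDimensional_adjoin_inv (u : L)
    [FiniteDimensional (IntermediateField.adjoin E {u}) L] :
    FiniteDimensional (IntermediateField.adjoin E {u⁻¹}) L := by
  rw [adjoin_inv_eq]; infer_instance

/-! ### Closure properties of "`m ∣ ord_P h` for all places `P`" -/

theorem dvd_ord_mul {m : ℤ} {g h : L} (hg0 : g ≠ 0) (hh0 : h ≠ 0)
    (hg : ∀ P : Place E L, m ∣ P.ord g) (hh : ∀ P : Place E L, m ∣ P.ord h)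
    (P : Place E L) : m ∣ P.ord (g * h) := by
  rw [P.ord_mul hg0 hh0]
  exact dvd_add (hg P) (hh P)

theorem dvd_ord_inv {m : ℤ} {h : L} (hh : ∀ P : Place E L, m ∣ P.ord h)
    (P : Place E L) : m ∣ P.ord h⁻¹ := by
  rw [P.ord_inv]
  exact (dvd_neg).2 (hh P)

theorem dvd_ord_div {m : ℤ} {g h : L} (hg0 : g ≠ 0) (hh0 : h ≠ 0)
    (hg : ∀ P : Place E L, m ∣ P.ord g) (hh : ∀ P : Place E L, m ∣ P.ord h)
    (P : Place E L) : m ∣ P.ord (g / h) := by
  rw [div_eq_mul_inv]
  exact dvd_ord_mul hg0 (inv_ne_zero hh0) hg (dvd_ord_inv hh) P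

variable [CharZero E]

/-- **Chart `u`.**  If `m ∣ ord_P h` at every place of `L / E`, then `h` is locally an `m`-th
power times a unit at every closed point of the affine `u`-line. -/
theorem locPow_of_places (u : L) (hu : Transcendental E u)
    [FiniteDimensional (IntermediateField.adjoin E {u}) L] (m : ℕ) (h : L) (hh : h ≠ 0)
    (hdiv : ∀ P : Place E L, (m : ℤ) ∣ P.ord h) :
    Fermat.Agent.S30.Model.LocPow (E := E) m u h :=
  fun f hf => Fermat.Agent.S18.LocPow.locPow_of_dvd_ord u hu m h hh hdiv f hf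

/-- **Chart `u⁻¹`.**  Same hypotheses (stated for the coordinate `u`). -/
theorem locPow_inv_of_places (u : L) (hu : Transcendental E u)
    [FiniteDimensional (IntermediateField.adjoin E {u}) L] (m : ℕ) (h : L) (hh : h ≠ 0)
    (hdiv : ∀ P : Place E L, (m : ℤ) ∣ P.ord h) :
    Fermat.Agent.S30.Model.LocPow (E := E) m u⁻¹ h := by
  have := finiteDimensional_adjoin_inv (E := E) u
  exact fun f hf =>
    Fermat.Agent.S18.LocPow.locPow_of_dvd_ord u⁻¹ (transcendental_inv hu) m h hh hdiv f hf

/-- **Both charts.** -/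
theorem locPow_both_of_places (u : L) (hu : Transcendental E u)
    [FiniteDimensional (IntermediateField.adjoin E {u}) L] (m : ℕ) (h : L) (hh : h ≠ 0)
    (hdiv : ∀ P : Place E L, (m : ℤ) ∣ P.ord h) :
    Fermat.Agent.S30.Model.LocPow (E := E) m u h ∧
      Fermat.Agent.S30.Model.LocPow (E := E) m u⁻¹ h :=
  ⟨locPow_of_places u hu m h hh hdiv, locPow_inv_of_places u hu m h hh hdiv⟩

end Generic

section Modular

open Fermat.Agent.S18.K1Defs Fermat.Agent.S18.PlaceUp Fermat.Agent.S30

local notation "Qb" => AlgebraicClosure ℚ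

variable (N : ℕ) (E : IntermediateField ℚ Qb)

/-- Extension of constants `LE N E → Fb N` (= `S18.PlaceUp.upHom`). -/
noncomputable abbrev upFb : ↥(LE N E) →+* ↥(E4.Fb N) := upHom E (modularFunctionFieldFull N)

/-- **Descent of `m ∣ div` to the `E`-level**: if the orders of (the extension of constants
of) `h` at all places of `Fb N / ℚ̄` are divisible by `m`, so are its orders at all places of
`LE N E / E`. -/
theorem dvd_ord_of_divBy (m : ℕ) (h : ↥(LE N E)) (hdiv : E4.DivBy N m (upFb N E h))
    (P : Place E ↥(LE N E)) : (m : ℤ) ∣ P.ord h := by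
  obtain ⟨P', hP'⟩ := exists_place_up E (modularFunctionFieldFull N) P
  rw [← hP' h]
  exact hdiv P'

/-- **U.SSb.LocPow, `K`-level.**  `E ⊆ ℚ̄`, `L = LE N E`, `u : L` an abstract coordinate
(transcendental over `E`, `L / E(u)` finite), `h ∈ L^×` with `m ∣ div h` over `ℚ̄`
(`E4.DivBy N m`).  Then `Model.LocPow m u h` and `Model.LocPow m u⁻¹ h`. -/
theorem locPow_both_of_divBy (u : ↥(LE N E)) (hu : Transcendental E u)
    [FiniteDimensional (IntermediateField.adjoin E {u}) ↥(LE N E)] (m : ℕ)
    (h : ↥(LE N E)) (hh : h ≠ 0) (hdiv : E4.DivBy N m (upFb N E h)) :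
    Model.LocPow (E := E) m u h ∧ Model.LocPow (E := E) m u⁻¹ h :=
  locPow_both_of_places u hu m h hh (dvd_ord_of_divBy N E m h hdiv)

/-- The same in the literal `q`-expansion vocabulary of `S34.Descend.InjSSE`: `h` a Laurent
series over `E` lying in `LE N E`, `DivBy` stated for `coeffMap (algebraMap E ℚ̄) h`. -/
theorem locPow_both_of_divBy' (u : ↥(LE N E)) (hu : Transcendental E u)
    [FiniteDimensional (IntermediateField.adjoin E {u}) ↥(LE N E)] (m : ℕ)
    (h : LaurentSeries E) (hL : h ∈ LE N E) (hh : h ≠ 0)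
    (hbar : coeffMap (algebraMap E Qb) h ∈ E4.Fb N)
    (hdiv : E4.DivBy N m ⟨coeffMap (algebraMap E Qb) h, hbar⟩) :
    Model.LocPow (E := E) m u (⟨h, hL⟩ : ↥(LE N E)) ∧
      Model.LocPow (E := E) m u⁻¹ (⟨h, hL⟩ : ↥(LE N E)) :=
  locPow_both_of_divBy N E u hu m ⟨h, hL⟩ (fun h0 => hh (congrArg Subtype.val h0)) hdiv

end Modular

end Fermat.Agent.S34.LocPowK
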