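import Mathlib
import Fermat.Prelude.Def_ModularCurve_X0
import Fermat.Prelude.Thm_ModularCurve_coeffMap_qExpand

/-!
# S34 (SSa): independence of `1, f, …, f^(ℓ-1)` over `κ((q^ℓ))` and transcendence of `f`

`κ` a domain, `f ∈ κ((q))`, `V = qExpand κ ℓ : x(q) ↦ x(q^ℓ)`.

* `sum_ne_zero_of_injOn_order` : a finite sum of nonzero Laurent series with pairwise distinct
  orders is nonzero.
* `order_qExpand` : `ord V(c) = ℓ · ord c`.
* `eq_zero_of_sum_qExpand_mul_pow_eq_zero` : if `gcd(ord f, ℓ) = 1` and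
  `∑_{i<ℓ} V(c i) · f^i = 0` then all `c i = 0`  (residue degree `ℓ` of the `0`-component).
* `eval₂_ne_zero_of_order_ne_zero` : if `ord f ≠ 0` then `f` is transcendental over `κ`
  (`p ≠ 0 ⇒ p(f) ≠ 0`).
-/

set_option autoImplicit false
set_option linter.unusedSectionVars false

namespace Fermat.Agent.S34.ExpandIndep

open ModularCurve

variable {κ : Type*} [CommRing κ] [IsDomain κ]

/-- A finite sum of nonzero Laurent series with pairwise distinct orders is nonzero. -/
theorem sum_ne_zero_of_injOn_order {ι : Type*} (s : Finset ι) (hs : s.Nonempty)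
    (t : ι → LaurentSeries κ) (hne : ∀ i ∈ s, t i ≠ 0)
    (hinj : ∀ i ∈ s, ∀ j ∈ s, (t i).order = (t j).order → i = j) :
    ∑ i ∈ s, t i ≠ 0 := by
  classical
  obtain ⟨i₀, hi₀, hmin⟩ := s.exists_min_image (fun i => (t i).order) hs
  intro h0
  have hcoeff : (∑ i ∈ s, t i).coeff (t i₀).order = (t i₀).coeff (t i₀).order := by
    rw [HahnSeries.coeff_sum]
    refine Finset.sum_eq_single i₀ (fun j hj hji => ?_) (fun h => absurd hi₀ h)
    apply HahnSeries.coeff_eq_zero_of_lt_order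
    exact lt_of_le_of_ne (hmin j hj) (fun h => hji (hinj j hj i₀ hi₀ h.symm))
  rw [h0, HahnSeries.coeff_zero] at hcoeff
  exact (hne i₀ hi₀) (HahnSeries.coeff_order_eq_zero.mp hcoeff.symm)

/-- `ord x(q^ℓ) = ℓ · ord x`. -/
theorem order_qExpand (ℓ : ℕ) [NeZero ℓ] (c : LaurentSeries κ) :
    (qExpand κ ℓ c).order = (ℓ : ℤ) * c.order := by
  by_cases hc : c = 0
  · rw [hc, map_zero, HahnSeries.order_zero, mul_zero]
  have hc' : qExpand κ ℓ c ≠ 0 := fun h => hc (qExpand_injective ℓ (by rw [h, map_zero]))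
  apply le_antisymm
  · apply HahnSeries.order_le_of_coeff_ne_zero
    rw [qExpand_coeff_mul]
    exact fun h0 => hc (HahnSeries.coeff_order_eq_zero.mp h0)
  · by_contra hlt
    rw [not_le] at hlt
    apply hc'
    apply HahnSeries.coeff_order_eq_zero.mp
    by_cases hd : (ℓ : ℤ) ∣ (qExpand κ ℓ c).order
    · obtain ⟨k, hk⟩ := hd
      rw [hk, qExpand_coeff_mul]
      apply HahnSeries.coeff_eq_zero_of_lt_order
      rw [hk] at hlt
      exact lt_of_mul_lt_mul_left hlt (Int.natCast_nonneg ℓ)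
    · exact qExpand_coeff_of_not_dvd ℓ c hd

/-- **Independence.**  If `gcd(ord f, ℓ) = 1` then `1, f, …, f^(ℓ-1)` are linearly independent
over the subring `κ((q^ℓ))`. -/
theorem eq_zero_of_sum_qExpand_mul_pow_eq_zero (ℓ : ℕ) [NeZero ℓ] (f : LaurentSeries κ)
    (hf0 : f ≠ 0) (hf : IsCoprime f.order (ℓ : ℤ)) (c : Fin ℓ → LaurentSeries κ)
    (h : ∑ i, qExpand κ ℓ (c i) * f ^ (i : ℕ) = 0) : ∀ i, c i = 0 := by
  classical
  by_contra hex
  rw [not_forall] at hex
  set s : Finset (Fin ℓ) := Finset.univ.filter (fun i => c i ≠ 0) with hs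
  have hsne : s.Nonempty := by
    obtain ⟨i, hi⟩ := hex
    exact ⟨i, by rw [hs, Finset.mem_filter]; exact ⟨Finset.mem_univ _, hi⟩⟩
  have hsum : ∑ i ∈ s, qExpand κ ℓ (c i) * f ^ (i : ℕ) = 0 := by
    rw [← h, hs, Finset.sum_filter]
    refine Finset.sum_congr rfl fun i _ => ?_
    by_cases hi : c i = 0
    · simp [hi]
    · simp [hi]
  have hterm : ∀ i ∈ s, qExpand κ ℓ (c i) ≠ 0 := by
    intro i hi
    rw [hs, Finset.mem_filter] at hi
    exact fun h0 => hi.2 (qExpand_injective ℓ (by rw [h0, map_zero]))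
  refine sum_ne_zero_of_injOn_order s hsne _ (fun i hi => mul_ne_zero (hterm i hi)
    (pow_ne_zero _ hf0)) ?_ hsum
  intro i hi j hj hij
  rw [HahnSeries.order_mul (hterm i hi) (pow_ne_zero _ hf0),
    HahnSeries.order_mul (hterm j hj) (pow_ne_zero _ hf0), HahnSeries.order_pow,
    HahnSeries.order_pow, order_qExpand, order_qExpand] at hij
  simp only [nsmul_eq_mul] at hij
  -- `(i - j) * ord f ≡ 0 mod ℓ`, hence `i ≡ j mod ℓ`
  have hdvd : (ℓ : ℤ) ∣ ((i : ℕ) : ℤ) - ((j : ℕ) : ℤ) := by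
    have h1 : (ℓ : ℤ) ∣ (((i : ℕ) : ℤ) - ((j : ℕ) : ℤ)) * f.order :=
      ⟨(c j).order - (c i).order, by linear_combination hij⟩
    exact (hf.symm.dvd_of_dvd_mul_right h1)
  have hi' := i.2
  have hj' := j.2
  apply Fin.ext
  obtain ⟨k, hk⟩ := hdvd
  have hk0 : k = 0 := by
    by_contra hk0
    have h2 : (ℓ : ℤ) ≤ |((i : ℕ) : ℤ) - ((j : ℕ) : ℤ)| := by
      rw [hk, abs_mul, abs_of_nonneg (Int.natCast_nonneg ℓ)]
      exact le_mul_of_one_le_right (Int.natCast_nonneg ℓ) (Int.one_le_abs hk0)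
    have h3 : |((i : ℕ) : ℤ) - ((j : ℕ) : ℤ)| < (ℓ : ℤ) := by
      rw [abs_lt]
      constructor <;> omega
    exact absurd h2 (not_le.mpr h3)
  rw [hk0, mul_zero] at hk
  omega

/-- **Transcendence.**  A Laurent series of nonzero order is transcendental over `κ`. -/
theorem eval₂_ne_zero_of_order_ne_zero (f : LaurentSeries κ) (hf : f.order ≠ 0)
    (p : Polynomial κ) (hp : p ≠ 0) :
    p.eval₂ (HahnSeries.C : κ →+* LaurentSeries κ) f ≠ 0 := by
  classical
  have hf0 : f ≠ 0 := by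
    rintro rfl
    exact hf HahnSeries.order_zero
  rw [Polynomial.eval₂_eq_sum, Polynomial.sum_def]
  have hC : ∀ i ∈ p.support, (HahnSeries.C : κ →+* LaurentSeries κ) (p.coeff i) ≠ 0 := by
    intro i hi
    rw [Polynomial.mem_support_iff] at hi
    exact fun h0 => hi (HahnSeries.C_injective (by rw [h0, map_zero]))
  refine sum_ne_zero_of_injOn_order p.support
    (Polynomial.nonempty_support_iff.mpr hp) _
    (fun i hi => mul_ne_zero (hC i hi) (pow_ne_zero _ hf0)) ?_
  intro i hi j hj hij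
  rw [HahnSeries.order_mul (hC i hi) (pow_ne_zero _ hf0),
    HahnSeries.order_mul (hC j hj) (pow_ne_zero _ hf0), HahnSeries.order_pow,
    HahnSeries.order_pow, HahnSeries.order_C, HahnSeries.order_C, zero_add, zero_add] at hij
  simp only [nsmul_eq_mul] at hij
  have := mul_right_cancel₀ hf hij
  exact_mod_cast this

end Fermat.Agent.S34.ExpandIndep
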