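import Mathlib
import Fermat.Agent.Lib.NormalFree

/-!
# S34 (semistable Kummer lemma), level-free core of (SSb): exactly two primes over `π`

Setting (as in `Lib.NormalFree`): `R`, `C` integrally closed domains, `C` integral over `R`,
`R → C` injective, `π ∈ R` a prime element.  `P₁ ≠ P₂` are primes of `C` lying over `(π)`, and
`x : Fin d₁ → C`, `y : Fin d₂ → C` are families that are independent over `R ⧸ π` modulo `P₁`,
resp. `P₂`; finally any `d₁ + d₂ + 1` elements of `C` are `R`-linearly dependent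
(`[Frac C : Frac R] ≤ d₁ + d₂`).  Then

* `inf_eq_span`            : `P₁ ⊓ P₂ = (π)` — so `C ⧸ π` is reduced, `e = 1` at both primes;
* `eq_or_eq`               : `P₁`, `P₂` are the only primes of `C` lying over `(π)`;
* `exists_smul_sub_sum_mem`: the `x i` span `C ⧸ P₁` over `Frac (R ⧸ π)`:
  `∀ c, ∃ s a, ¬ π ∣ s ∧ s • c - ∑ a i • x i ∈ P₁`  (so the residue degree is exactly `d₁`);
* `exists_sub_algebraMap_mem` : if `d₁ = 1`, `x = 1` and `R ⧸ π` is integrally closed, then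
  `R ⧸ π → C ⧸ P₁` is surjective (the component `C ⧸ P₁` *is* `R ⧸ π`).

Everything is elementwise linear algebra (no localisation types, no Dedekind domains, no
discriminants).  Intended use: `R` = the level-`M` ring (integral closure of `O[j]` in `F_M`,
`π` prime by the model theorem), `C` = the level-`ℓM` ring, `P₁ = p_∞` (`d₁ = 1`, `x = 1`),
`P₂ = p₀ = W p_∞` (`d₂ = ℓ`, `y i = (W j) ^ i`), `[F_{ℓM} : F_M] = ℓ + 1`.
-/

set_option autoImplicit false
set_option linter.unusedSectionVars false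

namespace Fermat.Agent.S34.TwoPrimes

open Fermat.Agent.Lib

section Relation

variable {R C : Type*} [CommRing R] [IsDomain R] [CommRing C] [IsDomain C] [Algebra R C]
  [FaithfulSMul R C]

/-- In a domain `C` with `R → C` injective, `π • s = 0` with `π ≠ 0` forces `s = 0`. -/
theorem eq_zero_of_smul_eq_zero {π : R} (hπ : π ≠ 0) {s : C} (h : π • s = 0) : s = 0 := by
  rw [Algebra.smul_def] at h
  rcases mul_eq_zero.mp h with h | h
  · exact absurd ((map_eq_zero_iff _ (FaithfulSMul.algebraMap_injective R C)).mp h) hπ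
  · exact h

/-- A nontrivial `R`-linear relation can be made *primitive* at a prime element `π`: some
coefficient is not divisible by `π`. -/
theorem exists_primitive_relation [WfDvdMonoid R] {π : R} (hπ : Prime π) {ι : Type*} [Fintype ι]
    (v : ι → C) (c : ι → R) (hc : c ≠ 0) (hrel : ∑ i, c i • v i = 0) :
    ∃ c' : ι → R, (∑ i, c' i • v i = 0) ∧ ∃ i, ¬ π ∣ c' i := by
  obtain ⟨i₀, hi₀⟩ : ∃ i, c i ≠ 0 := by
    by_contra h
    simp only [not_exists, not_not] at h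
    exact hc (funext h)
  have key : ∀ a : R, ∀ c : ι → R, c i₀ = a → a ≠ 0 → (∑ i, c i • v i = 0) →
      ∃ c' : ι → R, (∑ i, c' i • v i = 0) ∧ ∃ i, ¬ π ∣ c' i := by
    intro a
    refine WellFounded.induction (C := fun a => ∀ c : ι → R, c i₀ = a → a ≠ 0 →
      (∑ i, c i • v i = 0) → ∃ c' : ι → R, (∑ i, c' i • v i = 0) ∧ ∃ i, ¬ π ∣ c' i)
      wellFounded_dvdNotUnit a ?_
    intro a ih c hca ha hrel
    by_cases h : ∃ i, ¬ π ∣ c i
    · exact ⟨c, hrel, h⟩
    · simp only [not_exists, not_not] at h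
      choose c' hc' using h
      have hrel' : ∑ i, c' i • v i = 0 := by
        apply eq_zero_of_smul_eq_zero hπ.ne_zero
        rw [Finset.smul_sum, ← hrel]
        refine Finset.sum_congr rfl fun i _ => ?_
        rw [hc' i, mul_smul]
      have hc'0 : c' i₀ ≠ 0 := by
        intro h0
        apply ha
        rw [← hca, hc' i₀, h0, mul_zero]
      refine ih (c' i₀) ⟨hc'0, π, hπ.not_isUnit, ?_⟩ c' rfl hc'0 hrel'
      rw [← hca, hc' i₀, mul_comm]
  exact key (c i₀) c rfl hi₀ hrel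

/-- `π`-adic separatedness from well-foundedness of divisibility. -/
theorem exists_not_pow_dvd_of_wf [WfDvdMonoid R] {π : R} (hπ : Prime π) (a : R) (ha : a ≠ 0) :
    ∃ n : ℕ, ¬ π ^ n ∣ a := by
  obtain ⟨n, hn⟩ := FiniteMultiplicity.of_not_isUnit hπ.not_isUnit ha
  exact ⟨n + 1, hn⟩

/-- `exists_primitive_relation` under `π`-adic separatedness only (no `WfDvdMonoid`). -/
theorem exists_primitive_relation_of_sep {π : R} (hπ : Prime π)
    (hsep : ∀ a : R, a ≠ 0 → ∃ n : ℕ, ¬ π ^ n ∣ a) {ι : Type*} [Fintype ι]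
    (v : ι → C) (c : ι → R) (hc : c ≠ 0) (hrel : ∑ i, c i • v i = 0) :
    ∃ c' : ι → R, (∑ i, c' i • v i = 0) ∧ ∃ i, ¬ π ∣ c' i := by
  obtain ⟨i₀, hi₀⟩ : ∃ i, c i ≠ 0 := by
    by_contra h
    simp only [not_exists, not_not] at h
    exact hc (funext h)
  obtain ⟨n, hn⟩ := hsep (c i₀) hi₀
  have key : ∀ n : ℕ, ∀ c : ι → R, ¬ π ^ n ∣ c i₀ → (∑ i, c i • v i = 0) →
      ∃ c' : ι → R, (∑ i, c' i • v i = 0) ∧ ∃ i, ¬ π ∣ c' i := by
    intro n
    induction n with
    | zero =>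
      intro c hcn _
      exact absurd (by rw [pow_zero]; exact one_dvd _) hcn
    | succ n ih =>
      intro c hcn hrel
      by_cases h : ∃ i, ¬ π ∣ c i
      · exact ⟨c, hrel, h⟩
      · simp only [not_exists, not_not] at h
        choose c' hc' using h
        have hrel' : ∑ i, c' i • v i = 0 := by
          apply eq_zero_of_smul_eq_zero hπ.ne_zero
          rw [Finset.smul_sum, ← hrel]
          refine Finset.sum_congr rfl fun i _ => ?_
          rw [hc' i, mul_smul]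
        refine ih c' ?_ hrel'
        intro hdvd
        apply hcn
        rw [hc' i₀, pow_succ']
        exact mul_dvd_mul_left π hdvd
  exact key n c hn hrel

end Relation

section Main

variable {R C : Type*} [CommRing R] [IsDomain R] [IsIntegrallyClosed R]
  [CommRing C] [IsDomain C] [IsIntegrallyClosed C] [Algebra R C] [FaithfulSMul R C]
  [Algebra.IsIntegral R C]

/-- Two distinct primes of `C` with the same contraction to `R` are incomparable: each contains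
an element outside the other. -/
theorem exists_mem_not_mem {π : R} (P₁ P₂ : Ideal C) [P₁.IsPrime] [P₂.IsPrime]
    (hπ₁ : algebraMap R C π ∈ P₁)
    (hP₂ : ∀ a : R, algebraMap R C a ∈ P₂ → π ∣ a) (hne : P₁ ≠ P₂) :
    ∃ e : C, e ∈ P₁ ∧ e ∉ P₂ := by
  by_contra h
  simp only [not_exists, not_and, not_not] at h
  have hle : P₁ ≤ P₂ := fun e he => h e he
  obtain ⟨z, hz₂, hz₁⟩ := SetLike.exists_of_lt (lt_of_le_of_ne hle hne)
  have hlt := Ideal.comap_lt_comap_of_integral_mem_sdiff (R := R) hle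
    (show z ∈ (P₂ : Set C) \ P₁ from ⟨hz₂, hz₁⟩) (Algebra.IsIntegral.isIntegral z)
  obtain ⟨a, ha₂, ha₁⟩ := SetLike.exists_of_lt hlt
  apply ha₁
  rw [Ideal.mem_comap] at ha₂ ⊢
  obtain ⟨b, rfl⟩ := hP₂ a ha₂
  rw [map_mul]
  exact Ideal.mul_mem_right _ _ hπ₁

variable {π : R} (hπ : Prime π) (hsep : ∀ a : R, a ≠ 0 → ∃ n : ℕ, ¬ π ^ n ∣ a)
  (P₁ P₂ : Ideal C) [P₁.IsPrime] [P₂.IsPrime]
  (hπ₁ : algebraMap R C π ∈ P₁) (hπ₂ : algebraMap R C π ∈ P₂)
  (hP₁ : ∀ a : R, algebraMap R C a ∈ P₁ → π ∣ a) (hP₂ : ∀ a : R, algebraMap R C a ∈ P₂ → π ∣ a)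
  (hne : P₁ ≠ P₂) {d₁ d₂ : ℕ} (x : Fin d₁ → C) (y : Fin d₂ → C)
  (hx : ∀ a : Fin d₁ → R, ∑ i, a i • x i ∈ P₁ → ∀ i, π ∣ a i)
  (hy : ∀ a : Fin d₂ → R, ∑ i, a i • y i ∈ P₂ → ∀ i, π ∣ a i)
  (hrank : ∀ v : Option (Fin d₁ ⊕ Fin d₂) → C, ∃ c : Option (Fin d₁ ⊕ Fin d₂) → R,
    c ≠ 0 ∧ ∑ i, c i • v i = 0)

include hπ hsep hπ₁ hπ₂ hP₁ hP₂ hne hx hy hrank

/-- The basic dependence relation: for every `w : C` there are `s`, `a`, `b`, not all divisible
by `π`, with `s • w + e₁ * ∑ a i • x i + e₂ * ∑ b j • y j = 0`. -/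
theorem exists_relation_of_sep (e₁ e₂ w : C) :
    ∃ (s : R) (a : Fin d₁ → R) (b : Fin d₂ → R),
      s • w + e₁ * ∑ i, a i • x i + e₂ * ∑ j, b j • y j = 0 ∧
      (¬ π ∣ s ∨ (∃ i, ¬ π ∣ a i) ∨ ∃ j, ¬ π ∣ b j) := by
  obtain ⟨c, hc, hrel⟩ := hrank
    (fun o => Option.elim o w (Sum.elim (fun i => e₁ * x i) (fun j => e₂ * y j)))
  obtain ⟨c', hrel', k, hk⟩ := exists_primitive_relation_of_sep hπ hsep _ c hc hrel
  refine ⟨c' none, fun i => c' (some (Sum.inl i)), fun j => c' (some (Sum.inr j)), ?_, ?_⟩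
  · rw [Fintype.sum_option, Fintype.sum_sum_type] at hrel'
    simp only [Option.elim_none, Option.elim_some, Sum.elim_inl, Sum.elim_inr] at hrel'
    rw [Finset.mul_sum, Finset.mul_sum]
    rw [← hrel', add_assoc]
    congr 2
    · exact Finset.sum_congr rfl fun i _ => (mul_smul_comm _ _ _)
    · exact Finset.sum_congr rfl fun j _ => (mul_smul_comm _ _ _)
  · rcases k with _ | (i | j)
    · exact Or.inl hk
    · exact Or.inr (Or.inl ⟨i, hk⟩)
    · exact Or.inr (Or.inr ⟨j, hk⟩)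

/-- **(a)** `P₁ ⊓ P₂ = (π)`: the fibre `C ⧸ π` is reduced, with `e = 1` at both primes. -/
theorem inf_eq_span_of_sep : P₁ ⊓ P₂ = Ideal.span {algebraMap R C π} := by
  obtain ⟨e₂, he₂₁, he₂₂⟩ := exists_mem_not_mem P₁ P₂ hπ₁ hP₂ hne
  obtain ⟨e₁, he₁₂, he₁₁⟩ := exists_mem_not_mem P₂ P₁ hπ₂ hP₁ (Ne.symm hne)
  apply le_antisymm
  · intro w hw
    obtain ⟨hw₁, hw₂⟩ := Ideal.mem_inf.mp hw
    obtain ⟨s, a, b, hrel, hprim⟩ :=
      exists_relation_of_sep hπ hsep P₁ P₂ hπ₁ hπ₂ hP₁ hP₂ hne x y hx hy hrank e₁ e₂ w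
    -- reduce modulo `P₁`
    have ha : ∀ i, π ∣ a i := by
      apply hx
      have h1 : e₁ * ∑ i, a i • x i ∈ P₁ := by
        have : e₁ * ∑ i, a i • x i = -(s • w) - e₂ * ∑ j, b j • y j := by
          linear_combination hrel
        rw [this]
        exact P₁.sub_mem (P₁.neg_mem (P₁.smul_of_tower_mem s hw₁)) (P₁.mul_mem_right _ he₂₁)
      exact (Ideal.IsPrime.mem_or_mem inferInstance h1).resolve_left he₁₁
    -- reduce modulo `P₂`
    have hb : ∀ j, π ∣ b j := by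
      apply hy
      have h2 : e₂ * ∑ j, b j • y j ∈ P₂ := by
        have : e₂ * ∑ j, b j • y j = -(s • w) - e₁ * ∑ i, a i • x i := by
          linear_combination hrel
        rw [this]
        exact P₂.sub_mem (P₂.neg_mem (P₂.smul_of_tower_mem s hw₂)) (P₂.mul_mem_right _ he₁₂)
      exact (Ideal.IsPrime.mem_or_mem inferInstance h2).resolve_left he₂₂
    have hs : ¬ π ∣ s := by
      rcases hprim with h | ⟨i, hi⟩ | ⟨j, hj⟩
      · exact h
      · exact absurd (ha i) hi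
      · exact absurd (hb j) hj
    choose a' ha' using ha
    choose b' hb' using hb
    have hsw : s • w = π • (-(e₁ * ∑ i, a' i • x i) - e₂ * ∑ j, b' j • y j) := by
      have h1 : ∑ i, a i • x i = π • ∑ i, a' i • x i := by
        rw [Finset.smul_sum]
        exact Finset.sum_congr rfl fun i _ => by rw [ha' i, mul_smul]
      have h2 : ∑ j, b j • y j = π • ∑ j, b' j • y j := by
        rw [Finset.smul_sum]
        exact Finset.sum_congr rfl fun j _ => by rw [hb' j, mul_smul]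
      rw [h1, h2] at hrel
      rw [smul_sub, smul_neg, ← mul_smul_comm, ← mul_smul_comm]
      linear_combination hrel
    obtain ⟨z, hz⟩ := NormalFree.exists_eq_smul_of_smul_eq_smul hπ hs hsw
    rw [Ideal.mem_span_singleton]
    exact ⟨z, by rw [hz, Algebra.smul_def]⟩
  · rw [Ideal.span_singleton_le_iff_mem]
    exact Ideal.mem_inf.mpr ⟨hπ₁, hπ₂⟩

/-- **(b)** `P₁` and `P₂` are the only primes of `C` lying over `(π)`. -/
theorem eq_or_eq_of_sep (Q : Ideal C) [Q.IsPrime] (hπQ : algebraMap R C π ∈ Q)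
    (hQ : ∀ a : R, algebraMap R C a ∈ Q → π ∣ a) : Q = P₁ ∨ Q = P₂ := by
  have hinf := inf_eq_span_of_sep hπ hsep P₁ P₂ hπ₁ hπ₂ hP₁ hP₂ hne x y hx hy hrank
  have hle : P₁ ⊓ P₂ ≤ Q := by
    rw [hinf, Ideal.span_singleton_le_iff_mem]
    exact hπQ
  rcases (Ideal.IsPrime.inf_le inferInstance).mp hle with h | h
  · left
    by_contra hne'
    obtain ⟨e, he, he'⟩ := exists_mem_not_mem Q P₁ hπQ hP₁ hne'
    exact he' (by
      by_contra hcon
      obtain ⟨z, hzQ, hz₁⟩ := SetLike.exists_of_lt (lt_of_le_of_ne h (Ne.symm hne'))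
      have hlt := Ideal.comap_lt_comap_of_integral_mem_sdiff (R := R) h
        (show z ∈ (Q : Set C) \ P₁ from ⟨hzQ, hz₁⟩) (Algebra.IsIntegral.isIntegral z)
      obtain ⟨a, haQ, ha₁⟩ := SetLike.exists_of_lt hlt
      apply ha₁
      rw [Ideal.mem_comap] at haQ ⊢
      obtain ⟨b, rfl⟩ := hQ a haQ
      rw [map_mul]
      exact Ideal.mul_mem_right _ _ hπ₁)
  · right
    by_contra hne'
    obtain ⟨z, hzQ, hz₂⟩ := SetLike.exists_of_lt (lt_of_le_of_ne h (Ne.symm hne'))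
    have hlt := Ideal.comap_lt_comap_of_integral_mem_sdiff (R := R) h
      (show z ∈ (Q : Set C) \ P₂ from ⟨hzQ, hz₂⟩) (Algebra.IsIntegral.isIntegral z)
    obtain ⟨a, haQ, ha₂⟩ := SetLike.exists_of_lt hlt
    apply ha₂
    rw [Ideal.mem_comap] at haQ ⊢
    obtain ⟨b, rfl⟩ := hQ a haQ
    rw [map_mul]
    exact Ideal.mul_mem_right _ _ hπ₂

/-- **(c)** The family `x` spans `C ⧸ P₁` over the fraction field of `R ⧸ π`: the residue degree
of `P₁` is exactly `d₁`. -/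
theorem exists_smul_sub_sum_mem_of_sep (c : C) :
    ∃ (s : R) (a : Fin d₁ → R), ¬ π ∣ s ∧ s • c - ∑ i, a i • x i ∈ P₁ := by
  obtain ⟨e₂, he₂₁, he₂₂⟩ := exists_mem_not_mem P₁ P₂ hπ₁ hP₂ hne
  obtain ⟨e₁, he₁₂, he₁₁⟩ := exists_mem_not_mem P₂ P₁ hπ₂ hP₁ (Ne.symm hne)
  obtain ⟨s, a, b, hrel, hprim⟩ :=
    exists_relation_of_sep hπ hsep P₁ P₂ hπ₁ hπ₂ hP₁ hP₂ hne x y hx hy hrank e₁ e₂ (e₁ * c)
  -- modulo `P₂` (`e₁ ∈ P₂`)
  have hb : ∀ j, π ∣ b j := by
    apply hy
    have h2 : e₂ * ∑ j, b j • y j ∈ P₂ := by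
      have : e₂ * ∑ j, b j • y j = -(e₁ * (s • c)) - e₁ * ∑ i, a i • x i := by
        rw [mul_smul_comm]
        linear_combination hrel
      rw [this]
      exact P₂.sub_mem (P₂.neg_mem (P₂.mul_mem_right _ he₁₂)) (P₂.mul_mem_right _ he₁₂)
    exact (Ideal.IsPrime.mem_or_mem inferInstance h2).resolve_left he₂₂
  -- modulo `P₁` (`e₂ ∈ P₁`)
  have h1 : s • c + ∑ i, a i • x i ∈ P₁ := by
    have h1' : e₁ * (s • c + ∑ i, a i • x i) ∈ P₁ := by
      have : e₁ * (s • c + ∑ i, a i • x i) = -(e₂ * ∑ j, b j • y j) := by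
        rw [mul_add, mul_smul_comm]
        linear_combination hrel
      rw [this]
      exact P₁.neg_mem (P₁.mul_mem_right _ he₂₁)
    exact (Ideal.IsPrime.mem_or_mem inferInstance h1').resolve_left he₁₁
  have hs : ¬ π ∣ s := by
    intro hs
    have ha : ∀ i, π ∣ a i := by
      apply hx
      have hsc : s • c ∈ P₁ := by
        obtain ⟨t, rfl⟩ := hs
        rw [mul_smul, Algebra.smul_def]
        exact P₁.mul_mem_right _ hπ₁
      have : ∑ i, a i • x i = (s • c + ∑ i, a i • x i) - s • c := by ring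
      rw [this]
      exact P₁.sub_mem h1 hsc
    rcases hprim with h | ⟨i, hi⟩ | ⟨j, hj⟩
    · exact h hs
    · exact hi (ha i)
    · exact hj (hb j)
  refine ⟨s, fun i => -a i, hs, ?_⟩
  have : s • c - ∑ i, (-a i) • x i = s • c + ∑ i, a i • x i := by
    simp only [neg_smul, Finset.sum_neg_distrib, sub_neg_eq_add]
  rw [this]
  exact h1

end Main

section Closed

/-- If `c` is integral over an integrally closed domain `k` (through an injective
`φ : k →+* D`, `D` a domain) and `φ s * c = φ a` with `s ≠ 0`, then `c` is in the image of `φ`. -/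
theorem exists_map_eq_of_mul_eq {k D : Type*} [CommRing k] [IsDomain k] [IsIntegrallyClosed k]
    [CommRing D] [IsDomain D] (φ : k →+* D) (hφ : Function.Injective φ) {s a : k} (hs : s ≠ 0)
    {c : D} (hc : φ.IsIntegralElem c) (h : φ s * c = φ a) : ∃ r : k, φ r = c := by
  have hinj : Function.Injective ((algebraMap D (FractionRing D)).comp φ) :=
    (IsFractionRing.injective D (FractionRing D)).comp hφ
  set ψ : FractionRing k →+* FractionRing D := IsFractionRing.lift hinj with hψdef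
  have hψ : ∀ r : k, ψ (algebraMap k (FractionRing k) r) = algebraMap D (FractionRing D) (φ r) :=
    fun r => IsFractionRing.lift_algebraMap hinj r
  set z : FractionRing k := algebraMap k (FractionRing k) a / algebraMap k (FractionRing k) s
    with hz
  have hsL : algebraMap D (FractionRing D) (φ s) ≠ 0 := by
    intro h0
    have h1 : ((algebraMap D (FractionRing D)).comp φ) s = ((algebraMap D (FractionRing D)).comp φ) 0 := by
      simpa using h0
    exact hs (hinj h1)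
  have hψz : ψ z = algebraMap D (FractionRing D) c := by
    rw [hz, map_div₀, hψ, hψ, ← h, map_mul, mul_div_cancel_left₀ _ hsL]
  obtain ⟨p, hp, hpc⟩ := hc
  have hzint : IsIntegral k z := by
    refine ⟨p, hp, ?_⟩
    apply ψ.injective
    rw [map_zero, Polynomial.hom_eval₂, hψz]
    have hcomp : ψ.comp (algebraMap k (FractionRing k)) = (algebraMap D (FractionRing D)).comp φ :=
      RingHom.ext hψ
    rw [hcomp, ← Polynomial.hom_eval₂, hpc, map_zero]
  obtain ⟨r, hr⟩ := IsIntegrallyClosed.isIntegral_iff.mp hzint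
  refine ⟨r, IsFractionRing.injective D (FractionRing D) ?_⟩
  rw [← hψ, hr, hψz]

variable {R C : Type*} [CommRing R] [IsDomain R] [IsIntegrallyClosed R]
  [CommRing C] [IsDomain C] [IsIntegrallyClosed C] [Algebra R C] [FaithfulSMul R C]
  [Algebra.IsIntegral R C]

/-- **(d)** If the first family is `x = 1` (`d₁ = 1`) and `R ⧸ π` is integrally closed, then
`R ⧸ π → C ⧸ P₁` is surjective: the component `C ⧸ P₁` *is* `R ⧸ π`. -/
theorem exists_sub_algebraMap_mem_of_sep {π : R} (hπ : Prime π)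
    (hsep : ∀ a : R, a ≠ 0 → ∃ n : ℕ, ¬ π ^ n ∣ a)
    (hnormal : IsIntegrallyClosed (R ⧸ Ideal.span {π}))
    (P₁ P₂ : Ideal C) [P₁.IsPrime] [P₂.IsPrime]
    (hπ₁ : algebraMap R C π ∈ P₁) (hπ₂ : algebraMap R C π ∈ P₂)
    (hP₁ : ∀ a : R, algebraMap R C a ∈ P₁ → π ∣ a) (hP₂ : ∀ a : R, algebraMap R C a ∈ P₂ → π ∣ a)
    (hne : P₁ ≠ P₂) {d₂ : ℕ} (y : Fin d₂ → C)
    (hy : ∀ a : Fin d₂ → R, ∑ i, a i • y i ∈ P₂ → ∀ i, π ∣ a i)
    (hrank : ∀ v : Option (Fin 1 ⊕ Fin d₂) → C, ∃ c : Option (Fin 1 ⊕ Fin d₂) → R,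
      c ≠ 0 ∧ ∑ i, c i • v i = 0) (c : C) :
    ∃ r : R, c - algebraMap R C r ∈ P₁ := by
  have hprime : (Ideal.span {π}).IsPrime := (Ideal.span_singleton_prime hπ.ne_zero).mpr hπ
  have hx : ∀ a : Fin 1 → R, ∑ i, a i • (fun _ : Fin 1 => (1 : C)) i ∈ P₁ → ∀ i, π ∣ a i := by
    intro a ha i
    rw [Fin.sum_univ_one, Algebra.smul_def, mul_one] at ha
    rw [Subsingleton.elim i 0]
    exact hP₁ _ ha
  obtain ⟨s, a, hs, hsa⟩ := exists_smul_sub_sum_mem_of_sep hπ hsep P₁ P₂ hπ₁ hπ₂ hP₁ hP₂ hne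
    (fun _ : Fin 1 => (1 : C)) y hx hy hrank c
  rw [Fin.sum_univ_one, Algebra.smul_def, Algebra.smul_def, mul_one] at hsa
  -- the induced map on residue rings
  have hker : ∀ t ∈ Ideal.span {π}, ((Ideal.Quotient.mk P₁).comp (algebraMap R C)) t = 0 := by
    intro t ht
    obtain ⟨u, rfl⟩ := Ideal.mem_span_singleton.mp ht
    rw [RingHom.comp_apply, Ideal.Quotient.eq_zero_iff_mem, map_mul]
    exact P₁.mul_mem_right _ hπ₁
  set φ : R ⧸ Ideal.span {π} →+* C ⧸ P₁ := Ideal.Quotient.lift _ _ hker with hφdef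
  have hφmk : ∀ t : R, φ (Ideal.Quotient.mk _ t) = Ideal.Quotient.mk P₁ (algebraMap R C t) :=
    fun t => Ideal.Quotient.lift_mk _ _ hker
  have hφ : Function.Injective φ := by
    rw [injective_iff_map_eq_zero]
    intro t ht
    obtain ⟨r, rfl⟩ := Ideal.Quotient.mk_surjective t
    rw [hφmk, Ideal.Quotient.eq_zero_iff_mem] at ht
    rw [Ideal.Quotient.eq_zero_iff_mem, Ideal.mem_span_singleton]
    exact hP₁ r ht
  have hs0 : (Ideal.Quotient.mk (Ideal.span {π}) s) ≠ 0 := by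
    rw [Ne, Ideal.Quotient.eq_zero_iff_mem, Ideal.mem_span_singleton]
    exact hs
  have hcint : φ.IsIntegralElem (Ideal.Quotient.mk P₁ c) := by
    obtain ⟨p, hp, hpc⟩ := Algebra.IsIntegral.isIntegral (R := R) c
    refine ⟨p.map (Ideal.Quotient.mk (Ideal.span {π})), hp.map _, ?_⟩
    rw [Polynomial.eval₂_map]
    have hcomp : φ.comp (Ideal.Quotient.mk (Ideal.span {π})) =
        (Ideal.Quotient.mk P₁).comp (algebraMap R C) := RingHom.ext hφmk
    rw [hcomp, ← Polynomial.hom_eval₂, hpc, map_zero]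
  have hmul : φ (Ideal.Quotient.mk _ s) * Ideal.Quotient.mk P₁ c = φ (Ideal.Quotient.mk _ (a 0)) := by
    rw [hφmk, hφmk, ← map_mul, Ideal.Quotient.eq]
    exact hsa
  obtain ⟨r', hr'⟩ := exists_map_eq_of_mul_eq φ hφ hs0 hcint hmul
  obtain ⟨r, rfl⟩ := Ideal.Quotient.mk_surjective r'
  refine ⟨r, ?_⟩
  rw [hφmk, Ideal.Quotient.eq] at hr'
  have : c - algebraMap R C r = -(algebraMap R C r - c) := by ring
  rw [this]
  exact P₁.neg_mem hr'

end Closed

/-! ### The same statements under `[WfDvdMonoid R]` (e.g. `R` Noetherian) -/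

section Wf

variable {R C : Type*} [CommRing R] [IsDomain R] [IsIntegrallyClosed R] [WfDvdMonoid R]
  [CommRing C] [IsDomain C] [IsIntegrallyClosed C] [Algebra R C] [FaithfulSMul R C]
  [Algebra.IsIntegral R C]
  {π : R} (hπ : Prime π) (P₁ P₂ : Ideal C) [P₁.IsPrime] [P₂.IsPrime]
  (hπ₁ : algebraMap R C π ∈ P₁) (hπ₂ : algebraMap R C π ∈ P₂)
  (hP₁ : ∀ a : R, algebraMap R C a ∈ P₁ → π ∣ a) (hP₂ : ∀ a : R, algebraMap R C a ∈ P₂ → π ∣ a)
  (hne : P₁ ≠ P₂) {d₁ d₂ : ℕ} (x : Fin d₁ → C) (y : Fin d₂ → C)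
  (hx : ∀ a : Fin d₁ → R, ∑ i, a i • x i ∈ P₁ → ∀ i, π ∣ a i)
  (hy : ∀ a : Fin d₂ → R, ∑ i, a i • y i ∈ P₂ → ∀ i, π ∣ a i)
  (hrank : ∀ v : Option (Fin d₁ ⊕ Fin d₂) → C, ∃ c : Option (Fin d₁ ⊕ Fin d₂) → R,
    c ≠ 0 ∧ ∑ i, c i • v i = 0)

include hπ hπ₁ hπ₂ hP₁ hP₂ hne hx hy hrank

/-- **(a)** `P₁ ⊓ P₂ = (π)`: the fibre `C ⧸ π` is reduced, with `e = 1` at both primes. -/
theorem inf_eq_span : P₁ ⊓ P₂ = Ideal.span {algebraMap R C π} :=
  inf_eq_span_of_sep hπ (exists_not_pow_dvd_of_wf hπ) P₁ P₂ hπ₁ hπ₂ hP₁ hP₂ hne x y hx hy hrank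

/-- **(b)** `P₁` and `P₂` are the only primes of `C` lying over `(π)`. -/
theorem eq_or_eq (Q : Ideal C) [Q.IsPrime] (hπQ : algebraMap R C π ∈ Q)
    (hQ : ∀ a : R, algebraMap R C a ∈ Q → π ∣ a) : Q = P₁ ∨ Q = P₂ :=
  eq_or_eq_of_sep hπ (exists_not_pow_dvd_of_wf hπ) P₁ P₂ hπ₁ hπ₂ hP₁ hP₂ hne x y hx hy hrank
    Q hπQ hQ

/-- **(c)** The family `x` spans `C ⧸ P₁` over the fraction field of `R ⧸ π`: the residue degree
of `P₁` is exactly `d₁`. -/
theorem exists_smul_sub_sum_mem (c : C) :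
    ∃ (s : R) (a : Fin d₁ → R), ¬ π ∣ s ∧ s • c - ∑ i, a i • x i ∈ P₁ :=
  exists_smul_sub_sum_mem_of_sep hπ (exists_not_pow_dvd_of_wf hπ) P₁ P₂ hπ₁ hπ₂ hP₁ hP₂ hne
    x y hx hy hrank c

end Wf

section WfClosed

variable {R C : Type*} [CommRing R] [IsDomain R] [IsIntegrallyClosed R] [WfDvdMonoid R]
  [CommRing C] [IsDomain C] [IsIntegrallyClosed C] [Algebra R C] [FaithfulSMul R C]
  [Algebra.IsIntegral R C]

/-- **(d)** If the first family is `x = 1` (`d₁ = 1`) and `R ⧸ π` is integrally closed, then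
`R ⧸ π → C ⧸ P₁` is surjective: the component `C ⧸ P₁` *is* `R ⧸ π`. -/
theorem exists_sub_algebraMap_mem {π : R} (hπ : Prime π)
    (hnormal : IsIntegrallyClosed (R ⧸ Ideal.span {π}))
    (P₁ P₂ : Ideal C) [P₁.IsPrime] [P₂.IsPrime]
    (hπ₁ : algebraMap R C π ∈ P₁) (hπ₂ : algebraMap R C π ∈ P₂)
    (hP₁ : ∀ a : R, algebraMap R C a ∈ P₁ → π ∣ a) (hP₂ : ∀ a : R, algebraMap R C a ∈ P₂ → π ∣ a)
    (hne : P₁ ≠ P₂) {d₂ : ℕ} (y : Fin d₂ → C)
    (hy : ∀ a : Fin d₂ → R, ∑ i, a i • y i ∈ P₂ → ∀ i, π ∣ a i)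
    (hrank : ∀ v : Option (Fin 1 ⊕ Fin d₂) → C, ∃ c : Option (Fin 1 ⊕ Fin d₂) → R,
      c ≠ 0 ∧ ∑ i, c i • v i = 0) (c : C) :
    ∃ r : R, c - algebraMap R C r ∈ P₁ :=
  exists_sub_algebraMap_mem_of_sep hπ (exists_not_pow_dvd_of_wf hπ) hnormal P₁ P₂ hπ₁ hπ₂
    hP₁ hP₂ hne y hy hrank c

end WfClosed

section Rank

/-- The rank hypothesis of this file from a degree bound: if `[L : K] < #ι`, `K = Frac R`,
`C ⊆ L`, then any family `v : ι → C` satisfies a nontrivial `R`-linear relation. -/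
theorem exists_relation_of_finrank_lt {R C : Type*} [CommRing R] [IsDomain R] [CommRing C]
    [Algebra R C] (K L : Type*) [Field K] [Algebra R K] [IsFractionRing R K] [Field L]
    [Algebra K L] [Algebra R L] [IsScalarTower R K L] [Algebra C L] [IsScalarTower R C L]
    [Module.Finite K L] (hinj : Function.Injective (algebraMap C L))
    {ι : Type*} [Fintype ι] (h : Module.finrank K L < Fintype.card ι) (v : ι → C) :
    ∃ c : ι → R, c ≠ 0 ∧ ∑ i, c i • v i = 0 := by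
  classical
  have hdep : ¬ LinearIndependent K (fun i => algebraMap C L (v i)) := by
    intro hli
    exact absurd hli.fintype_card_le_finrank (not_le.mpr h)
  obtain ⟨g, hg, i₀, hi₀⟩ := Fintype.not_linearIndependent_iff.mp hdep
  obtain ⟨b, hb⟩ := IsLocalization.exist_integer_multiples_of_finite (nonZeroDivisors R) g
  choose c hc using hb
  have hb0 : algebraMap R K (b : R) ≠ 0 := by
    exact (map_ne_zero_iff (algebraMap R K) (IsFractionRing.injective R K)).mpr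
      (nonZeroDivisors.ne_zero b.2)
  refine ⟨c, ?_, hinj ?_⟩
  · intro hc0
    have h1 := hc i₀
    rw [hc0, Pi.zero_apply, map_zero, Algebra.smul_def] at h1
    rcases mul_eq_zero.mp h1.symm with h2 | h2
    · exact hb0 h2
    · exact hi₀ h2
  · rw [map_zero, map_sum]
    have h2 : ∀ i, algebraMap C L (c i • v i) = (b : R) • (g i • algebraMap C L (v i)) := by
      intro i
      rw [Algebra.smul_def, map_mul, ← IsScalarTower.algebraMap_apply,
        IsScalarTower.algebraMap_apply R K L, hc i, Algebra.smul_def (b : R) (g i), map_mul,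
        Algebra.smul_def (g i), Algebra.smul_def (b : R), IsScalarTower.algebraMap_apply R K L]
      ring
    rw [Finset.sum_congr rfl fun i _ => h2 i, ← Finset.smul_sum, hg, smul_zero]

end Rank

end Fermat.Agent.S34.TwoPrimes

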