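import Mathlib
import Fermat.Agent.S30.GaussDVR
import Fermat.Agent.S34.TwoPrimes
import Fermat.Agent.S34.ExpandIndep

/-!
# S34 (SSa): the two Gauss primes `p_∞`, `p_0` of the level-`ℓM` chart ring

Level-free in the modular sense: `L' ⊆ L` are fields with `O`-algebra structures (`O` a DVR,
uniformiser `ϖ`, residue field `κ`), `σ : L → E((q))` is a "`q`-expansion" embedding landing in
the fraction field of `O((q))`, `u' ∈ L'` has integral `q`-expansion `U` (`u' = j` or `1/j`),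
`w` is an automorphism of `L` with `σ (w x) = (σ x)(q^ℓ)` for `x ∈ L'` and `w ∘ w = 1`
(Atkin–Lehner).  `R`, `C` are the integral closures of `O[u']` in `L'`, `L`.

* `redHom` : the reduction `C → κ((q))` attached to a `q`-expansion embedding.
* `dvd_of_map_eq_zero` : the centre of the Gauss valuation on `R` is `(ϖ)` as soon as `ϖ` is
  prime in `R` (model theorem at level `M`).
* main statements: `dvd_of_redInf_redZero` (`p_∞ ∩ p_0 = (ϖ)`), `eq_ker_or_eq_ker` (no other
  prime over `ϖ`), `exists_redInf_sub_eq_zero` (`C / p_∞ = R / ϖ`), `exists_sep_inf`,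
  `exists_sep_zero` (`p_∞ ≠ p_0`).
-/

set_option autoImplicit false
set_option linter.unusedSectionVars false
set_option linter.style.haveILetI false

noncomputable section

namespace Fermat.Agent.S34.TwoPrimesGauss

open ModularCurve Polynomial
open Fermat.Agent.S30

/-! ### The Gauss ring and `q ↦ q^ℓ` -/

section Expand

variable {O E : Type*} [CommRing O] [IsDomain O] [IsDiscreteValuationRing O] [Field E]
  [Algebra O E] [FaithfulSMul O E]

theorem qExpand_mem_V (ℓ : ℕ) [NeZero ℓ] {x : LaurentSeries E} (hx : x ∈ GaussDVR.V O E) :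
    qExpand E ℓ x ∈ GaussDVR.V O E := by
  obtain ⟨a, b, hb, h⟩ := hx
  refine ⟨qExpand O ℓ a, qExpand O ℓ b, ?_, ?_⟩
  · rw [coeffMap_qExpand]
    exact fun h0 => hb (qExpand_injective ℓ (by rw [h0, map_zero]))
  · rw [coeffMap_qExpand, coeffMap_qExpand, ← map_mul, h]

theorem red_qExpand (ℓ : ℕ) [NeZero ℓ] (x : GaussDVR.V O E) :
    GaussDVR.red O E ⟨qExpand E ℓ (x : LaurentSeries E), qExpand_mem_V ℓ x.2⟩ =
      qExpand (IsLocalRing.ResidueField O) ℓ (GaussDVR.red O E x) := by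
  obtain ⟨a, b, hb, h⟩ := (GaussDVR.mem_V O E).mp x.2
  have hb' : GaussDVR.rho O (qExpand O ℓ b) ≠ 0 := by
    rw [coeffMap_qExpand]
    exact fun h0 => hb (qExpand_injective ℓ (by rw [h0, map_zero]))
  rw [GaussDVR.red_eq O E _ (qExpand O ℓ a) (qExpand O ℓ b) hb'
      (by
        show qExpand E ℓ (x : LaurentSeries E) * _ = _
        rw [coeffMap_qExpand, coeffMap_qExpand, ← map_mul, h]),
    GaussDVR.red_eq O E x a b hb h, coeffMap_qExpand, coeffMap_qExpand, map_div₀]

end Expand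

/-! ### The centre of a reduction map on an integral extension -/

section Centre

/-- If `π` is prime in `B`, `B` is integral over `f : A → B`, and a ring hom `r : B → k` into a
domain kills `π` and satisfies `r (f a) = 0 → π ∣ f a`, then `ker r = (π)`. -/
theorem dvd_of_map_eq_zero {A B k : Type*} [CommRing A] [CommRing B] [CommRing k] [IsDomain k]
    (f : A →+* B) (hint : ∀ b : B, f.IsIntegralElem b) (r : B →+* k) {π : B} (hπ : Prime π)
    (hπr : r π = 0) (hA : ∀ a : A, r (f a) = 0 → π ∣ f a) (b : B) (hb : r b = 0) : π ∣ b := by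
  obtain ⟨p, hp, hpb⟩ := hint b
  have key : ∀ n : ℕ, ∀ p : A[X], p.Monic → p.natDegree = n → π ∣ p.eval₂ f b → π ∣ b := by
    intro n
    induction n with
    | zero =>
      intro p hp hdeg hdvd
      rw [Polynomial.eq_one_of_monic_natDegree_zero hp hdeg, eval₂_one] at hdvd
      exact absurd (isUnit_of_dvd_one hdvd) hπ.not_isUnit
    | succ n ih =>
      intro p hp hdeg hdvd
      have hdecomp : p.eval₂ f b = (divX p).eval₂ f b * b + f (p.coeff 0) := by
        conv_lhs => rw [← divX_mul_X_add p]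
        rw [eval₂_add, eval₂_mul, eval₂_X, eval₂_C]
      have hr : r (f (p.coeff 0)) = 0 := by
        have h1 : r (p.eval₂ f b) = 0 := by
          obtain ⟨c, hc⟩ := hdvd
          rw [hc, map_mul, hπr, zero_mul]
        rw [hdecomp, map_add, map_mul, hb, mul_zero, zero_add] at h1
        exact h1
      have h0 := hA _ hr
      have h2 : π ∣ (divX p).eval₂ f b * b := by
        have : (divX p).eval₂ f b * b = p.eval₂ f b - f (p.coeff 0) := by rw [hdecomp]; ring
        rw [this]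
        exact dvd_sub hdvd h0
      rcases hπ.dvd_or_dvd h2 with h3 | h3
      · refine ih (divX p) ?_ ?_ h3
        · rw [Monic, leadingCoeff, natDegree_divX_eq_natDegree_tsub_one, hdeg, coeff_divX]
          have : n + 1 - 1 + 1 = p.natDegree := by rw [hdeg]; omega
          rw [this]
          exact hp
        · rw [natDegree_divX_eq_natDegree_tsub_one, hdeg]; rfl
      · exact h3
  exact key p.natDegree p hp rfl (by rw [hpb]; exact dvd_zero π)

end Centre

/-! ### Chart rings and `q`-expansion embeddings -/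

section Chart

variable {O E : Type*} [CommRing O] [IsDomain O] [IsDiscreteValuationRing O] [Field E]
  [Algebra O E] [FaithfulSMul O E] {L : Type*} [Field L] [Algebra O L]

/-- The chart ring: the integral closure of `O[u]` in `L`. -/
abbrev Chart (O : Type*) {L : Type*} [CommRing O] [Field L] [Algebra O L] (u : L) :
    Subalgebra (Algebra.adjoin O {u}) L :=
  integralClosure (Algebra.adjoin O {u}) L

/-- The element `ϖ` of the chart ring (syntactically the element of `Model.main_a`). -/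
abbrev piC (u : L) (ϖ : O) : Chart O u :=
  algebraMap (Algebra.adjoin O {u}) (Chart O u) (algebraMap O (Algebra.adjoin O {u}) ϖ)

theorem coe_piC (u : L) (ϖ : O) : ((piC u ϖ : Chart O u) : L) = algebraMap O L ϖ := rfl

/-- `O[X] → O[u]`. -/
def polyHom (u : L) : O[X] →+* Algebra.adjoin O {u} :=
  ((aeval u : O[X] →ₐ[O] L) : O[X] →+* L).codRestrict (Algebra.adjoin O {u})
    (fun _ => aeval_mem_adjoin_singleton O u)

theorem coe_polyHom (u : L) (p : O[X]) : ((polyHom u p : Algebra.adjoin O {u}) : L) = aeval u p :=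
  rfl

theorem polyHom_surjective (u : L) : Function.Surjective (polyHom (O := O) u) := by
  intro a
  have h : (a : L) ∈ (aeval u : O[X] →ₐ[O] L).range := by
    rw [← Algebra.adjoin_singleton_eq_range_aeval]
    exact a.2
  obtain ⟨p, hp⟩ := h
  exact ⟨p, Subtype.ext hp⟩

/-- Integrality over `O[u]` in ring-hom form (over `O[X]`). -/
theorem isIntegral_adjoin_iff (u c : L) :
    IsIntegral (Algebra.adjoin O {u}) c ↔
      ((aeval u : O[X] →ₐ[O] L) : O[X] →+* L).IsIntegralElem c := by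
  have hcomp : (algebraMap (Algebra.adjoin O {u}) L).comp (polyHom u) =
      ((aeval u : O[X] →ₐ[O] L) : O[X] →+* L) := RingHom.ext fun _ => rfl
  constructor
  · rintro ⟨p, hp, hpc⟩
    have hl : p ∈ Polynomial.lifts (polyHom (O := O) u) := by
      rw [Polynomial.mem_lifts]
      exact Polynomial.map_surjective _ (polyHom_surjective u) p
    obtain ⟨q, hq, -, hqm⟩ := Polynomial.lifts_and_natDegree_eq_and_monic hl hp
    refine ⟨q, hqm, ?_⟩
    rw [← hcomp, ← eval₂_map, hq]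
    exact hpc
  · rintro ⟨q, hq, hqc⟩
    refine ⟨q.map (polyHom u), hq.map _, ?_⟩
    rw [eval₂_map, hcomp]
    exact hqc

variable (σ : L →+* LaurentSeries E)
  (hσO : ∀ r : O, σ (algebraMap O L r) = HahnSeries.C (algebraMap O E r))

include hσO in
theorem sigma_aeval (u : L) (U : LaurentSeries O) (hσu : σ u = GaussDVR.iota O E U) (p : O[X]) :
    σ (aeval u p) = GaussDVR.iota O E (p.eval₂ HahnSeries.C U) := by
  rw [aeval_def, hom_eval₂, hom_eval₂, hσu]
  congr 1
  refine RingHom.ext fun r => ?_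
  rw [RingHom.comp_apply, RingHom.comp_apply, hσO, GaussDVR.iota_C]

variable (ϖ : O) (hϖ : Irreducible ϖ) (hσfrac : ∀ x : L, σ x ∈ GaussDVR.fracField O E)

include hσO hϖ hσfrac in
theorem sigma_mem_V (u : L) (U : LaurentSeries O) (hσu : σ u = GaussDVR.iota O E U) {c : L}
    (hc : IsIntegral (Algebra.adjoin O {u}) c) : σ c ∈ GaussDVR.V O E := by
  rw [isIntegral_adjoin_iff] at hc
  refine GaussDVR.mem_of_isIntegralElem E ϖ hϖ
    (σ.comp ((aeval u : O[X] →ₐ[O] L) : O[X] →+* L)) (fun p => ?_) (σ c) (hσfrac c) ?_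
  · show σ (aeval u p) ∈ _
    rw [sigma_aeval σ hσO u U hσu]
    exact GaussDVR.mem_of_int O E _
  · obtain ⟨q, hq, hqc⟩ := hc
    exact ⟨q, hq, by rw [← hom_eval₂, hqc, map_zero]⟩

/-- The chart ring maps to the Gauss ring. -/
def toV (u : L) (U : LaurentSeries O) (hσu : σ u = GaussDVR.iota O E U) :
    Chart O u →+* GaussDVR.V O E :=
  (σ.comp (algebraMap (Chart O u) L)).codRestrict (GaussDVR.V O E)
    (fun c => sigma_mem_V σ hσO ϖ hϖ hσfrac u U hσu c.2)

/-- **The reduction map** `Chart O u → κ((q))` attached to the `q`-expansion embedding `σ`. -/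
def redHom (u : L) (U : LaurentSeries O) (hσu : σ u = GaussDVR.iota O E U) :
    Chart O u →+* LaurentSeries (IsLocalRing.ResidueField O) :=
  (GaussDVR.red O E).comp (toV σ hσO ϖ hϖ hσfrac u U hσu)

theorem coe_toV (u : L) (U : LaurentSeries O) (hσu : σ u = GaussDVR.iota O E U) (c : Chart O u) :
    ((toV σ hσO ϖ hϖ hσfrac u U hσu c : GaussDVR.V O E) : LaurentSeries E) = σ (c : L) := rfl

/-- The reduction of an element with integral `q`-expansion is the coefficientwise reduction. -/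
theorem redHom_of_int (u : L) (U : LaurentSeries O) (hσu : σ u = GaussDVR.iota O E U)
    (c : Chart O u) (a : LaurentSeries O) (hc : σ (c : L) = GaussDVR.iota O E a) :
    redHom σ hσO ϖ hϖ hσfrac u U hσu c = GaussDVR.rho O a := by
  have h : toV σ hσO ϖ hϖ hσfrac u U hσu c = GaussDVR.ofInt O E a := Subtype.ext hc
  show GaussDVR.red O E (toV σ hσO ϖ hϖ hσfrac u U hσu c) = _
  rw [h, GaussDVR.red_ofInt]

/-- `ϖ` reduces to zero. -/
theorem redHom_piC (u : L) (U : LaurentSeries O) (hσu : σ u = GaussDVR.iota O E U) :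
    redHom σ hσO ϖ hϖ hσfrac u U hσu (piC u ϖ) = 0 := by
  rw [redHom_of_int σ hσO ϖ hϖ hσfrac u U hσu (piC u ϖ) (HahnSeries.C ϖ)
    (by rw [coe_piC, hσO, GaussDVR.iota_C])]
  exact GaussDVR.rho_C_unif ϖ hϖ

end Chart

/-! ### Two levels -/

section Main

variable {O E : Type*} [CommRing O] [IsDomain O] [IsDiscreteValuationRing O] [Field E]
  [Algebra O E] [FaithfulSMul O E]
  {L' L : Type*} [Field L'] [Field L] [Algebra O L'] [Algebra O L]
  (ϖ : O) (hϖ : Irreducible ϖ)
  (α : L' →+* L) (hαO : ∀ r : O, α (algebraMap O L' r) = algebraMap O L r)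
  (σ : L →+* LaurentSeries E)
  (hσO : ∀ r : O, σ (algebraMap O L r) = HahnSeries.C (algebraMap O E r))
  (hσfrac : ∀ x : L, σ x ∈ GaussDVR.fracField O E)
  (u' : L') (U : LaurentSeries O) (hσu : σ (α u') = GaussDVR.iota O E U)
  (w : L ≃+* L) (hwO : ∀ r : O, w (algebraMap O L r) = algebraMap O L r)
  (ℓ : ℕ) [NeZero ℓ]
  (hwα : ∀ x : L', σ (w (α x)) = qExpand E ℓ (σ (α x)))

include hαO in
theorem aeval_alpha :
    α.comp ((aeval u' : O[X] →ₐ[O] L') : O[X] →+* L') =
      ((aeval (α u') : O[X] →ₐ[O] L) : O[X] →+* L) := by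
  refine Polynomial.ringHom_ext (fun r => ?_) ?_
  · simp [hαO]
  · simp

include hαO in
theorem isIntegral_alpha {x : L'} (hx : IsIntegral (Algebra.adjoin O {u'}) x) :
    IsIntegral (Algebra.adjoin O {α u'}) (α x) := by
  rw [isIntegral_adjoin_iff] at hx ⊢
  obtain ⟨q, hq, hqx⟩ := hx
  refine ⟨q, hq, ?_⟩
  rw [← aeval_alpha α hαO u', ← hom_eval₂, hqx, map_zero]

/-- The inclusion of chart rings `R = Chart O u' → C = Chart O (α u')`. -/
def incl : Chart O u' →+* Chart O (α u') where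
  toFun x := ⟨α (x : L'), isIntegral_alpha α hαO u' x.2⟩
  map_one' := Subtype.ext (map_one α)
  map_mul' _ _ := Subtype.ext (map_mul α _ _)
  map_zero' := Subtype.ext (map_zero α)
  map_add' _ _ := Subtype.ext (map_add α _ _)

theorem coe_incl (x : Chart O u') : ((incl α hαO u' x : Chart O (α u')) : L) = α (x : L') := rfl

theorem incl_injective : Function.Injective (incl α hαO u') := by
  intro x y h
  exact Subtype.ext (α.injective (congrArg (fun z : Chart O (α u') => (z : L)) h))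

theorem incl_piC : incl α hαO u' (piC u' ϖ) = piC (α u') ϖ :=
  Subtype.ext (hαO ϖ)

include hαO hσO in
theorem sigmaM_O (r : O) : (σ.comp α) (algebraMap O L' r) = HahnSeries.C (algebraMap O E r) := by
  rw [RingHom.comp_apply, hαO, hσO]

include hwO hσO in
theorem sigmaW_O (r : O) :
    (σ.comp (w : L →+* L)) (algebraMap O L r) = HahnSeries.C (algebraMap O E r) := by
  rw [RingHom.comp_apply, RingEquiv.coe_toRingHom, hwO, hσO]

include hσu hwα in
theorem sigmaW_u :
    (σ.comp (w : L →+* L)) (α u') = GaussDVR.iota O E (qExpand O ℓ U) := by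
  rw [RingHom.comp_apply, RingEquiv.coe_toRingHom, hwα, hσu]
  exact (coeffMap_qExpand _ _ _).symm

/-- Reduction at level `M` (on `R`). -/
def redM : Chart O u' →+* LaurentSeries (IsLocalRing.ResidueField O) :=
  redHom (σ.comp α) (sigmaM_O α hαO σ hσO) ϖ hϖ (fun x => hσfrac (α x)) u' U hσu

/-- Reduction at the `∞`-component (on `C`). -/
def redInf : Chart O (α u') →+* LaurentSeries (IsLocalRing.ResidueField O) :=
  redHom σ hσO ϖ hϖ hσfrac (α u') U hσu

/-- Reduction at the `0`-component (on `C`): reduce `w c`. -/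
def redZero : Chart O (α u') →+* LaurentSeries (IsLocalRing.ResidueField O) :=
  redHom (σ.comp (w : L →+* L)) (sigmaW_O σ hσO w hwO) ϖ hϖ (fun x => hσfrac (w x)) (α u')
    (qExpand O ℓ U) (sigmaW_u α σ u' U hσu w ℓ hwα)

theorem redInf_incl (a : Chart O u') :
    redInf ϖ hϖ α σ hσO hσfrac u' U hσu (incl α hαO u' a) =
      redM ϖ hϖ α hαO σ hσO hσfrac u' U hσu a := rfl

theorem redZero_incl (a : Chart O u') :
    redZero ϖ hϖ α σ hσO hσfrac u' U hσu w hwO ℓ hwα (incl α hαO u' a) =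
      qExpand (IsLocalRing.ResidueField O) ℓ (redM ϖ hϖ α hαO σ hσO hσfrac u' U hσu a) := by
  rw [redM, redHom, RingHom.comp_apply, ← red_qExpand]
  show GaussDVR.red O E _ = _
  congr 1
  exact Subtype.ext (hwα (a : L'))

/-- `O[X] → R`. -/
def polyChart : O[X] →+* Chart O u' :=
  (algebraMap (Algebra.adjoin O {u'}) (Chart O u')).comp (polyHom u')

theorem coe_polyChart (p : O[X]) : ((polyChart u' p : Chart O u') : L') = aeval u' p := rfl

theorem polyChart_isIntegralElem (b : Chart O u') : (polyChart (O := O) u').IsIntegralElem b := by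
  obtain ⟨q, hq, hqb⟩ := (isIntegral_adjoin_iff u' (b : L')).mp b.2
  refine ⟨q, hq, Subtype.ext ?_⟩
  have h := hom_eval₂ q (polyChart (O := O) u') (algebraMap (Chart O u') L') b
  rw [show ((q.eval₂ (polyChart (O := O) u') b : Chart O u') : L') =
    algebraMap (Chart O u') L' (q.eval₂ (polyChart (O := O) u') b) from rfl, h]
  exact hqb

theorem polyChart_C (r : O) : polyChart u' (C r) = algebraMap O (Chart O u') r := by
  apply Subtype.ext
  rw [coe_polyChart, aeval_C]
  rfl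

/-- The reduction of `p(u')` is `p̄(ρ U)`. -/
theorem redM_polyChart (p : O[X]) :
    redM ϖ hϖ α hαO σ hσO hσfrac u' U hσu (polyChart u' p) =
      (p.map (IsLocalRing.residue O)).eval₂ HahnSeries.C (GaussDVR.rho O U) := by
  rw [redM, redHom_of_int (σ.comp α) (sigmaM_O α hαO σ hσO) ϖ hϖ (fun x => hσfrac (α x)) u' U hσu
    (polyChart u' p) (p.eval₂ HahnSeries.C U)
    (by rw [coe_polyChart]; exact sigma_aeval (σ.comp α) (sigmaM_O α hαO σ hσO) u' U hσu p),
    hom_eval₂, eval₂_map]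
  congr 1
  refine RingHom.ext fun r => ?_
  rw [RingHom.comp_apply, RingHom.comp_apply, GaussDVR.rho_C]

/-- **Centre of the Gauss valuation at level `M`**: if `ϖ` is prime in `R` and `ρ U` is
transcendental over the residue field, an element of `R` with zero reduction is divisible by
`ϖ` in `R`. -/
theorem dvd_of_redM_eq_zero (hprime : Prime (piC u' ϖ))
    (htr : ∀ p : (IsLocalRing.ResidueField O)[X], p ≠ 0 →
      p.eval₂ HahnSeries.C (GaussDVR.rho O U) ≠ 0)
    (a : Chart O u') (ha : redM ϖ hϖ α hαO σ hσO hσfrac u' U hσu a = 0) : piC u' ϖ ∣ a := by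
  refine dvd_of_map_eq_zero (polyChart (O := O) u') (polyChart_isIntegralElem u')
    (redM ϖ hϖ α hαO σ hσO hσfrac u' U hσu) hprime
    (redHom_piC (σ.comp α) (sigmaM_O α hαO σ hσO) ϖ hϖ (fun x => hσfrac (α x)) u' U hσu)
    (fun p hp => ?_) a ha
  rw [redM_polyChart] at hp
  have hp0 : p.map (IsLocalRing.residue O) = 0 := by
    by_contra h
    exact htr _ h hp
  have hdvd : C ϖ ∣ p := by
    rw [Polynomial.C_dvd_iff_dvd_coeff]
    intro i
    apply GaussDVR.dvd_of_residue_eq_zero ϖ hϖ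
    have := congrArg (fun q : (IsLocalRing.ResidueField O)[X] => q.coeff i) hp0
    simpa using this
  obtain ⟨p₁, rfl⟩ := hdvd
  rw [map_mul, polyChart_C]
  exact Dvd.intro _ rfl

include hϖ hαO hσO hσfrac hσu in
/-- `ϖ`-adic separatedness of `R`. -/
theorem exists_not_pow_dvd (a : Chart O u') (ha : a ≠ 0) : ∃ n : ℕ, ¬ piC u' ϖ ^ n ∣ a := by
  set t := toV (σ.comp α) (sigmaM_O α hαO σ hσO) ϖ hϖ (fun x => hσfrac (α x)) u' U hσu with ht
  have hta : t a ≠ 0 := by
    intro h0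
    apply ha
    apply Subtype.ext
    have h1 : (σ.comp α) (a : L') = 0 := congrArg (fun v : GaussDVR.V O E => (v : LaurentSeries E)) h0
    exact (map_eq_zero_iff _ (σ.comp α).injective).mp h1
  obtain ⟨n, hn⟩ := GaussDVR.exists_not_pow_dvd E ϖ hϖ (t a) hta
  refine ⟨n, fun hdvd => hn ?_⟩
  obtain ⟨b, rfl⟩ := hdvd
  have hπ : t (piC u' ϖ) = GaussDVR.unif E ϖ := by
    apply Subtype.ext
    rw [GaussDVR.coe_unif]
    exact sigmaM_O α hαO σ hσO ϖ
  rw [map_mul, map_pow, hπ]
  exact Dvd.intro _ rfl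

end Main

/-! ### The package -/

section Package

variable {O E : Type*} [CommRing O] [IsDomain O] [IsDiscreteValuationRing O] [Field E]
  [Algebra O E] [FaithfulSMul O E]
  {L' L : Type*} [Field L'] [Field L] [Algebra O L'] [Algebra O L]
  (ϖ : O) (hϖ : Irreducible ϖ)
  (α : L' →+* L) (hαO : ∀ r : O, α (algebraMap O L' r) = algebraMap O L r)
  (σ : L →+* LaurentSeries E)
  (hσO : ∀ r : O, σ (algebraMap O L r) = HahnSeries.C (algebraMap O E r))
  (hσfrac : ∀ x : L, σ x ∈ GaussDVR.fracField O E)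
  (u' : L') (U : LaurentSeries O) (hσu : σ (α u') = GaussDVR.iota O E U)
  (w : L ≃+* L) (hwO : ∀ r : O, w (algebraMap O L r) = algebraMap O L r)
  (ℓ : ℕ) [NeZero ℓ]
  (hwα : ∀ x : L', σ (w (α x)) = qExpand E ℓ (σ (α x)))
  (hww : ∀ z : L, w (w z) = z)
  (hprime : Prime (piC u' ϖ))
  (hcop : IsCoprime (GaussDVR.rho O U).order (ℓ : ℤ)) (hord : (GaussDVR.rho O U).order ≠ 0)
  (hℓ : 2 ≤ ℓ)
  (hfrob : qExpand (IsLocalRing.ResidueField O) ℓ (GaussDVR.rho O U) = GaussDVR.rho O U ^ ℓ)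
  (hwu : IsIntegral (Algebra.adjoin O {α u'}) (w (α u')))
  (hrank : ∀ v : Option (Fin 1 ⊕ Fin ℓ) → Chart O (α u'),
    ∃ c : Option (Fin 1 ⊕ Fin ℓ) → Chart O u', c ≠ 0 ∧ ∑ i, incl α hαO u' (c i) * v i = 0)

local notation "rI" => redInf ϖ hϖ α σ hσO hσfrac u' U hσu
local notation "rZ" => redZero ϖ hϖ α σ hσO hσfrac u' U hσu w hwO ℓ hwα
local notation "rM" => redM ϖ hϖ α hαO σ hσO hσfrac u' U hσu
local notation "ι" => incl α hαO u'
local notation "ρU" => GaussDVR.rho O U

include hww hprime hcop hord hℓ hfrob hwu hrank in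
/-- All conclusions at once (the instances needed by `TwoPrimes` are set up only here). -/
theorem package :
    (∀ c : Chart O (α u'), rI c = 0 → rZ c = 0 → piC (α u') ϖ ∣ c) ∧
    (∀ Q : Ideal (Chart O (α u')), Q.IsPrime → piC (α u') ϖ ∈ Q →
      (∀ a : Chart O u', ι a ∈ Q → piC u' ϖ ∣ a) →
      Q = RingHom.ker rI ∨ Q = RingHom.ker rZ) ∧
    (IsIntegrallyClosed (Chart O u' ⧸ Ideal.span {piC u' ϖ}) →
      ∀ c : Chart O (α u'), ∃ a : Chart O u', rI (c - ι a) = 0) ∧
    (∃ c : Chart O (α u'), rI c = 0 ∧ rZ c ≠ 0) ∧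
    (∃ c : Chart O (α u'), rZ c = 0 ∧ rI c ≠ 0) := by
  classical
  have hρ0 : ρU ≠ 0 := fun h => hord (by rw [h, HahnSeries.order_zero])
  have htr : ∀ p : (IsLocalRing.ResidueField O)[X], p ≠ 0 → p.eval₂ HahnSeries.C ρU ≠ 0 :=
    fun p hp => ExpandIndep.eval₂_ne_zero_of_order_ne_zero ρU hord p hp
  have hcentre : ∀ a : Chart O u', rM a = 0 → piC u' ϖ ∣ a :=
    dvd_of_redM_eq_zero ϖ hϖ α hαO σ hσO hσfrac u' U hσu hprime htr
  have hsep : ∀ a : Chart O u', a ≠ 0 → ∃ n : ℕ, ¬ piC u' ϖ ^ n ∣ a :=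
    exists_not_pow_dvd ϖ hϖ α hαO σ hσO hσfrac u' U hσu
  -- the elements `u` and `w u`
  have huR : rM (polyChart u' X) = ρU := by
    rw [redM_polyChart, Polynomial.map_X, eval₂_X]
  have huI : rI (ι (polyChart u' X)) = ρU := by
    rw [redInf_incl]; exact huR
  have huZ : rZ (ι (polyChart u' X)) = ρU ^ ℓ := by
    rw [redZero_incl, huR, hfrob]
  have hyI : rI (⟨w (α u'), hwu⟩ : Chart O (α u')) = ρU ^ ℓ := by
    rw [← hfrob, ← coeffMap_qExpand]
    exact redHom_of_int σ hσO ϖ hϖ hσfrac (α u') U hσu ⟨w (α u'), hwu⟩ (qExpand O ℓ U)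
      (sigmaW_u α σ u' U hσu w ℓ hwα)
  have hyZ : rZ (⟨w (α u'), hwu⟩ : Chart O (α u')) = ρU :=
    redHom_of_int (σ.comp (w : L →+* L)) (sigmaW_O σ hσO w hwO) ϖ hϖ (fun x => hσfrac (w x))
      (α u') (qExpand O ℓ U) (sigmaW_u α σ u' U hσu w ℓ hwα) ⟨w (α u'), hwu⟩ U
      (by
        show σ (w (w (α u'))) = _
        rw [hww, hσu])
  have hpow : ρU - ρU ^ (ℓ * ℓ) ≠ 0 := by
    intro h
    have h1 : ρU = ρU ^ (ℓ * ℓ) := sub_eq_zero.mp h
    have h2 := congrArg HahnSeries.order h1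
    rw [HahnSeries.order_pow, nsmul_eq_mul] at h2
    have h3 : ((ℓ * ℓ : ℕ) : ℤ) = 1 := by
      have h4 : ((ℓ * ℓ : ℕ) : ℤ) * (ρU).order = 1 * (ρU).order := by
        rw [one_mul]; exact h2.symm
      exact mul_right_cancel₀ hord h4
    have h5 : ℓ * ℓ = 1 := by exact_mod_cast h3
    nlinarith
  have hsepI : rI ((⟨w (α u'), hwu⟩ : Chart O (α u')) - ι (polyChart u' X) ^ ℓ) = 0 ∧
      rZ ((⟨w (α u'), hwu⟩ : Chart O (α u')) - ι (polyChart u' X) ^ ℓ) ≠ 0 := by
    constructor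
    · rw [map_sub, map_pow, hyI, huI, sub_self]
    · rw [map_sub, map_pow, hyZ, huZ, ← pow_mul]
      exact hpow
  have hsepZ : rZ (ι (polyChart u' X) - (⟨w (α u'), hwu⟩ : Chart O (α u')) ^ ℓ) = 0 ∧
      rI (ι (polyChart u' X) - (⟨w (α u'), hwu⟩ : Chart O (α u')) ^ ℓ) ≠ 0 := by
    constructor
    · rw [map_sub, map_pow, hyZ, huZ, sub_self]
    · rw [map_sub, map_pow, hyI, huI, ← pow_mul]
      exact hpow
  -- instances
  letI : Algebra (Chart O u') (Chart O (α u')) := (ι).toAlgebra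
  have halg : ∀ a : Chart O u', algebraMap (Chart O u') (Chart O (α u')) a = ι a := fun _ => rfl
  haveI : FaithfulSMul (Chart O u') (Chart O (α u')) :=
    (faithfulSMul_iff_algebraMap_injective _ _).mpr (incl_injective α hαO u')
  haveI : Algebra.IsIntegral (Chart O u') (Chart O (α u')) := by
    refine ⟨fun c => ?_⟩
    obtain ⟨q, hq, hqc⟩ := (isIntegral_adjoin_iff (α u') (c : L)).mp c.2
    refine ⟨q.map (polyChart u'), hq.map _, Subtype.ext ?_⟩
    rw [eval₂_map]
    have h := hom_eval₂ q ((algebraMap (Chart O u') (Chart O (α u'))).comp (polyChart u'))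
      (algebraMap (Chart O (α u')) L) c
    have hcomp : (algebraMap (Chart O (α u')) L).comp
        ((algebraMap (Chart O u') (Chart O (α u'))).comp (polyChart u')) =
        ((aeval (α u') : O[X] →ₐ[O] L) : O[X] →+* L) := by
      rw [← aeval_alpha α hαO u']
      rfl
    rw [hcomp] at h
    exact h.trans hqc
  haveI : IsIntegrallyClosed (Chart O u') := IsIntegrallyClosed.of_isIntegrallyClosedIn _ L'
  haveI : IsIntegrallyClosed (Chart O (α u')) := IsIntegrallyClosed.of_isIntegrallyClosedIn _ L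
  haveI : (RingHom.ker rI).IsPrime := RingHom.ker_isPrime _
  haveI : (RingHom.ker rZ).IsPrime := RingHom.ker_isPrime _
  have hπalg : algebraMap (Chart O u') (Chart O (α u')) (piC u' ϖ) = piC (α u') ϖ :=
    incl_piC ϖ α hαO u'
  have hπ₁ : algebraMap (Chart O u') (Chart O (α u')) (piC u' ϖ) ∈ RingHom.ker rI := by
    rw [hπalg, RingHom.mem_ker]
    exact redHom_piC σ hσO ϖ hϖ hσfrac (α u') U hσu
  have hπ₂ : algebraMap (Chart O u') (Chart O (α u')) (piC u' ϖ) ∈ RingHom.ker rZ := by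
    rw [hπalg, RingHom.mem_ker]
    exact redHom_piC (σ.comp (w : L →+* L)) (sigmaW_O σ hσO w hwO) ϖ hϖ (fun x => hσfrac (w x))
      (α u') (qExpand O ℓ U) (sigmaW_u α σ u' U hσu w ℓ hwα)
  have hP₁ : ∀ a : Chart O u', algebraMap (Chart O u') (Chart O (α u')) a ∈ RingHom.ker rI →
      piC u' ϖ ∣ a := by
    intro a ha
    rw [RingHom.mem_ker, halg, redInf_incl] at ha
    exact hcentre a ha
  have hP₂ : ∀ a : Chart O u', algebraMap (Chart O u') (Chart O (α u')) a ∈ RingHom.ker rZ →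
      piC u' ϖ ∣ a := by
    intro a ha
    rw [RingHom.mem_ker, halg, redZero_incl] at ha
    exact hcentre a (qExpand_injective ℓ (by rw [ha, map_zero]))
  have hne : RingHom.ker rI ≠ RingHom.ker rZ := by
    intro h
    have h1 : (⟨w (α u'), hwu⟩ : Chart O (α u')) - ι (polyChart u' X) ^ ℓ ∈ RingHom.ker rI :=
      hsepI.1
    rw [h] at h1
    exact hsepI.2 h1
  have hx : ∀ a : Fin 1 → Chart O u',
      ∑ i, a i • (fun _ : Fin 1 => (1 : Chart O (α u'))) i ∈ RingHom.ker rI →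
      ∀ i, piC u' ϖ ∣ a i := by
    intro a ha i
    rw [Fin.sum_univ_one, Algebra.smul_def, mul_one] at ha
    rw [Subsingleton.elim i 0]
    exact hP₁ _ ha
  have hy : ∀ a : Fin ℓ → Chart O u',
      ∑ i, a i • (fun i : Fin ℓ => (⟨w (α u'), hwu⟩ : Chart O (α u')) ^ (i : ℕ)) i ∈
        RingHom.ker rZ → ∀ i, piC u' ϖ ∣ a i := by
    intro a ha i
    apply hcentre
    rw [RingHom.mem_ker, map_sum] at ha
    have h1 : ∑ i, qExpand (IsLocalRing.ResidueField O) ℓ (rM (a i)) * ρU ^ (i : ℕ) = 0 := by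
      rw [← ha]
      refine Finset.sum_congr rfl fun i _ => ?_
      rw [Algebra.smul_def, map_mul, map_pow, hyZ, halg, redZero_incl]
    exact ExpandIndep.eq_zero_of_sum_qExpand_mul_pow_eq_zero ℓ _ hρ0 hcop _ h1 i
  have hrank' : ∀ v : Option (Fin 1 ⊕ Fin ℓ) → Chart O (α u'),
      ∃ c : Option (Fin 1 ⊕ Fin ℓ) → Chart O u', c ≠ 0 ∧ ∑ i, c i • v i = 0 := by
    intro v
    obtain ⟨c, hc, h⟩ := hrank v
    refine ⟨c, hc, ?_⟩
    rw [← h]
    exact Finset.sum_congr rfl fun i _ => Algebra.smul_def _ _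
  refine ⟨?_, ?_, ?_, ⟨_, hsepI⟩, ⟨_, hsepZ⟩⟩
  · intro c hcI hcZ
    have hmem : c ∈ RingHom.ker rI ⊓ RingHom.ker rZ := ⟨hcI, hcZ⟩
    rw [TwoPrimes.inf_eq_span_of_sep hprime hsep _ _ hπ₁ hπ₂ hP₁ hP₂ hne _ _ hx hy hrank',
      Ideal.mem_span_singleton, hπalg] at hmem
    exact hmem
  · intro Q hQ hπQ hQc
    haveI := hQ
    exact TwoPrimes.eq_or_eq_of_sep hprime hsep _ _ hπ₁ hπ₂ hP₁ hP₂ hne _ _ hx hy hrank' Q
      (by rw [hπalg]; exact hπQ) hQc
  · intro hnormal c
    obtain ⟨r, hr⟩ := TwoPrimes.exists_sub_algebraMap_mem_of_sep hprime hsep hnormal _ _ hπ₁ hπ₂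
      hP₁ hP₂ hne _ hy hrank' c
    exact ⟨r, hr⟩

include hϖ hαO hσO hσfrac hσu hwO hwα hww hprime hcop hord hℓ hfrob hwu hrank in
/-- **(SAT)** `p_∞ ∩ p_0 = (ϖ)`: an element of the chart ring whose reductions at both
components vanish is divisible by `ϖ` in the chart ring. -/
theorem dvd_of_redInf_redZero (c : Chart O (α u')) (hI : rI c = 0) (hZ : rZ c = 0) :
    piC (α u') ϖ ∣ c :=
  (package ϖ hϖ α hαO σ hσO hσfrac u' U hσu w hwO ℓ hwα hww hprime hcop hord hℓ hfrob hwu
    hrank).1 c hI hZ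

include hϖ hαO hσO hσfrac hσu hwO hwα hww hprime hcop hord hℓ hfrob hwu hrank in
/-- **(SAT), elementwise** (the shape consumed by `TrivModE.trivMod_of_sat`). -/
theorem sat (x : L) (hx : σ x ∈ GaussDVR.V O E) (hWx : σ (w x) ∈ GaussDVR.V O E)
    (hint : IsIntegral (Algebra.adjoin O {α u'}) x)
    (h1 : GaussDVR.red O E ⟨σ x, hx⟩ = 0) (h2 : GaussDVR.red O E ⟨σ (w x), hWx⟩ = 0) :
    ∃ c : L, IsIntegral (Algebra.adjoin O {α u'}) c ∧ x = algebraMap O L ϖ * c := by
  obtain ⟨d, hd⟩ := dvd_of_redInf_redZero ϖ hϖ α hαO σ hσO hσfrac u' U hσu w hwO ℓ hwα hww hprime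
    hcop hord hℓ hfrob hwu hrank ⟨x, hint⟩ h1 h2
  exact ⟨d, d.2, congrArg (fun z : Chart O (α u') => (z : L)) hd⟩

include hϖ hαO hσO hσfrac hσu hwO hwα hww hprime hcop hord hℓ hfrob hwu hrank in
/-- The only primes of the chart ring lying over `(ϖ)` of the level-`M` chart ring are the
kernels of the two reductions. -/
theorem eq_ker_or_eq_ker (Q : Ideal (Chart O (α u'))) [hQ : Q.IsPrime]
    (hπQ : piC (α u') ϖ ∈ Q) (hQc : ∀ a : Chart O u', ι a ∈ Q → piC u' ϖ ∣ a) :
    Q = RingHom.ker rI ∨ Q = RingHom.ker rZ :=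
  (package ϖ hϖ α hαO σ hσO hσfrac u' U hσu w hwO ℓ hwα hww hprime hcop hord hℓ hfrob hwu
    hrank).2.1 Q hQ hπQ hQc

include hϖ hαO hσO hσfrac hσu hwO hwα hww hprime hcop hord hℓ hfrob hwu hrank in
/-- **(ONTO)** `C / p_∞ = R / ϖ` when the special fibre of the level-`M` chart is normal. -/
theorem exists_redInf_sub_eq_zero
    (hnormal : IsIntegrallyClosed (Chart O u' ⧸ Ideal.span {piC u' ϖ})) (c : Chart O (α u')) :
    ∃ a : Chart O u', rI (c - ι a) = 0 :=
  (package ϖ hϖ α hαO σ hσO hσfrac u' U hσu w hwO ℓ hwα hww hprime hcop hord hℓ hfrob hwu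
    hrank).2.2.1 hnormal c

include hϖ hαO hσO hσfrac hσu hwO hwα hww hprime hcop hord hℓ hfrob hwu hrank in
/-- `p_∞ ⊄ p_0`. -/
theorem exists_sep_inf : ∃ c : Chart O (α u'), rI c = 0 ∧ rZ c ≠ 0 :=
  (package ϖ hϖ α hαO σ hσO hσfrac u' U hσu w hwO ℓ hwα hww hprime hcop hord hℓ hfrob hwu
    hrank).2.2.2.1

include hϖ hαO hσO hσfrac hσu hwO hwα hww hprime hcop hord hℓ hfrob hwu hrank in
/-- `p_0 ⊄ p_∞`. -/
theorem exists_sep_zero : ∃ c : Chart O (α u'), rZ c = 0 ∧ rI c ≠ 0 :=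
  (package ϖ hϖ α hαO σ hσO hσfrac u' U hσu w hwO ℓ hwα hww hprime hcop hord hℓ hfrob hwu
    hrank).2.2.2.2

end Package

end Fermat.Agent.S34.TwoPrimesGauss
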