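import Mathlib
import Fermat.Agent.S34.TrivModE
import Fermat.Agent.S34.Nodal.Defs

/-!
# S34 / Program U, (M3): inertia is a model automorphism acting trivially on both components

Vocabulary of the nodal contract `S34/Nodal/Defs.lean` (`Overlap`, `IsModelAut`, `TrivialMod`)
for a field `L ⊆ E((q))` with the Gauss ring `V` and its reduction `red` (`S30/GaussDVR`).

Generic part (`O` any DVR with fraction field `E`, `τ` acting coefficientwise through a
residually trivial endomorphism of `E`, `u, u⁻¹ ∈ V`, `τ u = u`):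

* `trivialMod_of_red` : if the ideal `P` of the overlap chart contains every `x` with
  `red x = 0` (i.e. `P ⊇ ker red`, the component `v_∞`), then `TrivialMod P τ`.
* `trivialMod_of_red_swap` : the same for the component `v_0 = v_∞ ∘ W`: `W` commutes with `τ`,
  `W` maps the overlap chart into `V`, and `P` contains every `x` with `red (W x) = 0`.
* `swap_mem_V` : `W` maps the overlap chart into `V` as soon as `W u, (W u)⁻¹ ∈ V` and `W` fixes
  the constants of `O`.

Modular part (`E ⊆ ℚ̄` normal over `ℚ`, `O = A ∩ E`, `L = LE N E`):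

* `isModelAut_galE` : for `τ` in the decomposition group of `A` and `u` fixed by `τ_E`,
  `IsModelAut (OE A E) u (galE E N τ)`.
* `trivialMod_galE`, `trivialMod_galE_swap` : the two `TrivialMod` statements for `τ` in the
  inertia group of `A`.
-/

set_option autoImplicit false

open ModularCurve

noncomputable section

namespace Fermat.Agent.S34.InertiaAut

open Fermat.Agent.S30 Fermat.Agent.S34.TrivModE Fermat.Agent.S34.Nodal

/-! ### Generic part -/

section Generic

variable {O E : Type*} [CommRing O] [IsDomain O] [IsDiscreteValuationRing O] [Field E]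
  [Algebra O E] [FaithfulSMul O E]

/-- The overlap chart lies in the Gauss ring if `u` and `u⁻¹` do. -/
theorem overlap_mem_V (L : IntermediateField E (LaurentSeries E)) [Algebra O L]
    [IsScalarTower O E L]
    (hfrac : ∀ x : L, (x : LaurentSeries E) ∈ GaussDVR.fracField O E)
    (π : O) (hπ : Irreducible π) (u : L)
    (hu : ((u : L) : LaurentSeries E) ∈ GaussDVR.V O E)
    (hu' : ((u⁻¹ : L) : LaurentSeries E) ∈ GaussDVR.V O E) (x : Overlap O u) :
    (((x : L) : L) : LaurentSeries E) ∈ GaussDVR.V O E :=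
  mem_V_of_isIntegral L hfrac π hπ (Algebra.adjoin O ({u, u⁻¹} : Set L))
    (adjoin_le_V L {u, u⁻¹} (by
      rintro s (rfl | rfl)
      · exact hu
      · exact hu')) x.2

/-- **`TrivialMod` at the component `v_∞`.** -/
theorem trivialMod_of_red (L : IntermediateField E (LaurentSeries E)) [Algebra O L]
    [IsScalarTower O E L]
    (hfrac : ∀ x : L, (x : LaurentSeries E) ∈ GaussDVR.fracField O E)
    (π : O) (hπ : Irreducible π) (u : L)
    (hu : ((u : L) : LaurentSeries E) ∈ GaussDVR.V O E)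
    (hu' : ((u⁻¹ : L) : LaurentSeries E) ∈ GaussDVR.V O E)
    (σO : O →+* O) (hres : ∀ a : O, IsLocalRing.residue O (σO a) = IsLocalRing.residue O a)
    (σE : E →+* E) (hσ : ∀ a : O, σE (algebraMap O E a) = algebraMap O E (σO a))
    (τ : L ≃+* L)
    (hτ : ∀ x : L, ((τ x : L) : LaurentSeries E) = coeffMap σE (x : LaurentSeries E))
    (hτu : τ u = u)
    (P : Ideal (Overlap O u))
    (hP : ∀ (x : Overlap O u) (hx : (((x : L) : L) : LaurentSeries E) ∈ GaussDVR.V O E),
      GaussDVR.red O E ⟨_, hx⟩ = 0 → x ∈ P) :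
    TrivialMod P τ := by
  intro x
  have hV := overlap_mem_V L hfrac π hπ u hu hu'
  have hstab : ∀ d : L, d ∈ Algebra.adjoin O ({u, u⁻¹} : Set L) →
      τ d ∈ Algebra.adjoin O ({u, u⁻¹} : Set L) :=
    adjoin_stable L σO σE hσ τ hτ {u, u⁻¹} (by
      rintro s (rfl | rfl)
      · exact hτu
      · rw [map_inv₀, hτu])
  have hτx : IsIntegral (Algebra.adjoin O ({u, u⁻¹} : Set L)) (τ (x : L)) :=
    isIntegral_map_of_stable _ (τ : L →+* L) hstab x.2
  let y : Overlap O u := ⟨τ (x : L) - (x : L), hτx.sub x.2⟩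
  refine ⟨y, hP y (hV y) ?_, rfl⟩
  have h1 := red_coeffMap σO hres σE hσ (hV x)
  have h2 : (⟨(((y : L) : L) : LaurentSeries E), hV y⟩ : GaussDVR.V O E)
      = ⟨coeffMap σE (((x : L) : L) : LaurentSeries E), coeffMap_mem_V σO hres σE hσ (hV x)⟩
        - ⟨(((x : L) : L) : LaurentSeries E), hV x⟩ := by
    apply Subtype.ext
    show ((τ (x : L) - (x : L) : L) : LaurentSeries E) = _
    rw [AddSubgroupClass.coe_sub, hτ]
    rfl
  rw [h2, map_sub, h1, sub_self]

/-- `W` maps the overlap chart into the Gauss ring if `W u, (W u)⁻¹ ∈ V` and `W` fixes the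
constants of `O`. -/
theorem swap_mem_V (L : IntermediateField E (LaurentSeries E)) [Algebra O L]
    [IsScalarTower O E L]
    (hfrac : ∀ x : L, (x : LaurentSeries E) ∈ GaussDVR.fracField O E)
    (π : O) (hπ : Irreducible π) (u : L) (W : L ≃+* L)
    (hWO : ∀ a : O, W (algebraMap O L a) = algebraMap O L a)
    (hWu : ((W u : L) : LaurentSeries E) ∈ GaussDVR.V O E)
    (hWu' : (((W u)⁻¹ : L) : LaurentSeries E) ∈ GaussDVR.V O E) (x : Overlap O u) :
    ((W (x : L) : L) : LaurentSeries E) ∈ GaussDVR.V O E := by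
  have hmap : ∀ d : L, d ∈ Algebra.adjoin O ({u, u⁻¹} : Set L) →
      W d ∈ Algebra.adjoin O ({W u, (W u)⁻¹} : Set L) := by
    intro d hd
    induction hd using Algebra.adjoin_induction with
    | mem s hs =>
        rcases hs with rfl | rfl
        · exact Algebra.subset_adjoin (by simp)
        · rw [map_inv₀]; exact Algebra.subset_adjoin (by simp)
    | algebraMap a => rw [hWO]; exact Subalgebra.algebraMap_mem _ _
    | add a b _ _ ha hb => rw [map_add]; exact Subalgebra.add_mem _ ha hb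
    | mul a b _ _ ha hb => rw [map_mul]; exact Subalgebra.mul_mem _ ha hb
  let g : Algebra.adjoin O ({u, u⁻¹} : Set L) →+* Algebra.adjoin O ({W u, (W u)⁻¹} : Set L) :=
    ((W : L →+* L).comp (algebraMap (Algebra.adjoin O ({u, u⁻¹} : Set L)) L)).codRestrict
      (Algebra.adjoin O ({W u, (W u)⁻¹} : Set L)) (fun d => hmap _ d.2)
  have hint : IsIntegral (Algebra.adjoin O ({W u, (W u)⁻¹} : Set L)) (W (x : L)) :=
    IsIntegral.map_of_comp_eq g (W : L →+* L) (RingHom.ext fun d => rfl) x.2
  exact mem_V_of_isIntegral L hfrac π hπ (Algebra.adjoin O ({W u, (W u)⁻¹} : Set L))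
    (adjoin_le_V L {W u, (W u)⁻¹} (by
      rintro s (rfl | rfl)
      · exact hWu
      · exact hWu')) hint

/-- **`TrivialMod` at the component `v_0 = v_∞ ∘ W`.** -/
theorem trivialMod_of_red_swap (L : IntermediateField E (LaurentSeries E)) [Algebra O L]
    [IsScalarTower O E L]
    (u : L)
    (σO : O →+* O) (hres : ∀ a : O, IsLocalRing.residue O (σO a) = IsLocalRing.residue O a)
    (σE : E →+* E) (hσ : ∀ a : O, σE (algebraMap O E a) = algebraMap O E (σO a))
    (τ : L ≃+* L)
    (hτ : ∀ x : L, ((τ x : L) : LaurentSeries E) = coeffMap σE (x : LaurentSeries E))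
    (hτu : τ u = u)
    (W : L ≃+* L) (hWτ : ∀ x : L, W (τ x) = τ (W x))
    (hWV : ∀ x : Overlap O u, ((W (x : L) : L) : LaurentSeries E) ∈ GaussDVR.V O E)
    (P : Ideal (Overlap O u))
    (hP : ∀ (x : Overlap O u) (hWx : ((W (x : L) : L) : LaurentSeries E) ∈ GaussDVR.V O E),
      GaussDVR.red O E ⟨_, hWx⟩ = 0 → x ∈ P) :
    TrivialMod P τ := by
  intro x
  have hstab : ∀ d : L, d ∈ Algebra.adjoin O ({u, u⁻¹} : Set L) →
      τ d ∈ Algebra.adjoin O ({u, u⁻¹} : Set L) :=
    adjoin_stable L σO σE hσ τ hτ {u, u⁻¹} (by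
      rintro s (rfl | rfl)
      · exact hτu
      · rw [map_inv₀, hτu])
  have hτx : IsIntegral (Algebra.adjoin O ({u, u⁻¹} : Set L)) (τ (x : L)) :=
    isIntegral_map_of_stable _ (τ : L →+* L) hstab x.2
  let y : Overlap O u := ⟨τ (x : L) - (x : L), hτx.sub x.2⟩
  refine ⟨y, hP y (hWV y) ?_, rfl⟩
  have h1 := red_coeffMap σO hres σE hσ (hWV x)
  have h2 : (⟨((W (y : L) : L) : LaurentSeries E), hWV y⟩ : GaussDVR.V O E)
      = ⟨coeffMap σE ((W (x : L) : L) : LaurentSeries E),
          coeffMap_mem_V σO hres σE hσ (hWV x)⟩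
        - ⟨((W (x : L) : L) : LaurentSeries E), hWV x⟩ := by
    apply Subtype.ext
    show ((W (τ (x : L) - (x : L)) : L) : LaurentSeries E) = _
    rw [map_sub, hWτ, AddSubgroupClass.coe_sub, hτ]
    rfl
  rw [h2, map_sub, h1, sub_self]

end Generic

/-! ### Modular part: `L = LE N E`, `O = A ∩ E` -/

section Modular

open Fermat.Agent.S18.K1Defs Fermat.Agent.S18.K1Top

local notation "Qb" => AlgebraicClosure ℚ
local notation "Gq" => (AlgebraicClosure ℚ ≃ₐ[ℚ] AlgebraicClosure ℚ)

variable (A : ValuationSubring Qb) (E : IntermediateField ℚ Qb) [Normal ℚ E]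

/-- `τ⁻¹|_{O_E}` is a right inverse of `τ|_{O_E}`. -/
theorem sOE_sOE_inv (τ : A.decompositionSubgroup ℚ) (x : OE A E) :
    sOE A E τ (sOE A E τ⁻¹ x) = x := by
  apply Subtype.ext
  apply (algebraMap E Qb).injective
  show algebraMap E Qb ((τ : Gq).restrictNormal E (((τ⁻¹ : A.decompositionSubgroup ℚ) : Gq).restrictNormal E (x : E)))
    = algebraMap E Qb (x : E)
  rw [AlgEquiv.restrictNormal_commutes, AlgEquiv.restrictNormal_commutes]
  show (τ : Gq) ((τ : Gq)⁻¹ (algebraMap E Qb (x : E))) = _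
  exact AlgEquiv.apply_symm_apply (τ : Gq) _

variable [IsDiscreteValuationRing (OE A E)] (N : ℕ) [NeZero N]
  [Algebra (OE A E) (LE N E)] [IsScalarTower (OE A E) E (LE N E)]

omit [NeZero N] in
/-- The coefficientwise action of `τ|_E` maps constants of `O_E` to constants of `O_E`. -/
theorem galE_algebraMap (τ : A.decompositionSubgroup ℚ) (a : OE A E) :
    galE E N (τ : Gq) (algebraMap (OE A E) (LE N E) a)
      = algebraMap (OE A E) (LE N E) (sOE A E τ a) :=
  map_algebraMap_OL (LE N E) (sOE A E τ) _ (restrictNormal_algebraMap_OE A E τ)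
    (galE E N (τ : Gq)) (coe_galE E N (τ : Gq)) a

omit [NeZero N] in
/-- **Decomposition-group elements are model automorphisms** (for any parameter `u` with
rational coefficients, i.e. fixed by the coefficientwise action). -/
theorem isModelAut_galE (τ : A.decompositionSubgroup ℚ) (u : LE N E)
    (hu : galE E N (τ : Gq) u = u) : IsModelAut (OE A E) u (galE E N (τ : Gq)) where
  map_base a := ⟨sOE A E τ a, galE_algebraMap A E N τ a⟩
  symm_map_base a := by
    refine ⟨sOE A E τ⁻¹ a, ?_⟩
    rw [RingEquiv.symm_apply_eq, galE_algebraMap, sOE_sOE_inv]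
  map_u := hu

omit [NeZero N] in
/-- Version for the Prelude's `inertiaSubgroupIn`. -/
theorem isModelAut_galE_of_mem {τ : Gq} (hτ : τ ∈ A.inertiaSubgroupIn ℚ) (u : LE N E)
    (hu : galE E N τ u = u) : IsModelAut (OE A E) u (galE E N τ) := by
  obtain ⟨τ', -, rfl⟩ := hτ
  exact isModelAut_galE A E N τ' u hu

/-- **Inertia acts trivially on the residue ring at the component `v_∞`.**  `P` is any ideal
of the overlap chart containing the kernel of `red`. -/
theorem trivialMod_galE (π : OE A E) (hπ : Irreducible π) {τ : Gq}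
    (hτ : τ ∈ A.inertiaSubgroupIn ℚ) (u : LE N E)
    (hu : ((u : LE N E) : LaurentSeries E) ∈ GaussDVR.V (OE A E) E)
    (hu' : ((u⁻¹ : LE N E) : LaurentSeries E) ∈ GaussDVR.V (OE A E) E)
    (hτu : galE E N τ u = u)
    (P : Ideal (Overlap (OE A E) u))
    (hP : ∀ (x : Overlap (OE A E) u)
      (hx : (((x : LE N E) : LE N E) : LaurentSeries E) ∈ GaussDVR.V (OE A E) E),
      GaussDVR.red (OE A E) E ⟨_, hx⟩ = 0 → x ∈ P) :
    TrivialMod P (galE E N τ) := by
  obtain ⟨τ', hτ', rfl⟩ := hτ
  exact trivialMod_of_red (LE N E) (mem_fracField_LE A E N) π hπ u hu hu' (sOE A E τ')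
    (residue_sOE_inertia A E τ' hτ') _ (restrictNormal_algebraMap_OE A E τ')
    (galE E N (τ' : Gq)) (coe_galE E N (τ' : Gq)) hτu P hP

/-- **Inertia acts trivially on the residue ring at the component `v_0 = v_∞ ∘ W`.**  `W` is
an automorphism of `L` fixing the constants of `O_E`, commuting with `τ_E`, with
`W u, (W u)⁻¹` in the Gauss ring; `P` is any ideal of the overlap chart containing the kernel
of `red ∘ W`. -/
theorem trivialMod_galE_swap (π : OE A E) (hπ : Irreducible π) {τ : Gq}
    (hτ : τ ∈ A.inertiaSubgroupIn ℚ) (u : LE N E) (hτu : galE E N τ u = u)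
    (W : LE N E ≃+* LE N E) (hWτ : ∀ x : LE N E, W (galE E N τ x) = galE E N τ (W x))
    (hWO : ∀ a : OE A E, W (algebraMap (OE A E) (LE N E) a) = algebraMap (OE A E) (LE N E) a)
    (hWu : ((W u : LE N E) : LaurentSeries E) ∈ GaussDVR.V (OE A E) E)
    (hWu' : (((W u)⁻¹ : LE N E) : LaurentSeries E) ∈ GaussDVR.V (OE A E) E)
    (P : Ideal (Overlap (OE A E) u))
    (hP : ∀ (x : Overlap (OE A E) u)
      (hWx : ((W (x : LE N E) : LE N E) : LaurentSeries E) ∈ GaussDVR.V (OE A E) E),
      GaussDVR.red (OE A E) E ⟨_, hWx⟩ = 0 → x ∈ P) :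
    TrivialMod P (galE E N τ) := by
  obtain ⟨τ', hτ', rfl⟩ := hτ
  exact trivialMod_of_red_swap (LE N E) u (sOE A E τ')
    (residue_sOE_inertia A E τ' hτ') _ (restrictNormal_algebraMap_OE A E τ')
    (galE E N (τ' : Gq)) (coe_galE E N (τ' : Gq)) hτu W hWτ
    (swap_mem_V (LE N E) (mem_fracField_LE A E N) π hπ u W hWO hWu hWu') P hP

end Modular

end Fermat.Agent.S34.InertiaAut
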