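import Fermat.Agent.S34.ToricJ
import Fermat.Agent.S37.Swap

/-!
# S34, step (i) at level `M ℓ`, `ℓ ∤ M`: the Atkin–Lehner swap

* `wAL M ℓ hℓ hℓM` : a chosen Atkin–Lehner swap `W_ℓ` of `Fb (M ℓ)` (from `S37.Swap`), with
  `wAL_alpha`, `wAL_beta`, `wAL_wAL`;
* `wAL_gal` : `W_ℓ` commutes with the coefficientwise Galois action;
* `exists_toric_level` : for `τ` in the inertia group at a place over `ℓ` and `f ∈ Fb (M ℓ)` with
  `m ∣ div f`: `τ f = f · w ^ m · h` with `h` toric for `W_ℓ` and `m ∣ div h`.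
-/

set_option autoImplicit false

open HahnSeries ModularCurve AlgebraicCurve

namespace Fermat.Agent.S34.ToricSwap

open Fermat.Agent.S30 Fermat.Agent.S30.E4 Fermat.Agent.S34.Toric Fermat.Agent.S34.ToricJ
open Fermat.Agent.S24.Theta Fermat.Agent.S24.Modular

local notation "Qb" => AlgebraicClosure ℚ
local notation "Gq" => (AlgebraicClosure ℚ ≃ₐ[ℚ] AlgebraicClosure ℚ)

variable (M ℓ : ℕ) [NeZero M] [NeZero ℓ]

/-- A chosen Atkin–Lehner swap `W_ℓ` of the function field of `X₀(M ℓ)`, `ℓ ∤ M`. -/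
noncomputable def wAL (hℓ : ℓ.Prime) (hℓM : ¬ ℓ ∣ M) : Fb (M * ℓ) ≃ₐ[Qb] Fb (M * ℓ) :=
  Classical.choose (Fermat.Agent.S37.Swap.exists_swap_algEquiv M ℓ hℓ hℓM)

variable {M ℓ}

theorem wAL_alpha (hℓ : ℓ.Prime) (hℓM : ¬ ℓ ∣ M) (f : Fb M) :
    wAL M ℓ hℓ hℓM (heckeAlphaBar Qb M ℓ f) = heckeBetaBar Qb M ℓ f :=
  (Classical.choose_spec (Fermat.Agent.S37.Swap.exists_swap_algEquiv M ℓ hℓ hℓM)).1 f

theorem wAL_beta (hℓ : ℓ.Prime) (hℓM : ¬ ℓ ∣ M) (f : Fb M) :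
    wAL M ℓ hℓ hℓM (heckeBetaBar Qb M ℓ f) = heckeAlphaBar Qb M ℓ f :=
  (Classical.choose_spec (Fermat.Agent.S37.Swap.exists_swap_algEquiv M ℓ hℓ hℓM)).2.1 f

theorem wAL_wAL (hℓ : ℓ.Prime) (hℓM : ¬ ℓ ∣ M) (z : Fb (M * ℓ)) :
    wAL M ℓ hℓ hℓM (wAL M ℓ hℓ hℓM z) = z :=
  (Classical.choose_spec (Fermat.Agent.S37.Swap.exists_swap_algEquiv M ℓ hℓ hℓM)).2.2 z

/-- The Galois action commutes with the degeneracy map `α`. -/
theorem gal_alpha (σ : Gq) (f : Fb M) :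
    gal (M * ℓ) σ (heckeAlphaBar Qb M ℓ f) = heckeAlphaBar Qb M ℓ (gal M σ f) := by
  apply Subtype.ext
  rw [coe_gal, coe_heckeAlphaBar, coe_heckeAlphaBar, coe_gal]

omit [NeZero M] in
/-- The Galois action commutes with the degeneracy map `β`. -/
theorem gal_beta (σ : Gq) (f : Fb M) :
    gal (M * ℓ) σ (heckeBetaBar Qb M ℓ f) = heckeBetaBar Qb M ℓ (gal M σ f) := by
  apply Subtype.ext
  rw [coe_gal, coe_heckeBetaBar, coe_heckeBetaBar, coe_gal]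
  ext k
  by_cases hk : (ℓ : ℤ) ∣ k
  · obtain ⟨n, rfl⟩ := hk
    rw [coeffMap_coeff, qExpand_coeff_mul, qExpand_coeff_mul, coeffMap_coeff]
  · rw [coeffMap_coeff, qExpand_coeff_of_not_dvd ℓ _ hk, qExpand_coeff_of_not_dvd ℓ _ hk,
      map_zero]

theorem gal_algebraMap (N : ℕ) (σ : Gq) (c : Qb) :
    gal N σ (algebraMap Qb (Fb N) c) = algebraMap Qb (Fb N) (σ c) :=
  arithmeticRingAut_algebraMap (modularFunctionFieldFull N) σ c

/-- The Atkin–Lehner swap commutes with the coefficientwise Galois action. -/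
theorem wAL_gal (hℓ : ℓ.Prime) (hℓM : ¬ ℓ ∣ M) (σ : Gq) (x : Fb (M * ℓ)) :
    wAL M ℓ hℓ hℓM (gal (M * ℓ) σ x) = gal (M * ℓ) σ (wAL M ℓ hℓ hℓM x) := by
  set W := wAL M ℓ hℓ hℓM with hW
  set g := gal (M * ℓ) σ with hg
  -- on the subalgebra generated by the `j(q^d)`
  have key : ∀ a : A0 (M * ℓ), W (g (a : FN (M * ℓ))) = g (W (a : FN (M * ℓ))) := by
    intro a
    refine A0_induction (p := fun a : A0 (M * ℓ) =>
      W (g (a : FN (M * ℓ))) = g (W (a : FN (M * ℓ)))) ?_ ?_ ?_ ?_ a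
    · intro d _ hd
      rcases Fermat.Agent.S37.Swap.dvd_cases hℓ hd with hdM | ⟨d', hd', rfl⟩
      · have e : ((gen (M * ℓ) d hd : A0 (M * ℓ)) : FN (M * ℓ))
            = heckeAlphaBar Qb M ℓ (gen M d hdM : FN M) :=
          (Fermat.Agent.S37.Swap.alpha_gen hdM).symm
        rw [e, hg, gal_alpha, hW, wAL_alpha, wAL_alpha, gal_beta]
      · have hd'0 : NeZero d' := ⟨fun h0 => NeZero.ne (d' * ℓ) (by rw [h0, zero_mul])⟩
        have e : ((gen (M * ℓ) (d' * ℓ) hd : A0 (M * ℓ)) : FN (M * ℓ))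
            = heckeBetaBar Qb M ℓ (gen M d' hd' : FN M) :=
          (Fermat.Agent.S37.Swap.beta_gen hd').symm
        rw [e, hg, gal_beta, hW, wAL_beta, wAL_beta, gal_alpha]
    · intro c
      have hc : ((algebraMap Qb (A0 (M * ℓ)) c : A0 (M * ℓ)) : FN (M * ℓ))
          = algebraMap Qb (Fb (M * ℓ)) c := rfl
      rw [hc, hg, gal_algebraMap, hW, AlgEquiv.commutes, AlgEquiv.commutes, gal_algebraMap]
    · intro a₁ a₂ h₁ h₂
      have hc : ((a₁ + a₂ : A0 (M * ℓ)) : FN (M * ℓ)) = (a₁ : FN (M * ℓ)) + (a₂ : FN (M * ℓ)) :=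
        rfl
      rw [hc, map_add, map_add, map_add, map_add, h₁, h₂]
    · intro a₁ a₂ h₁ h₂
      have hc : ((a₁ * a₂ : A0 (M * ℓ)) : FN (M * ℓ)) = (a₁ : FN (M * ℓ)) * (a₂ : FN (M * ℓ)) :=
        rfl
      rw [hc, map_mul, map_mul, map_mul, map_mul, h₁, h₂]
  obtain ⟨a, b, hb, hab⟩ := exists_mul_eq x
  have h1 : W (g (x * (b : FN (M * ℓ)))) = g (W (x * (b : FN (M * ℓ)))) := by
    rw [hab]; exact key a
  rw [map_mul, map_mul, map_mul, map_mul, key b] at h1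
  have hb' : g (W (b : FN (M * ℓ))) ≠ 0 := by
    intro h0
    have h2 : W (b : FN (M * ℓ)) = 0 := (map_eq_zero_iff g g.injective).1 h0
    exact hb ((map_eq_zero_iff W W.injective).1 h2)
  exact mul_right_cancel₀ hb' h1

/-- **Step (i) of the S34 route at level `M ℓ`, `ℓ ∤ M`.**  For `τ` in the inertia group of a
place `A` over `ℓ` and `f ∈ Fb (M ℓ)` nonzero with `m ∣ div f`: `τ f = f · w ^ m · h` with `h`
toric (`≡ 1` at the two Gauss valuations `v_∞` and `v_0 = v_∞ ∘ W_ℓ`) and `m ∣ div h`. -/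
theorem exists_toric_level {m : ℕ} (hℓ : ℓ.Prime) (hℓM : ¬ ℓ ∣ M)
    (A : ValuationSubring Qb) (hA : A.LiesOverPrime ℓ) (hm : 0 < m) {τ : Gq}
    (hτ : τ ∈ A.inertiaSubgroupIn ℚ) (f : Fb (M * ℓ)) (hf : f ≠ 0)
    (hdiv : DivBy (M * ℓ) m f) :
    ∃ h w : Fb (M * ℓ), w ≠ 0 ∧ gal (M * ℓ) τ f = f * w ^ m * h ∧
      IsToric (M * ℓ) A (wAL M ℓ hℓ hℓM).toRingEquiv h ∧ DivBy (M * ℓ) m h := by
  have : Fact ℓ.Prime := ⟨hℓ⟩
  refine exists_toric_of_swap A hℓ.pos hA (wAL M ℓ hℓ hℓM).toRingEquiv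
    (fun c => (wAL M ℓ hℓ hℓM).commutes c) (fun σ x => wAL_gal hℓ hℓM σ x)
    (heckeAlphaBar Qb M ℓ (jF M)) (heckeBetaBar Qb M ℓ (jF M)) rfl rfl
    (wAL_alpha hℓ hℓM _) (wAL_beta hℓ hℓM _) hm hτ f hf hdiv

end Fermat.Agent.S34.ToricSwap
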