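import Mathlib
import Fermat.Agent.S30.E2.DegreeL
import Fermat.Agent.S30.Model.KummerContra
import Fermat.Agent.Lib.Gamma0Counts
import Fermat.Agent.S34.TwoPrimesGauss
import Fermat.Prelude.Def_ModularCurve_HeckeOperator

/-!
# S34 (SSa): the rank hypothesis of `TwoPrimesGauss` for the modular function fields

* `hrank_of_finrank_lt` (generic): if `L' = Frac (Chart O u')` and `[L : α L'] < #ι`, any family
  `v : ι → Chart O (α u')` satisfies a nontrivial relation with coefficients in `Chart O u'`.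
* `finrank_alpha` : `[LE (M ℓ) E : α (LE M E)] = ℓ + 1` for `ℓ` prime, `ℓ ∤ M`
  (from `E2Deg.finrank_LE` at both levels and `ψ(M ℓ) = ψ(M) (ℓ + 1)`).
* `isFractionRing_chart` : `LE M E` is the fraction field of the chart ring of `j`.
* `hrank_modular` : the hypothesis `hrank` of `TwoPrimesGauss.package` for
  `α = heckeAlphaBar E M ℓ`.
-/

set_option autoImplicit false
set_option linter.unusedSectionVars false
set_option linter.style.haveILetI false
set_option synthInstance.maxHeartbeats 400000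

noncomputable section

namespace Fermat.Agent.S34.TwoPrimesRank

open ModularCurve IntermediateField Polynomial
open Fermat.Agent.S18.K1Defs Fermat.Agent.S30 Fermat.Agent.S34.TwoPrimesGauss

local notation "Qb" => AlgebraicClosure ℚ

/-! ### Generic: from a degree bound to the relation form -/

section Generic

variable {O : Type*} [CommRing O] [IsDomain O] [IsDiscreteValuationRing O]
  {L' L : Type*} [Field L'] [Field L] [Algebra O L'] [Algebra O L]
  (α : L' →+* L) (hαO : ∀ r : O, α (algebraMap O L' r) = algebraMap O L r) (u' : L')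

theorem hrank_of_finrank_lt [IsFractionRing (Chart O u') L']
    (hfin : letI := α.toAlgebra; Module.Finite L' L) {ι : Type*} [Fintype ι]
    (hlt : letI := α.toAlgebra; Module.finrank L' L < Fintype.card ι)
    (v : ι → Chart O (α u')) :
    ∃ c : ι → Chart O u', c ≠ 0 ∧ ∑ i, incl α hαO u' (c i) * v i = 0 := by
  letI : Algebra L' L := α.toAlgebra
  letI : Algebra (Chart O u') (Chart O (α u')) := (incl α hαO u').toAlgebra
  haveI : IsScalarTower (Chart O u') L' L := IsScalarTower.of_algebraMap_eq (fun _ => rfl)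
  haveI : IsScalarTower (Chart O u') (Chart O (α u')) L :=
    IsScalarTower.of_algebraMap_eq (fun _ => rfl)
  haveI : Module.Finite L' L := hfin
  obtain ⟨c, hc, h⟩ := TwoPrimes.exists_relation_of_finrank_lt (R := Chart O u')
    (C := Chart O (α u')) L' L Subtype.val_injective hlt v
  refine ⟨c, hc, ?_⟩
  rw [← h]
  exact Finset.sum_congr rfl fun i _ => (Algebra.smul_def _ _).symm

end Generic

/-! ### The degree of `α` -/

section Modular

variable (M ℓ : ℕ) [NeZero M] [NeZero ℓ] (E : IntermediateField ℚ Qb)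

/-- `α` as a ring homomorphism. -/
abbrev alphaHom : LE M E →+* LE (M * ℓ) E :=
  (heckeAlphaBar E M ℓ : LE M E →ₐ[E] LE (M * ℓ) E)

set_option maxHeartbeats 1000000 in
theorem finrank_alpha (hℓ : ℓ.Prime) (hℓM : ¬ ℓ ∣ M) :
    letI := (alphaHom M ℓ E).toAlgebra
    Module.finrank (LE M E) (LE (M * ℓ) E) = ℓ + 1 := by
  letI algLL : Algebra (LE M E) (LE (M * ℓ) E) := (alphaHom M ℓ E).toAlgebra
  have hαj : heckeAlphaBar E M ℓ (E2Deg.jE M E) = E2Deg.jE (M * ℓ) E := Subtype.ext rfl
  have hmap : (E⟮E2Deg.jE M E⟯).map (heckeAlphaBar E M ℓ) = E⟮E2Deg.jE (M * ℓ) E⟯ := by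
    rw [IntermediateField.adjoin_map, Set.image_singleton, hαj]
  have hmem : ∀ x : E⟮E2Deg.jE M E⟯,
      heckeAlphaBar E M ℓ (x : LE M E) ∈ E⟮E2Deg.jE (M * ℓ) E⟯ := by
    intro x
    rw [← hmap]
    exact (IntermediateField.mem_map _).mpr ⟨x, x.2, rfl⟩
  have hbij : Function.Bijective (fun x : E⟮E2Deg.jE M E⟯ =>
      (⟨heckeAlphaBar E M ℓ (x : LE M E), hmem x⟩ : E⟮E2Deg.jE (M * ℓ) E⟯)) := by
    constructor
    · intro x y hxy
      have h := congrArg (fun z : E⟮E2Deg.jE (M * ℓ) E⟯ => (z : LE (M * ℓ) E)) hxy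
      exact Subtype.ext ((heckeAlphaBar E M ℓ).toRingHom.injective h)
    · intro y
      have hy : (y : LE (M * ℓ) E) ∈ (E⟮E2Deg.jE M E⟯).map (heckeAlphaBar E M ℓ) := by
        rw [hmap]; exact y.2
      obtain ⟨x, hx, hxy⟩ := (IntermediateField.mem_map _).mp hy
      exact ⟨⟨x, hx⟩, Subtype.ext hxy⟩
  have hrank : Module.rank E⟮E2Deg.jE M E⟯ (LE (M * ℓ) E) =
      Module.rank E⟮E2Deg.jE (M * ℓ) E⟯ (LE (M * ℓ) E) :=
    rank_eq_of_equiv_equiv _ (AddEquiv.refl _) hbij (fun r m => by
      rw [AddEquiv.refl_apply, AddEquiv.refl_apply, IntermediateField.smul_def,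
        IntermediateField.smul_def]
      rfl)
  have h1 : Module.finrank E⟮E2Deg.jE M E⟯ (LE (M * ℓ) E) =
      Module.finrank E⟮E2Deg.jE (M * ℓ) E⟯ (LE (M * ℓ) E) :=
    congrArg Cardinal.toNat hrank
  have h2 := Module.finrank_mul_finrank E⟮E2Deg.jE M E⟯ (LE M E) (LE (M * ℓ) E)
  rw [h1, E2Deg.finrank_LE, E2Deg.finrank_LE,
    Fermat.Agent.Lib.Gamma0Counts.dedekindPsi_mul_prime_of_not_dvd (NeZero.ne M) hℓ hℓM] at h2
  have hpos : 0 < dedekindPsi M := by
    rw [← E2Deg.finrank_LE M E]
    exact Module.finrank_pos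
  exact Nat.eq_of_mul_eq_mul_left hpos h2

theorem finite_alpha (hℓ : ℓ.Prime) (hℓM : ¬ ℓ ∣ M) :
    letI := (alphaHom M ℓ E).toAlgebra
    Module.Finite (LE M E) (LE (M * ℓ) E) := by
  letI algLL : Algebra (LE M E) (LE (M * ℓ) E) := (alphaHom M ℓ E).toAlgebra
  apply Module.finite_of_finrank_pos
  rw [finrank_alpha M ℓ E hℓ hℓM]
  omega

end Modular

/-! ### The chart ring of `j` has fraction field `LE M E`; the rank hypothesis -/

section Frac

variable (M : ℕ) [NeZero M] (E : IntermediateField ℚ Qb) {O : Type} [CommRing O] [IsDomain O]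
  [Algebra O E] [IsFractionRing O E] [Algebra O (LE M E)] [IsScalarTower O E (LE M E)]

set_option maxHeartbeats 2000000 in
theorem isFractionRing_chart_jE : IsFractionRing (Chart O (E2Deg.jE M E)) (LE M E) := by
  letI : Algebra (Algebra.adjoin O {E2Deg.jE M E}) (IntermediateField.adjoin E {E2Deg.jE M E}) :=
    (Model.KummerContra.incl (O := O) (E := E) (E2Deg.jE M E)).toAlgebra
  haveI : IsFractionRing (Algebra.adjoin O {E2Deg.jE M E})
      (IntermediateField.adjoin E {E2Deg.jE M E}) :=
    Model.KummerContra.isFractionRing_adjoin _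
  haveI : IsScalarTower (Algebra.adjoin O {E2Deg.jE M E})
      (IntermediateField.adjoin E {E2Deg.jE M E}) (LE M E) :=
    IsScalarTower.of_algebraMap_eq (fun _ => rfl)
  haveI : FiniteDimensional (IntermediateField.adjoin E {E2Deg.jE M E}) (LE M E) :=
    E2Deg.finite_LE M E
  exact integralClosure.isFractionRing_of_finite_extension
    (IntermediateField.adjoin E {E2Deg.jE M E}) (LE M E)

theorem isFractionRing_chart (u' : LE M E) (hu' : (u' : LaurentSeries E) = coeffEmb E jq) :
    IsFractionRing (Chart O u') (LE M E) := by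
  have hu : u' = E2Deg.jE M E := Subtype.ext hu'
  rw [hu]
  exact isFractionRing_chart_jE M E

end Frac

section Rank

variable (M ℓ : ℕ) [NeZero M] [NeZero ℓ] (E : IntermediateField ℚ Qb) {O : Type} [CommRing O]
  [IsDomain O] [IsDiscreteValuationRing O] [Algebra O E] [IsFractionRing O E]
  [Algebra O (LE M E)] [IsScalarTower O E (LE M E)]
  [Algebra O (LE (M * ℓ) E)] [IsScalarTower O E (LE (M * ℓ) E)]

/-- `α` is `O`-linear. -/
theorem alphaHom_algebraMap (r : O) :
    alphaHom M ℓ E (algebraMap O (LE M E) r) = algebraMap O (LE (M * ℓ) E) r := by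
  rw [IsScalarTower.algebraMap_apply O E (LE M E),
    IsScalarTower.algebraMap_apply O E (LE (M * ℓ) E)]
  exact (heckeAlphaBar E M ℓ).commutes _

/-- **The rank hypothesis of `TwoPrimesGauss.package`** for the modular function fields:
any `ℓ + 2` elements of the level-`Mℓ` chart ring satisfy a nontrivial linear relation with
coefficients in the level-`M` chart ring. -/
theorem hrank_modular (hℓ : ℓ.Prime) (hℓM : ¬ ℓ ∣ M) (u' : LE M E)
    (hu' : (u' : LaurentSeries E) = coeffEmb E jq)
    (v : Option (Fin 1 ⊕ Fin ℓ) → Chart O (alphaHom M ℓ E u')) :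
    ∃ c : Option (Fin 1 ⊕ Fin ℓ) → Chart O u', c ≠ 0 ∧
      ∑ i, incl (alphaHom M ℓ E) (alphaHom_algebraMap M ℓ E) u' (c i) * v i = 0 := by
  haveI := isFractionRing_chart M E (O := O) u' hu'
  refine hrank_of_finrank_lt (alphaHom M ℓ E) (alphaHom_algebraMap M ℓ E) u'
    (finite_alpha M ℓ E hℓ hℓM) ?_ v
  rw [finrank_alpha M ℓ E hℓ hℓM]
  simp

end Rank

/-! ### General coordinate: any `u'` with `L / E(u')` finite -/

section FracGen

variable {O E L : Type*} [CommRing O] [IsDomain O] [Field E] [Algebra O E] [IsFractionRing O E]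
  [Field L] [Algebra E L] [Algebra O L] [IsScalarTower O E L]

/-- `L` is the fraction field of the chart ring of any coordinate `u` with `L / E(u)` finite. -/
theorem isFractionRing_chart_of_finite (u : L)
    [FiniteDimensional (IntermediateField.adjoin E {u}) L] :
    IsFractionRing (Chart O u) L := by
  letI : Algebra (Algebra.adjoin O {u}) (IntermediateField.adjoin E {u}) :=
    (Model.KummerContra.incl (O := O) (E := E) u).toAlgebra
  haveI : IsFractionRing (Algebra.adjoin O {u}) (IntermediateField.adjoin E {u}) :=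
    Model.KummerContra.isFractionRing_adjoin _
  haveI : IsScalarTower (Algebra.adjoin O {u}) (IntermediateField.adjoin E {u}) L :=
    IsScalarTower.of_algebraMap_eq (fun _ => rfl)
  exact integralClosure.isFractionRing_of_finite_extension (IntermediateField.adjoin E {u}) L

/-- `E(u⁻¹) = E(u)`. -/
theorem adjoin_inv_eq (u : L) :
    IntermediateField.adjoin E {u⁻¹} = IntermediateField.adjoin E {u} := by
  apply le_antisymm
  · rw [IntermediateField.adjoin_simple_le_iff]
    exact inv_mem (IntermediateField.mem_adjoin_simple_self E u)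
  · rw [IntermediateField.adjoin_simple_le_iff]
    have := inv_mem (IntermediateField.mem_adjoin_simple_self E u⁻¹)
    simpa using this

/-- `L / E(u⁻¹)` is finite when `L / E(u)` is. -/
theorem finite_adjoin_inv (u : L) [h : FiniteDimensional (IntermediateField.adjoin E {u}) L] :
    FiniteDimensional (IntermediateField.adjoin E {u⁻¹}) L := by
  rw [adjoin_inv_eq]; exact h

end FracGen

section RankGen

variable (M ℓ : ℕ) [NeZero M] [NeZero ℓ] (E : IntermediateField ℚ Qb) {O : Type} [CommRing O]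
  [IsDomain O] [IsDiscreteValuationRing O] [Algebra O E] [IsFractionRing O E]
  [Algebra O (LE M E)] [IsScalarTower O E (LE M E)]
  [Algebra O (LE (M * ℓ) E)] [IsScalarTower O E (LE (M * ℓ) E)]

/-- **The rank hypothesis of `TwoPrimesGauss.package`, general coordinate**: for ANY level-`M`
coordinate `u'` with `LE M E / E(u')` finite (e.g. `j`, `1/j`, a Hauptmodul `t_r`), any `ℓ + 2`
elements of the level-`Mℓ` chart ring of `α u'` satisfy a nontrivial linear relation with
coefficients in the level-`M` chart ring of `u'`. -/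
theorem hrank_modular_of_finite (hℓ : ℓ.Prime) (hℓM : ¬ ℓ ∣ M) (u' : LE M E)
    [FiniteDimensional (IntermediateField.adjoin E {u'}) (LE M E)]
    (v : Option (Fin 1 ⊕ Fin ℓ) → Chart O (alphaHom M ℓ E u')) :
    ∃ c : Option (Fin 1 ⊕ Fin ℓ) → Chart O u', c ≠ 0 ∧
      ∑ i, incl (alphaHom M ℓ E) (alphaHom_algebraMap M ℓ E) u' (c i) * v i = 0 := by
  haveI := isFractionRing_chart_of_finite (O := O) (E := E) u'
  refine hrank_of_finrank_lt (alphaHom M ℓ E) (alphaHom_algebraMap M ℓ E) u'
    (finite_alpha M ℓ E hℓ hℓM) ?_ v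
  rw [finrank_alpha M ℓ E hℓ hℓM]
  simp

/-- The same at the chart of `1/j`. -/
theorem hrank_modular_inv (hℓ : ℓ.Prime) (hℓM : ¬ ℓ ∣ M)
    (v : Option (Fin 1 ⊕ Fin ℓ) → Chart O (alphaHom M ℓ E (E2Deg.jE M E)⁻¹)) :
    ∃ c : Option (Fin 1 ⊕ Fin ℓ) → Chart O (E2Deg.jE M E)⁻¹, c ≠ 0 ∧
      ∑ i, incl (alphaHom M ℓ E) (alphaHom_algebraMap M ℓ E) (E2Deg.jE M E)⁻¹ (c i) * v i = 0 := by
  haveI : FiniteDimensional (IntermediateField.adjoin E {E2Deg.jE M E}) (LE M E) :=
    E2Deg.finite_LE M E
  haveI := finite_adjoin_inv (E := E) (E2Deg.jE M E)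
  exact hrank_modular_of_finite M ℓ E hℓ hℓM _ v

end RankGen

end Fermat.Agent.S34.TwoPrimesRank
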