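import Mathlib
import Fermat.Agent.S28.Defs
import Fermat.Agent.S28.RowDefs
import Fermat.Agent.S28.Formal
import Fermat.Agent.S28.Orders
import Fermat.Agent.S28.Vieta
import Fermat.Agent.S28.Hermite
import Fermat.Agent.S28.RowGen
import Fermat.Agent.S30.ModSep
import Fermat.Agent.S30.ModSepInst
import Fermat.Agent.Lib.Gamma0Index

/-!
# The shape of the modular equation at a prime level `ℓ`

`J = j(q)`, `J_ℓ = j(q^ℓ)` as Laurent series.  The modular polynomial
`P(X, Y) = ∏ (Y - conjugates of J_ℓ)` has the classical shape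

`P = Y^(ℓ+1) + c X^(ℓ+1) - X^ℓ Y^ℓ + ∑_{a, b ≤ ℓ, (a,b) ≠ (ℓ,ℓ)} c_ab X^a Y^b`

with `c` a root of unity and all coefficients integral over `ℤ`.

This is the modular input of the "chart at infinity" step of the semistable model of `X₀(ℓM)`:
with `x = 1/J`, `y = 1/J_ℓ` one gets `x^(ℓ+1) + y^(ℓ+1) v(x) = x y u(x, y)`, `u(0,0) = 1`.
-/

set_option autoImplicit false
set_option linter.deprecated false

noncomputable section

namespace Fermat.Agent.S34.PhiShape

open HahnSeries ModularCurve Fermat.Agent.S28 Fermat.Agent.S28.Defs Fermat.Agent.S30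

/-! ### Pole-order bounds for Laurent series -/

section PoleLE

variable {R : Type*} [CommRing R]

/-- `f` has a pole of order at most `B` at `q = 0`. -/
def PoleLE (B : ℤ) (f : LaurentSeries R) : Prop := ∀ n : ℤ, n < -B → f.coeff n = 0

theorem coeff_single_mul_ofPowerSeries (B m : ℤ) (p : PowerSeries R) :
    (single (-B) (1 : R) * ofPowerSeries ℤ R p).coeff m = (ofPowerSeries ℤ R p).coeff (m + B) := by
  have h := HahnSeries.coeff_single_mul_add (r := (1 : R)) (x := ofPowerSeries ℤ R p)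
    (a := m + B) (b := -B)
  rw [show m + B + -B = m by ring, one_mul] at h
  exact h

theorem poleLE_single_mul_ofPowerSeries (B : ℤ) (p : PowerSeries R) :
    PoleLE B (single (-B) (1 : R) * ofPowerSeries ℤ R p) := by
  intro n hn
  rw [coeff_single_mul_ofPowerSeries]
  exact ofPowerSeries_coeff_of_neg p (by omega)

theorem coeff_top_single_mul_ofPowerSeries (B : ℤ) (p : PowerSeries R) :
    (single (-B) (1 : R) * ofPowerSeries ℤ R p).coeff (-B) = PowerSeries.constantCoeff p := by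
  rw [coeff_single_mul_ofPowerSeries, show -B + B = ((0 : ℕ) : ℤ) by simp,
    HahnSeries.ofPowerSeries_apply_coeff]
  simp

theorem PoleLE.exists_ps {B : ℤ} {f : LaurentSeries R} (h : PoleLE B f) :
    ∃ p : PowerSeries R, f = single (-B) (1 : R) * ofPowerSeries ℤ R p := by
  refine ⟨PowerSeries.mk fun n => f.coeff ((n : ℤ) - B), ?_⟩
  ext m
  rw [coeff_single_mul_ofPowerSeries]
  rcases lt_or_ge (m + B) 0 with hlt | hge
  · rw [ofPowerSeries_coeff_of_neg _ hlt]
    exact h m (by omega)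
  · obtain ⟨k, hk⟩ := Int.eq_ofNat_of_zero_le hge
    rw [hk, HahnSeries.ofPowerSeries_apply_coeff, PowerSeries.coeff_mk]
    congr 1
    omega

theorem PoleLE.mono {B B' : ℤ} {f : LaurentSeries R} (h : PoleLE B f) (hB : B ≤ B') :
    PoleLE B' f := fun n hn => h n (by omega)

theorem poleLE_zero (B : ℤ) : PoleLE B (0 : LaurentSeries R) := fun _ _ => rfl

theorem PoleLE.add {B : ℤ} {f g : LaurentSeries R} (hf : PoleLE B f) (hg : PoleLE B g) :
    PoleLE B (f + g) := fun n hn => by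
  rw [HahnSeries.coeff_add, hf n hn, hg n hn, add_zero]

theorem PoleLE.neg {B : ℤ} {f : LaurentSeries R} (hf : PoleLE B f) : PoleLE B (-f) :=
  fun n hn => by rw [HahnSeries.coeff_neg, hf n hn, neg_zero]

theorem poleLE_sum {ι : Type*} (s : Finset ι) (f : ι → LaurentSeries R) (B : ℤ)
    (h : ∀ i ∈ s, PoleLE B (f i)) : PoleLE B (∑ i ∈ s, f i) := fun n hn => by
  rw [HahnSeries.coeff_sum]
  exact Finset.sum_eq_zero fun i hi => h i hi n hn

theorem poleLE_one : PoleLE 0 (1 : LaurentSeries R) := by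
  intro n hn
  rw [HahnSeries.coeff_one, if_neg (by omega)]

theorem PoleLE.mul {B B' : ℤ} {f g : LaurentSeries R} (hf : PoleLE B f) (hg : PoleLE B' g) :
    PoleLE (B + B') (f * g) ∧ (f * g).coeff (-(B + B')) = f.coeff (-B) * g.coeff (-B') := by
  obtain ⟨p, rfl⟩ := hf.exists_ps
  obtain ⟨p', rfl⟩ := hg.exists_ps
  have hmul : single (-B) (1 : R) * ofPowerSeries ℤ R p * (single (-B') (1 : R) * ofPowerSeries ℤ R p')
      = single (-(B + B')) (1 : R) * ofPowerSeries ℤ R (p * p') := by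
    rw [map_mul, show -(B + B') = -B + -B' by ring, ← mul_one (1 : R),
      ← HahnSeries.single_mul_single, mul_one]
    ring
  rw [hmul]
  refine ⟨poleLE_single_mul_ofPowerSeries _ _, ?_⟩
  rw [coeff_top_single_mul_ofPowerSeries, coeff_top_single_mul_ofPowerSeries,
    coeff_top_single_mul_ofPowerSeries, map_mul]

theorem poleLE_prod {ι : Type*} (s : Finset ι) (f : ι → LaurentSeries R) (B : ι → ℤ)
    (h : ∀ i ∈ s, PoleLE (B i) (f i)) :
    PoleLE (∑ i ∈ s, B i) (∏ i ∈ s, f i) ∧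
      (∏ i ∈ s, f i).coeff (-(∑ i ∈ s, B i)) = ∏ i ∈ s, (f i).coeff (-(B i)) := by
  classical
  induction s using Finset.induction_on with
  | empty =>
    simp only [Finset.sum_empty, Finset.prod_empty, neg_zero]
    exact ⟨poleLE_one, by rw [HahnSeries.coeff_one, if_pos rfl]⟩
  | insert i s hi ih =>
    have hi' := h i (Finset.mem_insert_self i s)
    have ih' := ih fun j hj => h j (Finset.mem_insert_of_mem hj)
    rw [Finset.prod_insert hi, Finset.sum_insert hi, Finset.prod_insert hi]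
    refine ⟨(hi'.mul ih'.1).1, ?_⟩
    rw [(hi'.mul ih'.1).2, ih'.2]

end PoleLE


/-! ### Polynomials in `j(t^N)` -/

section PhiCoeff

variable (R : Type*) [CommRing R]

/-- `p(j)` has a pole of order at most `d ≥ deg p`. -/
theorem poleLE_eval₂_jq (p : Polynomial R) (d : ℕ) (hd : p.natDegree ≤ d) :
    PoleLE (d : ℤ) (Polynomial.eval₂ (HahnSeries.C : R →+* LaurentSeries R) (jqModC R) p) := by
  intro n hn
  rw [Polynomial.eval₂_eq_sum_range' _ (Nat.lt_succ_of_le hd), HahnSeries.coeff_sum]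
  refine Finset.sum_eq_zero fun i hi => ?_
  have hi' : i ≤ d := Nat.lt_succ_iff.mp (Finset.mem_range.mp hi)
  rw [Formal.coeff_C_mul', coeff_jqModC_pow_of_lt R (by
    have : (i : ℤ) ≤ (d : ℤ) := by exact_mod_cast hi'
    omega), mul_zero]

/-- The coefficient of `q^(-d)` in `p(j)` is the coefficient of `X^d`, for `d ≥ deg p`. -/
theorem coeff_eval₂_jq_top (p : Polynomial R) (d : ℕ) (hd : p.natDegree ≤ d) :
    (Polynomial.eval₂ (HahnSeries.C : R →+* LaurentSeries R) (jqModC R) p).coeff (-(d : ℤ))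
      = p.coeff d := by
  rw [Polynomial.eval₂_eq_sum_range' _ (Nat.lt_succ_of_le hd), HahnSeries.coeff_sum,
    Finset.sum_eq_single d]
  · rw [Formal.coeff_C_mul', coeff_jqModC_pow_self, mul_one]
  · intro i hi hne
    have hlt : i < d := lt_of_le_of_ne (Nat.lt_succ_iff.mp (Finset.mem_range.mp hi)) hne
    rw [Formal.coeff_C_mul', coeff_jqModC_pow_of_lt R (by
      have : (i : ℤ) < (d : ℤ) := by exact_mod_cast hlt
      omega), mul_zero]
  · intro h
    exact absurd (Finset.mem_range.mpr (Nat.lt_succ_self _)) h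

variable {R}

theorem PoleLE.qE {B : ℤ} {f : LaurentSeries R} (hf : PoleLE B f) {k : ℕ} (hk : k ≠ 0) :
    PoleLE ((k : ℤ) * B) (qE R k f) := by
  intro n hn
  by_cases hdvd : (k : ℤ) ∣ n
  · obtain ⟨m, rfl⟩ := hdvd
    rw [Formal.qE_coeff_mul hk]
    apply hf
    have hk' : (0 : ℤ) < (k : ℤ) := by exact_mod_cast Nat.pos_of_ne_zero hk
    by_contra hcon
    have hcon' := not_lt.mp hcon
    have := mul_le_mul_of_nonneg_left hcon' hk'.le
    linarith
  · exact Formal.qE_coeff_of_not_dvd hk f hdvd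

variable (R)

/-- `p(j(t^N))` has a pole of order at most `N d`, `d ≥ deg p`. -/
theorem poleLE_phi {N : ℕ} (hN : N ≠ 0) (p : Polynomial R) (d : ℕ) (hd : p.natDegree ≤ d) :
    PoleLE ((N : ℤ) * (d : ℤ)) (ModSep.phi R N p) := by
  have h : ModSep.phi R N p =
      qE R N (Polynomial.eval₂ (HahnSeries.C : R →+* LaurentSeries R) (jqModC R) p) := by
    rw [Formal.qE_eval₂_C]
    rfl
  rw [h]
  exact (poleLE_eval₂_jq R p d hd).qE hN

theorem coeff_phi_top {N : ℕ} (hN : N ≠ 0) (p : Polynomial R) (d : ℕ) (hd : p.natDegree ≤ d) :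
    (ModSep.phi R N p).coeff (-((N : ℤ) * (d : ℤ))) = p.coeff d := by
  have h : ModSep.phi R N p =
      qE R N (Polynomial.eval₂ (HahnSeries.C : R →+* LaurentSeries R) (jqModC R) p) := by
    rw [Formal.qE_eval₂_C]
    rfl
  rw [h, show -((N : ℤ) * (d : ℤ)) = (N : ℤ) * (-(d : ℤ)) by ring, Formal.qE_coeff_mul hN,
    coeff_eval₂_jq_top R p d hd]

/-- A pole bound for `p(j(t^N))` bounds the degree of `p`. -/
theorem natDegree_le_of_poleLE_phi {N : ℕ} (hN : N ≠ 0) (p : Polynomial R) (B : ℤ)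
    (h : PoleLE B (ModSep.phi R N p)) (hp : p ≠ 0) : (N : ℤ) * (p.natDegree : ℤ) ≤ B := by
  by_contra hcon
  have hcon' := not_le.mp hcon
  have h1 := h (-((N : ℤ) * (p.natDegree : ℤ))) (by omega)
  rw [coeff_phi_top R hN p p.natDegree le_rfl] at h1
  exact hp (Polynomial.leadingCoeff_eq_zero.mp h1)

end PhiCoeff

/-! ### The conjugates -/

section Twist

variable {R : Type*} [CommRing R]

theorem poleLE_twist_jq (u : Rˣ) {k : ℕ} (hk : k ≠ 0) :
    PoleLE (k : ℤ) (twist R u k (jqModC R)) := by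
  have h : PoleLE 1 (scale R u (jqModC R)) := by
    intro n hn
    rw [scale_coeff, coeff_jqModC_of_lt R hn, mul_zero]
  have h2 := h.qE hk
  rw [mul_one] at h2
  exact h2

end Twist


/-! ### The core: a modular polynomial for a row system of prime level -/

section Core

variable {ℓ : ℕ} [NeZero ℓ] (S : RowSystem ℓ) {κ : Type*} [Field κ] (ζ : κˣ) (ν : κ)


omit [NeZero ℓ] in
theorem a_eq_one (hℓ : ℓ.Prime) (q : S.C) (hq : q ≠ S.one) : S.a q ℓ = 1 := by
  have h1 : S.a q ℓ ∣ ℓ := Orders.RowSystem.a_dvd S q ℓ dvd_rfl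
  rcases (Nat.dvd_prime hℓ).mp h1 with h | h
  · exact h
  · exact absurd (S.eq_one q h) hq

/-- The pole order of the conjugate attached to the row `q`. -/
def bnd (q : S.C) : ℤ := ((S.a q ℓ * S.a q ℓ : ℕ) : ℤ)

omit [NeZero ℓ] in
theorem bnd_one : bnd S S.one = (ℓ : ℤ) * (ℓ : ℤ) := by
  unfold bnd
  rw [S.a_one]
  push_cast
  ring

omit [NeZero ℓ] in
theorem bnd_of_ne (hℓ : ℓ.Prime) (q : S.C) (hq : q ≠ S.one) : bnd S q = 1 := by
  unfold bnd
  rw [a_eq_one S hℓ q hq]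
  simp

theorem poleLE_conj (q : S.C) : PoleLE (bnd S q) (ModSep.conj κ S ζ ν q) := by
  rw [ModSep.conj_eq]
  exact poleLE_twist_jq _ (Nat.mul_ne_zero (ModSep.a_ne_zero S q) (ModSep.a_ne_zero S q))

theorem coeff_conj_top (q : S.C) :
    (ModSep.conj κ S ζ ν q).coeff (-(bnd S q)) =
      (((ζ ^ (S.a q ℓ * S.b q ℓ))⁻¹ : κˣ) : κ) := by
  rw [ModSep.conj_eq]
  exact ModSep.twist_jq_coeff _ (Nat.mul_ne_zero (ModSep.a_ne_zero S q) (ModSep.a_ne_zero S q))

omit [NeZero ℓ] in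
theorem sum_bnd_le (hℓ : ℓ.Prime) (t : Finset S.C) :
    ∑ q ∈ t, bnd S q ≤ (ℓ : ℤ) * (ℓ : ℤ) - 1 + (t.card : ℤ) := by
  classical
  have h1 : ∀ q : S.C, bnd S q = 1 + (if q = S.one then (ℓ : ℤ) * (ℓ : ℤ) - 1 else 0) := by
    intro q
    by_cases hq : q = S.one
    · rw [if_pos hq, hq, bnd_one]; ring
    · rw [if_neg hq, bnd_of_ne S hℓ q hq]; ring
  rw [Finset.sum_congr rfl fun q _ => h1 q, Finset.sum_add_distrib, Finset.sum_const,
    nsmul_eq_mul, mul_one]
  have h2 : ∑ q ∈ t, (if q = S.one then (ℓ : ℤ) * (ℓ : ℤ) - 1 else 0) ≤ (ℓ : ℤ) * (ℓ : ℤ) - 1 := by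
    have hnn : (0 : ℤ) ≤ (ℓ : ℤ) * (ℓ : ℤ) - 1 := by
      have : (1 : ℤ) ≤ (ℓ : ℤ) := by exact_mod_cast hℓ.one_lt.le
      nlinarith
    rw [Finset.sum_ite_eq' t S.one]
    split_ifs
    · exact le_rfl
    · exact hnn
  linarith

omit [NeZero ℓ] in
theorem sum_bnd_univ (hℓ : ℓ.Prime) (hcard : Fintype.card S.C = ℓ + 1) :
    ∑ q : S.C, bnd S q = (ℓ : ℤ) * ((ℓ : ℤ) + 1) := by
  classical
  have h1 : ∀ q : S.C, bnd S q = 1 + (if q = S.one then (ℓ : ℤ) * (ℓ : ℤ) - 1 else 0) := by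
    intro q
    by_cases hq : q = S.one
    · rw [if_pos hq, hq, bnd_one]; ring
    · rw [if_neg hq, bnd_of_ne S hℓ q hq]; ring
  rw [Finset.sum_congr rfl fun q _ => h1 q, Finset.sum_add_distrib, Finset.sum_const,
    nsmul_eq_mul, mul_one, Finset.sum_ite_eq' Finset.univ S.one, if_pos (Finset.mem_univ _),
    Finset.card_univ, hcard]
  push_cast
  ring

/-- The elementary symmetric functions of the conjugates. -/
def esym (m : ℕ) : LaurentSeries κ :=
  ((Finset.univ : Finset S.C).val.map (ModSep.conj κ S ζ ν)).esymm m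

omit [NeZero ℓ] in
theorem esym_eq (m : ℕ) : esym S ζ ν m =
    ∑ t ∈ (Finset.univ : Finset S.C).powersetCard m, ∏ q ∈ t, ModSep.conj κ S ζ ν q :=
  Finset.esymm_map_val _ _ _

theorem poleLE_esym (hℓ : ℓ.Prime) (m : ℕ) :
    PoleLE ((ℓ : ℤ) * (ℓ : ℤ) - 1 + (m : ℤ)) (esym S ζ ν m) := by
  rw [esym_eq]
  refine poleLE_sum _ _ _ fun t ht => ?_
  have hcard : t.card = m := (Finset.mem_powersetCard.mp ht).2
  have h := (poleLE_prod t (ModSep.conj κ S ζ ν) (bnd S) fun q _ => poleLE_conj S ζ ν q).1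
  refine h.mono ?_
  rw [← hcard]
  exact sum_bnd_le S hℓ t

theorem coeff_esym_one (hℓ : ℓ.Prime) (hζ : ζ ^ ℓ = 1) :
    (esym S ζ ν 1).coeff (-((ℓ : ℤ) * (ℓ : ℤ))) = 1 := by
  classical
  have h1 : esym S ζ ν 1 = ∑ q : S.C, ModSep.conj κ S ζ ν q := by
    rw [esym_eq, Finset.powersetCard_one, Finset.sum_map]
    refine Finset.sum_congr rfl fun q _ => ?_
    simp
  rw [h1, HahnSeries.coeff_sum, Finset.sum_eq_single S.one]
  · rw [← bnd_one S, coeff_conj_top, S.a_one]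
    have : (ζ ^ (ℓ * S.b S.one ℓ))⁻¹ = 1 := by
      rw [pow_mul, hζ, one_pow, inv_one]
    rw [this, Units.val_one]
  · intro q _ hq
    apply poleLE_conj S ζ ν q
    rw [bnd_of_ne S hℓ q hq]
    have : (2 : ℤ) ≤ (ℓ : ℤ) := by exact_mod_cast hℓ.two_le
    nlinarith
  · intro h
    exact absurd (Finset.mem_univ _) h

omit [NeZero ℓ] in
theorem esym_card : esym S ζ ν (Fintype.card S.C) = ∏ q : S.C, ModSep.conj κ S ζ ν q := by
  classical
  rw [esym_eq, ← Finset.card_univ, Finset.powersetCard_self, Finset.sum_singleton]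

theorem coeff_esym_card (hℓ : ℓ.Prime) (hcard : Fintype.card S.C = ℓ + 1) :
    (esym S ζ ν (Fintype.card S.C)).coeff (-((ℓ : ℤ) * ((ℓ : ℤ) + 1))) =
      ((∏ q : S.C, (ζ ^ (S.a q ℓ * S.b q ℓ))⁻¹ : κˣ) : κ) := by
  rw [esym_card, ← sum_bnd_univ S hℓ hcard,
    (poleLE_prod Finset.univ (ModSep.conj κ S ζ ν) (bnd S) fun q _ => poleLE_conj S ζ ν q).2,
    Units.coe_prod]
  exact Finset.prod_congr rfl fun q _ => coeff_conj_top S ζ ν q

omit [NeZero ℓ] in
/-- Coefficients of a modular polynomial are, up to sign, the elementary symmetric functions. -/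
theorem phi_coeff {P : Polynomial (Polynomial κ)} (hP : ModSep.IsModPoly κ S ζ ν P) (k : ℕ)
    (hk : k ≤ Fintype.card S.C) :
    ModSep.phi κ ℓ (P.coeff k) =
      (-1) ^ (Fintype.card S.C - k) * esym S ζ ν (Fintype.card S.C - k) := by
  have h := congrArg (fun Q => Polynomial.coeff Q k) hP
  simp only [Polynomial.coeff_map] at h
  rw [h]
  have hcard : Multiset.card ((Finset.univ : Finset S.C).val.map (ModSep.conj κ S ζ ν))
      = Fintype.card S.C := by
    rw [Multiset.card_map]; rfl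
  have h2 := Multiset.prod_X_sub_C_coeff
    ((Finset.univ : Finset S.C).val.map (ModSep.conj κ S ζ ν)) (k := k) (by rw [hcard]; exact hk)
  rw [hcard, Multiset.map_map] at h2
  unfold esym
  exact h2

end Core


/-! ### Signs -/

section Sign

variable {R : Type*} [CommRing R]

theorem coeff_neg_one_pow_mul (m : ℕ) (f : LaurentSeries R) (n : ℤ) :
    ((-1) ^ m * f).coeff n = (-1) ^ m * f.coeff n := by
  rcases Nat.even_or_odd m with h | h
  · rw [h.neg_one_pow, h.neg_one_pow, one_mul, one_mul]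
  · rw [h.neg_one_pow, h.neg_one_pow, neg_one_mul, neg_one_mul, HahnSeries.coeff_neg]

theorem PoleLE.neg_one_pow_mul {B : ℤ} {f : LaurentSeries R} (hf : PoleLE B f) (m : ℕ) :
    PoleLE B ((-1) ^ m * f) := fun n hn => by
  rw [coeff_neg_one_pow_mul, hf n hn, mul_zero]

/-- Laurent series all of whose coefficients lie in a subring. -/
def coeffSubring (W : Subring R) : Subring (LaurentSeries R) where
  carrier := {f | ∀ n, f.coeff n ∈ W}
  mul_mem' := by
    intro f g hf hg n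
    rw [HahnSeries.coeff_mul]
    exact W.sum_mem fun ij _ => W.mul_mem (hf _) (hg _)
  one_mem' := by
    intro n
    rw [HahnSeries.coeff_one]
    split_ifs
    · exact W.one_mem
    · exact W.zero_mem
  add_mem' := by
    intro f g hf hg n
    rw [HahnSeries.coeff_add]
    exact W.add_mem (hf n) (hg n)
  zero_mem' := fun n => W.zero_mem
  neg_mem' := by
    intro f hf n
    rw [HahnSeries.coeff_neg]
    exact W.neg_mem (hf n)

theorem mem_coeffSubring {W : Subring R} {f : LaurentSeries R} :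
    f ∈ coeffSubring W ↔ ∀ n, f.coeff n ∈ W := Iff.rfl

end Sign

/-! ### The shape -/

section Shape

variable {ℓ : ℕ} [NeZero ℓ] (S : RowSystem ℓ) {κ : Type*} [Field κ] (ζ : κˣ) (ν : κ)


theorem natDegree_coeff_le (hℓ : ℓ.Prime) (hcard : Fintype.card S.C = ℓ + 1)
    {P : Polynomial (Polynomial κ)} (hP : ModSep.IsModPoly κ S ζ ν P)
    (k : ℕ) (hk1 : 1 ≤ k) (hk : k ≤ ℓ) : (P.coeff k).natDegree ≤ ℓ := by
  by_cases hp : P.coeff k = 0
  · rw [hp]; simp
  have h1 := phi_coeff S ζ ν hP k (by omega)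
  have h2 : PoleLE ((ℓ : ℤ) * (ℓ : ℤ) - 1 + ((Fintype.card S.C - k : ℕ) : ℤ))
      (ModSep.phi κ ℓ (P.coeff k)) := by
    rw [h1]
    exact (poleLE_esym S ζ ν hℓ _).neg_one_pow_mul _
  have h3 := natDegree_le_of_poleLE_phi κ (NeZero.ne ℓ) _ _ h2 hp
  have h4 : ((Fintype.card S.C - k : ℕ) : ℤ) ≤ (ℓ : ℤ) := by
    have : Fintype.card S.C - k ≤ ℓ := by omega
    exact_mod_cast this
  have hℓ1 : (1 : ℤ) ≤ (ℓ : ℤ) := by exact_mod_cast hℓ.one_lt.le
  by_contra hcon
  have h5 : ((ℓ : ℤ) + 1) ≤ ((P.coeff k).natDegree : ℤ) := by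
    have : ℓ + 1 ≤ (P.coeff k).natDegree := by omega
    exact_mod_cast this
  nlinarith

theorem coeff_coeff_top (hℓ : ℓ.Prime) (hζ : ζ ^ ℓ = 1) (hcard : Fintype.card S.C = ℓ + 1)
    {P : Polynomial (Polynomial κ)} (hP : ModSep.IsModPoly κ S ζ ν P) :
    (P.coeff ℓ).coeff ℓ = -1 := by
  have hdeg := natDegree_coeff_le S ζ ν hℓ hcard hP ℓ hℓ.one_lt.le le_rfl
  have h1 := phi_coeff S ζ ν hP ℓ (by omega)
  have h2 := coeff_phi_top κ (NeZero.ne ℓ) (P.coeff ℓ) ℓ hdeg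
  rw [← h2, h1, hcard, show ℓ + 1 - ℓ = 1 by omega, coeff_neg_one_pow_mul,
    coeff_esym_one S ζ ν hℓ hζ]
  simp

theorem natDegree_coeff_zero_le (hℓ : ℓ.Prime) (hcard : Fintype.card S.C = ℓ + 1)
    {P : Polynomial (Polynomial κ)} (hP : ModSep.IsModPoly κ S ζ ν P) :
    (P.coeff 0).natDegree ≤ ℓ + 1 := by
  by_cases hp : P.coeff 0 = 0
  · rw [hp]; simp
  have h1 := phi_coeff S ζ ν hP 0 (by omega)
  have h2 : PoleLE ((ℓ : ℤ) * (ℓ : ℤ) - 1 + ((Fintype.card S.C - 0 : ℕ) : ℤ))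
      (ModSep.phi κ ℓ (P.coeff 0)) := by
    rw [h1]
    exact (poleLE_esym S ζ ν hℓ _).neg_one_pow_mul _
  have h3 := natDegree_le_of_poleLE_phi κ (NeZero.ne ℓ) _ _ h2 hp
  rw [Nat.sub_zero, hcard] at h3
  push_cast at h3
  have hℓ1 : (1 : ℤ) ≤ (ℓ : ℤ) := by exact_mod_cast hℓ.one_lt.le
  by_contra hcon
  have h5 : ((ℓ : ℤ) + 2) ≤ ((P.coeff 0).natDegree : ℤ) := by
    have : ℓ + 2 ≤ (P.coeff 0).natDegree := by omega
    exact_mod_cast this
  nlinarith

theorem coeff_zero_coeff_pow (hℓ : ℓ.Prime) (hζ : ζ ^ ℓ = 1) (hcard : Fintype.card S.C = ℓ + 1)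
    {P : Polynomial (Polynomial κ)} (hP : ModSep.IsModPoly κ S ζ ν P) :
    ((P.coeff 0).coeff (ℓ + 1)) ^ (2 * ℓ) = 1 := by
  have hdeg := natDegree_coeff_zero_le S ζ ν hℓ hcard hP
  have h1 := phi_coeff S ζ ν hP 0 (by omega)
  have h2 := coeff_phi_top κ (NeZero.ne ℓ) (P.coeff 0) (ℓ + 1) hdeg
  have h3 : (ModSep.phi κ ℓ (P.coeff 0)).coeff (-((ℓ : ℤ) * (((ℓ + 1 : ℕ) : ℤ)))) =
      (-1) ^ (Fintype.card S.C) *
        ((∏ q : S.C, (ζ ^ (S.a q ℓ * S.b q ℓ))⁻¹ : κˣ) : κ) := by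
    rw [h1, Nat.sub_zero, coeff_neg_one_pow_mul]
    congr 1
    rw [← coeff_esym_card S ζ ν hℓ hcard]
    congr 2
  rw [← h2, h3, mul_pow, ← pow_mul, ← Units.val_pow_eq_pow_val, ← Finset.prod_pow]
  have h4 : ∀ q : S.C, ((ζ ^ (S.a q ℓ * S.b q ℓ))⁻¹) ^ (2 * ℓ) = 1 := by
    intro q
    rw [inv_pow, ← pow_mul, show S.a q ℓ * S.b q ℓ * (2 * ℓ) = ℓ * (S.a q ℓ * S.b q ℓ * 2) by ring,
      pow_mul, hζ, one_pow, inv_one]
  rw [Finset.prod_congr rfl fun q _ => h4 q, Finset.prod_const_one, Units.val_one, mul_one,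
    show Fintype.card S.C * (2 * ℓ) = 2 * (Fintype.card S.C * ℓ) by ring, pow_mul]
  simp

/-- All coefficients of a modular polynomial are integral over `ℤ`. -/
theorem coeff_isIntegral (hζ : ζ ^ ℓ = 1)
    {P : Polynomial (Polynomial κ)} (hP : ModSep.IsModPoly κ S ζ ν P)
    (hdeg : P.natDegree = Fintype.card S.C) (k i : ℕ) : IsIntegral ℤ ((P.coeff k).coeff i) := by
  classical
  set W : Subring κ := (integralClosure ℤ κ).toSubring with hW
  have hℓ0 : 0 < ℓ := Nat.pos_of_ne_zero (NeZero.ne ℓ)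
  -- roots of unity are integral
  have hroot : ∀ (u : κˣ), u ^ ℓ = 1 → ∀ m : ℤ, ((u ^ m : κˣ) : κ) ∈ W := by
    intro u hu m
    have h1 : ((u ^ m : κˣ) : κ) ^ ℓ = 1 := by
      rw [← Units.val_pow_eq_pow_val, ← zpow_natCast, ← zpow_mul, mul_comm, zpow_mul,
        zpow_natCast, hu, one_zpow, Units.val_one]
    show IsIntegral ℤ ((u ^ m : κˣ) : κ)
    refine ⟨Polynomial.X ^ ℓ - Polynomial.C 1, Polynomial.monic_X_pow_sub_C 1 hℓ0.ne', ?_⟩
    rw [Polynomial.eval₂_sub, Polynomial.eval₂_pow, Polynomial.eval₂_X, Polynomial.eval₂_C, h1,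
      map_one, sub_self]
  have hconj : ∀ q : S.C, ModSep.conj κ S ζ ν q ∈ coeffSubring W := by
    intro q n
    rw [ModSep.conj_eq]
    have hk : S.a q ℓ * S.a q ℓ ≠ 0 :=
      Nat.mul_ne_zero (ModSep.a_ne_zero S q) (ModSep.a_ne_zero S q)
    by_cases hdvd : ((S.a q ℓ * S.a q ℓ : ℕ) : ℤ) ∣ n
    · obtain ⟨m, rfl⟩ := hdvd
      rw [ModSep.twist_coeff_mul _ hk]
      refine W.mul_mem (hroot _ ?_ m) ?_
      · rw [← pow_mul, mul_comm, pow_mul, hζ, one_pow]
      · rw [coeff_jqModC_eq_intCast]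
        exact intCast_mem W _
    · unfold twist
      rw [RingHom.comp_apply, Formal.qE_coeff_of_not_dvd hk _ hdvd]
      exact W.zero_mem
  have hesym : ∀ m, esym S ζ ν m ∈ coeffSubring W := by
    intro m
    rw [esym_eq]
    exact Subring.sum_mem _ fun t _ => Subring.prod_mem _ fun q _ => hconj q
  rcases Nat.lt_or_ge (Fintype.card S.C) k with hk | hk
  · have h0 : P.coeff k = 0 :=
      Polynomial.coeff_eq_zero_of_natDegree_lt (by rw [hdeg]; exact hk)
    rw [h0, Polynomial.coeff_zero]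
    exact isIntegral_zero
  · have h1 := phi_coeff S ζ ν hP k hk
    have h2 : ModSep.phi κ ℓ (P.coeff k) ∈ coeffSubring W := by
      rw [h1]
      exact Subring.mul_mem _ (Subring.pow_mem _ (Subring.neg_mem _ (Subring.one_mem _)) _)
        (hesym _)
    exact Formal.coeff_mem_of_eval₂_qE_jqModC W ℓ (P.coeff k) h2 i

end Shape


/-! ### The shape, packaged -/

section Packaged

/-- **The classical shape of the modular equation of prime level `ℓ`**, over a ring `R`: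
`P ∈ R[X][Y]`, monic of degree `ℓ + 1` in `Y`, `P(j(q), j(q^ℓ)) = 0`, all coefficients integral
over `ℤ`, and `P = Y^(ℓ+1) + c X^(ℓ+1) - X^ℓ Y^ℓ + (terms X^a Y^b with a, b ≤ ℓ, (a,b) ≠ (ℓ,ℓ))`
with `c` a root of unity. -/
structure IsShape (R : Type*) [CommRing R] (ℓ : ℕ) (P : Polynomial (Polynomial R)) : Prop where
  monic : P.Monic
  natDegree_eq : P.natDegree = ℓ + 1
  root : P.eval₂ (Polynomial.eval₂RingHom (HahnSeries.C : R →+* LaurentSeries R) (jqModC R))
    (qE R ℓ (jqModC R)) = 0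
  integral : ∀ k i, IsIntegral ℤ ((P.coeff k).coeff i)
  natDegree_coeff_le : ∀ k, 1 ≤ k → k ≤ ℓ → (P.coeff k).natDegree ≤ ℓ
  coeff_top : (P.coeff ℓ).coeff ℓ = -1
  natDegree_coeff_zero_le : (P.coeff 0).natDegree ≤ ℓ + 1
  unit : ((P.coeff 0).coeff (ℓ + 1)) ^ (2 * ℓ) = 1

theorem card_rowSystem_prime {ℓ : ℕ} [NeZero ℓ] (hℓ : ℓ.Prime) :
    Fintype.card (Hermite.rowSystem ℓ).C = ℓ + 1 := by
  rw [Hermite.card_rowSystem, Fermat.Agent.Lib.Gamma0Count.index_Gamma0 ℓ hℓ.ne_zero,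
    dedekindPsi, hℓ.divisors, Finset.filter_true_of_mem, Finset.sum_pair hℓ.one_lt.ne,
    Nat.div_one, Nat.div_self hℓ.pos, add_comm]
  intro d hd
  rw [Finset.mem_insert, Finset.mem_singleton] at hd
  rcases hd with rfl | rfl
  · exact squarefree_one
  · exact hℓ.squarefree

/-- The shape over a field embedded in `ℂ` and containing a primitive `ℓ`-th root of unity. -/
theorem exists_isShape_of_embedding {ℓ : ℕ} [NeZero ℓ] (hℓ : ℓ.Prime) {R : Type*} [Field R]
    (ι : R →+* ℂ) {ζ₀ : R} (hζ₀ : IsPrimitiveRoot ζ₀ ℓ) :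
    ∃ P : Polynomial (Polynomial R), IsShape R ℓ P := by
  have hι : Function.Injective ι := ι.injective
  have h1 : IsPrimitiveRoot (ι ζ₀) ℓ := hζ₀.map_of_injective hι
  have h2 : ((zetaC ℓ : ℂˣ) : ℂ) ^ ℓ = 1 :=
    (Complex.isPrimitiveRoot_exp ℓ (NeZero.ne ℓ)).pow_eq_one
  obtain ⟨i, -, hi⟩ := h1.eq_pow_of_pow_eq_one h2
  let u : Rˣ := (hζ₀.isUnit (NeZero.ne ℓ)).unit
  have hu : (u : R) = ζ₀ := IsUnit.unit_spec _
  let ζ : Rˣ := u ^ i
  have hζ : ι (ζ : R) = (zetaC ℓ : ℂ) := by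
    show ι ((u ^ i : Rˣ) : R) = _
    rw [Units.val_pow_eq_pow_val, hu, map_pow, hi]
  have hℓR : (ℓ : R) ≠ 0 := by
    intro h
    have := congrArg ι h
    rw [map_natCast, map_zero] at this
    exact (NeZero.ne ℓ) (by exact_mod_cast this)
  have hν : (ℓ : R) * (ℓ : R)⁻¹ = 1 := mul_inv_cancel₀ hℓR
  obtain ⟨P, hmonic, hdeg, hP⟩ :=
    ModSep.exists_isModPoly_of_embedding ℓ ι hι ζ hζ ((ℓ : R)⁻¹) hν
  have hζℓ : ζ ^ ℓ = 1 := by
    apply Units.ext
    rw [Units.val_pow_eq_pow_val, Units.val_one]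
    exact (ModSep.isPrimitiveRoot_of_embedding ℓ ι hι ζ hζ).pow_eq_one
  have hcard := card_rowSystem_prime hℓ
  have hdeg' : P.natDegree = Fintype.card (Hermite.rowSystem ℓ).C := by
    rw [hdeg, Hermite.card_rowSystem]
  exact ⟨P, hmonic, hdeg'.trans hcard,
    hP.root R (Hermite.rowSystem ℓ) ζ _ hζℓ hν,
    coeff_isIntegral (Hermite.rowSystem ℓ) ζ _ hζℓ hP hdeg',
    natDegree_coeff_le (Hermite.rowSystem ℓ) ζ _ hℓ hcard hP,
    coeff_coeff_top (Hermite.rowSystem ℓ) ζ _ hℓ hζℓ hcard hP,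
    natDegree_coeff_zero_le (Hermite.rowSystem ℓ) ζ _ hℓ hcard hP,
    coeff_zero_coeff_pow (Hermite.rowSystem ℓ) ζ _ hℓ hζℓ hcard hP⟩

theorem coeffMap_comp_evalJ {R K : Type*} [CommRing R] [CommRing K] (f : R →+* K) :
    (coeffMap f).comp
        (Polynomial.eval₂RingHom (HahnSeries.C : R →+* LaurentSeries R) (jqModC R)) =
      (Polynomial.eval₂RingHom (HahnSeries.C : K →+* LaurentSeries K) (jqModC K)).comp
        (Polynomial.mapRingHom f) := by
  refine Polynomial.ringHom_ext (fun a => ?_) ?_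
  · simp only [RingHom.comp_apply, Polynomial.coe_eval₂RingHom, Polynomial.eval₂_C,
      Polynomial.coe_mapRingHom, Polynomial.map_C, Formal.coeffMap_C]
  · simp only [RingHom.comp_apply, Polynomial.coe_eval₂RingHom, Polynomial.eval₂_X,
      Polynomial.coe_mapRingHom, Polynomial.map_X, coeffMap_jqModC]

/-- Base change of the shape. -/
theorem IsShape.map {R K : Type*} [CommRing R] [CommRing K] [Nontrivial K] {ℓ : ℕ}
    {P : Polynomial (Polynomial R)} (h : IsShape R ℓ P) (f : R →+* K) :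
    IsShape K ℓ (P.map (Polynomial.mapRingHom f)) := by
  have hc : ∀ k i, ((P.map (Polynomial.mapRingHom f)).coeff k).coeff i =
      f ((P.coeff k).coeff i) := by
    intro k i
    rw [Polynomial.coeff_map, Polynomial.coe_mapRingHom, Polynomial.coeff_map]
  have hd : ∀ k, ((P.map (Polynomial.mapRingHom f)).coeff k).natDegree ≤
      (P.coeff k).natDegree := by
    intro k
    rw [Polynomial.coeff_map, Polynomial.coe_mapRingHom]
    exact Polynomial.natDegree_map_le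
  refine ⟨h.monic.map _, ?_, ?_, ?_, ?_, ?_, ?_, ?_⟩
  · rw [h.monic.natDegree_map, h.natDegree_eq]
  · have h1 := congrArg (coeffMap f) h.root
    rw [map_zero, Polynomial.hom_eval₂, Formal.coeffMap_qE, coeffMap_jqModC,
      coeffMap_comp_evalJ] at h1
    rw [Polynomial.eval₂_map]
    exact h1
  · intro k i
    rw [hc]
    exact (h.integral k i).map (f : R →+* K).toIntAlgHom
  · intro k hk1 hk
    exact (hd k).trans (h.natDegree_coeff_le k hk1 hk)
  · rw [hc, h.coeff_top, map_neg, map_one]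
  · exact (hd 0).trans h.natDegree_coeff_zero_le
  · rw [hc, ← map_pow, h.unit, map_one]

/-- **The shape of the modular equation of prime level `ℓ`** over any algebraically closed
field of characteristic zero. -/
theorem exists_isShape {ℓ : ℕ} (hℓ : ℓ.Prime) (K : Type*) [Field K] [CharZero K]
    [IsAlgClosed K] : ∃ P : Polynomial (Polynomial K), IsShape K ℓ P := by
  have h1 : NeZero ℓ := ⟨hℓ.ne_zero⟩
  have h2 : NeZero ((ℓ : ℕ) : ℚ) := ⟨by exact_mod_cast hℓ.ne_zero⟩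
  obtain ⟨ζ₀, hζ₀⟩ := (CyclotomicField.isCyclotomicExtension ℓ ℚ).exists_isPrimitiveRoot
    (Set.mem_singleton ℓ) hℓ.ne_zero
  let ι : CyclotomicField ℓ ℚ →ₐ[ℚ] ℂ := IsAlgClosed.lift
  let f : CyclotomicField ℓ ℚ →ₐ[ℚ] K := IsAlgClosed.lift
  obtain ⟨P, hP⟩ := exists_isShape_of_embedding hℓ (ι : CyclotomicField ℓ ℚ →+* ℂ) hζ₀
  exact ⟨_, hP.map (f : CyclotomicField ℓ ℚ →+* K)⟩

end Packaged

end Fermat.Agent.S34.PhiShape
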