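import Mathlib
import Fermat.Agent.S34.Sat.Series
import Fermat.Agent.S34.Sat.ModEq
import Fermat.Agent.S34.HauptU.Plug

/-!
# S34 / Program U, (F2): the `j`-coordinate plug-in of `TwoPrimesGauss`

Level `N = M ℓ`, `ℓ` prime, `ℓ ∤ M`; `L' = LE M E`, `L = LE (M ℓ) E`,
`α = TwoPrimesRank.alphaHom M ℓ E`, `σ = HauptU.Plug.sigmaHom (M ℓ) E`,
`w = HauptU.Plug.wHom M ℓ E hℓ hℓM`.  The coordinate-free hypotheses of the
`TwoPrimesGauss` variable block (`hαO hσO hσfrac hwO hwα hww`) are in `HauptU/Plug.lean`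
and `TwoPrimesRank.lean`.  This file supplies the coordinate-specific ones.

* chart zero, `u' = jE M E`, `U = jqModC O`:
  `hσu_j`, `hcop_j`, `hord_j`, `hρ_j`, `hfrob_j`, `hwu_j` (modular equation), `hrank_j`;
* chart infinity, `u' = (jE M E)⁻¹`, `U' = XqO O` (the integral series `1/j`):
  `hσu_inv`, `hcop_inv`, `hord_inv`, `hρ_inv`, `hfrob_inv`, `hrank_inv`;
* `charP_residue_OE'` : the residue field of `A ∩ E` has characteristic `ℓ` (no normality
  assumption), so that `hfrob_j`, `hfrob_inv` apply to `O = OE A E`.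
-/

set_option autoImplicit false
set_option linter.unusedSectionVars false
set_option linter.unusedVariables false
set_option linter.style.haveILetI false
set_option synthInstance.maxHeartbeats 400000

open ModularCurve Polynomial

noncomputable section

namespace Fermat.Agent.S34.Sat

open Fermat.Agent.S18.K1Defs Fermat.Agent.S30 Fermat.Agent.S30.E2Deg
open Fermat.Agent.S34.TwoPrimesRank Fermat.Agent.S34.HauptU.Plug Fermat.Agent.S34.TwoPrimesGauss

local notation "Qb" => AlgebraicClosure ℚ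

/-! ### Generalities -/

/-- The residue field of `A ∩ E` has characteristic `ℓ` if `A` lies over `ℓ`. -/
theorem charP_residue_OE' (A : ValuationSubring Qb) (E : IntermediateField ℚ Qb) {ℓ : ℕ}
    (hℓ : ℓ.Prime) (hA : A.LiesOverPrime ℓ) : CharP (IsLocalRing.ResidueField (OE A E)) ℓ := by
  rw [CharP.charP_iff_prime_eq_zero hℓ]
  obtain ⟨hmem, hmax⟩ := ((OE A E).mem_nonunits_iff_exists_mem_maximalIdeal).1
    (GaussDescent.natCast_mem_nonunits_OE A E hA)
  have h1 : (⟨((ℓ : ℕ) : E), hmem⟩ : OE A E) = ((ℓ : ℕ) : OE A E) := Subtype.ext (by simp)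
  rw [h1] at hmax
  have h2 := (IsLocalRing.residue_eq_zero_iff ((ℓ : ℕ) : OE A E)).2 hmax
  rwa [map_natCast] at h2

/-- **Integrality from the modular equation.**  If `σ : L → S((q))` is injective, `σ u = j(q)`
and `σ b = j(q^ℓ)`, then `b` is integral over `O[u]` for every base ring `O`. -/
theorem isIntegral_of_modEq {O L S : Type*} [CommRing O] [Field L] [Algebra O L] [CommRing S]
    (σ : L →+* LaurentSeries S) (hσ : Function.Injective σ) (u b : L) (hu : σ u = jqModC S)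
    (ℓ : ℕ) [NeZero ℓ] (hℓ : ℓ.Prime) (hb : σ b = qExpand S ℓ (jqModC S)) :
    IsIntegral (Algebra.adjoin O {u}) b := by
  obtain ⟨G, hGm, hG⟩ := exists_modEq_int hℓ
  let u₀ : Algebra.adjoin O {u} := ⟨u, Algebra.self_mem_adjoin_singleton O u⟩
  let θ : Polynomial ℤ →+* Algebra.adjoin O {u} :=
    ((aeval u₀ : O[X] →ₐ[O] Algebra.adjoin O {u}) : O[X] →+* Algebra.adjoin O {u}).comp
      (Polynomial.mapRingHom (Int.castRingHom O))
  refine ⟨G.map θ, hGm.map θ, ?_⟩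
  apply hσ
  rw [map_zero, Polynomial.eval₂_map, Polynomial.hom_eval₂, hb]
  have hcomp : σ.comp ((algebraMap (Algebra.adjoin O {u}) L).comp θ) = evalJ S := by
    refine Polynomial.ringHom_ext' (Subsingleton.elim _ _) ?_
    have h1 : θ X = u₀ := by simp [θ]
    rw [RingHom.comp_apply, RingHom.comp_apply, h1, evalJ_X, ← hu]
    rfl
  rw [hcomp]
  exact evalJ_modEq hG S

/-! ### The integral series `1/j` -/

/-- The integral power series `1/j = q - 744 q² + …`. -/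
def jInvPS : PowerSeries ℤ := PowerSeries.X * jNum.invOfUnit 1

theorem coeff_zero_jInvPS : PowerSeries.coeff 0 jInvPS = 0 := by
  rw [jInvPS, PowerSeries.coeff_zero_X_mul]

theorem coeff_one_jInvPS : PowerSeries.coeff 1 jInvPS = 1 := by
  rw [jInvPS, show (1 : ℕ) = 0 + 1 from rfl, PowerSeries.coeff_succ_X_mul,
    PowerSeries.coeff_zero_eq_constantCoeff_apply, PowerSeries.constantCoeff_invOfUnit]
  simp

theorem jq_mul_jInvPS :
    jq * HahnSeries.ofPowerSeries ℤ ℚ (jInvPS.map (Int.castRingHom ℚ)) = 1 := by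
  have h1 : jNum * jNum.invOfUnit 1 = 1 :=
    PowerSeries.mul_invOfUnit _ _ (by rw [constantCoeff_jNum]; rfl)
  have h2 : HahnSeries.ofPowerSeries ℤ ℚ jNumQ *
      HahnSeries.ofPowerSeries ℤ ℚ ((jNum.invOfUnit 1).map (Int.castRingHom ℚ)) = 1 := by
    rw [← map_mul, jNumQ, ← map_mul, h1, map_one, map_one]
  have h3 : HahnSeries.single (-1 : ℤ) (1 : ℚ) * HahnSeries.single (1 : ℤ) (1 : ℚ) =
      (1 : LaurentSeries ℚ) := by
    rw [HahnSeries.single_mul_single]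
    norm_num
  rw [jq, jInvPS, map_mul, PowerSeries.map_X, map_mul, HahnSeries.ofPowerSeries_X]
  calc HahnSeries.single (-1 : ℤ) (1 : ℚ) * HahnSeries.ofPowerSeries ℤ ℚ jNumQ *
        (HahnSeries.single (1 : ℤ) (1 : ℚ) *
          HahnSeries.ofPowerSeries ℤ ℚ ((jNum.invOfUnit 1).map (Int.castRingHom ℚ)))
      = (HahnSeries.single (-1 : ℤ) (1 : ℚ) * HahnSeries.single (1 : ℤ) (1 : ℚ)) *
          (HahnSeries.ofPowerSeries ℤ ℚ jNumQ *
            HahnSeries.ofPowerSeries ℤ ℚ ((jNum.invOfUnit 1).map (Int.castRingHom ℚ))) := by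
        ring
    _ = 1 := by rw [h2, h3, mul_one]

/-- The integral `q`-expansion of `1/j` over `O`. -/
def XqO (O : Type*) [CommRing O] : LaurentSeries O := HauptU.E.posO O jInvPS

theorem XqO_def (O : Type*) [CommRing O] : XqO O = HauptU.E.posO O jInvPS := rfl

/-! ### Orders, coprimality, Frobenius -/

section Orders

variable (O : Type*) [CommRing O] [IsDomain O] [IsDiscreteValuationRing O]

theorem order_rho_j : (GaussDVR.rho O (jqModC O)).order = -1 := by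
  rw [E2G1.rho_jqModC, order_jqModC]

/-- `hord` at `u' = j`. -/
theorem hord_j : (GaussDVR.rho O (jqModC O)).order ≠ 0 := by
  rw [order_rho_j]; norm_num

/-- `hρ` at `u' = j`. -/
theorem hρ_j : GaussDVR.rho O (jqModC O) ≠ 0 := by
  rw [E2G1.rho_jqModC]; exact jqModC_ne_zero _

/-- `hcop` at `u' = j`. -/
theorem hcop_j (ℓ : ℕ) : IsCoprime (GaussDVR.rho O (jqModC O)).order (ℓ : ℤ) := by
  rw [order_rho_j]
  exact isCoprime_one_left.neg_left

/-- `hfrob` at `u' = j`. -/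
theorem hfrob_j (ℓ : ℕ) [NeZero ℓ] (hℓ : ℓ.Prime) [CharP (IsLocalRing.ResidueField O) ℓ] :
    qExpand (IsLocalRing.ResidueField O) ℓ (GaussDVR.rho O (jqModC O))
      = GaussDVR.rho O (jqModC O) ^ ℓ := by
  haveI : Fact ℓ.Prime := ⟨hℓ⟩
  rw [E2G1.rho_jqModC]
  exact qExpand_jqModC_of_charP _ ℓ

theorem order_rho_inv : (GaussDVR.rho O (XqO O)).order = 1 :=
  HauptU.E.order_rho_posO jInvPS coeff_zero_jInvPS coeff_one_jInvPS

/-- `hord` at `u' = 1/j`. -/
theorem hord_inv : (GaussDVR.rho O (XqO O)).order ≠ 0 :=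
  HauptU.E.order_rho_posO_ne_zero jInvPS coeff_zero_jInvPS coeff_one_jInvPS

/-- `hρ` at `u' = 1/j`. -/
theorem hρ_inv : GaussDVR.rho O (XqO O) ≠ 0 := fun h =>
  hord_inv O (by rw [h, HahnSeries.order_zero])

/-- `hcop` at `u' = 1/j`. -/
theorem hcop_inv (ℓ : ℕ) : IsCoprime (GaussDVR.rho O (XqO O)).order (ℓ : ℤ) :=
  HauptU.E.isCoprime_order_rho_posO jInvPS coeff_zero_jInvPS coeff_one_jInvPS ℓ

/-- `hfrob` at `u' = 1/j`. -/
theorem hfrob_inv (ℓ : ℕ) [NeZero ℓ] (hℓ : ℓ.Prime) [CharP (IsLocalRing.ResidueField O) ℓ] :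
    qExpand (IsLocalRing.ResidueField O) ℓ (GaussDVR.rho O (XqO O))
      = GaussDVR.rho O (XqO O) ^ ℓ :=
  HauptU.E.qExpand_rho_posO ℓ hℓ jInvPS

end Orders

/-! ### The modular plug-in -/

section Modular

variable (M ℓ : ℕ) [NeZero M] [NeZero ℓ] (E : IntermediateField ℚ Qb)

theorem alphaHom_apply (x : LE M E) : alphaHom M ℓ E x = heckeAlphaBar E M ℓ x := rfl

/-- The `jE` of this file (`S30.E2Deg.jE`, as in `TwoPrimesRank`) IS the `jE` of `LevelM`
(`S18.K1Main.jE`), by `rfl`: every statement of this file applies verbatim to goals stated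
with `S18.K1Main.jE`. -/
theorem jE_eq : jE M E = Fermat.Agent.S18.K1Main.jE M E := rfl

/-- `σ (α x) = x` as `q`-expansions. -/
theorem sigma_alpha (x : LE M E) :
    sigmaHom (M * ℓ) E (alphaHom M ℓ E x) = (x : LaurentSeries E) := by
  rw [sigmaHom_apply, alphaHom_apply, coe_heckeAlphaBar]

theorem sigma_alpha_jE : sigmaHom (M * ℓ) E (alphaHom M ℓ E (jE M E)) = jqModC E := by
  rw [sigma_alpha, coe_jE, E2G1.coeffEmb_jq]

theorem coe_inv_LE (x : LE M E) : ((x⁻¹ : LE M E) : LaurentSeries E) = (x : LaurentSeries E)⁻¹ :=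
  rfl

theorem sigma_alpha_jE_inv : sigmaHom (M * ℓ) E (alphaHom M ℓ E (jE M E)⁻¹)
    = coeffEmb E (HahnSeries.ofPowerSeries ℤ ℚ (jInvPS.map (Int.castRingHom ℚ))) := by
  rw [sigma_alpha, coe_inv_LE, coe_jE]
  refine inv_eq_of_mul_eq_one_right ?_
  rw [← map_mul, jq_mul_jInvPS, map_one]

section Base

variable {O : Type*} [CommRing O] [IsDomain O] [IsDiscreteValuationRing O] [Algebra O E]

/-- `hσu` at `u' = j`, `U = jqModC O`. -/
theorem hσu_j : sigmaHom (M * ℓ) E (alphaHom M ℓ E (jE M E))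
    = GaussDVR.iota O E (jqModC O) := by
  rw [E2G1.iota_jqModC, sigma_alpha_jE]

/-- `hσu` at `u' = 1/j`, `U' = XqO O`. -/
theorem hσu_inv : sigmaHom (M * ℓ) E (alphaHom M ℓ E (jE M E)⁻¹)
    = GaussDVR.iota O E (XqO O) := by
  rw [XqO, ← HauptU.E.coeffEmb_eq_iota_posO, sigma_alpha_jE_inv]

end Base

/-- `hwu` at `u' = j` : `W (α j) = j(q^ℓ)` is integral over `O[α j]` (modular equation). -/
theorem hwu_j {O : Type*} [CommRing O] [Algebra O (LE (M * ℓ) E)] (hℓ : ℓ.Prime)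
    (hℓM : ¬ ℓ ∣ M) :
    IsIntegral (Algebra.adjoin O {alphaHom M ℓ E (jE M E)})
      (wHom M ℓ E hℓ hℓM (alphaHom M ℓ E (jE M E))) := by
  refine isIntegral_of_modEq (sigmaHom (M * ℓ) E) (sigmaHom_injective (M * ℓ) E) _ _
    (sigma_alpha_jE M ℓ E) ℓ hℓ ?_
  rw [sigmaHom_wHom_alpha, sigma_alpha_jE]

section Rank

variable {O : Type} [CommRing O] [IsDomain O] [IsDiscreteValuationRing O] [Algebra O E]
  [IsFractionRing O E] [Algebra O (LE M E)] [IsScalarTower O E (LE M E)]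
  [Algebra O (LE (M * ℓ) E)] [IsScalarTower O E (LE (M * ℓ) E)]

/-- `hrank` at `u' = j`. -/
theorem hrank_j (hℓ : ℓ.Prime) (hℓM : ¬ ℓ ∣ M)
    (v : Option (Fin 1 ⊕ Fin ℓ) → Chart O (alphaHom M ℓ E (jE M E))) :
    ∃ c : Option (Fin 1 ⊕ Fin ℓ) → Chart O (jE M E), c ≠ 0 ∧
      ∑ i, incl (alphaHom M ℓ E) (alphaHom_algebraMap M ℓ E) (jE M E) (c i) * v i = 0 := by
  haveI : FiniteDimensional (IntermediateField.adjoin E {jE M E}) (LE M E) :=
    E2Deg.finite_LE M E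
  exact hrank_modular_of_finite M ℓ E hℓ hℓM _ v

/-- `hrank` at `u' = 1/j`. -/
theorem hrank_inv (hℓ : ℓ.Prime) (hℓM : ¬ ℓ ∣ M)
    (v : Option (Fin 1 ⊕ Fin ℓ) → Chart O (alphaHom M ℓ E (jE M E)⁻¹)) :
    ∃ c : Option (Fin 1 ⊕ Fin ℓ) → Chart O (jE M E)⁻¹, c ≠ 0 ∧
      ∑ i, incl (alphaHom M ℓ E) (alphaHom_algebraMap M ℓ E) (jE M E)⁻¹ (c i) * v i = 0 :=
  hrank_modular_inv M ℓ E hℓ hℓM v

end Rank

end Modular

/-! ### Sanity check / corollary: (SAT) on the chart `O[j]` -/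

/-- **(SAT) at `u' = j`** : the `TwoPrimesGauss` block instantiated.  `x` integral over
`O[α j]` whose `q`-expansion and whose swapped `q`-expansion both reduce to `0` is `π · c`
with `c` integral over `O[α j]`.  The only non-discharged hypothesis is the level-`M` fact
`hprime` (`LevelM.lean`). -/
theorem sat_j (M ℓ : ℕ) [NeZero M] [NeZero ℓ] (hℓ : ℓ.Prime) (hℓM : ¬ ℓ ∣ M)
    (A : ValuationSubring Qb) (hA : A.LiesOverPrime ℓ) (E : IntermediateField ℚ Qb)
    [IsDiscreteValuationRing (OE A E)]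
    [Algebra (OE A E) (LE M E)] [IsScalarTower (OE A E) E (LE M E)]
    [Algebra (OE A E) (LE (M * ℓ) E)] [IsScalarTower (OE A E) E (LE (M * ℓ) E)]
    (π : OE A E) (hπ : Irreducible π) (hprime : Prime (piC (jE M E) π))
    (x : LE (M * ℓ) E) (hx : sigmaHom (M * ℓ) E x ∈ GaussDVR.V (OE A E) E)
    (hWx : sigmaHom (M * ℓ) E (wHom M ℓ E hℓ hℓM x) ∈ GaussDVR.V (OE A E) E)
    (hint : IsIntegral (Algebra.adjoin (OE A E) {alphaHom M ℓ E (jE M E)}) x)
    (h1 : GaussDVR.red (OE A E) E ⟨_, hx⟩ = 0) (h2 : GaussDVR.red (OE A E) E ⟨_, hWx⟩ = 0) :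
    ∃ c : LE (M * ℓ) E, IsIntegral (Algebra.adjoin (OE A E) {alphaHom M ℓ E (jE M E)}) c ∧
      x = algebraMap (OE A E) (LE (M * ℓ) E) π * c := by
  haveI := charP_residue_OE' A E hℓ hA
  exact Fermat.Agent.S34.TwoPrimesGauss.sat π hπ (alphaHom M ℓ E) (alphaHom_algebraMap M ℓ E)
    (sigmaHom (M * ℓ) E) (sigmaHom_algebraMap (M * ℓ) E) (sigmaHom_mem_fracField (M * ℓ) E A)
    (jE M E) (jqModC (OE A E)) (hσu_j M ℓ E) (wHom M ℓ E hℓ hℓM)
    (wHom_algebraMap M ℓ E hℓ hℓM) ℓ (sigmaHom_wHom_alpha M ℓ E hℓ hℓM)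
    (wHom_wHom M ℓ E hℓ hℓM) hprime (hcop_j _ ℓ) (hord_j _) hℓ.two_le (hfrob_j _ ℓ hℓ)
    (hwu_j M ℓ E hℓ hℓM) (hrank_j M ℓ E hℓ hℓM) x hx hWx hint h1 h2

/-- Type check of the chart-infinity block: the reduction `redInf` of the chart of `α (1/j)`
exists with `U' = XqO O`. -/
example (M ℓ : ℕ) [NeZero M] [NeZero ℓ] (A : ValuationSubring Qb) (E : IntermediateField ℚ Qb)
    [IsDiscreteValuationRing (OE A E)]
    [Algebra (OE A E) (LE M E)] [IsScalarTower (OE A E) E (LE M E)]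
    [Algebra (OE A E) (LE (M * ℓ) E)] [IsScalarTower (OE A E) E (LE (M * ℓ) E)]
    (π : OE A E) (hπ : Irreducible π) :
    Chart (OE A E) (alphaHom M ℓ E (jE M E)⁻¹) →+*
      LaurentSeries (IsLocalRing.ResidueField (OE A E)) :=
  redInf π hπ (alphaHom M ℓ E) (sigmaHom (M * ℓ) E) (sigmaHom_algebraMap (M * ℓ) E)
    (sigmaHom_mem_fracField (M * ℓ) E A) (jE M E)⁻¹ (XqO (OE A E)) (hσu_inv M ℓ E)

end Fermat.Agent.S34.Sat
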