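import Fermat.Agent.S34.CuspShape
import Fermat.Agent.S34.PhiShape

/-!
# The cusp shape, from the shape of the modular equation (Program U, (M2) glue)

* `shapeCoeffs_of_isShape` : `PhiShape.IsShape R ℓ P → CuspShape.ShapeCoeffs ℓ P` (`ℓ ≠ 0`);
* `ShapeCoeffs.map'` : base change of `ShapeCoeffs`;
* `exists_cusp_data_of_root` : `CuspShape.exists_cusp_data` with the root hypothesis in the
  form `Φ(u, z) = 0` (`x = u⁻¹`, `y = z⁻¹`), the literal output shape of
  `Modular.ThetaInf.root_of_sigma`.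
-/

set_option autoImplicit false

namespace Fermat.Agent.S34.CuspShapeOfPhi

open Polynomial Fermat.Agent.S34.CuspShape

/-- The classical shape of the modular equation has the cusp shape. -/
theorem shapeCoeffs_of_isShape {R : Type*} [CommRing R] {ℓ : ℕ} (hℓ : ℓ ≠ 0)
    {P : Polynomial (Polynomial R)} (h : Fermat.Agent.S34.PhiShape.IsShape R ℓ P) :
    ShapeCoeffs ℓ P :=
  ⟨h.monic, h.natDegree_eq, h.natDegree_coeff_le, h.coeff_top, h.natDegree_coeff_zero_le,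
    IsUnit.of_pow_eq_one h.unit (by omega)⟩

/-- Base change of the cusp shape. -/
theorem shapeCoeffs_map {R K : Type*} [CommRing R] [CommRing K] [Nontrivial K] {ℓ : ℕ}
    {P : Polynomial (Polynomial R)} (h : ShapeCoeffs ℓ P) (f : R →+* K) :
    ShapeCoeffs ℓ (P.map (Polynomial.mapRingHom f)) := by
  have hc : ∀ k i, ((P.map (Polynomial.mapRingHom f)).coeff k).coeff i =
      f ((P.coeff k).coeff i) := by
    intro k i
    rw [Polynomial.coeff_map, Polynomial.coe_mapRingHom, Polynomial.coeff_map]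
  have hd : ∀ k, ((P.map (Polynomial.mapRingHom f)).coeff k).natDegree ≤
      (P.coeff k).natDegree := by
    intro k
    rw [Polynomial.coeff_map, Polynomial.coe_mapRingHom]
    exact Polynomial.natDegree_map_le
  refine ⟨h.monic.map _, ?_, ?_, ?_, ?_, ?_⟩
  · rw [h.monic.natDegree_map, h.natDegree_eq]
  · intro k hk1 hk
    exact (hd k).trans (h.natDegree_coeff_le k hk1 hk)
  · rw [hc, h.coeff_top, map_neg, map_one]
  · exact (hd 0).trans h.natDegree_coeff_zero_le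
  · rw [hc]
    exact h.unit.map f

variable {R L : Type*} [CommRing R] [Field L] [Algebra R L]

/-- `CuspShape.exists_cusp_data` for a root `Φ(u, z) = 0` (root hypothesis in the `aeval` form
produced by `Modular.ThetaInf.root_of_sigma`); the cusp coordinates are `u⁻¹`, `z⁻¹`. -/
theorem exists_cusp_data_of_root (ℓ : ℕ) (hℓ : 1 ≤ ℓ) (Φ : Polynomial (Polynomial R))
    (hΦ : ShapeCoeffs ℓ Φ) (u z : L) (hu : u ≠ 0) (hz : z ≠ 0)
    (hroot : Φ.eval₂ ((Polynomial.aeval u : Polynomial R →ₐ[R] L) : Polynomial R →+* L) z = 0) :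
    ∃ (p : Polynomial R) (v α β : L), p.coeff 0 = 1 ∧
      IsIntegral (Algebra.adjoin R {u⁻¹}) (Polynomial.aeval u⁻¹ p * z⁻¹) ∧
      v ∈ Algebra.adjoin R {u⁻¹} ∧ α ∈ Algebra.adjoin R {u⁻¹, z⁻¹} ∧
      β ∈ Algebra.adjoin R {u⁻¹, z⁻¹} ∧
      IsIntegral (Algebra.adjoin R {u⁻¹, z⁻¹}) (u⁻¹ ^ ℓ / z⁻¹) ∧
      IsIntegral (Algebra.adjoin R {u⁻¹, z⁻¹}) (z⁻¹ ^ ℓ * v / u⁻¹) ∧
      u⁻¹ ^ ℓ / z⁻¹ + z⁻¹ ^ ℓ * v / u⁻¹ = 1 + u⁻¹ * α + z⁻¹ * β := by
  refine exists_cusp_data ℓ hℓ Φ hΦ u⁻¹ z⁻¹ (inv_ne_zero hu) (inv_ne_zero hz) ?_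
  rw [inv_inv, inv_inv]
  have hhom : (Polynomial.eval₂RingHom (algebraMap R L) u) =
      ((Polynomial.aeval u : Polynomial R →ₐ[R] L) : Polynomial R →+* L) := by
    ext r <;> simp
  rw [hhom]
  exact hroot

end Fermat.Agent.S34.CuspShapeOfPhi
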