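import Mathlib

/-!
# The cusp shape of a modular-type equation (Program U, brick (M2) SB3)

Let `Φ ∈ R[X][Y]` be monic in `Y` of degree `ℓ + 1` with the coefficient shape of the
modular equation (`ShapeCoeffs`), and let `x, y` be nonzero elements of a field `L ⊇ R` with
`Φ(1/x, 1/y) = 0`.  Clearing denominators gives

  `x^(ℓ+1) + V(x)·y^(ℓ+1) + x·y·Σ_{1 ≤ k ≤ ℓ} R_k(x)·y^(ℓ-k) = 0`,

with `V(0)` a unit and `R_ℓ(0) = -1`.  `exists_cusp_data` extracts from it everything the cusp
analysis needs: a polynomial `p` with `p(0) = 1` such that `p(x)·y` is integral over `R[x]`,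
and the two elements `x^ℓ/y`, `y^ℓ·v/x`, integral over `R[x, y]`, whose sum is
`1 + x·α + y·β`.
-/

set_option autoImplicit false

namespace Fermat.Agent.S34.CuspShape

open Polynomial

/-- Coefficient shape of the modular equation (`PhiShape.IsShape` without the q-expansion
fields). -/
structure ShapeCoeffs {R : Type*} [CommRing R] (ℓ : ℕ) (Φ : Polynomial (Polynomial R)) :
    Prop where
  monic : Φ.Monic
  natDegree_eq : Φ.natDegree = ℓ + 1
  natDegree_coeff_le : ∀ k, 1 ≤ k → k ≤ ℓ → (Φ.coeff k).natDegree ≤ ℓ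
  coeff_top : (Φ.coeff ℓ).coeff ℓ = -1
  natDegree_coeff_zero_le : (Φ.coeff 0).natDegree ≤ ℓ + 1
  unit : IsUnit ((Φ.coeff 0).coeff (ℓ + 1))

variable {R L : Type*} [CommRing R] [Field L]

/-- Clearing the denominators of `f(1/x)`. -/
theorem eval₂_inv_mul_pow (i : R →+* L) {x : L} (hx : x ≠ 0) (N : ℕ) (f : R[X])
    (hf : f.natDegree ≤ N) : eval₂ i x⁻¹ f * x ^ N = eval₂ i x (f.reflect N) := by
  let _ : Invertible x⁻¹ := invertibleOfNonzero (inv_ne_zero hx)
  have h := eval₂_reflect_mul_pow i x⁻¹ N f hf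
  rw [invOf_eq_inv, inv_inv] at h
  rw [← h, mul_assoc, ← mul_pow, inv_mul_cancel₀ hx, one_pow, mul_one]

variable [Algebra R L]

/-- A root of a monic quadratic with coefficients in a subalgebra is integral over it. -/
theorem isIntegral_of_sq_eq (A : Subalgebra R L) (z s P : L) (hs : s ∈ A) (hP : P ∈ A)
    (h : z ^ 2 = s * z - P) : IsIntegral A z := by
  refine ⟨X ^ 2 - (C (⟨s, hs⟩ : A) * X + C (-⟨P, hP⟩ : A)), monic_X_pow_sub ?_, ?_⟩
  · exact lt_of_le_of_lt degree_linear_le (by norm_num)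
  · simp [h]
    ring

/-- If `a₀ y^N + a₁ y^(N-1) + ⋯ + a_N = 0` with all `a_k` in a subalgebra `B`, then `a₀ y` is
integral over `B`. -/
theorem isIntegral_lead_mul (B : Subalgebra R L) (N : ℕ) (a : ℕ → L) (ha : ∀ k, a k ∈ B)
    (y : L) (h : ∑ k ∈ Finset.range (N + 1), a k * y ^ (N - k) = 0) :
    IsIntegral B (a 0 * y) := by
  by_cases h0 : a 0 = 0
  · rw [h0, zero_mul]; exact isIntegral_zero
  set q : B[X] := ∑ k ∈ Finset.range (N + 1), C (⟨a k, ha k⟩ : B) * X ^ (N - k) with hq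
  have hroot : aeval y q = 0 := by
    rw [hq, map_sum, ← h]
    refine Finset.sum_congr rfl fun k _ => ?_
    simp
  have hcoeff : q.coeff N = ⟨a 0, ha 0⟩ := by
    rw [hq, finsetSum_coeff, Finset.sum_eq_single 0]
    · simp
    · intro k hk hk0
      rw [coeff_C_mul_X_pow, if_neg]
      have := Finset.mem_range.mp hk
      omega
    · intro h; exact absurd (Finset.mem_range.mpr (Nat.succ_pos N)) h
  have hdeg : q.natDegree ≤ N := by
    rw [hq]
    refine natDegree_sum_le_of_forall_le _ _ fun k _ => ?_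
    exact (natDegree_C_mul_X_pow_le _ _).trans (Nat.sub_le N k)
  have hne : q.coeff N ≠ 0 := by
    rw [hcoeff]; intro h; exact h0 (congrArg Subtype.val h)
  have hnat : q.natDegree = N := natDegree_eq_of_le_of_coeff_ne_zero hdeg hne
  have hlead : q.leadingCoeff = ⟨a 0, ha 0⟩ := by
    rw [leadingCoeff, hnat, hcoeff]
  have key := isIntegral_leadingCoeff_smul (R := B) (S := L) (p := q) (x := y) hroot
  rw [hlead] at key
  exact key

/-- **The cusp data of a modular-type equation.**  If `Φ(1/x, 1/y) = 0` for a polynomial `Φ` of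
the modular shape, then: `p(x)·y` is integral over `R[x]` for a polynomial `p` with `p(0) = 1`;
`x^ℓ/y` and `y^ℓ·v/x` (`v ∈ R[x]`) are integral over `R[x, y]`; and their sum is
`1 + x·α + y·β` with `α, β ∈ R[x, y]`. -/
theorem exists_cusp_data (ℓ : ℕ) (hℓ : 1 ≤ ℓ) (Φ : Polynomial (Polynomial R))
    (hΦ : ShapeCoeffs ℓ Φ) (x y : L) (hx : x ≠ 0) (hy : y ≠ 0)
    (hroot : Polynomial.eval₂ (Polynomial.eval₂RingHom (algebraMap R L) x⁻¹) y⁻¹ Φ = 0) :
    ∃ (p : Polynomial R) (v α β : L), p.coeff 0 = 1 ∧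
      IsIntegral (Algebra.adjoin R {x}) (Polynomial.aeval x p * y) ∧
      v ∈ Algebra.adjoin R {x} ∧ α ∈ Algebra.adjoin R {x, y} ∧ β ∈ Algebra.adjoin R {x, y} ∧
      IsIntegral (Algebra.adjoin R {x, y}) (x ^ ℓ / y) ∧
      IsIntegral (Algebra.adjoin R {x, y}) (y ^ ℓ * v / x) ∧
      x ^ ℓ / y + y ^ ℓ * v / x = 1 + x * α + y * β := by
  obtain ⟨n, rfl⟩ : ∃ n, ℓ = n + 1 := ⟨ℓ - 1, by omega⟩
  -- membership facts
  have hxA : x ∈ Algebra.adjoin R {x, y} := Algebra.subset_adjoin (by simp)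
  have hyA : y ∈ Algebra.adjoin R {x, y} := Algebra.subset_adjoin (by simp)
  have hle : Algebra.adjoin R {x} ≤ Algebra.adjoin R {x, y} := Algebra.adjoin_mono (by simp)
  have hmem : ∀ f : R[X], aeval x f ∈ Algebra.adjoin R {x} := fun f =>
    aeval_mem_adjoin_singleton R x
  -- degrees of the coefficients
  have hcoeffTop : Φ.coeff (n + 2) = 1 := by
    have := hΦ.monic.coeff_natDegree
    rwa [hΦ.natDegree_eq] at this
  have hdeg : ∀ k, (Φ.coeff k).natDegree ≤ n + 2 := by
    intro k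
    rcases Nat.lt_or_ge k 1 with hk | hk
    · have : k = 0 := by omega
      subst this
      exact hΦ.natDegree_coeff_zero_le
    · rcases Nat.lt_or_ge k (n + 2) with hk2 | hk2
      · exact (hΦ.natDegree_coeff_le k hk (by omega)).trans (by omega)
      · rcases Nat.eq_or_lt_of_le hk2 with hk3 | hk3
        · rw [← hk3, hcoeffTop]; simp
        · rw [coeff_eq_zero_of_natDegree_lt (by rw [hΦ.natDegree_eq]; omega)]; simp
  -- the cleared coefficients
  set a : ℕ → L := fun k => eval₂ (algebraMap R L) x⁻¹ (Φ.coeff k) * x ^ (n + 2) with ha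
  have ha_eq : ∀ k, a k = aeval x ((Φ.coeff k).reflect (n + 2)) := fun k => by
    rw [ha, aeval_def]
    exact eval₂_inv_mul_pow (algebraMap R L) hx (n + 2) _ (hdeg k)
  have ha_mem : ∀ k, a k ∈ Algebra.adjoin R {x} := fun k => by
    rw [ha_eq k]; exact hmem _
  -- the root equation, cleared
  have h0 : ∑ k ∈ Finset.range (n + 3),
      eval₂ (algebraMap R L) x⁻¹ (Φ.coeff k) * (y⁻¹) ^ k = 0 := by
    rw [← hroot, eval₂_eq_sum_range, hΦ.natDegree_eq]
    rfl
  have h1 : ∑ k ∈ Finset.range (n + 2 + 1), a k * y ^ (n + 2 - k) = 0 := by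
    have hmul : ∑ k ∈ Finset.range (n + 2 + 1), a k * y ^ (n + 2 - k)
        = (x ^ (n + 2) * y ^ (n + 2)) * ∑ k ∈ Finset.range (n + 3),
            eval₂ (algebraMap R L) x⁻¹ (Φ.coeff k) * (y⁻¹) ^ k := by
      rw [Finset.mul_sum]
      refine Finset.sum_congr rfl fun k hk => ?_
      have hk' : k ≤ n + 2 := by have := Finset.mem_range.mp hk; omega
      have hpow : y ^ (n + 2) = y ^ (n + 2 - k) * y ^ k := by
        rw [← pow_add, Nat.sub_add_cancel hk']
      rw [ha, hpow, inv_pow]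
      field_simp
    rw [hmul, h0, mul_zero]
  -- the polynomial `V` and the element `v`
  set V : R[X] := (Φ.coeff 0).reflect (n + 2) with hV
  have hV0 : V.coeff 0 = (Φ.coeff 0).coeff (n + 2) := by
    rw [hV, coeff_reflect, revAt_zero]
  have ha0 : a 0 = aeval x V := ha_eq 0
  have haTop : a (n + 2) = x ^ (n + 2) := by
    rw [ha]
    simp only [hcoeffTop, eval₂_one, one_mul]
  -- the middle coefficients
  set r : ℕ → L := fun k => aeval x ((Φ.coeff k).reflect (n + 1)) with hr
  have har : ∀ m, m < n + 1 → a (m + 1) = r (m + 1) * x := fun m hm => by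
    rw [ha, hr]
    simp only
    rw [aeval_def, ← eval₂_inv_mul_pow (algebraMap R L) hx (n + 1) _
      (hΦ.natDegree_coeff_le (m + 1) (by omega) (by omega))]
    ring
  have hr_mem : ∀ k, r k ∈ Algebra.adjoin R {x} := fun k => hmem _
  -- the split equation
  set T : L := ∑ m ∈ Finset.range n, r (m + 1) * y ^ (n - 1 - m) with hT
  set W : R[X] := (Φ.coeff (n + 1)).reflect (n + 1) with hW
  set Q : L := aeval x W.divX with hQ
  have hW0 : W.coeff 0 = -1 := by
    rw [hW, coeff_reflect, revAt_zero]; exact hΦ.coeff_top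
  have hrTop : r (n + 1) = Q * x - 1 := by
    have h2 : aeval x W = aeval x (W.divX * X + C (W.coeff 0)) := by rw [divX_mul_X_add]
    rw [hr]
    simp only
    rw [← hW, h2, hW0]
    simp [hQ]
    ring
  have hE : x * y * (y * T + (Q * x - 1)) + aeval x V * y ^ (n + 2) + x ^ (n + 2) = 0 := by
    rw [Finset.sum_range_succ, Finset.sum_range_succ'] at h1
    rw [← h1, ha0, haTop, Nat.sub_self, pow_zero, mul_one, Nat.sub_zero]
    congr 2
    have hsum : ∑ m ∈ Finset.range (n + 1), a (m + 1) * y ^ (n + 2 - (m + 1))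
        = x * y * ∑ m ∈ Finset.range (n + 1), r (m + 1) * y ^ (n - m) := by
      rw [Finset.mul_sum]
      refine Finset.sum_congr rfl fun m hm => ?_
      have hm' : m < n + 1 := Finset.mem_range.mp hm
      have : n + 2 - (m + 1) = (n - m) + 1 := by omega
      rw [har m hm', this, pow_succ]
      ring
    rw [hsum, Finset.sum_range_succ, Nat.sub_self, pow_zero, mul_one, hrTop]
    congr 2
    rw [hT, Finset.mul_sum]
    refine Finset.sum_congr rfl fun m hm => ?_
    have hm' : m < n := Finset.mem_range.mp hm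
    have : n - m = (n - 1 - m) + 1 := by omega
    rw [this, pow_succ]
    ring
  -- the two integral elements
  have hvA : aeval x V ∈ Algebra.adjoin R {x, y} := hle (hmem V)
  have hQA : Q ∈ Algebra.adjoin R {x, y} := hle (hmem _)
  have hTA : T ∈ Algebra.adjoin R {x, y} :=
    Subalgebra.sum_mem _ fun m _ => mul_mem (hle (hr_mem _)) (pow_mem hyA _)
  have hsumEq : x ^ (n + 1) / y + y ^ (n + 1) * aeval x V / x = 1 + x * (-Q) + y * (-T) := by
    rw [div_add_div _ _ hy hx, div_eq_iff (mul_ne_zero hy hx)]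
    linear_combination hE
  have hprodEq : x ^ (n + 1) / y * (y ^ (n + 1) * aeval x V / x) = x ^ n * y ^ n * aeval x V := by
    field_simp
    ring
  have hsA : 1 + x * (-Q) + y * (-T) ∈ Algebra.adjoin R {x, y} :=
    add_mem (add_mem (one_mem _) (mul_mem hxA (neg_mem hQA))) (mul_mem hyA (neg_mem hTA))
  have hPA : x ^ n * y ^ n * aeval x V ∈ Algebra.adjoin R {x, y} :=
    mul_mem (mul_mem (pow_mem hxA _) (pow_mem hyA _)) hvA
  -- the polynomial `p`
  obtain ⟨c, hc⟩ := hΦ.unit
  refine ⟨C (↑c⁻¹ : R) * V, aeval x V, -Q, -T, ?_, ?_, hmem V, neg_mem hQA, neg_mem hTA,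
    ?_, ?_, hsumEq⟩
  · rw [coeff_C_mul, hV0, ← hc, Units.inv_mul]
  · have hint : IsIntegral (Algebra.adjoin R {x}) (a 0 * y) :=
      isIntegral_lead_mul (Algebra.adjoin R {x}) (n + 2) a ha_mem y h1
    have heq : aeval x (C (↑c⁻¹ : R) * V) * y = (↑c⁻¹ : R) • (a 0 * y) := by
      rw [ha0, map_mul, aeval_C, Algebra.smul_def, mul_assoc]
    rw [heq]
    exact hint.smul _
  · refine isIntegral_of_sq_eq _ _ _ _ hsA hPA ?_
    rw [← hsumEq, ← hprodEq]
    ring
  · refine isIntegral_of_sq_eq _ _ _ _ hsA hPA ?_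
    rw [← hsumEq, ← hprodEq]
    ring

end Fermat.Agent.S34.CuspShape
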