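import Mathlib
import Fermat.Agent.S30.Model.Main
import Fermat.Agent.S30.Model.GlueChart
import Fermat.Agent.S30.Model.ChartSwap

/-!
# PROGRAM U (S34), brick `Regular (a)`: (STAR) at the horizontal points

`O` a DVR with uniformiser `π`, `E = Frac O`, `L` a field over `E`, `t : L`, `B` the chart ring
(integral closure of `O[t]` in `L`).  If `m ∣ div h` on the chart (`Model.LocPow m t h`) and
`h ≠ 0`, then at every prime `M` of `B` NOT containing `π`, `h` is an `m`-th power times a unit
of `B_M`:  `∃ f a, a ∉ M ∧ f ^ m * h = a`  (the shape `ToricInertia.Star O {t} m h M`, the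
conclusion of `Cart.cart`, and the case `π ∉ M` of `Nodal.IsNodalChart.star`).

No finiteness, no transcendence of `t`, no nodal hypothesis is needed; `M` prime suffices.

* `evB t`                       : `O[X] →+* B`, `g ↦ g(t)`.
* `exists_irreducible_dvd`      : the irreducible `f ∈ E[X]` below `M`.
* `exists_mul_eq_of_isIntegralAt` : clearing denominators by an element of `B ∖ M`.
* `star_of_not_mem`             : the exit.
-/

set_option autoImplicit false

open Polynomial
open Fermat.Agent.S30.Model Fermat.Agent.S30.Model.GlueChart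

namespace Fermat.Agent.S34.RegularHoriz

variable {O E L : Type*} [CommRing O] [IsDomain O]
  [Field E] [Algebra O E] [IsFractionRing O E]
  [Field L] [Algebra E L] [Algebra O L] [IsScalarTower O E L]

/-- The element `g(t)` of the chart ring, for `g ∈ O[X]`. -/
noncomputable def evB (t : L) :
    O[X] →+* integralClosure (Algebra.adjoin O ({t} : Set L)) L :=
  (algebraMap (Algebra.adjoin O ({t} : Set L)) _).comp
    (aeval (⟨t, Algebra.subset_adjoin (Set.mem_singleton t)⟩ :
      Algebra.adjoin O ({t} : Set L)) : O[X] →ₐ[O] _).toRingHom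

omit [IsDomain O] [Algebra O E] [IsFractionRing O E] [Algebra E L] [IsScalarTower O E L] in
theorem coe_evB (t : L) (g : O[X]) :
    ((evB t g : integralClosure (Algebra.adjoin O ({t} : Set L)) L) : L) = aeval t g := by
  change ((aeval (⟨t, Algebra.subset_adjoin (Set.mem_singleton t)⟩ :
      Algebra.adjoin O ({t} : Set L)) g : Algebra.adjoin O ({t} : Set L)) : L) = aeval t g
  exact (Subalgebra.aeval_coe _ _ _).symm

omit [IsDomain O] [Algebra O E] [IsFractionRing O E] [Algebra E L] [IsScalarTower O E L] in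
theorem evB_C (t : L) (π : O) :
    evB t (C π) = piElt (Algebra.adjoin O ({t} : Set L)) π := by
  apply Subtype.ext
  rw [coe_evB, aeval_C, coe_piElt]

variable [IsDiscreteValuationRing O]

/-- Nonzero constants of `O` are units at a prime `M ∌ π` of the chart ring. -/
theorem evB_C_not_mem {π : O} (hπ : Irreducible π) (t : L)
    (M : Ideal (integralClosure (Algebra.adjoin O ({t} : Set L)) L)) [hMp : M.IsPrime]
    (hπM : piElt (Algebra.adjoin O ({t} : Set L)) π ∉ M) {c : O} (hc : c ≠ 0) :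
    evB t (C c) ∉ M := by
  obtain ⟨n, u, hu⟩ := IsDiscreteValuationRing.associated_pow_irreducible hc hπ
  intro hmem
  have h1 : evB t (C (π ^ n)) ∈ M := by
    rw [← hu, C_mul, map_mul]
    exact M.mul_mem_right _ hmem
  rw [C_pow, map_pow, evB_C] at h1
  exact hπM (hMp.mem_of_pow_mem n h1)

omit [Algebra E L] [IsScalarTower O E L] in
/-- The irreducible polynomial `f ∈ E[X]` "below" a prime `M ∌ π` of the chart ring. -/
theorem exists_irreducible_dvd {π : O} (hπ : Irreducible π) (t : L)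
    (M : Ideal (integralClosure (Algebra.adjoin O ({t} : Set L)) L)) [hMp : M.IsPrime]
    (hπM : piElt (Algebra.adjoin O ({t} : Set L)) π ∉ M) :
    ∃ f : E[X], Irreducible f ∧ ∀ g : O[X], evB t g ∈ M → f ∣ g.map (algebraMap O E) := by
  let _ : Algebra O[X] E[X] := Polynomial.algebra O E
  have : IsLocalization ((nonZeroDivisors O).map (C : O →+* O[X])) E[X] :=
    Polynomial.isLocalization (nonZeroDivisors O) E
  have hdisj : Disjoint (((nonZeroDivisors O).map (C : O →+* O[X]) : Submonoid O[X]) : Set O[X])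
      ((M.comap (evB t) : Ideal O[X]) : Set O[X]) := by
    rw [Set.disjoint_left]
    rintro x ⟨c, hc, rfl⟩ hx
    exact evB_C_not_mem hπ t M hπM (nonZeroDivisors.ne_zero hc) hx
  have hne : (M.comap (evB t)).map (algebraMap O[X] E[X]) ≠ ⊤ :=
    (IsLocalization.map_algebraMap_ne_top_iff_disjoint
      ((nonZeroDivisors O).map (C : O →+* O[X])) E[X] _).2 hdisj
  obtain ⟨𝔫, h𝔫max, h𝔫le⟩ := Ideal.exists_le_maximal _ hne
  have hgen : Ideal.span {Submodule.IsPrincipal.generator 𝔫} = 𝔫 :=
    Ideal.span_singleton_generator 𝔫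
  have hf0 : Submodule.IsPrincipal.generator 𝔫 ≠ 0 := by
    intro h0
    rw [h0, Ideal.span_singleton_eq_bot.2 rfl] at hgen
    exact Ring.ne_bot_of_isMaximal_of_not_isField h𝔫max (Polynomial.not_isField E) hgen.symm
  have hprime : (Ideal.span {Submodule.IsPrincipal.generator 𝔫}).IsPrime := by
    rw [hgen]; exact h𝔫max.isPrime
  refine ⟨_, ((Ideal.span_singleton_prime hf0).1 hprime).irreducible, fun g hg => ?_⟩
  have h1 : algebraMap O[X] E[X] g ∈ 𝔫 := h𝔫le (Ideal.mem_map_of_mem _ hg)
  rw [← hgen, Ideal.mem_span_singleton] at h1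
  exact h1

/-- Clearing denominators at a prime `M ∌ π` lying over `f`: an element which is integral at `f`
over `E[t]` becomes integral over `O[t]` after multiplication by an element of `B ∖ M`. -/
theorem exists_mul_eq_of_isIntegralAt {π : O} (hπ : Irreducible π) (t : L)
    (M : Ideal (integralClosure (Algebra.adjoin O ({t} : Set L)) L)) [hMp : M.IsPrime]
    (hπM : piElt (Algebra.adjoin O ({t} : Set L)) π ∉ M)
    (f : E[X]) (hf : ∀ g : O[X], evB t g ∈ M → f ∣ g.map (algebraMap O E)) (z : L)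
    (hz : IsIntegralAt (Algebra.adjoin E ({t} : Set L)) (aeval t f) z) :
    ∃ σ b : integralClosure (Algebra.adjoin O ({t} : Set L)) L,
      σ ∉ M ∧ (σ : L) * z = (b : L) := by
  obtain ⟨s, hsD, hsq, hsz⟩ := hz
  rw [Algebra.adjoin_singleton_eq_range_aeval] at hsD
  obtain ⟨g, rfl⟩ := hsD
  have hfg : ¬ f ∣ g := by
    rintro ⟨g', rfl⟩
    refine hsq (aeval t g') ?_ (map_mul _ _ _)
    rw [Algebra.adjoin_singleton_eq_range_aeval]
    exact ⟨g', rfl⟩
  obtain ⟨c₁, hc₁, hg₀⟩ := IsLocalization.integerNormalization_spec (nonZeroDivisors O) g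
  have hc₁0 : c₁ ≠ 0 := nonZeroDivisors.ne_zero hc₁
  have hc₁E : algebraMap O E c₁ ≠ 0 := by
    rw [Ne, map_eq_zero_iff _ (IsFractionRing.injective O E)]
    exact hc₁0
  have hsmul : (c₁ : O) • g = C (algebraMap O E c₁) * g := by
    rw [← algebraMap_smul E c₁ g, smul_eq_C_mul]
  have hg₀M : evB t (IsLocalization.integerNormalization (nonZeroDivisors O) g) ∉ M := by
    intro hmem
    have h1 := hf _ hmem
    rw [hg₀] at h1
    change f ∣ (c₁ : O) • g at h1
    rw [hsmul] at h1
    exact hfg ((isUnit_C.2 (IsUnit.mk0 _ hc₁E)).dvd_mul_left.1 h1)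
  have hev : aeval t (IsLocalization.integerNormalization (nonZeroDivisors O) g) =
      algebraMap O L c₁ * aeval t g := by
    rw [← aeval_map_algebraMap E t, hg₀]
    change aeval t ((c₁ : O) • g) = _
    rw [hsmul, map_mul, aeval_C, ← IsScalarTower.algebraMap_apply]
  obtain ⟨c₂, hc₂0, -, hint⟩ := ChartSwap.exists_smul_isIntegral_adjoin (O := O) t _ hsz
  have hc₁int : IsIntegral (Algebra.adjoin O ({t} : Set L)) (algebraMap O L c₁) :=
    (isIntegral_algebraMap :
      IsIntegral (Algebra.adjoin O ({t} : Set L))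
        (algebraMap (Algebra.adjoin O ({t} : Set L)) L (algebraMap O _ c₁)))
  refine ⟨evB t (C c₂) * evB t (IsLocalization.integerNormalization (nonZeroDivisors O) g),
    ⟨algebraMap O L c₁ * (algebraMap O L c₂ * (aeval t g * z)), hc₁int.mul hint⟩, ?_, ?_⟩
  · exact fun hmem => (hMp.mem_or_mem hmem).elim (evB_C_not_mem hπ t M hπM hc₂0) hg₀M
  · rw [Subalgebra.coe_mul, coe_evB, coe_evB, aeval_C, hev]
    ring

/-- **Regular (a): (STAR) at the horizontal points.**  If `m ∣ div h` on the chart of `t`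
(`Model.LocPow m t h`), `h ≠ 0`, then at every prime `M` of the chart ring not containing `π`,
`h` is an `m`-th power times a unit of `B_M`. -/
theorem star_of_not_mem (π : O) (hπ : Irreducible π) (t : L) (m : ℕ) (hm0 : 0 < m) (h : L)
    (hh : h ≠ 0) (hdiv : LocPow (E := E) m t h)
    (M : Ideal (integralClosure (Algebra.adjoin O ({t} : Set L)) L)) [hMp : M.IsPrime]
    (hπM : piElt (Algebra.adjoin O ({t} : Set L)) π ∉ M) :
    ∃ (f : L) (a : integralClosure (Algebra.adjoin O ({t} : Set L)) L),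
      a ∉ M ∧ f ^ m * h = (a : L) := by
  obtain ⟨f, hfirr, hf⟩ := exists_irreducible_dvd (E := E) hπ t M hπM
  obtain ⟨τ, hτ, h1, h2⟩ := hdiv f hfirr
  obtain ⟨σ₁, b₁, hσ₁, hb₁⟩ := exists_mul_eq_of_isIntegralAt hπ t M hπM f hf _ h1
  obtain ⟨σ₂, b₂, hσ₂, hb₂⟩ := exists_mul_eq_of_isIntegralAt hπ t M hπM f hf _ h2
  have hτm : τ ^ m ≠ 0 := pow_ne_zero m hτ
  have hb₁M : b₁ ∉ M := by
    intro hmem
    have h3 : b₁ * b₂ = σ₁ * σ₂ := by
      apply Subtype.ext
      rw [Subalgebra.coe_mul, Subalgebra.coe_mul, ← hb₁, ← hb₂]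
      field_simp
    have h4 : σ₁ * σ₂ ∈ M := h3 ▸ M.mul_mem_right _ hmem
    exact (hMp.mem_or_mem h4).elim hσ₁ hσ₂
  obtain ⟨k, rfl⟩ : ∃ k, m = k + 1 := ⟨m - 1, by omega⟩
  refine ⟨(σ₁ : L) / τ, σ₁ ^ k * b₁, ?_, ?_⟩
  · exact fun hmem => (hMp.mem_or_mem hmem).elim (fun h5 => hσ₁ (hMp.mem_of_pow_mem k h5)) hb₁M
  · rw [Subalgebra.coe_mul, Subalgebra.coe_pow, ← hb₁, div_pow, pow_succ (σ₁ : L) k]
    field_simp

end Fermat.Agent.S34.RegularHoriz
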