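import Mathlib

/-!
# S34 route, brick SSb-alg: the gluing lemma for the special fibre (Kronecker congruence, algebra)

`B` a commutative ring (in the application `B = B'/π`, the reduction of the level-`M` model),
`F : B →+* B` a ring endomorphism (in the application the `κ`-linear Frobenius
`F b = (φ⁻¹ b)^ℓ`, the reduction of `b ↦ b(q^ℓ)`).

Every subring `S` of `B × B` containing the pairs `(c, F c)` and `(F g, g)` (in the application
`S = B_N/π`, embedded by restriction to the two components `C_∞`, `C_0` of the special fibre)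
is of the form

  `S = {(f, g) | f - F g ∈ J}`,   `J := {f | (f, 0) ∈ S}` an ideal of `B` containing all
  `F (F a) - a`,

and `δ (f, g) := [f - F g]` induces `(B × B) ⧸ S ≃+ B ⧸ J` ("one unit of colength per node").
No semisimplicity is needed.  If moreover `F x = (ψ x)^ℓ` for a ring automorphism `ψ` commuting
with `F` and `B` is noetherian, the ideal `(F (F a) - a : a)` is radical, so in the finite case
`J` is an intersection of maximal ideals `m_y`, `y ∈ Σ` ("nodes"), and
`S = {(f, g) | f(y) = g(F y) for y ∈ Σ}`.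

Main statements (namespace `Fermat.Agent.S34.Glue`):

* `fixIdeal F`, `nodeIdeal F S h1`, `fixIdeal_le_nodeIdeal`
* `mem_iff_sub_mem_nodeIdeal`
* `glueSubring F J`, `mem_glueSubring`, `eq_glueSubring`
* `delta F J`, `delta_surjective`, `ker_delta`, `delta_mul`, `quotEquiv`
* `fixIdeal_isRadical_of_pow`, `fixIdeal_isRadical`
-/

set_option autoImplicit false

namespace Fermat.Agent.S34.Glue

variable {B : Type*} [CommRing B] (F : B →+* B)

/-- The ideal generated by all `F (F a) - a`. -/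
def fixIdeal : Ideal B := Ideal.span (Set.range fun a : B => F (F a) - a)

theorem sq_sub_mem_fixIdeal (a : B) : F (F a) - a ∈ fixIdeal F :=
  Ideal.subset_span ⟨a, rfl⟩

/-- The "node ideal" of a subring `S ⊆ B × B` containing all `(c, F c)`. -/
def nodeIdeal (S : Subring (B × B)) (h1 : ∀ c : B, (c, F c) ∈ S) : Ideal B where
  carrier := {f | (f, (0 : B)) ∈ S}
  zero_mem' := by
    show ((0 : B), (0 : B)) ∈ S
    exact S.zero_mem
  add_mem' := by
    intro a b ha hb
    have h := S.add_mem ha hb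
    simpa using h
  smul_mem' := by
    intro c f hf
    have h := S.mul_mem (h1 c) hf
    simpa using h

theorem mem_nodeIdeal (S : Subring (B × B)) (h1 : ∀ c : B, (c, F c) ∈ S) (f : B) :
    f ∈ nodeIdeal F S h1 ↔ (f, (0 : B)) ∈ S := Iff.rfl

theorem fixIdeal_le_nodeIdeal (S : Subring (B × B)) (h1 : ∀ c : B, (c, F c) ∈ S)
    (h2 : ∀ g : B, (F g, g) ∈ S) : fixIdeal F ≤ nodeIdeal F S h1 := by
  refine Ideal.span_le.mpr ?_
  rintro _ ⟨a, rfl⟩
  have h := S.sub_mem (h2 (F a)) (h1 a)
  show (F (F a) - a, (0 : B)) ∈ S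
  simpa using h

/-- **Gluing lemma.** Membership in `S` is the congruence `f ≡ F g` modulo the node ideal. -/
theorem mem_iff_sub_mem_nodeIdeal (S : Subring (B × B)) (h1 : ∀ c : B, (c, F c) ∈ S)
    (h2 : ∀ g : B, (F g, g) ∈ S) (f g : B) :
    (f, g) ∈ S ↔ f - F g ∈ nodeIdeal F S h1 := by
  rw [mem_nodeIdeal]
  constructor
  · intro h
    have h' := S.sub_mem h (h2 g)
    simpa using h'
  · intro h
    have h' := S.add_mem h (h2 g)
    simpa using h'

/-- The subring `{(f, g) | f - F g ∈ J}` of `B × B` attached to an ideal `J`. -/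
def glueSubring (J : Ideal B) : Subring (B × B) where
  carrier := {x | x.1 - F x.2 ∈ J}
  one_mem' := by
    show (1 : B) - F 1 ∈ J
    simp
  zero_mem' := by
    show (0 : B) - F 0 ∈ J
    simp
  add_mem' := by
    rintro ⟨a, b⟩ ⟨c, d⟩ h h'
    show (a + c) - F (b + d) ∈ J
    have : (a + c) - F (b + d) = (a - F b) + (c - F d) := by rw [map_add]; ring
    rw [this]
    exact J.add_mem h h'
  neg_mem' := by
    rintro ⟨a, b⟩ h
    show (-a) - F (-b) ∈ J
    have : (-a) - F (-b) = -(a - F b) := by rw [map_neg]; ring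
    rw [this]
    exact J.neg_mem h
  mul_mem' := by
    rintro ⟨a, b⟩ ⟨c, d⟩ h h'
    show a * c - F (b * d) ∈ J
    have : a * c - F (b * d) = a * (c - F d) + F d * (a - F b) := by rw [map_mul]; ring
    rw [this]
    exact J.add_mem (J.mul_mem_left _ h') (J.mul_mem_left _ h)

theorem mem_glueSubring (J : Ideal B) (f g : B) : (f, g) ∈ glueSubring F J ↔ f - F g ∈ J :=
  Iff.rfl

theorem fst_sub_mem_of_mem_glueSubring (J : Ideal B) (x : B × B) :
    x ∈ glueSubring F J ↔ x.1 - F x.2 ∈ J := Iff.rfl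

theorem mem_glueSubring_left (J : Ideal B) (hJ : fixIdeal F ≤ J) (c : B) :
    (c, F c) ∈ glueSubring F J := by
  rw [mem_glueSubring]
  have h := J.neg_mem (hJ (sq_sub_mem_fixIdeal F c))
  simpa using h

theorem mem_glueSubring_right (J : Ideal B) (g : B) : (F g, g) ∈ glueSubring F J := by
  rw [mem_glueSubring]
  simp

/-- Every subring of `B × B` containing the `(c, F c)` and the `(F g, g)` is a `glueSubring`. -/
theorem eq_glueSubring (S : Subring (B × B)) (h1 : ∀ c : B, (c, F c) ∈ S)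
    (h2 : ∀ g : B, (F g, g) ∈ S) : S = glueSubring F (nodeIdeal F S h1) := by
  ext ⟨f, g⟩
  rw [mem_glueSubring]
  exact mem_iff_sub_mem_nodeIdeal F S h1 h2 f g

/-- Existence form of the gluing lemma. -/
theorem exists_ideal (S : Subring (B × B)) (h1 : ∀ c : B, (c, F c) ∈ S)
    (h2 : ∀ g : B, (F g, g) ∈ S) :
    ∃ J : Ideal B, fixIdeal F ≤ J ∧ (∀ f : B, f ∈ J ↔ (f, (0 : B)) ∈ S) ∧
      ∀ f g : B, (f, g) ∈ S ↔ f - F g ∈ J :=
  ⟨nodeIdeal F S h1, fixIdeal_le_nodeIdeal F S h1 h2, fun _ => Iff.rfl,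
    mem_iff_sub_mem_nodeIdeal F S h1 h2⟩

/-- The difference map `δ (f, g) = [f - F g] : B × B → B ⧸ J`. -/
def delta (J : Ideal B) : B × B →+ B ⧸ J where
  toFun x := Ideal.Quotient.mk J (x.1 - F x.2)
  map_zero' := by simp
  map_add' := by
    rintro ⟨a, b⟩ ⟨c, d⟩
    simp only [Prod.mk_add_mk, map_add, map_sub]
    ring

theorem delta_apply (J : Ideal B) (f g : B) :
    delta F J (f, g) = Ideal.Quotient.mk J (f - F g) := rfl

theorem delta_surjective (J : Ideal B) : Function.Surjective (delta F J) := by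
  intro y
  obtain ⟨f, rfl⟩ := Ideal.Quotient.mk_surjective y
  exact ⟨(f, 0), by simp [delta_apply]⟩

theorem delta_eq_zero_iff (J : Ideal B) (x : B × B) :
    delta F J x = 0 ↔ x ∈ glueSubring F J := by
  obtain ⟨f, g⟩ := x
  rw [delta_apply, Ideal.Quotient.eq_zero_iff_mem, mem_glueSubring]

theorem ker_delta (J : Ideal B) : (delta F J).ker = (glueSubring F J).toAddSubgroup := by
  ext x
  rw [AddMonoidHom.mem_ker, delta_eq_zero_iff]
  rfl

/-- `δ` is semilinear over the subring: `δ (s * x) = [s.1] * δ x` for `s` in the glued ring. -/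
theorem delta_mul (J : Ideal B) (s x : B × B) (hs : s ∈ glueSubring F J) :
    delta F J (s * x) = Ideal.Quotient.mk J s.1 * delta F J x := by
  obtain ⟨s1, s2⟩ := s
  obtain ⟨f, g⟩ := x
  rw [mem_glueSubring] at hs
  show Ideal.Quotient.mk J (s1 * f - F (s2 * g)) =
    Ideal.Quotient.mk J s1 * Ideal.Quotient.mk J (f - F g)
  rw [← map_mul, Ideal.Quotient.eq]
  have : s1 * f - F (s2 * g) - s1 * (f - F g) = F g * (s1 - F s2) := by rw [map_mul]; ring
  rw [this]
  exact J.mul_mem_left _ hs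

/-- **Colength.** `(B × B) ⧸ S ≃+ B ⧸ J` for `S = {(f, g) | f - F g ∈ J}`. -/
noncomputable def quotEquiv (J : Ideal B) :
    (B × B) ⧸ (glueSubring F J).toAddSubgroup ≃+ B ⧸ J :=
  (QuotientAddGroup.quotientAddEquivOfEq (ker_delta F J).symm).trans
    (QuotientAddGroup.quotientKerEquivOfSurjective (delta F J) (delta_surjective F J))

theorem quotEquiv_mk (J : Ideal B) (x : B × B) :
    quotEquiv F J (QuotientAddGroup.mk x) = delta F J x := rfl

section Radical

/-- If `F² x` lies in `rad(I)² + I` for every `x ∈ rad(I)`, `I = (F² a - a : a)`, and `B` is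
noetherian, then `I` is radical. -/
theorem fixIdeal_isRadical_of_pow [IsNoetherianRing B]
    (h : ∀ x ∈ (fixIdeal F).radical, F (F x) ∈ (fixIdeal F).radical ^ 2 ⊔ fixIdeal F) :
    (fixIdeal F).IsRadical := by
  set I := fixIdeal F with hI
  set Rad := I.radical with hRad
  have hIR : I ≤ Rad := Ideal.le_radical
  -- (*) `Rad ≤ Rad ^ 2 ⊔ I`
  have hstar : Rad ≤ Rad ^ 2 ⊔ I := by
    intro x hx
    have h1 := h x hx
    have h2 : F (F x) - x ∈ I := sq_sub_mem_fixIdeal F x
    have h3 : x = F (F x) - (F (F x) - x) := by ring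
    rw [h3]
    exact Ideal.sub_mem _ h1 (Ideal.mem_sup_right h2)
  -- induction: `Rad ≤ Rad ^ (t + 1) ⊔ I`
  have hind : ∀ t : ℕ, Rad ≤ Rad ^ (t + 1) ⊔ I := by
    intro t
    induction t with
    | zero => simp
    | succ t ih =>
      refine hstar.trans (sup_le ?_ le_sup_right)
      have h1 : Rad ^ 2 = Rad * Rad := pow_two Rad
      rw [h1]
      calc Rad * Rad ≤ Rad * (Rad ^ (t + 1) ⊔ I) := Ideal.mul_mono_right ih
        _ = Rad * Rad ^ (t + 1) ⊔ Rad * I := Ideal.mul_sup _ _ _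
        _ ≤ Rad ^ (t + 1 + 1) ⊔ I := by
          refine sup_le_sup ?_ Ideal.mul_le_right
          rw [pow_succ' Rad (t + 1)]
  obtain ⟨n, hn⟩ := Ideal.exists_radical_pow_le_of_fg I (IsNoetherian.noetherian I.radical)
  have h4 : Rad ≤ I := by
    refine (hind n).trans (sup_le ?_ le_rfl)
    exact (Ideal.pow_le_pow_right (Nat.le_succ n)).trans hn
  exact h4

/-- **Radicality.** If `F x = (ψ x)^ℓ` with `ψ` a ring automorphism commuting with `F`, `ℓ ≥ 2`,
and `B` is noetherian, then the ideal `(F (F a) - a : a)` is radical. -/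
theorem fixIdeal_isRadical [IsNoetherianRing B] (ψ : B ≃+* B) (l : ℕ) (hl : 2 ≤ l)
    (hF : ∀ x : B, F x = ψ x ^ l) (hψ : ∀ x : B, ψ (F x) = F (ψ x)) :
    (fixIdeal F).IsRadical := by
  refine fixIdeal_isRadical_of_pow F ?_
  -- `ψ` maps the ideal into itself
  have hψI : ∀ x ∈ fixIdeal F, ψ x ∈ fixIdeal F := by
    intro x hx
    refine Submodule.span_induction (p := fun y _ => ψ y ∈ fixIdeal F) ?_ ?_ ?_ ?_ hx
    · rintro _ ⟨a, rfl⟩
      have : ψ (F (F a) - a) = F (F (ψ a)) - ψ a := by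
        rw [map_sub, hψ, hψ]
      rw [this]
      exact sq_sub_mem_fixIdeal F _
    · simp
    · intro a b _ _ ha hb
      rw [map_add]
      exact Ideal.add_mem _ ha hb
    · intro c a _ ha
      rw [smul_eq_mul, map_mul]
      exact Ideal.mul_mem_left _ _ ha
  have hψR : ∀ x ∈ (fixIdeal F).radical, ψ x ∈ (fixIdeal F).radical := by
    rintro x ⟨n, hn⟩
    refine ⟨n, ?_⟩
    rw [← map_pow]
    exact hψI _ hn
  intro x hx
  have h1 : F (F x) = (ψ (ψ x) ^ l) ^ l := by
    rw [hF (F x), hψ, hF (ψ x)]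
  have h2 : ψ (ψ x) ∈ (fixIdeal F).radical := hψR _ (hψR _ hx)
  have h3 : ψ (ψ x) ^ l ∈ (fixIdeal F).radical := by
    obtain ⟨k, rfl⟩ : ∃ k, l = k + 1 := ⟨l - 1, by omega⟩
    rw [pow_succ]
    exact Ideal.mul_mem_left _ _ h2
  have h4 : (ψ (ψ x) ^ l) ^ l ∈ (fixIdeal F).radical ^ 2 := by
    obtain ⟨k, rfl⟩ : ∃ k, l = k + 2 := ⟨l - 2, by omega⟩
    rw [pow_add]
    exact Ideal.mul_mem_left _ _ (Ideal.pow_mem_pow h3 2)
  rw [h1]
  exact Ideal.mem_sup_left h4

end Radical

end Fermat.Agent.S34.Glue
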