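import Mathlib
import Fermat.Agent.S34.Glue

/-!
# S34 route, brick SSb.Fibre: the special fibre as a glued ring (abstract body of 3.1)

Level-free setting (in the application `R = B'` is the level-`M` model, `C = B` the level-`ℓM`
model, `P₁ = p_∞`, `P₂ = p_0 = W p_∞` the two primes of `C` over `π`, `W` the Atkin–Lehner
involution):

* `R → C` commutative rings, `π : R`, `P₁ P₂ : Ideal C`, `W : C ≃+* C`;
* `P₁ ⊓ P₂ = (π)` (`TwoPrimes.inf_eq_span`), `W c ∈ P₁ ↔ c ∈ P₂`, `W (W c) = c`;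
* `R/π → C/P₁` is bijective: `∀ c, ∃ r, c - r ∈ P₁` (`TwoPrimes.exists_sub_algebraMap_mem`) and
  `r ∈ P₁ → π ∣ r`.

Then, with `Rbar := R ⧸ (π)`:

* `ev : C →+* Rbar` (restriction to the component `P₁`), `ker ev = P₁`, `ev r = r mod π`;
* `frob : Rbar →+* Rbar`, `frob (r mod π) = ev (W r)` (the "Frobenius" `F` of the route);
* `phi : C →+* Rbar × Rbar`, `c ↦ (ev c, ev (W c))`, `ker phi = (π)`, so `C/π ↪ Rbar × Rbar`;
* the image contains all `(c, frob c)` and `(frob g, g)`, hence (`Glue.eq_glueSubring`)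
  `range phi = {(f, g) | f - frob g ∈ J}`, `J = nodeIdeal = ev '' P₂ ⊇ (frob² a - a : a)`;
* `(Rbar × Rbar) ⧸ range phi ≃+ Rbar ⧸ J` (colength of `C/π` in its normalisation);
* `Rbar ⧸ J ≃+* C ⧸ (P₁ ⊔ P₂)` (the nodes are the intersection of the two components);
* if `Rbar` is noetherian, `(frob² a - a : a)` is radical and every prime containing it is
  maximal, then `J` is a finite intersection of maximal ideals ("nodes"); in particular radical.
-/

set_option autoImplicit false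

noncomputable section

namespace Fermat.Agent.S34.Fibre

open Fermat.Agent.S34

/-! ### A general lemma: ideals above a radical ideal of dimension zero -/

section ZeroDim

variable {A : Type*} [CommRing A]

/-- If `I = ⨅ m ∈ Y, m` for a finite set `Y` of maximal ideals and `I ≤ J`, then `J` is the
intersection of those `m ∈ Y` that contain it. -/
theorem eq_inf_filter_of_le [DecidablePred fun m : Ideal A => (⊤ : Ideal A) ≤ m]
    (Y : Finset (Ideal A)) (hY : ∀ m ∈ Y, m.IsMaximal) (J : Ideal A) (hJ : Y.inf id ≤ J)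
    (T : Finset (Ideal A)) (hT : ∀ m, m ∈ T ↔ m ∈ Y ∧ J ≤ m) : J = T.inf id := by
  classical
  apply le_antisymm
  · refine Finset.le_inf ?_
    intro m hm
    exact ((hT m).mp hm).2
  · intro x hx
    -- for each `m ∈ Y` not containing `J` choose `a ∈ J`, `b` with `1 - a * b ∈ m`
    have hch : ∀ m ∈ Y, ¬ J ≤ m → ∃ t : A, t ∈ m ∧ 1 - t ∈ J := by
      intro m hm hJm
      obtain ⟨a, haJ, ham⟩ := Set.not_subset.mp hJm
      have := hY m hm
      obtain ⟨b, hb⟩ := Ideal.Quotient.exists_inv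
        (I := m) (a := Ideal.Quotient.mk m a) (by
          rw [Ne, Ideal.Quotient.eq_zero_iff_mem]; exact ham)
      obtain ⟨b, rfl⟩ := Ideal.Quotient.mk_surjective b
      refine ⟨1 - a * b, ?_, ?_⟩
      · rw [← Ideal.Quotient.eq_zero_iff_mem, map_sub, map_one, map_mul, hb, sub_self]
      · have : 1 - (1 - a * b) = a * b := by ring
        rw [this]
        exact J.mul_mem_right _ haJ
    -- the product `e` of the chosen `t`
    have key : ∀ U : Finset (Ideal A), U ⊆ Y → (∀ m ∈ U, ¬ J ≤ m) →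
        ∃ e : A, (∀ m ∈ U, e ∈ m) ∧ 1 - e ∈ J := by
      intro U
      induction U using Finset.induction_on with
      | empty => intro _ _; exact ⟨1, by simp, by simp⟩
      | insert m U hmU ih =>
        intro hUY hU
        obtain ⟨e, he, heJ⟩ := ih (fun x hx => hUY (Finset.mem_insert_of_mem hx))
          (fun x hx => hU x (Finset.mem_insert_of_mem hx))
        obtain ⟨t, htm, htJ⟩ := hch m (hUY (Finset.mem_insert_self m U))
          (hU m (Finset.mem_insert_self m U))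
        refine ⟨t * e, ?_, ?_⟩
        · intro m' hm'
          rcases Finset.mem_insert.mp hm' with rfl | h
          · exact Ideal.mul_mem_right _ _ htm
          · exact Ideal.mul_mem_left _ _ (he m' h)
        · have : 1 - t * e = (1 - t) + t * (1 - e) := by ring
          rw [this]
          exact J.add_mem htJ (J.mul_mem_left _ heJ)
    obtain ⟨e, he, heJ⟩ := key (Y.filter fun m => ¬ J ≤ m) (Finset.filter_subset _ _)
      (fun m hm => (Finset.mem_filter.mp hm).2)
    have hxe : x * e ∈ Y.inf id := by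
      rw [Submodule.mem_finsetInf]
      intro m hm
      by_cases hJm : J ≤ m
      · have hx' := Submodule.mem_finsetInf.mp hx m ((hT m).mpr ⟨hm, hJm⟩)
        exact Ideal.mul_mem_right _ _ hx'
      · exact Ideal.mul_mem_left _ _ (he m (Finset.mem_filter.mpr ⟨hm, hJm⟩))
    have : x = x * e + x * (1 - e) := by ring
    rw [this]
    exact J.add_mem (hJ hxe) (J.mul_mem_left _ heJ)

/-- **Ideals above a zero-dimensional radical ideal.** `A` noetherian, `I` radical, every prime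
containing `I` maximal, `I ≤ J`.  Then `J` is a finite intersection of maximal ideals. -/
theorem exists_finset_maximal_of_le [IsNoetherianRing A] (I J : Ideal A) (hI : I.IsRadical)
    (hdim : ∀ Q : Ideal A, Q.IsPrime → I ≤ Q → Q.IsMaximal) (hIJ : I ≤ J) :
    ∃ Y : Finset (Ideal A), (∀ m ∈ Y, m.IsMaximal) ∧ (∀ m ∈ Y, J ≤ m) ∧ J = Y.inf id := by
  classical
  have hfin : I.minimalPrimes.Finite := Ideal.finite_minimalPrimes_of_isNoetherianRing A I
  set Y0 : Finset (Ideal A) := hfin.toFinset with hY0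
  have hY0max : ∀ m ∈ Y0, m.IsMaximal := by
    intro m hm
    have hm' : m ∈ I.minimalPrimes := hfin.mem_toFinset.mp hm
    exact hdim m hm'.1.1 hm'.1.2
  have hY0inf : Y0.inf id = I := by
    have h1 : sInf I.minimalPrimes = I := by
      rw [Ideal.sInf_minimalPrimes, hI.radical]
    have h2 : Y0.inf id = sInf I.minimalPrimes := by
      apply le_antisymm
      · refine le_sInf ?_
        intro m hm
        exact Finset.inf_le (f := id) (hfin.mem_toFinset.mpr hm)
      · refine Finset.le_inf ?_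
        intro m hm
        exact sInf_le (hfin.mem_toFinset.mp hm)
    rw [h2, h1]
  refine ⟨Y0.filter fun m => J ≤ m, ?_, ?_, ?_⟩
  · intro m hm
    exact hY0max m (Finset.mem_filter.mp hm).1
  · intro m hm
    exact (Finset.mem_filter.mp hm).2
  · exact eq_inf_filter_of_le Y0 hY0max J (hY0inf.le.trans hIJ) _
      (fun m => Finset.mem_filter)

/-- A finite intersection of maximal ideals is radical. -/
theorem isRadical_finset_inf (Y : Finset (Ideal A)) (hY : ∀ m ∈ Y, m.IsMaximal) :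
    (Y.inf id).IsRadical := by
  intro x hx
  obtain ⟨n, hn⟩ := hx
  rw [Submodule.mem_finsetInf] at hn ⊢
  intro m hm
  exact Ideal.IsPrime.mem_of_pow_mem (hY m hm).isPrime n (hn m hm)

/-- Transfer of `IsDedekindDomain` along a ring isomorphism. -/
theorem isDedekindDomain_of_ringEquiv {A' : Type*} [CommRing A'] [IsDedekindDomain A]
    (e : A ≃+* A') : IsDedekindDomain A' := by
  have : IsDomain A' := e.symm.toMulEquiv.isDomain A
  have : IsNoetherianRing A' := isNoetherianRing_of_ringEquiv A e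
  have : Ring.DimensionLEOne A' := Ring.DimensionLEOne.of_ringEquiv e.symm
  have : IsIntegrallyClosed A' := IsIntegrallyClosed.of_equiv e
  exact (isDedekindDomain_iff A' (FractionRing A')).mpr
    ⟨inferInstance, inferInstance, inferInstance,
      fun {x} hx => IsIntegrallyClosed.isIntegral_iff.mp hx⟩

/-- In a domain of dimension `≤ 1`, every prime containing a nonzero ideal is maximal. -/
theorem isMaximal_of_le_of_ne_bot [IsDomain A] [Ring.DimensionLEOne A] (I : Ideal A)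
    (hI : I ≠ ⊥) (Q : Ideal A) (hQ : Q.IsPrime) (hIQ : I ≤ Q) : Q.IsMaximal := by
  refine hQ.isMaximal ?_
  rintro rfl
  exact hI (le_bot_iff.mp hIQ)

/-- **Radicality of the fixed ideal** (variant of `Glue.fixIdeal_isRadical` for a ring
*endomorphism* `ψ`): if `F x = (ψ x)^ℓ`, `ℓ ≥ 2`, and `A` is noetherian, then the ideal
`(F (F a) - a : a)` is radical. -/
theorem fixIdeal_isRadical_of_hom [IsNoetherianRing A] (F : A →+* A) (ψ : A →+* A) (l : ℕ)
    (hl : 2 ≤ l) (hF : ∀ x : A, F x = ψ x ^ l) : (Glue.fixIdeal F).IsRadical := by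
  refine Glue.fixIdeal_isRadical_of_pow F ?_
  have hψ : ∀ x : A, ψ (F x) = F (ψ x) := by
    intro x
    rw [hF x, map_pow, hF (ψ x)]
  have hψI : ∀ x ∈ Glue.fixIdeal F, ψ x ∈ Glue.fixIdeal F := by
    intro x hx
    refine Submodule.span_induction (p := fun y _ => ψ y ∈ Glue.fixIdeal F) ?_ ?_ ?_ ?_ hx
    · rintro _ ⟨a, rfl⟩
      have : ψ (F (F a) - a) = F (F (ψ a)) - ψ a := by
        rw [map_sub, hψ, hψ]
      rw [this]
      exact Glue.sq_sub_mem_fixIdeal F _
    · simp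
    · intro a b _ _ ha hb
      rw [map_add]
      exact Ideal.add_mem _ ha hb
    · intro c a _ ha
      rw [smul_eq_mul, map_mul]
      exact Ideal.mul_mem_left _ _ ha
  have hψR : ∀ x ∈ (Glue.fixIdeal F).radical, ψ x ∈ (Glue.fixIdeal F).radical := by
    rintro x ⟨n, hn⟩
    refine ⟨n, ?_⟩
    rw [← map_pow]
    exact hψI _ hn
  intro x hx
  have h1 : F (F x) = (ψ (ψ x) ^ l) ^ l := by
    rw [hF (F x), hψ, hF (ψ x)]
  have h2 : ψ (ψ x) ∈ (Glue.fixIdeal F).radical := hψR _ (hψR _ hx)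
  have h3 : ψ (ψ x) ^ l ∈ (Glue.fixIdeal F).radical := by
    obtain ⟨k, rfl⟩ : ∃ k, l = k + 1 := ⟨l - 1, by omega⟩
    rw [pow_succ]
    exact Ideal.mul_mem_left _ _ h2
  have h4 : (ψ (ψ x) ^ l) ^ l ∈ (Glue.fixIdeal F).radical ^ 2 := by
    obtain ⟨k, rfl⟩ : ∃ k, l = k + 2 := ⟨l - 2, by omega⟩
    rw [pow_add]
    exact Ideal.mul_mem_left _ _ (Ideal.pow_mem_pow h3 2)
  rw [h1]
  exact Ideal.mem_sup_left h4

end ZeroDim

/-! ### The fibre datum -/

variable {R C : Type*} [CommRing R] [CommRing C] [Algebra R C]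

/-- The hypotheses of the abstract fibre lemma. -/
structure Data (π : R) (P₁ P₂ : Ideal C) (W : C ≃+* C) : Prop where
  /-- `C/π` is reduced with the two components `P₁`, `P₂`. -/
  inf_eq : P₁ ⊓ P₂ = Ideal.span {algebraMap R C π}
  /-- `W` swaps the two components. -/
  swap : ∀ c : C, W c ∈ P₁ ↔ c ∈ P₂
  /-- `W` is an involution. -/
  invol : ∀ c : C, W (W c) = c
  /-- `R/π → C/P₁` is onto. -/
  onto : ∀ c : C, ∃ r : R, c - algebraMap R C r ∈ P₁
  /-- `R/π → C/P₁` is injective. -/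
  ker : ∀ r : R, algebraMap R C r ∈ P₁ → π ∣ r

variable {π : R} {P₁ P₂ : Ideal C} {W : C ≃+* C}

namespace Data

variable (h : Data π P₁ P₂ W)
include h

theorem pi_mem_left : algebraMap R C π ∈ P₁ := by
  have h1 : algebraMap R C π ∈ P₁ ⊓ P₂ := by
    rw [h.inf_eq]; exact Ideal.subset_span rfl
  exact h1.1

theorem pi_mem_right : algebraMap R C π ∈ P₂ := by
  have h1 : algebraMap R C π ∈ P₁ ⊓ P₂ := by
    rw [h.inf_eq]; exact Ideal.subset_span rfl
  exact h1.2

theorem swap' (c : C) : W c ∈ P₂ ↔ c ∈ P₁ := by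
  rw [← h.swap (W c), h.invol]

/-- The comparison map `R/π → C/P₁`. -/
def toQuot : R ⧸ Ideal.span {π} →+* C ⧸ P₁ :=
  Ideal.Quotient.lift _ ((Ideal.Quotient.mk P₁).comp (algebraMap R C)) (by
    intro a ha
    obtain ⟨b, rfl⟩ := Ideal.mem_span_singleton'.mp ha
    rw [RingHom.comp_apply, Ideal.Quotient.eq_zero_iff_mem, map_mul]
    exact Ideal.mul_mem_left _ _ h.pi_mem_left)

theorem toQuot_mk (r : R) :
    h.toQuot (Ideal.Quotient.mk _ r) = Ideal.Quotient.mk P₁ (algebraMap R C r) := rfl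

theorem toQuot_bijective : Function.Bijective h.toQuot := by
  constructor
  · rw [injective_iff_map_eq_zero]
    intro x hx
    obtain ⟨r, rfl⟩ := Ideal.Quotient.mk_surjective x
    rw [toQuot_mk, Ideal.Quotient.eq_zero_iff_mem] at hx
    rw [Ideal.Quotient.eq_zero_iff_mem]
    exact Ideal.mem_span_singleton.mpr (h.ker r hx)
  · intro y
    obtain ⟨c, rfl⟩ := Ideal.Quotient.mk_surjective y
    obtain ⟨r, hr⟩ := h.onto c
    refine ⟨Ideal.Quotient.mk _ r, ?_⟩
    rw [toQuot_mk]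
    exact (Ideal.Quotient.eq.mpr hr).symm

/-- `R/π ≃ C/P₁`. -/
def quotEquiv : R ⧸ Ideal.span {π} ≃+* C ⧸ P₁ :=
  RingEquiv.ofBijective h.toQuot h.toQuot_bijective

/-- Restriction to the component `P₁`: the ring hom `C → R/π` with kernel `P₁` extending the
reduction map of `R`. -/
def ev : C →+* R ⧸ Ideal.span {π} :=
  (h.quotEquiv.symm : C ⧸ P₁ →+* R ⧸ Ideal.span {π}).comp (Ideal.Quotient.mk P₁)

theorem ev_apply (c : C) : h.ev c = h.quotEquiv.symm (Ideal.Quotient.mk P₁ c) := rfl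

theorem ev_algebraMap (r : R) : h.ev (algebraMap R C r) = Ideal.Quotient.mk _ r := by
  rw [ev_apply, RingEquiv.symm_apply_eq]
  rfl

theorem ev_eq_zero_iff (c : C) : h.ev c = 0 ↔ c ∈ P₁ := by
  rw [ev_apply, RingEquiv.map_eq_zero_iff, Ideal.Quotient.eq_zero_iff_mem]

theorem ker_ev : RingHom.ker h.ev = P₁ := by
  ext c
  rw [RingHom.mem_ker, ev_eq_zero_iff]

theorem ev_surjective : Function.Surjective h.ev := by
  intro x
  obtain ⟨r, rfl⟩ := Ideal.Quotient.mk_surjective x
  exact ⟨algebraMap R C r, h.ev_algebraMap r⟩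

theorem ev_eq_mk_of_sub_mem {c : C} {r : R} (hr : c - algebraMap R C r ∈ P₁) :
    h.ev c = Ideal.Quotient.mk _ r := by
  rw [← h.ev_algebraMap r, ← sub_eq_zero, ← map_sub, ev_eq_zero_iff]
  exact hr

/-- The "Frobenius" `F` of the route: `frob (r mod π) = ev (W r)`. -/
def frob : R ⧸ Ideal.span {π} →+* R ⧸ Ideal.span {π} :=
  Ideal.Quotient.lift _ (h.ev.comp ((W : C →+* C).comp (algebraMap R C))) (by
    intro a ha
    obtain ⟨b, rfl⟩ := Ideal.mem_span_singleton'.mp ha
    rw [RingHom.comp_apply, RingHom.comp_apply, map_mul, map_mul, map_mul]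
    have h1 : h.ev ((W : C →+* C) (algebraMap R C π)) = 0 := by
      rw [ev_eq_zero_iff]
      exact (h.swap _).mpr h.pi_mem_right
    rw [h1, mul_zero])

theorem frob_mk (r : R) :
    h.frob (Ideal.Quotient.mk _ r) = h.ev (W (algebraMap R C r)) := rfl

theorem frob_ev_algebraMap (r : R) :
    h.frob (h.ev (algebraMap R C r)) = h.ev (W (algebraMap R C r)) := by
  rw [ev_algebraMap, frob_mk]

/-- The embedding of the special fibre into the product of its two components:
`c ↦ (c|P₁, (W c)|P₁)`. -/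
def phi : C →+* (R ⧸ Ideal.span {π}) × (R ⧸ Ideal.span {π}) :=
  h.ev.prod (h.ev.comp (W : C →+* C))

theorem phi_apply (c : C) : h.phi c = (h.ev c, h.ev (W c)) := rfl

theorem phi_of_fixed {a : C} (ha : W a = a) : h.phi a = (h.ev a, h.ev a) := by
  rw [phi_apply, ha]

/-- `C/π ↪ Rbar × Rbar`. -/
theorem ker_phi : RingHom.ker h.phi = Ideal.span {algebraMap R C π} := by
  rw [← h.inf_eq]
  ext c
  rw [RingHom.mem_ker, phi_apply, Prod.mk_eq_zero, ev_eq_zero_iff, ev_eq_zero_iff, h.swap]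
  rfl

theorem phi_eq_zero_iff (c : C) : h.phi c = 0 ↔ ∃ c' : C, c = algebraMap R C π * c' := by
  rw [← RingHom.mem_ker, h.ker_phi, Ideal.mem_span_singleton']
  constructor
  · rintro ⟨a, ha⟩; exact ⟨a, by rw [← ha, mul_comm]⟩
  · rintro ⟨a, ha⟩; exact ⟨a, by rw [ha, mul_comm]⟩

theorem left_mem_range (c : R ⧸ Ideal.span {π}) : (c, h.frob c) ∈ h.phi.range := by
  obtain ⟨r, rfl⟩ := Ideal.Quotient.mk_surjective c
  refine ⟨algebraMap R C r, ?_⟩
  rw [phi_apply, ev_algebraMap, frob_mk]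

theorem right_mem_range (g : R ⧸ Ideal.span {π}) : (h.frob g, g) ∈ h.phi.range := by
  obtain ⟨r, rfl⟩ := Ideal.Quotient.mk_surjective g
  refine ⟨W (algebraMap R C r), ?_⟩
  rw [phi_apply, h.invol, ev_algebraMap, frob_mk]

/-- The node ideal `J = {f | (f, 0) ∈ range phi}`. -/
def nodeIdeal : Ideal (R ⧸ Ideal.span {π}) :=
  Glue.nodeIdeal h.frob h.phi.range h.left_mem_range

theorem mem_nodeIdeal_iff (f : R ⧸ Ideal.span {π}) :
    f ∈ h.nodeIdeal ↔ ∃ c ∈ P₂, h.ev c = f := by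
  show (f, (0 : R ⧸ Ideal.span {π})) ∈ h.phi.range ↔ _
  constructor
  · rintro ⟨c, hc⟩
    rw [phi_apply, Prod.mk.injEq] at hc
    refine ⟨c, ?_, hc.1⟩
    have h2 := hc.2
    rw [ev_eq_zero_iff, h.swap] at h2
    exact h2
  · rintro ⟨c, hc, rfl⟩
    refine ⟨c, ?_⟩
    rw [phi_apply, Prod.mk.injEq]
    refine ⟨rfl, ?_⟩
    rw [ev_eq_zero_iff, h.swap]
    exact hc

theorem nodeIdeal_eq_map : h.nodeIdeal = P₂.map h.ev := by
  ext f
  rw [mem_nodeIdeal_iff, Ideal.mem_map_iff_of_surjective _ h.ev_surjective]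

theorem fixIdeal_le_nodeIdeal : Glue.fixIdeal h.frob ≤ h.nodeIdeal :=
  Glue.fixIdeal_le_nodeIdeal h.frob h.phi.range h.left_mem_range h.right_mem_range

/-- **The special fibre is the glued ring** `{(f, g) | f - frob g ∈ J}`. -/
theorem range_phi_eq : h.phi.range = Glue.glueSubring h.frob h.nodeIdeal :=
  Glue.eq_glueSubring h.frob h.phi.range h.left_mem_range h.right_mem_range

theorem mem_range_phi_iff (f g : R ⧸ Ideal.span {π}) :
    (f, g) ∈ h.phi.range ↔ f - h.frob g ∈ h.nodeIdeal := by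
  rw [h.range_phi_eq]
  rfl

/-- Membership in `C` modulo `π`, read on the two components: for `a b : C` there is `c : C`
with `c ≡ a` on the first and `c ≡ W⁻¹-pullback of b` on the second component iff the node
condition holds. -/
theorem exists_phi_eq_iff (f g : R ⧸ Ideal.span {π}) :
    (∃ c : C, h.ev c = f ∧ h.ev (W c) = g) ↔ f - h.frob g ∈ h.nodeIdeal := by
  rw [← h.mem_range_phi_iff]
  constructor
  · rintro ⟨c, h1, h2⟩
    exact ⟨c, by rw [phi_apply, h1, h2]⟩
  · rintro ⟨c, hc⟩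
    rw [phi_apply, Prod.mk.injEq] at hc
    exact ⟨c, hc.1, hc.2⟩

/-- **Colength**: `(Rbar × Rbar) ⧸ (C/π) ≃+ Rbar ⧸ J`. -/
def colengthEquiv :
    ((R ⧸ Ideal.span {π}) × (R ⧸ Ideal.span {π})) ⧸ h.phi.range.toAddSubgroup ≃+
      (R ⧸ Ideal.span {π}) ⧸ h.nodeIdeal :=
  (QuotientAddGroup.quotientAddEquivOfEq
    (congrArg Subring.toAddSubgroup h.range_phi_eq)).trans (Glue.quotEquiv h.frob h.nodeIdeal)

theorem colengthEquiv_mk (x : (R ⧸ Ideal.span {π}) × (R ⧸ Ideal.span {π})) :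
    h.colengthEquiv (QuotientAddGroup.mk x) = Glue.delta h.frob h.nodeIdeal x := rfl

/-- The kernel of `C → Rbar → Rbar ⧸ J` is `P₁ ⊔ P₂`. -/
theorem ker_mk_comp_ev :
    RingHom.ker ((Ideal.Quotient.mk h.nodeIdeal).comp h.ev) = P₁ ⊔ P₂ := by
  ext c
  rw [RingHom.mem_ker, RingHom.comp_apply, Ideal.Quotient.eq_zero_iff_mem, mem_nodeIdeal_iff]
  constructor
  · rintro ⟨c', hc', hcc'⟩
    have h1 : c - c' ∈ P₁ := by
      rw [← h.ev_eq_zero_iff, map_sub, hcc', sub_self]
    have : c = (c - c') + c' := by ring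
    rw [this]
    exact Ideal.add_mem _ (Ideal.mem_sup_left h1) (Ideal.mem_sup_right hc')
  · intro hc
    obtain ⟨a, ha, b, hb, rfl⟩ := Submodule.mem_sup.mp hc
    refine ⟨b, hb, ?_⟩
    rw [map_add, (h.ev_eq_zero_iff a).mpr ha, zero_add]

/-- **The nodes are the intersection of the two components**: `C ⧸ (P₁ ⊔ P₂) ≃+* Rbar ⧸ J`. -/
def nodeEquiv : C ⧸ (P₁ ⊔ P₂) ≃+* (R ⧸ Ideal.span {π}) ⧸ h.nodeIdeal :=
  (Ideal.quotEquivOfEq h.ker_mk_comp_ev.symm).trans
    (RingHom.quotientKerEquivOfSurjective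
      (f := (Ideal.Quotient.mk h.nodeIdeal).comp h.ev)
      (Ideal.Quotient.mk_surjective.comp h.ev_surjective))

/-- **Nodes.** If `Rbar` is noetherian, the ideal `(frob² a - a : a)` is radical and every prime
containing it is maximal, then the node ideal is a finite intersection of maximal ideals. -/
theorem exists_nodes [IsNoetherianRing (R ⧸ Ideal.span {π})]
    (hrad : (Glue.fixIdeal h.frob).IsRadical)
    (hdim : ∀ Q : Ideal (R ⧸ Ideal.span {π}), Q.IsPrime → Glue.fixIdeal h.frob ≤ Q →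
      Q.IsMaximal) :
    ∃ Y : Finset (Ideal (R ⧸ Ideal.span {π})), (∀ m ∈ Y, m.IsMaximal) ∧
      (∀ m ∈ Y, h.nodeIdeal ≤ m) ∧ h.nodeIdeal = Y.inf id :=
  exists_finset_maximal_of_le _ _ hrad hdim h.fixIdeal_le_nodeIdeal

theorem nodeIdeal_isRadical [IsNoetherianRing (R ⧸ Ideal.span {π})]
    (hrad : (Glue.fixIdeal h.frob).IsRadical)
    (hdim : ∀ Q : Ideal (R ⧸ Ideal.span {π}), Q.IsPrime → Glue.fixIdeal h.frob ≤ Q →
      Q.IsMaximal) : h.nodeIdeal.IsRadical := by
  obtain ⟨Y, hY, -, hJ⟩ := h.exists_nodes hrad hdim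
  rw [hJ]
  exact isRadical_finset_inf Y hY

/-! ### Consumer forms: the contract field `(P₁ ⊔ P₂).IsRadical` and the components -/

theorem frob_mk_eq {r s : R} (hrs : W (algebraMap R C r) - algebraMap R C s ∈ P₁) :
    h.frob (Ideal.Quotient.mk (Ideal.span {π}) r) = Ideal.Quotient.mk (Ideal.span {π}) s := by
  rw [frob_mk]
  exact h.ev_eq_mk_of_sub_mem hrs

theorem sup_eq_comap : P₁ ⊔ P₂ = h.nodeIdeal.comap h.ev := by
  rw [← h.ker_mk_comp_ev]
  ext c
  rw [RingHom.mem_ker, RingHom.comp_apply, Ideal.Quotient.eq_zero_iff_mem, Ideal.mem_comap]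

/-- `P₁ ⊔ P₂` is radical as soon as the node ideal is. -/
theorem sup_isRadical_of_nodeIdeal (hJ : h.nodeIdeal.IsRadical) : (P₁ ⊔ P₂).IsRadical := by
  rw [h.sup_eq_comap]
  exact Ideal.IsRadical.comap h.ev hJ

/-- **(N4) of the nodal contract**, general form. -/
theorem sup_isRadical [IsNoetherianRing (R ⧸ Ideal.span {π})]
    (hrad : (Glue.fixIdeal h.frob).IsRadical)
    (hdim : ∀ Q : Ideal (R ⧸ Ideal.span {π}), Q.IsPrime → Glue.fixIdeal h.frob ≤ Q →
      Q.IsMaximal) : (P₁ ⊔ P₂).IsRadical :=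
  h.sup_isRadical_of_nodeIdeal (h.nodeIdeal_isRadical hrad hdim)

/-- The dimension hypothesis of `exists_nodes` / `sup_isRadical` when `Rbar` is a domain of
dimension `≤ 1` and `frob²` is not the identity. -/
theorem isMaximal_of_fixIdeal_le [IsDomain (R ⧸ Ideal.span {π})]
    [Ring.DimensionLEOne (R ⧸ Ideal.span {π})] (hne : ∃ a, h.frob (h.frob a) ≠ a)
    (Q : Ideal (R ⧸ Ideal.span {π})) (hQ : Q.IsPrime) (hle : Glue.fixIdeal h.frob ≤ Q) :
    Q.IsMaximal := by
  refine isMaximal_of_le_of_ne_bot (Glue.fixIdeal h.frob) ?_ Q hQ hle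
  obtain ⟨a, ha⟩ := hne
  intro hbot
  have h1 : h.frob (h.frob a) - a ∈ Glue.fixIdeal h.frob := Glue.sq_sub_mem_fixIdeal h.frob a
  rw [hbot, Ideal.mem_bot, sub_eq_zero] at h1
  exact ha h1

/-- **(N4) of the nodal contract, Kronecker form.**  If the level-`M` special fibre `Rbar = R/π`
is a Dedekind domain, `frob x = (ψ x)^ℓ` for a ring endomorphism `ψ` of `Rbar` and some `ℓ ≥ 2`
(Kronecker's congruence `W r ≡ (φ⁻¹ r)^ℓ` on the component `P₁`), and `frob²` is not the
identity, then the two components of `C/π` meet transversally: `P₁ ⊔ P₂` is radical. -/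
theorem sup_isRadical_of_pow [IsDedekindDomain (R ⧸ Ideal.span {π})]
    (ψ : R ⧸ Ideal.span {π} →+* R ⧸ Ideal.span {π}) (l : ℕ) (hl : 2 ≤ l)
    (hF : ∀ x, h.frob x = ψ x ^ l) (hne : ∃ a, h.frob (h.frob a) ≠ a) :
    (P₁ ⊔ P₂).IsRadical :=
  h.sup_isRadical (fixIdeal_isRadical_of_hom h.frob ψ l hl hF)
    (fun Q hQ hle => h.isMaximal_of_fixIdeal_le hne Q hQ hle)

/-- Under the hypotheses of `sup_isRadical_of_pow`, the node ideal is a finite intersection of
maximal ideals of `Rbar` (the nodes). -/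
theorem exists_nodes_of_pow [IsDedekindDomain (R ⧸ Ideal.span {π})]
    (ψ : R ⧸ Ideal.span {π} →+* R ⧸ Ideal.span {π}) (l : ℕ) (hl : 2 ≤ l)
    (hF : ∀ x, h.frob x = ψ x ^ l) (hne : ∃ a, h.frob (h.frob a) ≠ a) :
    ∃ Y : Finset (Ideal (R ⧸ Ideal.span {π})), (∀ m ∈ Y, m.IsMaximal) ∧
      (∀ m ∈ Y, h.nodeIdeal ≤ m) ∧ h.nodeIdeal = Y.inf id :=
  h.exists_nodes (fixIdeal_isRadical_of_hom h.frob ψ l hl hF)
    (fun Q hQ hle => h.isMaximal_of_fixIdeal_le hne Q hQ hle)

theorem map_W_right : P₂.map (W : C →+* C) = P₁ := by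
  ext c
  constructor
  · intro hc
    refine Submodule.span_induction (p := fun y _ => y ∈ P₁) ?_ ?_ ?_ ?_ hc
    · rintro _ ⟨a, ha, rfl⟩
      exact (h.swap a).mpr ha
    · exact P₁.zero_mem
    · intro a b _ _ ha hb
      exact P₁.add_mem ha hb
    · intro a b _ hb
      exact P₁.mul_mem_left a hb
  · intro hc
    have h1 : W c ∈ P₂ := (h.swap' c).mpr hc
    have h2 : (W : C →+* C) (W c) ∈ P₂.map (W : C →+* C) := Ideal.mem_map_of_mem _ h1
    have h3 : (W : C →+* C) (W c) = c := h.invol c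
    rwa [h3] at h2

/-- `W` identifies the two components: `C/P₂ ≃ C/P₁`. -/
def swapEquiv : C ⧸ P₂ ≃+* C ⧸ P₁ :=
  Ideal.quotientEquiv P₂ P₁ W h.map_W_right.symm

theorem swapEquiv_mk (c : C) :
    h.swapEquiv (Ideal.Quotient.mk P₂ c) = Ideal.Quotient.mk P₁ (W c) := rfl

/-- (N2) of the nodal contract for the first component: `C/P₁ ≃ R/π` is Dedekind. -/
theorem isDedekindDomain_left [IsDedekindDomain (R ⧸ Ideal.span {π})] :
    IsDedekindDomain (C ⧸ P₁) :=
  isDedekindDomain_of_ringEquiv h.quotEquiv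

/-- (N2) of the nodal contract for the second component: `C/P₂ ≃ C/P₁ ≃ R/π` is Dedekind. -/
theorem isDedekindDomain_right [IsDedekindDomain (R ⧸ Ideal.span {π})] :
    IsDedekindDomain (C ⧸ P₂) :=
  isDedekindDomain_of_ringEquiv (h.quotEquiv.trans h.swapEquiv.symm)

theorem isPrime_left [IsDomain (R ⧸ Ideal.span {π})] : P₁.IsPrime := by
  have : IsDomain (C ⧸ P₁) := h.quotEquiv.symm.toMulEquiv.isDomain (R ⧸ Ideal.span {π})
  exact (Ideal.Quotient.isDomain_iff_prime P₁).mp inferInstance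

theorem isPrime_right [IsDomain (R ⧸ Ideal.span {π})] : P₂.IsPrime := by
  have : IsDomain (C ⧸ P₂) :=
    (h.swapEquiv.trans h.quotEquiv.symm).toMulEquiv.isDomain (R ⧸ Ideal.span {π})
  exact (Ideal.Quotient.isDomain_iff_prime P₂).mp inferInstance

end Data

end Fermat.Agent.S34.Fibre
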