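import Mathlib
import Fermat.Agent.S34.Fibre
import Fermat.Agent.S34.Nodal.Defs

/-!
# PROGRAM U: the chart-zero fields of the nodal contract from the fibre datum

Adapter between `S34/Fibre.lean` (abstract special fibre of the level-`ℓM` chart over the
level-`M` ring `R`) and the `K`-level contract `Nodal.IsNodalChart`.

* `Fibre.Data.not_le`, `Fibre.Data.not_le'` : the two components are incomparable as soon as they
  are distinct (they are exchanged by `W`);
* `Fibre.Data.frob_eq_pow_of_kronecker` : the Kronecker congruence, elementwise in `R`, gives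
  `frob x = (ψ x)^ℓ`;
* `isNodalChart_of_data` : **all fields of `IsNodalChart π t p₁ p₂`** from
  `Fibre.Data πR p₁ p₂ W`, `p₁ ≠ p₂`, `IsDedekindDomain (R ⧸ (πR))` and the Kronecker congruence.
-/

set_option autoImplicit false

namespace Fermat.Agent.S34.Fibre.Data

variable {R C : Type*} [CommRing R] [CommRing C] [Algebra R C]
variable {π : R} {P₁ P₂ : Ideal C} {W : C ≃+* C}

/-- `P₁ ≤ P₂` forces `P₂ ≤ P₁` (apply `W`). -/
theorem le_of_le (h : Data π P₁ P₂ W) (hle : P₁ ≤ P₂) : P₂ ≤ P₁ := by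
  intro c hc
  have h1 : W c ∈ P₁ := (h.swap c).mpr hc
  have h2 : W c ∈ P₂ := hle h1
  exact (h.swap' c).mp h2

theorem le_of_le' (h : Data π P₁ P₂ W) (hle : P₂ ≤ P₁) : P₁ ≤ P₂ := by
  intro c hc
  have h1 : W c ∈ P₂ := (h.swap' c).mpr hc
  have h2 : W c ∈ P₁ := hle h1
  exact (h.swap c).mp h2

/-- Distinct components are incomparable. -/
theorem not_le (h : Data π P₁ P₂ W) (hne : P₁ ≠ P₂) : ¬ P₁ ≤ P₂ := fun hle =>
  hne (le_antisymm hle (h.le_of_le hle))

theorem not_le' (h : Data π P₁ P₂ W) (hne : P₁ ≠ P₂) : ¬ P₂ ≤ P₁ := fun hle =>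
  hne (le_antisymm (h.le_of_le' hle) hle)

/-- **Kronecker congruence ⇒ `frob = ψ ^ ℓ`.**  Elementwise hypothesis: for every `r : R` there
is `s : R` with `s ≡ ψ r` modulo `π` and `W r ≡ s ^ ℓ` on the component `P₁`. -/
theorem frob_eq_pow_of_kronecker (h : Data π P₁ P₂ W)
    (ψ : R ⧸ Ideal.span {π} →+* R ⧸ Ideal.span {π}) (l : ℕ)
    (hK : ∀ r : R, ∃ s : R, Ideal.Quotient.mk (Ideal.span {π}) s =
        ψ (Ideal.Quotient.mk (Ideal.span {π}) r) ∧
      W (algebraMap R C r) - algebraMap R C (s ^ l) ∈ P₁)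
    (x : R ⧸ Ideal.span {π}) : h.frob x = ψ x ^ l := by
  obtain ⟨r, rfl⟩ := Ideal.Quotient.mk_surjective x
  obtain ⟨s, hs, hW⟩ := hK r
  rw [h.frob_mk_eq hW, map_pow, hs]

/-- Elementwise form of "`frob²` is not the identity". -/
theorem frob_frob_ne_of (h : Data π P₁ P₂ W) (r r' r'' : R)
    (h1 : W (algebraMap R C r) - algebraMap R C r' ∈ P₁)
    (h2 : W (algebraMap R C r') - algebraMap R C r'' ∈ P₁) (hne : ¬ π ∣ r'' - r) :
    ∃ a, h.frob (h.frob a) ≠ a := by
  refine ⟨Ideal.Quotient.mk (Ideal.span {π}) r, ?_⟩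
  rw [h.frob_mk_eq h1, h.frob_mk_eq h2]
  intro heq
  apply hne
  rw [Ideal.Quotient.eq] at heq
  exact Ideal.mem_span_singleton.mp heq

end Fermat.Agent.S34.Fibre.Data

namespace Fermat.Agent.S34.Fibre

/-- **Radicality of the fixed ideal, weakest form**: if every `F x` is an `ℓ`-th power
(`ℓ ≥ 2`) and `A` is noetherian, then the ideal `(F (F a) - a : a)` is radical.  No ring
homomorphism `ψ` with `F = ψ ^ ℓ` is needed. -/
theorem fixIdeal_isRadical_of_exists_pow {A : Type*} [CommRing A] [IsNoetherianRing A]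
    (F : A →+* A) (l : ℕ) (hl : 2 ≤ l) (hF : ∀ x : A, ∃ y : A, F x = y ^ l) :
    (Glue.fixIdeal F).IsRadical := by
  refine Glue.fixIdeal_isRadical_of_pow F ?_
  have hFI : ∀ x ∈ Glue.fixIdeal F, F x ∈ Glue.fixIdeal F := by
    intro x hx
    refine Submodule.span_induction (p := fun y _ => F y ∈ Glue.fixIdeal F) ?_ ?_ ?_ ?_ hx
    · rintro _ ⟨a, rfl⟩
      have : F (F (F a) - a) = F (F (F a)) - F a := map_sub F _ _
      rw [this]
      exact Glue.sq_sub_mem_fixIdeal F (F a)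
    · simp
    · intro a b _ _ ha hb
      rw [map_add]
      exact Ideal.add_mem _ ha hb
    · intro c a _ ha
      rw [smul_eq_mul, map_mul]
      exact Ideal.mul_mem_left _ _ ha
  have hFR : ∀ x ∈ (Glue.fixIdeal F).radical, F x ∈ (Glue.fixIdeal F).radical := by
    rintro x ⟨n, hn⟩
    refine ⟨n, ?_⟩
    rw [← map_pow]
    exact hFI _ hn
  intro x hx
  obtain ⟨y, hy⟩ := hF x
  have hyR : y ∈ (Glue.fixIdeal F).radical := by
    have h1 : y ^ l ∈ (Glue.fixIdeal F).radical := hy ▸ hFR x hx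
    have h2 : y ∈ ((Glue.fixIdeal F).radical).radical := ⟨l, h1⟩
    rwa [Ideal.radical_idem] at h2
  have h3 : F (F x) = F y ^ l := by rw [hy, map_pow]
  have h4 : F y ^ l ∈ (Glue.fixIdeal F).radical ^ 2 := by
    obtain ⟨k, rfl⟩ : ∃ k, l = k + 2 := ⟨l - 2, by omega⟩
    rw [pow_add]
    exact Ideal.mul_mem_left _ _ (Ideal.pow_mem_pow (hFR y hyR) 2)
  rw [h3]
  exact Ideal.mem_sup_left h4

end Fermat.Agent.S34.Fibre

namespace Fermat.Agent.S34.Fibre.Data

variable {R C : Type*} [CommRing R] [CommRing C] [Algebra R C]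
variable {π : R} {P₁ P₂ : Ideal C} {W : C ≃+* C}

/-- **(N4), weakest Kronecker form**: `Rbar` Dedekind, every `frob x` an `ℓ`-th power, `frob²`
not the identity ⟹ `P₁ ⊔ P₂` is radical. -/
theorem sup_isRadical_of_exists_pow (h : Data π P₁ P₂ W)
    [IsDedekindDomain (R ⧸ Ideal.span {π})] (l : ℕ) (hl : 2 ≤ l)
    (hF : ∀ x, ∃ y, h.frob x = y ^ l) (hne : ∃ a, h.frob (h.frob a) ≠ a) :
    (P₁ ⊔ P₂).IsRadical :=
  h.sup_isRadical (fixIdeal_isRadical_of_exists_pow h.frob l hl hF)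
    (fun Q hQ hle => h.isMaximal_of_fixIdeal_le hne Q hQ hle)

/-- Elementwise Kronecker congruence (no `ψ`): for every `r : R` there is `s : R` with
`W r ≡ s ^ ℓ` on the component `P₁`.  Then every `frob x` is an `ℓ`-th power. -/
theorem frob_exists_pow_of_kronecker (h : Data π P₁ P₂ W) (l : ℕ)
    (hK : ∀ r : R, ∃ s : R, W (algebraMap R C r) - algebraMap R C (s ^ l) ∈ P₁)
    (x : R ⧸ Ideal.span {π}) : ∃ y, h.frob x = y ^ l := by
  obtain ⟨r, rfl⟩ := Ideal.Quotient.mk_surjective x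
  obtain ⟨s, hW⟩ := hK r
  exact ⟨Ideal.Quotient.mk (Ideal.span {π}) s, by rw [h.frob_mk_eq hW, map_pow]⟩

end Fermat.Agent.S34.Fibre.Data

namespace Fermat.Agent.S34.FibreNodal

open Fermat.Agent.S30.Model Fermat.Agent.S30.Model.GlueChart Fermat.Agent.S34
  Fermat.Agent.S34.Nodal

variable {O L : Type*} [CommRing O] [Field L] [Algebra O L]

/-- **Chart-zero fields of the nodal contract from the fibre datum** (`frob`-form).
`R` is the level-`M` ring, mapping to the chart ring `Chart O t` of level `ℓM`; `πR : R` maps to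
the element `π` of the chart. -/
theorem isNodalChart_of_data {R : Type*} [CommRing R] (π : O) (t : L) [Algebra R (Chart O t)]
    {πR : R} {p₁ p₂ : Ideal (Chart O t)} {W : Chart O t ≃+* Chart O t}
    (hπ : algebraMap R (Chart O t) πR = piElt (Algebra.adjoin O ({t} : Set L)) π)
    (h : Fibre.Data πR p₁ p₂ W) (hne : p₁ ≠ p₂)
    [IsDedekindDomain (R ⧸ Ideal.span {πR})]
    (ψ : R ⧸ Ideal.span {πR} →+* R ⧸ Ideal.span {πR}) (l : ℕ) (hl : 2 ≤ l)
    (hF : ∀ x, h.frob x = ψ x ^ l) (hne' : ∃ a, h.frob (h.frob a) ≠ a) :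
    IsNodalChart π t p₁ p₂ where
  isPrime₁ := h.isPrime_left
  isPrime₂ := h.isPrime_right
  ne := hne
  not_le₁₂ := h.not_le hne
  not_le₂₁ := h.not_le' hne
  inf_eq := by rw [h.inf_eq, hπ]
  dedekind₁ := h.isDedekindDomain_left
  dedekind₂ := h.isDedekindDomain_right
  radical := h.sup_isRadical_of_pow ψ l hl hF hne'

/-- **Chart-zero fields of the nodal contract from the fibre datum** (elementwise Kronecker
form): `W r ≡ (ψ r)^ℓ` on `p₁` for `r : R`, and some `r` with `W (W r) ≢ r`... precisely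
`W r ≡ r'`, `W r' ≡ r''` on `p₁` and `πR ∤ r'' - r`. -/
theorem isNodalChart_of_kronecker {R : Type*} [CommRing R] (π : O) (t : L)
    [Algebra R (Chart O t)]
    {πR : R} {p₁ p₂ : Ideal (Chart O t)} {W : Chart O t ≃+* Chart O t}
    (hπ : algebraMap R (Chart O t) πR = piElt (Algebra.adjoin O ({t} : Set L)) π)
    (h : Fibre.Data πR p₁ p₂ W) (hne : p₁ ≠ p₂)
    [IsDedekindDomain (R ⧸ Ideal.span {πR})]
    (ψ : R ⧸ Ideal.span {πR} →+* R ⧸ Ideal.span {πR}) (l : ℕ) (hl : 2 ≤ l)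
    (hK : ∀ r : R, ∃ s : R, Ideal.Quotient.mk (Ideal.span {πR}) s =
        ψ (Ideal.Quotient.mk (Ideal.span {πR}) r) ∧
      W (algebraMap R (Chart O t) r) - algebraMap R (Chart O t) (s ^ l) ∈ p₁)
    (r r' r'' : R)
    (h1 : W (algebraMap R (Chart O t) r) - algebraMap R (Chart O t) r' ∈ p₁)
    (h2 : W (algebraMap R (Chart O t) r') - algebraMap R (Chart O t) r'' ∈ p₁)
    (hrr : ¬ πR ∣ r'' - r) :
    IsNodalChart π t p₁ p₂ :=
  isNodalChart_of_data π t hπ h hne ψ l hl (h.frob_eq_pow_of_kronecker ψ l hK)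
    (h.frob_frob_ne_of r r' r'' h1 h2 hrr)

/-- **Chart-zero fields of the nodal contract, weakest Kronecker form** (no `ψ`): for every
`r : R` some `s : R` has `W r ≡ s ^ ℓ` on `p₁` (on the modular side `s = σ⁻¹ r` for a Frobenius
lift `σ`, or any `ℓ`-th root of the reduction of `r(q^ℓ)` in `B'bar`); plus `r, r', r''` with
`W r ≡ r'`, `W r' ≡ r''` on `p₁` and `πR ∤ r'' - r`. -/
theorem isNodalChart_of_exists_pow {R : Type*} [CommRing R] (π : O) (t : L)
    [Algebra R (Chart O t)]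
    {πR : R} {p₁ p₂ : Ideal (Chart O t)} {W : Chart O t ≃+* Chart O t}
    (hπ : algebraMap R (Chart O t) πR = piElt (Algebra.adjoin O ({t} : Set L)) π)
    (h : Fibre.Data πR p₁ p₂ W) (hne : p₁ ≠ p₂)
    [IsDedekindDomain (R ⧸ Ideal.span {πR})] (l : ℕ) (hl : 2 ≤ l)
    (hK : ∀ r : R, ∃ s : R,
      W (algebraMap R (Chart O t) r) - algebraMap R (Chart O t) (s ^ l) ∈ p₁)
    (r r' r'' : R)
    (h1 : W (algebraMap R (Chart O t) r) - algebraMap R (Chart O t) r' ∈ p₁)
    (h2 : W (algebraMap R (Chart O t) r') - algebraMap R (Chart O t) r'' ∈ p₁)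
    (hrr : ¬ πR ∣ r'' - r) :
    IsNodalChart π t p₁ p₂ where
  isPrime₁ := h.isPrime_left
  isPrime₂ := h.isPrime_right
  ne := hne
  not_le₁₂ := h.not_le hne
  not_le₂₁ := h.not_le' hne
  inf_eq := by rw [h.inf_eq, hπ]
  dedekind₁ := h.isDedekindDomain_left
  dedekind₂ := h.isDedekindDomain_right
  radical := h.sup_isRadical_of_exists_pow l hl (h.frob_exists_pow_of_kronecker l hK)
    (h.frob_frob_ne_of r r' r'' h1 h2 hrr)

end Fermat.Agent.S34.FibreNodal
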