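import Fermat.Agent.S34.Descend

/-!
# S34, brick U.SSf.Descend (Kummer-field form): (INJ-ss) over `ℚ̄` from number fields

The number-field statement of `S34/Descend.lean` (`InjSSE`, conclusion up to a constant) is
replaced by the form that the `K`-level theorem (`Nodal.inj_ss_inertia`, i.e. `ToricInertia`)
produces: the Kummer field `M = L(θ)`, `θ ^ m = τ h / h`, is part of the data, together with the
hypothesis that `M` has **no new constants**.

* `upF N E` : extension of constants `LE N E →+* Fb N`.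
* `InjSSRootE N A W m E` : for `τ` in the inertia group of `A`, `h ∈ LE N E` toric with
  `m ∣ div h`, `k = τ h / h`, and every finite field extension `M = (LE N E)(θ)`, `θ ^ m = k`, in
  which `E` is algebraically closed: `k` is an `m`-th power in `LE N E`.
* `InjSSRootModular N A W m` : `InjSSRootE` over every sufficiently large number field.
* `no_new_constants` : for a monic `q` over `LE N E` whose image over `Fb N` is irreducible, `E`
  is algebraically closed in `AdjoinRoot q`.
* `injSS_of_rootModular` : `InjSSRootModular N A W m → InjSS N A W m`.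
-/

set_option autoImplicit false
set_option linter.unusedSectionVars false
set_option synthInstance.maxHeartbeats 400000
set_option maxHeartbeats 1000000

noncomputable section

namespace Fermat.Agent.S34.Descend

open ModularCurve AlgebraicCurve HahnSeries IntermediateField Polynomial
open Fermat.Agent.S18.K1Defs Fermat.Agent.S18.K1Top
open Fermat.Agent.S30 Fermat.Agent.S30.E4

local notation "Qb" => AlgebraicClosure ℚ
local notation "Gq" => (AlgebraicClosure ℚ ≃ₐ[ℚ] AlgebraicClosure ℚ)

/-! ### Extension of constants -/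

/-- Extension of constants `LE N E → Fb N` (coefficientwise `E ⊆ ℚ̄`). -/
def upF (N : ℕ) [NeZero N] (E : IntermediateField ℚ Qb) : LE N E →+* Fb N :=
  RingHom.codRestrict ((coeffMap (algebraMap E Qb)).comp (algebraMap (LE N E) (LaurentSeries E)))
    (Fb N) (fun x => coeffMap_mem_bar N E x.2)

theorem coe_upF (N : ℕ) [NeZero N] (E : IntermediateField ℚ Qb) (x : LE N E) :
    ((upF N E x : Fb N) : LaurentSeries Qb) = coeffMap (algebraMap E Qb) (x : LaurentSeries E) :=
  rfl

theorem upF_injective (N : ℕ) [NeZero N] (E : IntermediateField ℚ Qb) : Function.Injective (upF N E) :=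
  (upF N E).injective

theorem upF_algebraMap (N : ℕ) [NeZero N] (E : IntermediateField ℚ Qb) (c : E) :
    upF N E (algebraMap E (LE N E) c) = algebraMap Qb (Fb N) (algebraMap E Qb c) := by
  apply Subtype.ext
  rw [coe_upF]
  show coeffMap (algebraMap E Qb) (algebraMap E (LaurentSeries E) c) =
    algebraMap Qb (LaurentSeries Qb) (algebraMap E Qb c)
  rw [← Fermat.Agent.S18.Wiring.C_eq_algebraMap, ← Fermat.Agent.S18.Wiring.C_eq_algebraMap,
    coeffMap_C_hom]

/-- An element of `LE N E` whose extension to `ℚ̄` is a constant is a constant. -/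
theorem eq_algebraMap_of_upF_eq (N : ℕ) [NeZero N] (E : IntermediateField ℚ Qb) (y : LE N E) (a : Qb)
    (hy : upF N E y = algebraMap Qb (Fb N) a) : ∃ e : E, y = algebraMap E (LE N E) e := by
  have h1 : coeffMap (algebraMap E Qb) (y : LaurentSeries E) = HahnSeries.C a := by
    rw [← coe_upF, hy, Fermat.Agent.S18.Wiring.C_eq_algebraMap]
    rfl
  refine ⟨(y : LaurentSeries E).coeff 0, Subtype.ext ?_⟩
  show (y : LaurentSeries E) = algebraMap E (LaurentSeries E) ((y : LaurentSeries E).coeff 0)
  rw [← Fermat.Agent.S18.Wiring.C_eq_algebraMap]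
  apply HahnSeries.ext
  funext n
  rw [HahnSeries.C_apply, HahnSeries.coeff_single]
  split_ifs with hn
  · rw [hn]
  · apply (algebraMap E Qb).injective
    have h2 := congrArg (fun t : LaurentSeries Qb => t.coeff n) h1
    simp only [coeffMap_coeff] at h2
    rw [h2, map_zero, HahnSeries.C_apply, HahnSeries.coeff_single, if_neg hn]

/-- Finitely many elements of `Fb N` are defined over a common number field (and over every
larger subfield of `ℚ̄`). -/
theorem exists_finset_descent (N : ℕ) [NeZero N] (s : Finset (Fb N)) :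
    ∃ E₀ : IntermediateField ℚ Qb, FiniteDimensional ℚ E₀ ∧
      ∀ E : IntermediateField ℚ Qb, E₀ ≤ E → ∀ z ∈ s, ∃ y : LE N E, upF N E y = z := by
  classical
  induction s using Finset.induction_on with
  | empty =>
    exact ⟨⊥, inferInstance, fun E _ z hz => absurd hz (Finset.notMem_empty z)⟩
  | insert a s ha ih =>
    obtain ⟨E₁, hE₁, h₁⟩ := ih
    obtain ⟨E₂, hE₂, h₂⟩ :=
      Fermat.Agent.S30.GaussDescent.exists_descent (modularFunctionFieldFull N) a.2
    refine ⟨E₁ ⊔ E₂, IntermediateField.finiteDimensional_sup E₁ E₂, fun E hE z hz => ?_⟩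
    rcases Finset.mem_insert.mp hz with rfl | hz
    · obtain ⟨y, hy, hyx⟩ := h₂ E (le_trans le_sup_right hE)
      exact ⟨⟨y, hy⟩, Subtype.ext hyx⟩
    · exact h₁ E (le_trans le_sup_left hE) z hz

/-! ### No new constants -/

/-- **No new constants.**  `q` a monic polynomial over `LE N E` whose image over `Fb N` is
irreducible.  Then `E` is algebraically closed in `AdjoinRoot q`: the extension to `ℚ̄` of an
`E`-algebraic element is a constant (`ℚ̄` is algebraically closed), and `1, θ, …, θ^(d-1)` stay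
independent over `Fb N`. -/
theorem no_new_constants (N : ℕ) [NeZero N] (E : IntermediateField ℚ Qb) (q : (LE N E)[X])
    (hq : q.Monic) (hirr : Irreducible (q.map (upF N E))) (x : AdjoinRoot q)
    (hx : IsAlgebraic E x) : ∃ a : E, algebraMap E (AdjoinRoot q) a = x := by
  classical
  set g : (Fb N)[X] := q.map (upF N E) with hg
  haveI : Fact (Irreducible g) := ⟨hirr⟩
  have hroot : q.eval₂ ((AdjoinRoot.of g).comp (upF N E)) (AdjoinRoot.root g) = 0 := by
    rw [← Polynomial.eval₂_map, ← hg]
    exact AdjoinRoot.eval₂_root g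
  let ι : AdjoinRoot q →+* AdjoinRoot g :=
    AdjoinRoot.lift ((AdjoinRoot.of g).comp (upF N E)) (AdjoinRoot.root g) hroot
  have hιmk : ∀ r : (LE N E)[X], ι (AdjoinRoot.mk q r) = AdjoinRoot.mk g (r.map (upF N E)) := by
    intro r
    show AdjoinRoot.lift _ _ hroot (AdjoinRoot.mk q r) = _
    rw [AdjoinRoot.lift_mk, ← Polynomial.eval₂_map, ← AdjoinRoot.aeval_eq, Polynomial.aeval_def,
      AdjoinRoot.algebraMap_eq]
  -- the constants
  have hιc : ∀ c : E, ι (algebraMap E (AdjoinRoot q) c) =
      algebraMap Qb (AdjoinRoot g) (algebraMap E Qb c) := by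
    intro c
    rw [AdjoinRoot.algebraMap_eq' E, AdjoinRoot.algebraMap_eq' Qb, RingHom.comp_apply,
      RingHom.comp_apply]
    show AdjoinRoot.lift _ _ hroot (AdjoinRoot.of q (algebraMap E (LE N E) c)) = _
    rw [AdjoinRoot.lift_of, RingHom.comp_apply, upF_algebraMap]
  -- reduce to a representative of small degree
  obtain ⟨p, rfl⟩ := AdjoinRoot.mk_surjective x
  set r : (LE N E)[X] := p %ₘ q with hr
  have hpr : AdjoinRoot.mk q p = AdjoinRoot.mk q r := by
    rw [AdjoinRoot.mk_eq_mk]
    refine ⟨p /ₘ q, ?_⟩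
    have := Polynomial.modByMonic_add_div p q
    rw [hr]
    linear_combination (-1 : (LE N E)[X]) * this
  have hrdeg : r.degree < q.degree := Polynomial.degree_modByMonic_lt p hq
  -- the image is a constant of `ℚ̄`
  obtain ⟨P, hP0, hP⟩ := hx
  have hP' : (P.map (algebraMap E Qb)).map (algebraMap Qb (AdjoinRoot g)) |>.IsRoot
      (ι (AdjoinRoot.mk q p)) := by
    rw [Polynomial.IsRoot.def, Polynomial.eval_map, Polynomial.eval₂_map]
    have h1 : ι (Polynomial.aeval (AdjoinRoot.mk q p) P) = 0 := by rw [hP, map_zero]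
    rw [Polynomial.aeval_def, Polynomial.hom_eval₂] at h1
    rw [← h1]
    congr 1
    exact RingHom.ext fun c => (hιc c).symm
  have hsplit : (P.map (algebraMap E Qb)).Splits := IsAlgClosed.splits _
  have hP0' : P.map (algebraMap E Qb) ≠ 0 :=
    (Polynomial.map_ne_zero_iff (algebraMap E Qb).injective).mpr hP0
  obtain ⟨a, ha⟩ := hsplit.mem_range_of_isRoot hP0' hP'
  -- compare in the power basis over `Fb N`
  have hdvd : g ∣ r.map (upF N E) - Polynomial.C (algebraMap Qb (Fb N) a) := by
    rw [← AdjoinRoot.mk_eq_zero, map_sub, ← hιmk, ← hpr, ← ha, AdjoinRoot.mk_C,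
      AdjoinRoot.algebraMap_eq' Qb, RingHom.comp_apply, sub_self]
  have hgdeg : 0 < g.degree := Polynomial.degree_pos_of_irreducible hirr
  have hgq : g.degree = q.degree := by
    rw [hg, Polynomial.degree_map]
  have hzero : r.map (upF N E) - Polynomial.C (algebraMap Qb (Fb N) a) = 0 := by
    refine Polynomial.eq_zero_of_dvd_of_degree_lt hdvd ?_
    refine lt_of_le_of_lt (Polynomial.degree_sub_le _ _) (max_lt ?_ ?_)
    · rw [Polynomial.degree_map, hgq]
      exact hrdeg
    · exact lt_of_le_of_lt Polynomial.degree_C_le hgdeg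
  have hrmap : r.map (upF N E) = Polynomial.C (algebraMap Qb (Fb N) a) := sub_eq_zero.mp hzero
  have hr0 : upF N E (r.coeff 0) = algebraMap Qb (Fb N) a := by
    have := congrArg (fun t : (Fb N)[X] => t.coeff 0) hrmap
    simpa [Polynomial.coeff_map] using this
  have hrn : ∀ n : ℕ, n ≠ 0 → r.coeff n = 0 := by
    intro n hn
    apply upF_injective N E
    have := congrArg (fun t : (Fb N)[X] => t.coeff n) hrmap
    simp only [Polynomial.coeff_map, Polynomial.coeff_C, if_neg hn] at this
    rw [this, map_zero]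
  have hrC : r = Polynomial.C (r.coeff 0) := by
    refine Polynomial.ext fun n => ?_
    rw [Polynomial.coeff_C]
    split_ifs with hn
    · rw [hn]
    · exact hrn n hn
  obtain ⟨e, he⟩ := eq_algebraMap_of_upF_eq N E (r.coeff 0) a hr0
  refine ⟨e, ?_⟩
  rw [hpr, hrC, he, AdjoinRoot.mk_C, AdjoinRoot.algebraMap_eq' E, RingHom.comp_apply]

/-! ### The statements -/

/-- **(INJ-ss) over a number field `E`, Kummer-field form.**  `h, h' ∈ LE N E` with `h' = W h`
(after extension of constants), both in the Gauss ring with reduction `1`, `m ∣ ord_P h` at every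
place of `LE N E` over `E`, `k = τ h / h ∈ LE N E` (`τ` acting on the coefficients through its
restriction to `E`), and `M = (LE N E)(θ)` a finite field extension with `θ ^ m = k` in which `E`
is algebraically closed.  Then `k` is an `m`-th power in `LE N E`. -/
def InjSSRootE (N : ℕ) [NeZero N] (A : ValuationSubring Qb) (W : Fb N ≃+* Fb N) (m : ℕ)
    (E : IntermediateField ℚ Qb) [Normal ℚ E] [IsDiscreteValuationRing (OE A E)] : Prop :=
  ∀ τ : Gq, τ ∈ A.inertiaSubgroupIn ℚ →
    ∀ (h h' : LaurentSeries E) (hL : h ∈ LE N E) (hL' : h' ∈ LE N E),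
      W ⟨coeffMap (algebraMap E Qb) h, coeffMap_mem_bar N E hL⟩ =
        ⟨coeffMap (algebraMap E Qb) h', coeffMap_mem_bar N E hL'⟩ →
      ∀ (hV : h ∈ GaussDVR.V (OE A E) E) (hV' : h' ∈ GaussDVR.V (OE A E) E),
        GaussDVR.red (OE A E) E ⟨h, hV⟩ = 1 → GaussDVR.red (OE A E) E ⟨h', hV'⟩ = 1 →
        (∀ P : Place E (LE N E), (m : ℤ) ∣ P.ord (⟨h, hL⟩ : LE N E)) →
        ∀ k : LE N E,
          (k : LaurentSeries E) * h =
            coeffMap ((τ.restrictNormal E : E ≃ₐ[ℚ] E) : E →+* E) h →
          ∀ (M : Type) [Field M] [Algebra (LE N E) M] [Algebra E M] [IsScalarTower E (LE N E) M]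
            [FiniteDimensional (LE N E) M] (θ : M),
            θ ^ m = algebraMap (LE N E) M k →
            Algebra.adjoin (LE N E) ({θ} : Set M) = ⊤ →
            (∀ x : M, IsAlgebraic E x → ∃ a : E, algebraMap E M a = x) →
            ∃ g : LE N E, k = g ^ m

/-- **(INJ-ss) for the modular function field, Kummer-field form**: `InjSSRootE` over every
number field `E ⊆ ℚ̄`, normal over `ℚ`, containing a fixed finite set `S` of algebraic numbers. -/
def InjSSRootModular (N : ℕ) [NeZero N] (A : ValuationSubring Qb) (W : Fb N ≃+* Fb N) (m : ℕ) :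
    Prop :=
  ∃ S : Finset Qb, ∀ (E : IntermediateField ℚ Qb) [FiniteDimensional ℚ E] [Normal ℚ E]
    [IsDiscreteValuationRing (OE A E)], (∀ s ∈ S, s ∈ E) → InjSSRootE N A W m E

/-! ### The descent theorem -/

/-- **Descent, Kummer-field form.**  `InjSSRootModular` implies (INJ-ss) over `ℚ̄`. -/
theorem injSS_of_rootModular (N : ℕ) [NeZero N] {ℓ : ℕ} (hℓ : ℓ.Prime)
    (A : ValuationSubring Qb) (hA : A.LiesOverPrime ℓ) (W : Fb N ≃+* Fb N) {m : ℕ} (hm : 0 < m)
    (hK : InjSSRootModular N A W m) : InjSS N A W m := by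
  classical
  rintro τ hτ h ⟨⟨U, V, hU, hV, hred, hne, hUV⟩, ⟨U', V', hU', hV', hred', hne', hUV'⟩⟩ hdiv
  obtain ⟨S, hS⟩ := hK
  have hh0 : h ≠ 0 := Toric.GaussOne.ne_zero ⟨U, V, hU, hV, hred, hne, hUV⟩
  -- the Kummer polynomial and an irreducible factor
  set x : Fb N := gal N τ h / h with hx
  have hxh : x * h = gal N τ h := div_mul_cancel₀ _ hh0
  set f : (Fb N)[X] := Polynomial.X ^ m - Polynomial.C x with hf
  have hfmonic : f.Monic := Polynomial.monic_X_pow_sub_C x hm.ne'
  have hfdeg : f.degree ≠ 0 := by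
    rw [hf, Polynomial.degree_X_pow_sub_C hm x]
    exact_mod_cast hm.ne'
  obtain ⟨g₀, hg₀irr, hg₀dvd⟩ := Polynomial.exists_irreducible_of_degree_pos
    (f := f) (lt_of_le_of_ne (Polynomial.zero_le_degree_iff.mpr hfmonic.ne_zero) (Ne.symm hfdeg))
  set g : (Fb N)[X] := g₀ * Polynomial.C g₀.leadingCoeff⁻¹ with hgdef
  have hgmonic : g.Monic := Polynomial.monic_mul_leadingCoeff_inv hg₀irr.ne_zero
  have hgassoc : Associated g₀ g :=
    ⟨(Polynomial.isUnit_C.mpr (isUnit_iff_ne_zero.mpr (inv_ne_zero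
      (Polynomial.leadingCoeff_ne_zero.mpr hg₀irr.ne_zero)))).unit, rfl⟩
  have hgirr : Irreducible g := hgassoc.irreducible hg₀irr
  have hgdvd : g ∣ f := (hgassoc.dvd_iff_dvd_left).mp hg₀dvd
  -- coefficient fields
  obtain ⟨E₀, hE₀, hdesc⟩ := exists_finset_descent N
    (insert (⟨_, hU⟩ : Fb N) (insert (⟨_, hV⟩ : Fb N) (insert (⟨_, hU'⟩ : Fb N)
      (insert (⟨_, hV'⟩ : Fb N) (insert x g.coeffs)))))
  let E₅ : IntermediateField ℚ Qb := IntermediateField.adjoin ℚ (S : Set Qb)
  have hE₅ : FiniteDimensional ℚ E₅ :=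
    IntermediateField.finiteDimensional_adjoin fun x _ =>
      ((AlgebraicClosure.isAlgebraic ℚ).isAlgebraic x).isIntegral
  let E' : IntermediateField ℚ Qb := E₀ ⊔ E₅
  have hE' : FiniteDimensional ℚ E' := IntermediateField.finiteDimensional_sup E₀ E₅
  -- the normal closure
  have : Normal ℚ Qb := normal_rat_Qb
  let E : IntermediateField ℚ Qb := IntermediateField.normalClosure ℚ E' Qb
  have hEfin : FiniteDimensional ℚ E := normalClosure.is_finiteDimensional ℚ E' Qb
  have hEnorm : Normal ℚ E := normalClosure.normal ℚ E' Qb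
  have hE'E : E' ≤ E := IntermediateField.le_normalClosure E'
  have h0E : E₀ ≤ E := le_trans le_sup_left hE'E
  have h5E : E₅ ≤ E := le_trans le_sup_right hE'E
  have hSE : ∀ s ∈ S, s ∈ E := fun s hs => h5E (IntermediateField.subset_adjoin ℚ _ hs)
  have hDVRE : IsDiscreteValuationRing (OE A E) := dvrDescent hℓ A hA E
  have hKE := hS E hSE
  have hdE := hdesc E h0E
  -- the series over `E`
  obtain ⟨⟨u, huL⟩, hu⟩ := hdE ⟨_, hU⟩ (by simp)
  obtain ⟨⟨v, hvL⟩, hv⟩ := hdE ⟨_, hV⟩ (by simp)
  obtain ⟨⟨u', hu'L⟩, hu'⟩ := hdE ⟨_, hU'⟩ (by simp)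
  obtain ⟨⟨v', hv'L⟩, hv'⟩ := hdE ⟨_, hV'⟩ (by simp)
  obtain ⟨k, hk⟩ := hdE x (by simp)
  have huU : coeffMap (algebraMap E Qb) u = coeffMap A.subtype U := congrArg Subtype.val hu
  have hvV : coeffMap (algebraMap E Qb) v = coeffMap A.subtype V := congrArg Subtype.val hv
  have hu'U : coeffMap (algebraMap E Qb) u' = coeffMap A.subtype U' := congrArg Subtype.val hu'
  have hv'V : coeffMap (algebraMap E Qb) v' = coeffMap A.subtype V' := congrArg Subtype.val hv'
  obtain ⟨hv0, hgV, hg1⟩ := gauss_descent A E U V u v huU hvV hred hne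
  obtain ⟨hv'0, hg'V, hg'1⟩ := gauss_descent A E U' V' u' v' hu'U hv'V hred' hne'
  have hgL : u / v ∈ LE N E := div_mem huL hvL
  have hg'L : u' / v' ∈ LE N E := div_mem hu'L hv'L
  -- `u / v` is `h`, `u' / v'` is `W h`
  have hupv : coeffMap (algebraMap E Qb) v ≠ 0 := by
    intro h0
    exact hv0 (coeffMap_injective_hom (algebraMap E Qb) (by rw [h0, map_zero]))
  have hupv' : coeffMap (algebraMap E Qb) v' ≠ 0 := by
    intro h0
    exact hv'0 (coeffMap_injective_hom (algebraMap E Qb) (by rw [h0, map_zero]))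
  have hgh : coeffMap (algebraMap E Qb) (u / v) = (h : LaurentSeries Qb) := by
    rw [map_div₀, div_eq_iff hupv, huU, hvV]
    exact hUV.symm
  have hg'h : coeffMap (algebraMap E Qb) (u' / v') = ((W h : Fb N) : LaurentSeries Qb) := by
    rw [map_div₀, div_eq_iff hupv', hu'U, hv'V]
    exact hUV'.symm
  have e1 : (⟨coeffMap (algebraMap E Qb) (u / v), coeffMap_mem_bar N E hgL⟩ : Fb N) = h :=
    Subtype.ext hgh
  have e2 : (⟨coeffMap (algebraMap E Qb) (u' / v'), coeffMap_mem_bar N E hg'L⟩ : Fb N) = W h :=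
    Subtype.ext hg'h
  have hW : W ⟨coeffMap (algebraMap E Qb) (u / v), coeffMap_mem_bar N E hgL⟩ =
      ⟨coeffMap (algebraMap E Qb) (u' / v'), coeffMap_mem_bar N E hg'L⟩ := by
    rw [e1, e2]
  -- divisibility at the places over `E`
  have hgdiv : ∀ P : Place E (LE N E), (m : ℤ) ∣ P.ord (⟨u / v, hgL⟩ : LE N E) := by
    intro P
    obtain ⟨P', hP'⟩ := placeDescent N E P
    rw [← hP' (u / v) hgL, e1]
    exact hdiv P'
  -- `k = τ h / h` over `E`
  have hkh : (k : LaurentSeries E) * (u / v) =
      coeffMap ((τ.restrictNormal E : E ≃ₐ[ℚ] E) : E →+* E) (u / v) := by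
    apply coeffMap_injective_hom (algebraMap E Qb)
    rw [map_mul, coeffMap_restrictNormal τ E (u / v), hgh, ← coe_upF, hk, ← coe_gal, ← hxh]
    rfl
  -- the polynomial over `E`
  have hglift : g ∈ Polynomial.lifts (upF N E) := by
    rw [Polynomial.lifts_iff_coeff_lifts]
    intro n
    by_cases hn : g.coeff n = 0
    · exact ⟨0, by rw [map_zero, hn]⟩
    · obtain ⟨y, hy⟩ := hdE (g.coeff n) (by
        simp only [Finset.mem_insert]
        exact Or.inr (Or.inr (Or.inr (Or.inr (Or.inr (Polynomial.coeff_mem_coeffs hn))))))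
      exact ⟨y, hy⟩
  obtain ⟨q, hqmap, -, hqmonic⟩ := Polynomial.lifts_and_natDegree_eq_and_monic hglift hgmonic
  have hqirr' : Irreducible (q.map (upF N E)) := by rw [hqmap]; exact hgirr
  have hqirr : Irreducible q :=
    Polynomial.Monic.irreducible_of_irreducible_map (upF N E) q hqmonic hqirr'
  have hqdvd : q ∣ Polynomial.X ^ m - Polynomial.C k := by
    rw [← Polynomial.map_dvd_map (upF N E) (upF_injective N E) hqmonic, hqmap,
      Polynomial.map_sub, Polynomial.map_pow, Polynomial.map_X, Polynomial.map_C, hk]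
    exact hgdvd
  haveI : Fact (Irreducible q) := ⟨hqirr⟩
  have hθ : AdjoinRoot.root q ^ m = algebraMap (LE N E) (AdjoinRoot q) k := by
    have h1 := AdjoinRoot.mk_eq_zero.mpr hqdvd
    rw [map_sub, map_pow, AdjoinRoot.mk_X, AdjoinRoot.mk_C] at h1
    rw [AdjoinRoot.algebraMap_eq]
    exact sub_eq_zero.mp h1
  haveI : FiniteDimensional (LE N E) (AdjoinRoot q) :=
    (AdjoinRoot.powerBasis hqirr.ne_zero).finite
  -- apply the number-field statement
  obtain ⟨gk, hgk⟩ := hKE τ hτ (u / v) (u' / v') hgL hg'L hW hgV hg'V hg1 hg'1 hgdiv k hkh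
    (AdjoinRoot q) (AdjoinRoot.root q) hθ AdjoinRoot.adjoinRoot_eq_top
    (fun y hy => no_new_constants N E q hqmonic hqirr' y hy)
  refine ⟨upF N E gk, ?_⟩
  rw [← hxh, ← hk, hgk, map_pow, mul_comm]

end Fermat.Agent.S34.Descend
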