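import Mathlib
import Fermat.Agent.S34.TwoPrimesGauss

/-!
# S34 (M2), brick SB4: the two Gauss primes of a chart ring WITHOUT `hwu`

`TwoPrimesGauss.package` uses the element `w (α u')` of the chart ring `C = Chart O (α u')`
(hypothesis `hwu`), which does not exist on the chart `u' = 1 / j` (`1 / W j` is not integral
over `O[1 / j]`).  The proof only needs a WITNESS `z ∈ C` whose reduction at the `0`-component is
`g(q^ℓ) · ρU` with `g ≠ 0` (then `1, z, …, z^(ℓ-1)` are independent modulo `p_0` over the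
level-`M` chart ring), together with an element of `p_∞ ∖ p_0`.

Same section variables as `TwoPrimesGauss` (minus `hww`, `hℓ`, `hfrob`, `hwu`), plus
`z`, `g`, `hg`, `hzZ`, `hne`.

* `package` : all conclusions at once;
* `dvd_of_redInf_redZero` (SAT: `p_∞ ∩ p_0 = (ϖ)`), `sat` (elementwise form),
  `eq_ker_or_eq_ker` (no other prime over `ϖ`), `exists_redInf_sub_eq_zero`
  (ONTO: `C / p_∞ = R / ϖ`).

Instances: chart `j` (`z = W (α j)`, `g = 1`: this is `TwoPrimesGauss`); chart `1 / j`, route T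
(`z = c_y · y`, `g = p̄(ρU)`); chart `1 / j`, ε-route (`z = ε · W (α x')`, `g = 1`).
-/

set_option autoImplicit false
set_option linter.unusedSectionVars false
set_option linter.style.haveILetI false

noncomputable section

namespace Fermat.Agent.S34.TwoPrimesGaussZ

open ModularCurve Polynomial
open Fermat.Agent.S30 Fermat.Agent.S34.TwoPrimesGauss

section Package

variable {O E : Type*} [CommRing O] [IsDomain O] [IsDiscreteValuationRing O] [Field E]
  [Algebra O E] [FaithfulSMul O E]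
  {L' L : Type*} [Field L'] [Field L] [Algebra O L'] [Algebra O L]
  (ϖ : O) (hϖ : Irreducible ϖ)
  (α : L' →+* L) (hαO : ∀ r : O, α (algebraMap O L' r) = algebraMap O L r)
  (σ : L →+* LaurentSeries E)
  (hσO : ∀ r : O, σ (algebraMap O L r) = HahnSeries.C (algebraMap O E r))
  (hσfrac : ∀ x : L, σ x ∈ GaussDVR.fracField O E)
  (u' : L') (U : LaurentSeries O) (hσu : σ (α u') = GaussDVR.iota O E U)
  (w : L ≃+* L) (hwO : ∀ r : O, w (algebraMap O L r) = algebraMap O L r)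
  (ℓ : ℕ) [NeZero ℓ]
  (hwα : ∀ x : L', σ (w (α x)) = qExpand E ℓ (σ (α x)))
  (hprime : Prime (piC u' ϖ))
  (hcop : IsCoprime (GaussDVR.rho O U).order (ℓ : ℤ)) (hord : (GaussDVR.rho O U).order ≠ 0)
  (hrank : ∀ v : Option (Fin 1 ⊕ Fin ℓ) → Chart O (α u'),
    ∃ c : Option (Fin 1 ⊕ Fin ℓ) → Chart O u', c ≠ 0 ∧ ∑ i, incl α hαO u' (c i) * v i = 0)
  (z : Chart O (α u')) (g : LaurentSeries (IsLocalRing.ResidueField O)) (hg : g ≠ 0)
  (hzZ : redZero ϖ hϖ α σ hσO hσfrac u' U hσu w hwO ℓ hwα z =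
    qExpand (IsLocalRing.ResidueField O) ℓ g * GaussDVR.rho O U)
  (hne : ∃ c : Chart O (α u'), redInf ϖ hϖ α σ hσO hσfrac u' U hσu c = 0 ∧
    redZero ϖ hϖ α σ hσO hσfrac u' U hσu w hwO ℓ hwα c ≠ 0)

local notation "rI" => redInf ϖ hϖ α σ hσO hσfrac u' U hσu
local notation "rZ" => redZero ϖ hϖ α σ hσO hσfrac u' U hσu w hwO ℓ hwα
local notation "rM" => redM ϖ hϖ α hαO σ hσO hσfrac u' U hσu
local notation "ι" => incl α hαO u'
local notation "ρU" => GaussDVR.rho O U

include hprime hcop hord hrank hg hzZ hne in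
/-- All conclusions at once (the instances needed by `TwoPrimes` are set up only here). -/
theorem package :
    (∀ c : Chart O (α u'), rI c = 0 → rZ c = 0 → piC (α u') ϖ ∣ c) ∧
    (∀ Q : Ideal (Chart O (α u')), Q.IsPrime → piC (α u') ϖ ∈ Q →
      (∀ a : Chart O u', ι a ∈ Q → piC u' ϖ ∣ a) →
      Q = RingHom.ker rI ∨ Q = RingHom.ker rZ) ∧
    (IsIntegrallyClosed (Chart O u' ⧸ Ideal.span {piC u' ϖ}) →
      ∀ c : Chart O (α u'), ∃ a : Chart O u', rI (c - ι a) = 0) := by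
  classical
  have hρ0 : ρU ≠ 0 := fun h => hord (by rw [h, HahnSeries.order_zero])
  have htr : ∀ p : (IsLocalRing.ResidueField O)[X], p ≠ 0 → p.eval₂ HahnSeries.C ρU ≠ 0 :=
    fun p hp => ExpandIndep.eval₂_ne_zero_of_order_ne_zero ρU hord p hp
  have hcentre : ∀ a : Chart O u', rM a = 0 → piC u' ϖ ∣ a :=
    dvd_of_redM_eq_zero ϖ hϖ α hαO σ hσO hσfrac u' U hσu hprime htr
  have hsep : ∀ a : Chart O u', a ≠ 0 → ∃ n : ℕ, ¬ piC u' ϖ ^ n ∣ a :=
    exists_not_pow_dvd ϖ hϖ α hαO σ hσO hσfrac u' U hσu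
  -- instances
  letI : Algebra (Chart O u') (Chart O (α u')) := (ι).toAlgebra
  have halg : ∀ a : Chart O u', algebraMap (Chart O u') (Chart O (α u')) a = ι a := fun _ => rfl
  haveI : FaithfulSMul (Chart O u') (Chart O (α u')) :=
    (faithfulSMul_iff_algebraMap_injective _ _).mpr (incl_injective α hαO u')
  haveI : Algebra.IsIntegral (Chart O u') (Chart O (α u')) := by
    refine ⟨fun c => ?_⟩
    obtain ⟨q, hq, hqc⟩ := (isIntegral_adjoin_iff (α u') (c : L)).mp c.2
    refine ⟨q.map (polyChart u'), hq.map _, Subtype.ext ?_⟩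
    rw [eval₂_map]
    have h := hom_eval₂ q ((algebraMap (Chart O u') (Chart O (α u'))).comp (polyChart u'))
      (algebraMap (Chart O (α u')) L) c
    have hcomp : (algebraMap (Chart O (α u')) L).comp
        ((algebraMap (Chart O u') (Chart O (α u'))).comp (polyChart u')) =
        ((aeval (α u') : O[X] →ₐ[O] L) : O[X] →+* L) := by
      rw [← aeval_alpha α hαO u']
      rfl
    rw [hcomp] at h
    exact h.trans hqc
  haveI : IsIntegrallyClosed (Chart O u') := IsIntegrallyClosed.of_isIntegrallyClosedIn _ L'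
  haveI : IsIntegrallyClosed (Chart O (α u')) := IsIntegrallyClosed.of_isIntegrallyClosedIn _ L
  haveI : (RingHom.ker rI).IsPrime := RingHom.ker_isPrime _
  haveI : (RingHom.ker rZ).IsPrime := RingHom.ker_isPrime _
  have hπalg : algebraMap (Chart O u') (Chart O (α u')) (piC u' ϖ) = piC (α u') ϖ :=
    incl_piC ϖ α hαO u'
  have hπ₁ : algebraMap (Chart O u') (Chart O (α u')) (piC u' ϖ) ∈ RingHom.ker rI := by
    rw [hπalg, RingHom.mem_ker]
    exact redHom_piC σ hσO ϖ hϖ hσfrac (α u') U hσu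
  have hπ₂ : algebraMap (Chart O u') (Chart O (α u')) (piC u' ϖ) ∈ RingHom.ker rZ := by
    rw [hπalg, RingHom.mem_ker]
    exact redHom_piC (σ.comp (w : L →+* L)) (sigmaW_O σ hσO w hwO) ϖ hϖ (fun x => hσfrac (w x))
      (α u') (qExpand O ℓ U) (sigmaW_u α σ u' U hσu w ℓ hwα)
  have hP₁ : ∀ a : Chart O u', algebraMap (Chart O u') (Chart O (α u')) a ∈ RingHom.ker rI →
      piC u' ϖ ∣ a := by
    intro a ha
    rw [RingHom.mem_ker, halg, redInf_incl] at ha
    exact hcentre a ha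
  have hP₂ : ∀ a : Chart O u', algebraMap (Chart O u') (Chart O (α u')) a ∈ RingHom.ker rZ →
      piC u' ϖ ∣ a := by
    intro a ha
    rw [RingHom.mem_ker, halg, redZero_incl] at ha
    exact hcentre a (qExpand_injective ℓ (by rw [ha, map_zero]))
  have hne' : RingHom.ker rI ≠ RingHom.ker rZ := by
    obtain ⟨c, hcI, hcZ⟩ := hne
    intro h
    have h1 : c ∈ RingHom.ker rI := hcI
    rw [h] at h1
    exact hcZ h1
  have hx : ∀ a : Fin 1 → Chart O u',
      ∑ i, a i • (fun _ : Fin 1 => (1 : Chart O (α u'))) i ∈ RingHom.ker rI →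
      ∀ i, piC u' ϖ ∣ a i := by
    intro a ha i
    rw [Fin.sum_univ_one, Algebra.smul_def, mul_one] at ha
    rw [Subsingleton.elim i 0]
    exact hP₁ _ ha
  have hy : ∀ a : Fin ℓ → Chart O u',
      ∑ i, a i • (fun i : Fin ℓ => z ^ (i : ℕ)) i ∈ RingHom.ker rZ →
        ∀ i, piC u' ϖ ∣ a i := by
    intro a ha i
    apply hcentre
    rw [RingHom.mem_ker, map_sum] at ha
    have h1 : ∑ i : Fin ℓ, qExpand (IsLocalRing.ResidueField O) ℓ (rM (a i) * g ^ (i : ℕ)) *
        ρU ^ (i : ℕ) = 0 := by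
      rw [← ha]
      refine Finset.sum_congr rfl fun i _ => ?_
      have e : rZ (a i • z ^ (i : ℕ)) =
          qExpand (IsLocalRing.ResidueField O) ℓ (rM (a i)) *
            (qExpand (IsLocalRing.ResidueField O) ℓ g * ρU) ^ (i : ℕ) := by
        rw [Algebra.smul_def, map_mul, map_pow, hzZ, halg, redZero_incl]
      beta_reduce
      rw [e, map_mul, map_pow, mul_pow]
      ring
    have h2 := ExpandIndep.eq_zero_of_sum_qExpand_mul_pow_eq_zero ℓ _ hρ0 hcop _ h1 i
    rcases mul_eq_zero.mp h2 with h3 | h3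
    · exact h3
    · exact absurd h3 (pow_ne_zero _ hg)
  have hrank' : ∀ v : Option (Fin 1 ⊕ Fin ℓ) → Chart O (α u'),
      ∃ c : Option (Fin 1 ⊕ Fin ℓ) → Chart O u', c ≠ 0 ∧ ∑ i, c i • v i = 0 := by
    intro v
    obtain ⟨c, hc, h⟩ := hrank v
    refine ⟨c, hc, ?_⟩
    rw [← h]
    exact Finset.sum_congr rfl fun i _ => Algebra.smul_def _ _
  refine ⟨?_, ?_, ?_⟩
  · intro c hcI hcZ
    have hmem : c ∈ RingHom.ker rI ⊓ RingHom.ker rZ := ⟨hcI, hcZ⟩
    rw [TwoPrimes.inf_eq_span_of_sep hprime hsep _ _ hπ₁ hπ₂ hP₁ hP₂ hne' _ _ hx hy hrank',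
      Ideal.mem_span_singleton, hπalg] at hmem
    exact hmem
  · intro Q hQ hπQ hQc
    haveI := hQ
    exact TwoPrimes.eq_or_eq_of_sep hprime hsep _ _ hπ₁ hπ₂ hP₁ hP₂ hne' _ _ hx hy hrank' Q
      (by rw [hπalg]; exact hπQ) hQc
  · intro hnormal c
    obtain ⟨r, hr⟩ := TwoPrimes.exists_sub_algebraMap_mem_of_sep hprime hsep hnormal _ _ hπ₁ hπ₂
      hP₁ hP₂ hne' _ hy hrank' c
    exact ⟨r, hr⟩

include hprime hcop hord hrank hg hzZ hne in
/-- **(SAT) without `hwu`**: `p_∞ ∩ p_0 = (ϖ)`. -/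
theorem dvd_of_redInf_redZero (c : Chart O (α u')) (hI : rI c = 0) (hZ : rZ c = 0) :
    piC (α u') ϖ ∣ c :=
  (package ϖ hϖ α hαO σ hσO hσfrac u' U hσu w hwO ℓ hwα hprime hcop hord hrank z g hg hzZ
    hne).1 c hI hZ

include hprime hcop hord hrank hg hzZ hne in
/-- **(SAT) without `hwu`, elementwise** (the shape consumed by `TrivModE.trivMod_of_sat`). -/
theorem sat (x : L) (hx : σ x ∈ GaussDVR.V O E) (hWx : σ (w x) ∈ GaussDVR.V O E)
    (hint : IsIntegral (Algebra.adjoin O {α u'}) x)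
    (h1 : GaussDVR.red O E ⟨σ x, hx⟩ = 0) (h2 : GaussDVR.red O E ⟨σ (w x), hWx⟩ = 0) :
    ∃ c : L, IsIntegral (Algebra.adjoin O {α u'}) c ∧ x = algebraMap O L ϖ * c := by
  obtain ⟨d, hd⟩ := dvd_of_redInf_redZero ϖ hϖ α hαO σ hσO hσfrac u' U hσu w hwO ℓ hwα hprime
    hcop hord hrank z g hg hzZ hne ⟨x, hint⟩ h1 h2
  exact ⟨d, d.2, congrArg (fun z : Chart O (α u') => (z : L)) hd⟩

include hprime hcop hord hrank hg hzZ hne in
/-- The only primes of the chart ring lying over `(ϖ)` of the level-`M` chart ring are the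
kernels of the two reductions (without `hwu`). -/
theorem eq_ker_or_eq_ker (Q : Ideal (Chart O (α u'))) [hQ : Q.IsPrime]
    (hπQ : piC (α u') ϖ ∈ Q) (hQc : ∀ a : Chart O u', ι a ∈ Q → piC u' ϖ ∣ a) :
    Q = RingHom.ker rI ∨ Q = RingHom.ker rZ :=
  (package ϖ hϖ α hαO σ hσO hσfrac u' U hσu w hwO ℓ hwα hprime hcop hord hrank z g hg hzZ
    hne).2.1 Q hQ hπQ hQc

include hprime hcop hord hrank hg hzZ hne in
/-- **(ONTO) without `hwu`**: `C / p_∞ = R / ϖ` when the special fibre of the level-`M` chart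
is normal. -/
theorem exists_redInf_sub_eq_zero
    (hnormal : IsIntegrallyClosed (Chart O u' ⧸ Ideal.span {piC u' ϖ})) (c : Chart O (α u')) :
    ∃ a : Chart O u', rI (c - ι a) = 0 :=
  (package ϖ hϖ α hαO σ hσO hσfrac u' U hσu w hwO ℓ hwα hprime hcop hord hrank z g hg hzZ
    hne).2.2 hnormal c

end Package

end Fermat.Agent.S34.TwoPrimesGaussZ
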