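/-
S34 wiring (helper211): `H.ρ` has unipotent inertia at every prime `q ≠ p` exactly dividing `N`,
from the Eichler–Shimura matrix data `S30.ESData N p`, the extra producer property
`Uni D : (ρ_D(τ) - 1)² = 0` for `τ` in inertia at such `q`, and Frobenius density in power form.

Idea (same pattern as `S31/Glue.lean`): for `τ` in inertia at `q` and `n`, choose a Frobenius
`s` at `ℓ ∉ S` with `s^b = τ` on a finite level containing `μ_{p^(n+k)}`.  Then
`ℓ^b ≡ 1 (mod p^(n+k))`, Lucas gives `ρ_D(τ)² - V_b(t_ℓ) ρ_D(τ) + 1 ≡ 0`, and with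
`ρ_D(τ)² = 2 ρ_D(τ) - 1` we get `(2 - V_b(t_ℓ)) ρ_D(τ) ≡ 0`, so `2 - V_b(t_ℓ) ∈ p^(n+k) M_r(ℤ)`.
Artin–Rees moves this to the Hecke algebra: `tr H.ρ(τ) ≡ tr H.ρ(s^b) = V_b(π T_ℓ) ≡ 2` and
`det H.ρ(τ) ≡ ℓ^b ≡ 1` modulo `𝔪^n`, for all `n`.
-/
import Mathlib
import Fermat.Prelude.Def_CuspForm_HeckeGaloisRepDatum
import Fermat.Prelude.Def_GaloisRep_LocalConditions
import Fermat.Agent.S30.Defs
import Fermat.Agent.S31.Glue

set_option autoImplicit false

noncomputable section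

namespace Fermat.Agent.S34.Glue211

open Fermat.Agent.S30 Fermat.Agent.S31 Fermat.Agent.S31.Lucas Fermat.Agent.S31.Glue
open IsLocalRing Polynomial

/-- The extra producer property for S34: inertia at a prime `q ≠ p` exactly dividing `N` acts
on the Eichler–Shimura lattice through matrices `u` with `(u - 1)² = 0`. -/
def Uni {N p : ℕ} [NeZero N] [Fact p.Prime] (D : ESData N p) : Prop :=
  ∀ q : ℕ, q.Prime → q ∣ N → ¬ q ^ 2 ∣ N → q ≠ p →
    ∀ P : ValuationSubring (AlgebraicClosure ℚ), P.LiesOverPrime q →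
      ∀ σ ∈ P.inertiaSubgroupIn ℚ, (D.ρ σ - 1) * (D.ρ σ - 1) = 0

section General

variable {T V : Type*} [CommRing T] [AddCommGroup V] [Module T V] [Module.Free T V]
  [Module.Finite T V]

/-- The characteristic polynomial of an endomorphism of a free module of rank 2. -/
theorem charpoly_eq_of_finrank_two (h2 : Module.finrank T V = 2) (f : Module.End T V) :
    f.charpoly = X ^ 2 - C (LinearMap.trace T V f) * X + C (LinearMap.det f) := by
  rcases subsingleton_or_nontrivial T with hT | hT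
  · exact Subsingleton.elim _ _
  let b : Module.Basis (Fin 2) T V := Module.finBasisOfFinrankEq T V h2
  rw [← LinearMap.charpoly_toMatrix f b, Matrix.charpoly_fin_two,
    LinearMap.trace_eq_matrix_trace T b, LinearMap.det_toMatrix]

/-- An endomorphism congruent to the identity modulo `I` has determinant `≡ 1` modulo `I`. -/
theorem det_sub_one_mem (I : Ideal T) (f : Module.End T V)
    (h : ∀ v, f v - v ∈ I • (⊤ : Submodule T V)) : LinearMap.det f - 1 ∈ I := by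
  classical
  let e := Module.Free.chooseBasis T V
  have key : ∀ w ∈ I • (⊤ : Submodule T V), ∀ j, e.repr w j ∈ I := by
    intro w hw j
    refine Submodule.smul_induction_on (p := fun w => e.repr w j ∈ I) hw ?_ ?_
    · intro a ha v _
      rw [map_smul, Finsupp.smul_apply, smul_eq_mul]
      exact Ideal.mul_mem_right _ _ ha
    · intro x y hx hy
      rw [map_add, Finsupp.add_apply]
      exact Ideal.add_mem _ hx hy
  rw [← LinearMap.det_toMatrix e f]
  have hM : (Ideal.Quotient.mk I).mapMatrix (LinearMap.toMatrix e e f) = 1 := by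
    ext i j
    rw [RingHom.mapMatrix_apply, Matrix.map_apply, LinearMap.toMatrix_apply]
    have h1 := key _ (h (e j)) i
    rw [map_sub, Finsupp.sub_apply, Module.Basis.repr_self] at h1
    by_cases hij : i = j
    · subst hij
      rw [Finsupp.single_eq_same] at h1
      rw [Matrix.one_apply_eq, ← map_one (Ideal.Quotient.mk I)]
      exact Ideal.Quotient.eq.mpr h1
    · rw [Finsupp.single_eq_of_ne hij, sub_zero] at h1
      rw [Matrix.one_apply_ne hij]
      exact Ideal.Quotient.eq_zero_iff_mem.mpr h1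
  have h3 := RingHom.map_det (Ideal.Quotient.mk I) (LinearMap.toMatrix e e f)
  rw [hM, Matrix.det_one] at h3
  rw [← Ideal.Quotient.eq_zero_iff_mem, map_sub, h3, map_one, sub_self]

end General

section Main

variable {p : ℕ} {N : ℕ} [NeZero N] {S : Finset ℕ}
  {𝒪 : Type} [CommRing 𝒪] [IsDomain 𝒪] [IsDiscreteValuationRing 𝒪]
  [IsAdicComplete (IsLocalRing.maximalIdeal 𝒪) 𝒪]
  {θ : CuspForm.heckeAlgebra N 2 (↑S : Set ℕ) →+* IsLocalRing.ResidueField 𝒪}
  {T : Type} [CommRing T] [IsLocalRing T] [IsNoetherianRing T]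
  [IsAdicComplete (IsLocalRing.maximalIdeal T) T] [Algebra 𝒪 T] [IsLocalHom (algebraMap 𝒪 T)]
  [Module.Finite 𝒪 T] [Module.Free 𝒪 T]

omit [IsNoetherianRing T] [IsAdicComplete (maximalIdeal T) T] [Module.Finite 𝒪 T]
  [Module.Free 𝒪 T] [IsAdicComplete (maximalIdeal 𝒪) 𝒪] in
theorem natCast_mem_maximalIdeal (hp𝒪 : (p : 𝒪) ∈ maximalIdeal 𝒪) :
    (p : T) ∈ maximalIdeal T := by
  have h1 : (p : T) = algebraMap 𝒪 T (p : 𝒪) := (map_natCast _ _).symm
  rw [h1, mem_maximalIdeal, mem_nonunits_iff]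
  intro hu
  exact hp𝒪 (isUnit_of_map_unit (algebraMap 𝒪 T) _ hu)

/-- **Artin–Rees transfer**: a polynomial in the Hecke operators whose matrix on the
Eichler–Shimura lattice vanishes modulo `p^(n+k)` maps into `𝔪_T^n`. -/
theorem exists_transfer [Fact p.Prime] (hp𝒪 : (p : 𝒪) ∈ maximalIdeal 𝒪) (hpS : p ∈ S)
    (H : CuspForm.HeckeGaloisRepDatum N (↑S : Set ℕ) 𝒪 θ T) (D : ESData N p) :
    ∃ k : ℕ, ∀ (n : ℕ) (Q : MvPolynomial (Idx N S) ℤ),
      red D (n + k) (mp D S Q) = 0 → H.π (a2 (N := N) S Q) ∈ maximalIdeal T ^ n := by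
  have hpT : (p : T) ∈ maximalIdeal T := natCast_mem_maximalIdeal hp𝒪
  obtain ⟨k, hk⟩ := Ideal.exists_pow_inf_eq_pow_smul (Ideal.span {(p : ℤ)})
    (Subalgebra.toSubmodule (Rt D S))
  refine ⟨k, fun n Q h1 => ?_⟩
  have hentry : ∀ i j, ((p ^ (n + k) : ℕ) : ℤ) ∣ m1 D S Q i j := by
    intro i j
    have h2 := congrFun (congrFun h1 i) j
    rw [red, RingHom.mapMatrix_apply, Matrix.map_apply, Matrix.zero_apply,
      Ideal.Quotient.eq_zero_iff_mem, Ideal.mem_span_singleton, mp_apply,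
      PadicInt.pow_p_dvd_int_iff] at h2
    rw [Nat.cast_pow]
    exact h2
  have hd1 : m1 D S Q ∈ Ideal.span {(p : ℤ)} ^ (n + k) •
      (⊤ : Submodule ℤ (Matrix (Fin D.r) (Fin D.r) ℤ)) := by
    have h1 : m1 D S Q = ((p : ℤ) ^ (n + k)) •
        (Matrix.of fun i j => m1 D S Q i j / (p : ℤ) ^ (n + k)) := by
      ext i j
      rw [Matrix.smul_apply, Matrix.of_apply, smul_eq_mul]
      have := hentry i j
      rw [Nat.cast_pow] at this
      exact (Int.mul_ediv_cancel' this).symm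
    rw [h1]
    exact Submodule.smul_mem_smul (Ideal.pow_mem_pow (Ideal.mem_span_singleton_self _) _)
      Submodule.mem_top
  have hd2 : m1 D S Q ∈ Ideal.span {(p : ℤ)} ^ n • Subalgebra.toSubmodule (Rt D S) := by
    have h1 : m1 D S Q ∈ Ideal.span {(p : ℤ)} ^ (n + k) •
        (⊤ : Submodule ℤ (Matrix (Fin D.r) (Fin D.r) ℤ)) ⊓ Subalgebra.toSubmodule (Rt D S) :=
      ⟨hd1, m1_mem D S _⟩
    rw [hk (n + k) (Nat.le_add_left k n), Nat.add_sub_cancel] at h1
    exact Submodule.smul_mono le_rfl inf_le_right h1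
  rw [Ideal.span_singleton_pow, Submodule.ideal_span_singleton_smul] at hd2
  obtain ⟨e, he, hed⟩ := (Submodule.mem_smul_pointwise_iff_exists _ _ _).mp hd2
  obtain ⟨Q', hQ'⟩ := m1_surjective D S he
  have h0 : a1 D S (Q - (p : MvPolynomial (Idx N S) ℤ) ^ n * Q') = 0 := by
    rw [← m1_eq_zero_iff, map_sub, map_mul, map_pow, map_natCast, hQ', ← hed, zsmul_eq_mul]
    push_cast
    exact sub_self _
  have h2 := a2_eq_zero_of_a1_eq_zero D S hpS _ h0
  have h3 : H.π (a2 (N := N) S (Q - (p : MvPolynomial (Idx N S) ℤ) ^ n * Q')) = 0 := by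
    rw [h2, map_zero]
  rw [map_sub, map_sub, map_mul, map_mul, map_pow, map_pow, map_natCast, map_natCast,
    sub_eq_zero] at h3
  rw [h3]
  exact Ideal.mul_mem_right _ _ (Ideal.pow_mem_pow hpT n)

/-- Trace and determinant of `H.ρ` on inertia at a prime `q ≠ p` exactly dividing `N`. -/
theorem trace_det_of_uni [Fact p.Prime] (hp𝒪 : (p : 𝒪) ∈ maximalIdeal 𝒪) (hpS : p ∈ S)
    (hNS : ∀ q : ℕ, q.Prime → q ∣ N → q ∈ S)
    (H : CuspForm.HeckeGaloisRepDatum N (↑S : Set ℕ) 𝒪 θ T)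
    (D : ESData N p) (hU : Uni D) (hdens : FrobDensity)
    (q : ℕ) (hq : q.Prime) (hqp : q ≠ p) (hqN : q ∣ N) (hq2 : ¬ q ^ 2 ∣ N)
    (P : ValuationSubring (AlgebraicClosure ℚ)) (hP : P.LiesOverPrime q)
    (τ : GQ) (hτ : τ ∈ P.inertiaSubgroupIn ℚ) :
    LinearMap.trace T H.ρ.V (H.ρ.ρ τ) = 2 ∧ LinearMap.det (H.ρ.ρ τ) = 1 := by
  have hp : p.Prime := Fact.out
  have hpT : (p : T) ∈ maximalIdeal T := natCast_mem_maximalIdeal hp𝒪
  have hu : (D.ρ τ - 1) * (D.ρ τ - 1) = 0 := hU q hq hqN hq2 hqp P hP τ hτ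
  obtain ⟨k, hk⟩ := exists_transfer hp𝒪 hpS H D
  have hmain : ∀ n : ℕ, LinearMap.trace T H.ρ.V (H.ρ.ρ τ) - 2 ∈ maximalIdeal T ^ n ∧
      LinearMap.det (H.ρ.ρ τ) - 1 ∈ maximalIdeal T ^ n := by
    intro n
    obtain ⟨L₁, hL₁fd, hL₁⟩ := D.cont (n + k)
    obtain ⟨L₂, hL₂fd, hL₂⟩ := H.ρ.isAdicContinuous n
    obtain ⟨ζ, hζ⟩ := HasEnoughRootsOfUnity.exists_primitiveRoot (AlgebraicClosure ℚ)
      (p ^ (n + k))
    let L₃ : IntermediateField ℚ (AlgebraicClosure ℚ) := IntermediateField.adjoin ℚ {ζ}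
    have : FiniteDimensional ℚ L₃ :=
      IntermediateField.adjoin.finiteDimensional
        ((AlgebraicClosure.isAlgebraic ℚ).isAlgebraic ζ).isIntegral
    have := hL₁fd
    have := hL₂fd
    let L : IntermediateField ℚ (AlgebraicClosure ℚ) := L₁ ⊔ L₂ ⊔ L₃
    have hL₁L : L₁ ≤ L := le_sup_left.trans le_sup_left
    have hL₂L : L₂ ≤ L := le_sup_right.trans le_sup_left
    have hζL : ζ ∈ L :=
      (le_sup_right : L₃ ≤ L) (IntermediateField.mem_adjoin_simple_self ℚ ζ)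
    obtain ⟨ℓ, A, s, b, hℓ, hℓS, hA, hs, -, hg⟩ := hdens L S τ
    have hℓp : p ≠ ℓ := fun h => hℓS (h ▸ hpS)
    let i : Idx N S := ⟨ℓ, hℓ, fun h => hℓS (hNS ℓ hℓ h), fun h => hℓS (Finset.mem_coe.mp h)⟩
    let P₁ : MvPolynomial (Idx N S) ℤ :=
      lucasV (MvPolynomial.X i) (ℓ : MvPolynomial (Idx N S) ℤ) b
    -- `ℓ ^ b ≡ 1` modulo `p ^ (n + k)`
    have hζ1 : ζ ^ p ^ (n + k) = 1 := hζ.pow_eq_one
    have hζ0 : ζ ≠ 0 := hζ.ne_zero (pow_ne_zero _ hp.ne_zero)
    have hτζ : ζ = ζ ^ (ℓ ^ b) := by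
      have h1 : τ ζ = ζ := RootsUnity.inertia_apply_root P hq hp hqp.symm hP τ hτ ζ hζ1
      rw [← hg ζ hζL] at h1
      rw [← pow_apply_root s ζ ℓ
        (RootsUnity.frobenius_apply_root A hℓ hp hℓp hA s hs ζ hζ1) b]
      exact h1.symm
    have hdvd : ((p ^ (n + k) : ℕ) : ℤ) ∣ ((ℓ ^ b : ℕ) : ℤ) - 1 := by
      rw [← hζ.zpow_eq_one_iff_dvd, zpow_sub₀ hζ0, zpow_natCast, zpow_one, ← hτζ]
      exact div_self hζ0
    obtain ⟨e, he⟩ := hdvd
    have hconst : ((ℓ ^ b : ℕ) : Matrix (Fin D.r) (Fin D.r) (Qn p (n + k))) = 1 := by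
      have h1 : ((ℓ ^ b : ℕ) : Qn p (n + k)) = 1 := by
        have h2 : (((ℓ ^ b : ℕ) : ℤ) : Qn p (n + k)) - 1 = 0 := by
          rw [← Int.cast_one (R := Qn p (n + k)), ← Int.cast_sub, he, Int.cast_mul,
            Int.cast_natCast]
          have h3 : ((p ^ (n + k) : ℕ) : Qn p (n + k)) = 0 := by
            have : ((p ^ (n + k) : ℕ) : Qn p (n + k)) =
                Ideal.Quotient.mk (Ideal.span {(p : ℤ_[p]) ^ (n + k)}) ((p : ℤ_[p]) ^ (n + k)) := by
              rw [Nat.cast_pow, map_pow, map_natCast]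
            rw [this]
            exact Ideal.Quotient.eq_zero_iff_mem.mpr (Ideal.mem_span_singleton_self _)
          rw [h3, zero_mul]
        rw [Int.cast_natCast, sub_eq_zero] at h2
        exact h2
      rw [← map_natCast (Matrix.scalar (Fin D.r)) (ℓ ^ b), h1, map_one]
    -- the Lucas relation for `τ`
    have hV := vside D S (n + k) L₁ hL₁ hpS i A hA s hs b τ (fun x hx => hg x (hL₁L hx))
    rw [hconst] at hV
    have hu' : red D (n + k) (D.ρ τ) * red D (n + k) (D.ρ τ) =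
        2 * red D (n + k) (D.ρ τ) - 1 := by
      have h1 := congrArg (red D (n + k)) hu
      rw [map_mul, map_sub, map_one, map_zero] at h1
      have h2 : (red D (n + k) (D.ρ τ) - 1) * (red D (n + k) (D.ρ τ) - 1) =
          red D (n + k) (D.ρ τ) * red D (n + k) (D.ρ τ) - 2 * red D (n + k) (D.ρ τ) + 1 := by
        noncomm_ring
      rw [h2] at h1
      rw [← sub_eq_zero, ← h1]
      abel
    have hYY' : red D (n + k) (D.ρ τ) * red D (n + k) (D.ρ τ⁻¹) = 1 := by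
      rw [← map_mul, ← map_mul, mul_inv_cancel, map_one, map_one]
    have hm : red D (n + k) (mp D S (2 - P₁)) = 0 := by
      have h1 : (2 - red D (n + k) (mp D S P₁)) * red D (n + k) (D.ρ τ) = 0 := by
        have h3 : 2 * red D (n + k) (D.ρ τ) =
            red D (n + k) (D.ρ τ) * red D (n + k) (D.ρ τ) + 1 := by
          rw [hu']; abel
        rw [sub_mul, h3, ← hV]
        abel
      have h2 : 2 - red D (n + k) (mp D S P₁) = 0 := by
        calc 2 - red D (n + k) (mp D S P₁)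
            = (2 - red D (n + k) (mp D S P₁)) * red D (n + k) (D.ρ τ)
                * red D (n + k) (D.ρ τ⁻¹) := by rw [mul_assoc, hYY', mul_one]
          _ = 0 := by rw [h1, zero_mul]
      rw [map_sub, map_sub, map_ofNat, map_ofNat]
      exact h2
    have hψmem := hk n (2 - P₁) hm
    let ψ : MvPolynomial (Idx N S) ℤ →+* T := H.π.comp (a2 (N := N) S).toRingHom
    have hψX : ψ (MvPolynomial.X i) = H.π (CuspForm.heckeAlgebra.T i.2.1 i.2.2.1 i.2.2.2) := by
      simp [ψ, a2]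
    have hψ₁ : ψ P₁ = LinearMap.trace T H.ρ.V (H.ρ.ρ (s ^ b)) := by
      rw [map_pow, trace_pow_eq_lucasV H.ρ.finrank_eq (H.ρ.ρ s) _ _
        (H.charpoly_frob ℓ hℓ i.2.2.1 i.2.2.2 A hA s hs) b]
      show ψ (lucasV _ _ b) = _
      rw [map_lucasV, hψX, map_natCast]
    have hψ2 : (2 : T) - ψ P₁ ∈ maximalIdeal T ^ n := by
      have h1 : H.π (a2 (N := N) S (2 - P₁)) = 2 - ψ P₁ := by
        rw [map_sub, map_sub, map_ofNat, map_ofNat]
        rfl
      rw [← h1]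
      exact hψmem
    have hc := trace_sub_mem H.ρ n L₂ hL₂ (s ^ b) τ (fun x hx => hg x (hL₂L hx))
    rw [← hψ₁] at hc
    refine ⟨?_, ?_⟩
    · have hfin : LinearMap.trace T H.ρ.V (H.ρ.ρ τ) - 2 =
          (LinearMap.trace T H.ρ.V (H.ρ.ρ τ) - ψ P₁) - (2 - ψ P₁) := by ring
      rw [hfin]
      exact Ideal.sub_mem _ hc hψ2
    · -- determinant
      have hdet_s : LinearMap.det (H.ρ.ρ s) = (ℓ : T) := by
        have h1 := H.charpoly_frob ℓ hℓ i.2.2.1 i.2.2.2 A hA s hs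
        rw [charpoly_eq_of_finrank_two H.ρ.finrank_eq] at h1
        have h2 := congrArg (fun P => Polynomial.coeff P 0) h1
        simpa [Polynomial.coeff_C] using h2
      have hσ : ∀ x ∈ L₂, ((s ^ b)⁻¹ * τ) x = x := by
        intro x hx
        rw [AlgEquiv.mul_apply, ← hg x (hL₂L hx)]
        exact (s ^ b).symm_apply_apply x
      have h1 : τ = s ^ b * ((s ^ b)⁻¹ * τ) := by group
      have hdσ : LinearMap.det (H.ρ.ρ ((s ^ b)⁻¹ * τ)) - 1 ∈ maximalIdeal T ^ n :=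
        det_sub_one_mem _ _ (hL₂ _ hσ)
      have hℓb : ((ℓ : T) ^ b) - 1 ∈ maximalIdeal T ^ n := by
        have h2 : ((ℓ : T) ^ b) - 1 = (((p ^ (n + k) : ℕ) : ℤ) * e : ℤ) := by
          rw [← he]
          push_cast
          ring
        rw [h2]
        push_cast
        refine Ideal.mul_mem_right _ _ ?_
        rw [pow_add]
        exact Ideal.mul_mem_right _ _ (Ideal.pow_mem_pow hpT n)
      have hdτ : LinearMap.det (H.ρ.ρ τ) =
          (ℓ : T) ^ b * LinearMap.det (H.ρ.ρ ((s ^ b)⁻¹ * τ)) := by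
        conv_lhs => rw [h1, map_mul, map_mul, map_pow, map_pow, hdet_s]
      have hfin : LinearMap.det (H.ρ.ρ τ) - 1 =
          (ℓ : T) ^ b * (LinearMap.det (H.ρ.ρ ((s ^ b)⁻¹ * τ)) - 1) + ((ℓ : T) ^ b - 1) := by
        rw [hdτ]; ring
      rw [hfin]
      exact Ideal.add_mem _ (Ideal.mul_mem_left _ _ hdσ) hℓb
  -- Krull's intersection theorem
  have hbot : (⨅ n : ℕ, maximalIdeal T ^ n) = ⊥ :=
    Ideal.iInf_pow_eq_bot_of_isLocalRing (maximalIdeal T) Ideal.IsPrime.ne_top'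
  constructor
  · have hmem : LinearMap.trace T H.ρ.V (H.ρ.ρ τ) - 2 ∈ (⨅ n : ℕ, maximalIdeal T ^ n) :=
      (Ideal.mem_iInf).mpr fun n => (hmain n).1
    rw [hbot, Ideal.mem_bot] at hmem
    exact sub_eq_zero.mp hmem
  · have hmem : LinearMap.det (H.ρ.ρ τ) - 1 ∈ (⨅ n : ℕ, maximalIdeal T ^ n) :=
      (Ideal.mem_iInf).mpr fun n => (hmain n).2
    rw [hbot, Ideal.mem_bot] at hmem
    exact sub_eq_zero.mp hmem

/-- **S34 from the S30 engine input + `Uni`**: `H.ρ` is unipotent on inertia at every prime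
`q ≠ p` exactly dividing `N`. -/
theorem isUnipotentOnInertiaAt_of_esData_uni (hp : p.Prime)
    (hp𝒪 : (p : 𝒪) ∈ IsLocalRing.maximalIdeal 𝒪) (hpS : p ∈ S)
    (hNS : ∀ q : ℕ, q.Prime → q ∣ N → q ∈ S)
    (H : CuspForm.HeckeGaloisRepDatum N (↑S : Set ℕ) 𝒪 θ T)
    (q : ℕ) (hq : q.Prime) (hqp : q ≠ p) (hqN : q ∣ N) (hq2 : ¬ q ^ 2 ∣ N)
    (D : @ESData N p _ ⟨hp⟩) (hU : @Uni N p _ ⟨hp⟩ D) (hdens : FrobDensity) :
    H.ρ.IsUnipotentOnInertiaAt q := by
  have : Fact p.Prime := ⟨hp⟩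
  intro P hP τ hτ
  obtain ⟨htr, hdet⟩ := trace_det_of_uni hp𝒪 hpS hNS H D hU hdens q hq hqp hqN hq2 P hP τ hτ
  rw [charpoly_eq_of_finrank_two H.ρ.finrank_eq, htr, hdet]
  simp only [map_ofNat, map_one]
  ring

end Main

end Fermat.Agent.S34.Glue211

end
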