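/-
S34 producer side, LIMIT half of brick SSf (helper34).

`BettiLimit.nonempty_esData` / `KummerSystem.nonempty_esData` only return
`Nonempty (ESData N p)`: the `p`-adic matrices are hidden, so no extra relation can be
transported to the Eichler–Shimura data.  This file re-exposes the limit (nothing frozen is
edited):

* `exists_esData_spec` : the hypotheses of `BettiLimit.nonempty_esData` give `D : ESData N p`
  TOGETHER WITH coordinates `a`, `e` such that `D.ρ σ` reduces to `BettiLimit.rhoN a e act n σ`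
  modulo every `p ^ n` and `D.t ℓ = BettiLimit.tmat a e τ ℓ` at the good primes.  Any integral
  polynomial relation among the `act n σ` and the `τ ℓ` therefore passes to `D`.
* `exists_esData_rel` : the form used below: a set `U` of Galois elements acting on every
  `Hom(A, ℤ/p^n)` with `k • (σ - 1)² = 0` (`k ≥ 1` fixed) acts on `D` with `(ρ σ - 1)² = 0`.
* `KummerUni K`, `KummerUniExp K k` : the function-level exit statement of the geometric part
  of S34 (`τ² f · f = (τ f)² · g ^ (p^n)` for `τ` in inertia at `q ∥ N`, `q ≠ p`; resp. the same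
  after raising to a fixed power `k ≥ 1`, for the auxiliary-level variant).
* `exists_esData_uni`, `exists_esData_uni_exp` : `∃ D : ESData N p, Glue211.Uni D`, the producer
  contract of `S34/Glue211.isUnipotentOnInertiaAt_of_esData_uni`.
-/
import Mathlib
import Fermat.Agent.S30.BettiLimit
import Fermat.Agent.S30.Producer.ToESData
import Fermat.Agent.S34.Glue211

set_option autoImplicit false

namespace Fermat.Agent.S34.UniLimit

open Fermat.Agent.S30 Fermat.Agent.S30.BettiLimit Fermat.Agent.S30.Producer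

/-! ### 1. The limit, with its coordinates exposed -/

section Spec

variable {N p : ℕ} [NeZero N] [hp : Fact p.Prime]

/-- **`BettiLimit.nonempty_esData` with the construction exposed**: the Eichler–Shimura data
`D` comes with coordinates `a`, `e` of `A` modulo torsion such that `D.ρ σ ≡ rhoN a e act n σ`
modulo `p ^ n` for all `n` and `D.t ℓ = tmat a e τ ℓ` for the good primes `ℓ`. -/
theorem exists_esData_spec (A : Type) [AddCommGroup A] (hA : AddGroup.FG A)
    (τ : ℕ → A →+ A)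
    (hτ : ∀ ℓ ℓ' : ℕ, ℓ.Prime → ¬ ℓ ∣ N → ℓ ≠ p → ℓ'.Prime → ¬ ℓ' ∣ N → ℓ' ≠ p →
      ∀ c : A →+ ℤ, (c.comp (τ ℓ)).comp (τ ℓ') = (c.comp (τ ℓ')).comp (τ ℓ))
    (act : ∀ n : ℕ, GQ →* AddMonoid.End (A →+ ZMod (p ^ n)))
    (act_red : ∀ (n : ℕ) (σ : GQ) (c : A →+ ZMod (p ^ (n + 1))),
      act n σ (red A p n c) = red A p n (act (n + 1) σ c))
    (act_τ : ∀ (n : ℕ) (σ : GQ) (ℓ : ℕ), ℓ.Prime → ¬ ℓ ∣ N → ℓ ≠ p →
      ∀ c : A →+ ZMod (p ^ n), act n σ (c.comp (τ ℓ)) = (act n σ c).comp (τ ℓ))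
    (cont : ∀ n : ℕ, ∃ L : IntermediateField ℚ (AlgebraicClosure ℚ), FiniteDimensional ℚ L ∧
      ∀ σ : GQ, (∀ x ∈ L, σ x = x) → act n σ = 1)
    (unr : ∀ (n : ℕ) (q : ℕ), q.Prime → ¬ q ∣ N → q ≠ p →
      ∀ P : ValuationSubring (AlgebraicClosure ℚ), P.LiesOverPrime q →
        ∀ σ ∈ P.inertiaSubgroupIn ℚ, act n σ = 1)
    (es : ∀ (n : ℕ) (ℓ : ℕ), ℓ.Prime → ¬ ℓ ∣ N → ℓ ≠ p →
      ∀ A' : ValuationSubring (AlgebraicClosure ℚ), A'.LiesOverPrime ℓ →
        ∀ σ : GQ, A'.IsFrobeniusAt σ ℓ →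
          ∀ c : A →+ ZMod (p ^ n), act n σ (act n σ c) - (act n σ c).comp (τ ℓ) + ℓ • c = 0)
    (occ : ∃ P : CuspForm (CongruenceSubgroup.Gamma0 N) 2 →ₗ[ℂ] (A → ℂ),
      (∀ f a b, P f (a + b) = P f a + P f b) ∧ Function.Injective P ∧
        ∀ (ℓ : ℕ) (hℓ : ℓ.Prime) (hℓN : ¬ ℓ ∣ N), ℓ ≠ p →
          ∀ f a, P (CuspForm.heckeTLin 2 hℓ hℓN f) a = P f (τ ℓ a)) :
    ∃ (D : ESData N p) (a : Fin D.r → A) (e : Fin D.r → (A →+ ℤ)),
      (∀ i j, e j (a i) = if i = j then 1 else 0) ∧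
      (∀ (M : Type) [AddCommGroup M] [Module.IsTorsionFree ℤ M] (c : A →+ M) (x : A),
         c x = ∑ i, e i x • c (a i)) ∧
      (∀ (σ : GQ) (n : ℕ), (PadicInt.toZModPow n).mapMatrix (D.ρ σ) = rhoN a e act n σ) ∧
      (∀ ℓ : ℕ, ℓ.Prime → ¬ ℓ ∣ N → ℓ ≠ p → D.t ℓ = tmat a e τ ℓ) := by
  classical
  obtain ⟨r, a, e, he, hexp⟩ := exists_coords A hA
  -- the limit matrices
  have hex : ∀ (σ : GQ) (i j : Fin r), ∃ y : ℤ_[p],
      ∀ n, PadicInt.toZModPow n y = rhoN a e act n σ i j :=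
    fun σ i j => exists_limit (fun n => rhoN a e act n σ i j) (rhoN_compat a e act act_red σ i j)
  choose ρ hρ using hex
  have hmap : ∀ (σ : GQ) (n : ℕ),
      (PadicInt.toZModPow n).mapMatrix (Matrix.of (ρ σ)) = rhoN a e act n σ := by
    intro σ n
    ext i j
    exact hρ σ i j n
  let ρh : GQ →* Matrix (Fin r) (Fin r) ℤ_[p] :=
    { toFun := fun σ => Matrix.of (ρ σ)
      map_one' := by
        refine padic_matrix_ext fun n => ?_
        rw [hmap, rhoN_one a e act he, map_one]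
      map_mul' := by
        intro σ τ'
        refine padic_matrix_ext fun n => ?_
        rw [map_mul, hmap, hmap, hmap, rhoN_mul a e act hexp act_red] }
  have hρm : ∀ (σ : GQ) (n : ℕ), (PadicInt.toZModPow n).mapMatrix (ρh σ) = rhoN a e act n σ :=
    hmap
  -- the Hecke matrices
  let good : ℕ → Prop := fun ℓ => ℓ.Prime ∧ ¬ ℓ ∣ N ∧ ℓ ≠ p
  let t : ℕ → Matrix (Fin r) (Fin r) ℤ := fun ℓ => if good ℓ then tmat a e τ ℓ else 0
  have ht : ∀ ℓ, good ℓ → t ℓ = tmat a e τ ℓ := fun ℓ h => if_pos h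
  have ht0 : ∀ ℓ, ¬ good ℓ → t ℓ = 0 := fun ℓ h => if_neg h
  have hTm : ∀ (M : Matrix (Fin r) (Fin r) ℤ) (n : ℕ),
      (PadicInt.toZModPow n).mapMatrix (M.map (Int.castRingHom ℤ_[p])) =
        M.map (Int.castRingHom (ZMod (p ^ n))) := by
    intro M n
    ext i j
    simp
  refine ⟨{ r := r, t := t, ρ := ρh, t_comm := ?_, ρ_comm := ?_, cont := ?_, unr := ?_,
            es := ?_, occ := ?_ }, a, e, he, hexp, hρm, fun ℓ h1 h2 h3 => ht ℓ ⟨h1, h2, h3⟩⟩
  · -- t_comm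
    intro ℓ ℓ'
    by_cases h : good ℓ
    · by_cases h' : good ℓ'
      · rw [ht ℓ h, ht ℓ' h']
        exact tmat_comm a e hexp τ ℓ ℓ' (hτ ℓ ℓ' h.1 h.2.1 h.2.2 h'.1 h'.2.1 h'.2.2)
      · rw [ht0 ℓ' h']
        exact Commute.zero_right _
    · rw [ht0 ℓ h]
      exact Commute.zero_left _
  · -- ρ_comm
    intro σ ℓ
    by_cases h : good ℓ
    · rw [ht ℓ h]
      show ρh σ * _ = _ * ρh σ
      refine padic_matrix_ext fun n => ?_
      rw [map_mul, map_mul, hρm, hTm]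
      exact (rhoN_comm a e act hexp act_red τ n σ ℓ (act_τ n σ ℓ h.1 h.2.1 h.2.2)).eq
    · rw [ht0 ℓ h]
      have : (0 : Matrix (Fin r) (Fin r) ℤ).map (Int.castRingHom ℤ_[p]) = 0 := by
        ext i j
        simp
      rw [this]
      exact Commute.zero_right _
  · -- cont
    intro n
    obtain ⟨L, hL, h⟩ := cont n
    refine ⟨L, hL, fun σ hσ i j => ?_⟩
    rw [← PadicInt.ker_toZModPow, RingHom.mem_ker]
    have h1 : (PadicInt.toZModPow n).mapMatrix (ρh σ - 1) = 0 := by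
      rw [map_sub, hρm, rhoN_eq_one_of_act a e act he n σ (h σ hσ), map_one, sub_self]
    exact congrFun (congrFun h1 i) j
  · -- unr
    intro q hq hqN hqp P hP σ hσ
    refine padic_matrix_ext fun n => ?_
    rw [hρm, map_one]
    exact rhoN_eq_one_of_act a e act he n σ (unr n q hq hqN hqp P hP σ hσ)
  · -- es
    intro ℓ hℓ hℓN hℓp A' hA' σ hσ
    rw [ht ℓ ⟨hℓ, hℓN, hℓp⟩]
    refine padic_matrix_ext fun n => ?_
    rw [map_zero, map_add, map_sub, map_mul, map_mul, hρm, hTm, map_natCast]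
    exact rhoN_es a e act hexp act_red he τ n σ ℓ (es n ℓ hℓ hℓN hℓp A' hA' σ hσ)
  · -- occ
    obtain ⟨P, hadd, hinj, hT⟩ := occ
    have hP : ∀ (f : CuspForm (CongruenceSubgroup.Gamma0 N) 2) (x : A),
        P f x = ∑ i, e i x • P f (a i) := fun f x =>
      hexp ℂ (AddMonoidHom.mk' (P f) (hadd f)) x
    refine ⟨LinearMap.pi fun i => (LinearMap.proj (a i)).comp P, ?_, ?_⟩
    · intro f g hfg
      apply hinj
      funext x
      rw [hP f x, hP g x]
      refine Finset.sum_congr rfl fun i _ => ?_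
      have := congrFun hfg i
      simp only [LinearMap.pi_apply, LinearMap.coe_comp, Function.comp_apply,
        LinearMap.proj_apply] at this
      rw [this]
    · intro ℓ hℓ hℓN hℓp f
      rw [ht ℓ ⟨hℓ, hℓN, hℓp⟩]
      funext k
      simp only [LinearMap.pi_apply, LinearMap.coe_comp, Function.comp_apply,
        LinearMap.proj_apply, Matrix.mulVec, dotProduct, Matrix.map_apply, Int.coe_castRingHom]
      rw [hT ℓ hℓ hℓN hℓp f (a k), hP f (τ ℓ (a k))]
      refine Finset.sum_congr rfl fun i _ => ?_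
      rw [zsmul_eq_mul, tmat_apply]

end Spec

/-! ### 2. Transport of the relation `k • (σ - 1)² = 0` -/

section Transport

variable {p : ℕ} [hp : Fact p.Prime] {A : Type} [AddCommGroup A] {r : ℕ}
  (a : Fin r → A) (e : Fin r → (A →+ ℤ))
  (act : ∀ n : ℕ, GQ →* AddMonoid.End (A →+ ZMod (p ^ n)))

/-- Level `n`: if `k • (σ - 1)² = 0` on `Hom(A, ℤ/p^n)` then `k • (ρ_n(σ) - 1)² = 0`. -/
theorem rhoN_rel
    (hexp : ∀ (M : Type) [AddCommGroup M] [Module.IsTorsionFree ℤ M] (c : A →+ M) (x : A),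
      c x = ∑ i, e i x • c (a i))
    (act_red : ∀ (n : ℕ) (σ : GQ) (c : A →+ ZMod (p ^ (n + 1))),
      act n σ (red A p n c) = red A p n (act (n + 1) σ c))
    (he : ∀ i j, e j (a i) = if i = j then 1 else 0)
    (k n : ℕ) (σ : GQ)
    (h : ∀ c : A →+ ZMod (p ^ n), k • (act n σ (act n σ c) + c) = (2 * k) • act n σ c) :
    k • ((rhoN a e act n σ - 1) * (rhoN a e act n σ - 1)) = 0 := by
  classical
  have hsq : (rhoN a e act n σ - 1) * (rhoN a e act n σ - 1) =
      rhoN a e act n σ * rhoN a e act n σ + 1 - 2 • rhoN a e act n σ := by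
    rw [sub_mul, mul_sub, mul_one, one_mul, two_nsmul]
    abel
  ext i j
  have h1 := DFunLike.congr_fun (h (ebar e p n j)) (a i)
  have h2 : act n σ (act n σ (ebar e p n j)) (a i) =
      (rhoN a e act n σ * rhoN a e act n σ) i j := by
    rw [← rhoN_mul a e act hexp act_red, rhoN_apply, map_mul, AddMonoid.End.coe_mul,
      Function.comp_apply]
  have h3 : ebar e p n j (a i) = (1 : Matrix (Fin r) (Fin r) (ZMod (p ^ n))) i j := by
    rw [ebar_apply, he, Matrix.one_apply]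
    split_ifs <;> simp
  rw [AddMonoidHom.nsmul_apply, AddMonoidHom.add_apply, AddMonoidHom.nsmul_apply, h2, h3,
    ← rhoN_apply a e act n σ i j] at h1
  rw [hsq, Matrix.smul_apply, Matrix.sub_apply, Matrix.add_apply, Matrix.smul_apply,
    Matrix.zero_apply, smul_sub, h1, smul_smul, mul_comm k 2, sub_self]

end Transport

section Rel

variable {N p : ℕ} [NeZero N] [hp : Fact p.Prime]

/-- In `M_r(ℤ_p)`: a matrix all of whose reductions modulo `p ^ n` are killed by a fixed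
`k ≥ 1` is zero. -/
theorem padic_matrix_eq_zero_of_nsmul {r : ℕ} (M : Matrix (Fin r) (Fin r) ℤ_[p]) (k : ℕ)
    (hk : 0 < k) (h : ∀ n : ℕ, k • (PadicInt.toZModPow n).mapMatrix M = 0) : M = 0 := by
  have h0 : k • M = 0 := by
    refine padic_matrix_ext fun n => ?_
    rw [map_nsmul, h n, map_zero]
  ext i j
  have h1 := congrFun (congrFun h0 i) j
  rw [Matrix.smul_apply, Matrix.zero_apply, nsmul_eq_mul] at h1
  rcases mul_eq_zero.1 h1 with h2 | h2
  · exact absurd (Nat.cast_eq_zero.1 h2) hk.ne'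
  · exact h2

/-- **Limit with a transported relation.**  Under the hypotheses of
`BettiLimit.nonempty_esData`, if every `σ` in a set `U` satisfies `k • (σ - 1)² = 0` on all the
groups `Hom(A, ℤ/p^n)` (for one `k ≥ 1`), then the Eichler–Shimura data can be chosen with
`(ρ σ - 1)² = 0` for all `σ ∈ U`. -/
theorem exists_esData_rel (A : Type) [AddCommGroup A] (hA : AddGroup.FG A)
    (τ : ℕ → A →+ A)
    (hτ : ∀ ℓ ℓ' : ℕ, ℓ.Prime → ¬ ℓ ∣ N → ℓ ≠ p → ℓ'.Prime → ¬ ℓ' ∣ N → ℓ' ≠ p →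
      ∀ c : A →+ ℤ, (c.comp (τ ℓ)).comp (τ ℓ') = (c.comp (τ ℓ')).comp (τ ℓ))
    (act : ∀ n : ℕ, GQ →* AddMonoid.End (A →+ ZMod (p ^ n)))
    (act_red : ∀ (n : ℕ) (σ : GQ) (c : A →+ ZMod (p ^ (n + 1))),
      act n σ (red A p n c) = red A p n (act (n + 1) σ c))
    (act_τ : ∀ (n : ℕ) (σ : GQ) (ℓ : ℕ), ℓ.Prime → ¬ ℓ ∣ N → ℓ ≠ p →
      ∀ c : A →+ ZMod (p ^ n), act n σ (c.comp (τ ℓ)) = (act n σ c).comp (τ ℓ))
    (cont : ∀ n : ℕ, ∃ L : IntermediateField ℚ (AlgebraicClosure ℚ), FiniteDimensional ℚ L ∧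
      ∀ σ : GQ, (∀ x ∈ L, σ x = x) → act n σ = 1)
    (unr : ∀ (n : ℕ) (q : ℕ), q.Prime → ¬ q ∣ N → q ≠ p →
      ∀ P : ValuationSubring (AlgebraicClosure ℚ), P.LiesOverPrime q →
        ∀ σ ∈ P.inertiaSubgroupIn ℚ, act n σ = 1)
    (es : ∀ (n : ℕ) (ℓ : ℕ), ℓ.Prime → ¬ ℓ ∣ N → ℓ ≠ p →
      ∀ A' : ValuationSubring (AlgebraicClosure ℚ), A'.LiesOverPrime ℓ →
        ∀ σ : GQ, A'.IsFrobeniusAt σ ℓ →
          ∀ c : A →+ ZMod (p ^ n), act n σ (act n σ c) - (act n σ c).comp (τ ℓ) + ℓ • c = 0)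
    (occ : ∃ P : CuspForm (CongruenceSubgroup.Gamma0 N) 2 →ₗ[ℂ] (A → ℂ),
      (∀ f a b, P f (a + b) = P f a + P f b) ∧ Function.Injective P ∧
        ∀ (ℓ : ℕ) (hℓ : ℓ.Prime) (hℓN : ¬ ℓ ∣ N), ℓ ≠ p →
          ∀ f a, P (CuspForm.heckeTLin 2 hℓ hℓN f) a = P f (τ ℓ a))
    (U : Set GQ) (k : ℕ) (hk : 0 < k)
    (hU : ∀ σ ∈ U, ∀ (n : ℕ) (c : A →+ ZMod (p ^ n)),
      k • (act n σ (act n σ c) + c) = (2 * k) • act n σ c) :
    ∃ D : ESData N p, ∀ σ ∈ U, (D.ρ σ - 1) * (D.ρ σ - 1) = 0 := by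
  obtain ⟨D, a, e, he, hexp, hρ, -⟩ :=
    exists_esData_spec A hA τ hτ act act_red act_τ cont unr es occ
  refine ⟨D, fun σ hσ => padic_matrix_eq_zero_of_nsmul _ k hk fun n => ?_⟩
  rw [map_mul, map_sub, map_one, hρ]
  exact rhoN_rel a e act hexp act_red he k n σ (hU σ hσ n)

end Rel

/-! ### 3. The Kummer system with unipotent inertia -/

section Kummer

variable {N p : ℕ} [NeZero N] [hp : Fact p.Prime]

/-- The function-level exit statement of the geometric part of S34, with a fixed exponent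
`k`: for `σ` in an inertia group at a prime `q ≠ p` exactly dividing `N` and every Kummer
function `f` of exponent `p ^ n`, the function `(σ² f · f) ^ k` is `(σ f) ^ (2 k)` times a
`p ^ n`-th power (i.e. `k • (σ - 1)² = 0` on the Kummer classes). -/
def KummerUniExp (K : KummerSystem N p) (k : ℕ) : Prop :=
  ∀ q : ℕ, q.Prime → q ∣ N → ¬ q ^ 2 ∣ N → q ≠ p →
    ∀ P : ValuationSubring Qb, P.LiesOverPrime q → ∀ σ ∈ P.inertiaSubgroupIn ℚ,
      ∀ (n : ℕ) (f : FN N) (c : K.A →+ ZMod (p ^ n)), K.R n f c →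
        ∃ g : FN N, (galF N σ (galF N σ f) * f) ^ k = galF N σ f ^ (2 * k) * g ^ (p ^ n)

/-- The function-level exit statement of the geometric part of S34: `σ² f · f` is `(σ f)²`
times a `p ^ n`-th power, for `σ` in an inertia group at a prime `q ≠ p` exactly dividing `N`
(i.e. `(σ - 1)² = 0` on the Kummer classes). -/
def KummerUni (K : KummerSystem N p) : Prop :=
  ∀ q : ℕ, q.Prime → q ∣ N → ¬ q ^ 2 ∣ N → q ≠ p →
    ∀ P : ValuationSubring Qb, P.LiesOverPrime q → ∀ σ ∈ P.inertiaSubgroupIn ℚ,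
      ∀ (n : ℕ) (f : FN N) (c : K.A →+ ZMod (p ^ n)), K.R n f c →
        ∃ g : FN N, galF N σ (galF N σ f) * f = galF N σ f ^ 2 * g ^ (p ^ n)

theorem KummerUni.exp_one {K : KummerSystem N p} (h : KummerUni K) : KummerUniExp K 1 := by
  intro q hq hqN hq2 hqp P hP σ hσ n f c hf
  obtain ⟨g, hg⟩ := h q hq hqN hq2 hqp P hP σ hσ n f c hf
  exact ⟨g, by rw [pow_one, mul_one, hg]⟩

/-- The relation on characters given by the function-level relation. -/
theorem act_rel (K : KummerSystem N p) (k : ℕ) (σ : GQ) (n : ℕ)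
    (h : ∀ (f : FN N) (c : K.A →+ ZMod (p ^ n)), K.R n f c →
      ∃ g : FN N, (galF N σ (galF N σ f) * f) ^ k = galF N σ f ^ (2 * k) * g ^ (p ^ n))
    (c : K.A →+ ZMod (p ^ n)) :
    k • (K.act n σ (K.act n σ c) + c) = (2 * k) • K.act n σ c := by
  obtain ⟨f, hf⟩ := K.ex n c
  obtain ⟨g, hg⟩ := h f c hf
  have h1 := K.actFun_spec σ hf
  have h2 := K.actFun_spec σ h1
  have hL := K.R_pow (K.mul h2 hf) k
  have hg0 : g ≠ 0 := by
    intro g0
    rw [g0, zero_pow (pow_ne_zero n hp.out.ne_zero), mul_zero] at hg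
    exact K.ne_zero hL hg
  rw [hg] at hL
  have hR := K.R_mul_pow (K.R_pow h1 (2 * k)) hg0
  exact K.uniq hL hR

/-- **S34 producer contract (fixed exponent)**: a Kummer system on whose classes the inertia
groups at the primes `q ≠ p` exactly dividing `N` satisfy `k • (σ - 1)² = 0` (`k ≥ 1`) yields
Eichler–Shimura data with unipotent inertia at these primes. -/
theorem exists_esData_uni_exp (K : KummerSystem N p) (k : ℕ) (hk : 0 < k)
    (hU : KummerUniExp K k) : ∃ D : ESData N p, Glue211.Uni D := by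
  classical
  let U : Set GQ := {σ | ∃ q : ℕ, q.Prime ∧ q ∣ N ∧ ¬ q ^ 2 ∣ N ∧ q ≠ p ∧
    ∃ P : ValuationSubring Qb, P.LiesOverPrime q ∧ σ ∈ P.inertiaSubgroupIn ℚ}
  suffices h : ∃ D : ESData N p, ∀ σ ∈ U, (D.ρ σ - 1) * (D.ρ σ - 1) = 0 by
    obtain ⟨D, hD⟩ := h
    exact ⟨D, fun q hq hqN hq2 hqp P hP σ hσ => hD σ ⟨q, hq, hqN, hq2, hqp, P, hP, hσ⟩⟩
  refine exists_esData_rel (N := N) K.A K.fgA K.τ K.τ_comm K.act ?_ ?_ ?_ ?_ ?_ K.occ U k hk ?_
  · -- act_red
    intro n σ c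
    obtain ⟨f, hf⟩ := K.ex (n + 1) c
    rw [KummerSystem.act_apply, KummerSystem.act_apply]
    exact K.actFun_eq σ (K.red hf) (K.red (K.actFun_spec σ hf))
  · -- act_τ
    intro n σ ℓ hℓ hℓN hℓp c
    obtain ⟨f, hf⟩ := K.ex n c
    have hrel : Relevant N p ℓ := ⟨hℓ, hℓN, hℓp⟩
    rw [KummerSystem.act_apply, KummerSystem.act_apply]
    refine K.actFun_eq σ (K.hecke hrel hf) ?_
    rw [← K.hecke_gal hrel σ hf]
    exact K.hecke hrel (K.actFun_spec σ hf)
  · -- cont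
    intro n
    have := K.finite_hom n
    choose f hf using K.ex n
    choose L hLfin hL using fun c => K.cont (f c)
    have : ∀ c, FiniteDimensional ℚ (L c) := hLfin
    refine ⟨⨆ c, L c, IntermediateField.finiteDimensional_iSup_of_finite, fun σ hσ => ?_⟩
    ext1 c
    show K.actFun n σ c = c
    refine K.actFun_eq σ (hf c) ?_
    rw [hL c σ (fun x hx => hσ x (le_iSup L c hx))]
    exact hf c
  · -- unr
    intro n q hq hqN hqp P hP σ hσ
    ext1 c
    show K.actFun n σ c = c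
    obtain ⟨f, hf⟩ := K.ex n c
    obtain ⟨g, hg⟩ := K.unr q hq hqN hqp P hP σ hσ hf
    refine K.actFun_eq σ hf ?_
    rw [hg]
    refine K.R_mul_pow hf ?_
    intro g0
    rw [g0, zero_pow (pow_ne_zero n hp.out.ne_zero), mul_zero] at hg
    exact KummerSystem.galF_ne_zero σ (K.ne_zero hf) hg
  · -- es
    intro n ℓ hℓ hℓN hℓp B hB σ hσ c
    obtain ⟨f, hf⟩ := K.ex n c
    have hrel : Relevant N p ℓ := ⟨hℓ, hℓN, hℓp⟩
    obtain ⟨g, hg⟩ := K.es ℓ hrel B hB σ hσ hf
    have h1 := K.actFun_spec σ hf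
    have h2 := K.actFun_spec σ h1
    have hL := K.mul h2 (K.R_pow hf ℓ)
    have hT := K.hecke hrel h1
    have hg0 : g ≠ 0 := by
      intro g0
      rw [g0, zero_pow (pow_ne_zero n hp.out.ne_zero), mul_zero] at hg
      exact K.ne_zero hL hg
    rw [hg] at hL
    have hR := K.R_mul_pow hT hg0
    have := K.uniq hL hR
    rw [KummerSystem.act_apply, KummerSystem.act_apply, ← this]
    abel
  · -- the transported relation
    rintro σ ⟨q, hq, hqN, hq2, hqp, P, hP, hσ⟩ n c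
    exact act_rel K k σ n (fun f c hf => hU q hq hqN hq2 hqp P hP σ hσ n f c hf) c

/-- **S34 producer contract**: a Kummer system on whose classes the inertia groups at the
primes `q ≠ p` exactly dividing `N` satisfy `(σ - 1)² = 0` yields Eichler–Shimura data with
unipotent inertia at these primes: the hypothesis of
`Glue211.isUnipotentOnInertiaAt_of_esData_uni`. -/
theorem exists_esData_uni (K : KummerSystem N p) (hU : KummerUni K) :
    ∃ D : ESData N p, Glue211.Uni D :=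
  exists_esData_uni_exp K 1 one_pos hU.exp_one

end Kummer

end Fermat.Agent.S34.UniLimit
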