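/-
S34 from the producer exit statement (helper34): the frozen conclusion of S34
(`H.ρ.IsUnipotentOnInertiaAt q`) from a Kummer system with unipotent inertia on its classes
(`UniLimit.KummerUni`, or the fixed-exponent variant `UniLimit.KummerUniExp`).

= `UniLimit.exists_esData_uni` (limit) + `Glue211.isUnipotentOnInertiaAt_of_esData_uni`
(helper211's wiring) + `Lib.FrobeniusDensity.exists_frobenius_pow_eq` (helper56's density).
So `Fermat/Agent/S34.lean` is one line once the geometric part provides, for all `N`, `p`,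
`∃ K : KummerSystem N p, KummerUni K` (or `∃ k > 0, KummerUniExp K k`).
-/
import Mathlib
import Fermat.Agent.S34.UniLimit
import Fermat.Agent.Lib.FrobeniusDensity

set_option autoImplicit false

namespace Fermat.Agent.S34.FromKummer

open Fermat.Agent.S30 Fermat.Agent.S30.Producer Fermat.Agent.S34.UniLimit IsLocalRing

variable {𝒪 : Type} [CommRing 𝒪] [IsDomain 𝒪] [IsDiscreteValuationRing 𝒪]
  [IsAdicComplete (maximalIdeal 𝒪) 𝒪] [Finite (ResidueField 𝒪)] [CharZero 𝒪]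
  {p : ℕ} {N : ℕ} [NeZero N] {S : Finset ℕ}
  {θ : CuspForm.heckeAlgebra N 2 (↑S : Set ℕ) →+* ResidueField 𝒪}
  {T : Type} [CommRing T] [IsLocalRing T] [IsNoetherianRing T]
  [IsAdicComplete (maximalIdeal T) T] [Algebra 𝒪 T] [IsLocalHom (algebraMap 𝒪 T)]
  [Module.Finite 𝒪 T] [Module.Free 𝒪 T]

/-- S34 from a Kummer system with `k • (σ - 1)² = 0` on its classes for inertia at the primes
exactly dividing `N` (fixed `k ≥ 1`). -/
theorem isUnipotentOnInertiaAt_of_kummerUniExp (hp : p.Prime)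
    (hp𝒪 : (p : 𝒪) ∈ maximalIdeal 𝒪) (hpS : p ∈ S)
    (hNS : ∀ q : ℕ, q.Prime → q ∣ N → q ∈ S)
    (H : CuspForm.HeckeGaloisRepDatum N (↑S : Set ℕ) 𝒪 θ T)
    (q : ℕ) (hq : q.Prime) (hqp : q ≠ p) (hqN : q ∣ N) (hq2 : ¬ q ^ 2 ∣ N)
    (K : @KummerSystem N p _ ⟨hp⟩) (k : ℕ) (hk : 0 < k)
    (hU : @KummerUniExp N p _ ⟨hp⟩ K k) :
    H.ρ.IsUnipotentOnInertiaAt q := by
  haveI : Fact p.Prime := ⟨hp⟩
  obtain ⟨D, hD⟩ := exists_esData_uni_exp K k hk hU
  exact Glue211.isUnipotentOnInertiaAt_of_esData_uni hp hp𝒪 hpS hNS H q hq hqp hqN hq2 D hD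
    (fun L _ S g => Fermat.Agent.Lib.FrobeniusDensity.exists_frobenius_pow_eq L S g)

/-- S34 from a Kummer system with `(σ - 1)² = 0` on its classes for inertia at the primes
exactly dividing `N`. -/
theorem isUnipotentOnInertiaAt_of_kummerUni (hp : p.Prime)
    (hp𝒪 : (p : 𝒪) ∈ maximalIdeal 𝒪) (hpS : p ∈ S)
    (hNS : ∀ q : ℕ, q.Prime → q ∣ N → q ∈ S)
    (H : CuspForm.HeckeGaloisRepDatum N (↑S : Set ℕ) 𝒪 θ T)
    (q : ℕ) (hq : q.Prime) (hqp : q ≠ p) (hqN : q ∣ N) (hq2 : ¬ q ^ 2 ∣ N)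
    (K : @KummerSystem N p _ ⟨hp⟩) (hU : @KummerUni N p _ ⟨hp⟩ K) :
    H.ρ.IsUnipotentOnInertiaAt q := by
  haveI : Fact p.Prime := ⟨hp⟩
  exact isUnipotentOnInertiaAt_of_kummerUniExp hp hp𝒪 hpS hNS H q hq hqp hqN hq2 K 1 one_pos
    hU.exp_one

end Fermat.Agent.S34.FromKummer
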