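/-
S34, function-level assembly of brick SSf (helper34).

For the CONCRETE Kummer system `Producer.Assembly.kummerSystem N p hSurj hK1` (helper13), the
producer exit statement `UniLimit.KummerUni` follows from the two geometric steps of the route
at every prime `q ≠ p` exactly dividing `N` and every valuation ring `P` of `ℚ̄` over `q`:

* step (i)  (`Toric.exists_toric`): for `σ` in the inertia group of `P` and `f ≠ 0` with
  `m ∣ div f`:  `σ f = f · w ^ m · h` with `h` "toric" and `m ∣ div h`;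
* step (ii) (INJ-ss): for `h` toric with `m ∣ div h`:  `σ h = h · k ^ m`.

`StepsAt N m P` packages both (the predicate "toric" is existentially quantified, so the
statement does not depend on the final shape of `Toric.IsToric` / of the Atkin–Lehner `W`).
Then `σ² f · f = (σ f)² · (σ w · k / w) ^ m`: inertia is unipotent on the Kummer classes.

`isUnipotentOnInertiaAt_of_steps` is the frozen conclusion of S34 from `Bricks.K1 N` (chain A
of Program E) and `StepsAt` (Program U).
-/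
import Mathlib
import Fermat.Agent.S34.FromKummer
import Fermat.Agent.S30.Producer.Main

set_option autoImplicit false

namespace Fermat.Agent.S34.UniSteps

open Fermat.Agent.S30 Fermat.Agent.S30.Producer Fermat.Agent.S34.UniLimit IsLocalRing

/-- Steps (i) and (ii) of the S34 route at one valuation ring `P` of `ℚ̄`, for the exponent
`m`: a predicate `Tor` ("toric") on the function field such that the inertia group of `P` maps
every Kummer function into `Tor` modulo `m`-th powers, and fixes the classes of the Kummer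
functions in `Tor`. -/
def StepsAt (N m : ℕ) (P : ValuationSubring Qb) : Prop :=
  ∃ Tor : FN N → Prop,
    (∀ σ ∈ P.inertiaSubgroupIn ℚ, ∀ f : FN N, f ≠ 0 → E4.DivBy N m f →
      ∃ h w : FN N, w ≠ 0 ∧ galF N σ f = f * w ^ m * h ∧ Tor h ∧ E4.DivBy N m h) ∧
    (∀ σ ∈ P.inertiaSubgroupIn ℚ, ∀ h : FN N, Tor h → E4.DivBy N m h →
      ∃ k : FN N, galF N σ h = h * k ^ m)

/-- The pure algebra: `(σ - 1)² = 0` on a Kummer function from the two steps. -/
theorem exists_sq_relation {N m : ℕ} {P : ValuationSubring Qb} (h : StepsAt N m P)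
    {σ : GQ} (hσ : σ ∈ P.inertiaSubgroupIn ℚ) {f : FN N} (hf : f ≠ 0) (hdiv : E4.DivBy N m f) :
    ∃ g : FN N, galF N σ (galF N σ f) * f = galF N σ f ^ 2 * g ^ m := by
  obtain ⟨Tor, h1, h2⟩ := h
  obtain ⟨t, w, hw, hfw, ht, htdiv⟩ := h1 σ hσ f hf hdiv
  obtain ⟨k, hk⟩ := h2 σ hσ t ht htdiv
  refine ⟨galF N σ w * k * w⁻¹, ?_⟩
  have hw' : w ^ m ≠ 0 := pow_ne_zero m hw
  have e1 : galF N σ (galF N σ f) = galF N σ f * galF N σ w ^ m * (t * k ^ m) := by
    conv_lhs => rw [hfw]
    rw [map_mul, map_mul, map_pow, hk]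
  rw [e1, mul_pow, mul_pow, inv_pow]
  have e2 : galF N σ f ^ 2 = galF N σ f * (f * w ^ m * t) := by rw [sq, ← hfw]
  rw [e2]
  field_simp

variable {N p : ℕ} [NeZero N] [hp : Fact p.Prime]

/-- **SSf, function level**: the concrete Kummer system has unipotent inertia at the primes
`q ≠ p` exactly dividing `N` as soon as the two geometric steps hold there. -/
theorem kummerUni_kummerSystem (hSurj : Bricks.Surj N) (hK1 : Bricks.K1 N)
    (hsteps : ∀ q : ℕ, q.Prime → q ∣ N → ¬ q ^ 2 ∣ N → q ≠ p →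
      ∀ P : ValuationSubring Qb, P.LiesOverPrime q → ∀ n : ℕ, StepsAt N (p ^ n) P) :
    KummerUni (Assembly.kummerSystem N p hSurj hK1) := by
  intro q hq hqN hq2 hqp P hP σ hσ n f c hf
  exact exists_sq_relation (hsteps q hq hqN hq2 hqp P hP n) hσ hf.1 hf.2.1

end Fermat.Agent.S34.UniSteps

namespace Fermat.Agent.S34.UniSteps

open Fermat.Agent.S30 Fermat.Agent.S30.Producer Fermat.Agent.S34.UniLimit IsLocalRing

variable {𝒪 : Type} [CommRing 𝒪] [IsDomain 𝒪] [IsDiscreteValuationRing 𝒪]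
  [IsAdicComplete (maximalIdeal 𝒪) 𝒪] [Finite (ResidueField 𝒪)] [CharZero 𝒪]
  {p : ℕ} {N : ℕ} [NeZero N] {S : Finset ℕ}
  {θ : CuspForm.heckeAlgebra N 2 (↑S : Set ℕ) →+* ResidueField 𝒪}
  {T : Type} [CommRing T] [IsLocalRing T] [IsNoetherianRing T]
  [IsAdicComplete (maximalIdeal T) T] [Algebra 𝒪 T] [IsLocalHom (algebraMap 𝒪 T)]
  [Module.Finite 𝒪 T] [Module.Free 𝒪 T]

/-- **S34 modulo (K1) and the two geometric steps.** -/
theorem isUnipotentOnInertiaAt_of_steps (hp : p.Prime)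
    (hp𝒪 : (p : 𝒪) ∈ maximalIdeal 𝒪) (hpS : p ∈ S)
    (hNS : ∀ q : ℕ, q.Prime → q ∣ N → q ∈ S)
    (H : CuspForm.HeckeGaloisRepDatum N (↑S : Set ℕ) 𝒪 θ T)
    (q : ℕ) (hq : q.Prime) (hqp : q ≠ p) (hqN : q ∣ N) (hq2 : ¬ q ^ 2 ∣ N)
    (hK1 : Bricks.K1 N)
    (hsteps : ∀ q : ℕ, q.Prime → q ∣ N → ¬ q ^ 2 ∣ N → q ≠ p →
      ∀ P : ValuationSubring Qb, P.LiesOverPrime q → ∀ n : ℕ, StepsAt N (p ^ n) P) :
    H.ρ.IsUnipotentOnInertiaAt q := by
  haveI : Fact p.Prime := ⟨hp⟩
  exact FromKummer.isUnipotentOnInertiaAt_of_kummerUni hp hp𝒪 hpS hNS H q hq hqp hqN hq2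
    (Assembly.kummerSystem N p (SurjXRoot.surj N) hK1)
    (kummerUni_kummerSystem (SurjXRoot.surj N) hK1 hsteps)

end Fermat.Agent.S34.UniSteps
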