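import Mathlib
import Fermat.Agent.S34.UniSteps
import Fermat.Agent.S30.E4.K1Level

/-!
# Program U, auxiliary level: descent of the unipotence relation

`SqAt N m P` : for `σ` in the inertia group of `P` and every Kummer function `f` of level `N`
(`m ∣ div f`):  `σ² f · f = (σ f)² · g ^ m` — the conclusion of the two geometric steps
(`UniSteps.StepsAt`), i.e. `(σ - 1)² = 0` on Kummer classes.

* `sqAt_of_stepsAt` : `StepsAt N m P → SqAt N m P`.
* `sqAt_of_sqAt_mul` : for a prime `r ∤ N` and `m` prime to `r + 1 = [F_{Nr} : F_N]`: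
  `SqAt (N * r) m P → SqAt N m P` (norm + Bezout; `E4.exists_pow_eq_of_alpha`).
* `sqAt_of_aux` : the case split on the residue characteristic `ℓ`: it suffices to know `SqAt`
  at the levels `M` with `ℓ ∥ M` such that `2 ∣ M` if `ℓ = 3` and `3 ∣ M` if `ℓ = 2`
  (where the Hauptmodul of `X₀(2)`, resp. `X₀(3)`, lies in the function field).
* `kummerUni_of_sqAt`, `isUnipotentOnInertiaAt_of_sqAt` : the S34 exit from `SqAt`.
-/

set_option autoImplicit false
set_option linter.style.haveILetI false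

open ModularCurve AlgebraicCurve

namespace Fermat.Agent.S34.AuxDescent

open Fermat.Agent.S30 Fermat.Agent.S30.Producer Fermat.Agent.S34.UniLimit

/-- Inertia at `P` is unipotent on the Kummer functions of level `N` and exponent `m`. -/
def SqAt (N m : ℕ) (P : ValuationSubring Qb) : Prop :=
  ∀ σ ∈ P.inertiaSubgroupIn ℚ, ∀ f : FN N, f ≠ 0 → E4.DivBy N m f →
    ∃ g : FN N, galF N σ (galF N σ f) * f = galF N σ f ^ 2 * g ^ m

theorem sqAt_of_stepsAt {N m : ℕ} {P : ValuationSubring Qb} (h : UniSteps.StepsAt N m P) :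
    SqAt N m P :=
  fun _ hσ _ hf hdiv => UniSteps.exists_sq_relation h hσ hf hdiv

section Level

variable (N r : ℕ) [NeZero N] [NeZero r]

theorem galF_alpha (σ : GQ) (f : FN N) :
    galF (N * r) σ (heckeAlphaBar Qb N r f) = heckeAlphaBar Qb N r (galF N σ f) := by
  apply Subtype.ext
  rw [coe_galF, coe_heckeAlphaBar, coe_heckeAlphaBar, coe_galF]

/-- `m ∣ div f` persists when the level is raised. -/
theorem divBy_alpha {m : ℕ} (f : FN N) (hdiv : E4.DivBy N m f) :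
    E4.DivBy (N * r) m (heckeAlphaBar Qb N r f) := by
  letI := algebraAlong (heckeAlphaBar Qb N r)
  haveI := isScalarTower_along (heckeAlphaBar Qb N r)
  haveI : Module.Finite (modularFunctionFieldBar N) (modularFunctionFieldBar (N * r)) :=
    HeckeNormQ.finite_alpha N r
  haveI : Algebra.IsAlgebraic (modularFunctionFieldBar N) (modularFunctionFieldBar (N * r)) :=
    Algebra.IsAlgebraic.of_finite _ _
  intro Q
  obtain ⟨P, e, -, hPe⟩ := Fermat.Agent.Lib.PlaceRes.exists_place_below (K := Qb)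
    (L := modularFunctionFieldBar N) (M := modularFunctionFieldBar (N * r)) Q
  have h1 : Q.ord (heckeAlphaBar Qb N r f) = e * P.ord f := hPe f
  rw [h1]
  exact Dvd.dvd.mul_left (hdiv P) _

/-- **Level lowering for `SqAt`**: `r ∤ N` prime, `m` prime to `r + 1`. -/
theorem sqAt_of_sqAt_mul (hr : r.Prime) (hrN : ¬ r ∣ N) {m : ℕ} (hmr : Nat.Coprime m (r + 1))
    (P : ValuationSubring Qb) (h : SqAt (N * r) m P) : SqAt N m P := by
  intro σ hσ f hf hdiv
  have hinj : Function.Injective (heckeAlphaBar Qb N r) := (heckeAlphaBar Qb N r).injective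
  have hf' : heckeAlphaBar Qb N r f ≠ 0 := (map_ne_zero_iff _ hinj).mpr hf
  obtain ⟨g', hg'⟩ := h σ hσ _ hf' (divBy_alpha N r f hdiv)
  rw [galF_alpha, galF_alpha] at hg'
  have hσf : galF N σ f ≠ 0 := (map_ne_zero_iff _ (galF N σ).injective).mpr hf
  have hσf' : heckeAlphaBar Qb N r (galF N σ f) ≠ 0 := (map_ne_zero_iff _ hinj).mpr hσf
  have key : g' ^ m =
      heckeAlphaBar Qb N r (galF N σ (galF N σ f) * f * ((galF N σ f) ^ 2)⁻¹) := by
    rw [map_mul, map_mul, map_inv₀, map_pow, hg']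
    field_simp
  obtain ⟨H₀, hH₀⟩ := E4.exists_pow_eq_of_alpha N r hr hrN hmr _ g' key
  refine ⟨H₀, ?_⟩
  rw [hH₀]
  field_simp

end Level

/-- **`SqAt` at the level `N` from `SqAt` at auxiliary levels.**  For `ℓ ∥ N` and a prime
`p ≠ ℓ`: it suffices to know `SqAt M (p ^ n) P` at the levels `M` with `ℓ ∥ M` such that `2 ∣ M`
if `ℓ = 3` and `3 ∣ M` if `ℓ = 2`. -/
theorem sqAt_of_aux {N ℓ : ℕ} [NeZero N] (hℓN : ℓ ∣ N) (hℓ2 : ¬ ℓ ^ 2 ∣ N)
    (P : ValuationSubring Qb) {p : ℕ} (hp : p.Prime) (hpℓ : p ≠ ℓ) (n : ℕ)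
    (hF : ∀ (M : ℕ) [NeZero M], ℓ ∣ M → ¬ ℓ ^ 2 ∣ M → (ℓ = 3 → 2 ∣ M) → (ℓ = 2 → 3 ∣ M) →
      SqAt M (p ^ n) P) :
    SqAt N (p ^ n) P := by
  have hN0 : N ≠ 0 := NeZero.ne N
  by_cases h3 : ℓ = 3
  · subst h3
    by_cases h2N : 2 ∣ N
    · exact hF N hℓN hℓ2 (fun _ => h2N) (fun h => absurd h (by norm_num))
    · haveI : NeZero (N * 2) := ⟨Nat.mul_ne_zero hN0 two_ne_zero⟩
      have hM : ¬ 3 ^ 2 ∣ N * 2 := fun h =>
        hℓ2 (Nat.Coprime.dvd_of_dvd_mul_right (by norm_num) h)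
      have hFM := hF (N * 2) (Dvd.dvd.mul_right hℓN 2) hM (fun _ => dvd_mul_left 2 N)
        (fun h => absurd h (by norm_num))
      refine sqAt_of_sqAt_mul N 2 Nat.prime_two h2N ?_ P hFM
      exact Nat.Coprime.pow_left n ((Nat.coprime_primes hp Nat.prime_three).mpr hpℓ)
  · by_cases h2 : ℓ = 2
    · subst h2
      by_cases h3N : 3 ∣ N
      · exact hF N hℓN hℓ2 (fun h => absurd h h3) (fun _ => h3N)
      · haveI : NeZero (N * 3) := ⟨Nat.mul_ne_zero hN0 three_ne_zero⟩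
        have hM : ¬ 2 ^ 2 ∣ N * 3 := fun h =>
          hℓ2 (Nat.Coprime.dvd_of_dvd_mul_right (by norm_num) h)
        have hFM := hF (N * 3) (Dvd.dvd.mul_right hℓN 3) hM (fun h => absurd h h3)
          (fun _ => dvd_mul_left 3 N)
        refine sqAt_of_sqAt_mul N 3 Nat.prime_three h3N ?_ P hFM
        have h4 : Nat.Coprime p 2 := (Nat.coprime_primes hp Nat.prime_two).mpr hpℓ
        have h5 : Nat.Coprime p (2 ^ 2) := Nat.Coprime.pow_right 2 h4
        exact Nat.Coprime.pow_left n h5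
    · exact hF N hℓN hℓ2 (fun h => absurd h h3) (fun h => absurd h h2)

section Exit

variable {N p : ℕ} [NeZero N] [hp : Fact p.Prime]

/-- The producer exit `KummerUni` from `SqAt` at every prime `q ≠ p` exactly dividing `N`. -/
theorem kummerUni_of_sqAt (hSurj : Bricks.Surj N) (hK1 : Bricks.K1 N)
    (hsq : ∀ q : ℕ, q.Prime → q ∣ N → ¬ q ^ 2 ∣ N → q ≠ p →
      ∀ P : ValuationSubring Qb, P.LiesOverPrime q → ∀ n : ℕ, SqAt N (p ^ n) P) :
    KummerUni (Assembly.kummerSystem N p hSurj hK1) := by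
  intro q hq hqN hq2 hqp P hP σ hσ n f c hf
  exact hsq q hq hqN hq2 hqp P hP n σ hσ f hf.1 hf.2.1

end Exit

end Fermat.Agent.S34.AuxDescent

namespace Fermat.Agent.S34.AuxDescent

open Fermat.Agent.S30 Fermat.Agent.S30.Producer Fermat.Agent.S34.UniLimit IsLocalRing

variable {𝒪 : Type} [CommRing 𝒪] [IsDomain 𝒪] [IsDiscreteValuationRing 𝒪]
  [IsAdicComplete (maximalIdeal 𝒪) 𝒪] [Finite (ResidueField 𝒪)] [CharZero 𝒪]
  {p : ℕ} {N : ℕ} [NeZero N] {S : Finset ℕ}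
  {θ : CuspForm.heckeAlgebra N 2 (↑S : Set ℕ) →+* ResidueField 𝒪}
  {T : Type} [CommRing T] [IsLocalRing T] [IsNoetherianRing T]
  [IsAdicComplete (maximalIdeal T) T] [Algebra 𝒪 T] [IsLocalHom (algebraMap 𝒪 T)]
  [Module.Finite 𝒪 T] [Module.Free 𝒪 T]

/-- **S34 modulo (K1) and `SqAt` at the auxiliary levels.** -/
theorem isUnipotentOnInertiaAt_of_sqAt (hp : p.Prime)
    (hp𝒪 : (p : 𝒪) ∈ maximalIdeal 𝒪) (hpS : p ∈ S)
    (hNS : ∀ q : ℕ, q.Prime → q ∣ N → q ∈ S)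
    (H : CuspForm.HeckeGaloisRepDatum N (↑S : Set ℕ) 𝒪 θ T)
    (q : ℕ) (hq : q.Prime) (hqp : q ≠ p) (hqN : q ∣ N) (hq2 : ¬ q ^ 2 ∣ N)
    (hK1 : Bricks.K1 N)
    (hsq : ∀ q : ℕ, q.Prime → q ∣ N → ¬ q ^ 2 ∣ N → q ≠ p →
      ∀ P : ValuationSubring Qb, P.LiesOverPrime q → ∀ n : ℕ,
        ∀ (M : ℕ) [NeZero M], q ∣ M → ¬ q ^ 2 ∣ M → (q = 3 → 2 ∣ M) → (q = 2 → 3 ∣ M) →
          SqAt M (p ^ n) P) :
    H.ρ.IsUnipotentOnInertiaAt q := by
  haveI : Fact p.Prime := ⟨hp⟩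
  refine FromKummer.isUnipotentOnInertiaAt_of_kummerUni hp hp𝒪 hpS hNS H q hq hqp hqN hq2
    (Assembly.kummerSystem N p (SurjXRoot.surj N) hK1)
    (kummerUni_of_sqAt (SurjXRoot.surj N) hK1 fun q' hq' hq'N hq'2 hq'p P hP n => ?_)
  exact sqAt_of_aux hq'N hq'2 P hp (Ne.symm hq'p) n (hsq q' hq' hq'N hq'2 hq'p P hP n)

end Fermat.Agent.S34.AuxDescent
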