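/-
S34: step (i) discharged (helper34).

`UniSteps.StepsAt (M ℓ) m A` from helper90's `ToricSwap.exists_toric_level` (step (i) at level
`M ℓ`, `ℓ ∤ M`, for the Atkin–Lehner swap `ToricSwap.wAL`) and the relative toric statement
(INJ-ss) at `ℚ̄`-level:

  `τ` in the inertia group of `A`, `h` toric with `m ∣ div h`  ⟹  `τ h = h · k ^ m`.

`isUnipotentOnInertiaAt_of_injToric` : the frozen conclusion of S34 from `Bricks.K1 N`
(Program E, chain A) and (INJ-ss) at the levels `M ℓ = N`, `ℓ ∤ M`, `ℓ ≠ p`, exponents `p ^ n`.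
The hypothesis is spelled out (no new definition): it is literally
`∀ τ ∈ A.inertiaSubgroupIn ℚ, ∀ h, Toric.IsToric (M ℓ) A W h → E4.DivBy (M ℓ) m h →
   ∃ k, E4.gal (M ℓ) τ h = h * k ^ m` with `W = (ToricSwap.wAL M ℓ hℓ hℓM).toRingEquiv`.
-/
import Mathlib
import Fermat.Agent.S34.UniSteps
import Fermat.Agent.S34.ToricSwap

set_option autoImplicit false

namespace Fermat.Agent.S34.UniToric

open Fermat.Agent.S30 Fermat.Agent.S30.Producer Fermat.Agent.S34.UniSteps IsLocalRing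
open Fermat.Agent.S34.Toric Fermat.Agent.S34.ToricSwap

/-- Steps (i) + (ii) at level `M ℓ` (`ℓ ∤ M`) from (INJ-ss) for the swap `wAL`. -/
theorem stepsAt_level {M ℓ m : ℕ} [NeZero M] [NeZero ℓ] (hℓ : ℓ.Prime) (hℓM : ¬ ℓ ∣ M)
    (A : ValuationSubring Qb) (hA : A.LiesOverPrime ℓ) (hm : 0 < m)
    (hinj : ∀ τ ∈ A.inertiaSubgroupIn ℚ, ∀ h : E4.Fb (M * ℓ),
      IsToric (M * ℓ) A (wAL M ℓ hℓ hℓM).toRingEquiv h → E4.DivBy (M * ℓ) m h →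
        ∃ k : E4.Fb (M * ℓ), E4.gal (M * ℓ) τ h = h * k ^ m) :
    StepsAt (M * ℓ) m A :=
  ⟨fun h => IsToric (M * ℓ) A (wAL M ℓ hℓ hℓM).toRingEquiv h,
    fun _ hσ f hf hdiv => exists_toric_level hℓ hℓM A hA hm hσ f hf hdiv, hinj⟩

variable {𝒪 : Type} [CommRing 𝒪] [IsDomain 𝒪] [IsDiscreteValuationRing 𝒪]
  [IsAdicComplete (maximalIdeal 𝒪) 𝒪] [Finite (ResidueField 𝒪)] [CharZero 𝒪]
  {p : ℕ} {N : ℕ} [NeZero N] {S : Finset ℕ}
  {θ : CuspForm.heckeAlgebra N 2 (↑S : Set ℕ) →+* ResidueField 𝒪}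
  {T : Type} [CommRing T] [IsLocalRing T] [IsNoetherianRing T]
  [IsAdicComplete (maximalIdeal T) T] [Algebra 𝒪 T] [IsLocalHom (algebraMap 𝒪 T)]
  [Module.Finite 𝒪 T] [Module.Free 𝒪 T]

/-- **S34 modulo (K1) and (INJ-ss).**  The frozen conclusion of S34 from the Kummer statement
`Bricks.K1 N` at the primes not dividing `N` and the relative toric statement (INJ-ss) at the
levels `M ℓ = N` with `ℓ ∤ M`, `ℓ ≠ p`. -/
theorem isUnipotentOnInertiaAt_of_injToric (hp : p.Prime)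
    (hp𝒪 : (p : 𝒪) ∈ maximalIdeal 𝒪) (hpS : p ∈ S)
    (hNS : ∀ q : ℕ, q.Prime → q ∣ N → q ∈ S)
    (H : CuspForm.HeckeGaloisRepDatum N (↑S : Set ℕ) 𝒪 θ T)
    (q : ℕ) (hq : q.Prime) (hqp : q ≠ p) (hqN : q ∣ N) (hq2 : ¬ q ^ 2 ∣ N)
    (hK1 : Bricks.K1 N)
    (hinj : ∀ (M ℓ : ℕ) [NeZero M] [NeZero ℓ] (hℓ : ℓ.Prime) (hℓM : ¬ ℓ ∣ M), M * ℓ = N →
      ℓ ≠ p → ∀ A : ValuationSubring Qb, A.LiesOverPrime ℓ → ∀ n : ℕ,
        ∀ τ ∈ A.inertiaSubgroupIn ℚ, ∀ h : E4.Fb (M * ℓ),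
          IsToric (M * ℓ) A (wAL M ℓ hℓ hℓM).toRingEquiv h → E4.DivBy (M * ℓ) (p ^ n) h →
            ∃ k : E4.Fb (M * ℓ), E4.gal (M * ℓ) τ h = h * k ^ (p ^ n)) :
    H.ρ.IsUnipotentOnInertiaAt q := by
  refine isUnipotentOnInertiaAt_of_steps hp hp𝒪 hpS hNS H q hq hqp hqN hq2 hK1 ?_
  intro q' hq' hq'N hq'2 hq'p P hP n
  obtain ⟨M, hM⟩ := hq'N
  have hN : M * q' = N := by rw [hM, mul_comm]
  have hM0 : NeZero M := ⟨by
    rintro rfl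
    rw [zero_mul] at hN
    exact NeZero.ne N hN.symm⟩
  have hq0 : NeZero q' := ⟨hq'.ne_zero⟩
  have hq'M : ¬ q' ∣ M := by
    rintro ⟨k, rfl⟩
    exact hq'2 ⟨k, by rw [hM]; ring⟩
  have h := stepsAt_level hq' hq'M P hP (pow_pos hp.pos n)
    (hinj M q' hq' hq'M hN hq'p P hP n)
  rwa [hN] at h

end Fermat.Agent.S34.UniToric
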