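/-
S34 — FINAL REDUCTION (helper34).  The frozen statement of S34 from the two remaining inputs:

* `hK1   : ∀ N, Producer.Bricks.K1 N`  — the Kummer statement (K1) at the primes `q ∤ N`
  (Program E, chain A; the same input as `S30/FinalOfK1.result_of_k1`);
* `hroot : RootStatement` — the relative toric statement (INJ-ss) in helper243's Kummer-field
  form `Descend.InjSSRootModular` at the levels `M ℓ` (`ℓ ∤ M`), for the Atkin–Lehner swap
  `ToricSwap.wAL` and the exponents `m` prime to `ℓ`.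

Chain: `Descend.injSS_of_rootModular` (descent `E → ℚ̄`) → `UniToric` (step (i) for `wAL`)
→ `UniSteps` (function-level relation) → `UniLimit` (`p`-adic limit) → `Glue211` → frozen
statement.  `Fermat/Agent/S34.lean` is then
`theorem result … := FinalOfRoot.result_of_k1_root (fun N => <K1 N>) <root> hp hp𝒪 hpS hNS H q hq hqp hqN hq2`.
-/
import Mathlib
import Fermat.Agent.S34.UniToric
import Fermat.Agent.S34.DescendRoot

set_option autoImplicit false

namespace Fermat.Agent.S34.FinalOfRoot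

open Fermat.Agent.S30 Fermat.Agent.S30.Producer IsLocalRing

/-- The remaining geometric input of S34: (INJ-ss) in Kummer-field form over the number fields
`E ⊆ ℚ̄`, at every level `M ℓ` with `ℓ ∤ M`, for the swap `ToricSwap.wAL` and every exponent
`m > 0` prime to `ℓ`. -/
def RootStatement : Prop :=
  ∀ (M ℓ : ℕ) [NeZero M] [NeZero ℓ] (hℓ : ℓ.Prime) (hℓM : ¬ ℓ ∣ M)
    (A : ValuationSubring Qb), A.LiesOverPrime ℓ → ∀ m : ℕ, 0 < m → ¬ ℓ ∣ m →
      Descend.InjSSRootModular (M * ℓ) A (ToricSwap.wAL M ℓ hℓ hℓM).toRingEquiv m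

/-- **S34 from (K1) and (INJ-ss).** -/
theorem result_of_k1_root (hK1 : ∀ (N : ℕ) [NeZero N], Bricks.K1 N) (hroot : RootStatement)
    {𝒪 : Type} [CommRing 𝒪] [IsDomain 𝒪] [IsDiscreteValuationRing 𝒪]
    [IsAdicComplete (maximalIdeal 𝒪) 𝒪] [Finite (ResidueField 𝒪)] [CharZero 𝒪]
    {p : ℕ} (hp : p.Prime) (hp𝒪 : (p : 𝒪) ∈ maximalIdeal 𝒪)
    {N : ℕ} [NeZero N] {S : Finset ℕ} (hpS : p ∈ S) (hNS : ∀ q : ℕ, q.Prime → q ∣ N → q ∈ S)
    {θ : CuspForm.heckeAlgebra N 2 (↑S : Set ℕ) →+* ResidueField 𝒪}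
    {T : Type} [CommRing T] [IsLocalRing T] [IsNoetherianRing T]
    [IsAdicComplete (maximalIdeal T) T] [Algebra 𝒪 T] [IsLocalHom (algebraMap 𝒪 T)]
    [Module.Finite 𝒪 T] [Module.Free 𝒪 T]
    (H : CuspForm.HeckeGaloisRepDatum N (↑S : Set ℕ) 𝒪 θ T)
    (q : ℕ) (hq : q.Prime) (hqp : q ≠ p) (hqN : q ∣ N) (hq2 : ¬ q ^ 2 ∣ N) :
    H.ρ.IsUnipotentOnInertiaAt q := by
  refine UniToric.isUnipotentOnInertiaAt_of_injToric hp hp𝒪 hpS hNS H q hq hqp hqN hq2 (hK1 N) ?_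
  intro M ℓ _ _ hℓ hℓM _ hℓp A hA n
  have hm : 0 < p ^ n := pow_pos hp.pos n
  have hℓm : ¬ ℓ ∣ p ^ n := fun h =>
    hℓp ((Nat.prime_dvd_prime_iff_eq hℓ hp).1 (hℓ.dvd_of_dvd_pow h))
  exact Descend.injSS_of_rootModular (M * ℓ) hℓ A hA (ToricSwap.wAL M ℓ hℓ hℓM).toRingEquiv hm
    (hroot M ℓ hℓ hℓM A hA (p ^ n) hm hℓm)

end Fermat.Agent.S34.FinalOfRoot
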