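/-
S34 — FINAL WIRING (helper144; U captain RULING #6 (6)).

The frozen statement of S34 from ONE remaining hypothesis, the relative toric statement (INJ-ss)
in helper243's Kummer-field form over number fields (`Descend.InjSSRootModular`):

* `result_of_rootModular` : `FinalOfRoot.RootStatement → <frozen S34 statement>`
  (= helper34's `FinalOfRoot.result_of_k1_root` with the Kummer brick (K1) discharged by the
  landed `Producer.bricks_k1`, i.e. `E4.k1`, Program E chain A);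
* `RootAt N p` : the part of `RootStatement` that the statement at `(N, p, q)` really uses
  (the one level `N = M q`, the one prime `q`, the exponents `p ^ n`), and
  `result_of_rootAt : RootAt N p → <frozen S34 statement at (N, p)>`;
* `rootAt_of_rootStatement : RootStatement → RootAt N p`;
* `RootAux p` : **the exact remaining hypothesis**: (INJ-ss), Kummer-field form, ONLY at the
  levels `M ℓ` (`ℓ ∤ M`, `ℓ ≠ p`) where the coordinate of the modular side exists, i.e. with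
  `2 ∣ M` if `ℓ = 3` and `3 ∣ M` if `ℓ = 2` (no condition for `ℓ > 3`), exponents `p ^ n`;
  `result_of_rootAux : RootAux p → <frozen S34 statement>` goes through helper174's
  `AuxDescent.isUnipotentOnInertiaAt_of_sqAt` (level lowering `M r → M` of the unipotence
  relation for the auxiliary prime `r ∈ {2, 3}`);
* `rootAux_of_rootStatement : RootStatement → RootAux p`;
* `RootAuxAll` : the same for every exponent `m > 0` prime to `ℓ` (no `p`; the literal Prop of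
  the U captain's final-wiring note), `result_of_rootAuxAll : RootAuxAll → <frozen S34>`;
* `RootGt3`, `RootSmall` : the two instances in which the modular side proves `RootAuxAll`
  (`ℓ > 3`, coordinate `j`; `ℓ ∈ {2, 3}`, coordinate the Hauptmodul of level `5 - ℓ`), and
  `rootAuxAll_of_cases : RootGt3 → RootSmall → RootAuxAll`,
  `result_of_cases : RootGt3 → RootSmall → <frozen S34>`.

`Fermat/Agent/S34.lean` is then
`theorem result … := Final.result_of_rootAux hp hp𝒪 hpS hNS H q hq hqp hqN hq2 <RootAux p>`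
(or `Final.result_of_rootModular <RootStatement> hp hp𝒪 hpS hNS H q hq hqp hqN hq2`).
-/
import Mathlib
import Fermat.Agent.S34.FinalOfRoot
import Fermat.Agent.S34.AuxDescent
import Fermat.Agent.S30.Producer.Final

set_option autoImplicit false

namespace Fermat.Agent.S34.Final

open Fermat.Agent.S30 Fermat.Agent.S30.Producer IsLocalRing
open Fermat.Agent.S34.FinalOfRoot

local notation "Qb" => AlgebraicClosure ℚ

/-- **S34 from (INJ-ss) alone.**  The frozen statement of S34 from `FinalOfRoot.RootStatement`;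
the Kummer statement (K1) is the landed `Producer.bricks_k1`. -/
theorem result_of_rootModular (hroot : RootStatement)
    {𝒪 : Type} [CommRing 𝒪] [IsDomain 𝒪] [IsDiscreteValuationRing 𝒪]
    [IsAdicComplete (maximalIdeal 𝒪) 𝒪] [Finite (ResidueField 𝒪)] [CharZero 𝒪]
    {p : ℕ} (hp : p.Prime) (hp𝒪 : (p : 𝒪) ∈ maximalIdeal 𝒪)
    {N : ℕ} [NeZero N] {S : Finset ℕ} (hpS : p ∈ S) (hNS : ∀ q : ℕ, q.Prime → q ∣ N → q ∈ S)
    {θ : CuspForm.heckeAlgebra N 2 (↑S : Set ℕ) →+* ResidueField 𝒪}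
    {T : Type} [CommRing T] [IsLocalRing T] [IsNoetherianRing T]
    [IsAdicComplete (maximalIdeal T) T] [Algebra 𝒪 T] [IsLocalHom (algebraMap 𝒪 T)]
    [Module.Finite 𝒪 T] [Module.Free 𝒪 T]
    (H : CuspForm.HeckeGaloisRepDatum N (↑S : Set ℕ) 𝒪 θ T)
    (q : ℕ) (hq : q.Prime) (hqp : q ≠ p) (hqN : q ∣ N) (hq2 : ¬ q ^ 2 ∣ N) :
    H.ρ.IsUnipotentOnInertiaAt q :=
  result_of_k1_root (fun N _ => bricks_k1 N) hroot hp hp𝒪 hpS hNS H q hq hqp hqN hq2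

/-- The part of `RootStatement` used at level `N` for the residue characteristic `p`:
(INJ-ss), Kummer-field form, at the levels `M ℓ = N` with `ℓ ∤ M`, `ℓ ≠ p`, for the swap
`ToricSwap.wAL` and the exponents `p ^ n`. -/
def RootAt (N p : ℕ) : Prop :=
  ∀ (M ℓ : ℕ) [NeZero M] [NeZero ℓ] (hℓ : ℓ.Prime) (hℓM : ¬ ℓ ∣ M), M * ℓ = N → ℓ ≠ p →
    ∀ A : ValuationSubring Qb, A.LiesOverPrime ℓ → ∀ n : ℕ,
      Descend.InjSSRootModular (M * ℓ) A (ToricSwap.wAL M ℓ hℓ hℓM).toRingEquiv (p ^ n)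

theorem rootAt_of_rootStatement (hroot : RootStatement) {N p : ℕ} (hp : p.Prime) : RootAt N p := by
  intro M ℓ _ _ hℓ hℓM _ hℓp A hA n
  exact hroot M ℓ hℓ hℓM A hA (p ^ n) (pow_pos hp.pos n) fun h =>
    hℓp ((Nat.prime_dvd_prime_iff_eq hℓ hp).1 (hℓ.dvd_of_dvd_pow h))

/-- **S34 from (INJ-ss) at the level and the residue characteristic of the datum.** -/
theorem result_of_rootAt
    {𝒪 : Type} [CommRing 𝒪] [IsDomain 𝒪] [IsDiscreteValuationRing 𝒪]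
    [IsAdicComplete (maximalIdeal 𝒪) 𝒪] [Finite (ResidueField 𝒪)] [CharZero 𝒪]
    {p : ℕ} (hp : p.Prime) (hp𝒪 : (p : 𝒪) ∈ maximalIdeal 𝒪)
    {N : ℕ} [NeZero N] {S : Finset ℕ} (hpS : p ∈ S) (hNS : ∀ q : ℕ, q.Prime → q ∣ N → q ∈ S)
    {θ : CuspForm.heckeAlgebra N 2 (↑S : Set ℕ) →+* ResidueField 𝒪}
    {T : Type} [CommRing T] [IsLocalRing T] [IsNoetherianRing T]
    [IsAdicComplete (maximalIdeal T) T] [Algebra 𝒪 T] [IsLocalHom (algebraMap 𝒪 T)]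
    [Module.Finite 𝒪 T] [Module.Free 𝒪 T]
    (H : CuspForm.HeckeGaloisRepDatum N (↑S : Set ℕ) 𝒪 θ T)
    (q : ℕ) (hq : q.Prime) (hqp : q ≠ p) (hqN : q ∣ N) (hq2 : ¬ q ^ 2 ∣ N)
    (hroot : RootAt N p) :
    H.ρ.IsUnipotentOnInertiaAt q := by
  refine UniToric.isUnipotentOnInertiaAt_of_injToric hp hp𝒪 hpS hNS H q hq hqp hqN hq2
    (bricks_k1 N) ?_
  intro M ℓ _ _ hℓ hℓM hMN hℓp A hA n
  exact Descend.injSS_of_rootModular (M * ℓ) hℓ A hA (ToricSwap.wAL M ℓ hℓ hℓM).toRingEquiv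
    (pow_pos hp.pos n) (hroot M ℓ hℓ hℓM hMN hℓp A hA n)

/-- **The exact remaining hypothesis of S34** for the residue characteristic `p`: (INJ-ss),
Kummer-field form, at the levels `M ℓ` with `ℓ ∤ M`, `ℓ ≠ p`, and `2 ∣ M` if `ℓ = 3`, `3 ∣ M` if
`ℓ = 2` (the levels whose function field contains the Hauptmodul used as coordinate when
`ℓ ∈ {2, 3}`), for the swap `ToricSwap.wAL` and the exponents `p ^ n`. -/
def RootAux (p : ℕ) : Prop :=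
  ∀ (M ℓ : ℕ) [NeZero M] [NeZero ℓ] (hℓ : ℓ.Prime) (hℓM : ¬ ℓ ∣ M), ℓ ≠ p →
    (ℓ = 3 → 2 ∣ M) → (ℓ = 2 → 3 ∣ M) →
    ∀ A : ValuationSubring Qb, A.LiesOverPrime ℓ → ∀ n : ℕ,
      Descend.InjSSRootModular (M * ℓ) A (ToricSwap.wAL M ℓ hℓ hℓM).toRingEquiv (p ^ n)

theorem rootAux_of_rootStatement (hroot : RootStatement) {p : ℕ} (hp : p.Prime) : RootAux p := by
  intro M ℓ _ _ hℓ hℓM hℓp _ _ A hA n
  exact hroot M ℓ hℓ hℓM A hA (p ^ n) (pow_pos hp.pos n) fun h =>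
    hℓp ((Nat.prime_dvd_prime_iff_eq hℓ hp).1 (hℓ.dvd_of_dvd_pow h))

/-- The unipotence relation `SqAt` at a level `M` with `ℓ ∥ M` from (INJ-ss) at that level. -/
theorem sqAt_of_rootModular {M' ℓ m : ℕ} [NeZero M'] [NeZero ℓ] (hℓ : ℓ.Prime) (hℓM : ¬ ℓ ∣ M')
    (A : ValuationSubring Qb) (hA : A.LiesOverPrime ℓ) (hm : 0 < m)
    (h : Descend.InjSSRootModular (M' * ℓ) A (ToricSwap.wAL M' ℓ hℓ hℓM).toRingEquiv m) :
    AuxDescent.SqAt (M' * ℓ) m A :=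
  AuxDescent.sqAt_of_stepsAt (UniToric.stepsAt_level hℓ hℓM A hA hm
    (Descend.injSS_of_rootModular (M' * ℓ) hℓ A hA (ToricSwap.wAL M' ℓ hℓ hℓM).toRingEquiv hm h))

/-- **S34 from (INJ-ss) at the levels where the coordinate exists** (all `ℓ`, including
`ℓ ∈ {2, 3}` through the auxiliary level). -/
theorem result_of_rootAux
    {𝒪 : Type} [CommRing 𝒪] [IsDomain 𝒪] [IsDiscreteValuationRing 𝒪]
    [IsAdicComplete (maximalIdeal 𝒪) 𝒪] [Finite (ResidueField 𝒪)] [CharZero 𝒪]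
    {p : ℕ} (hp : p.Prime) (hp𝒪 : (p : 𝒪) ∈ maximalIdeal 𝒪)
    {N : ℕ} [NeZero N] {S : Finset ℕ} (hpS : p ∈ S) (hNS : ∀ q : ℕ, q.Prime → q ∣ N → q ∈ S)
    {θ : CuspForm.heckeAlgebra N 2 (↑S : Set ℕ) →+* ResidueField 𝒪}
    {T : Type} [CommRing T] [IsLocalRing T] [IsNoetherianRing T]
    [IsAdicComplete (maximalIdeal T) T] [Algebra 𝒪 T] [IsLocalHom (algebraMap 𝒪 T)]
    [Module.Finite 𝒪 T] [Module.Free 𝒪 T]
    (H : CuspForm.HeckeGaloisRepDatum N (↑S : Set ℕ) 𝒪 θ T)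
    (q : ℕ) (hq : q.Prime) (hqp : q ≠ p) (hqN : q ∣ N) (hq2 : ¬ q ^ 2 ∣ N)
    (hroot : RootAux p) :
    H.ρ.IsUnipotentOnInertiaAt q := by
  refine AuxDescent.isUnipotentOnInertiaAt_of_sqAt hp hp𝒪 hpS hNS H q hq hqp hqN hq2
    (bricks_k1 N) ?_
  intro ℓ hℓ _ _ hℓp P hP n M _ hℓM hℓM2 h3 h2
  obtain ⟨M', hM'⟩ := hℓM
  have hM : M' * ℓ = M := by rw [hM', mul_comm]
  have : NeZero M' := ⟨by
    rintro rfl
    rw [zero_mul] at hM
    exact NeZero.ne M hM.symm⟩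
  have : NeZero ℓ := ⟨hℓ.ne_zero⟩
  have hℓM' : ¬ ℓ ∣ M' := by
    rintro ⟨k, rfl⟩
    exact hℓM2 ⟨k, by rw [hM']; ring⟩
  have h3' : ℓ = 3 → 2 ∣ M' := fun h => by
    have h2M : 2 ∣ M' * 3 := by rw [← h, hM]; exact h3 h
    exact Nat.Coprime.dvd_of_dvd_mul_right (by norm_num) h2M
  have h2' : ℓ = 2 → 3 ∣ M' := fun h => by
    have h3M : 3 ∣ M' * 2 := by rw [← h, hM]; exact h2 h
    exact Nat.Coprime.dvd_of_dvd_mul_right (by norm_num) h3M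
  have hsq := sqAt_of_rootModular hℓ hℓM' P hP (pow_pos hp.pos n)
    (hroot M' ℓ hℓ hℓM' hℓp h3' h2' P hP n)
  rwa [hM] at hsq

/-- (INJ-ss), Kummer-field form, at the levels where the coordinate exists, for EVERY exponent
`m > 0` prime to `ℓ`. -/
def RootAuxAll : Prop :=
  ∀ (M ℓ : ℕ) [NeZero M] [NeZero ℓ] (hℓ : ℓ.Prime) (hℓM : ¬ ℓ ∣ M),
    (ℓ = 3 → 2 ∣ M) → (ℓ = 2 → 3 ∣ M) →
    ∀ A : ValuationSubring Qb, A.LiesOverPrime ℓ → ∀ m : ℕ, 0 < m → ¬ ℓ ∣ m →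
      Descend.InjSSRootModular (M * ℓ) A (ToricSwap.wAL M ℓ hℓ hℓM).toRingEquiv m

theorem rootAux_of_rootAuxAll (hroot : RootAuxAll) {p : ℕ} (hp : p.Prime) : RootAux p := by
  intro M ℓ _ _ hℓ hℓM hℓp h3 h2 A hA n
  exact hroot M ℓ hℓ hℓM h3 h2 A hA (p ^ n) (pow_pos hp.pos n) fun h =>
    hℓp ((Nat.prime_dvd_prime_iff_eq hℓ hp).1 (hℓ.dvd_of_dvd_pow h))

/-- **S34 from `RootAuxAll`.** -/
theorem result_of_rootAuxAll (hroot : RootAuxAll)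
    {𝒪 : Type} [CommRing 𝒪] [IsDomain 𝒪] [IsDiscreteValuationRing 𝒪]
    [IsAdicComplete (maximalIdeal 𝒪) 𝒪] [Finite (ResidueField 𝒪)] [CharZero 𝒪]
    {p : ℕ} (hp : p.Prime) (hp𝒪 : (p : 𝒪) ∈ maximalIdeal 𝒪)
    {N : ℕ} [NeZero N] {S : Finset ℕ} (hpS : p ∈ S) (hNS : ∀ q : ℕ, q.Prime → q ∣ N → q ∈ S)
    {θ : CuspForm.heckeAlgebra N 2 (↑S : Set ℕ) →+* ResidueField 𝒪}
    {T : Type} [CommRing T] [IsLocalRing T] [IsNoetherianRing T]
    [IsAdicComplete (maximalIdeal T) T] [Algebra 𝒪 T] [IsLocalHom (algebraMap 𝒪 T)]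
    [Module.Finite 𝒪 T] [Module.Free 𝒪 T]
    (H : CuspForm.HeckeGaloisRepDatum N (↑S : Set ℕ) 𝒪 θ T)
    (q : ℕ) (hq : q.Prime) (hqp : q ≠ p) (hqN : q ∣ N) (hq2 : ¬ q ^ 2 ∣ N) :
    H.ρ.IsUnipotentOnInertiaAt q :=
  result_of_rootAux hp hp𝒪 hpS hNS H q hq hqp hqN hq2 (rootAux_of_rootAuxAll hroot hp)

/-- The instance `ℓ > 3` of `RootAuxAll` (coordinate `j`, every level `M ℓ`, `ℓ ∤ M`). -/
def RootGt3 : Prop :=
  ∀ (M ℓ : ℕ) [NeZero M] [NeZero ℓ] (hℓ : ℓ.Prime) (hℓM : ¬ ℓ ∣ M), 3 < ℓ →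
    ∀ A : ValuationSubring Qb, A.LiesOverPrime ℓ → ∀ m : ℕ, 0 < m → ¬ ℓ ∣ m →
      Descend.InjSSRootModular (M * ℓ) A (ToricSwap.wAL M ℓ hℓ hℓM).toRingEquiv m

/-- The instance `ℓ ∈ {2, 3}` of `RootAuxAll` (coordinate the Hauptmodul of level `r = 5 - ℓ`,
levels `M ℓ` with `r ∣ M`, `ℓ ∤ M`). -/
def RootSmall : Prop :=
  ∀ (M ℓ : ℕ) [NeZero M] [NeZero ℓ] (hℓ : ℓ.Prime) (hℓM : ¬ ℓ ∣ M),
    (ℓ = 3 ∧ 2 ∣ M) ∨ (ℓ = 2 ∧ 3 ∣ M) →
    ∀ A : ValuationSubring Qb, A.LiesOverPrime ℓ → ∀ m : ℕ, 0 < m → ¬ ℓ ∣ m →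
      Descend.InjSSRootModular (M * ℓ) A (ToricSwap.wAL M ℓ hℓ hℓM).toRingEquiv m

theorem rootAuxAll_of_cases (hbig : RootGt3) (hsmall : RootSmall) : RootAuxAll := by
  intro M ℓ _ _ hℓ hℓM h3 h2 A hA m hm hℓm
  by_cases h3' : ℓ = 3
  · exact hsmall M ℓ hℓ hℓM (Or.inl ⟨h3', h3 h3'⟩) A hA m hm hℓm
  by_cases h2' : ℓ = 2
  · exact hsmall M ℓ hℓ hℓM (Or.inr ⟨h2', h2 h2'⟩) A hA m hm hℓm
  have h3lt : 3 < ℓ := by
    have h2le := hℓ.two_le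
    omega
  exact hbig M ℓ hℓ hℓM h3lt A hA m hm hℓm

/-- **S34 from the two modular instances of (INJ-ss).** -/
theorem result_of_cases (hbig : RootGt3) (hsmall : RootSmall)
    {𝒪 : Type} [CommRing 𝒪] [IsDomain 𝒪] [IsDiscreteValuationRing 𝒪]
    [IsAdicComplete (maximalIdeal 𝒪) 𝒪] [Finite (ResidueField 𝒪)] [CharZero 𝒪]
    {p : ℕ} (hp : p.Prime) (hp𝒪 : (p : 𝒪) ∈ maximalIdeal 𝒪)
    {N : ℕ} [NeZero N] {S : Finset ℕ} (hpS : p ∈ S) (hNS : ∀ q : ℕ, q.Prime → q ∣ N → q ∈ S)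
    {θ : CuspForm.heckeAlgebra N 2 (↑S : Set ℕ) →+* ResidueField 𝒪}
    {T : Type} [CommRing T] [IsLocalRing T] [IsNoetherianRing T]
    [IsAdicComplete (maximalIdeal T) T] [Algebra 𝒪 T] [IsLocalHom (algebraMap 𝒪 T)]
    [Module.Finite 𝒪 T] [Module.Free 𝒪 T]
    (H : CuspForm.HeckeGaloisRepDatum N (↑S : Set ℕ) 𝒪 θ T)
    (q : ℕ) (hq : q.Prime) (hqp : q ≠ p) (hqN : q ∣ N) (hq2 : ¬ q ^ 2 ∣ N) :
    H.ρ.IsUnipotentOnInertiaAt q :=
  result_of_rootAuxAll (rootAuxAll_of_cases hbig hsmall) hp hp𝒪 hpS hNS H q hq hqp hqN hq2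

end Fermat.Agent.S34.Final
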