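import Mathlib
import Fermat.Agent.S34.InertiaAut
import Fermat.Agent.S34.Modular.SwapE
import Fermat.Agent.S18.K1Main.JBase

/-!
# S34 / Program U, (M3) for the coordinate `u = j` at level `M ℓ`

`E ⊆ ℚ̄` a number field normal over `ℚ`, `O = A ∩ E`, `L = LE (M ℓ) E`, `u = jE (M ℓ) E`
(the coordinate of E2; RULING #5), `w_E` any swap (an `E`-algebra automorphism of `L`
exchanging the degeneracy maps `α`, `β`).  For `τ` in the inertia group of `A`:

* `isModelAut_j`     : `IsModelAut (OE A E) j τ_E`;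
* `trivialMod_j_inf` : `TrivialMod P τ_E` for every ideal `P` of the overlap chart of `j`
  containing the kernel of `red` (the component `v_∞`);
* `trivialMod_j_zero`: `TrivialMod P τ_E` for every ideal `P` containing the kernel of
  `red ∘ w_E` (the component `v_0`).

These are the three hypotheses `hσ`, `h₁`, `h₂` of `Nodal.inj_ss_of_cartier` (and of
`NodalDatum.trivMod_zero / trivMod_inf`) on the modular side.
-/

set_option autoImplicit false

open ModularCurve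

noncomputable section

namespace Fermat.Agent.S34.InertiaJ

open Fermat.Agent.S30 Fermat.Agent.S18.K1Defs Fermat.Agent.S18.K1Main
open Fermat.Agent.S34.TrivModE Fermat.Agent.S34.InertiaAut Fermat.Agent.S34.Nodal
open Fermat.Agent.S34.Modular.SwapE

local notation "Qb" => AlgebraicClosure ℚ
local notation "Gq" => (AlgebraicClosure ℚ ≃ₐ[ℚ] AlgebraicClosure ℚ)

/-! ### `j` and `j(q^ℓ)` in the Gauss ring -/

section Gauss

variable (N : ℕ) [NeZero N] (E : IntermediateField ℚ Qb) (A : ValuationSubring Qb)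
  [IsDiscreteValuationRing (OE A E)]

theorem rho_jqModC_ne_zero : GaussDVR.rho (OE A E) (jqModC (OE A E)) ≠ 0 := by
  intro h
  have h1 := order_rho_jqModC_neg (O := OE A E)
  rw [h, HahnSeries.order_zero] at h1
  exact lt_irrefl _ h1

theorem jE_mem_V : ((jE N E : LE N E) : LaurentSeries E) ∈ GaussDVR.V (OE A E) E := by
  rw [coe_jE, coeffEmb_jq_eq_iota (O := OE A E) (E := E)]
  exact GaussDVR.mem_of_int _ _ _

theorem inv_jE_mem_V : (((jE N E)⁻¹ : LE N E) : LaurentSeries E) ∈ GaussDVR.V (OE A E) E := by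
  have h2 := GaussDVR.inv_mem (OE A E) E (GaussDVR.ofInt (OE A E) E (jqModC (OE A E)))
    (by rw [GaussDVR.red_ofInt]; exact rho_jqModC_ne_zero E A)
  rw [GaussDVR.coe_ofInt, ← coeffEmb_jq_eq_iota (O := OE A E) (E := E)] at h2
  exact h2

omit [IsDiscreteValuationRing (OE A E)] in
/-- The coefficientwise Galois action fixes `j`. -/
theorem arithmeticRingAut_jE (σ : E ≃ₐ[ℚ] E) :
    arithmeticRingAut (modularFunctionFieldFull N) σ (jE N E) = jE N E := by
  apply Subtype.ext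
  rw [coe_arithmeticRingAut_apply, coe_jE, coeffMap_coeffEmb]

end Gauss

/-! ### The swap of `j` -/

section Swap

variable (M ℓ : ℕ) [NeZero M] [NeZero ℓ] (E : IntermediateField ℚ Qb)

/-- `α j = j` at level `M ℓ`. -/
theorem alpha_jE : heckeAlphaBar E M ℓ (jE M E) = jE (M * ℓ) E := by
  apply Subtype.ext
  rw [coe_heckeAlphaBar, coe_jE, coe_jE]

/-- The swap of `j` is `j(q^ℓ)`. -/
theorem coe_swap_jE (wE : LE (M * ℓ) E ≃ₐ[E] LE (M * ℓ) E)
    (hα : ∀ f, wE (heckeAlphaBar E M ℓ f) = heckeBetaBar E M ℓ f) :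
    ((wE (jE (M * ℓ) E) : LE (M * ℓ) E) : LaurentSeries E) = qExpand E ℓ (coeffEmb E jq) := by
  rw [← alpha_jE, hα, coe_heckeBetaBar, coe_jE]

variable (A : ValuationSubring Qb) [IsDiscreteValuationRing (OE A E)]

theorem coe_swap_jE_eq_iota (wE : LE (M * ℓ) E ≃ₐ[E] LE (M * ℓ) E)
    (hα : ∀ f, wE (heckeAlphaBar E M ℓ f) = heckeBetaBar E M ℓ f) :
    ((wE (jE (M * ℓ) E) : LE (M * ℓ) E) : LaurentSeries E)
      = GaussDVR.iota (OE A E) E (qExpand (OE A E) ℓ (jqModC (OE A E))) := by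
  rw [coe_swap_jE M ℓ E wE hα, coeffEmb_jq_eq_iota (O := OE A E) (E := E)]
  exact (ModularCurve.coeffMap_qExpand _ _ _).symm

theorem swap_jE_mem_V (wE : LE (M * ℓ) E ≃ₐ[E] LE (M * ℓ) E)
    (hα : ∀ f, wE (heckeAlphaBar E M ℓ f) = heckeBetaBar E M ℓ f) :
    ((wE (jE (M * ℓ) E) : LE (M * ℓ) E) : LaurentSeries E) ∈ GaussDVR.V (OE A E) E := by
  rw [coe_swap_jE_eq_iota M ℓ E A wE hα]
  exact GaussDVR.mem_of_int _ _ _

theorem inv_swap_jE_mem_V (wE : LE (M * ℓ) E ≃ₐ[E] LE (M * ℓ) E)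
    (hα : ∀ f, wE (heckeAlphaBar E M ℓ f) = heckeBetaBar E M ℓ f) :
    (((wE (jE (M * ℓ) E))⁻¹ : LE (M * ℓ) E) : LaurentSeries E) ∈ GaussDVR.V (OE A E) E := by
  have h1 : GaussDVR.rho (OE A E) (qExpand (OE A E) ℓ (jqModC (OE A E))) ≠ 0 := by
    intro h
    have h2 : (GaussDVR.rho (OE A E) (qExpand (OE A E) ℓ (jqModC (OE A E)))).coeff
        ((ℓ : ℤ) * (-1)) = 1 := by
      show (coeffMap (IsLocalRing.residue (OE A E))
        (qExpand (OE A E) ℓ (jqModC (OE A E)))).coeff ((ℓ : ℤ) * (-1)) = 1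
      rw [ModularCurve.coeffMap_qExpand, qExpand_coeff_mul, coeffMap_jqModC,
        ModSep.jqModC_coeff_neg_one]
    rw [h] at h2
    exact zero_ne_one h2
  have h2 := GaussDVR.inv_mem (OE A E) E
    (GaussDVR.ofInt (OE A E) E (qExpand (OE A E) ℓ (jqModC (OE A E))))
    (by rw [GaussDVR.red_ofInt]; exact h1)
  rw [GaussDVR.coe_ofInt, ← coe_swap_jE_eq_iota M ℓ E A wE hα] at h2
  exact h2

end Swap

/-! ### The three hypotheses of the nodal contract for inertia -/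

section Main

variable (M ℓ : ℕ) [NeZero M] [NeZero ℓ] (E : IntermediateField ℚ Qb) [Normal ℚ E]
  (A : ValuationSubring Qb) [IsDiscreteValuationRing (OE A E)]
  [Algebra (OE A E) (LE (M * ℓ) E)] [IsScalarTower (OE A E) E (LE (M * ℓ) E)]

/-- **Inertia is a model automorphism** for the coordinate `j`. -/
theorem isModelAut_j {τ : Gq} (hτ : τ ∈ A.inertiaSubgroupIn ℚ) :
    IsModelAut (OE A E) (jE (M * ℓ) E) (galE E (M * ℓ) τ) :=
  isModelAut_galE_of_mem A E (M * ℓ) hτ (jE (M * ℓ) E) (arithmeticRingAut_jE (M * ℓ) E _)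

/-- **Inertia acts trivially on the residue ring at `v_∞`** (coordinate `j`). -/
theorem trivialMod_j_inf (π : OE A E) (hπ : Irreducible π) {τ : Gq}
    (hτ : τ ∈ A.inertiaSubgroupIn ℚ)
    (P : Ideal (Overlap (OE A E) (jE (M * ℓ) E)))
    (hP : ∀ (x : Overlap (OE A E) (jE (M * ℓ) E))
      (hx : (((x : LE (M * ℓ) E) : LE (M * ℓ) E) : LaurentSeries E) ∈ GaussDVR.V (OE A E) E),
      GaussDVR.red (OE A E) E ⟨_, hx⟩ = 0 → x ∈ P) :
    TrivialMod P (galE E (M * ℓ) τ) :=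
  trivialMod_galE A E (M * ℓ) π hπ hτ (jE (M * ℓ) E) (jE_mem_V (M * ℓ) E A)
    (inv_jE_mem_V (M * ℓ) E A) (arithmeticRingAut_jE (M * ℓ) E _) P hP

/-- **Inertia acts trivially on the residue ring at `v_0 = v_∞ ∘ w_E`** (coordinate `j`). -/
theorem trivialMod_j_zero (hℓ : ℓ.Prime) (π : OE A E) (hπ : Irreducible π) {τ : Gq}
    (hτ : τ ∈ A.inertiaSubgroupIn ℚ)
    (wE : LE (M * ℓ) E ≃ₐ[E] LE (M * ℓ) E)
    (hα : ∀ f, wE (heckeAlphaBar E M ℓ f) = heckeBetaBar E M ℓ f)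
    (hβ : ∀ f, wE (heckeBetaBar E M ℓ f) = heckeAlphaBar E M ℓ f)
    (P : Ideal (Overlap (OE A E) (jE (M * ℓ) E)))
    (hP : ∀ (x : Overlap (OE A E) (jE (M * ℓ) E))
      (hWx : ((wE (x : LE (M * ℓ) E) : LE (M * ℓ) E) : LaurentSeries E)
        ∈ GaussDVR.V (OE A E) E),
      GaussDVR.red (OE A E) E ⟨_, hWx⟩ = 0 → x ∈ P) :
    TrivialMod P (galE E (M * ℓ) τ) :=
  trivialMod_galE_swap A E (M * ℓ) π hπ hτ (jE (M * ℓ) E) (arithmeticRingAut_jE (M * ℓ) E _)
    wE.toRingEquiv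
    (fun x => swap_arithmeticRingAut M ℓ hℓ wE hα hβ (τ.restrictNormal E) x)
    (fun a => by
      show wE (algebraMap (OE A E) (LE (M * ℓ) E) a) = _
      rw [IsScalarTower.algebraMap_apply (OE A E) E (LE (M * ℓ) E), AlgEquiv.commutes])
    (swap_jE_mem_V M ℓ E A wE hα) (inv_swap_jE_mem_V M ℓ E A wE hα) P hP

end Main

end Fermat.Agent.S34.InertiaJ
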