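import Fermat.Agent.S34.RootGlue
import Fermat.Agent.S34.ToricSwap
import Fermat.Agent.S18.K1Main.Units
import Fermat.Agent.S18.K1Main.JBase

/-!
# S34, RootGlue (general coordinate): `InjSSRootModular` from a nodal datum over number fields

* `HasRootDatum N A W E π` : the modular inputs of `RootGlue.injSSRootE_of_nodal` over one number
  field `E` (for the canonical algebra structure `K1Main.algebraOL`): a coordinate `u`, a swap
  `wE` of `LE N E` lifting `W`, a nodal datum `D` for `(π, u)` whose primes are the centres of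
  the two Gauss valuations, `u` and `wE u` units of the Gauss ring, `u` fixed by inertia.
* `injSSRootModular_of_datum` : if `HasRootDatum` holds over every sufficiently large number
  field, then `Descend.InjSSRootModular N A W m` for every `m > 0` prime to `ℓ`.
* `injSSRootModular_wAL_of_datum` : the case `N = M ℓ`, `W = ToricSwap.wAL`.
-/

set_option autoImplicit false
set_option linter.unusedSectionVars false
set_option synthInstance.maxHeartbeats 400000
set_option maxHeartbeats 1000000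

noncomputable section

namespace Fermat.Agent.S34.RootGlue

open ModularCurve AlgebraicCurve HahnSeries IntermediateField
open Fermat.Agent.S18.K1Defs Fermat.Agent.S18.K1Top Fermat.Agent.S18.K1Main
open Fermat.Agent.S30 Fermat.Agent.S30.E4 Fermat.Agent.S30.Model
open Fermat.Agent.S34.Nodal Fermat.Agent.S34.Descend Fermat.Agent.S34.TrivModE

local notation "Qb" => AlgebraicClosure ℚ
local notation "Gq" => (AlgebraicClosure ℚ ≃ₐ[ℚ] AlgebraicClosure ℚ)

/-- **The modular inputs of RootGlue over one number field.**  For the canonical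
`O_E`-algebra structure on `LE N E`: a coordinate `u`, a swap `wE` lifting `W`, and a nodal datum
for `(π, u)` whose two primes are the centres of the Gauss valuation and of its twist by `wE`;
`u` and `wE u` are units of the Gauss ring, and `u` is fixed by the coefficientwise action of
the inertia group. -/
def HasRootDatum (N : ℕ) [NeZero N] (A : ValuationSubring Qb) (W : Fb N ≃+* Fb N)
    (E : IntermediateField ℚ Qb) [Normal ℚ E] [IsDiscreteValuationRing (OE A E)]
    (π : OE A E) : Prop :=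
  letI := algebraOL (OE A E) E (LE N E)
  ∃ (u : LE N E) (wE : LE N E ≃+* LE N E) (D : NodalDatum π u),
    Transcendental E u ∧ FiniteDimensional (IntermediateField.adjoin E {u}) (LE N E) ∧
    (∀ z : LE N E, upF N E (wE z) = W (upF N E z)) ∧
    (((u : LE N E) : LaurentSeries E) ∈ GaussDVR.V (OE A E) E) ∧
    (((u⁻¹ : LE N E) : LaurentSeries E) ∈ GaussDVR.V (OE A E) E) ∧
    (((wE u : LE N E) : LaurentSeries E) ∈ GaussDVR.V (OE A E) E) ∧
    ((((wE u)⁻¹ : LE N E) : LaurentSeries E) ∈ GaussDVR.V (OE A E) E) ∧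
    (∀ τ : Gq, τ ∈ A.inertiaSubgroupIn ℚ → galE E N τ u = u) ∧
    (∀ (x : Overlap (OE A E) u)
      (hx : (((x : LE N E) : LE N E) : LaurentSeries E) ∈ GaussDVR.V (OE A E) E),
      x ∈ D.P₁ ↔ GaussDVR.red (OE A E) E ⟨_, hx⟩ = 0) ∧
    (∀ (x : Overlap (OE A E) u)
      (hx : ((wE (x : LE N E) : LE N E) : LaurentSeries E) ∈ GaussDVR.V (OE A E) E),
      x ∈ D.P₂ ↔ GaussDVR.red (OE A E) E ⟨_, hx⟩ = 0)

/-- An element of the Gauss ring whose inverse lies in the Gauss ring has nonzero reduction. -/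
theorem red_ne_zero_of_inv_mem {O E : Type*} [CommRing O] [IsDomain O]
    [IsDiscreteValuationRing O] [Field E] [Algebra O E] [FaithfulSMul O E]
    (x : LaurentSeries E) (hx : x ∈ GaussDVR.V O E) (hx' : x⁻¹ ∈ GaussDVR.V O E)
    (hx0 : x ≠ 0) : GaussDVR.red O E ⟨x, hx⟩ ≠ 0 := by
  intro h0
  have h1 : (⟨x, hx⟩ : GaussDVR.V O E) * ⟨x⁻¹, hx'⟩ = 1 :=
    Subtype.ext (mul_inv_cancel₀ hx0)
  have h2 := congrArg (GaussDVR.red O E) h1
  rw [map_mul, h0, zero_mul, map_one] at h2
  exact zero_ne_one h2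

/-- **`InjSSRootModular` from nodal data over all large number fields** (general level, general
swap `W` fixing the constants and commuting with the Galois action, general coordinate). -/
theorem injSSRootModular_of_datum (N : ℕ) [NeZero N] {ℓ : ℕ} (hℓ : ℓ.Prime)
    (A : ValuationSubring Qb) (hA : A.LiesOverPrime ℓ) (W : Fb N ≃+* Fb N)
    (hWc : ∀ c : Qb, W (algebraMap Qb (Fb N) c) = algebraMap Qb (Fb N) c)
    (hWgal : ∀ (σ : Gq) (x : Fb N), W (gal N σ x) = gal N σ (W x))
    (m : ℕ) (hm : 0 < m) (hℓm : ¬ ℓ ∣ m)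
    (h : ∃ S₀ : Finset Qb, ∀ (E : IntermediateField ℚ Qb) [FiniteDimensional ℚ E] [Normal ℚ E]
      [IsDiscreteValuationRing (OE A E)], (∀ s ∈ S₀, s ∈ E) →
      ∀ π : OE A E, Irreducible π → HasRootDatum N A W E π) :
    InjSSRootModular N A W m := by
  classical
  obtain ⟨S₀, hS₀⟩ := h
  have : NeZero (m : Qb) := ⟨Nat.cast_ne_zero.mpr hm.ne'⟩
  obtain ⟨z, hz⟩ := HasEnoughRootsOfUnity.exists_primitiveRoot Qb m
  refine ⟨insert z S₀, fun E _ _ _ hE => ?_⟩
  have hzE : z ∈ E := hE z (Finset.mem_insert_self z S₀)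
  obtain ⟨ζ, hζ⟩ := exists_primitiveRoot_OE A E hm hz hzE
  have hmU : IsUnit ((m : ℕ) : OE A E) :=
    isUnit_natCast_OE A E hA m (Nat.Coprime.symm ((Nat.Prime.coprime_iff_not_dvd hℓ).mpr hℓm))
  obtain ⟨π, hπ⟩ := IsDiscreteValuationRing.exists_irreducible (OE A E)
  have hD := hS₀ E (fun s hs => hE s (Finset.mem_insert_of_mem hs)) π hπ
  letI := algebraOL (OE A E) E (LE N E)
  haveI := isScalarTower_OL (OE A E) E (LE N E)
  obtain ⟨u, wE, D, hu, hfd, hwE, huV, huinv, hwu, hwuinv, hτu, hP₁, hP₂⟩ := hD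
  haveI := hfd
  have hu0 : u ≠ 0 := by
    rintro rfl
    exact hu (by
      have : IsAlgebraic E (0 : LE N E) := isAlgebraic_zero
      exact this)
  have hwu0 : wE u ≠ 0 := fun h0 => hu0 ((map_eq_zero_iff wE wE.injective).mp h0)
  have hu' : GaussDVR.red (OE A E) E ⟨_, huV⟩ ≠ 0 :=
    red_ne_zero_of_inv_mem _ huV (by rw [← IntermediateField.coe_inv]; exact huinv)
      (fun h0 => hu0 (Subtype.ext h0))
  have hwu' : GaussDVR.red (OE A E) E ⟨_, hwu⟩ ≠ 0 :=
    red_ne_zero_of_inv_mem _ hwu (by rw [← IntermediateField.coe_inv]; exact hwuinv)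
      (fun h0 => hwu0 (Subtype.ext h0))
  exact injSSRootE_of_nodal N A E W m π hπ u hu huV hu' wE hwE
    (swap_algebraMap_OE N A E W hWc wE hwE) hwu hwu' D hP₁ hP₂ hmU ζ hζ hτu
    (fun τ _ x => swap_galE_comm N E W hWgal wE hwE τ x)

/-- **The case of the Atkin–Lehner swap** at level `M ℓ`: the statement consumed by
`S34/Final.lean` (`RootGt3`, `RootSmall`). -/
theorem injSSRootModular_wAL_of_datum (M ℓ : ℕ) [NeZero M] [NeZero ℓ] (hℓ : ℓ.Prime)
    (hℓM : ¬ ℓ ∣ M) (A : ValuationSubring Qb) (hA : A.LiesOverPrime ℓ)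
    (m : ℕ) (hm : 0 < m) (hℓm : ¬ ℓ ∣ m)
    (h : ∃ S₀ : Finset Qb, ∀ (E : IntermediateField ℚ Qb) [FiniteDimensional ℚ E] [Normal ℚ E]
      [IsDiscreteValuationRing (OE A E)], (∀ s ∈ S₀, s ∈ E) →
      ∀ π : OE A E, Irreducible π →
        HasRootDatum (M * ℓ) A (Fermat.Agent.S34.ToricSwap.wAL M ℓ hℓ hℓM).toRingEquiv E π) :
    InjSSRootModular (M * ℓ) A (Fermat.Agent.S34.ToricSwap.wAL M ℓ hℓ hℓM).toRingEquiv m :=
  injSSRootModular_of_datum (M * ℓ) hℓ A hA _
    (fun c => (Fermat.Agent.S34.ToricSwap.wAL M ℓ hℓ hℓM).commutes c)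
    (fun σ x => Fermat.Agent.S34.ToricSwap.wAL_gal hℓ hℓM σ x) m hm hℓm h

end Fermat.Agent.S34.RootGlue
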