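/-
S34 — FINAL WIRING for `ℓ > 3` (helper144; U captain RULING #9 (F6)).

* `hasRootDatum_j` : helper243's `RootGlue.HasRootDatum` at level `M ℓ` for the coordinate
  `u = j` and the swap `HauptU.Plug.wHom` (the restriction of `ToricSwap.wAL` to `LE (M ℓ) E`)
  from NOTHING BUT a nodal datum `D` for `(π, u)` and the two Gauss characterisations of its
  primes (`x ∈ D.P₁ ↔ red x = 0`, `x ∈ D.P₂ ↔ red (w x) = 0`).  All the side conditions
  (transcendence, finiteness over `E(j)`, compatibility of the swap with extension of constants,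
  `j`, `j⁻¹`, `w j`, `(w j)⁻¹` in the Gauss ring, `j` fixed by the Galois action) are discharged
  here.  The coordinate may be given as any `u` with a proof `u = K1Main.jE (M ℓ) E`
  (e.g. `u = alphaHom M ℓ E (jE M E)` with `InertiaJ.alpha_jE`).
* `RootDatumGt3` : the one open statement of S34 for `ℓ > 3`, in `HasRootDatum` form.
* `rootGt3_of_datum : RootDatumGt3 → Final.RootGt3` (= `RootGlue.injSSRootModular_wAL_of_datum`).
* `NodalDatumGt3` : the same in "nodal datum + characterisations" form, and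
  `rootDatumGt3_of_nodal : NodalDatumGt3 → RootDatumGt3`.
-/
import Mathlib
import Fermat.Agent.S34.Final
import Fermat.Agent.S34.InertiaJ
import Fermat.Agent.S34.RootDatum
import Fermat.Agent.S34.HauptU.Plug

set_option autoImplicit false
set_option linter.unusedSectionVars false
set_option linter.style.haveILetI false
set_option synthInstance.maxHeartbeats 400000

open ModularCurve

noncomputable section

namespace Fermat.Agent.S34.FinalGt3

open Fermat.Agent.S30 Fermat.Agent.S18.K1Defs Fermat.Agent.S18.K1Main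
open Fermat.Agent.S34.TrivModE Fermat.Agent.S34.InertiaAut Fermat.Agent.S34.Nodal
open Fermat.Agent.S34.Modular.SwapE Fermat.Agent.S34.HauptU

local notation "Qb" => AlgebraicClosure ℚ
local notation "Gq" => (AlgebraicClosure ℚ ≃ₐ[ℚ] AlgebraicClosure ℚ)

/-! ### The coordinate `j` at level `N` -/

section Coord

variable (N : ℕ) [NeZero N] (E : IntermediateField ℚ Qb)

/-- The two incarnations of `j ∈ LE N E` agree. -/
theorem jE_eq_degree : jE N E = E2Deg.jE N E := Subtype.ext rfl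

/-- `j` is transcendental over `E`. -/
theorem transcendental_j : Transcendental E (jE N E) := by
  rw [jE_eq_degree]
  exact E2Deg.transcendental_jE N E

/-- `LE N E` is finite over `E(j)`. -/
theorem finite_j : FiniteDimensional (IntermediateField.adjoin E {jE N E}) (LE N E) := by
  rw [jE_eq_degree]
  exact E2Deg.finite_LE N E

end Coord

/-! ### The root datum of the coordinate `j` from a nodal datum -/

section Datum

variable (M ℓ : ℕ) [NeZero M] [NeZero ℓ] (hℓ : ℓ.Prime) (hℓM : ¬ ℓ ∣ M)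
  (A : ValuationSubring Qb) (E : IntermediateField ℚ Qb) [Normal ℚ E]
  [IsDiscreteValuationRing (OE A E)]

/-- Extension of constants intertwines `Plug.wHom` and `ToricSwap.wAL`. -/
theorem upF_wHom (z : LE (M * ℓ) E) :
    Descend.upF (M * ℓ) E (Plug.wHom M ℓ E hℓ hℓM z) =
      (ToricSwap.wAL M ℓ hℓ hℓM).toRingEquiv (Descend.upF (M * ℓ) E z) :=
  Plug.upE_wE M ℓ E hℓ hℓM z

/-- **The root datum for the coordinate `j`** at level `M ℓ` (swap `Plug.wHom`), from a nodal
datum with the two Gauss characterisations of its primes. -/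
theorem hasRootDatum_j (π : OE A E)
    (u : LE (M * ℓ) E) (hu : u = jE (M * ℓ) E)
    (D : letI := algebraOL (OE A E) E (LE (M * ℓ) E); NodalDatum π u)
    (hP₁ : letI := algebraOL (OE A E) E (LE (M * ℓ) E)
      ∀ (x : Overlap (OE A E) u)
      (hx : (((x : LE (M * ℓ) E) : LE (M * ℓ) E) : LaurentSeries E) ∈ GaussDVR.V (OE A E) E),
      x ∈ D.P₁ ↔ GaussDVR.red (OE A E) E ⟨_, hx⟩ = 0)
    (hP₂ : letI := algebraOL (OE A E) E (LE (M * ℓ) E)
      ∀ (x : Overlap (OE A E) u)
      (hx : ((Plug.wHom M ℓ E hℓ hℓM (x : LE (M * ℓ) E) : LE (M * ℓ) E) : LaurentSeries E)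
        ∈ GaussDVR.V (OE A E) E),
      x ∈ D.P₂ ↔ GaussDVR.red (OE A E) E ⟨_, hx⟩ = 0) :
    RootGlue.HasRootDatum (M * ℓ) A (ToricSwap.wAL M ℓ hℓ hℓM).toRingEquiv E π := by
  subst hu
  letI := algebraOL (OE A E) E (LE (M * ℓ) E)
  exact ⟨jE (M * ℓ) E, Plug.wHom M ℓ E hℓ hℓM, D, transcendental_j (M * ℓ) E,
    finite_j (M * ℓ) E, upF_wHom M ℓ hℓ hℓM E, InertiaJ.jE_mem_V (M * ℓ) E A,
    InertiaJ.inv_jE_mem_V (M * ℓ) E A,
    InertiaJ.swap_jE_mem_V M ℓ E A (Plug.wE M ℓ E hℓ hℓM) (Plug.wE_alpha M ℓ E hℓ hℓM),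
    InertiaJ.inv_swap_jE_mem_V M ℓ E A (Plug.wE M ℓ E hℓ hℓM) (Plug.wE_alpha M ℓ E hℓ hℓM),
    fun τ _ => InertiaJ.arithmeticRingAut_jE (M * ℓ) E _, hP₁, hP₂⟩

end Datum

/-! ### The exits -/

/-- **The one open statement of S34 for `ℓ > 3`**, in `HasRootDatum` form: over every
sufficiently large number field `E` (finite, normal over `ℚ`, `A ∩ E` a discrete valuation
ring) and for every uniformiser, the root datum at level `M ℓ` for the swap `ToricSwap.wAL`. -/
def RootDatumGt3 : Prop :=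
  ∀ (M ℓ : ℕ) [NeZero M] [NeZero ℓ] (hℓ : ℓ.Prime) (hℓM : ¬ ℓ ∣ M), 3 < ℓ →
    ∀ A : ValuationSubring Qb, A.LiesOverPrime ℓ →
      ∃ S₀ : Finset Qb, ∀ (E : IntermediateField ℚ Qb) [FiniteDimensional ℚ E] [Normal ℚ E]
        [IsDiscreteValuationRing (OE A E)], (∀ s ∈ S₀, s ∈ E) →
        ∀ π : OE A E, Irreducible π →
          RootGlue.HasRootDatum (M * ℓ) A (ToricSwap.wAL M ℓ hℓ hℓM).toRingEquiv E π

/-- `Final.RootGt3` from the root data over all large number fields. -/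
theorem rootGt3_of_datum (h : RootDatumGt3) : Final.RootGt3 :=
  fun M ℓ _ _ hℓ hℓM h3 A hA m hm hℓm =>
    RootGlue.injSSRootModular_wAL_of_datum M ℓ hℓ hℓM A hA m hm hℓm (h M ℓ hℓ hℓM h3 A hA)

/-- The same open statement in "nodal datum + Gauss characterisations" form, coordinate
`u = j` at level `M ℓ`, swap `Plug.wHom`. -/
def NodalDatumGt3 : Prop :=
  ∀ (M ℓ : ℕ) [NeZero M] [NeZero ℓ] (hℓ : ℓ.Prime) (hℓM : ¬ ℓ ∣ M), 3 < ℓ →
    ∀ A : ValuationSubring Qb, A.LiesOverPrime ℓ →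
      ∃ S₀ : Finset Qb, ∀ (E : IntermediateField ℚ Qb) [FiniteDimensional ℚ E] [Normal ℚ E]
        [IsDiscreteValuationRing (OE A E)], (∀ s ∈ S₀, s ∈ E) →
        ∀ π : OE A E, Irreducible π →
          letI := algebraOL (OE A E) E (LE (M * ℓ) E)
          ∃ D : NodalDatum π (jE (M * ℓ) E),
            (∀ (x : Overlap (OE A E) (jE (M * ℓ) E))
              (hx : (((x : LE (M * ℓ) E) : LE (M * ℓ) E) : LaurentSeries E) ∈
                GaussDVR.V (OE A E) E),
              x ∈ D.P₁ ↔ GaussDVR.red (OE A E) E ⟨_, hx⟩ = 0) ∧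
            (∀ (x : Overlap (OE A E) (jE (M * ℓ) E))
              (hx : ((Plug.wHom M ℓ E hℓ hℓM (x : LE (M * ℓ) E) : LE (M * ℓ) E) :
                LaurentSeries E) ∈ GaussDVR.V (OE A E) E),
              x ∈ D.P₂ ↔ GaussDVR.red (OE A E) E ⟨_, hx⟩ = 0)

theorem rootDatumGt3_of_nodal (h : NodalDatumGt3) : RootDatumGt3 := by
  intro M ℓ _ _ hℓ hℓM h3 A hA
  obtain ⟨S₀, hS₀⟩ := h M ℓ hℓ hℓM h3 A hA
  refine ⟨S₀, fun E _ _ _ hE π hπ => ?_⟩
  obtain ⟨D, hP₁, hP₂⟩ := hS₀ E hE π hπ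
  exact hasRootDatum_j M ℓ hℓ hℓM A E π (jE (M * ℓ) E) rfl D hP₁ hP₂

end Fermat.Agent.S34.FinalGt3
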