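import Mathlib

/-!
# Program U, sec. 7: shape lemmas for an auxiliary parameter

Pure polynomial algebra (Mathlib only).

* `isIntegral_of_top_form` : a two-variable relation with a unique top-degree term
  `u0 * F(x) * G(y)`, `F`, `G` monic of degree `D`, all other terms of total degree `< 2 D`,
  makes `x` integral over `R[x + y]`.
* `isIntegral_of_modular_shape` : if `jx * u ^ k = P(u)`, `jy * v ^ k = P(v)` with `P` monic of
  degree `k + 1` and `(jx, jy)` satisfies a relation with unique top term `jx ^ l * jy ^ l`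
  (the shape of the modular equation), then `u` is integral over `R[u + v]`.
* `cusp_shape` : the relation near the cusp for `s = 1 / u`, `s' = 1 / v`.
-/

namespace Fermat.Agent.S34.AuxShape

open Polynomial

section Refl

variable {A : Type*} [CommRing A]

theorem natDegree_C_sub_X_le (T : A) : (C T - X : A[X]).natDegree ≤ 1 := by
  refine (natDegree_sub_le _ _).trans (max_le ?_ natDegree_X_le)
  simp

theorem natDegree_comp_refl_le (T : A) (g : A[X]) :
    (g.comp (C T - X)).natDegree ≤ g.natDegree := by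
  refine natDegree_comp_le.trans ?_
  calc g.natDegree * (C T - X : A[X]).natDegree ≤ g.natDegree * 1 :=
        Nat.mul_le_mul_left _ (natDegree_C_sub_X_le T)
    _ = g.natDegree := mul_one _

theorem coeff_comp_refl (T : A) (g : A[X]) (n : ℕ) (hn : g.natDegree ≤ n) :
    (g.comp (C T - X)).coeff n = (-1) ^ n * g.coeff n := by
  nontriviality A
  rcases hn.lt_or_eq with h | h
  · rw [coeff_eq_zero_of_natDegree_lt (lt_of_le_of_lt (natDegree_comp_refl_le T g) h),
      coeff_eq_zero_of_natDegree_lt h, mul_zero]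
  · have e : (C T - X : A[X]) = - (X - C T) := by ring
    have h1 : (C T - X : A[X]).natDegree = 1 := by
      rw [e, natDegree_neg, natDegree_X_sub_C]
    have h2 : (C T - X : A[X]).leadingCoeff = -1 := by
      rw [e, leadingCoeff_neg, leadingCoeff_X_sub_C]
    have key := coeff_comp_degree_mul_degree (p := g) (q := C T - X)
      (by rw [h1]; exact one_ne_zero)
    rw [h1, mul_one, h2, h] at key
    rw [key, ← h, leadingCoeff, mul_comm]

end Refl

section TopForm

variable {R S : Type*} [CommRing R] [CommRing S] [Algebra R S]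

/-- **Top-form lemma.** If `u0 * F(x) * G(y) + ∑ i, f i (x) * g i (y) = 0` with `u0` a unit,
`F`, `G` monic of degree `D` and `deg (f i) + deg (g i) < 2 * D`, then `x` is integral over
`R[x + y]`. -/
theorem isIntegral_of_top_form {ι : Type*} (s : Finset ι) (f g : ι → R[X]) (D : ℕ)
    (hdeg : ∀ i ∈ s, (f i).natDegree + (g i).natDegree < 2 * D)
    (F G : R[X]) (hF : F.Monic) (hG : G.Monic) (hFd : F.natDegree = D) (hGd : G.natDegree = D)
    (u0 : R) (hu0 : IsUnit u0) (x y : S)
    (h : algebraMap R S u0 * aeval x F * aeval y G + ∑ i ∈ s, aeval x (f i) * aeval y (g i) = 0) :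
    IsIntegral (Algebra.adjoin R {x + y}) x := by
  classical
  set A := Algebra.adjoin R {x + y} with hA
  let T : A := ⟨x + y, Algebra.subset_adjoin rfl⟩
  let φ : R →+* A := algebraMap R A
  have hTy : aeval x (C T - X : A[X]) = y := by
    simp [T]
  have hy : ∀ p : R[X], aeval x ((p.map φ).comp (C T - X)) = aeval y p := by
    intro p
    rw [aeval_comp, hTy, aeval_map_algebraMap]
  have hx : ∀ p : R[X], aeval x (p.map φ) = aeval x p := fun p => aeval_map_algebraMap A x p
  obtain ⟨v0, hv0⟩ := hu0.exists_right_inv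
  let H : A[X] := C (φ u0) * F.map φ * (G.map φ).comp (C T - X)
    + ∑ i ∈ s, (f i).map φ * ((g i).map φ).comp (C T - X)
  have hH0 : aeval x H = 0 := by
    simp only [H, map_add, map_mul, map_sum, hy, hx, aeval_C]
    rw [← h]
    congr 2
  have hFm : (F.map φ).natDegree ≤ D := (natDegree_map_le).trans hFd.le
  have hGm : (G.map φ).natDegree ≤ D := (natDegree_map_le).trans hGd.le
  have hGc : ((G.map φ).comp (C T - X)).natDegree ≤ D := (natDegree_comp_refl_le T _).trans hGm
  have hdegH : H.natDegree ≤ 2 * D := by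
    refine (natDegree_add_le _ _).trans (max_le ?_ ?_)
    · rw [mul_assoc]
      refine (natDegree_C_mul_le _ _).trans (natDegree_mul_le.trans ?_)
      omega
    · refine natDegree_sum_le_of_forall_le _ _ fun i hi => ?_
      refine natDegree_mul_le.trans ?_
      have h1 : ((f i).map φ).natDegree ≤ (f i).natDegree := natDegree_map_le
      have h2 : (((g i).map φ).comp (C T - X)).natDegree ≤ (g i).natDegree :=
        (natDegree_comp_refl_le T _).trans natDegree_map_le
      have := hdeg i hi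
      omega
  have hcoeff : H.coeff (2 * D) = φ u0 * (-1) ^ D := by
    have htop : (C (φ u0) * F.map φ * (G.map φ).comp (C T - X)).coeff (2 * D)
        = φ u0 * (-1) ^ D := by
      rw [mul_assoc, coeff_C_mul, two_mul, coeff_mul_add_eq_of_natDegree_le hFm hGc,
        coeff_comp_refl T _ D hGm, coeff_map, coeff_map, ← hFd, hF.coeff_natDegree, hFd, ← hGd,
        hG.coeff_natDegree]
      simp
    have hlow : (∑ i ∈ s, (f i).map φ * ((g i).map φ).comp (C T - X)).coeff (2 * D) = 0 := by
      rw [finsetSum_coeff]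
      refine Finset.sum_eq_zero fun i hi => ?_
      refine coeff_eq_zero_of_natDegree_lt (lt_of_le_of_lt natDegree_mul_le ?_)
      have h1 : ((f i).map φ).natDegree ≤ (f i).natDegree := natDegree_map_le
      have h2 : (((g i).map φ).comp (C T - X)).natDegree ≤ (g i).natDegree :=
        (natDegree_comp_refl_le T _).trans natDegree_map_le
      have := hdeg i hi
      omega
    rw [coeff_add, htop, hlow, add_zero]
  refine ⟨C (φ v0 * (-1) ^ D) * H, ?_, ?_⟩
  · refine monic_of_natDegree_le_of_coeff_eq_one (2 * D)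
      ((natDegree_C_mul_le _ _).trans hdegH) ?_
    rw [coeff_C_mul, hcoeff]
    calc φ v0 * (-1) ^ D * (φ u0 * (-1) ^ D) = φ (u0 * v0) * ((-1) ^ D * (-1) ^ D) := by
          rw [map_mul]; ring
      _ = 1 := by
          rw [hv0, map_one, ← mul_pow]; simp
  · rw [← aeval_def, map_mul, hH0, mul_zero]

end TopForm

section Modular

variable {R S : Type*} [CommRing R] [CommRing S] [Algebra R S]

theorem natDegree_pow_mul_X_pow_le (P : R[X]) (k a m : ℕ) (hPd : P.natDegree = k + 1) :
    (P ^ a * X ^ m).natDegree ≤ a * (k + 1) + m := by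
  refine natDegree_mul_le.trans (add_le_add ?_ (natDegree_X_pow_le m))
  refine natDegree_pow_le.trans ?_
  rw [hPd]

/-- **Integrality from the shape of the modular equation, auxiliary parameter.**
`jx = P(u) / u ^ k`, `jy = P(v) / v ^ k` with `P` monic of degree `k + 1`; if `(jx, jy)` satisfies a
polynomial relation whose only term of top degree `2 l` is `u0 * jx ^ l * jy ^ l` (`u0` a unit) and
all of whose exponents are `≤ l + 1`, then `u` is integral over `R[u + v]`. -/
theorem isIntegral_of_modular_shape {ι : Type*} (l k : ℕ) (P : R[X]) (hP : P.Monic)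
    (hPd : P.natDegree = k + 1) (s : Finset ι) (a b : ι → ℕ) (c : ι → R)
    (hab : ∀ i ∈ s, a i ≤ l + 1 ∧ b i ≤ l + 1 ∧ a i + b i < 2 * l)
    (u0 : R) (hu0 : IsUnit u0) (jx jy u v : S)
    (hju : jx * u ^ k = aeval u P) (hjv : jy * v ^ k = aeval v P)
    (hrel : algebraMap R S u0 * jx ^ l * jy ^ l
      + ∑ i ∈ s, algebraMap R S (c i) * jx ^ a i * jy ^ b i = 0) :
    IsIntegral (Algebra.adjoin R {u + v}) u := by
  rcases subsingleton_or_nontrivial R with hR | hR
  · have : Subsingleton S := (algebraMap R S).codomain_trivial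
    rw [Subsingleton.elim u 0]
    exact isIntegral_zero
  have hXk : (X ^ k : R[X]).Monic := monic_X_pow k
  have hFm : (P ^ l * X ^ k).Monic := (hP.pow l).mul hXk
  have hFd : (P ^ l * X ^ k).natDegree = k * (l + 1) + l := by
    rw [(hP.pow l).natDegree_mul hXk, hP.natDegree_pow, hPd, natDegree_X_pow]
    ring
  refine isIntegral_of_top_form s
    (fun i => C (c i) * (P ^ a i * X ^ (k * (l + 1 - a i))))
    (fun i => P ^ b i * X ^ (k * (l + 1 - b i))) (k * (l + 1) + l) ?_
    (P ^ l * X ^ k) (P ^ l * X ^ k) hFm hFm hFd hFd u0 hu0 u v ?_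
  · intro i hi
    obtain ⟨ha, hb, hlt⟩ := hab i hi
    have h1 : (C (c i) * (P ^ a i * X ^ (k * (l + 1 - a i)))).natDegree
        ≤ a i * (k + 1) + k * (l + 1 - a i) :=
      (natDegree_C_mul_le _ _).trans (natDegree_pow_mul_X_pow_le P k _ _ hPd)
    have h2 : (P ^ b i * X ^ (k * (l + 1 - b i))).natDegree
        ≤ b i * (k + 1) + k * (l + 1 - b i) := natDegree_pow_mul_X_pow_le P k _ _ hPd
    have e1 : a i * (k + 1) + k * (l + 1 - a i) = k * (l + 1) + a i := by
      obtain ⟨d, hd⟩ := Nat.exists_eq_add_of_le ha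
      rw [hd, Nat.add_sub_cancel_left]; ring
    have e2 : b i * (k + 1) + k * (l + 1 - b i) = k * (l + 1) + b i := by
      obtain ⟨d, hd⟩ := Nat.exists_eq_add_of_le hb
      rw [hd, Nat.add_sub_cancel_left]; ring
    rw [e1] at h1
    rw [e2] at h2
    omega
  · have key : (algebraMap R S u0 * jx ^ l * jy ^ l
        + ∑ i ∈ s, algebraMap R S (c i) * jx ^ a i * jy ^ b i)
        * ((u ^ k) ^ (l + 1) * (v ^ k) ^ (l + 1)) = 0 := by rw [hrel, zero_mul]
    rw [← key, add_mul, Finset.sum_mul]
    congr 1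
    · simp only [map_mul, map_pow, aeval_X, ← hju, ← hjv]
      ring
    · refine Finset.sum_congr rfl fun i hi => ?_
      obtain ⟨ha, hb, -⟩ := hab i hi
      have e1 : (u ^ k) ^ (l + 1) = (u ^ k) ^ a i * (u ^ k) ^ (l + 1 - a i) := by
        rw [← pow_add, Nat.add_sub_cancel' ha]
      have e2 : (v ^ k) ^ (l + 1) = (v ^ k) ^ b i * (v ^ k) ^ (l + 1 - b i) := by
        rw [← pow_add, Nat.add_sub_cancel' hb]
      simp only [map_mul, map_pow, aeval_X, aeval_C, ← hju, ← hjv]
      rw [e1, e2, pow_mul, pow_mul]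
      ring

/-- The same for a relation in the literal shape of the modular equation of prime level `l`:
`jy ^ (l+1) + c0 * jx ^ (l+1) - jx ^ l * jy ^ l + ∑ (exponents ≤ l, not both l) = 0`. -/
theorem isIntegral_of_modular_equation {ι : Type*} (l k : ℕ) (hl : 2 ≤ l) (P : R[X])
    (hP : P.Monic) (hPd : P.natDegree = k + 1) (s : Finset ι) (a b : ι → ℕ) (c : ι → R)
    (hab : ∀ i ∈ s, a i ≤ l ∧ b i ≤ l ∧ (a i ≠ l ∨ b i ≠ l))
    (c0 : R) (jx jy u v : S)
    (hju : jx * u ^ k = aeval u P) (hjv : jy * v ^ k = aeval v P)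
    (hrel : jy ^ (l + 1) + algebraMap R S c0 * jx ^ (l + 1) - jx ^ l * jy ^ l
      + ∑ i ∈ s, algebraMap R S (c i) * jx ^ a i * jy ^ b i = 0) :
    IsIntegral (Algebra.adjoin R {u + v}) u := by
  classical
  refine isIntegral_of_modular_shape (ι := Option (Option ι)) l k P hP hPd
    (Finset.insertNone (Finset.insertNone s))
    (fun o => match o with
      | none => 0
      | some none => l + 1
      | some (some i) => a i)
    (fun o => match o with
      | none => l + 1
      | some none => 0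
      | some (some i) => b i)
    (fun o => match o with
      | none => 1
      | some none => c0
      | some (some i) => c i)
    ?_ (-1) isUnit_one.neg jx jy u v hju hjv ?_
  · intro o ho
    match o, ho with
    | none, _ => refine ⟨?_, ?_, ?_⟩ <;> dsimp only <;> omega
    | some none, _ => refine ⟨?_, ?_, ?_⟩ <;> dsimp only <;> omega
    | some (some i), ho =>
      have hi : i ∈ s := by simpa using ho
      obtain ⟨h1, h2, h3⟩ := hab i hi
      refine ⟨?_, ?_, ?_⟩ <;> dsimp only <;> omega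
  · rw [Finset.sum_insertNone, Finset.sum_insertNone]
    simp only [map_one, map_neg, pow_zero, one_mul, mul_one]
    rw [← hrel]
    ring

/-- **Shape near the cusp, auxiliary parameter.**  `jx * x = Q(x)`, `jy * y = Q(y)`
(`x = 1 / u`, `y = 1 / v`); the modular equation for `(jx, jy)` gives
`x ^ (l+1) * Q(y) ^ (l+1) + c0 * y ^ (l+1) * Q(x) ^ (l+1) = x * y * U`. -/
theorem cusp_shape {ι : Type*} (l : ℕ) (Q : R[X]) (s : Finset ι) (a b : ι → ℕ) (c : ι → R)
    (hab : ∀ i ∈ s, a i ≤ l ∧ b i ≤ l) (c0 : R) (jx jy x y : S)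
    (hjx : jx * x = aeval x Q) (hjy : jy * y = aeval y Q)
    (hrel : jy ^ (l + 1) + algebraMap R S c0 * jx ^ (l + 1) - jx ^ l * jy ^ l
      + ∑ i ∈ s, algebraMap R S (c i) * jx ^ a i * jy ^ b i = 0) :
    x ^ (l + 1) * aeval y Q ^ (l + 1) + algebraMap R S c0 * y ^ (l + 1) * aeval x Q ^ (l + 1)
      = x * y * (aeval x Q ^ l * aeval y Q ^ l
        - ∑ i ∈ s, algebraMap R S (c i) * aeval x Q ^ a i * aeval y Q ^ b i
            * x ^ (l - a i) * y ^ (l - b i)) := by
  have key : (jy ^ (l + 1) + algebraMap R S c0 * jx ^ (l + 1) - jx ^ l * jy ^ l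
      + ∑ i ∈ s, algebraMap R S (c i) * jx ^ a i * jy ^ b i) * (x ^ (l + 1) * y ^ (l + 1)) = 0 := by
    rw [hrel, zero_mul]
  have hsum : (∑ i ∈ s, algebraMap R S (c i) * jx ^ a i * jy ^ b i) * (x ^ (l + 1) * y ^ (l + 1))
      = x * y * ∑ i ∈ s, algebraMap R S (c i) * aeval x Q ^ a i * aeval y Q ^ b i
            * x ^ (l - a i) * y ^ (l - b i) := by
    rw [Finset.sum_mul, Finset.mul_sum]
    refine Finset.sum_congr rfl fun i hi => ?_
    obtain ⟨ha, hb⟩ := hab i hi
    have e1 : x ^ (l + 1) = x ^ a i * x ^ (l - a i) * x := by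
      rw [← pow_add, Nat.add_sub_cancel' ha, pow_succ]
    have e2 : y ^ (l + 1) = y ^ b i * y ^ (l - b i) * y := by
      rw [← pow_add, Nat.add_sub_cancel' hb, pow_succ]
    rw [e1, e2, ← hjx, ← hjy]
    ring
  rw [add_mul, hsum] at key
  rw [← hjx, ← hjy]
  rw [← hjx, ← hjy] at key
  linear_combination key

end Modular

section Units

variable {R B : Type*} [CommRing R] [CommRing B] [Algebra R B]

theorem aeval_sub_one_mem (Q : R[X]) (hQ0 : Q.coeff 0 = 1) (x : B) (I : Ideal B) (hx : x ∈ I) :
    aeval x Q - 1 ∈ I := by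
  have h : aeval x Q = aeval x Q.divX * x + 1 := by
    conv_lhs => rw [← divX_mul_X_add Q, hQ0]
    simp
  rw [h, add_sub_cancel_right]
  exact I.mul_mem_left _ hx

theorem pow_sub_one_mem (I : Ideal B) (z : B) (hz : z - 1 ∈ I) (n : ℕ) : z ^ n - 1 ∈ I := by
  have h1 : Ideal.Quotient.mk I z = 1 := by
    rw [← map_one (Ideal.Quotient.mk I), Ideal.Quotient.eq]; exact hz
  rw [← Ideal.Quotient.eq, map_pow, h1, one_pow, map_one]

/-- The cofactor `U` of `cusp_shape` is `≡ 1` modulo any ideal containing `x` and `y`. -/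
theorem cusp_cofactor_sub_one_mem {ι : Type*} (l : ℕ) (Q : R[X]) (hQ0 : Q.coeff 0 = 1)
    (s : Finset ι) (a b : ι → ℕ) (c : ι → R)
    (hab : ∀ i ∈ s, a i ≤ l ∧ b i ≤ l ∧ (a i ≠ l ∨ b i ≠ l)) (x y : B) (I : Ideal B)
    (hx : x ∈ I) (hy : y ∈ I) :
    (aeval x Q ^ l * aeval y Q ^ l
        - ∑ i ∈ s, algebraMap R B (c i) * aeval x Q ^ a i * aeval y Q ^ b i
            * x ^ (l - a i) * y ^ (l - b i)) - 1 ∈ I := by
  have h1 : Ideal.Quotient.mk I (aeval x Q) = 1 := by
    rw [← map_one (Ideal.Quotient.mk I), Ideal.Quotient.eq]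
    exact aeval_sub_one_mem Q hQ0 x I hx
  have h2 : Ideal.Quotient.mk I (aeval y Q) = 1 := by
    rw [← map_one (Ideal.Quotient.mk I), Ideal.Quotient.eq]
    exact aeval_sub_one_mem Q hQ0 y I hy
  have hx0 : Ideal.Quotient.mk I x = 0 := Ideal.Quotient.eq_zero_iff_mem.mpr hx
  have hy0 : Ideal.Quotient.mk I y = 0 := Ideal.Quotient.eq_zero_iff_mem.mpr hy
  rw [← Ideal.Quotient.eq, map_sub, map_mul, map_pow, map_pow, h1, h2, one_pow, mul_one,
    map_sum, map_one]
  rw [Finset.sum_eq_zero, sub_zero]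
  intro i hi
  obtain ⟨ha, hb, hne⟩ := hab i hi
  simp only [map_mul, map_pow, hx0, hy0]
  rcases hne with h | h
  · rw [zero_pow (by omega : l - a i ≠ 0)]; ring
  · rw [zero_pow (by omega : l - b i ≠ 0)]; ring

end Units

section Witness

variable {R S : Type*} [CommRing R] [CommRing S] [Algebra R S]

/-- Witness form of the unit statements for `cusp_shape`: all three cofactors are of the form
`1 + x * d + y * e` with `d`, `e` polynomial expressions in `x`, `y` over `R`. -/
theorem cusp_shape_witness {ι : Type*} (l : ℕ) (Q : R[X]) (hQ0 : Q.coeff 0 = 1)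
    (s : Finset ι) (a b : ι → ℕ) (c : ι → R)
    (hab : ∀ i ∈ s, a i ≤ l ∧ b i ≤ l ∧ (a i ≠ l ∨ b i ≠ l)) (x y : S) :
    (∃ d ∈ Algebra.adjoin R {x, y}, aeval y Q ^ (l + 1) = 1 + y * d) ∧
    (∃ d ∈ Algebra.adjoin R {x, y}, aeval x Q ^ (l + 1) = 1 + x * d) ∧
    (∃ d ∈ Algebra.adjoin R {x, y}, ∃ e ∈ Algebra.adjoin R {x, y},
      aeval x Q ^ l * aeval y Q ^ l
        - ∑ i ∈ s, algebraMap R S (c i) * aeval x Q ^ a i * aeval y Q ^ b i
            * x ^ (l - a i) * y ^ (l - b i) = 1 + x * d + y * e) := by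
  set A := Algebra.adjoin R {x, y} with hA
  let x' : A := ⟨x, Algebra.subset_adjoin (by simp)⟩
  let y' : A := ⟨y, Algebra.subset_adjoin (by simp)⟩
  have hcx : A.val (aeval x' Q) = aeval x Q := by
    rw [← aeval_algHom_apply]; rfl
  have hcy : A.val (aeval y' Q) = aeval y Q := by
    rw [← aeval_algHom_apply]; rfl
  refine ⟨?_, ?_, ?_⟩
  · have h := pow_sub_one_mem (Ideal.span {y'}) _
      (aeval_sub_one_mem Q hQ0 y' _ (Ideal.subset_span rfl)) (l + 1)
    obtain ⟨d, hd⟩ := Ideal.mem_span_singleton'.mp h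
    refine ⟨d, d.2, ?_⟩
    have h' := congrArg A.val hd
    rw [map_mul, map_sub, map_pow, hcy, map_one] at h'
    have hy' : A.val y' = y := rfl
    rw [hy'] at h'
    rw [Subalgebra.val_apply] at h'
    linear_combination -h'
  · have h := pow_sub_one_mem (Ideal.span {x'}) _
      (aeval_sub_one_mem Q hQ0 x' _ (Ideal.subset_span rfl)) (l + 1)
    obtain ⟨d, hd⟩ := Ideal.mem_span_singleton'.mp h
    refine ⟨d, d.2, ?_⟩
    have h' := congrArg A.val hd
    rw [map_mul, map_sub, map_pow, hcx, map_one] at h'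
    have hx' : A.val x' = x := rfl
    rw [hx'] at h'
    rw [Subalgebra.val_apply] at h'
    linear_combination -h'
  · have h := cusp_cofactor_sub_one_mem l Q hQ0 s a b c hab x' y' (Ideal.span {x', y'})
      (Ideal.subset_span (by simp)) (Ideal.subset_span (by simp))
    obtain ⟨d, e, hde⟩ := Ideal.mem_span_pair.mp h
    refine ⟨d, d.2, e, e.2, ?_⟩
    have h' := congrArg A.val hde
    simp only [map_add, map_mul, map_sub, map_pow, map_sum, hcx, hcy, map_one,
      AlgHom.commutes] at h'
    have hx' : A.val x' = x := rfl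
    have hy' : A.val y' = y := rfl
    rw [hx', hy'] at h'
    simp only [Subalgebra.val_apply] at h'
    linear_combination -h'

end Witness

end Fermat.Agent.S34.AuxShape
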