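import Mathlib

/-!
# Program U (S34), brick (A): local principality ("CART") from a free orbit of points

Level-free commutative algebra, Mathlib only.

* `exists_eigen_not_mem` : `C` a `B`-algebra, `σ` a `B`-algebra automorphism with `σ^m = 1`,
  `ζ ∈ B` with `ζ^m = 1`, `Q` a maximal ideal of `C` whose translates `σ^i Q` (`0 < i < m`) are all
  different from `Q`.  Then there is a `ζ`-eigenvector `b` of `σ` with `b ∉ Q`
  (`b = ∑ ζ^{-i} σ^i c` for a CRT element `c`).
* `cart` : `B` an integrally closed domain with fraction field `F`, `E` an `F`-algebra generated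
  by `T` with `T^m = h ≠ 0`, `σ T = ζ T`, `E^σ = F`.  If a maximal ideal `Q` of the integral
  closure of `B` in `E` lying over `y` has `m` distinct translates, then `f^m * h ∈ B ∖ y` for some
  `f ∈ F`:  **`h` is a unit of `B_y` times an `m`-th power**.
-/

set_option autoImplicit false

namespace Fermat.Agent.S34.Cart

open Finset

section Abstract

variable {B C : Type*} [CommRing B] [CommRing C] [Algebra B C]

/-- A CRT element: `c ≡ 1` modulo `Q` and `σ^i c ∈ Q` for `0 < i < m`. -/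
theorem exists_crt (m : ℕ) (σ : C →+* C) (Q : Ideal C) [Q.IsMaximal]
    (hfree : ∀ i : ℕ, 0 < i → i < m → ∃ x : C, σ^[i] x ∈ Q ∧ x ∉ Q) :
    ∃ c : C, c - 1 ∈ Q ∧ ∀ i : ℕ, 0 < i → i < m → σ^[i] c ∈ Q := by
  classical
  choose! x hx using hfree
  set c₀ : C := ∏ i ∈ Ioo 0 m, x i with hc₀
  have hc₀Q : c₀ ∉ Q := by
    intro h
    obtain ⟨i, hi, hiQ⟩ := Ideal.IsPrime.prod_mem_iff.1 h
    rw [mem_Ioo] at hi
    exact (hx i hi.1 hi.2).2 hiQ
  have hc₀i : ∀ i : ℕ, 0 < i → i < m → σ^[i] c₀ ∈ Q := by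
    intro i hi0 him
    have h1 : σ^[i] c₀ = ∏ j ∈ Ioo 0 m, σ^[i] (x j) := by
      rw [← RingHom.coe_pow, hc₀, map_prod]
    rw [h1]
    exact Ideal.prod_mem Q (mem_Ioo.2 ⟨hi0, him⟩) (hx i hi0 him).1
  obtain ⟨d, hd⟩ := Ideal.Quotient.exists_inv (I := Q)
    (a := Ideal.Quotient.mk Q c₀) (by rwa [Ne, Ideal.Quotient.eq_zero_iff_mem])
  obtain ⟨d, rfl⟩ := Ideal.Quotient.mk_surjective d
  refine ⟨c₀ * d, ?_, fun i hi0 him => ?_⟩
  · rw [← Ideal.Quotient.eq, map_mul, hd, map_one]
  · have h1 : σ^[i] (c₀ * d) = σ^[i] c₀ * σ^[i] d := by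
      rw [← RingHom.coe_pow, map_mul]
    rw [h1]
    exact Q.mul_mem_right _ (hc₀i i hi0 him)

/-- **Eigenvector outside a freely moved maximal ideal.** -/
theorem exists_eigen_not_mem (m : ℕ) (hm : 0 < m) (ζ : B) (hζ : ζ ^ m = 1)
    (σ : C ≃ₐ[B] C) (hσ : ∀ x : C, σ^[m] x = x)
    (Q : Ideal C) [Q.IsMaximal]
    (hfree : ∀ i : ℕ, 0 < i → i < m → ∃ x : C, σ^[i] x ∈ Q ∧ x ∉ Q) :
    ∃ b : C, b ∉ Q ∧ σ b = algebraMap B C ζ * b := by
  classical
  obtain ⟨c, hc1, hci⟩ := exists_crt m (σ : C →+* C) Q (by simpa using hfree)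
  have hci' : ∀ i : ℕ, 0 < i → i < m → σ^[i] c ∈ Q := by simpa using hci
  -- `η = ζ⁻¹`
  set η : B := ζ ^ (m - 1) with hη
  have hζη : ζ * η = 1 := by
    rw [hη, ← pow_succ', Nat.sub_add_cancel hm, hζ]
  have hηm : η ^ m = 1 := by
    rw [hη, ← pow_mul, mul_comm, pow_mul, hζ, one_pow]
  set g : ℕ → C := fun i => algebraMap B C (η ^ i) * σ^[i] c with hg
  refine ⟨∑ i ∈ range m, g i, ?_, ?_⟩
  · -- `b ≡ c ≡ 1` modulo `Q`
    intro hb
    have h1 : ∑ i ∈ range m, g i - g 0 ∈ Q := by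
      obtain ⟨m', rfl⟩ : ∃ m', m = m' + 1 := ⟨m - 1, (Nat.sub_add_cancel hm).symm⟩
      rw [sum_range_succ', add_sub_cancel_right]
      refine Q.sum_mem fun i hi => ?_
      rw [mem_range] at hi
      exact Q.mul_mem_left _ (hci' (i + 1) (Nat.succ_pos i) (by omega))
    have h2 : g 0 = c := by simp [hg]
    have h3 : (1 : C) ∈ Q := by
      have e : (1 : C) = ∑ i ∈ range m, g i - (∑ i ∈ range m, g i - g 0) - (c - 1) := by
        rw [h2]; ring
      rw [e]
      exact Q.sub_mem (Q.sub_mem hb h1) hc1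
    exact (Ideal.ne_top_iff_one Q).1 (Ideal.IsMaximal.ne_top inferInstance) h3
  · -- eigenvector
    have hshift : ∑ i ∈ range m, g (i + 1) = ∑ i ∈ range m, g i := by
      have h1 := sum_range_succ g m
      have h2 := sum_range_succ' g m
      have h3 : g m = g 0 := by
        simp only [hg, hηm, hσ c, pow_zero, Function.iterate_zero, id_eq]
      rw [h2, h3] at h1
      exact add_right_cancel h1
    have hstep : ∀ i : ℕ, σ (g i) = algebraMap B C ζ * g (i + 1) := by
      intro i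
      simp only [hg]
      rw [map_mul, AlgEquiv.commutes, Function.iterate_succ_apply', ← mul_assoc, ← map_mul,
        pow_succ, ← mul_assoc, mul_comm ζ, mul_assoc (η ^ i), hζη, mul_one]
    rw [map_sum, ← hshift, mul_sum]
    exact sum_congr rfl fun i _ => hstep i

end Abstract

section Field

variable {B F E : Type*} [CommRing B] [Field F] [Algebra B F] [IsFractionRing B F]
  [IsIntegrallyClosed B] [CommRing E] [Nontrivial E] [Algebra F E] [Algebra B E]
  [IsScalarTower B F E]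

/-- The automorphism of the integral closure induced by an automorphism of the algebra. -/
noncomputable abbrev resAut (σ : E ≃ₐ[F] E) : integralClosure B E ≃ₐ[B] integralClosure B E :=
  (σ.restrictScalars B).mapIntegralClosure

omit [IsFractionRing B F] [IsIntegrallyClosed B] [Nontrivial E] in
theorem coe_resAut_iterate (σ : E ≃ₐ[F] E) (i : ℕ) (x : integralClosure B E) :
    (((resAut (B := B) σ)^[i] x : integralClosure B E) : E) = σ^[i] (x : E) := by
  induction i with
  | zero => rfl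
  | succ i ih =>
    rw [Function.iterate_succ_apply', Function.iterate_succ_apply', ← ih]
    rfl

/-- **(CART).**  `E = F[T]`, `T^m = h ≠ 0`, `σ` the `F`-automorphism with `σ T = ζ T`, whose
invariants are `F`.  If some maximal ideal `Q` over `y` of the integral closure of `B` in `E` is
moved by `σ, …, σ^{m-1}`, then `h` is, up to an `m`-th power of `F`, an element of `B ∖ y`. -/
theorem cart (m : ℕ) (hm : 0 < m) (ζ : B) (hζ : ζ ^ m = 1) (h : F) (hh : h ≠ 0)
    (T : E) (hT : T ^ m = algebraMap F E h)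
    (σ : E ≃ₐ[F] E) (hσT : σ T = algebraMap B E ζ * T)
    (hσm : ∀ x : E, σ^[m] x = x)
    (hinv : ∀ e : E, σ e = e → e ∈ (algebraMap F E).range)
    (y : Ideal B) (Q : Ideal (integralClosure B E)) [Q.IsMaximal]
    (hQy : ∀ a : B, a ∈ y → algebraMap B (integralClosure B E) a ∈ Q)
    (hfree : ∀ i : ℕ, 0 < i → i < m →
      ∃ x : integralClosure B E, (resAut (B := B) σ)^[i] x ∈ Q ∧ x ∉ Q) :
    ∃ (f : F) (a : B), a ∉ y ∧ f ^ m * h = algebraMap B F a := by
  have hσC : ∀ x : integralClosure B E, (resAut (B := B) σ)^[m] x = x := fun x =>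
    Subtype.ext (by rw [coe_resAut_iterate, hσm])
  obtain ⟨b, hbQ, hb⟩ := exists_eigen_not_mem m hm ζ hζ (resAut (B := B) σ) hσC Q hfree
  have hb' : σ (b : E) = algebraMap B E ζ * (b : E) := by
    have := congrArg (Subtype.val) hb
    simpa using this
  -- the inverse of `T`
  set Tinv : E := T ^ (m - 1) * algebraMap F E h⁻¹ with hTinv
  have hTT : T * Tinv = 1 := by
    rw [hTinv, ← mul_assoc, ← pow_succ', Nat.sub_add_cancel hm, hT, ← map_mul,
      mul_inv_cancel₀ hh, map_one]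
  have hζE : algebraMap B E ζ ^ m = 1 := by rw [← map_pow, hζ, map_one]
  have hσTinv : σ Tinv = algebraMap B E ζ ^ (m - 1) * Tinv := by
    rw [hTinv, map_mul, map_pow, hσT, AlgEquiv.commutes, mul_pow, mul_assoc]
  have he : σ ((b : E) * Tinv) = (b : E) * Tinv := by
    rw [map_mul, hb', hσTinv]
    have : algebraMap B E ζ * algebraMap B E ζ ^ (m - 1) = 1 := by
      rw [← pow_succ', Nat.sub_add_cancel hm, hζE]
    calc algebraMap B E ζ * (b : E) * (algebraMap B E ζ ^ (m - 1) * Tinv)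
        = (algebraMap B E ζ * algebraMap B E ζ ^ (m - 1)) * ((b : E) * Tinv) := by ring
      _ = (b : E) * Tinv := by rw [this, one_mul]
  obtain ⟨f, hf⟩ := hinv _ he
  have hbf : (b : E) = algebraMap F E f * T := by
    rw [hf, mul_assoc, mul_comm Tinv, hTT, mul_one]
  have hbm : (b : E) ^ m = algebraMap F E (f ^ m * h) := by
    rw [hbf, mul_pow, hT, map_mul, map_pow]
  have hint : IsIntegral B (f ^ m * h) := by
    have h1 : IsIntegral B ((b : E) ^ m) := (b.2 : IsIntegral B (b : E)).pow m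
    rw [hbm] at h1
    exact (isIntegral_algebraMap_iff (algebraMap F E).injective).1 h1
  obtain ⟨a, ha⟩ := IsIntegrallyClosed.isIntegral_iff.1 hint
  refine ⟨f, a, fun hay => hbQ ?_, ha.symm⟩
  have h1 : algebraMap B (integralClosure B E) a = b ^ m := by
    apply Subtype.ext
    change algebraMap B E a = (b : E) ^ m
    rw [hbm, ← ha, ← IsScalarTower.algebraMap_apply]
  have h2 : b ^ m ∈ Q := h1 ▸ hQy a hay
  exact Ideal.IsPrime.mem_of_pow_mem inferInstance m h2

end Field

section AdjoinRoot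

open Polynomial

variable {F : Type*} [Field F] (m : ℕ) (h : F)

/-- The Kummer algebra `F[T]/(T^m - h)`. -/
abbrev KAlg : Type _ := AdjoinRoot (X ^ m - C h : F[X])

/-- The class of `T`. -/
noncomputable abbrev kT : KAlg m h := AdjoinRoot.root _

theorem monic_poly (hm : 0 < m) : (X ^ m - C h : F[X]).Monic :=
  monic_X_pow_sub_C h hm.ne'

theorem natDegree_poly : (X ^ m - C h : F[X]).natDegree = m :=
  natDegree_X_pow_sub_C

theorem kT_pow : kT m h ^ m = algebraMap F (KAlg m h) h := by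
  have h1 : aeval (kT m h) (X ^ m - C h : F[X]) = 0 := by
    rw [AdjoinRoot.aeval_eq, AdjoinRoot.mk_self]
  simpa [sub_eq_zero] using h1

instance nontrivial_kAlg [Fact (0 < m)] : Nontrivial (KAlg m h) :=
  AdjoinRoot.nontrivial _ (by
    rw [degree_X_pow_sub_C (Fact.out : 0 < m) h]
    exact_mod_cast (Fact.out : 0 < m).ne')

variable (ζ : F)

/-- The algebra endomorphism `T ↦ ζ T` (for `ζ^m = 1`). -/
noncomputable def rotHom (hζ : ζ ^ m = 1) : KAlg m h →ₐ[F] KAlg m h :=
  AdjoinRoot.liftAlgHom _ (Algebra.ofId F (KAlg m h)) (algebraMap F (KAlg m h) ζ * kT m h) (by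
    have : (X ^ m - C h : F[X]).eval₂ (Algebra.ofId F (KAlg m h))
        (algebraMap F (KAlg m h) ζ * kT m h) = (algebraMap F (KAlg m h) ζ * kT m h) ^ m
          - algebraMap F (KAlg m h) h := by
      simp [eval₂_sub, eval₂_pow]
    rw [this, mul_pow, ← map_pow, hζ, map_one, one_mul, kT_pow, sub_self])

theorem rotHom_kT (hζ : ζ ^ m = 1) :
    rotHom m h ζ hζ (kT m h) = algebraMap F (KAlg m h) ζ * kT m h := by
  simp [rotHom]

theorem rotHom_iterate_kT (hζ : ζ ^ m = 1) (i : ℕ) :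
    (rotHom m h ζ hζ)^[i] (kT m h) = algebraMap F (KAlg m h) (ζ ^ i) * kT m h := by
  induction i with
  | zero => simp
  | succ i ih =>
    rw [Function.iterate_succ_apply', ih, map_mul, AlgHom.commutes, rotHom_kT, ← mul_assoc,
      ← map_mul, pow_succ]

theorem rotHom_pow (hζ : ζ ^ m = 1) : rotHom m h ζ hζ ^ m = 1 := by
  apply AdjoinRoot.algHom_ext
  rw [AlgHom.coe_pow, rotHom_iterate_kT, hζ, map_one, one_mul]
  rfl

/-- The automorphism `T ↦ ζ T` of `F[T]/(T^m - h)`. -/
noncomputable def rot (hm : 0 < m) (hζ : ζ ^ m = 1) : KAlg m h ≃ₐ[F] KAlg m h :=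
  AlgEquiv.ofAlgHom (rotHom m h ζ hζ) (rotHom m h ζ hζ ^ (m - 1))
    (by
      have : rotHom m h ζ hζ * rotHom m h ζ hζ ^ (m - 1) = 1 := by
        rw [← pow_succ', Nat.sub_add_cancel hm, rotHom_pow]
      exact this)
    (by
      have : rotHom m h ζ hζ ^ (m - 1) * rotHom m h ζ hζ = 1 := by
        rw [← pow_succ, Nat.sub_add_cancel hm, rotHom_pow]
      exact this)

theorem rot_kT (hm : 0 < m) (hζ : ζ ^ m = 1) :
    rot m h ζ hm hζ (kT m h) = algebraMap F (KAlg m h) ζ * kT m h :=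
  rotHom_kT m h ζ hζ

theorem rot_iterate (hm : 0 < m) (hζ : ζ ^ m = 1) (x : KAlg m h) :
    (rot m h ζ hm hζ)^[m] x = x := by
  have h1 : (rot m h ζ hm hζ)^[m] x = (rotHom m h ζ hζ)^[m] x := rfl
  rw [h1, ← AlgHom.coe_pow, rotHom_pow]
  rfl

/-- The invariants of `T ↦ ζ T` are the constants, for a primitive `m`-th root of unity `ζ`. -/
theorem rot_invariant (hm : 0 < m) (hζ : IsPrimitiveRoot ζ m) (e : KAlg m h)
    (he : rot m h ζ hm hζ.pow_eq_one e = e) : e ∈ (algebraMap F (KAlg m h)).range := by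
  classical
  set pb := AdjoinRoot.powerBasis' (monic_poly m h hm) with hpb
  have hdim : pb.dim = m := natDegree_poly m h
  have hgen : pb.gen = kT m h := rfl
  have hb : ∀ i, pb.basis i = kT m h ^ (i : ℕ) := fun i => by
    rw [PowerBasis.coe_basis, hgen]
  have hσb : ∀ i, rot m h ζ hm hζ.pow_eq_one (pb.basis i) = (ζ ^ (i : ℕ)) • pb.basis i := by
    intro i
    rw [hb, map_pow, rot_kT, mul_pow, ← map_pow, Algebra.smul_def]
  have h1 : rot m h ζ hm hζ.pow_eq_one e = ∑ i, (pb.basis.repr e i * ζ ^ (i : ℕ)) • pb.basis i := by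
    conv_lhs => rw [← pb.basis.sum_repr e]
    rw [map_sum]
    refine Finset.sum_congr rfl fun i _ => ?_
    rw [map_smul, hσb, smul_smul]
  have h2 : ∀ i, pb.basis.repr e i * ζ ^ (i : ℕ) = pb.basis.repr e i := by
    intro i
    have h3 := congrFun (pb.basis.repr_sum_self (fun i => pb.basis.repr e i * ζ ^ (i : ℕ))) i
    rw [← h1, he] at h3
    exact h3.symm
  have h4 : ∀ i : Fin pb.dim, (i : ℕ) ≠ 0 → pb.basis.repr e i = 0 := by
    intro i hi
    have h5 : pb.basis.repr e i * (ζ ^ (i : ℕ) - 1) = 0 := by rw [mul_sub, h2, mul_one, sub_self]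
    rcases mul_eq_zero.1 h5 with h6 | h6
    · exact h6
    · exfalso
      have h7 : ζ ^ (i : ℕ) = 1 := sub_eq_zero.1 h6
      have h8 : (i : ℕ) < m := lt_of_lt_of_eq i.2 hdim
      exact hζ.pow_ne_one_of_pos_of_lt hi h8 h7
  have h0 : 0 < pb.dim := by rw [hdim]; exact hm
  refine ⟨pb.basis.repr e ⟨0, h0⟩, ?_⟩
  conv_rhs => rw [← pb.basis.sum_repr e]
  rw [Finset.sum_eq_single ⟨0, h0⟩]
  · rw [hb, pow_zero, Algebra.smul_def, mul_one]
  · intro i _ hi
    rw [h4 i (fun h0' => hi (Fin.ext h0')), zero_smul]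
  · intro hi
    exact absurd (Finset.mem_univ _) hi

end AdjoinRoot

section Concrete

variable {B F : Type*} [CommRing B] [Field F] [Algebra B F] [IsFractionRing B F]
  [IsIntegrallyClosed B]

/-- **(CART), concrete form** for the Kummer algebra `KAlg m h = F[T]/(T^m - h)` and the rotation
`rot : T ↦ ζ T`. -/
theorem cart_kAlg (m : ℕ) (hm : 0 < m) (ζ : B) (hζ : IsPrimitiveRoot ζ m) (h : F) (hh : h ≠ 0)
    (y : Ideal B) (Q : Ideal (integralClosure B (KAlg m h))) [Q.IsMaximal]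
    (hQy : ∀ a : B, a ∈ y → algebraMap B (integralClosure B (KAlg m h)) a ∈ Q)
    (hfree : ∀ i : ℕ, 0 < i → i < m → ∃ x : integralClosure B (KAlg m h),
      (resAut (B := B) (rot m h (algebraMap B F ζ) hm
        (by rw [← map_pow, hζ.pow_eq_one, map_one])))^[i] x ∈ Q ∧ x ∉ Q) :
    ∃ (f : F) (a : B), a ∉ y ∧ f ^ m * h = algebraMap B F a := by
  have : Fact (0 < m) := ⟨hm⟩
  have hζF : IsPrimitiveRoot (algebraMap B F ζ) m :=
    hζ.map_of_injective (IsFractionRing.injective B F)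
  refine cart m hm ζ hζ.pow_eq_one h hh (kT m h) (kT_pow m h)
    (rot m h (algebraMap B F ζ) hm hζF.pow_eq_one) ?_ (rot_iterate m h _ hm hζF.pow_eq_one)
    (rot_invariant m h _ hm hζF) y Q hQy hfree
  rw [rot_kT, ← IsScalarTower.algebraMap_apply]

end Concrete

end Fermat.Agent.S34.Cart
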