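import Mathlib
import Fermat.Agent.S34.Cart

/-!
# Program U (S34), brick SSc.Branches: the branches of a toric Kummer cover

Level-free commutative algebra (Mathlib + `S34/Cart` for the Kummer algebra).

`B` an integrally closed domain with fraction field `F`, `m` invertible in `B`, `ζ ∈ B` a primitive
`m`-th root of unity, `h ∈ F^×`, `E = F[T]/(T^m - h)` (`Cart.KAlg m h`), `C` the integral closure
of `B` in `E`, `ρ : T ↦ ζ T` (`rho`).  Let `p` be a prime of `B` at which `h ≡ 1`
(`h * b = b + a`, `a ∈ p`, `b ∉ p`).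

* `IsBranch p i P` : `P` is a prime of `C` over `p` at which `T ≡ ζ^i`.
* `exists_isBranch`, `IsBranch.unique`, `exists_isBranch_of_comap_eq`, `IsBranch.ne`,
  `IsBranch.comap_rho` : there is exactly one branch for each `i mod m`, these are all the primes
  of `C` over `p`, and `ρ` permutes them cyclically.
* `IsBranch.exists_sub_mem`, `IsBranch.algHom` : if `B ⧸ p` is integrally closed then
  `C ⧸ P = B ⧸ p` for every branch `P`.
* `exists_isBranch_le` : every prime of `C` containing `p` contains a branch over `p`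
  ("going down", by the eigen-decomposition instead of a going-down theorem).
* `mem_span_of_mem_branches` : if `p₁ ⊓ p₂ = (π)` then an element of `C` lying in all branches
  over `p₁` and over `p₂` is divisible by `π` (`C/π` is reduced and embeds in the product of the
  branch rings).

Everything rests on the eigen-decomposition `c = ∑_j a_j T^j` with `a_j T^j ∈ C`
(`exists_decomp`).
-/

set_option autoImplicit false

namespace Fermat.Agent.S34.Branches

open Finset

section Roots

variable {B : Type*} [CommRing B] [IsDomain B]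

/-- The geometric sum of an `m`-th root of unity `≠ 1` vanishes. -/
theorem geom_sum_eq_zero_of_pow_eq_one {x : B} {m : ℕ} (hx : x ^ m = 1) (hx1 : x ≠ 1) :
    ∑ i ∈ range m, x ^ i = 0 := by
  have h := geom_sum_mul x m
  rw [hx, sub_self] at h
  rcases mul_eq_zero.1 h with h | h
  · exact h
  · exact absurd (sub_eq_zero.1 h) hx1

/-- The image of a primitive `m`-th root of unity under a ring homomorphism to a field in which
`m ≠ 0` is a primitive `m`-th root of unity. -/
theorem isPrimitiveRoot_map {K : Type*} [Field K] (f : B →+* K) {ζ : B} {m : ℕ}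
    (hζ : IsPrimitiveRoot ζ m) (hmK : (m : K) ≠ 0) : IsPrimitiveRoot (f ζ) m := by
  have hm0 : 0 < m := by
    rcases Nat.eq_zero_or_pos m with h | h
    · rw [h] at hmK; exact absurd Nat.cast_zero hmK
    · exact h
  obtain ⟨n, rfl⟩ : ∃ n, m = n + 1 := ⟨m - 1, by omega⟩
  have hprod := hζ.prod_one_sub_pow_eq_order
  have hprod' : ∏ x ∈ range n, (1 - f ζ ^ (x + 1)) = ((n + 1 : ℕ) : K) := by
    have := congrArg f hprod
    rw [map_prod] at this
    simp only [map_sub, map_one, map_pow, map_add, map_natCast] at this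
    rw [this]; push_cast; ring
  refine IsPrimitiveRoot.mk_of_lt _ hm0 (by rw [← map_pow, hζ.pow_eq_one, map_one]) ?_
  intro l hl0 hlm hl1
  apply hmK
  rw [← hprod']
  refine Finset.prod_eq_zero (i := l - 1) (Finset.mem_range.2 (by omega)) ?_
  rw [Nat.sub_add_cancel hl0, hl1, sub_self]

end Roots

section Eigen

variable {B C : Type*} [CommRing B] [CommRing C] [Algebra B C]

/-- The (unnormalised) eigenprojection `∑_{i<m} ζ'^i σ^i c`. -/
def eigSum (m : ℕ) (σ : C ≃ₐ[B] C) (ζ' : B) (c : C) : C :=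
  ∑ i ∈ range m, algebraMap B C (ζ' ^ i) * σ^[i] c

theorem map_eigSum (m : ℕ) (σ : C ≃ₐ[B] C) (hσ : ∀ x : C, σ^[m] x = x) (ζ' ζ'' : B)
    (h1 : ζ'' * ζ' = 1) (hm' : ζ' ^ m = 1) (c : C) :
    σ (eigSum m σ ζ' c) = algebraMap B C ζ'' * eigSum m σ ζ' c := by
  set g : ℕ → C := fun i => algebraMap B C (ζ' ^ i) * σ^[i] c with hg
  have hshift : ∑ i ∈ range m, g (i + 1) = ∑ i ∈ range m, g i := by
    have h1 := sum_range_succ g m
    have h2 := sum_range_succ' g m
    have h3 : g m = g 0 := by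
      simp only [hg, hm', hσ c, pow_zero, Function.iterate_zero, id_eq]
    rw [h2, h3] at h1
    exact add_right_cancel h1
  have hstep : ∀ i : ℕ, σ (g i) = algebraMap B C ζ'' * g (i + 1) := by
    intro i
    simp only [hg]
    rw [map_mul, AlgEquiv.commutes, Function.iterate_succ_apply', ← mul_assoc, ← map_mul,
      pow_succ, ← mul_assoc, mul_comm ζ'', mul_assoc (ζ' ^ i), h1, mul_one]
  show σ (∑ i ∈ range m, g i) = algebraMap B C ζ'' * ∑ i ∈ range m, g i
  rw [map_sum, ← hshift, mul_sum]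
  exact sum_congr rfl fun i _ => hstep i

theorem sum_eigSum [IsDomain B] (m : ℕ) (σ : C ≃ₐ[B] C) (ζ η : B) (hζ : IsPrimitiveRoot ζ m)
    (hη : ζ * η = 1) (c : C) :
    ∑ j ∈ range m, eigSum m σ (η ^ j) c = algebraMap B C (m : B) * c := by
  have hηm : η ^ m = 1 := by
    have : (ζ * η) ^ m = 1 := by rw [hη, one_pow]
    rwa [mul_pow, hζ.pow_eq_one, one_mul] at this
  simp only [eigSum]
  rw [Finset.sum_comm]
  have key : ∀ i ∈ range m, ∑ j ∈ range m, algebraMap B C ((η ^ j) ^ i) * σ^[i] c =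
      if i = 0 then algebraMap B C (m : B) * c else 0 := by
    intro i hi
    rw [← Finset.sum_mul, ← map_sum]
    have e : ∑ j ∈ range m, (η ^ j) ^ i = ∑ j ∈ range m, (η ^ i) ^ j :=
      Finset.sum_congr rfl fun j _ => by rw [← pow_mul, ← pow_mul, mul_comm]
    rw [e]
    split_ifs with h0
    · subst h0
      simp
    · have hne : η ^ i ≠ 1 := by
        intro h1
        have h2 : ζ ^ i = 1 := by
          have : (ζ * η) ^ i = 1 := by rw [hη, one_pow]
          rwa [mul_pow, h1, mul_one] at this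
        have h3 := (hζ.pow_eq_one_iff_dvd i).1 h2
        have h4 := Nat.le_of_dvd (Nat.pos_of_ne_zero h0) h3
        exact absurd (Finset.mem_range.1 hi) (not_lt.2 h4)
      rw [geom_sum_eq_zero_of_pow_eq_one (by rw [← pow_mul, mul_comm, pow_mul, hηm, one_pow]) hne,
        map_zero, zero_mul]
  rw [Finset.sum_congr rfl key, Finset.sum_ite_eq']
  by_cases hm0 : 0 ∈ range m
  · rw [if_pos hm0]
  · rw [if_neg hm0]
    have : m = 0 := by
      by_contra h
      exact hm0 (Finset.mem_range.2 (Nat.pos_of_ne_zero h))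
    subst this
    simp

end Eigen

section Kummer

open Fermat.Agent.S34.Cart Polynomial

variable {B F : Type*} [CommRing B] [Field F] [Algebra B F] [IsFractionRing B F]
  [IsIntegrallyClosed B]

/-- The automorphism `T ↦ ζ T` of the integral closure of `B` in the Kummer algebra. -/
noncomputable def rho (m : ℕ) (hm : 0 < m) (ζ : B) (hζ : ζ ^ m = 1) (h : F) :
    integralClosure B (KAlg m h) ≃ₐ[B] integralClosure B (KAlg m h) :=
  resAut (B := B) (rot m h (algebraMap B F ζ) hm (by rw [← map_pow, hζ, map_one]))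

omit [IsFractionRing B F] [IsIntegrallyClosed B] in
theorem coe_rho (m : ℕ) (hm : 0 < m) (ζ : B) (hζ : ζ ^ m = 1) (h : F)
    (x : integralClosure B (KAlg m h)) :
    ((rho m hm ζ hζ h x : integralClosure B (KAlg m h)) : KAlg m h) =
      rot m h (algebraMap B F ζ) hm (by rw [← map_pow, hζ, map_one]) (x : KAlg m h) := rfl

omit [IsFractionRing B F] [IsIntegrallyClosed B] in
theorem rho_iterate (m : ℕ) (hm : 0 < m) (ζ : B) (hζ : ζ ^ m = 1) (h : F)
    (x : integralClosure B (KAlg m h)) : (rho m hm ζ hζ h)^[m] x = x :=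
  Subtype.ext (by
    rw [rho, coe_resAut_iterate, rot_iterate])

/-- An eigenvector of `T ↦ ζ T` for the eigenvalue `ζ^j` is a multiple of `T^j`. -/
theorem exists_eq_mul_pow_of_rot (m : ℕ) (hm : 0 < m) (ζ : F) (hζ : IsPrimitiveRoot ζ m) (h : F)
    (hh : h ≠ 0) (j : ℕ) (e : KAlg m h)
    (he : rot m h ζ hm hζ.pow_eq_one e = algebraMap F (KAlg m h) (ζ ^ j) * e) :
    ∃ a : F, e = algebraMap F (KAlg m h) a * kT m h ^ j := by
  set Tinv : KAlg m h := kT m h ^ (m - 1) * algebraMap F (KAlg m h) h⁻¹ with hTinv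
  have hTT : kT m h * Tinv = 1 := by
    rw [hTinv, ← mul_assoc, ← pow_succ', Nat.sub_add_cancel hm, kT_pow, ← map_mul,
      mul_inv_cancel₀ hh, map_one]
  have hζE : algebraMap F (KAlg m h) ζ ^ m = 1 := by rw [← map_pow, hζ.pow_eq_one, map_one]
  have hσTinv : rot m h ζ hm hζ.pow_eq_one Tinv = algebraMap F (KAlg m h) ζ ^ (m - 1) * Tinv := by
    rw [hTinv, map_mul, map_pow, rot_kT, AlgEquiv.commutes, mul_pow, mul_assoc]
  have hexp : j + (m - 1) * j = m * j := by
    obtain ⟨n, rfl⟩ : ∃ n, m = n + 1 := ⟨m - 1, by omega⟩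
    rw [Nat.add_sub_cancel]; ring
  have hσTj : rot m h ζ hm hζ.pow_eq_one (Tinv ^ j) =
      algebraMap F (KAlg m h) ζ ^ ((m - 1) * j) * Tinv ^ j := by
    rw [map_pow, hσTinv, mul_pow, ← pow_mul]
  have hinv : rot m h ζ hm hζ.pow_eq_one (e * Tinv ^ j) = e * Tinv ^ j := by
    rw [map_mul, he, hσTj, map_pow]
    have h1 : algebraMap F (KAlg m h) ζ ^ j * algebraMap F (KAlg m h) ζ ^ ((m - 1) * j) = 1 := by
      rw [← pow_add, hexp, pow_mul, hζE, one_pow]
    calc algebraMap F (KAlg m h) ζ ^ j * e * (algebraMap F (KAlg m h) ζ ^ ((m - 1) * j) * Tinv ^ j)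
        = (algebraMap F (KAlg m h) ζ ^ j * algebraMap F (KAlg m h) ζ ^ ((m - 1) * j)) *
            (e * Tinv ^ j) := by ring
      _ = e * Tinv ^ j := by rw [h1, one_mul]
  obtain ⟨a, ha⟩ := rot_invariant m h ζ hm hζ _ hinv
  refine ⟨a, ?_⟩
  have ha' : algebraMap F (KAlg m h) a = e * Tinv ^ j := ha
  rw [ha', mul_assoc, ← mul_pow, mul_comm Tinv, hTT, one_pow, mul_one]

/-- **Eigen-decomposition of the integral closure.**  Every `c ∈ C` is `∑_{j<m} a_j T^j` with
`a_j T^j ∈ C`, and then `a_j^m h^j ∈ B`. -/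
theorem exists_decomp (m : ℕ) (hm : 0 < m) (ζ : B) (hζ : IsPrimitiveRoot ζ m)
    (hmB : IsUnit (m : B)) (h : F) (hh : h ≠ 0) (c : integralClosure B (KAlg m h)) :
    ∃ (e : ℕ → integralClosure B (KAlg m h)) (a : ℕ → F) (β : ℕ → B),
      c = ∑ j ∈ range m, e j ∧
      (∀ j, (e j : KAlg m h) = algebraMap F (KAlg m h) (a j) * kT m h ^ j) ∧
      (∀ j, algebraMap B F (β j) = a j ^ m * h ^ j) := by
  have : IsDomain B := (IsFractionRing.injective B F).isDomain (algebraMap B F)
  have : Fact (0 < m) := ⟨hm⟩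
  obtain ⟨n, hn⟩ := hmB.exists_left_inv
  set η : B := ζ ^ (m - 1) with hη
  have hζη : ζ * η = 1 := by rw [hη, ← pow_succ', Nat.sub_add_cancel hm, hζ.pow_eq_one]
  have hηm : η ^ m = 1 := by
    rw [hη, ← pow_mul, mul_comm, pow_mul, hζ.pow_eq_one, one_pow]
  have hρm : ∀ x, (rho m hm ζ hζ.pow_eq_one h)^[m] x = x := rho_iterate m hm ζ hζ.pow_eq_one h
  let e : ℕ → integralClosure B (KAlg m h) := fun j =>
    algebraMap B (integralClosure B (KAlg m h)) n * eigSum m (rho m hm ζ hζ.pow_eq_one h) (η ^ j) c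
  have he_eig : ∀ j, rho m hm ζ hζ.pow_eq_one h (e j) =
      algebraMap B (integralClosure B (KAlg m h)) (ζ ^ j) * e j := by
    intro j
    simp only [e]
    rw [map_mul, AlgEquiv.commutes, map_eigSum m _ hρm (η ^ j) (ζ ^ j)
      (by rw [← mul_pow, hζη, one_pow]) (by rw [← pow_mul, mul_comm, pow_mul, hηm, one_pow])]
    ring
  have hsum : c = ∑ j ∈ range m, e j := by
    simp only [e]
    rw [← Finset.mul_sum, sum_eigSum m _ ζ η hζ hζη c, ← mul_assoc, ← map_mul, hn, map_one,
      one_mul]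
  have hζF : IsPrimitiveRoot (algebraMap B F ζ) m :=
    hζ.map_of_injective (IsFractionRing.injective B F)
  have hcoord : ∀ j, ∃ a : F, (e j : KAlg m h) = algebraMap F (KAlg m h) a * kT m h ^ j := by
    intro j
    apply exists_eq_mul_pow_of_rot m hm _ hζF h hh j
    have h1 := congrArg Subtype.val (he_eig j)
    rw [coe_rho] at h1
    rw [h1]
    show algebraMap B (KAlg m h) (ζ ^ j) * (e j : KAlg m h) = _
    rw [IsScalarTower.algebraMap_apply B F (KAlg m h), map_pow]
  choose a ha using hcoord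
  have hβ : ∀ j, ∃ β : B, algebraMap B F β = a j ^ m * h ^ j := by
    intro j
    have h1 : IsIntegral B ((e j : KAlg m h) ^ m) := ((e j).2 : IsIntegral B (e j : KAlg m h)).pow m
    have h2 : (e j : KAlg m h) ^ m = algebraMap F (KAlg m h) (a j ^ m * h ^ j) := by
      rw [ha j, mul_pow, ← pow_mul, mul_comm j m, pow_mul, kT_pow, map_mul, map_pow, map_pow]
    rw [h2] at h1
    have h3 := (isIntegral_algebraMap_iff (algebraMap F (KAlg m h)).injective).1 h1
    exact IsIntegrallyClosed.isIntegral_iff.1 h3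
  choose β hβ using hβ
  exact ⟨e, a, β, hsum, ha, hβ⟩

end Kummer

section Normal

open Polynomial

/-- **Residue degree one + normal base ⇒ equal residue rings.**  `P` a prime over `p`, `B ⧸ p`
integrally closed, `c` integral over `B` with `s' c ≡ r'` modulo `P` for some `s' ∉ p`.  Then
`c ≡ r` modulo `P` for some `r ∈ B`. -/
theorem exists_sub_mem_of_mul_sub_mem {B C : Type*} [CommRing B] [CommRing C] [Algebra B C]
    (p : Ideal B) [p.IsPrime] [IsIntegrallyClosed (B ⧸ p)] (P : Ideal C) [P.IsPrime]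
    (hP : P.comap (algebraMap B C) = p) (c : C) (hc : IsIntegral B c) (s' r' : B) (hs' : s' ∉ p)
    (hsr : algebraMap B C s' * c - algebraMap B C r' ∈ P) :
    ∃ r : B, c - algebraMap B C r ∈ P := by
  obtain ⟨f, hf, hfc⟩ := hc
  have h1 : eval₂ (algebraMap B C) (algebraMap B C s' * c) (scaleRoots f s') = 0 :=
    scaleRoots_eval₂_eq_zero _ hfc
  have h2 : eval₂ ((Ideal.Quotient.mk P).comp (algebraMap B C))
      (Ideal.Quotient.mk P (algebraMap B C s' * c)) (scaleRoots f s') = 0 := by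
    rw [← Polynomial.hom_eval₂, h1, map_zero]
  have h3 : Ideal.Quotient.mk P (algebraMap B C s' * c) =
      ((Ideal.Quotient.mk P).comp (algebraMap B C)) r' := by
    rw [RingHom.comp_apply]; exact Ideal.Quotient.eq.2 hsr
  rw [h3, Polynomial.eval₂_at_apply] at h2
  have hN : eval r' (scaleRoots f s') ∈ p := by
    rw [← hP, Ideal.mem_comap]; exact Ideal.Quotient.eq_zero_iff_mem.1 h2
  -- now in the fraction field of `B ⧸ p`
  set g : B →+* FractionRing (B ⧸ p) :=
    (algebraMap (B ⧸ p) (FractionRing (B ⧸ p))).comp (Ideal.Quotient.mk p) with hg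
  have hg0 : ∀ z : B, g z = 0 ↔ z ∈ p := by
    intro z
    rw [hg, RingHom.comp_apply, map_eq_zero_iff _ (IsFractionRing.injective (B ⧸ p) _),
      Ideal.Quotient.eq_zero_iff_mem]
  have hgs : g s' ≠ 0 := fun h0 => hs' ((hg0 s').1 h0)
  have hint : IsIntegral (B ⧸ p) (g r' / g s') := by
    refine ⟨f.map (Ideal.Quotient.mk p), hf.map _, ?_⟩
    rw [Polynomial.eval₂_map]
    have h4 := Polynomial.scaleRoots_eval₂_mul (p := f) g (g r' / g s') s'
    rw [mul_div_cancel₀ _ hgs, Polynomial.eval₂_at_apply, (hg0 _).2 hN] at h4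
    exact (mul_eq_zero.1 h4.symm).resolve_left (pow_ne_zero _ hgs)
  obtain ⟨rbar, hrbar⟩ := IsIntegrallyClosed.isIntegral_iff.1 hint
  obtain ⟨r, rfl⟩ := Ideal.Quotient.mk_surjective rbar
  refine ⟨r, ?_⟩
  have h6 : r * s' - r' ∈ p := by
    rw [← hg0, map_sub, map_mul]
    have : g r = g r' / g s' := hrbar
    rw [this, div_mul_cancel₀ _ hgs, sub_self]
  have h7 : algebraMap B C s' * (c - algebraMap B C r) ∈ P := by
    have e : algebraMap B C s' * (c - algebraMap B C r) =
        (algebraMap B C s' * c - algebraMap B C r') - algebraMap B C (r * s' - r') := by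
      rw [map_sub, map_mul]; ring
    rw [e]
    exact P.sub_mem hsr (by rw [← Ideal.mem_comap, hP]; exact h6)
  exact (Ideal.IsPrime.mem_or_mem inferInstance h7).resolve_left
    (by rw [← Ideal.mem_comap, hP]; exact hs')

/-- An element of the fraction field which is integral at two primes `p₁`, `p₂` with
`p₁ ⊓ p₂ = (π)` and becomes integral after multiplication by a power of `π` is integral. -/
theorem exists_algebraMap_eq_of_two_primes {B F : Type*} [CommRing B] [Field F] [Algebra B F]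
    [IsFractionRing B F] (p₁ p₂ : Ideal B) [p₁.IsPrime] [p₂.IsPrime] (π : B) (hπ : π ≠ 0)
    (hinf : p₁ ⊓ p₂ = Ideal.span {π}) (x : F)
    (h₁ : ∃ s : B, s ∉ p₁ ∧ ∃ y : B, algebraMap B F s * x = algebraMap B F y)
    (h₂ : ∃ s : B, s ∉ p₂ ∧ ∃ y : B, algebraMap B F s * x = algebraMap B F y)
    (N : ℕ) (hN : ∃ y : B, algebraMap B F y = algebraMap B F π ^ N * x) :
    ∃ y : B, algebraMap B F y = x := by
  have hinj := IsFractionRing.injective B F
  have hπF : algebraMap B F π ≠ 0 := fun h0 => hπ (hinj (by rw [h0, map_zero]))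
  have hπ₁ : π ∈ p₁ := by
    have : π ∈ p₁ ⊓ p₂ := by rw [hinf]; exact Ideal.mem_span_singleton_self π
    exact this.1
  have hπ₂ : π ∈ p₂ := by
    have : π ∈ p₁ ⊓ p₂ := by rw [hinf]; exact Ideal.mem_span_singleton_self π
    exact this.2
  induction N with
  | zero =>
    obtain ⟨y, hy⟩ := hN
    exact ⟨y, by rw [hy, pow_zero, one_mul]⟩
  | succ N ih =>
    obtain ⟨y, hy⟩ := hN
    apply ih
    have key : ∀ (q : Ideal B) [q.IsPrime], π ∈ q →
        (∃ s : B, s ∉ q ∧ ∃ y : B, algebraMap B F s * x = algebraMap B F y) → y ∈ q := by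
      intro q _ hπq ⟨s, hs, y₁, hy₁⟩
      have e : s * y = π ^ (N + 1) * y₁ := by
        apply hinj
        rw [map_mul, map_mul, map_pow, hy, ← hy₁]; ring
      have : s * y ∈ q := by
        rw [e, pow_succ]
        exact q.mul_mem_right _ (q.mul_mem_left _ hπq)
      exact (Ideal.IsPrime.mem_or_mem inferInstance this).resolve_left hs
    have hy12 : y ∈ p₁ ⊓ p₂ := ⟨key p₁ hπ₁ h₁, key p₂ hπ₂ h₂⟩
    rw [hinf, Ideal.mem_span_singleton] at hy12
    obtain ⟨y', rfl⟩ := hy12
    refine ⟨y', ?_⟩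
    rw [map_mul, pow_succ, mul_comm (algebraMap B F π ^ N), mul_assoc] at hy
    exact mul_left_cancel₀ hπF hy

/-- In a domain quotient, `x^m ≡ y^m` with `y ≢ 0` forces `x ≡ ζ^i y` for some `i < m`. -/
theorem exists_pow_mul_sub_mem {B C : Type*} [CommRing B] [IsDomain B] [CommRing C] [Algebra B C]
    (m : ℕ) (hm : 0 < m) (ζ : B) (hζ : IsPrimitiveRoot ζ m) (hmB : IsUnit (m : B))
    (P : Ideal C) [P.IsPrime] (x y : C) (hy : y ∉ P) (hxy : x ^ m - y ^ m ∈ P) :
    ∃ i < m, x - algebraMap B C (ζ ^ i) * y ∈ P := by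
  set f : C →+* FractionRing (C ⧸ P) :=
    (algebraMap (C ⧸ P) (FractionRing (C ⧸ P))).comp (Ideal.Quotient.mk P) with hf
  have hf0 : ∀ z, f z = 0 ↔ z ∈ P := by
    intro z
    rw [hf, RingHom.comp_apply, map_eq_zero_iff _ (IsFractionRing.injective (C ⧸ P) _),
      Ideal.Quotient.eq_zero_iff_mem]
  have hy' : f y ≠ 0 := fun h0 => hy ((hf0 _).1 h0)
  have hpow : f x ^ m = f y ^ m := by
    have := (hf0 _).2 hxy
    rw [map_sub, map_pow, map_pow, sub_eq_zero] at this
    exact this
  have ht : (f x / f y) ^ m = 1 := by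
    rw [div_pow, hpow, div_self (pow_ne_zero _ hy')]
  have hmK : ((m : ℕ) : FractionRing (C ⧸ P)) ≠ 0 := by
    have h1 : IsUnit ((f.comp (algebraMap B C)) (m : B)) := hmB.map _
    rw [map_natCast] at h1
    exact h1.ne_zero
  have hζK : IsPrimitiveRoot ((f.comp (algebraMap B C)) ζ) m := isPrimitiveRoot_map _ hζ hmK
  have : NeZero m := ⟨hm.ne'⟩
  obtain ⟨i, hi, hit⟩ := hζK.eq_pow_of_pow_eq_one ht
  refine ⟨i, hi, ?_⟩
  rw [← hf0, map_sub, map_mul, sub_eq_zero]
  have h2 : f x = (f x / f y) * f y := by rw [div_mul_cancel₀ _ hy']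
  rw [h2, ← hit, map_pow, map_pow]
  rfl

end Normal

section Local

open Fermat.Agent.S34.Cart Polynomial

variable {B F : Type*} [CommRing B] [Field F] [Algebra B F] [IsFractionRing B F]
  [IsIntegrallyClosed B]

omit [IsIntegrallyClosed B] in
theorem algebraMap_injective_kc (m : ℕ) (hm : 0 < m) (h : F) :
    Function.Injective (algebraMap B (integralClosure B (KAlg m h))) := by
  have : Fact (0 < m) := ⟨hm⟩
  intro x y hxy
  have h1 : algebraMap B (KAlg m h) x = algebraMap B (KAlg m h) y := congrArg Subtype.val hxy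
  rw [IsScalarTower.algebraMap_apply B F (KAlg m h), IsScalarTower.algebraMap_apply B F (KAlg m h)]
    at h1
  exact IsFractionRing.injective B F ((algebraMap F (KAlg m h)).injective h1)

omit [IsFractionRing B F] [IsIntegrallyClosed B] in
/-- `(b T)^m = b^(m-1) (b + a)` when `h b = b + a`. -/
theorem mul_kT_pow (m : ℕ) (hm : 0 < m) (h : F) (a₀ b : B)
    (hab : h * algebraMap B F b = algebraMap B F b + algebraMap B F a₀) :
    (algebraMap B (KAlg m h) b * kT m h) ^ m = algebraMap B (KAlg m h) (b ^ (m - 1) * (b + a₀)) := by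
  rw [mul_pow, kT_pow, IsScalarTower.algebraMap_apply B F (KAlg m h),
    IsScalarTower.algebraMap_apply B F (KAlg m h) (b ^ (m - 1) * (b + a₀)), ← map_pow, ← map_mul]
  congr 1
  rw [map_mul, map_pow, map_add, ← hab]
  obtain ⟨n, rfl⟩ : ∃ n, m = n + 1 := ⟨m - 1, by omega⟩
  rw [Nat.add_sub_cancel]; ring

omit [IsFractionRing B F] [IsIntegrallyClosed B] in
/-- The element `b T` of the integral closure. -/
theorem exists_bT (m : ℕ) (hm : 0 < m) (h : F) (a₀ b : B)
    (hab : h * algebraMap B F b = algebraMap B F b + algebraMap B F a₀) :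
    ∃ x : integralClosure B (KAlg m h), (x : KAlg m h) = algebraMap B (KAlg m h) b * kT m h := by
  refine ⟨⟨algebraMap B (KAlg m h) b * kT m h, ?_⟩, rfl⟩
  apply IsIntegral.of_pow hm
  rw [mul_kT_pow m hm h a₀ b hab]
  exact isIntegral_algebraMap

/-- `P` is a **branch** over `p` with label `i`: a prime of the integral closure of `B` in the
Kummer algebra lying over `p` at which `T ≡ ζ^i`. -/
def IsBranch (m : ℕ) (ζ : B) (h : F) (p : Ideal B) (i : ℕ)
    (P : Ideal (integralClosure B (KAlg m h))) : Prop :=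
  P.IsPrime ∧ P.comap (algebraMap B (integralClosure B (KAlg m h))) = p ∧
    ∀ (b : B) (x : integralClosure B (KAlg m h)),
      (x : KAlg m h) = algebraMap B (KAlg m h) b * kT m h →
        x - algebraMap B (integralClosure B (KAlg m h)) (ζ ^ i * b) ∈ P

omit [IsFractionRing B F] [IsIntegrallyClosed B] in
theorem IsBranch.isPrime {m : ℕ} {ζ : B} {h : F} {p : Ideal B} {i : ℕ}
    {P : Ideal (integralClosure B (KAlg m h))} (hP : IsBranch m ζ h p i P) : P.IsPrime := hP.1

omit [IsFractionRing B F] [IsIntegrallyClosed B] in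
theorem IsBranch.comap_eq {m : ℕ} {ζ : B} {h : F} {p : Ideal B} {i : ℕ}
    {P : Ideal (integralClosure B (KAlg m h))} (hP : IsBranch m ζ h p i P) :
    P.comap (algebraMap B (integralClosure B (KAlg m h))) = p := hP.2.1

omit [IsFractionRing B F] [IsIntegrallyClosed B] in
theorem IsBranch.algebraMap_mem_iff {m : ℕ} {ζ : B} {h : F} {p : Ideal B} {i : ℕ}
    {P : Ideal (integralClosure B (KAlg m h))} (hP : IsBranch m ζ h p i P) (z : B) :
    algebraMap B (integralClosure B (KAlg m h)) z ∈ P ↔ z ∈ p := by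
  rw [← hP.comap_eq, Ideal.mem_comap]

omit [IsFractionRing B F] [IsIntegrallyClosed B] in
/-- A prime over `p` with one label witness `b ∉ p` is a branch. -/
theorem isBranch_of_label (m : ℕ) (ζ : B) (h : F) (p : Ideal B)
    (P : Ideal (integralClosure B (KAlg m h))) [P.IsPrime]
    (hP : P.comap (algebraMap B (integralClosure B (KAlg m h))) = p) (b : B) (hb : b ∉ p)
    (x : integralClosure B (KAlg m h)) (hx : (x : KAlg m h) = algebraMap B (KAlg m h) b * kT m h)
    (i : ℕ) (hlabel : x - algebraMap B (integralClosure B (KAlg m h)) (ζ ^ i * b) ∈ P) :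
    IsBranch m ζ h p i P := by
  refine ⟨inferInstance, hP, fun b' x' hx' => ?_⟩
  have e : algebraMap B (integralClosure B (KAlg m h)) b *
      (x' - algebraMap B (integralClosure B (KAlg m h)) (ζ ^ i * b')) =
      algebraMap B (integralClosure B (KAlg m h)) b' *
        (x - algebraMap B (integralClosure B (KAlg m h)) (ζ ^ i * b)) := by
    apply Subtype.ext
    show algebraMap B (KAlg m h) b * ((x' : KAlg m h) - algebraMap B (KAlg m h) (ζ ^ i * b')) =
      algebraMap B (KAlg m h) b' * ((x : KAlg m h) - algebraMap B (KAlg m h) (ζ ^ i * b))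
    rw [hx, hx', map_mul, map_mul]; ring
  have h1 : algebraMap B (integralClosure B (KAlg m h)) b *
      (x' - algebraMap B (integralClosure B (KAlg m h)) (ζ ^ i * b')) ∈ P := by
    rw [e]; exact P.mul_mem_left _ hlabel
  exact (Ideal.IsPrime.mem_or_mem inferInstance h1).resolve_left
    (by rw [← Ideal.mem_comap, hP]; exact hb)

omit [IsIntegrallyClosed B] in
/-- Every prime over `p` carries a label. -/
theorem exists_label (m : ℕ) (hm : 0 < m) (ζ : B) (hζ : IsPrimitiveRoot ζ m)
    (hmB : IsUnit (m : B)) (h : F) (a₀ b : B)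
    (hab : h * algebraMap B F b = algebraMap B F b + algebraMap B F a₀)
    (P : Ideal (integralClosure B (KAlg m h))) [P.IsPrime]
    (ha₀ : algebraMap B (integralClosure B (KAlg m h)) a₀ ∈ P)
    (hbP : algebraMap B (integralClosure B (KAlg m h)) b ∉ P)
    (x : integralClosure B (KAlg m h)) (hx : (x : KAlg m h) = algebraMap B (KAlg m h) b * kT m h) :
    ∃ i < m, x - algebraMap B (integralClosure B (KAlg m h)) (ζ ^ i * b) ∈ P := by
  have : IsDomain B := (IsFractionRing.injective B F).isDomain (algebraMap B F)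
  -- `x^m ≡ b^m` modulo `P`
  have hxm : x ^ m = algebraMap B (integralClosure B (KAlg m h)) (b ^ (m - 1) * (b + a₀)) := by
    apply Subtype.ext
    show (x : KAlg m h) ^ m = algebraMap B (KAlg m h) (b ^ (m - 1) * (b + a₀))
    rw [hx, mul_kT_pow m hm h a₀ b hab]
  have hdiff : x ^ m - algebraMap B (integralClosure B (KAlg m h)) b ^ m ∈ P := by
    have e : x ^ m - algebraMap B (integralClosure B (KAlg m h)) b ^ m =
        algebraMap B (integralClosure B (KAlg m h)) (b ^ (m - 1)) *
          algebraMap B (integralClosure B (KAlg m h)) a₀ := by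
      rw [hxm, ← map_pow, ← map_mul, ← map_sub]
      congr 1
      obtain ⟨n, rfl⟩ : ∃ n, m = n + 1 := ⟨m - 1, by omega⟩
      rw [Nat.add_sub_cancel]; ring
    rw [e]; exact P.mul_mem_left _ ha₀
  obtain ⟨i, hi, hmem⟩ := exists_pow_mul_sub_mem m hm ζ hζ hmB P x
    (algebraMap B (integralClosure B (KAlg m h)) b) hbP hdiff
  refine ⟨i, hi, ?_⟩
  rw [map_mul]
  exact hmem

/-- The numerator `r = a (b + a₀)` of a coordinate `a` with `a^m h^j ∈ B`. -/
theorem exists_r (m : ℕ) (hm : 0 < m) (h : F) (a₀ b : B)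
    (hab : h * algebraMap B F b = algebraMap B F b + algebraMap B F a₀)
    (a : F) (β : B) (j : ℕ) (hj : j ≤ m) (hβ : algebraMap B F β = a ^ m * h ^ j) :
    ∃ r : B, algebraMap B F r = a * algebraMap B F (b + a₀) ∧
      r ^ m = β * b ^ j * (b + a₀) ^ (m - j) := by
  have hs : algebraMap B F (b + a₀) = h * algebraMap B F b := by rw [map_add, hab]
  have hpow : (a * algebraMap B F (b + a₀)) ^ m =
      algebraMap B F (β * b ^ j * (b + a₀) ^ (m - j)) := by
    rw [map_mul, map_mul, map_pow, map_pow, hβ]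
    have e : (a * algebraMap B F (b + a₀)) ^ m =
        a ^ m * (algebraMap B F (b + a₀) ^ j * algebraMap B F (b + a₀) ^ (m - j)) := by
      rw [← pow_add, Nat.add_sub_cancel' hj, mul_pow]
    rw [e]
    nth_rewrite 1 [hs]
    ring
  have hint : IsIntegral B (a * algebraMap B F (b + a₀)) := by
    apply IsIntegral.of_pow hm
    rw [hpow]
    exact isIntegral_algebraMap
  obtain ⟨r, hr⟩ := IsIntegrallyClosed.isIntegral_iff.1 hint
  refine ⟨r, hr, IsFractionRing.injective B F ?_⟩
  rw [map_pow, hr, hpow]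

omit [IsFractionRing B F] [IsIntegrallyClosed B] in
/-- **Key congruence.**  At a prime `P` where `b T ≡ ζ^i b`, an element `∑_j a_j T^j` of `C`
satisfies `(b + a₀) b^(m-1) c ≡ b^(m-1) ∑_j r_j ζ^(ij)`, where `r_j = a_j (b + a₀)`. -/
theorem key_congr (m : ℕ) (ζ : B) (h : F) (a₀ b : B)
    (P : Ideal (integralClosure B (KAlg m h))) (i : ℕ)
    (x : integralClosure B (KAlg m h)) (hx : (x : KAlg m h) = algebraMap B (KAlg m h) b * kT m h)
    (hlabel : x - algebraMap B (integralClosure B (KAlg m h)) (ζ ^ i * b) ∈ P)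
    (e : ℕ → integralClosure B (KAlg m h)) (a : ℕ → F) (r : ℕ → B)
    (he : ∀ j, j < m → (e j : KAlg m h) = algebraMap F (KAlg m h) (a j) * kT m h ^ j)
    (hr : ∀ j, j < m → algebraMap B F (r j) = a j * algebraMap B F (b + a₀)) :
    algebraMap B (integralClosure B (KAlg m h)) ((b + a₀) * b ^ (m - 1)) * (∑ j ∈ range m, e j) -
      algebraMap B (integralClosure B (KAlg m h)) (b ^ (m - 1) * ∑ j ∈ range m, r j * ζ ^ (i * j))
      ∈ P := by
  have hstar : algebraMap B (integralClosure B (KAlg m h)) ((b + a₀) * b ^ (m - 1)) *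
      (∑ j ∈ range m, e j) =
      ∑ j ∈ range m, algebraMap B (integralClosure B (KAlg m h)) (r j * b ^ (m - 1 - j)) * x ^ j := by
    rw [Finset.mul_sum]
    refine Finset.sum_congr rfl fun j hj => ?_
    have hj' := Finset.mem_range.1 hj
    apply Subtype.ext
    show algebraMap B (KAlg m h) ((b + a₀) * b ^ (m - 1)) * (e j : KAlg m h) =
      algebraMap B (KAlg m h) (r j * b ^ (m - 1 - j)) * (x : KAlg m h) ^ j
    rw [hx, he j hj']
    have e1 : algebraMap B (KAlg m h) (r j * b ^ (m - 1 - j)) *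
        (algebraMap B (KAlg m h) b * kT m h) ^ j =
        algebraMap B (KAlg m h) (r j * b ^ (m - 1)) * kT m h ^ j := by
      rw [mul_pow, ← map_pow, ← mul_assoc, ← map_mul, mul_assoc (r j), ← pow_add,
        Nat.sub_add_cancel (by omega)]
    rw [e1, ← mul_assoc]
    congr 1
    rw [IsScalarTower.algebraMap_apply B F (KAlg m h),
      IsScalarTower.algebraMap_apply B F (KAlg m h) (r j * _), ← map_mul]
    congr 1
    rw [map_mul, map_mul, hr j hj', map_pow]
    ring
  have hB : algebraMap B (integralClosure B (KAlg m h))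
      (b ^ (m - 1) * ∑ j ∈ range m, r j * ζ ^ (i * j)) =
      ∑ j ∈ range m, algebraMap B (integralClosure B (KAlg m h)) (r j * b ^ (m - 1 - j)) *
        (algebraMap B (integralClosure B (KAlg m h)) (ζ ^ i * b)) ^ j := by
    rw [Finset.mul_sum, map_sum]
    refine Finset.sum_congr rfl fun j hj => ?_
    have hj' := Finset.mem_range.1 hj
    rw [← map_pow, ← map_mul]
    congr 1
    rw [mul_pow, ← pow_mul]
    have : b ^ (m - 1) = b ^ (m - 1 - j) * b ^ j := by
      rw [← pow_add, Nat.sub_add_cancel (by omega)]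
    rw [this]; ring
  rw [hstar, hB, ← Finset.sum_sub_distrib]
  refine P.sum_mem fun j _ => ?_
  rw [← mul_sub]
  refine P.mul_mem_left _ ?_
  obtain ⟨k, hk⟩ := sub_dvd_pow_sub_pow x
    (algebraMap B (integralClosure B (KAlg m h)) (ζ ^ i * b)) j
  rw [hk]
  exact P.mul_mem_right _ hlabel

omit [IsFractionRing B F] [IsIntegrallyClosed B] in
/-- Discrete Fourier inversion modulo an ideal. -/
theorem mem_of_dft [IsDomain B] (m : ℕ) (hm : 0 < m) (ζ : B) (hζ : IsPrimitiveRoot ζ m)
    (hmB : IsUnit (m : B)) (p : Ideal B) (r : ℕ → B)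
    (H : ∀ i, i < m → ∑ j ∈ range m, r j * ζ ^ (i * j) ∈ p) (j' : ℕ) (hj' : j' < m) :
    r j' ∈ p := by
  obtain ⟨n, hn⟩ := hmB.exists_left_inv
  obtain ⟨η, hζη⟩ : ∃ η : B, ζ * η = 1 :=
    ⟨ζ ^ (m - 1), by rw [← pow_succ', Nat.sub_add_cancel hm, hζ.pow_eq_one]⟩
  have hηm : η ^ m = 1 := by
    have : (ζ * η) ^ m = 1 := by rw [hζη, one_pow]
    rwa [mul_pow, hζ.pow_eq_one, one_mul] at this
  have h1 : ∑ i ∈ range m, η ^ (i * j') * ∑ j ∈ range m, r j * ζ ^ (i * j) ∈ p :=
    p.sum_mem fun i hi => p.mul_mem_left _ (H i (Finset.mem_range.1 hi))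
  have h2 : ∑ i ∈ range m, η ^ (i * j') * ∑ j ∈ range m, r j * ζ ^ (i * j) = (m : B) * r j' := by
    have e1 : ∀ i ∈ range m, η ^ (i * j') * ∑ j ∈ range m, r j * ζ ^ (i * j) =
        ∑ j ∈ range m, r j * (ζ ^ j * η ^ j') ^ i := by
      intro i _
      rw [Finset.mul_sum]
      refine Finset.sum_congr rfl fun j _ => ?_
      rw [mul_pow, ← pow_mul, ← pow_mul, mul_comm j i, mul_comm j' i]; ring
    rw [Finset.sum_congr rfl e1, Finset.sum_comm]
    have e2 : ∀ j ∈ range m, ∑ i ∈ range m, r j * (ζ ^ j * η ^ j') ^ i =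
        if j = j' then (m : B) * r j' else 0 := by
      intro j hj
      rw [← Finset.mul_sum]
      split_ifs with hjj
      · subst hjj
        rw [← mul_pow, hζη, one_pow]
        simp [mul_comm]
      · have hne : ζ ^ j * η ^ j' ≠ 1 := by
          intro h1
          apply hjj
          apply hζ.pow_inj (Finset.mem_range.1 hj) hj'
          have : ζ ^ j * (η ^ j' * ζ ^ j') = ζ ^ j' := by rw [← mul_assoc, h1, one_mul]
          rwa [← mul_pow, mul_comm η ζ, hζη, one_pow, mul_one] at this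
        rw [geom_sum_eq_zero_of_pow_eq_one
          (by rw [mul_pow, ← pow_mul, ← pow_mul, mul_comm j m, mul_comm j' m, pow_mul, pow_mul,
            hζ.pow_eq_one, hηm, one_pow, one_pow, one_mul]) hne, mul_zero]
    rw [Finset.sum_congr rfl e2, Finset.sum_ite_eq', if_pos (Finset.mem_range.2 hj')]
  rw [h2] at h1
  have h3 : r j' = n * ((m : B) * r j') := by rw [← mul_assoc, hn, one_mul]
  rw [h3]
  exact p.mul_mem_left _ h1

/-- `h ≡ 1` at the prime `p` of `B`: `h = (b + a) / b` with `a ∈ p`, `b ∉ p`. -/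
def CongrOne (h : F) (p : Ideal B) : Prop :=
  ∃ a b : B, a ∈ p ∧ b ∉ p ∧ h * algebraMap B F b = algebraMap B F b + algebraMap B F a

omit [IsIntegrallyClosed B] in
theorem ne_zero_of_congr (h : F) (p : Ideal B) (a₀ b : B) (ha₀ : a₀ ∈ p) (hb : b ∉ p)
    (hab : h * algebraMap B F b = algebraMap B F b + algebraMap B F a₀) : h ≠ 0 := by
  intro h0
  rw [h0, zero_mul, ← map_add] at hab
  have h1 : b + a₀ = 0 := IsFractionRing.injective B F (by rw [← hab, map_zero])
  apply hb
  have : b = -a₀ := eq_neg_of_add_eq_zero_left h1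
  rw [this]
  exact p.neg_mem ha₀

omit [IsFractionRing B F] [IsIntegrallyClosed B] in
theorem IsBranch.add_period {m : ℕ} {ζ : B} {h : F} {p : Ideal B} {i : ℕ}
    {P : Ideal (integralClosure B (KAlg m h))} (hζ : ζ ^ m = 1)
    (hP : IsBranch m ζ h p (i + m) P) : IsBranch m ζ h p i P := by
  refine ⟨hP.1, hP.2.1, fun b x hx => ?_⟩
  have := hP.2.2 b x hx
  rwa [pow_add, hζ, mul_one] at this

omit [IsFractionRing B F] [IsIntegrallyClosed B] in
/-- The rotation `ρ : T ↦ ζ T` shifts the labels: `ρ⁻¹(P)` has label `i + 1`. -/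
theorem IsBranch.comap_rho {m : ℕ} (hm : 0 < m) {ζ : B} (hζ : ζ ^ m = 1) {h : F} {p : Ideal B}
    {i : ℕ} {P : Ideal (integralClosure B (KAlg m h))} (hP : IsBranch m ζ h p i P) :
    IsBranch m ζ h p (i + 1) (P.comap (rho m hm ζ hζ h)) := by
  have : P.IsPrime := hP.1
  refine ⟨Ideal.comap_isPrime _ _, ?_, fun b x hx => ?_⟩
  · ext z
    rw [Ideal.mem_comap, Ideal.mem_comap, AlgEquiv.commutes, ← Ideal.mem_comap, hP.2.1]
  · rw [Ideal.mem_comap, map_sub, AlgEquiv.commutes]
    have h1 : rho m hm ζ hζ h x = algebraMap B (integralClosure B (KAlg m h)) ζ * x := by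
      apply Subtype.ext
      rw [coe_rho]
      show rot m h (algebraMap B F ζ) hm _ (x : KAlg m h) =
        algebraMap B (KAlg m h) ζ * (x : KAlg m h)
      rw [hx, map_mul, rot_kT, IsScalarTower.algebraMap_apply B F (KAlg m h) b, AlgEquiv.commutes,
        IsScalarTower.algebraMap_apply B F (KAlg m h) ζ]
      ring
    have h2 := P.mul_mem_left (algebraMap B (integralClosure B (KAlg m h)) ζ) (hP.2.2 b x hx)
    have e : algebraMap B (integralClosure B (KAlg m h)) ζ *
        (x - algebraMap B (integralClosure B (KAlg m h)) (ζ ^ i * b)) =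
        rho m hm ζ hζ h x - algebraMap B (integralClosure B (KAlg m h)) (ζ ^ (i + 1) * b) := by
      rw [h1, mul_sub, ← map_mul]
      congr 2
      ring
    rw [← e]
    exact h2

omit [IsIntegrallyClosed B] in
/-- **Existence of all branches.**  For each `i` there is a branch over `p` with label `i`. -/
theorem exists_isBranch (m : ℕ) (hm : 0 < m) (ζ : B) (hζ : IsPrimitiveRoot ζ m)
    (hmB : IsUnit (m : B)) (h : F) (p : Ideal B) [p.IsPrime] (hc : CongrOne h p) (i : ℕ) :
    ∃ P : Ideal (integralClosure B (KAlg m h)), IsBranch m ζ h p i P := by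
  obtain ⟨a₀, b, ha₀, hb, hab⟩ := hc
  obtain ⟨x, hx⟩ := exists_bT m hm h a₀ b hab
  have hker : (⊥ : Ideal (integralClosure B (KAlg m h))).comap
      (algebraMap B (integralClosure B (KAlg m h))) ≤ p := by
    intro z hz
    rw [Ideal.mem_comap, Ideal.mem_bot] at hz
    have : z = 0 := algebraMap_injective_kc m hm h (by rw [hz, map_zero])
    rw [this]; exact p.zero_mem
  obtain ⟨P₀, -, hP₀prime, hP₀⟩ := Ideal.exists_ideal_over_prime_of_isIntegral p
    (⊥ : Ideal (integralClosure B (KAlg m h))) hker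
  obtain ⟨i₀, hi₀, hlab⟩ := exists_label m hm ζ hζ hmB h a₀ b hab P₀
    (by rw [← Ideal.mem_comap, hP₀]; exact ha₀) (by rw [← Ideal.mem_comap, hP₀]; exact hb) x hx
  have hbr₀ : IsBranch m ζ h p i₀ P₀ := isBranch_of_label m ζ h p P₀ hP₀ b hb x hx i₀ hlab
  have hall : ∀ k, ∃ P, IsBranch m ζ h p (i₀ + k) P := by
    intro k
    induction k with
    | zero => exact ⟨P₀, hbr₀⟩
    | succ k ih =>
      obtain ⟨P, hP⟩ := ih
      exact ⟨_, hP.comap_rho hm hζ.pow_eq_one⟩
  obtain ⟨P, hP⟩ := hall (i + (m - i₀))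
  refine ⟨P, IsBranch.add_period hζ.pow_eq_one ?_⟩
  have : i₀ + (i + (m - i₀)) = i + m := by omega
  rwa [this] at hP

omit [IsIntegrallyClosed B] in
/-- Every prime of `C` over `p` is a branch. -/
theorem exists_isBranch_of_comap_eq (m : ℕ) (hm : 0 < m) (ζ : B) (hζ : IsPrimitiveRoot ζ m)
    (hmB : IsUnit (m : B)) (h : F) (p : Ideal B) (hc : CongrOne h p)
    (Q : Ideal (integralClosure B (KAlg m h))) [Q.IsPrime]
    (hQ : Q.comap (algebraMap B (integralClosure B (KAlg m h))) = p) :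
    ∃ i < m, IsBranch m ζ h p i Q := by
  obtain ⟨a₀, b, ha₀, hb, hab⟩ := hc
  obtain ⟨x, hx⟩ := exists_bT m hm h a₀ b hab
  obtain ⟨i₀, hi₀, hlab⟩ := exists_label m hm ζ hζ hmB h a₀ b hab Q
    (by rw [← Ideal.mem_comap, hQ]; exact ha₀) (by rw [← Ideal.mem_comap, hQ]; exact hb) x hx
  exact ⟨i₀, hi₀, isBranch_of_label m ζ h p Q hQ b hb x hx i₀ hlab⟩

omit [IsFractionRing B F] [IsIntegrallyClosed B] in
/-- **Membership criterion** at a branch with label `i`, in eigen-coordinates. -/
theorem IsBranch.sum_mem_iff {m : ℕ} {ζ : B} {h : F} {p : Ideal B} {i : ℕ}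
    {P : Ideal (integralClosure B (KAlg m h))} (hP : IsBranch m ζ h p i P)
    (a₀ b : B) (ha₀ : a₀ ∈ p) (hb : b ∉ p)
    (x : integralClosure B (KAlg m h)) (hx : (x : KAlg m h) = algebraMap B (KAlg m h) b * kT m h)
    (e : ℕ → integralClosure B (KAlg m h)) (a : ℕ → F) (r : ℕ → B)
    (he : ∀ j, j < m → (e j : KAlg m h) = algebraMap F (KAlg m h) (a j) * kT m h ^ j)
    (hr : ∀ j, j < m → algebraMap B F (r j) = a j * algebraMap B F (b + a₀)) :
    ∑ j ∈ range m, e j ∈ P ↔ ∑ j ∈ range m, r j * ζ ^ (i * j) ∈ p := by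
  have hprime : P.IsPrime := hP.1
  have hpprime : p.IsPrime := by rw [← hP.comap_eq]; exact Ideal.comap_isPrime _ _
  have hkey := key_congr m ζ h a₀ b P i x hx (hP.2.2 b x hx) e a r he hr
  have hs : (b + a₀) * b ^ (m - 1) ∉ p := by
    intro hmem
    rcases hpprime.mem_or_mem hmem with h1 | h1
    · exact hb (by have := p.sub_mem h1 ha₀; simpa using this)
    · exact hb (hpprime.mem_of_pow_mem _ h1)
  constructor
  · intro hmem
    have h1 : algebraMap B (integralClosure B (KAlg m h))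
        (b ^ (m - 1) * ∑ j ∈ range m, r j * ζ ^ (i * j)) ∈ P := by
      have := P.sub_mem (P.mul_mem_left
        (algebraMap B (integralClosure B (KAlg m h)) ((b + a₀) * b ^ (m - 1))) hmem) hkey
      simpa using this
    rw [hP.algebraMap_mem_iff] at h1
    rcases hpprime.mem_or_mem h1 with h2 | h2
    · exact absurd (hpprime.mem_of_pow_mem _ h2) hb
    · exact h2
  · intro hmem
    have h1 : algebraMap B (integralClosure B (KAlg m h))
        (b ^ (m - 1) * ∑ j ∈ range m, r j * ζ ^ (i * j)) ∈ P :=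
      (hP.algebraMap_mem_iff _).2 (p.mul_mem_left _ hmem)
    have h2 : algebraMap B (integralClosure B (KAlg m h)) ((b + a₀) * b ^ (m - 1)) *
        ∑ j ∈ range m, e j ∈ P := by
      have := P.add_mem hkey h1
      simpa using this
    exact (hprime.mem_or_mem h2).resolve_left (fun h3 => hs ((hP.algebraMap_mem_iff _).1 h3))

/-- **Uniqueness of the branch with a given label.** -/
theorem IsBranch.unique {m : ℕ} (hm : 0 < m) {ζ : B} (hζ : IsPrimitiveRoot ζ m)
    (hmB : IsUnit (m : B)) {h : F} {p : Ideal B} (hc : CongrOne h p) {i : ℕ}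
    {P P' : Ideal (integralClosure B (KAlg m h))} (hP : IsBranch m ζ h p i P)
    (hP' : IsBranch m ζ h p i P') : P = P' := by
  obtain ⟨a₀, b, ha₀, hb, hab⟩ := hc
  obtain ⟨x, hx⟩ := exists_bT m hm h a₀ b hab
  have hh : h ≠ 0 := ne_zero_of_congr h p a₀ b ha₀ hb hab
  ext c
  obtain ⟨e, a, β, hsum, he, hβ⟩ := exists_decomp m hm ζ hζ hmB h hh c
  choose! r hr _ using fun j (hj : j < m) => exists_r m hm h a₀ b hab (a j) (β j) j hj.le (hβ j)
  rw [hsum, hP.sum_mem_iff a₀ b ha₀ hb x hx e a r (fun j _ => he j) hr,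
    hP'.sum_mem_iff a₀ b ha₀ hb x hx e a r (fun j _ => he j) hr]

omit [IsIntegrallyClosed B] in
/-- Branches with different labels `< m` are different. -/
theorem IsBranch.ne {m : ℕ} (hm : 0 < m) {ζ : B} (hζ : IsPrimitiveRoot ζ m)
    (hmB : IsUnit (m : B)) {h : F} {p : Ideal B} (hc : CongrOne h p) {i i' : ℕ}
    (hi : i < m) (hi' : i' < m) (hii' : i ≠ i')
    {P P' : Ideal (integralClosure B (KAlg m h))} (hP : IsBranch m ζ h p i P)
    (hP' : IsBranch m ζ h p i' P') : P ≠ P' := by
  have : IsDomain B := (IsFractionRing.injective B F).isDomain (algebraMap B F)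
  rintro rfl
  obtain ⟨a₀, b, ha₀, hb, hab⟩ := hc
  obtain ⟨x, hx⟩ := exists_bT m hm h a₀ b hab
  have hprime : P.IsPrime := hP.1
  have hpprime : p.IsPrime := by rw [← hP.comap_eq]; exact Ideal.comap_isPrime _ _
  have h1 := P.sub_mem (hP'.2.2 b x hx) (hP.2.2 b x hx)
  have e : x - algebraMap B (integralClosure B (KAlg m h)) (ζ ^ i' * b) -
      (x - algebraMap B (integralClosure B (KAlg m h)) (ζ ^ i * b)) =
      algebraMap B (integralClosure B (KAlg m h)) ((ζ ^ i - ζ ^ i') * b) := by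
    rw [sub_mul, map_sub]; ring
  rw [e, hP.algebraMap_mem_iff] at h1
  have h2 : ζ ^ i - ζ ^ i' ∈ p := (hpprime.mem_or_mem h1).resolve_right hb
  -- the image of `ζ` in the residue field is still primitive
  set g : B →+* FractionRing (B ⧸ p) :=
    (algebraMap (B ⧸ p) (FractionRing (B ⧸ p))).comp (Ideal.Quotient.mk p) with hg
  have hg0 : ∀ z : B, g z = 0 ↔ z ∈ p := by
    intro z
    rw [hg, RingHom.comp_apply, map_eq_zero_iff _ (IsFractionRing.injective (B ⧸ p) _),
      Ideal.Quotient.eq_zero_iff_mem]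
  have hmK : ((m : ℕ) : FractionRing (B ⧸ p)) ≠ 0 := by
    have h3 : IsUnit (g (m : B)) := hmB.map _
    rw [map_natCast] at h3
    exact h3.ne_zero
  have hζK : IsPrimitiveRoot (g ζ) m := isPrimitiveRoot_map g hζ hmK
  have h4 := (hg0 _).2 h2
  rw [map_sub, map_pow, map_pow, sub_eq_zero] at h4
  exact hii' (hζK.pow_inj hi hi' h4)

/-- **The branch rings are `B ⧸ p`.**  If `B ⧸ p` is integrally closed, every element of `C` is
congruent to an element of `B` modulo a branch over `p`. -/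
theorem IsBranch.exists_sub_mem {m : ℕ} (hm : 0 < m) {ζ : B} (hζ : IsPrimitiveRoot ζ m)
    (hmB : IsUnit (m : B)) {h : F} {p : Ideal B} [p.IsPrime] [IsIntegrallyClosed (B ⧸ p)]
    (hc : CongrOne h p) {i : ℕ} {P : Ideal (integralClosure B (KAlg m h))}
    (hP : IsBranch m ζ h p i P) (c : integralClosure B (KAlg m h)) :
    ∃ r : B, c - algebraMap B (integralClosure B (KAlg m h)) r ∈ P := by
  obtain ⟨a₀, b, ha₀, hb, hab⟩ := hc
  obtain ⟨x, hx⟩ := exists_bT m hm h a₀ b hab
  have hh : h ≠ 0 := ne_zero_of_congr h p a₀ b ha₀ hb hab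
  have hprime : P.IsPrime := hP.1
  obtain ⟨e, a, β, hsum, he, hβ⟩ := exists_decomp m hm ζ hζ hmB h hh c
  choose! r hr _ using fun j (hj : j < m) => exists_r m hm h a₀ b hab (a j) (β j) j hj.le (hβ j)
  have hkey := key_congr m ζ h a₀ b P i x hx (hP.2.2 b x hx) e a r (fun j _ => he j) hr
  rw [← hsum] at hkey
  have hs : (b + a₀) * b ^ (m - 1) ∉ p := by
    intro hmem
    rcases Ideal.IsPrime.mem_or_mem inferInstance hmem with h1 | h1
    · exact hb (by have := p.sub_mem h1 ha₀; simpa using this)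
    · exact hb (Ideal.IsPrime.mem_of_pow_mem inferInstance _ h1)
  exact exists_sub_mem_of_mul_sub_mem p P hP.comap_eq c (Algebra.IsIntegral.isIntegral c) _ _ hs hkey

/-- **The branch maps.**  A branch `P` over `p` with `B ⧸ p` integrally closed is the kernel of a
surjective `B`-algebra homomorphism `C → B ⧸ p`. -/
theorem IsBranch.exists_algHom {m : ℕ} (hm : 0 < m) {ζ : B} (hζ : IsPrimitiveRoot ζ m)
    (hmB : IsUnit (m : B)) {h : F} {p : Ideal B} [p.IsPrime] [IsIntegrallyClosed (B ⧸ p)]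
    (hc : CongrOne h p) {i : ℕ} {P : Ideal (integralClosure B (KAlg m h))}
    (hP : IsBranch m ζ h p i P) :
    ∃ φ : integralClosure B (KAlg m h) →ₐ[B] B ⧸ p,
      Function.Surjective φ ∧ ∀ c, φ c = 0 ↔ c ∈ P := by
  have hle : p ≤ P.comap (algebraMap B (integralClosure B (KAlg m h))) := le_of_eq hP.comap_eq.symm
  have hinj : Function.Injective (Ideal.quotientMap P
      (algebraMap B (integralClosure B (KAlg m h))) hle) :=
    Ideal.quotientMap_injective' (le_of_eq hP.comap_eq)
  have hsurj : Function.Surjective (Ideal.quotientMap P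
      (algebraMap B (integralClosure B (KAlg m h))) hle) := by
    intro y
    obtain ⟨c, rfl⟩ := Ideal.Quotient.mk_surjective y
    obtain ⟨r, hr⟩ := hP.exists_sub_mem hm hζ hmB hc c
    refine ⟨Ideal.Quotient.mk p r, ?_⟩
    rw [Ideal.quotientMap_mk]
    exact (Ideal.Quotient.eq.2 hr).symm
  let eqv : (B ⧸ p) ≃+* (integralClosure B (KAlg m h) ⧸ P) :=
    RingEquiv.ofBijective _ ⟨hinj, hsurj⟩
  have heqv : ∀ z : B, eqv (Ideal.Quotient.mk p z) =
      Ideal.Quotient.mk P (algebraMap B (integralClosure B (KAlg m h)) z) := fun z =>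
    Ideal.quotientMap_mk (f := algebraMap B (integralClosure B (KAlg m h))) (H := hle)
  refine ⟨{ toRingHom := (eqv.symm : (integralClosure B (KAlg m h) ⧸ P) →+* B ⧸ p).comp
              (Ideal.Quotient.mk P)
            commutes' := fun z => ?_ }, ?_, fun c => ?_⟩
  · show eqv.symm (Ideal.Quotient.mk P (algebraMap B (integralClosure B (KAlg m h)) z)) =
      Ideal.Quotient.mk p z
    rw [← heqv, RingEquiv.symm_apply_apply]
  · intro y
    obtain ⟨c, hc⟩ := Ideal.Quotient.mk_surjective (eqv y)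
    refine ⟨c, ?_⟩
    show eqv.symm (Ideal.Quotient.mk P c) = y
    rw [hc, RingEquiv.symm_apply_apply]
  · show eqv.symm (Ideal.Quotient.mk P c) = 0 ↔ c ∈ P
    rw [map_eq_zero_iff _ eqv.symm.injective, Ideal.Quotient.eq_zero_iff_mem]

/-- An element of `C` lying in all branches over `p` lies in every prime of `C` containing `p`
(the branches are the minimal primes of `p C`, and `C / p C` has no other associated prime). -/
theorem mem_of_mem_branches (m : ℕ) (hm : 0 < m) (ζ : B) (hζ : IsPrimitiveRoot ζ m)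
    (hmB : IsUnit (m : B)) (h : F) (p : Ideal B) [p.IsPrime] (hc : CongrOne h p)
    (c : integralClosure B (KAlg m h))
    (hcP : ∀ i, i < m → ∀ P, IsBranch m ζ h p i P → c ∈ P)
    (Q : Ideal (integralClosure B (KAlg m h))) [Q.IsPrime]
    (hQ : p ≤ Q.comap (algebraMap B (integralClosure B (KAlg m h)))) : c ∈ Q := by
  have : IsDomain B := (IsFractionRing.injective B F).isDomain (algebraMap B F)
  have hc' := hc
  obtain ⟨a₀, b, ha₀, hb, hab⟩ := hc
  obtain ⟨x, hx⟩ := exists_bT m hm h a₀ b hab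
  have hh : h ≠ 0 := ne_zero_of_congr h p a₀ b ha₀ hb hab
  obtain ⟨e, a, β, hsum, he, hβ⟩ := exists_decomp m hm ζ hζ hmB h hh c
  choose! r hr hrm using fun j (hj : j < m) =>
    exists_r m hm h a₀ b hab (a j) (β j) j hj.le (hβ j)
  have hR : ∀ i, i < m → ∑ j ∈ range m, r j * ζ ^ (i * j) ∈ p := by
    intro i hi
    obtain ⟨P, hP⟩ := exists_isBranch m hm ζ hζ hmB h p hc' i
    have := hcP i hi P hP
    rw [hsum] at this
    exact (hP.sum_mem_iff a₀ b ha₀ hb x hx e a r (fun j _ => he j) hr).1 this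
  have hs : b + a₀ ∉ p := fun h1 => hb (by have := p.sub_mem h1 ha₀; simpa using this)
  rw [hsum]
  refine Q.sum_mem fun j hj => ?_
  have hj' := Finset.mem_range.1 hj
  have hrj : r j ∈ p := mem_of_dft m hm ζ hζ hmB p r hR j hj'
  have hβj : β j ∈ p := by
    have h1 : β j * b ^ j * (b + a₀) ^ (m - j) ∈ p := by
      rw [← hrm j hj']; exact p.pow_mem_of_mem hrj m hm
    rcases Ideal.IsPrime.mem_or_mem inferInstance h1 with h2 | h2
    · rcases Ideal.IsPrime.mem_or_mem inferInstance h2 with h3 | h3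
      · exact h3
      · exact absurd (Ideal.IsPrime.mem_of_pow_mem inferInstance _ h3) hb
    · exact absurd (Ideal.IsPrime.mem_of_pow_mem inferInstance _ h2) hs
  have hpow : e j ^ m = algebraMap B (integralClosure B (KAlg m h)) (β j) := by
    apply Subtype.ext
    show (e j : KAlg m h) ^ m = algebraMap B (KAlg m h) (β j)
    rw [he j, mul_pow, ← pow_mul, mul_comm j m, pow_mul, kT_pow, ← map_pow, ← map_pow, ← map_mul,
      ← hβ j, ← IsScalarTower.algebraMap_apply]
  have h4 : e j ^ m ∈ Q := by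
    rw [hpow, ← Ideal.mem_comap]; exact hQ hβj
  exact Ideal.IsPrime.mem_of_pow_mem inferInstance _ h4

/-- **"Going down" for the branches.**  Every prime of `C` containing `p` contains a branch over
`p`. -/
theorem exists_isBranch_le (m : ℕ) (hm : 0 < m) (ζ : B) (hζ : IsPrimitiveRoot ζ m)
    (hmB : IsUnit (m : B)) (h : F) (p : Ideal B) [p.IsPrime] (hc : CongrOne h p)
    (Q : Ideal (integralClosure B (KAlg m h))) [Q.IsPrime]
    (hQ : p ≤ Q.comap (algebraMap B (integralClosure B (KAlg m h)))) :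
    ∃ i < m, ∃ P, IsBranch m ζ h p i P ∧ P ≤ Q := by
  classical
  by_contra hcon
  push Not at hcon
  choose Pf hPf using fun i => exists_isBranch m hm ζ hζ hmB h p hc i
  have hex : ∀ i, ∃ y, i < m → (y ∈ Pf i ∧ y ∉ Q) := by
    intro i
    by_cases hi : i < m
    · obtain ⟨y, hy1, hy2⟩ := SetLike.not_le_iff_exists.1 (hcon i hi (Pf i) (hPf i))
      exact ⟨y, fun _ => ⟨hy1, hy2⟩⟩
    · exact ⟨0, fun h => absurd h hi⟩
  choose y hy using hex
  have hprod : ∏ i ∈ range m, y i ∉ Q := by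
    intro hmem
    obtain ⟨i, hi, hiQ⟩ := Ideal.IsPrime.prod_mem_iff.1 hmem
    exact (hy i (Finset.mem_range.1 hi)).2 hiQ
  apply hprod
  refine mem_of_mem_branches m hm ζ hζ hmB h p hc _ (fun i hi P hP => ?_) Q hQ
  have : P = Pf i := IsBranch.unique hm hζ hmB hc hP (hPf i)
  rw [this]
  exact Ideal.prod_mem (Pf i) (Finset.mem_range.2 hi) (hy i hi).1

/-- Local integrality of the coordinates divided by `π`, at one of two primes with
`p ⊓ q = (π)`, for an element lying in all branches over `p`. -/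
theorem exists_mul_coord_eq (m : ℕ) (hm : 0 < m) (ζ : B) (hζ : IsPrimitiveRoot ζ m)
    (hmB : IsUnit (m : B)) (h : F) (p q : Ideal B) [p.IsPrime] (π : B) (hπ : π ≠ 0)
    (hinf : p ⊓ q = Ideal.span {π}) (hqp : ¬ q ≤ p) (hc : CongrOne h p)
    (e : ℕ → integralClosure B (KAlg m h)) (a : ℕ → F) (β : ℕ → B)
    (he : ∀ j, (e j : KAlg m h) = algebraMap F (KAlg m h) (a j) * kT m h ^ j)
    (hβ : ∀ j, algebraMap B F (β j) = a j ^ m * h ^ j)
    (hcP : ∀ i, i < m → ∀ P, IsBranch m ζ h p i P → ∑ j ∈ range m, e j ∈ P)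
    (j : ℕ) (hj : j < m) :
    ∃ s : B, s ∉ p ∧ ∃ y : B,
      algebraMap B F s * ((a j / algebraMap B F π) ^ m * h ^ j) = algebraMap B F y := by
  have : IsDomain B := (IsFractionRing.injective B F).isDomain (algebraMap B F)
  have hπF : algebraMap B F π ≠ 0 := fun h0 =>
    hπ (IsFractionRing.injective B F (by rw [h0, map_zero]))
  have hc' := hc
  obtain ⟨a₀, b, ha₀, hb, hab⟩ := hc
  obtain ⟨x, hx⟩ := exists_bT m hm h a₀ b hab
  choose! r hr _ using fun j (hj : j < m) =>
    exists_r m hm h a₀ b hab (a j) (β j) j hj.le (hβ j)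
  have hR : ∀ i, i < m → ∑ j ∈ range m, r j * ζ ^ (i * j) ∈ p := by
    intro i hi
    obtain ⟨P, hP⟩ := exists_isBranch m hm ζ hζ hmB h p hc' i
    exact (hP.sum_mem_iff a₀ b ha₀ hb x hx e a r (fun j _ => he j) hr).1 (hcP i hi P hP)
  have hrj : r j ∈ p := mem_of_dft m hm ζ hζ hmB p r hR j hj
  obtain ⟨t, htq, htp⟩ := SetLike.not_le_iff_exists.1 hqp
  have htr : t * r j ∈ p ⊓ q := ⟨p.mul_mem_left _ hrj, q.mul_mem_right _ htq⟩
  rw [hinf, Ideal.mem_span_singleton] at htr
  obtain ⟨r', hr'⟩ := htr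
  have hs : b + a₀ ∉ p := fun h1 => hb (by have := p.sub_mem h1 ha₀; simpa using this)
  refine ⟨(t * (b + a₀)) ^ m * b ^ j, ?_, r' ^ m * (b + a₀) ^ j, ?_⟩
  · intro hmem
    rcases Ideal.IsPrime.mem_or_mem inferInstance hmem with h1 | h1
    · rcases Ideal.IsPrime.mem_or_mem inferInstance
        (Ideal.IsPrime.mem_of_pow_mem inferInstance _ h1) with h2 | h2
      · exact htp h2
      · exact hs h2
    · exact hb (Ideal.IsPrime.mem_of_pow_mem inferInstance _ h1)
  · have h1 : algebraMap B F (r j) = a j * algebraMap B F (b + a₀) := hr j hj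
    have h2 : algebraMap B F t * algebraMap B F (r j) = algebraMap B F π * algebraMap B F r' := by
      rw [← map_mul, hr', map_mul]
    have h3 : h * algebraMap B F b = algebraMap B F (b + a₀) := by rw [map_add, hab]
    have e1 : algebraMap B F t * algebraMap B F (b + a₀) * (a j / algebraMap B F π) =
        algebraMap B F r' := by
      rw [mul_div_assoc', div_eq_iff hπF]
      calc algebraMap B F t * algebraMap B F (b + a₀) * a j
          = algebraMap B F t * (a j * algebraMap B F (b + a₀)) := by ring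
        _ = algebraMap B F t * algebraMap B F (r j) := by rw [h1]
        _ = algebraMap B F π * algebraMap B F r' := h2
        _ = algebraMap B F r' * algebraMap B F π := by ring
    rw [map_mul, map_mul, map_pow, map_pow, map_pow, map_pow, map_mul, ← e1, ← h3]
    ring

/-- **Reducedness of the special fibre of the cover / joint injectivity of the branch maps.**
If `p₁ ⊓ p₂ = (π)` (two distinct components, `e = 1`) and `h ≡ 1` at both, an element of `C`
lying in all branches over `p₁` and all branches over `p₂` is divisible by `π` in `C`. -/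
theorem mem_span_of_mem_branches (m : ℕ) (hm : 0 < m) (ζ : B) (hζ : IsPrimitiveRoot ζ m)
    (hmB : IsUnit (m : B)) (h : F) (p₁ p₂ : Ideal B) [p₁.IsPrime] [p₂.IsPrime]
    (π : B) (hπ : π ≠ 0) (hinf : p₁ ⊓ p₂ = Ideal.span {π}) (h₁₂ : ¬ p₁ ≤ p₂) (h₂₁ : ¬ p₂ ≤ p₁)
    (hc₁ : CongrOne h p₁) (hc₂ : CongrOne h p₂)
    (c : integralClosure B (KAlg m h))
    (hcP₁ : ∀ i, i < m → ∀ P, IsBranch m ζ h p₁ i P → c ∈ P)
    (hcP₂ : ∀ i, i < m → ∀ P, IsBranch m ζ h p₂ i P → c ∈ P) :
    c ∈ Ideal.span {algebraMap B (integralClosure B (KAlg m h)) π} := by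
  have hπF : algebraMap B F π ≠ 0 := fun h0 =>
    hπ (IsFractionRing.injective B F (by rw [h0, map_zero]))
  have hh : h ≠ 0 := by
    obtain ⟨a₀, b, ha₀, hb, hab⟩ := hc₁
    exact ne_zero_of_congr h p₁ a₀ b ha₀ hb hab
  obtain ⟨e, a, β, hsum, he, hβ⟩ := exists_decomp m hm ζ hζ hmB h hh c
  rw [hsum] at hcP₁ hcP₂
  have hinf' : p₂ ⊓ p₁ = Ideal.span {π} := by rw [inf_comm, hinf]
  have hdiv : ∀ j, ∃ e' : integralClosure B (KAlg m h), j < m →
      e j = algebraMap B (integralClosure B (KAlg m h)) π * e' := by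
    intro j
    by_cases hj : j < m
    · have hl₁ := exists_mul_coord_eq m hm ζ hζ hmB h p₁ p₂ π hπ hinf h₂₁ hc₁ e a β he hβ hcP₁ j hj
      have hl₂ := exists_mul_coord_eq m hm ζ hζ hmB h p₂ p₁ π hπ hinf' h₁₂ hc₂ e a β he hβ hcP₂ j hj
      obtain ⟨y, hy⟩ := exists_algebraMap_eq_of_two_primes p₁ p₂ π hπ hinf
        ((a j / algebraMap B F π) ^ m * h ^ j) hl₁ hl₂ m
        ⟨β j, by rw [hβ j, div_pow, ← mul_assoc, mul_div_cancel₀ _ (pow_ne_zero m hπF)]⟩
      have hint : IsIntegral B (algebraMap F (KAlg m h) (a j / algebraMap B F π) * kT m h ^ j) := by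
        apply IsIntegral.of_pow hm
        have e2 : (algebraMap F (KAlg m h) (a j / algebraMap B F π) * kT m h ^ j) ^ m =
            algebraMap B (KAlg m h) y := by
          rw [mul_pow, ← pow_mul, mul_comm j m, pow_mul, kT_pow, ← map_pow, ← map_pow, ← map_mul,
            ← hy, ← IsScalarTower.algebraMap_apply]
        rw [e2]
        exact isIntegral_algebraMap
      refine ⟨⟨_, hint⟩, fun _ => ?_⟩
      apply Subtype.ext
      show (e j : KAlg m h) = algebraMap B (KAlg m h) π *
        (algebraMap F (KAlg m h) (a j / algebraMap B F π) * kT m h ^ j)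
      rw [he j, IsScalarTower.algebraMap_apply B F (KAlg m h), ← mul_assoc, ← map_mul,
        mul_div_cancel₀ _ hπF]
    · exact ⟨0, fun h => absurd h hj⟩
  choose e' he' using hdiv
  rw [hsum, Ideal.mem_span_singleton]
  refine ⟨∑ j ∈ range m, e' j, ?_⟩
  rw [Finset.mul_sum]
  exact Finset.sum_congr rfl fun j hj => he' j (Finset.mem_range.1 hj)

omit [IsFractionRing B F] [IsIntegrallyClosed B] in
/-- The label only matters through `ζ^i`. -/
theorem IsBranch.of_pow_eq {m : ℕ} {ζ : B} {h : F} {p : Ideal B} {i i' : ℕ}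
    {P : Ideal (integralClosure B (KAlg m h))} (hii' : ζ ^ i = ζ ^ i')
    (hP : IsBranch m ζ h p i P) : IsBranch m ζ h p i' P := by
  refine ⟨hP.1, hP.2.1, fun b x hx => ?_⟩
  rw [← hii']
  exact hP.2.2 b x hx

omit [IsFractionRing B F] [IsIntegrallyClosed B] in
/-- Iterating `IsBranch.comap_rho`: `(ρ^k)⁻¹(P)` is the branch with label `i + k`. -/
theorem IsBranch.comap_rho_iterate {m : ℕ} (hm : 0 < m) {ζ : B} (hζ : ζ ^ m = 1) {h : F}
    {p : Ideal B} {i : ℕ} {P : Ideal (integralClosure B (KAlg m h))} (hP : IsBranch m ζ h p i P)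
    (k : ℕ) : ∃ P' : Ideal (integralClosure B (KAlg m h)), IsBranch m ζ h p (i + k) P' ∧
      ∀ x, x ∈ P' ↔ (rho m hm ζ hζ h)^[k] x ∈ P := by
  induction k with
  | zero => exact ⟨P, hP, fun x => Iff.rfl⟩
  | succ k ih =>
    obtain ⟨P', hP', hiff⟩ := ih
    refine ⟨P'.comap (rho m hm ζ hζ h), hP'.comap_rho hm hζ, fun x => ?_⟩
    rw [Ideal.mem_comap, hiff, Function.iterate_succ_apply]

/-- **Free action from separation of the branches.**  Let `Q` be a prime of `C` containing `p`
such that two branches over `p` with different labels are never both contained in `Q`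
(for instance because they are comaximal: the output of the discriminant count).  Then no
`ρ^k`, `0 < k < m`, maps `Q` into itself: this is the hypothesis `hfree` of `Cart.cart_kAlg`. -/
theorem free_of_sep (m : ℕ) (hm : 0 < m) (ζ : B) (hζ : IsPrimitiveRoot ζ m)
    (hmB : IsUnit (m : B)) (h : F) (p : Ideal B) [p.IsPrime] (hc : CongrOne h p)
    (Q : Ideal (integralClosure B (KAlg m h))) [Q.IsPrime]
    (hQ : p ≤ Q.comap (algebraMap B (integralClosure B (KAlg m h))))
    (hsep : ∀ i i', i < m → i' < m → i ≠ i' → ∀ P P', IsBranch m ζ h p i P →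
      IsBranch m ζ h p i' P' → P ≤ Q → ¬ P' ≤ Q)
    (k : ℕ) (hk0 : 0 < k) (hkm : k < m) :
    ∃ x : integralClosure B (KAlg m h), (rho m hm ζ hζ.pow_eq_one h)^[k] x ∈ Q ∧ x ∉ Q := by
  obtain ⟨i₀, hi₀, P₀, hP₀, hle⟩ := exists_isBranch_le m hm ζ hζ hmB h p hc Q hQ
  obtain ⟨P', hP', hiff⟩ := hP₀.comap_rho_iterate hm hζ.pow_eq_one k
  have hP'' : IsBranch m ζ h p ((i₀ + k) % m) P' :=
    hP'.of_pow_eq (pow_eq_pow_mod (i₀ + k) hζ.pow_eq_one)
  have hne : i₀ ≠ (i₀ + k) % m := by
    intro heq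
    by_cases hlt : i₀ + k < m
    · rw [Nat.mod_eq_of_lt hlt] at heq; omega
    · rw [Nat.mod_eq_sub_mod (not_lt.1 hlt), Nat.mod_eq_of_lt (by omega)] at heq; omega
  have hnot := hsep i₀ ((i₀ + k) % m) hi₀ (Nat.mod_lt _ hm) hne P₀ P' hP₀ hP'' hle
  obtain ⟨x, hx1, hx2⟩ := SetLike.not_le_iff_exists.1 hnot
  exact ⟨x, hle ((hiff x).1 hx1), hx2⟩

/-- **(STAR) at a crossing point from separation of the branches** (`Cart.cart_kAlg` applied to
`free_of_sep`).  `M` a maximal ideal of `B` containing the prime `p` at which `h ≡ 1`.  If at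
every maximal ideal `Q` of `C` over `M` two branches over `p` with different labels are never both
contained in `Q`, then `h` is a unit of `B_M` times an `m`-th power:
`f ^ m * h = a` with `a ∈ B ∖ M`. -/
theorem star_of_sep (m : ℕ) (hm : 0 < m) (ζ : B) (hζ : IsPrimitiveRoot ζ m)
    (hmB : IsUnit (m : B)) (h : F) (p : Ideal B) [p.IsPrime] (hc : CongrOne h p)
    (M : Ideal B) [M.IsMaximal] (hpM : p ≤ M)
    (hsep : ∀ Q : Ideal (integralClosure B (KAlg m h)), Q.IsMaximal →
      Q.comap (algebraMap B (integralClosure B (KAlg m h))) = M →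
      ∀ i i', i < m → i' < m → i ≠ i' → ∀ P P', IsBranch m ζ h p i P →
        IsBranch m ζ h p i' P' → P ≤ Q → ¬ P' ≤ Q) :
    ∃ (f : F) (a : B), a ∉ M ∧ f ^ m * h = algebraMap B F a := by
  have hh : h ≠ 0 := by
    obtain ⟨a₀, b, ha₀, hb, hab⟩ := hc
    exact ne_zero_of_congr h p a₀ b ha₀ hb hab
  have hker : RingHom.ker (algebraMap B (integralClosure B (KAlg m h))) ≤ M := by
    intro z hz
    rw [RingHom.mem_ker] at hz
    have : z = 0 := algebraMap_injective_kc m hm h (by rw [hz, map_zero])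
    rw [this]; exact M.zero_mem
  obtain ⟨Q, hQmax, hQM⟩ := Ideal.exists_ideal_over_maximal_of_isIntegral M hker
  have hQp : p ≤ Q.comap (algebraMap B (integralClosure B (KAlg m h))) := by rw [hQM]; exact hpM
  refine cart_kAlg m hm ζ hζ h hh M Q (fun a ha => ?_) (fun k hk0 hkm => ?_)
  · rw [← Ideal.mem_comap, hQM]; exact ha
  · exact free_of_sep m hm ζ hζ hmB h p hc Q hQp (hsep Q hQmax hQM) k hk0 hkm

end Local

end Fermat.Agent.S34.Branches
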