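import Mathlib
import Fermat.Agent.S30.Model.CechP1

/-!
# Program U (S34), brick U.ii.Bridge2: `(STAR)` is chart-independent

`O` a commutative ring, `L` a field over `O`, `t s : L` with `t * s = 1` (in the application
`(t, s) = (u, u⁻¹)` or `(u⁻¹, u)`).  The chart rings are the integral closures of `O[t]` and of
`O[s]` in `L`.

**(STAR) at `M`** (the output shape of `Cart.cart`; literally the body of
`ToricInertia.Star O {t} m h M`, so every statement here is an `Iff.rfl` away from that def):
`∃ (f : L) (a : chart ring of t), a ∉ M ∧ f ^ m * h = (a : L)`.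

* `contract hts M'` : the contraction to the `t`-chart of an ideal `M'` of the `s`-chart
  (`a` with `s ^ k * a ∈ M'` for some `k`).
* `exists_isMaximal_transfer` : for a prime `M'` of the `s`-chart not containing `s` there is a
  maximal ideal `N` of the `t`-chart, containing `contract hts M'`, such that
  (STAR) at `N` implies (STAR) at `M'`, for all `m > 0`, `h`.
* `starAt_of_forall_isMaximal` : hence `(STAR)` at every maximal ideal of the `t`-chart gives
  `(STAR)` at every prime of the `s`-chart which does not contain `s`.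

WARNING: the contraction of a maximal ideal need not be maximal (`O` a DVR, `M' = (π s - 1)`
contracts to `(t - π)`), which is why the statement quantifies over a maximal `N` above it.
-/

set_option autoImplicit false

namespace Fermat.Agent.S34.Bridge2

open Fermat.Agent.S30.Model

variable {O L : Type*} [CommRing O] [Field L] [Algebra O L]

/-- The coordinate `t` as an element of its chart ring. -/
def gen (t : L) : integralClosure (Algebra.adjoin O ({t} : Set L)) L :=
  ⟨t, CechP1.isIntegral_adjoin_of_mem (Algebra.subset_adjoin (Set.mem_singleton t))⟩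

@[simp]
theorem coe_gen (t : L) : ((gen (O := O) t : integralClosure _ L) : L) = t := rfl

/-- Elements of the `t`-chart become integral over `O[s]` after multiplication by a power of
`s`, if `t * s = 1`. -/
theorem exists_pow_mul_isIntegral {t s : L} (hts : t * s = 1) (a : L)
    (ha : IsIntegral (Algebra.adjoin O ({t} : Set L)) a) :
    ∃ n : ℕ, IsIntegral (Algebra.adjoin O ({s} : Set L)) (s ^ n * a) := by
  have hs : s ≠ 0 := right_ne_zero_of_mul_eq_one hts
  obtain rfl : t = s⁻¹ := eq_inv_of_mul_eq_one_left hts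
  have hle : Algebra.adjoin O ({s⁻¹} : Set L) ≤ Algebra.adjoin O ({s, s⁻¹} : Set L) :=
    Algebra.adjoin_mono (by simp)
  exact CechP1.exists_pow_mul_isIntegral s hs a (CechP1.isIntegral_mono hle ha)

theorem isIntegral_pow_mul (s : L) {k : ℕ} {a : L}
    (ha : IsIntegral (Algebra.adjoin O ({s} : Set L)) (s ^ k * a)) (n : ℕ) :
    IsIntegral (Algebra.adjoin O ({s} : Set L)) (s ^ (n + k) * a) := by
  have hs : IsIntegral (Algebra.adjoin O ({s} : Set L)) s :=
    CechP1.isIntegral_adjoin_of_mem (Algebra.subset_adjoin (Set.mem_singleton s))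
  have e : s ^ (n + k) * a = s ^ n * (s ^ k * a) := by rw [pow_add, mul_assoc]
  rw [e]
  exact (hs.pow n).mul ha

/-- The contraction to the `t`-chart of an ideal of the `s`-chart (`t * s = 1`): the elements
`a` of the `t`-chart with `s ^ k * a ∈ M'` for some `k`. -/
def contract {t s : L} (hts : t * s = 1)
    (M' : Ideal (integralClosure (Algebra.adjoin O ({s} : Set L)) L)) :
    Ideal (integralClosure (Algebra.adjoin O ({t} : Set L)) L) where
  carrier := {a | ∃ (k : ℕ) (b : integralClosure (Algebra.adjoin O ({s} : Set L)) L),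
    b ∈ M' ∧ (b : L) = s ^ k * (a : L)}
  zero_mem' := ⟨0, 0, M'.zero_mem, by simp⟩
  add_mem' := by
    rintro a b ⟨k, x, hx, ex⟩ ⟨l, y, hy, ey⟩
    refine ⟨k + l, gen s ^ l * x + gen s ^ k * y,
      M'.add_mem (M'.mul_mem_left _ hx) (M'.mul_mem_left _ hy), ?_⟩
    simp only [Subalgebra.coe_add, Subalgebra.coe_mul, Subalgebra.coe_pow, coe_gen, ex, ey]
    ring
  smul_mem' := by
    rintro c a ⟨k, x, hx, ex⟩
    obtain ⟨n, hn⟩ := exists_pow_mul_isIntegral hts (c : L) c.2
    refine ⟨n + k, (⟨s ^ n * (c : L), hn⟩ : integralClosure _ L) * x, M'.mul_mem_left _ hx, ?_⟩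
    simp only [smul_eq_mul, Subalgebra.coe_mul, ex]
    ring

theorem mem_contract_iff {t s : L} (hts : t * s = 1)
    (M' : Ideal (integralClosure (Algebra.adjoin O ({s} : Set L)) L))
    (a : integralClosure (Algebra.adjoin O ({t} : Set L)) L) :
    a ∈ contract hts M' ↔
      ∃ (k : ℕ) (b : integralClosure (Algebra.adjoin O ({s} : Set L)) L),
        b ∈ M' ∧ (b : L) = s ^ k * (a : L) := Iff.rfl

/-- Elements common to both charts: membership in `M'` implies membership in the contraction. -/
theorem mem_contract_of_coe_eq {t s : L} (hts : t * s = 1)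
    (M' : Ideal (integralClosure (Algebra.adjoin O ({s} : Set L)) L))
    (a : integralClosure (Algebra.adjoin O ({t} : Set L)) L)
    (b : integralClosure (Algebra.adjoin O ({s} : Set L)) L) (hb : b ∈ M')
    (e : (b : L) = (a : L)) : a ∈ contract hts M' :=
  ⟨0, b, hb, by rw [e, pow_zero, one_mul]⟩

/-- The contraction of a prime not containing `s` is a proper ideal. -/
theorem contract_ne_top {t s : L} (hts : t * s = 1)
    (M' : Ideal (integralClosure (Algebra.adjoin O ({s} : Set L)) L)) [M'.IsPrime]
    (hs : gen s ∉ M') : contract hts M' ≠ ⊤ := by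
  intro htop
  have h1 : (1 : integralClosure (Algebra.adjoin O ({t} : Set L)) L) ∈ contract hts M' := by
    rw [htop]; exact Submodule.mem_top
  obtain ⟨k, b, hb, e⟩ := h1
  have hb' : b = gen s ^ k := by
    apply Subtype.ext
    rw [e, Subalgebra.coe_pow, coe_gen, Subalgebra.coe_one, mul_one]
  rw [hb'] at hb
  exact hs (Ideal.IsPrime.mem_of_pow_mem inferInstance k hb)

/-- **Chart independence of (STAR), pointwise.**  For a prime `M'` of the `s`-chart not
containing `s` there is a maximal ideal `N` of the `t`-chart above the contraction of `M'` such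
that (STAR) at `N` implies (STAR) at `M'`. -/
theorem exists_isMaximal_transfer {t s : L} (hts : t * s = 1)
    (M' : Ideal (integralClosure (Algebra.adjoin O ({s} : Set L)) L)) [M'.IsPrime]
    (hs : gen s ∉ M') :
    ∃ N : Ideal (integralClosure (Algebra.adjoin O ({t} : Set L)) L), N.IsMaximal ∧
      contract hts M' ≤ N ∧
      ∀ (m : ℕ), 0 < m → ∀ h : L,
        (∃ (f : L) (a : integralClosure (Algebra.adjoin O ({t} : Set L)) L), a ∉ N ∧
        f ^ m * h = (a : L)) →
        (∃ (f : L) (a : integralClosure (Algebra.adjoin O ({s} : Set L)) L), a ∉ M' ∧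
        f ^ m * h = (a : L)) := by
  obtain ⟨N, hN, hle⟩ := Ideal.exists_le_maximal _ (contract_ne_top hts M' hs)
  refine ⟨N, hN, hle, ?_⟩
  rintro m hm h ⟨f, a, ha, e⟩
  obtain ⟨n, hn⟩ := exists_pow_mul_isIntegral hts (a : L) a.2
  have hn' : IsIntegral (Algebra.adjoin O ({s} : Set L)) (s ^ (n * m) * (a : L)) := by
    obtain ⟨m', rfl⟩ : ∃ m', m = m' + 1 := ⟨m - 1, by omega⟩
    have e1 : n * (m' + 1) = n * m' + n := by ring
    rw [e1]
    exact isIntegral_pow_mul s hn (n * m')
  refine ⟨s ^ n * f, ⟨s ^ (n * m) * (a : L), hn'⟩, fun hmem => ha (hle ?_), ?_⟩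
  · exact ⟨n * m, _, hmem, rfl⟩
  · rw [mul_pow, ← pow_mul, mul_assoc, e]

/-- **Chart independence of (STAR).**  (STAR) at every maximal ideal of the `t`-chart implies
(STAR) at every prime ideal of the `s`-chart which does not contain `s`. -/
theorem starAt_of_forall_isMaximal {t s : L} (hts : t * s = 1) {m : ℕ} (hm : 0 < m) {h : L}
    (hstar : ∀ N : Ideal (integralClosure (Algebra.adjoin O ({t} : Set L)) L), N.IsMaximal →
      ∃ (f : L) (a : integralClosure (Algebra.adjoin O ({t} : Set L)) L), a ∉ N ∧
        f ^ m * h = (a : L))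
    (M' : Ideal (integralClosure (Algebra.adjoin O ({s} : Set L)) L)) [M'.IsPrime]
    (hs : gen s ∉ M') :
    ∃ (f : L) (a : integralClosure (Algebra.adjoin O ({s} : Set L)) L), a ∉ M' ∧
      f ^ m * h = (a : L) := by
  obtain ⟨N, hN, -, hNM⟩ := exists_isMaximal_transfer hts M' hs
  exact hNM m hm h (hstar N hN)

/-- The `u`-chart controls the `u⁻¹`-chart away from `u⁻¹ = 0`. -/
theorem starAt_inv_of_forall_isMaximal {u : L} (hu : u ≠ 0) {m : ℕ} (hm : 0 < m) {h : L}
    (hstar : ∀ N : Ideal (integralClosure (Algebra.adjoin O ({u} : Set L)) L), N.IsMaximal →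
      ∃ (f : L) (a : integralClosure (Algebra.adjoin O ({u} : Set L)) L), a ∉ N ∧
        f ^ m * h = (a : L))
    (M' : Ideal (integralClosure (Algebra.adjoin O ({u⁻¹} : Set L)) L)) [M'.IsPrime]
    (hs : gen u⁻¹ ∉ M') :
    ∃ (f : L) (a : integralClosure (Algebra.adjoin O ({u⁻¹} : Set L)) L), a ∉ M' ∧
      f ^ m * h = (a : L) :=
  starAt_of_forall_isMaximal (mul_inv_cancel₀ hu) hm hstar M' hs

/-- The `u⁻¹`-chart controls the `u`-chart away from `u = 0`. -/
theorem starAt_of_forall_isMaximal_inv {u : L} (hu : u ≠ 0) {m : ℕ} (hm : 0 < m) {h : L}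
    (hstar : ∀ N : Ideal (integralClosure (Algebra.adjoin O ({u⁻¹} : Set L)) L), N.IsMaximal →
      ∃ (f : L) (a : integralClosure (Algebra.adjoin O ({u⁻¹} : Set L)) L), a ∉ N ∧
        f ^ m * h = (a : L))
    (M' : Ideal (integralClosure (Algebra.adjoin O ({u} : Set L)) L)) [M'.IsPrime]
    (hs : gen u ∉ M') :
    ∃ (f : L) (a : integralClosure (Algebra.adjoin O ({u} : Set L)) L), a ∉ M' ∧
      f ^ m * h = (a : L) :=
  starAt_of_forall_isMaximal (inv_mul_cancel₀ hu) hm hstar M' hs

/-- **Packaged form for the second chart.**  (STAR) at every maximal ideal of the `u`-chart and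
at the maximal ideals of the `u⁻¹`-chart containing `u⁻¹` (the points at infinity) gives (STAR)
at every maximal ideal of the `u⁻¹`-chart. -/
theorem forall_isMaximal_inv_of_forall_isMaximal {u : L} (hu : u ≠ 0) {m : ℕ} (hm : 0 < m) {h : L}
    (hstar : ∀ N : Ideal (integralClosure (Algebra.adjoin O ({u} : Set L)) L), N.IsMaximal →
      ∃ (f : L) (a : integralClosure (Algebra.adjoin O ({u} : Set L)) L), a ∉ N ∧
        f ^ m * h = (a : L))
    (hinf : ∀ M' : Ideal (integralClosure (Algebra.adjoin O ({u⁻¹} : Set L)) L), M'.IsMaximal →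
      gen u⁻¹ ∈ M' →
      ∃ (f : L) (a : integralClosure (Algebra.adjoin O ({u⁻¹} : Set L)) L), a ∉ M' ∧
        f ^ m * h = (a : L))
    (M' : Ideal (integralClosure (Algebra.adjoin O ({u⁻¹} : Set L)) L)) (hM' : M'.IsMaximal) :
    ∃ (f : L) (a : integralClosure (Algebra.adjoin O ({u⁻¹} : Set L)) L), a ∉ M' ∧
      f ^ m * h = (a : L) := by
  by_cases hs : gen u⁻¹ ∈ M'
  · exact hinf M' hM' hs
  · have : M'.IsPrime := hM'.isPrime
    exact starAt_inv_of_forall_isMaximal hu hm hstar M' hs

end Fermat.Agent.S34.Bridge2
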