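import Mathlib
import Fermat.Agent.S30.Model.CechP1

/-!
# PROGRAM U, brick SSe (abstract): connectedness of the special fibre, valuation form

`O` a noetherian ring with a prime element `π`, `L` a field over `O` in which `O` is integrally
closed (no new constants), `u : L` nonzero.  The two charts of the normal model of `L` over
`P¹_O` are the integral closures of `O[u]` and `O[u⁻¹]` in `L` (elementwise: `IsIntegral`).

The *components* of the special fibre are given as a finite set `𝒱` of valuation subrings of `L`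
(containing `O`, `u`, `u⁻¹`, with `π` a non-unit), and "the special fibre is reduced and the
`W ∈ 𝒱` are all its components" is the elementwise hypothesis

  `x` integral over the chart, `x ∈ 𝔪_W` for all `W ∈ 𝒱`  ⟹  `x / π` integral over the chart.

* `Comax S W W'` : the centres of `W`, `W'` on the chart `S` are comaximal (elementwise).
* `exists_sep` : CRT for finitely many valuation subrings.
* `separated_trivial` : **connectedness**.  A set `Z` of components which is comaximal (on both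
  charts) with its complement is empty or everything.
* `kummer_label_const` / `mem_range_of_label` : the Kummer consequence used by (INJ-ss).
-/

set_option autoImplicit false

namespace Fermat.Agent.S34.Conn

open Fermat.Agent.S30.Model

section Val

variable {L : Type*} [Field L]

theorem mem_of_mem_nonunits (W : ValuationSubring L) {x : L} (hx : x ∈ W.nonunits) : x ∈ W := by
  rw [ValuationSubring.mem_nonunits_iff] at hx
  exact (W.valuation_le_one_iff x).mp hx.le

theorem one_notMem_nonunits (W : ValuationSubring L) : (1 : L) ∉ W.nonunits := by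
  rw [ValuationSubring.mem_nonunits_iff, map_one]
  exact lt_irrefl _

theorem mul_mem_nonunits (W : ValuationSubring L) {x y : L} (hx : x ∈ W.nonunits) (hy : y ∈ W) :
    x * y ∈ W.nonunits := by
  rw [ValuationSubring.mem_nonunits_iff] at hx ⊢
  rw [map_mul]
  exact mul_lt_one_of_lt_of_le hx ((W.valuation_le_one_iff y).mpr hy)

theorem mul_mem_nonunits' (W : ValuationSubring L) {x y : L} (hx : x ∈ W) (hy : y ∈ W.nonunits) :
    x * y ∈ W.nonunits := by
  rw [mul_comm]; exact mul_mem_nonunits W hy hx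

theorem mem_of_sub_one_mem (W : ValuationSubring L) {x : L} (hx : x - 1 ∈ W.nonunits) : x ∈ W := by
  have := add_mem (mem_of_mem_nonunits W hx) W.one_mem
  simpa using this

/-- A product of elements `≡ 1` is `≡ 1`. -/
theorem mul_sub_one_mem (W : ValuationSubring L) {x y : L} (hx : x - 1 ∈ W.nonunits)
    (hy : y - 1 ∈ W.nonunits) : x * y - 1 ∈ W.nonunits := by
  have e : x * y - 1 = (x - 1) * y + (y - 1) := by ring
  rw [e]
  exact add_mem (mul_mem_nonunits W hx (mem_of_sub_one_mem W hy)) hy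

theorem prod_sub_one_mem (W : ValuationSubring L) {ι : Type*} (s : Finset ι) (f : ι → L)
    (h : ∀ i ∈ s, f i - 1 ∈ W.nonunits) : ∏ i ∈ s, f i - 1 ∈ W.nonunits := by
  classical
  induction s using Finset.induction_on with
  | empty => simp [zero_mem]
  | insert a s ha ih =>
    rw [Finset.prod_insert ha]
    exact mul_sub_one_mem W (h a (Finset.mem_insert_self a s))
      (ih fun i hi => h i (Finset.mem_insert_of_mem hi))

theorem prod_mem_nonunits (W : ValuationSubring L) {ι : Type*} (s : Finset ι) (f : ι → L)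
    (hmem : ∀ i ∈ s, f i ∈ W) {a : ι} (ha : a ∈ s) (hfa : f a ∈ W.nonunits) :
    ∏ i ∈ s, f i ∈ W.nonunits := by
  classical
  rw [← Finset.mul_prod_erase s f ha]
  exact mul_mem_nonunits W hfa (W.prod_mem fun i hi => hmem i (Finset.mem_of_mem_erase hi))

/-- Valuation subrings are integrally closed in `L`: an element integral over a ring mapping
into `W` lies in `W`. -/
theorem mem_of_isIntegral {R : Type*} [CommRing R] [Algebra R L] (W : ValuationSubring L)
    (hR : ∀ r : R, algebraMap R L r ∈ W) {x : L} (hx : IsIntegral R x) : x ∈ W := by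
  let φ : R →+* W := (algebraMap R L).codRestrict W.toSubring hR
  have hx' : IsIntegral W x := by
    refine IsIntegral.map_of_comp_eq φ (RingHom.id L) ?_ hx
    ext r; rfl
  obtain ⟨y, rfl⟩ := IsIntegrallyClosed.isIntegral_iff.mp hx'
  exact y.2

end Val

section Chart

variable {O L : Type*} [CommRing O] [Field L] [Algebra O L]

/-- The centres of `W` and `W'` on the chart `S` (integral closure of `S` in `L`) are
comaximal. -/
def Comax (S : Subalgebra O L) (W W' : ValuationSubring L) : Prop :=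
  ∃ x y : L, IsIntegral S x ∧ IsIntegral S y ∧ x ∈ W.nonunits ∧ y ∈ W'.nonunits ∧ x + y = 1

theorem Comax.symm {S : Subalgebra O L} {W W' : ValuationSubring L} (h : Comax S W W') :
    Comax S W' W := by
  obtain ⟨x, y, hx, hy, hxW, hyW, hxy⟩ := h
  exact ⟨y, x, hy, hx, hyW, hxW, by rw [add_comm]; exact hxy⟩

/-- **CRT for valuation subrings.**  If every `W ∈ A` is comaximal with every `W' ∈ B` on the
chart `S`, there is a chart element `≡ 0` on `A` and `≡ 1` on `B`. -/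
theorem exists_sep (S : Subalgebra O L) (A B : Finset (ValuationSubring L))
    (hintA : ∀ W ∈ A, ∀ x : L, IsIntegral S x → x ∈ W)
    (hintB : ∀ W ∈ B, ∀ x : L, IsIntegral S x → x ∈ W)
    (h : ∀ W ∈ A, ∀ W' ∈ B, Comax S W W') :
    ∃ e : L, IsIntegral S e ∧ (∀ W ∈ A, e ∈ W.nonunits) ∧ ∀ W' ∈ B, e - 1 ∈ W'.nonunits := by
  classical
  -- choose the separating pairs
  have hch : ∀ W W' : ValuationSubring L, ∃ x : L, W ∈ A → W' ∈ B →
      IsIntegral S x ∧ x ∈ W.nonunits ∧ x - 1 ∈ W'.nonunits := by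
    intro W W'
    by_cases hW : W ∈ A
    · by_cases hW' : W' ∈ B
      · obtain ⟨x, y, hx, -, hxW, hyW, hxy⟩ := h W hW W' hW'
        refine ⟨x, fun _ _ => ⟨hx, hxW, ?_⟩⟩
        have e : x - 1 = -y := by rw [← hxy]; ring
        rw [e]; exact neg_mem hyW
      · exact ⟨0, fun _ h' => absurd h' hW'⟩
    · exact ⟨0, fun h' _ => absurd h' hW⟩
  choose x hx using hch
  -- `a W'` is `≡ 0` on `A` (if `A` is nonempty) and `≡ 1` at `W'`
  set a : ValuationSubring L → L := fun W' => ∏ W ∈ A, x W W' with ha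
  have haint : ∀ W' ∈ B, IsIntegral S (a W') := fun W' hW' =>
    IsIntegral.prod _ fun W hW => (hx W W' hW hW').1
  have ha1 : ∀ W' ∈ B, a W' - 1 ∈ W'.nonunits := fun W' hW' =>
    prod_sub_one_mem W' A _ fun W hW => (hx W W' hW hW').2.2
  have ha0 : ∀ W ∈ A, ∀ W' ∈ B, a W' ∈ W.nonunits := by
    intro W hW W' hW'
    refine prod_mem_nonunits W A _ (fun V hV => ?_) hW (hx W W' hW hW').2.1
    exact hintA W hW _ (hx V W' hV hW').1
  refine ⟨1 - ∏ W' ∈ B, (1 - a W'), ?_, ?_, ?_⟩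
  · exact isIntegral_one.sub (IsIntegral.prod _ fun W' hW' => isIntegral_one.sub (haint W' hW'))
  · intro W hW
    have h1 : ∏ W' ∈ B, (1 - a W') - 1 ∈ W.nonunits := by
      refine prod_sub_one_mem W B _ fun W' hW' => ?_
      have e : 1 - a W' - 1 = -a W' := by ring
      rw [e]; exact neg_mem (ha0 W hW W' hW')
    have e : 1 - ∏ W' ∈ B, (1 - a W') = -(∏ W' ∈ B, (1 - a W') - 1) := by ring
    rw [e]; exact neg_mem h1
  · intro W' hW'
    have h1 : ∏ V ∈ B, (1 - a V) ∈ W'.nonunits := by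
      refine prod_mem_nonunits W' B _ (fun V hV => ?_) hW' ?_
      · exact hintB W' hW' _ (isIntegral_one.sub (haint V hV))
      · have e : 1 - a W' = -(a W' - 1) := by ring
        rw [e]; exact neg_mem (ha1 W' hW')
    have e : 1 - ∏ V ∈ B, (1 - a V) - 1 = -∏ V ∈ B, (1 - a V) := by ring
    rw [e]; exact neg_mem h1

end Chart

section Main

variable {O L : Type*} [CommRing O] [Field L] [Algebra O L]

/-- Elements integral over `O[u, u⁻¹]` lie in every valuation subring containing `O`, `u`,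
`u⁻¹`. -/
theorem mem_of_isIntegral_overlap (W : ValuationSubring L) (u : L)
    (hO : ∀ a : O, algebraMap O L a ∈ W) (hu : u ∈ W ∧ u⁻¹ ∈ W) {x : L}
    (hx : IsIntegral (Algebra.adjoin O ({u, u⁻¹} : Set L)) x) : x ∈ W := by
  have key : ∀ y ∈ Algebra.adjoin O ({u, u⁻¹} : Set L), y ∈ W := by
    intro y hy
    induction hy using Algebra.adjoin_induction with
    | mem y hy =>
      rcases hy with rfl | rfl
      · exact hu.1
      · exact hu.2
    | algebraMap a => exact hO a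
    | add y z _ _ hy hz => exact add_mem hy hz
    | mul y z _ _ hy hz => exact mul_mem hy hz
  exact mem_of_isIntegral (R := Algebra.adjoin O ({u, u⁻¹} : Set L)) W
    (fun r => key (r : L) r.2) hx

/-- Reducedness on the overlap follows from reducedness on the chart `u`. -/
theorem red_overlap (π : O) (u : L) (hu : u ≠ 0) (𝒱 : Set (ValuationSubring L))
    (hu𝒱 : ∀ W ∈ 𝒱, u ∈ W ∧ u⁻¹ ∈ W)
    (hred0 : ∀ x : L, IsIntegral (Algebra.adjoin O ({u} : Set L)) x →
      (∀ W ∈ 𝒱, x ∈ W.nonunits) →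
      IsIntegral (Algebra.adjoin O ({u} : Set L)) (x / algebraMap O L π))
    (x : L) (hx : IsIntegral (Algebra.adjoin O ({u, u⁻¹} : Set L)) x)
    (hx𝒱 : ∀ W ∈ 𝒱, x ∈ W.nonunits) :
    IsIntegral (Algebra.adjoin O ({u, u⁻¹} : Set L)) (x / algebraMap O L π) := by
  obtain ⟨n, hn⟩ := CechP1.exists_pow_mul_isIntegral u hu x hx
  have h1 : IsIntegral (Algebra.adjoin O ({u} : Set L)) (u ^ n * x / algebraMap O L π) :=
    hred0 _ hn fun W hW => mul_mem_nonunits' W (pow_mem (hu𝒱 W hW).1 n) (hx𝒱 W hW)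
  have h2 : IsIntegral (Algebra.adjoin O ({u, u⁻¹} : Set L)) (u ^ n * x / algebraMap O L π) :=
    CechP1.isIntegral_mono (Algebra.adjoin_mono (by simp)) h1
  have h3 : IsIntegral (Algebra.adjoin O ({u, u⁻¹} : Set L)) (u⁻¹ ^ n) :=
    (CechP1.isIntegral_adjoin_of_mem (Algebra.subset_adjoin (by simp))).pow n
  have e : x / algebraMap O L π = u⁻¹ ^ n * (u ^ n * x / algebraMap O L π) := by
    have h4 : u⁻¹ ^ n * u ^ n = 1 := by rw [← mul_pow, inv_mul_cancel₀ hu, one_pow]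
    calc x / algebraMap O L π = (u⁻¹ ^ n * u ^ n) * x / algebraMap O L π := by
          rw [h4, one_mul]
      _ = u⁻¹ ^ n * (u ^ n * x / algebraMap O L π) := by ring
  rw [e]
  exact h3.mul h2

/-- **Connectedness of the special fibre, valuation form.**
`𝒱` = the (finitely many) components of the special fibre of the normal model of `L` over
`P¹_O`, as valuation subrings; the fibre is reduced (`hred0`, `hredinf`).  If a set `Z` of
components is comaximal with its complement on both charts, then `Z ∩ 𝒱` is everything or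
nothing. -/
theorem separated_trivial [IsNoetherianRing O] (π : O) (hπ : Prime π)
    (hinj : Function.Injective (algebraMap O L))
    (hOL : ∀ x : L, IsIntegral O x → ∃ a : O, algebraMap O L a = x)
    (u : L) (hu : u ≠ 0)
    [Module.Finite (Algebra.adjoin O ({u} : Set L))
      (integralClosure (Algebra.adjoin O ({u} : Set L)) L)]
    (𝒱 : Set (ValuationSubring L)) (hfin : 𝒱.Finite)
    (hO𝒱 : ∀ W ∈ 𝒱, ∀ a : O, algebraMap O L a ∈ W)
    (hu𝒱 : ∀ W ∈ 𝒱, u ∈ W ∧ u⁻¹ ∈ W)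
    (hπ𝒱 : ∀ W ∈ 𝒱, algebraMap O L π ∈ W.nonunits)
    (hred0 : ∀ x : L, IsIntegral (Algebra.adjoin O ({u} : Set L)) x →
      (∀ W ∈ 𝒱, x ∈ W.nonunits) →
      IsIntegral (Algebra.adjoin O ({u} : Set L)) (x / algebraMap O L π))
    (hredinf : ∀ x : L, IsIntegral (Algebra.adjoin O ({u⁻¹} : Set L)) x →
      (∀ W ∈ 𝒱, x ∈ W.nonunits) →
      IsIntegral (Algebra.adjoin O ({u⁻¹} : Set L)) (x / algebraMap O L π))
    (Z : Set (ValuationSubring L))
    (hsep0 : ∀ W ∈ 𝒱, ∀ W' ∈ 𝒱, W ∈ Z → W' ∉ Z →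
      Comax (Algebra.adjoin O ({u} : Set L)) W W')
    (hsepinf : ∀ W ∈ 𝒱, ∀ W' ∈ 𝒱, W ∈ Z → W' ∉ Z →
      Comax (Algebra.adjoin O ({u⁻¹} : Set L)) W W') :
    (∀ W ∈ 𝒱, W ∈ Z) ∨ (∀ W ∈ 𝒱, W ∉ Z) := by
  classical
  by_contra hcon
  rw [not_or] at hcon
  obtain ⟨h1, h2⟩ := hcon
  push Not at h1 h2
  obtain ⟨W1, hW1, hW1Z⟩ := h1
  obtain ⟨W2, hW2, hW2Z⟩ := h2
  have hπL : algebraMap O L π ≠ 0 := fun h => hπ.ne_zero (hinj (by rw [h, map_zero]))
  set A : Finset (ValuationSubring L) := hfin.toFinset.filter (· ∈ Z) with hA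
  set B : Finset (ValuationSubring L) := hfin.toFinset.filter (· ∉ Z) with hB
  have hA' : ∀ W, W ∈ A ↔ W ∈ 𝒱 ∧ W ∈ Z := fun W => by
    rw [hA, Finset.mem_filter, Set.Finite.mem_toFinset]
  have hB' : ∀ W, W ∈ B ↔ W ∈ 𝒱 ∧ W ∉ Z := fun W => by
    rw [hB, Finset.mem_filter, Set.Finite.mem_toFinset]
  have hle0 : Algebra.adjoin O ({u} : Set L) ≤ Algebra.adjoin O ({u, u⁻¹} : Set L) :=
    Algebra.adjoin_mono (by simp)
  have hleinf : Algebra.adjoin O ({u⁻¹} : Set L) ≤ Algebra.adjoin O ({u, u⁻¹} : Set L) :=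
    Algebra.adjoin_mono (by simp)
  have hint01 : ∀ W ∈ 𝒱, ∀ x : L, IsIntegral (Algebra.adjoin O ({u, u⁻¹} : Set L)) x → x ∈ W :=
    fun W hW x hx => mem_of_isIntegral_overlap W u (hO𝒱 W hW) (hu𝒱 W hW) hx
  have hint0 : ∀ W ∈ 𝒱, ∀ x : L, IsIntegral (Algebra.adjoin O ({u} : Set L)) x → x ∈ W :=
    fun W hW x hx => hint01 W hW x (CechP1.isIntegral_mono hle0 hx)
  have hintinf : ∀ W ∈ 𝒱, ∀ x : L, IsIntegral (Algebra.adjoin O ({u⁻¹} : Set L)) x → x ∈ W :=
    fun W hW x hx => hint01 W hW x (CechP1.isIntegral_mono hleinf hx)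
  obtain ⟨e0, he0, he0A, he0B⟩ := exists_sep (Algebra.adjoin O ({u} : Set L)) A B
    (fun W hW => hint0 W ((hA' W).mp hW).1) (fun W hW => hint0 W ((hB' W).mp hW).1)
    (fun W hW W' hW' => hsep0 W ((hA' W).mp hW).1 W' ((hB' W').mp hW').1 ((hA' W).mp hW).2
      ((hB' W').mp hW').2)
  obtain ⟨e1, he1, he1A, he1B⟩ := exists_sep (Algebra.adjoin O ({u⁻¹} : Set L)) A B
    (fun W hW => hintinf W ((hA' W).mp hW).1) (fun W hW => hintinf W ((hB' W).mp hW).1)
    (fun W hW W' hW' => hsepinf W ((hA' W).mp hW).1 W' ((hB' W').mp hW').1 ((hA' W).mp hW).2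
      ((hB' W').mp hW').2)
  -- idempotent modulo `π` on both charts
  have hidem : ∀ (e : L) (W : ValuationSubring L), W ∈ 𝒱 → (W ∈ A → e ∈ W.nonunits) →
      (W ∈ B → e - 1 ∈ W.nonunits) → e ^ 2 - e ∈ W.nonunits := by
    intro e W hW hAe hBe
    have e' : e ^ 2 - e = e * (e - 1) := by ring
    rw [e']
    by_cases hZ : W ∈ Z
    · have h := hAe ((hA' W).mpr ⟨hW, hZ⟩)
      exact mul_mem_nonunits W h (sub_mem (mem_of_mem_nonunits W h) W.one_mem)
    · have h := hBe ((hB' W).mpr ⟨hW, hZ⟩)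
      exact mul_mem_nonunits' W (mem_of_sub_one_mem W h) h
  have h0 : ∃ w, IsIntegral (Algebra.adjoin O ({u} : Set L)) w ∧
      e0 ^ 2 - e0 = algebraMap O L π * w :=
    ⟨(e0 ^ 2 - e0) / algebraMap O L π,
      hred0 _ ((he0.pow 2).sub he0) fun W hW => hidem e0 W hW (he0A W) (he0B W),
      (mul_div_cancel₀ _ hπL).symm⟩
  have h1 : ∃ w, IsIntegral (Algebra.adjoin O ({u⁻¹} : Set L)) w ∧
      e1 ^ 2 - e1 = algebraMap O L π * w :=
    ⟨(e1 ^ 2 - e1) / algebraMap O L π,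
      hredinf _ ((he1.pow 2).sub he1) fun W hW => hidem e1 W hW (he1A W) (he1B W),
      (mul_div_cancel₀ _ hπL).symm⟩
  have h01 : ∃ w, IsIntegral (Algebra.adjoin O ({u, u⁻¹} : Set L)) w ∧
      e0 - e1 = algebraMap O L π * w := by
    refine ⟨(e0 - e1) / algebraMap O L π, ?_, (mul_div_cancel₀ _ hπL).symm⟩
    refine red_overlap π u hu 𝒱 hu𝒱 hred0 _
      ((CechP1.isIntegral_mono hle0 he0).sub (CechP1.isIntegral_mono hleinf he1)) fun W hW => ?_
    by_cases hZ : W ∈ Z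
    · exact sub_mem (he0A W ((hA' W).mpr ⟨hW, hZ⟩)) (he1A W ((hA' W).mpr ⟨hW, hZ⟩))
    · have e' : e0 - e1 = (e0 - 1) - (e1 - 1) := by ring
      rw [e']
      exact sub_mem (he0B W ((hB' W).mpr ⟨hW, hZ⟩)) (he1B W ((hB' W).mpr ⟨hW, hZ⟩))
  rcases CechP1.connected π hπ hinj hOL u hu (CechP1.hfin_of_finite u) e0 e1 he0 he1 h0 h1 h01
    with ⟨⟨w, hw, hew⟩, -⟩ | ⟨⟨w, hw, hew⟩, -⟩
  · -- `e0 ≡ 0`, but `e0 ≡ 1` at `W1 ∉ Z`
    have ha : e0 ∈ W1.nonunits := by
      rw [hew]; exact mul_mem_nonunits W1 (hπ𝒱 W1 hW1) (hint0 W1 hW1 w hw)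
    have hb : e0 - 1 ∈ W1.nonunits := he0B W1 ((hB' W1).mpr ⟨hW1, hW1Z⟩)
    have : (1 : L) ∈ W1.nonunits := by
      have := sub_mem ha hb
      simpa using this
    exact one_notMem_nonunits W1 this
  · -- `e0 ≡ 1`, but `e0 ≡ 0` at `W2 ∈ Z`
    have ha : e0 - 1 ∈ W2.nonunits := by
      rw [hew]; exact mul_mem_nonunits W2 (hπ𝒱 W2 hW2) (hint0 W2 hW2 w hw)
    have hb : e0 ∈ W2.nonunits := he0A W2 ((hA' W2).mpr ⟨hW2, hW2Z⟩)
    have : (1 : L) ∈ W2.nonunits := by
      have := sub_mem hb ha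
      simpa using this
    exact one_notMem_nonunits W2 this

end Main

section Kummer

theorem mem_nonunits_iff_inv {L : Type*} [Field L] (W : ValuationSubring L) {y : L} :
    y ∈ W.nonunits ↔ y = 0 ∨ y⁻¹ ∉ W := by
  have h := W.inv_mem_nonunits_iff (x := y⁻¹)
  rw [inv_inv, inv_eq_zero] at h
  exact h

/-- Non-units of a pulled-back valuation subring. -/
theorem mem_nonunits_comap {K L : Type*} [Field K] [Field L] (W : ValuationSubring L)
    (f : K →+* L) {x : K} : x ∈ (W.comap f).nonunits ↔ f x ∈ W.nonunits := by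
  rw [mem_nonunits_iff_inv, mem_nonunits_iff_inv, ValuationSubring.mem_comap, map_inv₀,
    map_eq_zero]

variable {O F L : Type*} [CommRing O] [Field F] [Field L] [Algebra O L] [Algebra F L]

/-- A nontrivial `m`-th root of unity of `O` is not `≡ 1` at a valuation subring containing `O`
when `m` is invertible in `O`. -/
theorem root_sub_one_notMem (W : ValuationSubring L) (hO : ∀ a : O, algebraMap O L a ∈ W)
    (hinj : Function.Injective (algebraMap O L))
    (m : ℕ) (ζ : O) (hζ : IsPrimitiveRoot ζ m) (hmO : IsUnit (m : O))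
    (j : ℕ) (hj : j < m) (hj1 : algebraMap O L ζ ^ j ≠ 1) :
    algebraMap O L ζ ^ j - 1 ∉ W.nonunits := by
  intro hmem
  have hζL : IsPrimitiveRoot (algebraMap O L ζ) m := hζ.map_of_injective hinj
  have hj0 : j ≠ 0 := by
    rintro rfl
    exact hj1 (pow_zero _)
  obtain ⟨n, rfl⟩ : ∃ n, m = n + 1 := ⟨m - 1, by omega⟩
  have hprod := hζL.prod_one_sub_pow_eq_order
  have hjmem : j - 1 ∈ Finset.range n := Finset.mem_range.mpr (by omega)
  have hmemL : ((n : L) + 1) ∈ W.nonunits := by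
    rw [← hprod]
    refine prod_mem_nonunits W _ _ (fun i _ => ?_) hjmem ?_
    · have : (1 : L) - algebraMap O L ζ ^ (i + 1) = algebraMap O L (1 - ζ ^ (i + 1)) := by
        rw [map_sub, map_one, map_pow]
      rw [this]; exact hO _
    · have e : (1 : L) - algebraMap O L ζ ^ (j - 1 + 1) = -(algebraMap O L ζ ^ j - 1) := by
        rw [Nat.sub_add_cancel (Nat.one_le_iff_ne_zero.mpr hj0)]; ring
      rw [e]; exact neg_mem hmem
  obtain ⟨c, hc⟩ := hmO.exists_right_inv
  have h1 : (1 : L) = ((n : L) + 1) * algebraMap O L c := by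
    have h := congrArg (algebraMap O L) hc
    rw [map_mul, map_one, map_natCast] at h
    push_cast at h
    exact h.symm
  exact one_notMem_nonunits W (h1 ▸ mul_mem_nonunits W hmemL (hO c))

/-- **Kummer consequence of connectedness** (the last step of (INJ-ss)).
`L / F` a field extension (Galois in the weak form `hgal`), `t ∈ L` with `t ^ m ∈ F`, `μ_m ⊆ O`,
`m` invertible in `O`.  The components `𝒱` of the special fibre of the normal model of `L` are
stable under `Aut(L/F)`.  If the components with label `1` (`t ≡ 1`) are comaximal with all the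
others on both charts and there is at least one of them, then `t ∈ F`. -/
theorem mem_range_of_label_sep [IsNoetherianRing O] (π : O) (hπ : Prime π)
    (hinj : Function.Injective (algebraMap O L))
    (hOL : ∀ x : L, IsIntegral O x → ∃ a : O, algebraMap O L a = x)
    (u : L) (hu : u ≠ 0)
    [Module.Finite (Algebra.adjoin O ({u} : Set L))
      (integralClosure (Algebra.adjoin O ({u} : Set L)) L)]
    (𝒱 : Set (ValuationSubring L)) (hfin : 𝒱.Finite)
    (hO𝒱 : ∀ W ∈ 𝒱, ∀ a : O, algebraMap O L a ∈ W)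
    (hu𝒱 : ∀ W ∈ 𝒱, u ∈ W ∧ u⁻¹ ∈ W)
    (hπ𝒱 : ∀ W ∈ 𝒱, algebraMap O L π ∈ W.nonunits)
    (hred0 : ∀ x : L, IsIntegral (Algebra.adjoin O ({u} : Set L)) x →
      (∀ W ∈ 𝒱, x ∈ W.nonunits) →
      IsIntegral (Algebra.adjoin O ({u} : Set L)) (x / algebraMap O L π))
    (hredinf : ∀ x : L, IsIntegral (Algebra.adjoin O ({u⁻¹} : Set L)) x →
      (∀ W ∈ 𝒱, x ∈ W.nonunits) →
      IsIntegral (Algebra.adjoin O ({u⁻¹} : Set L)) (x / algebraMap O L π))
    (hσ𝒱 : ∀ σ : L ≃ₐ[F] L, ∀ W ∈ 𝒱, W.comap (σ : L →+* L) ∈ 𝒱)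
    (hgal : ∀ x : L, (∀ σ : L ≃ₐ[F] L, σ x = x) → x ∈ Set.range (algebraMap F L))
    (m : ℕ) (ζ : O) (hζ : IsPrimitiveRoot ζ m) (hmO : IsUnit (m : O))
    (k : F) (t : L) (ht : t ^ m = algebraMap F L k) (ht0 : t ≠ 0)
    (hW0 : ∃ W ∈ 𝒱, t - 1 ∈ W.nonunits)
    (hsep0 : ∀ W ∈ 𝒱, ∀ W' ∈ 𝒱, t - 1 ∈ W.nonunits → t - 1 ∉ W'.nonunits →
      Comax (Algebra.adjoin O ({u} : Set L)) W W')
    (hsepinf : ∀ W ∈ 𝒱, ∀ W' ∈ 𝒱, t - 1 ∈ W.nonunits → t - 1 ∉ W'.nonunits →
      Comax (Algebra.adjoin O ({u⁻¹} : Set L)) W W') :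
    t ∈ Set.range (algebraMap F L) := by
  obtain ⟨W0, hW0, hW0t⟩ := hW0
  have hall : ∀ W ∈ 𝒱, t - 1 ∈ W.nonunits := by
    rcases separated_trivial π hπ hinj hOL u hu 𝒱 hfin hO𝒱 hu𝒱 hπ𝒱 hred0 hredinf
      {W | t - 1 ∈ W.nonunits} hsep0 hsepinf with h | h
    · exact h
    · exact absurd hW0t (h W0 hW0)
  have hm0 : m ≠ 0 := by
    rintro rfl
    have h0 : (((0 : ℕ) : O)) = 0 := Nat.cast_zero
    rw [h0] at hmO
    have h1 : (1 : O) = 0 := by
      obtain ⟨c, hc⟩ := hmO.exists_right_inv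
      rw [zero_mul] at hc; exact hc.symm
    have h2 : (1 : L) = 0 := by
      have := congrArg (algebraMap O L) h1
      rwa [map_one, map_zero] at this
    exact one_ne_zero h2
  have hζL : IsPrimitiveRoot (algebraMap O L ζ) m := hζ.map_of_injective hinj
  refine hgal t fun σ => ?_
  have hσt : (σ t / t) ^ m = 1 := by
    rw [div_pow, ← map_pow, ht, σ.commutes, div_self]
    rw [← ht]; exact pow_ne_zero m ht0
  have : NeZero m := ⟨hm0⟩
  obtain ⟨j, hj, hjε⟩ := hζL.eq_pow_of_pow_eq_one hσt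
  by_cases h1 : algebraMap O L ζ ^ j = 1
  · rw [h1] at hjε
    have := (div_eq_one_iff_eq ht0).mp hjε.symm
    exact this
  · exfalso
    have hσW : t - 1 ∈ (W0.comap (σ : L →+* L)).nonunits := hall _ (hσ𝒱 σ W0 hW0)
    rw [mem_nonunits_comap] at hσW
    have hσt' : σ t = algebraMap O L ζ ^ j * t := by
      rw [hjε, div_mul_cancel₀ _ ht0]
    have hmemε : algebraMap O L ζ ^ j ∈ W0 := by
      rw [← map_pow]; exact hO𝒱 W0 hW0 _
    have h2 : algebraMap O L ζ ^ j * t - 1 ∈ W0.nonunits := by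
      have : (σ : L →+* L) (t - 1) = algebraMap O L ζ ^ j * t - 1 := by
        rw [map_sub, map_one]
        show σ t - 1 = _
        rw [hσt']
      rw [← this]; exact hσW
    have h3 : algebraMap O L ζ ^ j - 1 ∈ W0.nonunits := by
      have e : algebraMap O L ζ ^ j - 1 =
          (algebraMap O L ζ ^ j * t - 1) - algebraMap O L ζ ^ j * (t - 1) := by ring
      rw [e]
      exact sub_mem h2 (mul_mem_nonunits' W0 hmemε hW0t)
    exact root_sub_one_notMem W0 (hO𝒱 W0 hW0) hinj m ζ hζ hmO j hj h1 h3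

/-- Same, with the conclusion `k ∈ F ^ m`. -/
theorem exists_pow_eq_of_label_sep [IsNoetherianRing O] (π : O) (hπ : Prime π)
    (hinj : Function.Injective (algebraMap O L))
    (hOL : ∀ x : L, IsIntegral O x → ∃ a : O, algebraMap O L a = x)
    (u : L) (hu : u ≠ 0)
    [Module.Finite (Algebra.adjoin O ({u} : Set L))
      (integralClosure (Algebra.adjoin O ({u} : Set L)) L)]
    (𝒱 : Set (ValuationSubring L)) (hfin : 𝒱.Finite)
    (hO𝒱 : ∀ W ∈ 𝒱, ∀ a : O, algebraMap O L a ∈ W)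
    (hu𝒱 : ∀ W ∈ 𝒱, u ∈ W ∧ u⁻¹ ∈ W)
    (hπ𝒱 : ∀ W ∈ 𝒱, algebraMap O L π ∈ W.nonunits)
    (hred0 : ∀ x : L, IsIntegral (Algebra.adjoin O ({u} : Set L)) x →
      (∀ W ∈ 𝒱, x ∈ W.nonunits) →
      IsIntegral (Algebra.adjoin O ({u} : Set L)) (x / algebraMap O L π))
    (hredinf : ∀ x : L, IsIntegral (Algebra.adjoin O ({u⁻¹} : Set L)) x →
      (∀ W ∈ 𝒱, x ∈ W.nonunits) →
      IsIntegral (Algebra.adjoin O ({u⁻¹} : Set L)) (x / algebraMap O L π))
    (hσ𝒱 : ∀ σ : L ≃ₐ[F] L, ∀ W ∈ 𝒱, W.comap (σ : L →+* L) ∈ 𝒱)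
    (hgal : ∀ x : L, (∀ σ : L ≃ₐ[F] L, σ x = x) → x ∈ Set.range (algebraMap F L))
    (m : ℕ) (ζ : O) (hζ : IsPrimitiveRoot ζ m) (hmO : IsUnit (m : O))
    (k : F) (t : L) (ht : t ^ m = algebraMap F L k) (ht0 : t ≠ 0)
    (hW0 : ∃ W ∈ 𝒱, t - 1 ∈ W.nonunits)
    (hsep0 : ∀ W ∈ 𝒱, ∀ W' ∈ 𝒱, t - 1 ∈ W.nonunits → t - 1 ∉ W'.nonunits →
      Comax (Algebra.adjoin O ({u} : Set L)) W W')
    (hsepinf : ∀ W ∈ 𝒱, ∀ W' ∈ 𝒱, t - 1 ∈ W.nonunits → t - 1 ∉ W'.nonunits →
      Comax (Algebra.adjoin O ({u⁻¹} : Set L)) W W') :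
    ∃ g : F, k = g ^ m := by
  obtain ⟨g, hg⟩ := mem_range_of_label_sep π hπ hinj hOL u hu 𝒱 hfin hO𝒱 hu𝒱 hπ𝒱 hred0 hredinf
    hσ𝒱 hgal m ζ hζ hmO k t ht ht0 hW0 hsep0 hsepinf
  refine ⟨g, (algebraMap F L).injective ?_⟩
  rw [map_pow, hg, ht]

end Kummer

end Fermat.Agent.S34.Conn
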