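import Mathlib

/-!
# S34 brick SSc-count: the special-fibre colength count (Mathlib only; helper273)

Level-free commutative algebra for the "graph covering" step (3.2, steps (3)+(4)) of the
semistable Kummer lemma.  `S` is a discrete valuation ring (in the application the local ring of
the special fibre of the base line at a closed point), `B ⊆ D₁ × D₂` is the (nodal) special fibre
of the base model with its two branch rings, and `C ⊆ (D₁ × D₂)^d` is the special fibre of a
degree `d` cover all of whose branches are copies of `D₁`, `D₂`.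

Tools:
* `length_quotient_span_singleton`   : `length (S ⧸ (a)) = addVal a`.
* `length_quotient_range_eq_addVal`  : for an injective linear map `f : A → N` of finite free
  modules with bases indexed by the same type, `length (N ⧸ range f) = addVal (det f)`.
* `trace_eq_of_injective`, `discr_eq_det_sq_mul` : `disc A = det(A ⊆ N)^2 * disc N` for a suborder
  of the same rank.
* `trace_pi`, `discr_pi`             : discriminant of a finite power.
* `length_quotient_range_split`      : additivity of the colength.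

Main results (all hypotheses elementwise):
* `surjective_pi_of_discr` : if `disc C ~ (disc B)^d`, `disc B ≠ 0`, the ranks are right and every
  element of `C` vanishing on all `D₁`-branches has its `D₂`-branch values in the gluing submodule
  `q₂ (ker q₁)` (hypothesis `hGD`), then `C → D₁^d` is surjective.
* `exists_branch_idem`, `ker_sup_ker_eq_top` : hence two distinct `D₁`-branches of `C` are
  comaximal (the special fibre of `C` is a `d`-fold graph covering of that of `B`).
* `hGD_of_goingDown` : `hGD` from the usual going-down statement when the gluing ideal is an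
  intersection of maximal ideals.
-/

set_option autoImplicit false

namespace Fermat.Agent.S34.Count

open Module

section LD

variable {S : Type*} [CommRing S] [IsDomain S] [IsDiscreteValuationRing S]

/-- `length (S ⧸ (a)) = v(a)` in a discrete valuation ring. -/
theorem length_quotient_span_singleton {a : S} (ha : a ≠ 0) :
    Module.length S (S ⧸ Ideal.span {a}) = IsDiscreteValuationRing.addVal S a := by
  obtain ⟨ϖ, hϖ⟩ := IsDiscreteValuationRing.exists_irreducible S
  obtain ⟨n, hn⟩ := IsDiscreteValuationRing.associated_pow_irreducible ha hϖ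
  have h1 : Ideal.span {a} = IsLocalRing.maximalIdeal S ^ n := by
    rw [hϖ.maximalIdeal_eq, Ideal.span_singleton_pow]
    exact Ideal.span_singleton_eq_span_singleton.2 hn
  rw [h1, IsDiscreteValuationRing.length_quotient_pow_maximalIdeal]
  obtain ⟨u, hu⟩ := hn.symm
  rw [IsDiscreteValuationRing.addVal_def a u hϖ n (by rw [← hu]; ring)]

variable {A N ι : Type*} [AddCommGroup A] [Module S A] [AddCommGroup N] [Module S N]
  [Fintype ι] [DecidableEq ι]

/-- Smith normal form: the quotient of a free module by a full-rank submodule with a diagonal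
basis is a product of cyclic modules. -/
theorem length_quotient_of_diag (Λ : Submodule S N) (b' : Basis ι S N) (a : ι → S)
    (ab' : Basis ι S Λ) (hab : ∀ i, (ab' i : N) = a i • b' i) (ha : ∀ i, a i ≠ 0) :
    Module.length S (N ⧸ Λ) = ∑ i, IsDiscreteValuationRing.addVal S (a i) := by
  classical
  -- the coordinate map
  let φ : N →ₗ[S] (∀ i, S ⧸ Ideal.span {a i}) :=
    LinearMap.pi fun i => (Submodule.mkQ (Ideal.span {a i})).comp (b'.coord i)
  have hφ : Function.Surjective φ := by
    intro y
    choose c hc using fun i => Submodule.mkQ_surjective (Ideal.span {a i}) (y i)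
    refine ⟨∑ i, c i • b' i, ?_⟩
    funext i
    simp only [φ, LinearMap.pi_apply, LinearMap.comp_apply, Basis.coord_apply]
    rw [← hc i]
    congr 1
    simp [Finsupp.single_apply]
  have hker : LinearMap.ker φ = Λ := by
    ext x
    simp only [LinearMap.mem_ker]
    constructor
    · intro hx
      have hx' : ∀ i, ∃ c : S, b'.repr x i = c * a i := by
        intro i
        have := congrFun hx i
        simp only [φ, LinearMap.pi_apply, LinearMap.comp_apply, Basis.coord_apply,
          Pi.zero_apply, Submodule.mkQ_apply, Submodule.Quotient.mk_eq_zero] at this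
        obtain ⟨c, hc⟩ := Ideal.mem_span_singleton'.1 this
        exact ⟨c, hc.symm⟩
      choose c hc using hx'
      have : x = ∑ i, c i • (ab' i : N) := by
        conv_lhs => rw [← b'.sum_repr x]
        refine Finset.sum_congr rfl fun i _ => ?_
        rw [hab, smul_smul, hc]
      rw [this]
      exact Submodule.sum_mem _ fun i _ => Submodule.smul_mem _ _ (ab' i).2
    · intro hx
      funext i
      simp only [φ, LinearMap.pi_apply, LinearMap.comp_apply, Basis.coord_apply,
        Pi.zero_apply, Submodule.mkQ_apply, Submodule.Quotient.mk_eq_zero]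
      have hx2 : x = ∑ j, (ab'.repr ⟨x, hx⟩ j) • (ab' j : N) := by
        have := congrArg (Subtype.val) (ab'.sum_repr ⟨x, hx⟩)
        simp only [Submodule.coe_sum, Submodule.coe_smul] at this
        exact this.symm
      rw [hx2]
      simp only [map_sum, map_smul, hab, Finsupp.coe_finsetSum, Finset.sum_apply,
        Finsupp.smul_apply, Basis.repr_self, smul_eq_mul]
      refine Ideal.sum_mem _ fun j _ => ?_
      by_cases hij : j = i
      · subst hij
        simp only [Finsupp.single_eq_same, mul_one]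
        exact Ideal.mul_mem_left _ _ (Ideal.mem_span_singleton_self _)
      · simp [Finsupp.single_eq_of_ne (Ne.symm hij)]
  have e : (N ⧸ Λ) ≃ₗ[S] (∀ i, S ⧸ Ideal.span {a i}) :=
    (Submodule.quotEquivOfEq _ _ hker.symm).trans (φ.quotKerEquivOfSurjective hφ)
  rw [e.length_eq, Module.length_pi_of_fintype]
  exact Finset.sum_congr rfl fun i _ => length_quotient_span_singleton (ha i)

omit [Fintype ι] in
theorem addVal_prod (s : Finset ι) (a : ι → S) :
    IsDiscreteValuationRing.addVal S (∏ i ∈ s, a i) =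
      ∑ i ∈ s, IsDiscreteValuationRing.addVal S (a i) := by
  classical
  induction s using Finset.induction_on with
  | empty => simp
  | insert i s hi ih =>
    rw [Finset.prod_insert hi, Finset.sum_insert hi, IsDiscreteValuationRing.addVal_mul, ih]

theorem addVal_of_isUnit {u : S} (hu : IsUnit u) : IsDiscreteValuationRing.addVal S u = 0 := by
  obtain ⟨v, rfl⟩ := hu
  exact IsDiscreteValuationRing.addVal_eq_zero_of_unit v

/-- **Colength = valuation of the determinant.**  For an injective linear map `f : A → N` between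
finite free modules over a discrete valuation ring, with bases indexed by the same type,
`length (N ⧸ range f) = v(det f)`. -/
theorem length_quotient_range_eq_addVal (bA : Basis ι S A) (bN : Basis ι S N) (f : A →ₗ[S] N)
    (hf : Function.Injective f) :
    Module.length S (N ⧸ LinearMap.range f) =
      IsDiscreteValuationRing.addVal S (LinearMap.toMatrix bA bN f).det := by
  classical
  let e : A ≃ₗ[S] LinearMap.range f := LinearEquiv.ofInjective f hf
  have hrank : Module.finrank S (LinearMap.range f) = Module.finrank S N := by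
    rw [← e.finrank_eq, Module.finrank_eq_card_basis bA, Module.finrank_eq_card_basis bN]
  obtain ⟨b', a, ab', hab⟩ := Submodule.exists_smith_normal_form_of_rank_eq bN hrank
  have ha : ∀ i, a i ≠ 0 := by
    intro i h0
    have := hab i
    rw [h0, zero_smul] at this
    exact ab'.ne_zero i (Subtype.ext this)
  rw [length_quotient_of_diag (LinearMap.range f) b' a ab' hab ha]
  have hcomp : f = (LinearMap.id : N →ₗ[S] N) ∘ₗ ((LinearMap.range f).subtype ∘ₗ e.toLinearMap) := by
    ext x; rfl
  have hmat : LinearMap.toMatrix bA bN f =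
      LinearMap.toMatrix b' bN LinearMap.id *
        (LinearMap.toMatrix ab' b' (LinearMap.range f).subtype *
          LinearMap.toMatrix bA ab' e.toLinearMap) := by
    conv_lhs => rw [hcomp]
    rw [LinearMap.toMatrix_comp bA b' bN, LinearMap.toMatrix_comp bA ab' b']
  have hdiag : LinearMap.toMatrix ab' b' (LinearMap.range f).subtype = Matrix.diagonal a := by
    ext i j
    rw [LinearMap.toMatrix_apply, Submodule.subtype_apply, hab, map_smul, Finsupp.smul_apply,
      Basis.repr_self, smul_eq_mul, Matrix.diagonal_apply]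
    by_cases hij : i = j
    · subst hij; simp
    · simp [hij]
  have hu1 : IsUnit (LinearMap.toMatrix b' bN (LinearMap.id : N →ₗ[S] N)).det :=
    LinearEquiv.isUnit_det (LinearEquiv.refl S N) b' bN
  have hu2 : IsUnit (LinearMap.toMatrix bA ab' e.toLinearMap).det :=
    LinearEquiv.isUnit_det e bA ab'
  rw [hmat, Matrix.det_mul, Matrix.det_mul, hdiag, Matrix.det_diagonal,
    IsDiscreteValuationRing.addVal_mul, IsDiscreteValuationRing.addVal_mul,
    addVal_of_isUnit hu1, addVal_of_isUnit hu2, addVal_prod, zero_add, add_zero]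

end LD

section Disc

open Matrix

variable {S : Type*} [CommRing S] [IsDomain S]
variable {A N ι : Type*} [CommRing A] [CommRing N] [Algebra S A] [Algebra S N]
  [Fintype ι] [DecidableEq ι]

/-- An injective linear map between free modules of the same finite rank over a domain has
nonzero determinant. -/
theorem det_toMatrix_ne_zero {A N : Type*} [AddCommGroup A] [Module S A] [AddCommGroup N]
    [Module S N] (bA : Basis ι S A) (bN : Basis ι S N) (f : A →ₗ[S] N)
    (hf : Function.Injective f) : (LinearMap.toMatrix bA bN f).det ≠ 0 := by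
  intro h0
  obtain ⟨v, hv, hv0⟩ := Matrix.exists_mulVec_eq_zero_iff.2 h0
  apply hv
  have hx : ⇑(bA.repr (bA.equivFun.symm v)) = v := by
    rw [← Basis.equivFun_apply, LinearEquiv.apply_symm_apply]
  have h1 : f (bA.equivFun.symm v) = 0 := by
    apply bN.repr.injective
    rw [map_zero]
    ext i
    have h := LinearMap.toMatrix_mulVec_repr bA bN f (bA.equivFun.symm v)
    rw [hx, hv0] at h
    rw [← h]
    rfl
  have h2 : bA.equivFun.symm v = 0 := hf (by rw [h1, map_zero])
  rw [← hx, h2]
  simp

/-- The trace of an element of an order does not change when the order is enlarged (same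
rank). -/
theorem trace_eq_of_injective (bA : Basis ι S A) (bN : Basis ι S N) (φ : A →ₐ[S] N)
    (hφ : Function.Injective φ) (x : A) : Algebra.trace S N (φ x) = Algebra.trace S A x := by
  classical
  set P := LinearMap.toMatrix bA bN φ.toLinearMap with hP
  have hdet : P.det ≠ 0 := det_toMatrix_ne_zero bA bN φ.toLinearMap hφ
  have hcomm : P * Algebra.leftMulMatrix bA x = Algebra.leftMulMatrix bN (φ x) * P := by
    rw [Algebra.leftMulMatrix_apply, Algebra.leftMulMatrix_apply, hP,
      ← LinearMap.toMatrix_comp bA bA bN, ← LinearMap.toMatrix_comp bA bN bN]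
    congr 1
    ext y
    simp
  have h1 : P.det * Matrix.trace (Algebra.leftMulMatrix bA x) =
      P.det * Matrix.trace (Algebra.leftMulMatrix bN (φ x)) := by
    have e1 : P.adjugate * (P * Algebra.leftMulMatrix bA x) =
        P.det • Algebra.leftMulMatrix bA x := by
      rw [← Matrix.mul_assoc, Matrix.adjugate_mul, Matrix.smul_mul, Matrix.one_mul]
    have e2 : Matrix.trace (P.adjugate * (Algebra.leftMulMatrix bN (φ x) * P)) =
        P.det * Matrix.trace (Algebra.leftMulMatrix bN (φ x)) := by
      rw [Matrix.trace_mul_comm, Matrix.mul_assoc, Matrix.mul_adjugate, Matrix.mul_smul,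
        Matrix.mul_one, Matrix.trace_smul, smul_eq_mul]
    rw [← e2, ← hcomm, e1, Matrix.trace_smul, smul_eq_mul]
  rw [Algebra.trace_eq_matrix_trace bN, Algebra.trace_eq_matrix_trace bA]
  exact (mul_left_cancel₀ hdet h1).symm

/-- **Discriminant of a suborder of the same rank.** -/
theorem discr_eq_det_sq_mul (bA : Basis ι S A) (bN : Basis ι S N) (φ : A →ₐ[S] N)
    (hφ : Function.Injective φ) :
    Algebra.discr S bA =
      (LinearMap.toMatrix bA bN φ.toLinearMap).det ^ 2 * Algebra.discr S bN := by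
  classical
  set P := LinearMap.toMatrix bA bN φ.toLinearMap with hP
  have h1 : (fun j => φ (bA j)) = (bN : ι → N) ᵥ* P.map (algebraMap S N) := by
    funext j
    simp only [Matrix.vecMul, dotProduct, Matrix.map_apply, hP, LinearMap.toMatrix_apply]
    conv_lhs => rw [← bN.sum_repr (φ (bA j))]
    refine Finset.sum_congr rfl fun i _ => ?_
    rw [Algebra.smul_def, mul_comm]
    rfl
  have h2 : Algebra.discr S bA = Algebra.discr S (fun j => φ (bA j)) := by
    rw [Algebra.discr_def, Algebra.discr_def]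
    congr 1
    ext i j
    rw [Algebra.traceMatrix_apply, Algebra.traceMatrix_apply, Algebra.traceForm_apply,
      Algebra.traceForm_apply, ← trace_eq_of_injective bA bN φ hφ (bA i * bA j), map_mul]
  rw [h2, h1, Algebra.discr_of_matrix_vecMul]

omit [IsDomain S] in
/-- The trace on a finite power of an algebra. -/
theorem trace_pi [Module.Free S N] [Module.Finite S N] (d : ℕ) (x : Fin d → N) :
    Algebra.trace S (Fin d → N) x = ∑ i, Algebra.trace S N (x i) := by
  classical
  let bN := Module.Free.chooseBasis S N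
  rw [Algebra.trace_eq_matrix_trace (Pi.basis (fun _ : Fin d => bN))]
  simp only [Matrix.trace, Matrix.diag_apply, Algebra.leftMulMatrix_eq_repr_mul]
  rw [Fintype.sum_sigma]
  refine Finset.sum_congr rfl fun i _ => ?_
  rw [Algebra.trace_eq_matrix_trace bN]
  simp only [Matrix.trace, Matrix.diag_apply, Algebra.leftMulMatrix_eq_repr_mul]
  refine Finset.sum_congr rfl fun a _ => ?_
  rw [Pi.basis_repr, Pi.basis_apply]
  simp

omit [IsDomain S] in
/-- **Discriminant of a finite power.** -/
theorem discr_pi [Module.Free S N] [Module.Finite S N] (d : ℕ) (bN : Basis ι S N) :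
    Algebra.discr S (Pi.basis (fun _ : Fin d => bN)) = Algebra.discr S bN ^ d := by
  classical
  let e : ι × Fin d ≃ (Σ _ : Fin d, ι) :=
    (Equiv.prodComm _ _).trans (Equiv.sigmaEquivProd (Fin d) ι).symm
  have h : Algebra.traceMatrix S (Pi.basis (fun _ : Fin d => bN)) =
      Matrix.reindex e e (Matrix.blockDiagonal (fun _ : Fin d => Algebra.traceMatrix S bN)) := by
    ext ⟨i, a⟩ ⟨j, b⟩
    rw [Algebra.traceMatrix_apply, Algebra.traceForm_apply, Pi.basis_apply, Pi.basis_apply,
      trace_pi, Matrix.reindex_apply, Matrix.submatrix_apply]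
    have he1 : e.symm ⟨i, a⟩ = (a, i) := rfl
    have he2 : e.symm ⟨j, b⟩ = (b, j) := rfl
    rw [he1, he2, Matrix.blockDiagonal_apply]
    by_cases hij : i = j
    · subst hij
      simp only [if_true]
      rw [Finset.sum_eq_single i]
      · simp [Algebra.traceMatrix_apply, Algebra.traceForm_apply]
      · intro k _ hk
        simp [Pi.single_eq_of_ne hk]
      · intro hi; exact absurd (Finset.mem_univ i) hi
    · simp only [hij, if_false]
      refine Finset.sum_eq_zero fun k _ => ?_
      by_cases hk : k = i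
      · subst hk
        simp [Pi.single_eq_of_ne hij]
      · simp [Pi.single_eq_of_ne hk]
  rw [Algebra.discr_def, h, Matrix.det_reindex_self, Matrix.det_blockDiagonal, Finset.prod_const,
    Finset.card_univ, Fintype.card_fin]
  rfl

end Disc

section Split

variable {S : Type*} [CommRing S]
variable {C X Y Z : Type*} [AddCommGroup C] [Module S C] [AddCommGroup X] [Module S X]
  [AddCommGroup Y] [Module S Y] [AddCommGroup Z] [Module S Z]

/-- Additivity of the colength along a short exact sequence `0 → Y → Z → X → 0` of the target. -/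
theorem length_quotient_range_split (Φ : C →ₗ[S] Z) (pr : Z →ₗ[S] X) (inc : Y →ₗ[S] Z)
    (hpr : Function.Surjective pr) (hex : Function.Exact inc pr) :
    Module.length S (Z ⧸ LinearMap.range Φ) =
      Module.length S (Y ⧸ (LinearMap.range Φ).comap inc) +
        Module.length S (X ⧸ LinearMap.range (pr ∘ₗ Φ)) := by
  have h1 : (LinearMap.range Φ).comap inc ≤ (LinearMap.range Φ).comap inc := le_rfl
  have h2 : LinearMap.range Φ ≤ (LinearMap.range (pr ∘ₗ Φ)).comap pr := by
    rintro _ ⟨c, rfl⟩
    exact ⟨c, rfl⟩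
  let f := Submodule.mapQ ((LinearMap.range Φ).comap inc) (LinearMap.range Φ) inc h1
  let g := Submodule.mapQ (LinearMap.range Φ) (LinearMap.range (pr ∘ₗ Φ)) pr h2
  have hf : Function.Injective f := by
    rw [← LinearMap.ker_eq_bot, LinearMap.ker_eq_bot']
    intro y hy
    obtain ⟨y, rfl⟩ := Submodule.mkQ_surjective _ y
    simp only [f, Submodule.mkQ_apply, Submodule.mapQ_apply, Submodule.Quotient.mk_eq_zero] at hy ⊢
    exact hy
  have hg : Function.Surjective g := by
    intro x
    obtain ⟨x, rfl⟩ := Submodule.mkQ_surjective _ x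
    obtain ⟨z, rfl⟩ := hpr x
    exact ⟨Submodule.Quotient.mk z, rfl⟩
  have H : Function.Exact f g := by
    intro z
    obtain ⟨z, rfl⟩ := Submodule.mkQ_surjective _ z
    constructor
    · intro hz
      simp only [g, Submodule.mkQ_apply, Submodule.mapQ_apply, Submodule.Quotient.mk_eq_zero] at hz
      obtain ⟨c, hc⟩ := hz
      have h3 : pr (z - Φ c) = 0 := by
        rw [map_sub, ← hc]; simp
      obtain ⟨y, hy⟩ := (hex (z - Φ c)).1 h3
      refine ⟨Submodule.Quotient.mk y, ?_⟩
      simp only [f, Submodule.mapQ_apply, Submodule.mkQ_apply]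
      rw [hy, Submodule.Quotient.eq]
      have : z - Φ c - z = - Φ c := by abel
      rw [this]
      exact Submodule.neg_mem _ ⟨c, rfl⟩
    · rintro ⟨y, hy⟩
      obtain ⟨y, rfl⟩ := Submodule.mkQ_surjective _ y
      rw [← hy]
      simp only [f, g, Submodule.mkQ_apply, Submodule.mapQ_apply, Submodule.Quotient.mk_eq_zero]
      have : pr (inc y) = 0 := (hex (inc y)).2 ⟨y, rfl⟩
      rw [this]
      exact Submodule.zero_mem _
  exact Module.length_eq_add_of_exact f g hf hg H

end Split

section Main

variable {S : Type*} [CommRing S] [IsDomain S] [IsDiscreteValuationRing S]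
variable {B C D₁ D₂ : Type*} [CommRing B] [CommRing C] [CommRing D₁] [CommRing D₂]
  [Algebra S B] [Algebra S C] [Algebra S D₁] [Algebra S D₂]

/-- The gluing submodule `I₂ = q₂ (ker q₁) ⊆ D₂` of a subalgebra `B ⊆ D₁ × D₂`. -/
def glue (q₁ : B →ₐ[S] D₁) (q₂ : B →ₐ[S] D₂) : Submodule S D₂ where
  carrier := {x | ∃ b, q₁ b = 0 ∧ q₂ b = x}
  add_mem' := by
    rintro _ _ ⟨b, hb, rfl⟩ ⟨b', hb', rfl⟩
    exact ⟨b + b', by rw [map_add, hb, hb', add_zero], map_add _ _ _⟩
  zero_mem' := ⟨0, map_zero _, map_zero _⟩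
  smul_mem' := by
    rintro r _ ⟨b, hb, rfl⟩
    exact ⟨r • b, by rw [map_smul, hb, smul_zero], map_smul _ _ _⟩

omit [IsDomain S] [IsDiscreteValuationRing S] in
theorem mem_glue {q₁ : B →ₐ[S] D₁} {q₂ : B →ₐ[S] D₂} {x : D₂} :
    x ∈ glue q₁ q₂ ↔ ∃ b, q₁ b = 0 ∧ q₂ b = x := Iff.rfl

omit [IsDomain S] [IsDiscreteValuationRing S] in
/-- The colength of `B` in `D₁ × D₂` is the length of `D₂ / I₂`. -/
theorem length_quotient_range_prod (q₁ : B →ₐ[S] D₁) (q₂ : B →ₐ[S] D₂)
    (hq₁ : Function.Surjective q₁) :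
    Module.length S ((D₁ × D₂) ⧸ LinearMap.range (q₁.prod q₂).toLinearMap) =
      Module.length S (D₂ ⧸ glue q₁ q₂) := by
  have hex : Function.Exact (LinearMap.inr S D₁ D₂) (LinearMap.fst S D₁ D₂) := by
    intro z
    constructor
    · intro hz
      exact ⟨z.2, Prod.ext (by simpa using hz.symm) rfl⟩
    · rintro ⟨y, rfl⟩
      rfl
  rw [length_quotient_range_split (q₁.prod q₂).toLinearMap (LinearMap.fst S D₁ D₂)
    (LinearMap.inr S D₁ D₂) LinearMap.fst_surjective hex]
  have htop : LinearMap.range (LinearMap.fst S D₁ D₂ ∘ₗ (q₁.prod q₂).toLinearMap) = ⊤ := by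
    rw [LinearMap.range_eq_top]
    intro x
    obtain ⟨b, rfl⟩ := hq₁ x
    exact ⟨b, rfl⟩
  have h0 : Module.length S
      (D₁ ⧸ LinearMap.range (LinearMap.fst S D₁ D₂ ∘ₗ (q₁.prod q₂).toLinearMap)) = 0 := by
    rw [Module.length_eq_zero_iff, htop]
    infer_instance
  rw [h0, add_zero]
  have hI : (LinearMap.range (q₁.prod q₂).toLinearMap).comap (LinearMap.inr S D₁ D₂) =
      glue q₁ q₂ := by
    ext x
    simp only [Submodule.mem_comap, LinearMap.mem_range]
    constructor
    · rintro ⟨b, hb⟩
      have h1 := congrArg Prod.fst hb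
      have h2 := congrArg Prod.snd hb
      exact ⟨b, h1, h2⟩
    · rintro ⟨b, h1, h2⟩
      exact ⟨b, Prod.ext h1 h2⟩
  rw [hI]

/-- The embedding of `C` into the `d`-fold power of `D₁ × D₂` given by its `2d` branches. -/
noncomputable def branchHom (d : ℕ) (p₁ : Fin d → C →ₐ[S] D₁) (p₂ : Fin d → C →ₐ[S] D₂) :
    C →ₐ[S] (Fin d → D₁ × D₂) :=
  AlgHom.pi (fun i => (p₁ i).prod (p₂ i))

omit [IsDomain S] [IsDiscreteValuationRing S] in
theorem branchHom_apply (d : ℕ) (p₁ : Fin d → C →ₐ[S] D₁) (p₂ : Fin d → C →ₐ[S] D₂) (c : C)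
    (i : Fin d) : branchHom d p₁ p₂ c i = (p₁ i c, p₂ i c) := rfl

omit [IsDomain S] [IsDiscreteValuationRing S] in
/-- Lower bound for the colength of `C` in the `d`-fold power of `D₁ × D₂`. -/
theorem length_quotient_range_branchHom (q₁ : B →ₐ[S] D₁) (q₂ : B →ₐ[S] D₂) (d : ℕ)
    (p₁ : Fin d → C →ₐ[S] D₁) (p₂ : Fin d → C →ₐ[S] D₂)
    (hGD : ∀ c, (∀ i, p₁ i c = 0) → ∀ j, ∃ b, q₁ b = 0 ∧ q₂ b = p₂ j c) :
    d • Module.length S (D₂ ⧸ glue q₁ q₂) +
        Module.length S ((Fin d → D₁) ⧸
          LinearMap.range (LinearMap.pi fun i => (p₁ i).toLinearMap : C →ₗ[S] (Fin d → D₁))) ≤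
      Module.length S ((Fin d → D₁ × D₂) ⧸ LinearMap.range (branchHom d p₁ p₂).toLinearMap) := by
  let pr : (Fin d → D₁ × D₂) →ₗ[S] (Fin d → D₁) :=
    LinearMap.pi fun i => (LinearMap.fst S D₁ D₂).comp (LinearMap.proj i)
  let inc : (Fin d → D₂) →ₗ[S] (Fin d → D₁ × D₂) :=
    LinearMap.pi fun i => (LinearMap.inr S D₁ D₂).comp (LinearMap.proj i)
  have hpr : Function.Surjective pr := by
    intro x
    exact ⟨fun i => (x i, 0), rfl⟩
  have hex : Function.Exact inc pr := by
    intro z
    constructor
    · intro hz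
      refine ⟨fun i => (z i).2, ?_⟩
      funext i
      have := congrFun hz i
      exact Prod.ext this.symm rfl
    · rintro ⟨y, rfl⟩
      rfl
  rw [length_quotient_range_split (branchHom d p₁ p₂).toLinearMap pr inc hpr hex]
  have hcomp : pr ∘ₗ (branchHom d p₁ p₂).toLinearMap =
      (LinearMap.pi fun i => (p₁ i).toLinearMap : C →ₗ[S] (Fin d → D₁)) := rfl
  rw [hcomp]
  refine add_le_add_left ?_ _
  -- the comap is contained in the power of the gluing submodule
  have hle : (LinearMap.range (branchHom d p₁ p₂).toLinearMap).comap inc ≤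
      Submodule.pi Set.univ (fun _ : Fin d => glue q₁ q₂) := by
    rintro y ⟨c, hc⟩ j -
    have hc1 : ∀ i, p₁ i c = 0 := fun i => congrArg Prod.fst (congrFun hc i)
    obtain ⟨b, hb1, hb2⟩ := hGD c hc1 j
    refine ⟨b, hb1, ?_⟩
    rw [hb2]
    exact congrArg Prod.snd (congrFun hc j)
  have hsurj : Function.Surjective
      (Submodule.mapQ ((LinearMap.range (branchHom d p₁ p₂).toLinearMap).comap inc)
        (Submodule.pi Set.univ (fun _ : Fin d => glue q₁ q₂)) LinearMap.id hle) := by
    intro y
    obtain ⟨y, rfl⟩ := Submodule.mkQ_surjective _ y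
    exact ⟨Submodule.Quotient.mk y, rfl⟩
  have h1 := Module.length_le_of_surjective _ hsurj
  have e : ((Fin d → D₂) ⧸ Submodule.pi Set.univ (fun _ : Fin d => glue q₁ q₂)) ≃ₗ[S]
      (Fin d → D₂ ⧸ glue q₁ q₂) := Submodule.quotientPi _
  rw [e.length_eq, Module.length_pi_of_fintype] at h1
  simpa using h1

/-- **The special-fibre count.**  `S` a discrete valuation ring; `B ⊆ D₁ × D₂` (via `q₁, q₂`,
`q₁` onto) and `C ⊆ (D₁ × D₂)^d` (via the branches `p₁ i, p₂ i`) finite free `S`-algebras of full
rank with `disc C ~ (disc B)^d`.  If every element of `C` vanishing on all `D₁`-branches has its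
`D₂`-branch values in the gluing submodule `q₂ (ker q₁)`, then `C → D₁^d` is onto. -/
theorem surjective_pi_of_discr [Module.Free S D₁] [Module.Finite S D₁] [Module.Free S D₂]
    [Module.Finite S D₂]
    (q₁ : B →ₐ[S] D₁) (q₂ : B →ₐ[S] D₂) (hq₁ : Function.Surjective q₁)
    (hB : ∀ b, q₁ b = 0 → q₂ b = 0 → b = 0)
    (d : ℕ) (p₁ : Fin d → C →ₐ[S] D₁) (p₂ : Fin d → C →ₐ[S] D₂)
    (hC : ∀ c, (∀ i, p₁ i c = 0) → (∀ i, p₂ i c = 0) → c = 0)
    (hGD : ∀ c, (∀ i, p₁ i c = 0) → ∀ j, ∃ b, q₁ b = 0 ∧ q₂ b = p₂ j c)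
    {κB κC : Type*} [Fintype κB] [Fintype κC] [DecidableEq κB] [DecidableEq κC]
    (bB : Basis κB S B) (bC : Basis κC S C)
    (hrankB : Fintype.card κB = Module.finrank S D₁ + Module.finrank S D₂)
    (hrankC : Fintype.card κC = d * Fintype.card κB)
    (hdisc : Associated (Algebra.discr S bC) (Algebra.discr S bB ^ d))
    (h0 : Algebra.discr S bB ≠ 0) :
    Function.Surjective (LinearMap.pi fun i => (p₁ i).toLinearMap : C →ₗ[S] (Fin d → D₁)) := by
  classical
  -- the normalisation `D₁ × D₂` and its basis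
  let κN := Module.Free.ChooseBasisIndex S (D₁ × D₂)
  let bN : Basis κN S (D₁ × D₂) := Module.Free.chooseBasis S (D₁ × D₂)
  have hcardN : Fintype.card κN = Fintype.card κB := by
    rw [← Module.finrank_eq_card_basis bN, Module.finrank_prod, hrankB]
  let eB : κB ≃ κN := Fintype.equivOfCardEq hcardN.symm
  let bB' : Basis κN S B := bB.reindex eB
  have hdB : Algebra.discr S bB' = Algebra.discr S bB := by
    rw [Basis.coe_reindex]; exact Algebra.discr_reindex S bB eB
  let bZ : Basis (Σ _ : Fin d, κN) S (Fin d → D₁ × D₂) := Pi.basis fun _ => bN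
  have hcardZ : Fintype.card (Σ _ : Fin d, κN) = Fintype.card κC := by
    rw [Fintype.card_sigma, hrankC, ← hcardN]; simp
  let eC : κC ≃ (Σ _ : Fin d, κN) := Fintype.equivOfCardEq hcardZ.symm
  let bC' : Basis (Σ _ : Fin d, κN) S C := bC.reindex eC
  have hdC : Algebra.discr S bC' = Algebra.discr S bC := by
    rw [Basis.coe_reindex]; exact Algebra.discr_reindex S bC eC
  -- injectivity of the two embeddings
  have hΦB : Function.Injective (q₁.prod q₂) := by
    rw [injective_iff_map_eq_zero]
    intro b hb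
    exact hB b (congrArg Prod.fst hb) (congrArg Prod.snd hb)
  have hΦC : Function.Injective (branchHom d p₁ p₂) := by
    rw [injective_iff_map_eq_zero]
    intro c hc
    exact hC c (fun i => congrArg Prod.fst (congrFun hc i))
      (fun i => congrArg Prod.snd (congrFun hc i))
  -- discriminants and colengths
  have e1 := discr_eq_det_sq_mul bB' bN (q₁.prod q₂) hΦB
  have e2 := discr_eq_det_sq_mul bC' bZ (branchHom d p₁ p₂) hΦC
  rw [discr_pi] at e2
  have l1 := length_quotient_range_eq_addVal bB' bN (q₁.prod q₂).toLinearMap hΦB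
  have l2 := length_quotient_range_eq_addVal bC' bZ (branchHom d p₁ p₂).toLinearMap hΦC
  have hPB := det_toMatrix_ne_zero bB' bN (q₁.prod q₂).toLinearMap hΦB
  have hPC := det_toMatrix_ne_zero bC' bZ (branchHom d p₁ p₂).toLinearMap hΦC
  set PB := (LinearMap.toMatrix bB' bN (q₁.prod q₂).toLinearMap).det with hPBdef
  set PC := (LinearMap.toMatrix bC' bZ (branchHom d p₁ p₂).toLinearMap).det with hPCdef
  have hN0 : Algebra.discr S bN ≠ 0 := by
    intro h
    apply h0
    rw [← hdB, e1, h, mul_zero]
  have hv : IsDiscreteValuationRing.addVal S (Algebra.discr S bC) =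
      IsDiscreteValuationRing.addVal S (Algebra.discr S bB ^ d) :=
    (IsDiscreteValuationRing.addVal_eq_iff_associated _ _).2 hdisc
  rw [← hdC, e2, ← hdB, e1] at hv
  obtain ⟨nB, hnB⟩ := ENat.ne_top_iff_exists.1
    (fun h => hPB (IsDiscreteValuationRing.addVal_eq_top_iff.1 h))
  obtain ⟨nC, hnC⟩ := ENat.ne_top_iff_exists.1
    (fun h => hPC (IsDiscreteValuationRing.addVal_eq_top_iff.1 h))
  obtain ⟨nv, hnv⟩ := ENat.ne_top_iff_exists.1
    (fun h => hN0 (IsDiscreteValuationRing.addVal_eq_top_iff.1 h))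
  simp only [IsDiscreteValuationRing.addVal_mul, IsDiscreteValuationRing.addVal_pow,
    ← hnB, ← hnC, ← hnv, smul_add, nsmul_eq_mul] at hv
  have hnum : nC = d * nB := by
    have hv' : 2 * nC + d * nv = d * (2 * nB) + d * nv := by exact_mod_cast hv
    have : 2 * nC = 2 * (d * nB) := by linarith
    omega
  -- the two colength computations
  have k1 := length_quotient_range_prod q₁ q₂ hq₁
  rw [l1, ← hnB] at k1
  have k2 := length_quotient_range_branchHom q₁ q₂ d p₁ p₂ hGD
  rw [l2, ← hnC, ← k1, hnum] at k2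
  have k3 : Module.length S ((Fin d → D₁) ⧸
      LinearMap.range (LinearMap.pi fun i => (p₁ i).toLinearMap : C →ₗ[S] (Fin d → D₁))) = 0 := by
    have hfin : ((d * nB : ℕ) : ℕ∞) ≠ ⊤ := ENat.natCast_ne_top _
    have k4 : ((d * nB : ℕ) : ℕ∞) + Module.length S ((Fin d → D₁) ⧸
        LinearMap.range (LinearMap.pi fun i => (p₁ i).toLinearMap : C →ₗ[S] (Fin d → D₁))) ≤
        ((d * nB : ℕ) : ℕ∞) + 0 := by
      rw [add_zero]
      refine le_trans (le_of_eq ?_) k2
      congr 1
    exact le_antisymm ((ENat.add_le_add_iff_left hfin).1 k4) zero_le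
  rw [Module.length_eq_zero_iff, Submodule.Quotient.subsingleton_iff] at k3
  exact LinearMap.range_eq_top.1 k3

/-- Consequence of `surjective_pi_of_discr`: the "branch idempotents" exist in `C`. -/
theorem exists_branch_idem [Module.Free S D₁] [Module.Finite S D₁] [Module.Free S D₂]
    [Module.Finite S D₂]
    (q₁ : B →ₐ[S] D₁) (q₂ : B →ₐ[S] D₂) (hq₁ : Function.Surjective q₁)
    (hB : ∀ b, q₁ b = 0 → q₂ b = 0 → b = 0)
    (d : ℕ) (p₁ : Fin d → C →ₐ[S] D₁) (p₂ : Fin d → C →ₐ[S] D₂)
    (hC : ∀ c, (∀ i, p₁ i c = 0) → (∀ i, p₂ i c = 0) → c = 0)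
    (hGD : ∀ c, (∀ i, p₁ i c = 0) → ∀ j, ∃ b, q₁ b = 0 ∧ q₂ b = p₂ j c)
    {κB κC : Type*} [Fintype κB] [Fintype κC] [DecidableEq κB] [DecidableEq κC]
    (bB : Basis κB S B) (bC : Basis κC S C)
    (hrankB : Fintype.card κB = Module.finrank S D₁ + Module.finrank S D₂)
    (hrankC : Fintype.card κC = d * Fintype.card κB)
    (hdisc : Associated (Algebra.discr S bC) (Algebra.discr S bB ^ d))
    (h0 : Algebra.discr S bB ≠ 0) (i : Fin d) :
    ∃ c : C, p₁ i c = 1 ∧ ∀ j, j ≠ i → p₁ j c = 0 := by
  classical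
  obtain ⟨c, hc⟩ := surjective_pi_of_discr q₁ q₂ hq₁ hB d p₁ p₂ hC hGD bB bC hrankB hrankC hdisc h0
    (Pi.single i 1)
  refine ⟨c, ?_, fun j hj => ?_⟩
  · have := congrFun hc i
    simpa using this
  · have := congrFun hc j
    simpa [Pi.single_eq_of_ne hj] using this

/-- **Graph-covering property (a).**  Two distinct `D₁`-branches of `C` are comaximal. -/
theorem ker_sup_ker_eq_top [Module.Free S D₁] [Module.Finite S D₁] [Module.Free S D₂]
    [Module.Finite S D₂]
    (q₁ : B →ₐ[S] D₁) (q₂ : B →ₐ[S] D₂) (hq₁ : Function.Surjective q₁)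
    (hB : ∀ b, q₁ b = 0 → q₂ b = 0 → b = 0)
    (d : ℕ) (p₁ : Fin d → C →ₐ[S] D₁) (p₂ : Fin d → C →ₐ[S] D₂)
    (hC : ∀ c, (∀ i, p₁ i c = 0) → (∀ i, p₂ i c = 0) → c = 0)
    (hGD : ∀ c, (∀ i, p₁ i c = 0) → ∀ j, ∃ b, q₁ b = 0 ∧ q₂ b = p₂ j c)
    {κB κC : Type*} [Fintype κB] [Fintype κC] [DecidableEq κB] [DecidableEq κC]
    (bB : Basis κB S B) (bC : Basis κC S C)
    (hrankB : Fintype.card κB = Module.finrank S D₁ + Module.finrank S D₂)
    (hrankC : Fintype.card κC = d * Fintype.card κB)
    (hdisc : Associated (Algebra.discr S bC) (Algebra.discr S bB ^ d))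
    (h0 : Algebra.discr S bB ≠ 0) (i i' : Fin d) (hii' : i ≠ i') :
    RingHom.ker (p₁ i : C →+* D₁) ⊔ RingHom.ker (p₁ i' : C →+* D₁) = ⊤ := by
  obtain ⟨c, hc1, hc0⟩ :=
    exists_branch_idem q₁ q₂ hq₁ hB d p₁ p₂ hC hGD bB bC hrankB hrankC hdisc h0 i
  rw [Ideal.eq_top_iff_one]
  have h1 : (1 : C) = (1 - c) + c := by ring
  rw [h1]
  refine Ideal.add_mem _ (Ideal.mem_sup_left ?_) (Ideal.mem_sup_right ?_)
  · rw [RingHom.mem_ker]
    simp [hc1]
  · rw [RingHom.mem_ker]
    exact hc0 i' (Ne.symm hii')

omit [IsDomain S] [IsDiscreteValuationRing S] in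
/-- The hypothesis `hGD` of the count from the usual going-down statement: if the gluing ideal
`q₂ (ker q₁)` of `D₂` is an intersection of maximal ideals, and every maximal ideal of `C` on a
`D₂`-branch lying over a glued point lies on some `D₁`-branch, then `hGD` holds. -/
theorem hGD_of_goingDown
    (q₁ : B →ₐ[S] D₁) (q₂ : B →ₐ[S] D₂)
    (d : ℕ) (p₁ : Fin d → C →ₐ[S] D₁) (p₂ : Fin d → C →ₐ[S] D₂)
    (ι : B →ₐ[S] C) (hι₂ : ∀ j b, p₂ j (ι b) = q₂ b) (hq₂ : Function.Surjective q₂)
    (hI : ∀ x : D₂, (∀ n : Ideal D₂, n.IsMaximal → (∀ b, q₁ b = 0 → q₂ b ∈ n) → x ∈ n) →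
      ∃ b, q₁ b = 0 ∧ q₂ b = x)
    (hgd : ∀ (j : Fin d) (Q : Ideal C), Q.IsMaximal → RingHom.ker (p₂ j : C →+* D₂) ≤ Q →
      (∀ b, q₁ b = 0 → ι b ∈ Q) → ∃ i, RingHom.ker (p₁ i : C →+* D₁) ≤ Q) :
    ∀ c, (∀ i, p₁ i c = 0) → ∀ j, ∃ b, q₁ b = 0 ∧ q₂ b = p₂ j c := by
  intro c hc j
  apply hI
  intro n hn hbn
  have hsurj : Function.Surjective (p₂ j : C →+* D₂) := by
    intro x
    obtain ⟨b, rfl⟩ := hq₂ x
    exact ⟨ι b, hι₂ j b⟩
  have hQ : (n.comap (p₂ j : C →+* D₂)).IsMaximal := Ideal.comap_isMaximal_of_surjective _ hsurj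
  have hker : RingHom.ker (p₂ j : C →+* D₂) ≤ n.comap (p₂ j : C →+* D₂) := by
    intro x hx
    rw [RingHom.mem_ker] at hx
    rw [Ideal.mem_comap, hx]
    exact Ideal.zero_mem _
  obtain ⟨i, hi⟩ := hgd j (n.comap (p₂ j : C →+* D₂)) hQ hker (fun b hb => by
    rw [Ideal.mem_comap]
    change p₂ j (ι b) ∈ n
    rw [hι₂]
    exact hbn b hb)
  have hcQ : c ∈ n.comap (p₂ j : C →+* D₂) := hi (by rw [RingHom.mem_ker]; exact hc i)
  exact hcQ

end Main

end Fermat.Agent.S34.Count
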