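import Mathlib

/-!
# PROGRAM U (S34), chart at infinity: the two generic lemmas behind the cusp conditions

Both statements are pure commutative algebra (no modular input).

* `cusp_sep` : **separation of the two components at a cusp.**  `B` a ring, `M` a prime ideal,
  `q₁, q₂ ≤ M` primes.  Think of `x = 1/j ∈ M`, `y = 1/Wj`, `θ' = x^ℓ / y`, `ϑ = y^ℓ v / x` with
  `θ' + ϑ = 1 + x α + y β` (shape of the modular equation), `y ≡ x^ℓ` modulo `q₁` and
  `x ≡ y^ℓ` modulo `q₂` (Kronecker).  With a common denominator `c ∉ M` (`Y = c y`, `T = c ϑ`,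
  `T' = c θ'`, `A₁ = c α`, `A₂ = c β`) the relations become identities in `B`, and they are
  contradictory: no prime `M ∋ x` contains both `q₁` and `q₂`.

* `exists_local_generator_of_overring` : **a component is regular at a point** as soon as its
  local ring is an overring of a Prüfer domain with locally principal primes (e.g. a Dedekind
  domain).  `r : B → K` a ring hom into a field with `ker r ≤ M`, `φ : A ↪ K`,
  (o1) `φ A ⊆ r(B)_M`, (o2) `r B ⊆ Frac (φ A)`.  Then `M` is principal modulo `ker r`, locally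
  at `M`: `∃ θ ∈ M, ∀ y ∈ M, ∃ c ∉ M, c * y ∈ ker r ⊔ (θ)`.
-/

set_option autoImplicit false

namespace Fermat.Agent.S34.CuspSep

section Sep

variable {B : Type*} [CommRing B]

/-- **Separation at a cusp** (denominators cleared by `c`). -/
theorem cusp_sep (M q₁ q₂ : Ideal B) [hM : M.IsPrime] [hq₁ : q₁.IsPrime] [hq₂ : q₂.IsPrime]
    (h₁ : q₁ ≤ M) (h₂ : q₂ ≤ M) (ℓ : ℕ) (hℓ : 2 ≤ ℓ)
    (c x Y T T' v A₁ A₂ : B) (hc : c ∉ M) (hx : x ∈ M)
    (r1 : x * T * c ^ (ℓ - 1) = Y ^ ℓ * v)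
    (r2 : Y * T' = c ^ 2 * x ^ ℓ)
    (r3 : c * (T' + T) = c ^ 2 + c * x * A₁ + Y * A₂)
    (k1 : Y - c * x ^ ℓ ∈ q₁) (hx₁ : x ∉ q₁)
    (k2 : c ^ ℓ * x - Y ^ ℓ ∈ q₂) (hY₂ : Y ∉ q₂) : False := by
  have hℓℓ : 4 ≤ ℓ * ℓ := by nlinarith
  obtain ⟨n, hn⟩ : ∃ n, ℓ * ℓ = n + 1 := ⟨ℓ * ℓ - 1, by omega⟩
  obtain ⟨m, hm⟩ : ∃ m, ℓ * ℓ = m + 2 := ⟨ℓ * ℓ - 2, by omega⟩
  obtain ⟨ℓ', hℓ'⟩ : ∃ ℓ', ℓ = ℓ' + 1 := ⟨ℓ - 1, by omega⟩
  have hn1 : 1 ≤ n := by omega
  have hcpow : ∀ k : ℕ, c ^ k ∉ M := fun k hk => hc (hM.mem_of_pow_mem k hk)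
  have hxpow : ∀ k : ℕ, 1 ≤ k → x ^ k ∈ M := fun k hk => by
    obtain ⟨k', rfl⟩ : ∃ k', k = k' + 1 := ⟨k - 1, by omega⟩
    rw [pow_succ]
    exact M.mul_mem_left _ hx
  -- `Y ∈ M`
  have hY : Y ∈ M := by
    have h : Y = (Y - c * x ^ ℓ) + c * x ^ ℓ := by ring
    rw [h]
    exact M.add_mem (h₁ k1) (M.mul_mem_left _ (hxpow ℓ (by omega)))
  have hYpow : ∀ k : ℕ, 1 ≤ k → Y ^ k ∈ M := fun k hk => by
    obtain ⟨k', rfl⟩ : ∃ k', k = k' + 1 := ⟨k - 1, by omega⟩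
    rw [pow_succ]
    exact M.mul_mem_left _ hY
  -- `T ∈ M`
  have hT : T ∈ M := by
    have hD : x * (T * c ^ (ℓ - 1) - c ^ ℓ * x ^ n * v) ∈ q₁ := by
      have e : x * (T * c ^ (ℓ - 1) - c ^ ℓ * x ^ n * v) = (Y ^ ℓ - (c * x ^ ℓ) ^ ℓ) * v := by
        have e1 : (c * x ^ ℓ) ^ ℓ = c ^ ℓ * x ^ (n + 1) := by
          rw [mul_pow, ← pow_mul, hn]
        rw [e1, sub_mul, ← r1, pow_succ]
        ring
      rw [e]
      obtain ⟨d, hd⟩ := sub_dvd_pow_sub_pow Y (c * x ^ ℓ) ℓ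
      rw [hd]
      exact q₁.mul_mem_right _ (q₁.mul_mem_right _ k1)
    have hD' : T * c ^ (ℓ - 1) - c ^ ℓ * x ^ n * v ∈ M :=
      h₁ ((hq₁.mem_or_mem hD).resolve_left hx₁)
    have hTc : T * c ^ (ℓ - 1) ∈ M := by
      have h : T * c ^ (ℓ - 1) = (T * c ^ (ℓ - 1) - c ^ ℓ * x ^ n * v) + c ^ ℓ * x ^ n * v := by
        ring
      rw [h]
      exact M.add_mem hD' (M.mul_mem_right _ (M.mul_mem_left _ (hxpow n hn1)))
    exact (hM.mem_or_mem hTc).resolve_right (hcpow _)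
  -- `T' ∈ M`
  have hT' : T' ∈ M := by
    have hD : Y * (T' * c ^ m - Y ^ n) ∈ q₂ := by
      have e : Y * (T' * c ^ m - Y ^ n) = (c ^ ℓ * x) ^ ℓ - (Y ^ ℓ) ^ ℓ := by
        have e1 : (c ^ ℓ * x) ^ ℓ = c ^ (m + 2) * x ^ ℓ := by
          rw [mul_pow, ← pow_mul, hm]
        have e2 : (Y ^ ℓ) ^ ℓ = Y ^ (n + 1) := by rw [← pow_mul, hn]
        rw [e1, e2, mul_sub, ← mul_assoc, r2, pow_add, pow_succ]
        ring
      rw [e]
      obtain ⟨d, hd⟩ := sub_dvd_pow_sub_pow (c ^ ℓ * x) (Y ^ ℓ) ℓ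
      rw [hd]
      exact q₂.mul_mem_right _ k2
    have hD' : T' * c ^ m - Y ^ n ∈ M := h₂ ((hq₂.mem_or_mem hD).resolve_left hY₂)
    have hTc : T' * c ^ m ∈ M := by
      have h : T' * c ^ m = (T' * c ^ m - Y ^ n) + Y ^ n := by ring
      rw [h]
      exact M.add_mem hD' (hYpow n hn1)
    exact (hM.mem_or_mem hTc).resolve_right (hcpow _)
  -- conclusion
  have hc2 : c ^ 2 ∈ M := by
    have h : c ^ 2 = c * (T' + T) - c * x * A₁ - Y * A₂ := by rw [r3]; ring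
    rw [h]
    exact M.sub_mem (M.sub_mem (M.mul_mem_left _ (M.add_mem hT' hT))
      (M.mul_mem_right _ (M.mul_mem_left _ hx))) (M.mul_mem_right _ hY)
  exact hcpow 2 hc2

end Sep

section Overring

variable {B K A : Type*} [CommRing B] [Field K] [CommRing A]

/-- The contraction to `A` of the maximal ideal of `r(B)_M`. -/
def contraction (r : B →+* K) (M : Ideal B) [hM : M.IsPrime]
    (φ : A →+* K) (o1 : ∀ a : A, ∃ d b : B, d ∉ M ∧ r b = r d * φ a) : Ideal A where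
  carrier := {a | ∃ d b : B, d ∉ M ∧ b ∈ M ∧ r b = r d * φ a}
  zero_mem' := ⟨1, 0, fun h => hM.ne_top ((Ideal.eq_top_iff_one M).mpr h), M.zero_mem, by simp⟩
  add_mem' := by
    rintro a a' ⟨d, b, hd, hb, h⟩ ⟨d', b', hd', hb', h'⟩
    refine ⟨d * d', b * d' + b' * d, fun hdd => ?_, M.add_mem (M.mul_mem_right _ hb)
      (M.mul_mem_right _ hb'), ?_⟩
    · rcases hM.mem_or_mem hdd with h1 | h1
      · exact hd h1
      · exact hd' h1
    · rw [map_add, map_mul, map_mul, map_mul, map_add, h, h']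
      ring
  smul_mem' := by
    rintro a'' a ⟨d, b, hd, hb, h⟩
    obtain ⟨d'', b'', hd'', h''⟩ := o1 a''
    refine ⟨d * d'', b * b'', fun hdd => ?_, M.mul_mem_right _ hb, ?_⟩
    · rcases hM.mem_or_mem hdd with h1 | h1
      · exact hd h1
      · exact hd'' h1
    · rw [smul_eq_mul, map_mul, map_mul, map_mul, h, h'']
      ring

variable (r : B →+* K) (M : Ideal B) [hM : M.IsPrime] (hker : RingHom.ker r ≤ M)
  (φ : A →+* K) (o1 : ∀ a : A, ∃ d b : B, d ∉ M ∧ r b = r d * φ a)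

theorem mem_contraction_iff (a : A) :
    a ∈ contraction r M φ o1 ↔ ∃ d b : B, d ∉ M ∧ b ∈ M ∧ r b = r d * φ a := Iff.rfl

include hker in
/-- Membership in the contraction can be tested on ANY representation. -/
theorem mem_contraction_of_rep {a : A} (ha : a ∈ contraction r M φ o1) {d b : B}
    (h : r b = r d * φ a) : b ∈ M := by
  obtain ⟨d', b', hd', hb', h'⟩ := ha
  have hk : b * d' - d * b' ∈ RingHom.ker r := by
    rw [RingHom.mem_ker, map_sub, map_mul, map_mul, h, h']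
    ring
  have h1 : b * d' ∈ M := by
    have e : b * d' = (b * d' - d * b') + d * b' := by ring
    rw [e]
    exact M.add_mem (hker hk) (M.mul_mem_left _ hb')
  exact (hM.mem_or_mem h1).resolve_right hd'

include hker in
theorem one_notMem_contraction : (1 : A) ∉ contraction r M φ o1 := by
  rintro ⟨d, b, hd, hb, h⟩
  have hk : b - d ∈ RingHom.ker r := by
    rw [RingHom.mem_ker, map_sub, h, map_one, mul_one, sub_self]
  apply hd
  have e : d = b - (b - d) := by ring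
  rw [e]
  exact M.sub_mem hb (hker hk)

include hker in
theorem contraction_isPrime : (contraction r M φ o1).IsPrime := by
  refine ⟨fun htop => one_notMem_contraction r M hker φ o1 (htop ▸ Submodule.mem_top), ?_⟩
  intro a a' haa
  obtain ⟨d₁, b₁, hd₁, h₁⟩ := o1 a
  obtain ⟨d₂, b₂, hd₂, h₂⟩ := o1 a'
  have hbb : b₁ * b₂ ∈ M :=
    mem_contraction_of_rep r M hker φ o1 haa (d := d₁ * d₂)
      (by rw [map_mul, map_mul, map_mul, h₁, h₂]; ring)
  rcases hM.mem_or_mem hbb with hb | hb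
  · exact Or.inl ⟨d₁, b₁, hd₁, hb, h₁⟩
  · exact Or.inr ⟨d₂, b₂, hd₂, hb, h₂⟩

include hker o1 in
/-- **Regularity of a component at a point, from an overring of a Prüfer domain with locally
principal primes.** -/
theorem exists_local_generator_of_overring (hφ : Function.Injective φ)
    (hpr : ∀ a b : A, b ≠ 0 → ∃ e f g h : A, e + f = 1 ∧ f * a = h * b ∧ e * b = g * a)
    (hgen : ∀ p : Ideal A, p.IsPrime →
      ∃ θ ∈ p, ∀ a ∈ p, ∃ t : A, t ∉ p ∧ t * a ∈ Ideal.span {θ})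
    (o2 : ∀ b : B, ∃ a₁ a₂ : A, a₂ ≠ 0 ∧ r b * φ a₂ = φ a₁) :
    ∃ θ ∈ M, ∀ y ∈ M, ∃ c, c ∉ M ∧ c * y ∈ RingHom.ker r ⊔ Ideal.span {θ} := by
  set p := contraction r M φ o1 with hp
  have hpprime : p.IsPrime := contraction_isPrime r M hker φ o1
  obtain ⟨θA, hθA, hθgen⟩ := hgen p hpprime
  obtain ⟨dθ, bθ, hdθ, hθ⟩ := o1 θA
  have hbθ : bθ ∈ M := mem_contraction_of_rep r M hker φ o1 hθA hθ
  refine ⟨bθ, hbθ, fun y hy => ?_⟩
  obtain ⟨a₁, a₂, ha₂, hy12⟩ := o2 y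
  obtain ⟨e, f, g, h, hef, hfa, heb⟩ := hpr a₁ a₂ ha₂
  have hφa₂ : φ a₂ ≠ 0 := fun h0 => ha₂ (hφ (by rw [h0, map_zero]))
  -- `φ f * r y = φ h` and `φ e = φ g * r y`
  have h1 : φ f * r y = φ h := by
    apply mul_right_cancel₀ hφa₂
    rw [mul_assoc, hy12, ← map_mul, hfa, map_mul]
  have h2 : φ e = φ g * r y := by
    apply mul_right_cancel₀ hφa₂
    rw [mul_assoc, hy12, ← map_mul, ← map_mul, heb]
  -- `e ∈ p`
  have he : e ∈ p := by
    obtain ⟨de, be, hde, hbe⟩ := o1 e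
    obtain ⟨dg, bg, hdg, hbg⟩ := o1 g
    have hk : be * dg - de * bg * y ∈ RingHom.ker r := by
      rw [RingHom.mem_ker, map_sub, map_mul, map_mul, map_mul, hbe, hbg, h2]
      ring
    have h3 : be * dg ∈ M := by
      have e' : be * dg = (be * dg - de * bg * y) + de * bg * y := by ring
      rw [e']
      exact M.add_mem (hker hk) (M.mul_mem_left _ hy)
    exact ⟨de, be, hde, (hM.mem_or_mem h3).resolve_right hdg, hbe⟩
  -- `f ∉ p`
  have hf : f ∉ p := by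
    intro hf
    apply one_notMem_contraction r M hker φ o1
    rw [← hef]
    exact p.add_mem he hf
  obtain ⟨df, bf, hdf, hbf⟩ := o1 f
  have hbfM : bf ∉ M := fun hb => hf ⟨df, bf, hdf, hb, hbf⟩
  -- `h ∈ p`
  have hh : h ∈ p := by
    obtain ⟨dh, bh, hdh, hbh⟩ := o1 h
    have hk : bh * df - dh * bf * y ∈ RingHom.ker r := by
      rw [RingHom.mem_ker, map_sub, map_mul, map_mul, map_mul, hbh, hbf, ← h1]
      ring
    have h3 : bh * df ∈ M := by
      have e' : bh * df = (bh * df - dh * bf * y) + dh * bf * y := by ring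
      rw [e']
      exact M.add_mem (hker hk) (M.mul_mem_left _ hy)
    exact ⟨dh, bh, hdh, (hM.mem_or_mem h3).resolve_right hdf, hbh⟩
  obtain ⟨t, ht, hth⟩ := hθgen h hh
  obtain ⟨a₃, ha₃⟩ := Ideal.mem_span_singleton'.mp hth
  obtain ⟨dt, bt, hdt, hbt⟩ := o1 t
  have hbtM : bt ∉ M := fun hb => ht ⟨dt, bt, hdt, hb, hbt⟩
  obtain ⟨d₃, b₃, hd₃, hb₃⟩ := o1 a₃
  refine ⟨bt * bf * dθ * d₃, ?_, ?_⟩
  · intro hmem
    rcases hM.mem_or_mem hmem with h' | h'
    · rcases hM.mem_or_mem h' with h'' | h''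
      · rcases hM.mem_or_mem h'' with h''' | h'''
        · exact hbtM h'''
        · exact hbfM h'''
      · exact hdθ h''
    · exact hd₃ h'
  · have hk : bt * bf * dθ * d₃ * y - dt * df * b₃ * bθ ∈ RingHom.ker r := by
      have h4 : φ t * φ h = φ a₃ * φ θA := by rw [← map_mul, ← map_mul, ha₃]
      rw [RingHom.mem_ker, map_sub]
      simp only [map_mul]
      rw [hbt, hbf, hb₃, hθ]
      have : r dt * φ t * (r df * φ f) * r dθ * r d₃ * r y -
          r dt * r df * (r d₃ * φ a₃) * (r dθ * φ θA) =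
          r dt * r df * r dθ * r d₃ * (φ t * (φ f * r y) - φ a₃ * φ θA) := by ring
      rw [this, h1, h4, sub_self, mul_zero]
    have e' : bt * bf * dθ * d₃ * y =
        (bt * bf * dθ * d₃ * y - dt * df * b₃ * bθ) + dt * df * b₃ * bθ := by ring
    rw [e']
    exact Ideal.add_mem _ (Ideal.mem_sup_left hk)
      (Ideal.mem_sup_right (Ideal.mem_span_singleton'.mpr ⟨dt * df * b₃, rfl⟩))

end Overring

end Fermat.Agent.S34.CuspSep
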