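import Mathlib
import Fermat.Agent.S30.Model.CechP1

/-!
# S34 / PROGRAM U, brick SSe: the degree-one component lemma (helper213)

Level-free.  `O` a noetherian base ring with an element `π`, `L'` a field over `O`, `u : L'`
nonzero; the charts are the integral closures of `O[u]`, `O[u⁻¹]`, `O[u, u⁻¹]` in `L'`
(vocabulary of `S30/Model/CechP1.lean`).

* `idempotent_global` (abstract Čech): a compatible pair of idempotents of the special fibre is
  congruent modulo `π` to a GLOBAL SECTION.  (First half of `CechConn.idempotent_trivial`; no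
  hypothesis on `H⁰`, `π` need not be prime.)
* `exists_const` (two charts in a field): the global section is an element of `L'` integral
  over `O` — a *constant*.
* `exists_eq_const_mul_pow` (**SSe**): `L' = L(t)`, `t ^ m = k ∈ L`, `μ_m ⊆ O`.  If the special
  fibre of the `L'`-model has an idempotent `(e0, e1)` and there is a proper ideal `P ∋ π` of the
  affine chart ring with `e0 ≡ 1 mod P` and `σ e0 ∈ P` for every `σ ∈ Gal(L'/L)`, `σ ≠ 1`
  ("the open-closed piece `Y` contains `P` but none of its other Galois conjugates"), then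
  `k = c * s ^ m` with `c` algebraic over `O` (so `c ∈ E` if `E` is algebraically closed in `L`)
  and `s ∈ L`.  No hypothesis "`E` algebraically closed in `L'`": new constants are allowed.
-/

set_option autoImplicit false

open Polynomial

namespace Fermat.Agent.S34.DegreeOne

open Fermat.Agent.S30.Model

section Cech

variable {O C0 C1 C01 : Type*} [CommRing O] [CommRing C0] [CommRing C1] [CommRing C01]
  [Algebra O C0] [Algebra O C1] [Algebra O C01]

/-- **Idempotents of the special fibre come from global sections.**  Two-chart Čech datum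
`C0 → C01 ← C1` over `O`, any `π : O`, bounded `π`-torsion of the Čech `H¹` (`H1`).  Every
compatible pair `(e0, e1)` of idempotents modulo `π` is congruent modulo `π` to a pair
`(a0, a1)` with `r0 a0 = r1 a1`. -/
theorem idempotent_global (r0 : C0 →ₐ[O] C01) (r1 : C1 →ₐ[O] C01) (π : O)
    (H1 : ∃ c : ℕ, ∀ (n : ℕ) (w : C01),
        (∃ a b, algebraMap O C01 π ^ n * w = r0 a - r1 b) →
        ∃ a b, algebraMap O C01 π ^ c * w = r0 a - r1 b)
    (e0 : C0) (e1 : C1) (h0 : algebraMap O C0 π ∣ e0 ^ 2 - e0)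
    (h1 : algebraMap O C1 π ∣ e1 ^ 2 - e1)
    (h01 : algebraMap O C01 π ∣ r0 e0 - r1 e1) :
    ∃ (a0 : C0) (a1 : C1), r0 a0 = r1 a1 ∧ algebraMap O C0 π ∣ a0 - e0 ∧
      algebraMap O C1 π ∣ a1 - e1 := by
  obtain ⟨c, hc⟩ := H1
  have hr0 : r0 (algebraMap O C0 π) = algebraMap O C01 π := r0.commutes π
  have hr1 : r1 (algebraMap O C1 π) = algebraMap O C01 π := r1.commutes π
  obtain ⟨a, ha, haa⟩ := CechConn.exists_lift (algebraMap O C0 π) e0 h0 c
  obtain ⟨b, hb, hbb⟩ := CechConn.exists_lift (algebraMap O C1 π) e1 h1 c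
  have hx : algebraMap O C01 π ^ (c + 1) ∣ (r0 a) ^ 2 - r0 a := by
    have := map_dvd r0 ha
    simpa only [map_pow, map_sub, hr0] using this
  have hy : algebraMap O C01 π ^ (c + 1) ∣ (r1 b) ^ 2 - r1 b := by
    have := map_dvd r1 hb
    simpa only [map_pow, map_sub, hr1] using this
  have hxy : algebraMap O C01 π ∣ r0 a - r1 b := by
    have e : r0 a - r1 b = r0 (a - e0) - r1 (b - e1) + (r0 e0 - r1 e1) := by
      simp only [map_sub]; ring
    rw [e]
    have h1' : algebraMap O C01 π ∣ r0 (a - e0) := hr0 ▸ map_dvd r0 haa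
    have h2' : algebraMap O C01 π ∣ r1 (b - e1) := hr1 ▸ map_dvd r1 hbb
    exact dvd_add (dvd_sub h1' h2') h01
  obtain ⟨w, hw⟩ :=
    CechConn.dvd_sub_of_idem (algebraMap O C01 π) (r0 a) (r1 b) (c + 1) hx hy hxy
  obtain ⟨a', b', hab⟩ := hc (c + 1) w ⟨a, b, hw.symm⟩
  have hglob : r0 (a - algebraMap O C0 π * a') = r1 (b - algebraMap O C1 π * b') := by
    simp only [map_sub, map_mul, hr0, hr1]
    have e : r0 a - r1 b = algebraMap O C01 π * (r0 a' - r1 b') := by
      rw [hw, ← hab]; ring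
    linear_combination e
  refine ⟨a - algebraMap O C0 π * a', b - algebraMap O C1 π * b', hglob, ?_, ?_⟩
  · have e : a - algebraMap O C0 π * a' - e0 = (a - e0) - algebraMap O C0 π * a' := by ring
    rw [e]
    exact dvd_sub haa (dvd_mul_right _ _)
  · have e : b - algebraMap O C1 π * b' - e1 = (b - e1) - algebraMap O C1 π * b' := by ring
    rw [e]
    exact dvd_sub hbb (dvd_mul_right _ _)

end Cech

section Charts

variable {O L : Type*} [CommRing O] [Field L] [Algebra O L]

/-- Subalgebra form of `idempotent_global`: three `O`-subalgebras `C0, C1 ≤ C01` of a field `L`,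
with `u ∈ C0`, `u⁻¹ ∈ C1`. -/
theorem global_subalgebra [IsNoetherianRing O] (C0 C1 C01 : Subalgebra O L)
    (h0le : C0 ≤ C01) (h1le : C1 ≤ C01) (π : O)
    (u : L) (hu : u ≠ 0) (hu0 : u ∈ C0) (hu1 : u⁻¹ ∈ C1)
    (hfin : ∃ s : Finset L, (∀ β ∈ s, β ∈ C0) ∧
      ∀ x : L, x ∈ C0 → ∃ f : L → O[X], x = ∑ β ∈ s, aeval u (f β) * β)
    (hloc1 : ∀ w : L, w ∈ C01 → ∃ n : ℕ, u⁻¹ ^ n * w ∈ C1)
    (hloc0 : ∀ w : L, w ∈ C01 → ∃ n : ℕ, u ^ n * w ∈ C0)
    (e0 e1 : L) (he0 : e0 ∈ C0) (he1 : e1 ∈ C1)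
    (h0 : ∃ w, w ∈ C0 ∧ e0 ^ 2 - e0 = algebraMap O L π * w)
    (h1 : ∃ w, w ∈ C1 ∧ e1 ^ 2 - e1 = algebraMap O L π * w)
    (h01 : ∃ w, w ∈ C01 ∧ e0 - e1 = algebraMap O L π * w) :
    ∃ a : L, a ∈ C0 ∧ a ∈ C1 ∧ (∃ w, w ∈ C0 ∧ a - e0 = algebraMap O L π * w) ∧
      (∃ w, w ∈ C1 ∧ a - e1 = algebraMap O L π * w) := by
  classical
  have huv : Subalgebra.inclusion h0le (⟨u, hu0⟩ : C0) *
      Subalgebra.inclusion h1le (⟨u⁻¹, hu1⟩ : C1) = 1 := by
    apply Subtype.ext
    rw [Subalgebra.coe_mul, Subalgebra.coe_inclusion, Subalgebra.coe_inclusion,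
      Subalgebra.coe_one]
    exact mul_inv_cancel₀ hu
  obtain ⟨s', hs'int, hs'span⟩ := hfin
  have hs : ∀ a : C0, ∃ f : C0 → O[X],
      a = ∑ β ∈ s'.attach.image (fun β => (⟨β.1, hs'int β.1 β.2⟩ : C0)),
        aeval (⟨u, hu0⟩ : C0) (f β) * β := by
    intro a
    obtain ⟨f, hf⟩ := hs'span (a : L) a.2
    refine ⟨fun c => f (c : L), Subtype.ext ?_⟩
    rw [hf, ← Subalgebra.coe_val, map_sum, Finset.sum_image]
    · rw [← Finset.sum_attach s' fun β => aeval u (f β) * β]
      refine Finset.sum_congr rfl fun β _ => ?_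
      simp only [map_mul, Subalgebra.coe_val, aeval_subalgebra_coe]
    · intro x _ y _ hxy
      have h := congrArg (Subalgebra.val C0) hxy
      exact Subtype.ext (by simpa using h)
  have h1' : ∀ w : C01, ∃ (n : ℕ) (b : C1),
      w * Subalgebra.inclusion h1le (⟨u⁻¹, hu1⟩ : C1) ^ n = Subalgebra.inclusion h1le b := by
    intro w
    obtain ⟨n, hn⟩ := hloc1 (w : L) w.2
    refine ⟨n, ⟨u⁻¹ ^ n * w, hn⟩, Subtype.ext ?_⟩
    rw [Subalgebra.coe_mul, Subalgebra.coe_pow, Subalgebra.coe_inclusion,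
      Subalgebra.coe_inclusion]
    exact mul_comm _ _
  have h0' : ∀ w : C01, ∃ (n : ℕ) (a : C0),
      w * Subalgebra.inclusion h0le (⟨u, hu0⟩ : C0) ^ n = Subalgebra.inclusion h0le a := by
    intro w
    obtain ⟨n, hn⟩ := hloc0 (w : L) w.2
    refine ⟨n, ⟨u ^ n * w, hn⟩, Subtype.ext ?_⟩
    rw [Subalgebra.coe_mul, Subalgebra.coe_pow, Subalgebra.coe_inclusion,
      Subalgebra.coe_inclusion]
    exact mul_comm _ _
  have hE0 : algebraMap O C0 π ∣ (⟨e0, he0⟩ : C0) ^ 2 - ⟨e0, he0⟩ := by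
    obtain ⟨w, hw, hweq⟩ := h0
    refine ⟨⟨w, hw⟩, Subtype.ext ?_⟩
    rw [Subalgebra.coe_sub, Subalgebra.coe_pow, Subalgebra.coe_mul, Subalgebra.coe_algebraMap]
    exact hweq
  have hE1 : algebraMap O C1 π ∣ (⟨e1, he1⟩ : C1) ^ 2 - ⟨e1, he1⟩ := by
    obtain ⟨w, hw, hweq⟩ := h1
    refine ⟨⟨w, hw⟩, Subtype.ext ?_⟩
    rw [Subalgebra.coe_sub, Subalgebra.coe_pow, Subalgebra.coe_mul, Subalgebra.coe_algebraMap]
    exact hweq
  have hE01 : algebraMap O C01 π ∣ Subalgebra.inclusion h0le (⟨e0, he0⟩ : C0) -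
      Subalgebra.inclusion h1le (⟨e1, he1⟩ : C1) := by
    obtain ⟨w, hw, hweq⟩ := h01
    refine ⟨⟨w, hw⟩, Subtype.ext ?_⟩
    rw [Subalgebra.coe_sub, Subalgebra.coe_inclusion, Subalgebra.coe_inclusion,
      Subalgebra.coe_mul, Subalgebra.coe_algebraMap]
    exact hweq
  obtain ⟨a0, a1, ha01, ⟨w0, hw0⟩, ⟨w1, hw1⟩⟩ :=
    idempotent_global (Subalgebra.inclusion h0le) (Subalgebra.inclusion h1le) π
      (CechConn.bounded_torsion _ _ π
        (CechConn.finite_H1 _ _ ⟨u, hu0⟩ ⟨u⁻¹, hu1⟩ huv _ hs h1' h0'))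
      ⟨e0, he0⟩ ⟨e1, he1⟩ hE0 hE1 hE01
  have hval : (a0 : L) = (a1 : L) := by
    have h := congrArg (Subalgebra.val C01) ha01
    simpa using h
  refine ⟨(a0 : L), a0.2, hval ▸ a1.2, ⟨(w0 : L), w0.2, ?_⟩, ⟨(w1 : L), w1.2, ?_⟩⟩
  · have h := congrArg (Subalgebra.val C0) hw0
    simpa using h
  · rw [hval]
    have h := congrArg (Subalgebra.val C1) hw1
    simpa using h

/-- **The idempotents of the special fibre are constants.**  Two charts of the normalisation
of `P¹_O` in the field `L`: a compatible pair `(e0, e1)` of idempotents modulo `π` is congruent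
modulo `π`, on both charts, to one element `a` of `L` integral over `O`. -/
theorem exists_const [IsNoetherianRing O] (π : O) (u : L) (hu : u ≠ 0)
    (hfin : ∃ s : Finset L, (∀ β ∈ s, IsIntegral (Algebra.adjoin O {u}) β) ∧
      ∀ x : L, IsIntegral (Algebra.adjoin O {u}) x →
        ∃ f : L → O[X], x = ∑ β ∈ s, aeval u (f β) * β)
    (e0 e1 : L)
    (he0 : IsIntegral (Algebra.adjoin O {u}) e0) (he1 : IsIntegral (Algebra.adjoin O {u⁻¹}) e1)
    (h0 : ∃ w, IsIntegral (Algebra.adjoin O {u}) w ∧ e0 ^ 2 - e0 = algebraMap O L π * w)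
    (h1 : ∃ w, IsIntegral (Algebra.adjoin O {u⁻¹}) w ∧ e1 ^ 2 - e1 = algebraMap O L π * w)
    (h01 : ∃ w, IsIntegral (Algebra.adjoin O {u, u⁻¹}) w ∧ e0 - e1 = algebraMap O L π * w) :
    ∃ a : L, IsIntegral O a ∧
      (∃ w, IsIntegral (Algebra.adjoin O {u}) w ∧ a - e0 = algebraMap O L π * w) ∧
      (∃ w, IsIntegral (Algebra.adjoin O {u⁻¹}) w ∧ a - e1 = algebraMap O L π * w) := by
  have hloc1 : ∀ w : L, w ∈ CechP1.chart O ({u, u⁻¹} : Set L) →
      ∃ n : ℕ, u⁻¹ ^ n * w ∈ CechP1.chart O ({u⁻¹} : Set L) := by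
    intro w hw
    have hw' : IsIntegral (Algebra.adjoin O {u⁻¹, u⁻¹⁻¹}) w := by
      rw [inv_inv, Set.pair_comm]; exact hw
    exact CechP1.exists_pow_mul_isIntegral u⁻¹ (inv_ne_zero hu) w hw'
  obtain ⟨a, ha0, ha1, hw0, hw1⟩ :=
    global_subalgebra (CechP1.chart O ({u} : Set L)) (CechP1.chart O ({u⁻¹} : Set L))
      (CechP1.chart O ({u, u⁻¹} : Set L)) (CechP1.chart_mono (by simp))
      (CechP1.chart_mono (by simp)) π u hu
      (CechP1.isIntegral_adjoin_of_mem (Algebra.subset_adjoin (Set.mem_singleton u)))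
      (CechP1.isIntegral_adjoin_of_mem (Algebra.subset_adjoin (Set.mem_singleton u⁻¹)))
      hfin hloc1 (fun w hw => CechP1.exists_pow_mul_isIntegral u hu w hw) e0 e1 he0 he1 h0 h1 h01
  exact ⟨a, CechP1.isIntegral_of_two_charts u hu a ha0 ha1, hw0, hw1⟩

end Charts

section Kummer

variable {O L L' : Type*} [CommRing O] [IsNoetherianRing O]
  [Field L] [Field L'] [Algebra O L] [Algebra L L'] [Algebra O L'] [IsScalarTower O L L']
  [FiniteDimensional L L']

/-- `L(t) / L` with `t ^ m = k`, `μ_m ⊆ L`, is Galois. -/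
theorem isGalois_of_adjoin_eq_top {m : ℕ} (hm : 0 < m) {ζ : L} (hζ : IsPrimitiveRoot ζ m)
    {k : L} (hk : k ≠ 0) {t : L'} (ht : t ^ m = algebraMap L L' k)
    (hgen : Algebra.adjoin L {t} = ⊤) : IsGalois L L' := by
  have : NeZero m := ⟨hm.ne'⟩
  have : NeZero ((m : ℕ) : L) := hζ.neZero'
  have hsep : (X ^ m - C k : L[X]).Separable :=
    separable_X_pow_sub_C k (NeZero.ne _) hk
  have : (X ^ m - C k : L[X]).IsSplittingField L L' := by
    constructor
    · rw [Polynomial.map_sub, Polynomial.map_pow, Polynomial.map_C, Polynomial.map_X]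
      exact X_pow_sub_C_splits_of_isPrimitiveRoot
        (hζ.map_of_injective (algebraMap L L').injective) ht
    · rw [eq_top_iff, ← hgen]
      apply Algebra.adjoin_mono
      rw [Set.singleton_subset_iff, mem_rootSet_of_ne (X_pow_sub_C_ne_zero hm k),
        aeval_def, eval₂_sub, eval₂_X_pow, eval₂_C, ht, sub_self]
  exact IsGalois.of_separable_splitting_field hsep

/-- **SSe, the degree-one component lemma.**  `L' = L(t)`, `t ^ m = k`, `ζ : O` a primitive
`m`-th root of unity, `u' ∈ L'` nonzero and coming from `L`.  Suppose `(e0, e1)` is an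
idempotent of the special fibre of the normalisation of `P¹_O` in `L'` (charts: integral
closures of `O[u']`, `O[u'⁻¹]`), and `P` is a proper ideal of the affine chart ring containing
`π`, `e0 - 1`, and `σ e0` for every `σ ∈ Gal(L'/L)`, `σ ≠ 1`.  Then `k = c * s ^ m` with
`c : L` integral over `O` and `s : L`. -/
theorem exists_eq_const_mul_pow (π : O) (u' : L') (hu' : u' ≠ 0)
    (hu'L : u' ∈ Set.range (algebraMap L L'))
    (m : ℕ) (hm : 0 < m) (ζ : O) (hζ : IsPrimitiveRoot (algebraMap O L ζ) m)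
    (k : L) (hk : k ≠ 0) (t : L') (ht : t ^ m = algebraMap L L' k)
    (hgen : Algebra.adjoin L {t} = ⊤)
    (hfin : ∃ s : Finset L', (∀ β ∈ s, IsIntegral (Algebra.adjoin O {u'}) β) ∧
      ∀ x : L', IsIntegral (Algebra.adjoin O {u'}) x →
        ∃ f : L' → O[X], x = ∑ β ∈ s, aeval u' (f β) * β)
    (e0 e1 : L')
    (he0 : IsIntegral (Algebra.adjoin O {u'}) e0)
    (he1 : IsIntegral (Algebra.adjoin O {u'⁻¹}) e1)
    (h0 : ∃ w, IsIntegral (Algebra.adjoin O {u'}) w ∧ e0 ^ 2 - e0 = algebraMap O L' π * w)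
    (h1 : ∃ w, IsIntegral (Algebra.adjoin O {u'⁻¹}) w ∧ e1 ^ 2 - e1 = algebraMap O L' π * w)
    (h01 : ∃ w, IsIntegral (Algebra.adjoin O {u', u'⁻¹}) w ∧ e0 - e1 = algebraMap O L' π * w)
    (P : Ideal (integralClosure (Algebra.adjoin O {u'}) L')) (hP : P ≠ ⊤)
    (hπP : ∀ x : integralClosure (Algebra.adjoin O {u'}) L',
      (x : L') = algebraMap O L' π → x ∈ P)
    (h1P : ∀ x : integralClosure (Algebra.adjoin O {u'}) L', (x : L') = e0 - 1 → x ∈ P)
    (hσP : ∀ σ : L' ≃ₐ[L] L', σ ≠ 1 →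
      ∀ x : integralClosure (Algebra.adjoin O {u'}) L', (x : L') = σ e0 → x ∈ P) :
    ∃ c s : L, IsIntegral O c ∧ s ≠ 0 ∧ k = c * s ^ m := by
  classical
  have : NeZero m := ⟨hm.ne'⟩
  -- the constant
  obtain ⟨a, haO, ⟨w0, hw0int, hw0⟩, -⟩ := exists_const π u' hu' hfin e0 e1 he0 he1 h0 h1 h01
  -- Galois theory of the Kummer extension
  have hGal : IsGalois L L' := isGalois_of_adjoin_eq_top hm hζ hk ht hgen
  have hinj : Function.Injective (algebraMap L L') := (algebraMap L L').injective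
  have hζ' : IsPrimitiveRoot (algebraMap L L' (algebraMap O L ζ)) m := hζ.map_of_injective hinj
  have hk' : algebraMap L L' k ≠ 0 := (_root_.map_ne_zero (algebraMap L L')).mpr hk
  have ht0 : t ≠ 0 := by
    rintro rfl
    rw [zero_pow hm.ne'] at ht
    exact hk' ht.symm
  -- the character `σ ↦ σ t / t`
  have hz : ∀ σ : L' ≃ₐ[L] L', ∃ j : ℕ, σ t = algebraMap L L' (algebraMap O L ζ ^ j) * t := by
    intro σ
    have h1 : (σ t / t) ^ m = 1 := by
      rw [div_pow, ← map_pow, ht, AlgEquiv.commutes, div_self hk']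
    obtain ⟨j, -, hj⟩ := hζ'.eq_pow_of_pow_eq_one h1
    refine ⟨j, ?_⟩
    rw [map_pow, hj, div_mul_cancel₀ _ ht0]
  choose j hj using hz
  -- `zL σ = (σ t / t)⁻¹`, coming from `O`
  let zO : (L' ≃ₐ[L] L') → O := fun σ => ζ ^ (j σ * (m - 1))
  let zL : (L' ≃ₐ[L] L') → L := fun σ => algebraMap O L (zO σ)
  have hzL : ∀ σ : L' ≃ₐ[L] L', algebraMap L L' (zL σ) * σ t = t := by
    intro σ
    rw [hj σ, ← mul_assoc, ← map_mul]
    have : zL σ * algebraMap O L ζ ^ j σ = 1 := by
      show algebraMap O L (ζ ^ (j σ * (m - 1))) * algebraMap O L ζ ^ j σ = 1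
      rw [map_pow, ← pow_add, show j σ * (m - 1) + j σ = m * j σ by
        obtain ⟨n, rfl⟩ : ∃ n, m = n + 1 := ⟨m - 1, by omega⟩
        simp only [Nat.add_sub_cancel]; ring, pow_mul, hζ.pow_eq_one, one_pow]
    rw [this, map_one, one_mul]
  -- the Lagrange resolvent of the constant
  let e : L' := ∑ σ : L' ≃ₐ[L] L', algebraMap L L' (zL σ) * σ a
  -- (i) eigen-property: `τ e * t = τ t * e`
  have heig : ∀ τ : L' ≃ₐ[L] L', τ e * t = τ t * e := by
    intro τ
    have h1 : τ e = ∑ σ : L' ≃ₐ[L] L', algebraMap L L' (zL σ) * (τ * σ) a := by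
      show τ (∑ σ : L' ≃ₐ[L] L', algebraMap L L' (zL σ) * σ a) = _
      rw [map_sum]
      refine Finset.sum_congr rfl fun σ _ => ?_
      rw [map_mul, AlgEquiv.commutes, AlgEquiv.mul_apply]
    have h2 : τ t * e = ∑ σ : L' ≃ₐ[L] L', τ t * (algebraMap L L' (zL (τ * σ)) * (τ * σ) a) := by
      show τ t * ∑ σ : L' ≃ₐ[L] L', algebraMap L L' (zL σ) * σ a = _
      rw [Finset.mul_sum]
      exact (Fintype.sum_equiv (Equiv.mulLeft τ) _ _ (fun σ => rfl)).symm
    rw [h1, h2, Finset.sum_mul]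
    refine Finset.sum_congr rfl fun σ _ => ?_
    have key : algebraMap L L' (zL σ) * t = τ t * algebraMap L L' (zL (τ * σ)) := by
      have hne : (τ * σ) t ≠ 0 := (_root_.map_ne_zero _).mpr ht0
      apply mul_right_cancel₀ hne
      have e1 : τ t * algebraMap L L' (zL (τ * σ)) * (τ * σ) t = τ t * t := by
        rw [mul_assoc, hzL]
      have e2 : algebraMap L L' (zL σ) * t * (τ * σ) t = τ t * t := by
        have : (τ * σ) t = τ (σ t) := AlgEquiv.mul_apply τ σ t
        rw [this]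
        have h3 : τ (algebraMap L L' (zL σ) * σ t) = τ t := by rw [hzL]
        rw [map_mul, AlgEquiv.commutes] at h3
        calc algebraMap L L' (zL σ) * t * τ (σ t)
            = (algebraMap L L' (zL σ) * τ (σ t)) * t := by ring
          _ = τ t * t := by rw [h3]
      rw [e1, e2]
    calc algebraMap L L' (zL σ) * (τ * σ) a * t
        = (algebraMap L L' (zL σ) * t) * (τ * σ) a := by ring
      _ = τ t * algebraMap L L' (zL (τ * σ)) * (τ * σ) a := by rw [key]
      _ = τ t * (algebraMap L L' (zL (τ * σ)) * (τ * σ) a) := by ring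
  -- (ii) integrality of `e` over `O`
  have hσint : ∀ (σ : L' ≃ₐ[L] L') {x : L'}, IsIntegral O x → IsIntegral O (σ x) := by
    intro σ x hx
    exact IsIntegral.map_of_comp_eq (RingHom.id O) (σ : L' →+* L')
      (by
        ext r
        simp only [RingHom.comp_id, RingHom.coe_comp, Function.comp_apply, RingHom.coe_coe]
        rw [IsScalarTower.algebraMap_apply O L L', AlgEquiv.commutes]) hx
  have hzint : ∀ σ : L' ≃ₐ[L] L', IsIntegral O (algebraMap L L' (zL σ)) := by
    intro σ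
    show IsIntegral O (algebraMap L L' (algebraMap O L (zO σ)))
    rw [← IsScalarTower.algebraMap_apply O L L']
    exact isIntegral_algebraMap
  have heint : IsIntegral O e :=
    IsIntegral.sum _ fun σ _ => (hzint σ).mul (hσint σ haO)
  -- (iii) `e ≠ 0`
  have hOA : ∀ {x : L'}, IsIntegral O x → IsIntegral (Algebra.adjoin O {u'}) x :=
    fun hx => hx.tower_top
  have hσA : ∀ (σ : L' ≃ₐ[L] L') {x : L'}, IsIntegral (Algebra.adjoin O {u'}) x →
      IsIntegral (Algebra.adjoin O {u'}) (σ x) := by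
    intro σ x hx
    refine IsIntegral.map_of_comp_eq (RingHom.id (Algebra.adjoin O {u'})) (σ : L' →+* L') ?_ hx
    ext r
    simp only [RingHom.comp_id, RingHom.coe_comp, Function.comp_apply, RingHom.coe_coe]
    have hr : (r : L') ∈ (IsScalarTower.toAlgHom O L L').range := by
      have hle : Algebra.adjoin O {u'} ≤ (IsScalarTower.toAlgHom O L L').range := by
        apply Algebra.adjoin_le
        rintro x (rfl : x = u')
        obtain ⟨y, hy⟩ := hu'L
        exact ⟨y, hy⟩
      exact hle r.2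
    obtain ⟨y, hy⟩ := hr
    have hy' : algebraMap L L' y = (r : L') := hy
    show algebraMap (Algebra.adjoin O {u'}) L' r = σ (algebraMap (Algebra.adjoin O {u'}) L' r)
    have : algebraMap (Algebra.adjoin O {u'}) L' r = algebraMap L L' y := hy'.symm
    rw [this, AlgEquiv.commutes]
  have hπint : IsIntegral (Algebra.adjoin O {u'}) (algebraMap O L' π) :=
    hOA isIntegral_algebraMap
  have he_ne : e ≠ 0 := by
    intro he
    apply hP
    -- the image of `P` in `L'`, a module over the chart ring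
    let P' : Submodule (integralClosure (Algebra.adjoin O {u'}) L') L' :=
      Submodule.map (Algebra.linearMap (integralClosure (Algebra.adjoin O {u'}) L') L') P
    have hmemP' : ∀ (x : L') (hx : IsIntegral (Algebra.adjoin O {u'}) x),
        (⟨x, hx⟩ : integralClosure (Algebra.adjoin O {u'}) L') ∈ P → x ∈ P' := by
      intro x hx hxP
      exact ⟨⟨x, hx⟩, hxP, rfl⟩
    have hmul : ∀ (x y : L'), IsIntegral (Algebra.adjoin O {u'}) x → y ∈ P' → x * y ∈ P' := by
      intro x y hx hy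
      have := P'.smul_mem (⟨x, hx⟩ : integralClosure (Algebra.adjoin O {u'}) L') hy
      simpa [Algebra.smul_def] using this
    have hπ' : ∀ w : L', IsIntegral (Algebra.adjoin O {u'}) w →
        algebraMap O L' π * w ∈ P' := by
      intro w hw
      have h1 : algebraMap O L' π ∈ P' := hmemP' _ hπint (hπP _ rfl)
      have := hmul w _ hw h1
      rwa [mul_comm] at this
    have hterm : ∀ σ : L' ≃ₐ[L] L', σ ≠ 1 → algebraMap L L' (zL σ) * σ a ∈ P' := by
      intro σ hσ
      have hσa : σ a = σ e0 + algebraMap O L' π * σ w0 := by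
        have h := congrArg σ hw0
        rw [map_sub, map_mul] at h
        have hπσ : σ (algebraMap O L' π) = algebraMap O L' π := by
          rw [IsScalarTower.algebraMap_apply O L L', AlgEquiv.commutes]
        rw [hπσ] at h
        linear_combination h
      rw [hσa]
      apply hmul _ _ (hOA (hzint σ))
      exact P'.add_mem (hmemP' _ (hσA σ he0) (hσP σ hσ _ rfl)) (hπ' _ (hσA σ hw0int))
    have hone : algebraMap L L' (zL 1) * (1 : L' ≃ₐ[L] L') a = a := by
      have h := hzL 1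
      rw [AlgEquiv.one_apply] at h
      rw [AlgEquiv.one_apply]
      have h2 : algebraMap L L' (zL 1) = 1 :=
        mul_right_cancel₀ ht0 (h.trans (one_mul t).symm)
      rw [h2, one_mul]
    have hsum : e - a ∈ P' := by
      have : e - a = ∑ σ ∈ (Finset.univ : Finset (L' ≃ₐ[L] L')).erase 1,
          algebraMap L L' (zL σ) * σ a := by
        show (∑ σ : L' ≃ₐ[L] L', algebraMap L L' (zL σ) * σ a) - a = _
        rw [← Finset.add_sum_erase _ _ (Finset.mem_univ (1 : L' ≃ₐ[L] L')), hone]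
        ring
      rw [this]
      exact P'.sum_mem fun σ hσ => hterm σ (Finset.ne_of_mem_erase hσ)
    have hneg1 : (-1 : L') ∈ P' := by
      have h1 : e0 - 1 ∈ P' :=
        hmemP' _ (he0.sub isIntegral_one) (h1P _ rfl)
      have h2 : a - e0 ∈ P' := by rw [hw0]; exact hπ' _ hw0int
      have h3 : (e - a) + (a - e0) + (e0 - 1) ∈ P' := P'.add_mem (P'.add_mem hsum h2) h1
      have h4 : (e - a) + (a - e0) + (e0 - 1) = -1 := by rw [he]; ring
      rwa [h4] at h3
    obtain ⟨y, hyP, hy⟩ := hneg1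
    have hy' : y = -1 := Subtype.ext (by simpa using hy)
    rw [Ideal.eq_top_iff_one]
    have : (1 : integralClosure (Algebra.adjoin O {u'}) L') = -y := by rw [hy']; ring
    rw [this]
    exact P.neg_mem hyP
  -- (iv) descent of `t / e` to `L`
  have hfix : ∀ τ : L' ≃ₐ[L] L', τ (t / e) = t / e := by
    intro τ
    have hτe : τ e ≠ 0 := (_root_.map_ne_zero _).mpr he_ne
    rw [map_div₀, div_eq_div_iff hτe he_ne, mul_comm t]
    exact (heig τ).symm
  obtain ⟨s, hs⟩ := (IsGalois.mem_range_algebraMap_iff_fixed (F := L) (E := L') (t / e)).mpr hfix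
  have hs0 : s ≠ 0 := by
    rintro rfl
    rw [map_zero] at hs
    exact div_ne_zero ht0 he_ne hs.symm
  refine ⟨k / s ^ m, s, ?_, hs0, ?_⟩
  · have hem : algebraMap L L' (k / s ^ m) = e ^ m := by
      rw [map_div₀, map_pow, ← ht, hs, div_pow, div_div_eq_mul_div, mul_comm,
        mul_div_assoc, div_self (pow_ne_zero m ht0), mul_one]
    have : IsIntegral O (algebraMap L L' (k / s ^ m)) := hem ▸ heint.pow m
    exact (isIntegral_algebraMap_iff hinj).mp this
  · rw [div_mul_cancel₀ _ (pow_ne_zero m hs0)]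

end Kummer

end Fermat.Agent.S34.DegreeOne
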