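import Fermat.Agent.S34.Toric
import Fermat.Agent.S30.E4.K1Bridge

/-!
# S34, brick U.SSf.Descend: the semistable Kummer lemma (INJ-ss) over `ℚ̄` from number fields

`F = Fb N = ℚ̄(j(q^d) : d ∣ N) ⊆ ℚ̄((q))`, `A` a valuation subring of `ℚ̄` over a prime `ℓ`,
`W` a ring automorphism of `F` (the Atkin–Lehner involution in the application).

* `InjSS N A W m` : the `ℚ̄`-level statement "for `τ` in the inertia group of `A` and `h` toric
  with `m ∣ div h`, `τ h / h` is an `m`-th power in `F`"  (what the producer field `uni` needs).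
* `InjSSE N A W m E` : the same statement over a number field `E ⊆ ℚ̄`, normal over `ℚ`, in the
  `q`-expansion vocabulary of `S18.K1Defs` (`OE A E`, `LE N E`, `GaussDVR.V`, `GaussDVR.red`,
  places of `LE N E` over `E`), with `τ` acting coefficientwise through its restriction to `E`,
  and conclusion up to a constant of `E`.
* `InjSSModular N A W m` : `InjSSE` for every sufficiently large number field (containing a
  fixed finite set `S` of algebraic numbers).
* `injSS_of_modular` : `InjSSModular N A W m → InjSS N A W m`  (descent of the toric data to a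
  number field, as in `S18.K1Top.fun_form_of_inputs`).
* `exists_uni` : with `Toric.exists_toric`, the function-level form of unipotency,
  `τ² f · f = (τ f)² · g ^ m`, for every `f ≠ 0` with `m ∣ div f`.
-/

set_option autoImplicit false
set_option linter.unusedSectionVars false
set_option synthInstance.maxHeartbeats 400000
set_option maxHeartbeats 1000000

noncomputable section

namespace Fermat.Agent.S34.Descend

open ModularCurve AlgebraicCurve HahnSeries IntermediateField
open Fermat.Agent.S18.K1Defs Fermat.Agent.S18.K1Top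
open Fermat.Agent.S30 Fermat.Agent.S30.E4

local notation "Qb" => AlgebraicClosure ℚ
local notation "Gq" => (AlgebraicClosure ℚ ≃ₐ[ℚ] AlgebraicClosure ℚ)

/-! ### The statements -/

/-- **(INJ-ss) over `ℚ̄`**: for `τ` in the inertia group of `A` and a toric `h` with
`m ∣ div h`, the quotient `τ h / h` is an `m`-th power in `Fb N`. -/
def InjSS (N : ℕ) (A : ValuationSubring Qb) (W : Fb N ≃+* Fb N) (m : ℕ) : Prop :=
  ∀ τ : Gq, τ ∈ A.inertiaSubgroupIn ℚ → ∀ h : Fb N, Toric.IsToric N A W h → DivBy N m h →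
    ∃ k : Fb N, gal N τ h = h * k ^ m

/-- **(INJ-ss) over a number field `E`**, normal over `ℚ`, in the vocabulary of `S18.K1Defs`:
`h, h' ∈ LE N E` with `h' = W h` (after extension of constants to `ℚ̄`), both in the Gauss ring
with reduction `1`, and `m ∣ ord_P h` at every place of `LE N E` over `E`; then
`τ h = c · k ^ m · h` with `c ∈ E`, `k ∈ LE N E`, where `τ` acts on the coefficients through its
restriction to `E`. -/
def InjSSE (N : ℕ) [NeZero N] (A : ValuationSubring Qb) (W : Fb N ≃+* Fb N) (m : ℕ)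
    (E : IntermediateField ℚ Qb) [Normal ℚ E] [IsDiscreteValuationRing (OE A E)] : Prop :=
  ∀ τ : Gq, τ ∈ A.inertiaSubgroupIn ℚ →
    ∀ (h h' : LaurentSeries E) (hL : h ∈ LE N E) (hL' : h' ∈ LE N E),
      W ⟨coeffMap (algebraMap E Qb) h, coeffMap_mem_bar N E hL⟩ =
        ⟨coeffMap (algebraMap E Qb) h', coeffMap_mem_bar N E hL'⟩ →
      ∀ (hV : h ∈ GaussDVR.V (OE A E) E) (hV' : h' ∈ GaussDVR.V (OE A E) E),
        GaussDVR.red (OE A E) E ⟨h, hV⟩ = 1 → GaussDVR.red (OE A E) E ⟨h', hV'⟩ = 1 →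
        (∀ P : Place E (LE N E), (m : ℤ) ∣ P.ord (⟨h, hL⟩ : LE N E)) →
        ∃ (c : E) (k : LaurentSeries E), k ∈ LE N E ∧
          coeffMap ((τ.restrictNormal E : E ≃ₐ[ℚ] E) : E →+* E) h = HahnSeries.C c * k ^ m * h

/-- **(INJ-ss) for the modular function field**: `InjSSE` over every number field `E ⊆ ℚ̄`,
normal over `ℚ`, containing a fixed finite set `S` of algebraic numbers. -/
def InjSSModular (N : ℕ) [NeZero N] (A : ValuationSubring Qb) (W : Fb N ≃+* Fb N) (m : ℕ) :
    Prop :=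
  ∃ S : Finset Qb, ∀ (E : IntermediateField ℚ Qb) [FiniteDimensional ℚ E] [Normal ℚ E]
    [IsDiscreteValuationRing (OE A E)], (∀ s ∈ S, s ∈ E) → InjSSE N A W m E

/-! ### Descent of one Gauss datum -/

/-- A quotient `U / V` of integral series over `A` with the same nonzero reduction, whose
numerator and denominator have coefficients in `E`, lies in the Gauss ring of `A ∩ E` and has
reduction `1`. -/
theorem gauss_descent (A : ValuationSubring Qb) (E : IntermediateField ℚ Qb)
    [IsDiscreteValuationRing (OE A E)]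
    (U V : LaurentSeries A) (u v : LaurentSeries E)
    (huU : coeffMap (algebraMap E Qb) u = coeffMap A.subtype U)
    (hvV : coeffMap (algebraMap E Qb) v = coeffMap A.subtype V)
    (hred : coeffMap (IsLocalRing.residue A) U = coeffMap (IsLocalRing.residue A) V)
    (hne : coeffMap (IsLocalRing.residue A) U ≠ 0) :
    v ≠ 0 ∧ ∃ hV : u / v ∈ GaussDVR.V (OE A E) E,
      GaussDVR.red (OE A E) E ⟨u / v, hV⟩ = 1 := by
  obtain ⟨a, hau', haU⟩ := exists_up_eq A E U u huU
  obtain ⟨b, hbv', hbV⟩ := exists_up_eq A E V v hvV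
  have hau : GaussDVR.iota (OE A E) E a = u := hau'
  have hbv : GaussDVR.iota (OE A E) E b = v := hbv'
  have hrho : GaussDVR.rho (OE A E) a = GaussDVR.rho (OE A E) b :=
    (red_up_eq_iff A E a b).mp (by rw [haU, hbV]; exact hred)
  have hrhoa : GaussDVR.rho (OE A E) a ≠ 0 := by
    intro h0
    have h1 := (red_up_eq_zero_iff A E a).mpr h0
    rw [haU] at h1
    exact hne h1
  have hrhob : GaussDVR.rho (OE A E) b ≠ 0 := hrho ▸ hrhoa
  have hv0 : v ≠ 0 := by
    rintro rfl
    have : b = 0 := GaussDVR.iota_injective (OE A E) E (by rw [hbv, map_zero])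
    exact hrhob (by rw [this, map_zero])
  have hgV : u / v ∈ GaussDVR.V (OE A E) E := by
    rw [← hau, ← hbv]
    exact GaussDVR.div_mem (OE A E) E a b hrhob
  refine ⟨hv0, hgV, ?_⟩
  have h1 := GaussDVR.red_div (OE A E) E a b hrhob
  have h2 : (⟨u / v, hgV⟩ : GaussDVR.V (OE A E) E) =
      ⟨GaussDVR.iota (OE A E) E a / GaussDVR.iota (OE A E) E b,
        GaussDVR.div_mem (OE A E) E a b hrhob⟩ := by
    apply Subtype.ext
    show u / v = GaussDVR.iota (OE A E) E a / GaussDVR.iota (OE A E) E b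
    rw [hau, hbv]
  rw [h2, h1, hrho, div_self hrhob]

/-- Coefficientwise Galois action and extension of constants commute. -/
theorem coeffMap_restrictNormal (τ : Gq) (E : IntermediateField ℚ Qb) [Normal ℚ E]
    (y : LaurentSeries E) :
    coeffMap (algebraMap E Qb) (coeffMap ((τ.restrictNormal E : E ≃ₐ[ℚ] E) : E →+* E) y) =
      coeffMap (τ : Qb →+* Qb) (coeffMap (algebraMap E Qb) y) := by
  rw [coeffMap_coeffMap, coeffMap_coeffMap]
  refine coeffMap_congr (RingHom.ext fun x => ?_) y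
  exact AlgEquiv.restrictNormal_commutes τ E x

/-- `ℚ̄` is normal over `ℚ` (for the `ℚ`-algebra structure found by instance search). -/
theorem normal_rat_Qb : Normal ℚ Qb := by
  have h : (DivisionRing.toRatAlgebra : Algebra ℚ (AlgebraicClosure ℚ)) =
      AlgebraicClosure.instAlgebra ℚ := Subsingleton.elim _ _
  rw [h]; infer_instance

/-! ### The descent theorem -/

/-- **Descent.**  The number-field statement `InjSSModular` implies (INJ-ss) over `ℚ̄`. -/
theorem injSS_of_modular (N : ℕ) [NeZero N] {ℓ : ℕ} (hℓ : ℓ.Prime) (A : ValuationSubring Qb)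
    (hA : A.LiesOverPrime ℓ) (W : Fb N ≃+* Fb N) {m : ℕ} (hm : 0 < m)
    (hK : InjSSModular N A W m) : InjSS N A W m := by
  classical
  rintro τ hτ h ⟨⟨U, V, hU, hV, hred, hne, hUV⟩, ⟨U', V', hU', hV', hred', hne', hUV'⟩⟩ hdiv
  obtain ⟨S, hS⟩ := hK
  -- coefficient fields
  obtain ⟨E₁, hE₁, y₁, hy₁, hy₁U⟩ := coefDescent N _ hU
  obtain ⟨E₂, hE₂, y₂, hy₂, hy₂V⟩ := coefDescent N _ hV
  obtain ⟨E₃, hE₃, y₃, hy₃, hy₃U⟩ := coefDescent N _ hU'
  obtain ⟨E₄, hE₄, y₄, hy₄, hy₄V⟩ := coefDescent N _ hV'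
  let E₅ : IntermediateField ℚ Qb := IntermediateField.adjoin ℚ (S : Set Qb)
  have hE₅ : FiniteDimensional ℚ E₅ :=
    IntermediateField.finiteDimensional_adjoin fun x _ =>
      ((AlgebraicClosure.isAlgebraic ℚ).isAlgebraic x).isIntegral
  let E' : IntermediateField ℚ Qb := E₁ ⊔ E₂ ⊔ E₃ ⊔ E₄ ⊔ E₅
  have hE12 : FiniteDimensional ℚ (E₁ ⊔ E₂ : IntermediateField ℚ Qb) :=
    IntermediateField.finiteDimensional_sup E₁ E₂
  have hE123 : FiniteDimensional ℚ (E₁ ⊔ E₂ ⊔ E₃ : IntermediateField ℚ Qb) :=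
    IntermediateField.finiteDimensional_sup (E₁ ⊔ E₂) E₃
  have hE1234 : FiniteDimensional ℚ (E₁ ⊔ E₂ ⊔ E₃ ⊔ E₄ : IntermediateField ℚ Qb) :=
    IntermediateField.finiteDimensional_sup (E₁ ⊔ E₂ ⊔ E₃) E₄
  have hE' : FiniteDimensional ℚ E' :=
    IntermediateField.finiteDimensional_sup (E₁ ⊔ E₂ ⊔ E₃ ⊔ E₄) E₅
  -- the normal closure
  have : Normal ℚ Qb := normal_rat_Qb
  let E : IntermediateField ℚ Qb := IntermediateField.normalClosure ℚ E' Qb
  have hEfin : FiniteDimensional ℚ E := normalClosure.is_finiteDimensional ℚ E' Qb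
  have hEnorm : Normal ℚ E := normalClosure.normal ℚ E' Qb
  have hE'E : E' ≤ E := IntermediateField.le_normalClosure E'
  have h1E : E₁ ≤ E :=
    le_trans (le_trans (le_trans (le_trans le_sup_left le_sup_left) le_sup_left) le_sup_left) hE'E
  have h2E : E₂ ≤ E :=
    le_trans (le_trans (le_trans (le_trans le_sup_right le_sup_left) le_sup_left) le_sup_left)
      hE'E
  have h3E : E₃ ≤ E := le_trans (le_trans (le_trans le_sup_right le_sup_left) le_sup_left) hE'E
  have h4E : E₄ ≤ E := le_trans (le_trans le_sup_right le_sup_left) hE'E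
  have h5E : E₅ ≤ E := le_trans le_sup_right hE'E
  have hSE : ∀ s ∈ S, s ∈ E := fun s hs => h5E (IntermediateField.subset_adjoin ℚ _ hs)
  have hDVRE : IsDiscreteValuationRing (OE A E) := dvrDescent hℓ A hA E
  have hKE := hS E hSE
  -- the series over `E`
  obtain ⟨u, huL, huU⟩ := exists_mem_LE_of_le N h1E hy₁
  obtain ⟨v, hvL, hvV⟩ := exists_mem_LE_of_le N h2E hy₂
  obtain ⟨u', hu'L, hu'U⟩ := exists_mem_LE_of_le N h3E hy₃
  obtain ⟨v', hv'L, hv'V⟩ := exists_mem_LE_of_le N h4E hy₄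
  rw [hy₁U] at huU
  rw [hy₂V] at hvV
  rw [hy₃U] at hu'U
  rw [hy₄V] at hv'V
  obtain ⟨hv0, hgV, hg1⟩ := gauss_descent A E U V u v huU hvV hred hne
  obtain ⟨hv'0, hg'V, hg'1⟩ := gauss_descent A E U' V' u' v' hu'U hv'V hred' hne'
  have hgL : u / v ∈ LE N E := div_mem huL hvL
  have hg'L : u' / v' ∈ LE N E := div_mem hu'L hv'L
  -- `u / v` is `h`, `u' / v'` is `W h`
  have hupv : coeffMap (algebraMap E Qb) v ≠ 0 := by
    intro h0
    exact hv0 (coeffMap_injective_hom (algebraMap E Qb) (by rw [h0, map_zero]))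
  have hupv' : coeffMap (algebraMap E Qb) v' ≠ 0 := by
    intro h0
    exact hv'0 (coeffMap_injective_hom (algebraMap E Qb) (by rw [h0, map_zero]))
  have hgh : coeffMap (algebraMap E Qb) (u / v) = (h : LaurentSeries Qb) := by
    rw [map_div₀, div_eq_iff hupv, huU, hvV]
    exact hUV.symm
  have hg'h : coeffMap (algebraMap E Qb) (u' / v') = ((W h : Fb N) : LaurentSeries Qb) := by
    rw [map_div₀, div_eq_iff hupv', hu'U, hv'V]
    exact hUV'.symm
  have e1 : (⟨coeffMap (algebraMap E Qb) (u / v), coeffMap_mem_bar N E hgL⟩ : Fb N) = h :=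
    Subtype.ext hgh
  have e2 : (⟨coeffMap (algebraMap E Qb) (u' / v'), coeffMap_mem_bar N E hg'L⟩ : Fb N) = W h :=
    Subtype.ext hg'h
  have hW : W ⟨coeffMap (algebraMap E Qb) (u / v), coeffMap_mem_bar N E hgL⟩ =
      ⟨coeffMap (algebraMap E Qb) (u' / v'), coeffMap_mem_bar N E hg'L⟩ := by
    rw [e1, e2]
  -- divisibility at the places over `E`
  have hgdiv : ∀ P : Place E (LE N E), (m : ℤ) ∣ P.ord (⟨u / v, hgL⟩ : LE N E) := by
    intro P
    obtain ⟨P', hP'⟩ := placeDescent N E P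
    rw [← hP' (u / v) hgL, e1]
    exact hdiv P'
  -- apply the number-field statement
  obtain ⟨c, k, hkL, hk⟩ := hKE τ hτ (u / v) (u' / v') hgL hg'L hW hgV hg'V hg1 hg'1 hgdiv
  obtain ⟨d, hd⟩ := IsAlgClosed.exists_pow_nat_eq (algebraMap E Qb c) hm
  refine ⟨algebraMap Qb (Fb N) d * ⟨coeffMap (algebraMap E Qb) k, coeffMap_mem_bar N E hkL⟩, ?_⟩
  apply Subtype.ext
  show coeffMap (τ : Qb →+* Qb) (h : LaurentSeries Qb) =
    (h : LaurentSeries Qb) *
      (algebraMap Qb (LaurentSeries Qb) d * coeffMap (algebraMap E Qb) k) ^ m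
  have hfin : coeffMap (τ : Qb →+* Qb) (h : LaurentSeries Qb) =
      HahnSeries.C (algebraMap E Qb c) * coeffMap (algebraMap E Qb) k ^ m *
        (h : LaurentSeries Qb) := by
    rw [← hgh, ← coeffMap_restrictNormal τ E (u / v), hk, map_mul, map_mul, map_pow,
      coeffMap_C_hom]
  rw [hfin, Fermat.Agent.S18.Wiring.C_eq_algebraMap, mul_pow,
    ← map_pow (algebraMap Qb (LaurentSeries Qb)) d m, hd]
  ring

/-! ### The function-level form of unipotency -/

/-- **`(τ - 1)² = 0` on Kummer classes, function form.**  From `Toric.exists_toric` and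
(INJ-ss): for `τ` in the inertia group of `A` and `f ≠ 0` with `m ∣ div f`,
`τ² f · f = (τ f)² · g ^ m`. -/
theorem exists_uni {N : ℕ} {A : ValuationSubring Qb} {m : ℕ} (hG : HasGaussNorm N A)
    (W : Fb N ≃+* Fb N)
    (hWc : ∀ c : Qb, W (algebraMap Qb (Fb N) c) = algebraMap Qb (Fb N) c)
    (hWgal : ∀ (σ : Gq) (x : Fb N), W (gal N σ x) = gal N σ (W x))
    (b b' : LaurentSeries A) (hbm : Congr.incl A b ∈ Fb N) (hbm' : Congr.incl A b' ∈ Fb N)
    (hb : Congr.red A b = 0) (hb' : Congr.red A b' ≠ 0)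
    (hWb : W ⟨_, hbm⟩ = ⟨_, hbm'⟩) (hWb' : W ⟨_, hbm'⟩ = ⟨_, hbm⟩)
    (hm : 0 < m) (hI : InjSS N A W m) {τ : Gq} (hτ : τ ∈ A.inertiaSubgroupIn ℚ)
    (f : Fb N) (hf : f ≠ 0) (hdiv : DivBy N m f) :
    ∃ g : Fb N, gal N τ (gal N τ f) * f = gal N τ f ^ 2 * g ^ m := by
  obtain ⟨h, w, hw0, hfw, htor, hhdiv⟩ :=
    Toric.exists_toric A hG W hWc hWgal b b' hbm hbm' hb hb' hWb hWb' hm hτ f hf hdiv
  obtain ⟨k, hk⟩ := hI τ hτ h htor hhdiv
  refine ⟨gal N τ w * k / w, ?_⟩
  have h1 : gal N τ (gal N τ f) = gal N τ f * gal N τ w ^ m * gal N τ h := by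
    conv_lhs => rw [hfw]
    rw [map_mul, map_mul, map_pow]
  rw [h1, hk, hfw, div_pow]
  have hwm : w ^ m ≠ 0 := pow_ne_zero m hw0
  field_simp
  ring

end Fermat.Agent.S34.Descend
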