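import Mathlib

/-!
# Tower formula for trace discriminants of free algebras

For commutative rings `R → B → C` with an `R`-basis `b` of `B` and a `B`-basis `c` of `C`:

`discr R (b.smulTower c) = discr R b ^ card κ * norm R (discr B c)`.

Level-free commutative algebra (brick SSc-A of the S34 route).  Mathlib only.
-/

set_option autoImplicit false

open Matrix Module
open scoped Kronecker

namespace Fermat.Agent.S34.DiscTower

variable {R B C ι κ : Type*} [CommRing R] [CommRing B] [CommRing C]
  [Algebra R B] [Algebra B C] [Algebra R C] [IsScalarTower R B C]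
  [Fintype ι] [Fintype κ] [DecidableEq ι] [DecidableEq κ]

/-- `Tr(b i * b j * g) = (T * [g]) i j`, with `T` the trace matrix and `[g]` the matrix of
multiplication by `g` in the basis `b`. -/
theorem trace_mul_mul_eq (b : Basis ι R B) (g : B) (i j : ι) :
    Algebra.trace R B (b i * b j * g) =
      (Algebra.traceMatrix R b * Algebra.leftMulMatrix b g) i j := by
  rw [Matrix.mul_apply]
  have h : b j * g = ∑ s, b.repr (g * b j) s • b s := by
    rw [b.sum_repr, mul_comm]
  rw [mul_assoc, h, Finset.mul_sum, map_sum]
  refine Finset.sum_congr rfl fun s _ => ?_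
  rw [mul_smul_comm, map_smul, smul_eq_mul, mul_comm, Algebra.traceMatrix_apply,
    Algebra.traceForm_apply, Algebra.leftMulMatrix_eq_repr_mul]

/-- The trace matrix of the product basis factors as (block diagonal trace matrix of `b`) times
(the trace matrix of `c`, with entries replaced by their multiplication matrices). -/
theorem traceMatrix_smulTower' (b : Basis ι R B) (c : Basis κ B C) :
    Algebra.traceMatrix R (b.smulTower' c) =
      ((1 : Matrix κ κ R) ⊗ₖ Algebra.traceMatrix R b) *
        (((Algebra.traceMatrix B c).map (Algebra.leftMulMatrix b)).comp κ κ ι ι R) := by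
  ext ⟨k, i⟩ ⟨l, j⟩
  rw [Algebra.traceMatrix_apply, Algebra.traceForm_apply, Basis.smulTower'_apply,
    Basis.smulTower'_apply]
  simp only
  rw [← Algebra.trace_trace_of_basis b c]
  have h1 : b i • c k * b j • c l = (b i * b j) • (c k * c l) := by
    rw [smul_mul_smul_comm]
  rw [h1, map_smul, smul_eq_mul, trace_mul_mul_eq, Matrix.mul_apply, Matrix.mul_apply,
    Fintype.sum_prod_type]
  rw [Finset.sum_eq_single k]
  · refine Finset.sum_congr rfl fun s _ => ?_
    simp [Matrix.comp_apply, Algebra.traceMatrix_apply]
  · intro k' _ hk'
    refine Finset.sum_eq_zero fun s _ => ?_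
    simp [Ne.symm hk']
  · intro h; exact absurd (Finset.mem_univ k) h

/-- **Tower formula for discriminants** (`smulTower'` indexing). -/
theorem discr_smulTower' (b : Basis ι R B) (c : Basis κ B C) :
    Algebra.discr R (b.smulTower' c) =
      Algebra.discr R b ^ Fintype.card κ * Algebra.norm R (Algebra.discr B c) := by
  rw [Algebra.discr_def, traceMatrix_smulTower', Matrix.det_mul, Matrix.det_kronecker,
    Matrix.det_one, one_pow, one_mul, Algebra.norm_eq_matrix_det b, Algebra.discr_def,
    Algebra.discr_def]
  congr 1
  exact (Matrix.det_det (Algebra.traceMatrix B c) (Algebra.leftMulMatrix b).toRingHom).symm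

/-- **Tower formula for discriminants**. -/
theorem discr_smulTower (b : Basis ι R B) (c : Basis κ B C) :
    Algebra.discr R (b.smulTower c) =
      Algebra.discr R b ^ Fintype.card κ * Algebra.norm R (Algebra.discr B c) := by
  rw [← discr_smulTower']
  have h := Algebra.discr_reindex R (b.smulTower c) (Equiv.prodComm ι κ)
  rw [← h]
  congr 1
  ext ⟨k, i⟩
  simp [Basis.smulTower'_apply]

/-- If the relative discriminant is a unit, the discriminant of the tower is associated to the
`card κ`-th power of the discriminant of the bottom layer. -/
theorem associated_discr_smulTower (b : Basis ι R B) (c : Basis κ B C)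
    (hc : IsUnit (Algebra.discr B c)) :
    Associated (Algebra.discr R (b.smulTower c)) (Algebra.discr R b ^ Fintype.card κ) := by
  rw [discr_smulTower]
  exact associated_mul_unit_left _ _ (hc.map (Algebra.norm R))

end Fermat.Agent.S34.DiscTower
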