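import Mathlib
import Fermat.Agent.S34.DiscTower

/-!
# Comparing discriminants prime by prime (brick SSc-(1) of the S34 route)

* `associated_discr_of_bases` : the discriminants of two bases of a finite free algebra are
  associated (index types may differ).
* `associated_discr_of_tower` : `R → B → C`, `b` an `R`-basis of `B`, `c` an `R`-basis of `C`,
  `γ` a `B`-basis of `C` with unit discriminant: `discr R c ~ discr R b ^ card κ`.
* `exists_mul_eq_of_associated_map` : "associated in the localisation at a prime `P`" in
  elementwise form `x * s = y * t`, `s, t ∉ P`.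
* `associated_of_forall_prime` : in a UFD, two nonzero elements which agree up to factors
  prime to `q`, for every prime element `q`, are associated.
* `exists_mul_eq_discr` : the local comparison, for localisations `Rq, Bq, Cq` of `R, B, C` at a
  prime `P` of `R` such that `Cq` has a `Bq`-basis with unit discriminant.
* `associated_discr_pow_of_forall_prime` : the global statement over a UFD.

Mathlib only (plus `S34/DiscTower`).
-/

set_option autoImplicit false

open Module

namespace Fermat.Agent.S34.DiscLocal

section Bases

variable {R B C ι ι' κ : Type*} [CommRing R] [CommRing B] [CommRing C]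
  [Algebra R B] [Algebra B C] [Algebra R C] [IsScalarTower R B C]
  [Fintype ι] [Fintype ι'] [Fintype κ] [DecidableEq ι] [DecidableEq ι'] [DecidableEq κ]

/-- Two bases of the same finite free algebra have associated discriminants. -/
theorem associated_discr_of_bases (c : Basis ι R C) (c' : Basis ι' R C) :
    Associated (Algebra.discr R c) (Algebra.discr R c') := by
  rcases subsingleton_or_nontrivial R with hR | hR
  · rw [Subsingleton.elim (Algebra.discr R c) (Algebra.discr R c')]
  let e : ι ≃ ι' := c.indexEquiv c'
  let c'' : Basis ι R C := c'.reindex e.symm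
  have h1 : Algebra.discr R c'' = Algebra.discr R c' := by
    have h := Algebra.discr_reindex R c' e.symm
    rw [← h]
    congr 1
    ext i
    simp [c'']
  have h2 : Algebra.discr R c = (c''.toMatrix c).det ^ 2 * Algebra.discr R c'' := by
    rw [← Algebra.discr_of_matrix_vecMul, Basis.toMatrix_map_vecMul]
  have h3 : IsUnit (c''.toMatrix c).det := by
    rw [← Basis.det_apply]
    exact c''.isUnit_det c
  rw [h2, h1]
  exact associated_unit_mul_left _ _ (h3.pow 2)

/-- Tower comparison: if `C` has a `B`-basis with unit discriminant, then the discriminant of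
`C / R` is associated to the `card κ`-th power of the discriminant of `B / R`. -/
theorem associated_discr_of_tower (b : Basis ι R B) (c : Basis ι' R C) (γ : Basis κ B C)
    (hγ : IsUnit (Algebra.discr B γ)) :
    Associated (Algebra.discr R c) (Algebra.discr R b ^ Fintype.card κ) :=
  (associated_discr_of_bases c (b.smulTower γ)).trans
    (DiscTower.associated_discr_smulTower b γ hγ)

end Bases

section Local

variable {R : Type*} [CommRing R] [IsDomain R]

/-- "Associated in the localisation at `P`" in elementwise form. -/
theorem exists_mul_eq_of_associated_map (P : Ideal R) [P.IsPrime] (Rq : Type*) [CommRing Rq]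
    [Algebra R Rq] [IsLocalization.AtPrime Rq P] {x y : R}
    (h : Associated (algebraMap R Rq x) (algebraMap R Rq y)) :
    ∃ s t : R, s ∉ P ∧ t ∉ P ∧ x * s = y * t := by
  obtain ⟨u, hu⟩ := h.symm
  -- `algebraMap y * u = algebraMap x`
  obtain ⟨⟨a, s⟩, has⟩ := IsLocalization.surj P.primeCompl (u : Rq)
  simp only at has
  have hinj : Function.Injective (algebraMap R Rq) :=
    IsLocalization.injective Rq P.primeCompl_le_nonZeroDivisors
  have ha : a ∉ P := by
    intro haP
    have h1 : IsUnit (algebraMap R Rq a) := by
      rw [← has]
      exact u.isUnit.mul (IsLocalization.map_units Rq s)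
    have h2 := (IsLocalization.AtPrime.isUnit_to_map_iff Rq P a).mp h1
    exact h2 haP
  refine ⟨s, a, s.2, ha, hinj ?_⟩
  rw [map_mul, map_mul, ← hu, mul_assoc, has]

variable [UniqueFactorizationMonoid R]

/-- In a UFD, two nonzero elements which agree up to factors prime to `q`, for every prime
element `q`, are associated. -/
theorem associated_of_forall_prime {x y : R} (hx : x ≠ 0) (hy : y ≠ 0)
    (h : ∀ q : R, Prime q → ∃ s t : R, ¬ q ∣ s ∧ ¬ q ∣ t ∧ x * s = y * t) :
    Associated x y := by
  have key : ∀ q : R, Prime q → emultiplicity q x = emultiplicity q y := by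
    intro q hq
    obtain ⟨s, t, hs, ht, hst⟩ := h q hq
    have h1 : emultiplicity q (x * s) = emultiplicity q x := by
      rw [emultiplicity_mul hq, emultiplicity_eq_zero.mpr hs, add_zero]
    have h2 : emultiplicity q (y * t) = emultiplicity q y := by
      rw [emultiplicity_mul hq, emultiplicity_eq_zero.mpr ht, add_zero]
    rw [← h1, ← h2, hst]
  refine associated_of_dvd_dvd ?_ ?_
  · rw [UniqueFactorizationMonoid.dvd_iff_emultiplicity_le hx]
    exact fun q hq => (key q hq).le
  · rw [UniqueFactorizationMonoid.dvd_iff_emultiplicity_le hy]
    exact fun q hq => (key q hq).ge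

end Local

section Main

variable {R B C ι ι' κ : Type*} [CommRing R] [IsDomain R] [CommRing B] [CommRing C]
  [Algebra R B] [Algebra R C]
  [Fintype ι] [Fintype ι'] [Fintype κ] [DecidableEq ι] [DecidableEq ι'] [DecidableEq κ]

/-- **Local comparison of discriminants.**  `P` a prime of `R`; `Rq, Bq, Cq` the localisations
of `R, B, C` at `P`.  If `Cq` has a `Bq`-basis `γ` with unit discriminant ("`C` is finite étale
over `B` above `P`"), then `discr R c` and `discr R b ^ card κ` agree up to factors outside
`P`. -/
theorem exists_mul_eq_discr (P : Ideal R) [P.IsPrime]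
    (Rq Bq Cq : Type*) [CommRing Rq] [CommRing Bq] [CommRing Cq]
    [Algebra R Rq] [IsLocalization.AtPrime Rq P]
    [Algebra B Bq] [Algebra Rq Bq] [Algebra R Bq] [IsScalarTower R Rq Bq] [IsScalarTower R B Bq]
    [IsLocalization (Algebra.algebraMapSubmonoid B P.primeCompl) Bq]
    [Algebra C Cq] [Algebra Rq Cq] [Algebra R Cq] [IsScalarTower R Rq Cq] [IsScalarTower R C Cq]
    [IsLocalization (Algebra.algebraMapSubmonoid C P.primeCompl) Cq]
    [Algebra Bq Cq] [IsScalarTower Rq Bq Cq]
    (b : Basis ι R B) (c : Basis ι' R C) (γ : Basis κ Bq Cq)
    (hγ : IsUnit (Algebra.discr Bq γ)) :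
    ∃ s t : R, s ∉ P ∧ t ∉ P ∧
      Algebra.discr R c * s = Algebra.discr R b ^ Fintype.card κ * t := by
  apply exists_mul_eq_of_associated_map P Rq
  rw [map_pow, ← Algebra.discr_localizationLocalization R P.primeCompl Bq b,
    ← Algebra.discr_localizationLocalization R P.primeCompl Cq c]
  exact associated_discr_of_tower _ _ γ hγ

variable [UniqueFactorizationMonoid R]

/-- **Global comparison over a UFD** (3.2(1) of the S34 route): if for every prime element `q`
the discriminants agree up to factors prime to `q`, they are associated. -/
theorem associated_discr_pow_of_forall_prime (b : Basis ι R B) (c : Basis ι' R C) (d : ℕ)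
    (hb : Algebra.discr R b ≠ 0) (hc : Algebra.discr R c ≠ 0)
    (h : ∀ q : R, Prime q → ∃ s t : R, ¬ q ∣ s ∧ ¬ q ∣ t ∧
      Algebra.discr R c * s = Algebra.discr R b ^ d * t) :
    Associated (Algebra.discr R c) (Algebra.discr R b ^ d) :=
  associated_of_forall_prime hc (pow_ne_zero d hb) h

end Main

end Fermat.Agent.S34.DiscLocal
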