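/-
S34 — FINAL REDUCTION, auxiliary-level form (helper34).

`FinalOfRoot.RootStatement` asks for (INJ-ss) at EVERY level `M ℓ` with `ℓ ∤ M`.  For `ℓ ∈ {2, 3}`
the modular side only provides its chart function (the Hauptmodul of `X₀(3)`, resp. `X₀(2)`) when
`3 ∣ M`, resp. `2 ∣ M`; helper174's `AuxDescent.sqAt_of_aux` shows that these levels suffice.
This file combines the two:

* `RootStatementAux` : `Descend.InjSSRootModular (M ℓ) A wAL m` for `ℓ ∤ M`, `m > 0` prime to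
  `ℓ`, at the levels with `2 ∣ M` if `ℓ = 3` and `3 ∣ M` if `ℓ = 2`;
* `result_of_k1_rootAux` : the frozen statement of S34 from `Bricks.K1` and `RootStatementAux`;
* `result_of_rootAux` : the same with (K1) discharged (`Producer.bricks_k1`).

Chain: `Descend.injSS_of_rootModular` → `UniToric.stepsAt_level` → `AuxDescent.sqAt_of_stepsAt`
→ `AuxDescent.isUnipotentOnInertiaAt_of_sqAt` (level descent + limit + wiring).
-/
import Mathlib
import Fermat.Agent.S34.UniToric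
import Fermat.Agent.S34.DescendRoot
import Fermat.Agent.S34.AuxDescent
import Fermat.Agent.S30.Producer.Final

set_option autoImplicit false

namespace Fermat.Agent.S34.FinalOfRootAux

open Fermat.Agent.S30 Fermat.Agent.S30.Producer IsLocalRing

/-- The remaining geometric input of S34, auxiliary-level form: (INJ-ss) in Kummer-field form
over the number fields `E ⊆ ℚ̄`, at the levels `M ℓ` with `ℓ ∤ M` (and `2 ∣ M` if `ℓ = 3`,
`3 ∣ M` if `ℓ = 2`), for the swap `ToricSwap.wAL` and every exponent `m > 0` prime to `ℓ`. -/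
def RootStatementAux : Prop :=
  ∀ (M ℓ : ℕ) [NeZero M] [NeZero ℓ] (hℓ : ℓ.Prime) (hℓM : ¬ ℓ ∣ M),
    (ℓ = 3 → 2 ∣ M) → (ℓ = 2 → 3 ∣ M) →
    ∀ A : ValuationSubring Qb, A.LiesOverPrime ℓ → ∀ m : ℕ, 0 < m → ¬ ℓ ∣ m →
      Descend.InjSSRootModular (M * ℓ) A (ToricSwap.wAL M ℓ hℓ hℓM).toRingEquiv m

/-- `SqAt` at the auxiliary levels from `RootStatementAux`. -/
theorem sqAt_of_rootAux (hroot : RootStatementAux) {p : ℕ} (hp : p.Prime) {q : ℕ}
    (hq : q.Prime) (hqp : q ≠ p) (P : ValuationSubring Qb) (hP : P.LiesOverPrime q) (n : ℕ)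
    (L : ℕ) [NeZero L] (hqL : q ∣ L) (hq2 : ¬ q ^ 2 ∣ L) (h3 : q = 3 → 2 ∣ L)
    (h2 : q = 2 → 3 ∣ L) : AuxDescent.SqAt L (p ^ n) P := by
  obtain ⟨M, hM⟩ := hqL
  have hL : M * q = L := by rw [hM, mul_comm]
  have hM0 : NeZero M := ⟨by
    rintro rfl
    rw [zero_mul] at hL
    exact NeZero.ne L hL.symm⟩
  have hq0 : NeZero q := ⟨hq.ne_zero⟩
  have hqM : ¬ q ∣ M := by
    rintro ⟨k, rfl⟩
    exact hq2 ⟨k, by rw [hM]; ring⟩
  have hm : 0 < p ^ n := pow_pos hp.pos n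
  have hqm : ¬ q ∣ p ^ n := fun h =>
    hqp ((Nat.prime_dvd_prime_iff_eq hq hp).1 (hq.dvd_of_dvd_pow h))
  have h3' : q = 3 → 2 ∣ M := by
    intro h
    have h' := h3 h
    rw [← hL, h] at h'
    exact Nat.Coprime.dvd_of_dvd_mul_right (by norm_num) h'
  have h2' : q = 2 → 3 ∣ M := by
    intro h
    have h' := h2 h
    rw [← hL, h] at h'
    exact Nat.Coprime.dvd_of_dvd_mul_right (by norm_num) h'
  have hinj := Descend.injSS_of_rootModular (M * q) hq P hP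
    (ToricSwap.wAL M q hq hqM).toRingEquiv hm (hroot M q hq hqM h3' h2' P hP (p ^ n) hm hqm)
  have h := AuxDescent.sqAt_of_stepsAt (UniToric.stepsAt_level hq hqM P hP hm hinj)
  rwa [hL] at h

/-- **S34 from (K1) and (INJ-ss) at the auxiliary levels.** -/
theorem result_of_k1_rootAux (hK1 : ∀ (N : ℕ) [NeZero N], Bricks.K1 N)
    (hroot : RootStatementAux)
    {𝒪 : Type} [CommRing 𝒪] [IsDomain 𝒪] [IsDiscreteValuationRing 𝒪]
    [IsAdicComplete (maximalIdeal 𝒪) 𝒪] [Finite (ResidueField 𝒪)] [CharZero 𝒪]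
    {p : ℕ} (hp : p.Prime) (hp𝒪 : (p : 𝒪) ∈ maximalIdeal 𝒪)
    {N : ℕ} [NeZero N] {S : Finset ℕ} (hpS : p ∈ S) (hNS : ∀ q : ℕ, q.Prime → q ∣ N → q ∈ S)
    {θ : CuspForm.heckeAlgebra N 2 (↑S : Set ℕ) →+* ResidueField 𝒪}
    {T : Type} [CommRing T] [IsLocalRing T] [IsNoetherianRing T]
    [IsAdicComplete (maximalIdeal T) T] [Algebra 𝒪 T] [IsLocalHom (algebraMap 𝒪 T)]
    [Module.Finite 𝒪 T] [Module.Free 𝒪 T]
    (H : CuspForm.HeckeGaloisRepDatum N (↑S : Set ℕ) 𝒪 θ T)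
    (q : ℕ) (hq : q.Prime) (hqp : q ≠ p) (hqN : q ∣ N) (hq2 : ¬ q ^ 2 ∣ N) :
    H.ρ.IsUnipotentOnInertiaAt q :=
  AuxDescent.isUnipotentOnInertiaAt_of_sqAt hp hp𝒪 hpS hNS H q hq hqp hqN hq2 (hK1 N)
    fun q' hq' _ _ hq'p P hP n L _ hq'L hq'2 h3 h2 =>
      sqAt_of_rootAux hroot hp hq' hq'p P hP n L hq'L hq'2 h3 h2

/-- **S34 from (INJ-ss) at the auxiliary levels** ((K1) is `Producer.bricks_k1`). -/
theorem result_of_rootAux (hroot : RootStatementAux)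
    {𝒪 : Type} [CommRing 𝒪] [IsDomain 𝒪] [IsDiscreteValuationRing 𝒪]
    [IsAdicComplete (maximalIdeal 𝒪) 𝒪] [Finite (ResidueField 𝒪)] [CharZero 𝒪]
    {p : ℕ} (hp : p.Prime) (hp𝒪 : (p : 𝒪) ∈ maximalIdeal 𝒪)
    {N : ℕ} [NeZero N] {S : Finset ℕ} (hpS : p ∈ S) (hNS : ∀ q : ℕ, q.Prime → q ∣ N → q ∈ S)
    {θ : CuspForm.heckeAlgebra N 2 (↑S : Set ℕ) →+* ResidueField 𝒪}
    {T : Type} [CommRing T] [IsLocalRing T] [IsNoetherianRing T]
    [IsAdicComplete (maximalIdeal T) T] [Algebra 𝒪 T] [IsLocalHom (algebraMap 𝒪 T)]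
    [Module.Finite 𝒪 T] [Module.Free 𝒪 T]
    (H : CuspForm.HeckeGaloisRepDatum N (↑S : Set ℕ) 𝒪 θ T)
    (q : ℕ) (hq : q.Prime) (hqp : q ≠ p) (hqN : q ∣ N) (hq2 : ¬ q ^ 2 ∣ N) :
    H.ρ.IsUnipotentOnInertiaAt q :=
  result_of_k1_rootAux (fun N _ => bricks_k1 N) hroot hp hp𝒪 hpS hNS H q hq hqp hqN hq2

end Fermat.Agent.S34.FinalOfRootAux
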