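import Mathlib
import Fermat.Agent.S34.Glue

/-!
# S34 route, brick SSc-(4): the branch count, length form ("a toric cover is a graph covering")

Level-free commutative algebra, Mathlib only.  Local picture over a closed point `x*` of the base
line (`S` = the DVR `R*/π`, but any commutative ring works):

* `N` : the common branch ring (`B'/π` localised at `x*`), an `S`-algebra;
* `F : N →+* N` : the Frobenius-type endomorphism of `Glue.lean` (`F ∘ F ≡ id` at the nodes);
* `m : Y → Ideal N` : the nodes above `x*` (distinct maximal ideals), so that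
  `B/π = {(f, g) ∈ N × N | f - F g ∈ m y for all y}` (`Glue.eq_glueSubring`);
* `I₁`, `I₂` : the `∞`-branches and the `0`-branches of the cover (`card I₁ = card I₂ = d`), each
  branch ring being a copy of `N`;
* `C ⊆ (I₁ → N) × (I₂ → N)` : the special fibre `C/π` of the cover, an `S`-subalgebra containing
  the diagonal image `(a, F a)` of `B/π`.

**Theorem `eq_glued`.** Assume going-down in both directions (`hGD₁`, `hGD₂`: every point of `C`
above a node lies on a branch of each kind) and the colength bound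
`length_S ((I₁ → N) × (I₂ → N)) / C ≤ d * ∑_y length_S (N / m y)` (this is what the discriminant
count gives: `colength C = d * colength B`).  Then there are bijections `τ y : I₂ ≃ I₁`, one for
each node, with

  `C = {c | ∀ y j, F (c.2 j) - c.1 (τ y j) ∈ m y}`,

i.e. above the node `y` the `0`-branch `j` meets exactly the `∞`-branch `τ y j`, and there is no
other incidence at all: `C/π` is the graph covering of `B/π` with node data `τ`.

Also provided:

* `length_quot_iInf` : `length_S (N / ⨅ y, m y) = ∑ y, length_S (N / m y)` (CRT);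
* `glueSubmodule`, `length_quot_glue` : `length_S ((N × N) / {f - F g ∈ J}) = length_S (N / J)`
  (the `S`-linear form of `Glue.quotEquiv`), so `hlen` is literally
  `colength C ≤ d * colength B`;
* consequences of the conclusion: `exists_mem_fst_eq`, `exists_mem_snd_eq` (each projection of `C`
  to the branches of one kind is onto), `exists_sep₁`, `exists_sep₂` (branches of the same kind are
  comaximal), `tau_eq_iff` (`τ y j = i` iff the point of the branch `j` above `y` is the point of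
  the branch `i` above `y`; so `τ` is canonical).
-/

set_option autoImplicit false
set_option linter.unusedSectionVars false

namespace Fermat.Agent.S34.GraphCount

open Module

section Core

variable {S N : Type*} [CommRing S] [CommRing N] [Algebra S N]
variable {Y I₁ I₂ : Type*}
variable (F : N →+* N) (m : Y → Ideal N)

/-- Evaluation of the `∞`-branches at the nodes. -/
def ev₁ : ((I₁ → N) × (I₂ → N)) →ₗ[S] ((y : Y) → I₁ → N ⧸ m y) where
  toFun c := fun y i => Ideal.Quotient.mk (m y) (c.1 i)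
  map_add' a b := by
    funext y i
    simp
  map_smul' s a := by
    funext y i
    show Ideal.Quotient.mkₐ S (m y) (s • a.1 i) = s • Ideal.Quotient.mkₐ S (m y) (a.1 i)
    exact map_smul _ _ _

@[simp]
theorem ev₁_apply (c : (I₁ → N) × (I₂ → N)) (y : Y) (i : I₁) :
    ev₁ (S := S) m c y i = Ideal.Quotient.mk (m y) (c.1 i) := rfl

/-- Evaluation of the `0`-branches at the nodes (through `F`). -/
def ev₂ (hS : ∀ y (s : S), F (algebraMap S N s) - algebraMap S N s ∈ m y) :
    ((I₁ → N) × (I₂ → N)) →ₗ[S] ((y : Y) → I₂ → N ⧸ m y) where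
  toFun c := fun y j => Ideal.Quotient.mk (m y) (F (c.2 j))
  map_add' a b := by
    funext y j
    simp
  map_smul' s a := by
    funext y j
    have h1 : Ideal.Quotient.mk (m y) (F (algebraMap S N s)) =
        Ideal.Quotient.mk (m y) (algebraMap S N s) := Ideal.Quotient.eq.mpr (hS y s)
    have h2 : (s • a).2 j = algebraMap S N s * a.2 j := by
      rw [← Algebra.smul_def]; rfl
    show Ideal.Quotient.mk (m y) (F ((s • a).2 j)) = s • Ideal.Quotient.mk (m y) (F (a.2 j))
    rw [h2, map_mul, map_mul, h1, ← map_mul, ← Algebra.smul_def]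
    show Ideal.Quotient.mkₐ S (m y) (s • F (a.2 j)) = s • Ideal.Quotient.mkₐ S (m y) (F (a.2 j))
    exact map_smul _ _ _

@[simp]
theorem ev₂_apply (hS : ∀ y (s : S), F (algebraMap S N s) - algebraMap S N s ∈ m y)
    (c : (I₁ → N) × (I₂ → N)) (y : Y) (j : I₂) :
    ev₂ (I₁ := I₁) F m hS c y j = Ideal.Quotient.mk (m y) (F (c.2 j)) := rfl

end Core

section Squeeze

variable {S : Type*} [CommRing S]

/-- ENat bookkeeping for the squeeze. -/
theorem enat_squeeze {L a b c e : ℕ∞} (hL : L ≠ ⊤) (h1 : c + b ≤ L) (h2 : L + L = a + b)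
    (h3 : L = a + e) : c = 0 ∧ e = 0 := by
  have ha : a ≠ ⊤ := by
    intro h; rw [h, top_add] at h3; exact hL h3
  have he : e ≠ ⊤ := by
    intro h; rw [h, add_top] at h3; exact hL h3
  have hb : b ≠ ⊤ := by
    intro h; rw [h, add_top] at h1; exact hL (top_le_iff.mp h1)
  have hc : c ≠ ⊤ := by
    intro h; rw [h, top_add] at h1; exact hL (top_le_iff.mp h1)
  lift L to ℕ using hL
  lift a to ℕ using ha
  lift b to ℕ using hb
  lift c to ℕ using hc
  lift e to ℕ using he
  norm_cast at h1 h2 h3 ⊢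
  omega

/-- **Length squeeze.** `C ⊆ M`, `φ : M → V` surjective, `π : V → P` injective on `φ(C)`,
`length P = L`, `length V = 2L`, `length (M/C) ≤ L < ∞`.  Then `π` maps `φ(C)` onto `P` and
`C = φ⁻¹(φ(C))`. -/
theorem length_squeeze {M V P : Type*} [AddCommGroup M] [Module S M] [AddCommGroup V]
    [Module S V] [AddCommGroup P] [Module S P]
    (C : Submodule S M) (φ : M →ₗ[S] V) (hφ : Function.Surjective φ) (π : V →ₗ[S] P)
    (hπ : ∀ c ∈ C, π (φ c) = 0 → φ c = 0)
    (L : ℕ∞) (hL : L ≠ ⊤) (hP : Module.length S P = L) (hV : Module.length S V = L + L)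
    (hlen : Module.length S (M ⧸ C) ≤ L) :
    (∀ u : P, ∃ c ∈ C, π (φ c) = u) ∧ (∀ x : M, φ x ∈ C.map φ → x ∈ C) := by
  set W : Submodule S V := C.map φ with hW
  let Ψ : (M ⧸ C) →ₗ[S] (V ⧸ W) := C.mapQ W φ (Submodule.le_comap_map φ C)
  have hΨ : Function.Surjective Ψ := by
    intro q
    obtain ⟨v, rfl⟩ := Submodule.mkQ_surjective W q
    obtain ⟨x, rfl⟩ := hφ v
    exact ⟨Submodule.Quotient.mk x, rfl⟩
  let π' : W →ₗ[S] P := π.comp W.subtype
  have hπ' : Function.Injective π' := by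
    rw [← LinearMap.ker_eq_bot, LinearMap.ker_eq_bot']
    rintro ⟨w, hw⟩ h0
    obtain ⟨c, hc, rfl⟩ := hw
    have : φ c = 0 := hπ c hc h0
    exact Subtype.ext this
  have E1 : Module.length S (M ⧸ C) =
      Module.length S (LinearMap.ker Ψ) + Module.length S (V ⧸ W) :=
    Module.length_eq_add_of_exact (LinearMap.ker Ψ).subtype Ψ (Submodule.subtype_injective _) hΨ
      (LinearMap.exact_subtype_ker_map Ψ)
  have E2 : Module.length S V = Module.length S W + Module.length S (V ⧸ W) :=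
    Module.length_eq_add_of_exact W.subtype W.mkQ (Submodule.subtype_injective _)
      (Submodule.mkQ_surjective _) (LinearMap.exact_subtype_mkQ W)
  have E3 : Module.length S P =
      Module.length S W + Module.length S (P ⧸ LinearMap.range π') :=
    Module.length_eq_add_of_exact π' (LinearMap.range π').mkQ hπ'
      (Submodule.mkQ_surjective _) (LinearMap.exact_map_mkQ_range π')
  rw [E1] at hlen
  rw [hV] at E2
  rw [hP] at E3
  obtain ⟨hc0, he0⟩ := enat_squeeze hL hlen E2 E3
  constructor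
  · intro u
    have hsub : Subsingleton (P ⧸ LinearMap.range π') := Module.length_eq_zero_iff.mp he0
    have htop : LinearMap.range π' = ⊤ := Submodule.Quotient.subsingleton_iff.mp hsub
    have hu : u ∈ LinearMap.range π' := by rw [htop]; trivial
    obtain ⟨⟨w, hw⟩, rfl⟩ := hu
    obtain ⟨c, hc, rfl⟩ := hw
    exact ⟨c, hc, rfl⟩
  · intro x hx
    have hsub : Subsingleton (LinearMap.ker Ψ) := Module.length_eq_zero_iff.mp hc0
    have hmem : (Submodule.Quotient.mk x : M ⧸ C) ∈ LinearMap.ker Ψ := by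
      rw [LinearMap.mem_ker]
      show (Submodule.Quotient.mk (φ x) : V ⧸ W) = 0
      rw [Submodule.Quotient.mk_eq_zero]
      exact hx
    have h0 : (⟨Submodule.Quotient.mk x, hmem⟩ : LinearMap.ker Ψ) = 0 := Subsingleton.elim _ _
    have h1 : (Submodule.Quotient.mk x : M ⧸ C) = 0 := congrArg Subtype.val h0
    exact (Submodule.Quotient.mk_eq_zero C).mp h1

end Squeeze

section Main

variable {S N : Type*} [CommRing S] [CommRing N] [Algebra S N]
variable {Y I₁ I₂ : Type*} [Fintype Y] [Fintype I₁] [Fintype I₂]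
variable (F : N →+* N) (m : Y → Ideal N)

theorem pairwise_coprime (hmax : ∀ y, (m y).IsMaximal) (hinj : Function.Injective m) :
    Pairwise (Function.onFun IsCoprime m) := by
  intro y y' hne
  exact Ideal.isCoprime_iff_sup_eq.mpr
    ((hmax y).coprime_of_ne (hmax y') (fun h => hne (hinj h)))

/-- The Chinese remainder theorem for the node ideals. -/
theorem exists_forall_mk_eq (hmax : ∀ y, (m y).IsMaximal) (hinj : Function.Injective m)
    (u : (y : Y) → N ⧸ m y) : ∃ a : N, ∀ y, Ideal.Quotient.mk (m y) a = u y :=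
  Ideal.pi_quotient_surjective (pairwise_coprime m hmax hinj) u

theorem ev_surjective (hmax : ∀ y, (m y).IsMaximal) (hinj : Function.Injective m)
    (hfix : ∀ y a, F (F a) - a ∈ m y)
    (hS : ∀ y (s : S), F (algebraMap S N s) - algebraMap S N s ∈ m y)
    (u : (y : Y) → I₁ → N ⧸ m y) (v : (y : Y) → I₂ → N ⧸ m y) :
    ∃ c : (I₁ → N) × (I₂ → N), ev₁ (S := S) m c = u ∧ ev₂ F m hS c = v := by
  choose a ha using fun i => exists_forall_mk_eq m hmax hinj (fun y => u y i)
  choose b hb using fun j => exists_forall_mk_eq m hmax hinj (fun y => v y j)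
  refine ⟨(a, fun j => F (b j)), ?_, ?_⟩
  · funext y i
    exact ha i y
  · funext y j
    show Ideal.Quotient.mk (m y) (F (F (b j))) = v y j
    rw [← hb j y]
    exact Ideal.Quotient.eq.mpr (hfix y (b j))

/-- The length of the product of the residue fields at the nodes. -/
theorem length_pi_nodes (I : Type*) [Fintype I] :
    Module.length S ((y : Y) → I → N ⧸ m y) =
      (Fintype.card I : ℕ∞) * ∑ y, Module.length S (N ⧸ m y) := by
  rw [Module.length_pi_of_fintype, Finset.mul_sum]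
  refine Finset.sum_congr rfl fun y _ => ?_
  rw [Module.length_pi, ENat.card_eq_coe_fintype_card]

/-- **Graph count, core form** (with the compatibility `hS` of `F` with the base ring). -/
theorem eq_glued_core (hmax : ∀ y, (m y).IsMaximal) (hinj : Function.Injective m)
    (hfix : ∀ y a, F (F a) - a ∈ m y)
    (hS : ∀ y (s : S), F (algebraMap S N s) - algebraMap S N s ∈ m y)
    (hfin : ∀ y, Module.length S (N ⧸ m y) ≠ ⊤)
    (hcard : Fintype.card I₁ = Fintype.card I₂)
    (C : Subalgebra S ((I₁ → N) × (I₂ → N)))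
    (hdiag : ∀ a : N, ((fun _ => a, fun _ => F a) : (I₁ → N) × (I₂ → N)) ∈ C)
    (hGD₁ : ∀ y (i : I₁), ∃ j : I₂, ∀ c ∈ C, F (c.2 j) ∈ m y → c.1 i ∈ m y)
    (hGD₂ : ∀ y (j : I₂), ∃ i : I₁, ∀ c ∈ C, c.1 i ∈ m y → F (c.2 j) ∈ m y)
    (hlen : Module.length S (((I₁ → N) × (I₂ → N)) ⧸ Subalgebra.toSubmodule C) ≤
      (Fintype.card I₁ : ℕ∞) * ∑ y, Module.length S (N ⧸ m y)) :
    ∃ τ : Y → (I₂ ≃ I₁), ∀ c : (I₁ → N) × (I₂ → N),
      c ∈ C ↔ ∀ y j, F (c.2 j) - c.1 (τ y j) ∈ m y := by
  classical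
  have : ∀ y, (m y).IsPrime := fun y => (hmax y).isPrime
  -- the two evaluation maps
  set φ₁ : ((I₁ → N) × (I₂ → N)) →ₗ[S] ((y : Y) → I₁ → N ⧸ m y) := ev₁ (S := S) m with hφ₁
  set φ₂ : ((I₁ → N) × (I₂ → N)) →ₗ[S] ((y : Y) → I₂ → N ⧸ m y) := ev₂ F m hS with hφ₂
  -- Step 1: `φ₁` is injective on the image of `C`
  have hker : ∀ c ∈ C, φ₁ c = 0 → φ₂ c = 0 := by
    intro c hc h0
    funext y j
    obtain ⟨i, hi⟩ := hGD₂ y j
    have h1 : Ideal.Quotient.mk (m y) (c.1 i) = 0 := congrFun (congrFun h0 y) i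
    have h2 : c.1 i ∈ m y := Ideal.Quotient.eq_zero_iff_mem.mp h1
    exact Ideal.Quotient.eq_zero_iff_mem.mpr (hi c hc h2)
  have hker' : ∀ c ∈ C, ∀ c' ∈ C, φ₁ c = φ₁ c' → φ₂ c = φ₂ c' := by
    intro c hc c' hc' h
    have h1 : φ₁ (c - c') = 0 := by rw [map_sub, h, sub_self]
    have h2 := hker (c - c') (C.sub_mem hc hc') h1
    rw [map_sub, sub_eq_zero] at h2
    exact h2
  -- Step 2/3: the length squeeze
  set L : ℕ∞ := (Fintype.card I₁ : ℕ∞) * ∑ y, Module.length S (N ⧸ m y) with hLdef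
  have hL : L ≠ ⊤ := by
    exact WithTop.mul_ne_top (ENat.natCast_ne_top _) (ENat.sum_ne_top.mpr fun y _ => hfin y)
  have hP₁ : Module.length S ((y : Y) → I₁ → N ⧸ m y) = L := length_pi_nodes m I₁
  have hP₂ : Module.length S ((y : Y) → I₂ → N ⧸ m y) = L := by
    rw [length_pi_nodes m I₂, ← hcard]
  have hV : Module.length S (((y : Y) → I₁ → N ⧸ m y) × ((y : Y) → I₂ → N ⧸ m y)) = L + L := by
    rw [Module.length_prod, hP₁, hP₂]
  have hsq := length_squeeze (Subalgebra.toSubmodule C) (φ₁.prod φ₂)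
    (by
      rintro ⟨u, v⟩
      obtain ⟨c, h1, h2⟩ := ev_surjective (S := S) F m hmax hinj hfix hS u v
      exact ⟨c, Prod.ext h1 h2⟩)
    (LinearMap.fst S _ _)
    (by
      intro c hc h0
      have h1 : φ₁ c = 0 := h0
      exact Prod.ext h1 (hker c hc h1))
    L hL hP₁ hV hlen
  obtain ⟨hsurj, hsat⟩ := hsq
  have hsurj₁ : ∀ u : (y : Y) → I₁ → N ⧸ m y, ∃ c ∈ C, φ₁ c = u := fun u => hsurj u
  have hsat' : ∀ x : (I₁ → N) × (I₂ → N), (∃ c ∈ C, φ₁ c = φ₁ x ∧ φ₂ c = φ₂ x) → x ∈ C := by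
    rintro x ⟨c, hc, h1, h2⟩
    exact hsat x ⟨c, hc, Prod.ext h1 h2⟩
  -- pointwise formulas
  have φ₁_mul : ∀ a b : (I₁ → N) × (I₂ → N), ∀ y i, φ₁ (a * b) y i = φ₁ a y i * φ₁ b y i := by
    intro a b y i
    show Ideal.Quotient.mk (m y) (a.1 i * b.1 i) = _
    rw [map_mul]; rfl
  have φ₂_mul : ∀ a b : (I₁ → N) × (I₂ → N), ∀ y j, φ₂ (a * b) y j = φ₂ a y j * φ₂ b y j := by
    intro a b y j
    show Ideal.Quotient.mk (m y) (F (a.2 j * b.2 j)) = _
    rw [map_mul, map_mul]; rfl
  -- the diagonal elements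
  let dg : N → (I₁ → N) × (I₂ → N) := fun a => (fun _ => a, fun _ => F a)
  have φ₁_dg : ∀ a y i, φ₁ (dg a) y i = Ideal.Quotient.mk (m y) a := fun a y i => rfl
  have φ₂_dg : ∀ a y j, φ₂ (dg a) y j = Ideal.Quotient.mk (m y) a := by
    intro a y j
    show Ideal.Quotient.mk (m y) (F (F a)) = Ideal.Quotient.mk (m y) a
    exact Ideal.Quotient.eq.mpr (hfix y a)
  -- Step 4: the idempotents
  let ε : Y × I₁ → ((y : Y) → I₁ → N ⧸ m y) := fun p y i => if (y, i) = p then 1 else 0
  choose cc hccC hcc using fun p : Y × I₁ => hsurj₁ (ε p)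
  have hε : ∀ (p : Y × I₁) y' i', φ₁ (cc p) y' i' = if (y', i') = p then (1 : N ⧸ m y') else 0 := by
    intro p y' i'
    rw [hcc p]
  -- (P1) idempotent
  have P1 : ∀ p y j, φ₂ (cc p) y j * φ₂ (cc p) y j = φ₂ (cc p) y j := by
    intro p y j
    have h1 : φ₁ (cc p * cc p) = φ₁ (cc p) := by
      funext y' i'
      rw [φ₁_mul, hε]
      split_ifs <;> simp
    have h2 := hker' _ (C.mul_mem (hccC p) (hccC p)) _ (hccC p) h1
    have h3 := congrFun (congrFun h2 y) j
    rw [φ₂_mul] at h3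
    exact h3
  -- (P2) orthogonal
  have P2 : ∀ p p', p ≠ p' → ∀ y j, φ₂ (cc p) y j * φ₂ (cc p') y j = 0 := by
    intro p p' hne y j
    have h1 : φ₁ (cc p * cc p') = φ₁ 0 := by
      funext y' i'
      rw [φ₁_mul, hε, hε, map_zero]
      show (if (y', i') = p then (1 : N ⧸ m y') else 0) * (if (y', i') = p' then 1 else 0) = 0
      by_cases h : (y', i') = p
      · have h' : (y', i') ≠ p' := fun h'' => hne (h.symm.trans h'')
        rw [if_pos h, if_neg h', mul_zero]
      · rw [if_neg h, zero_mul]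
    have h2 := hker' _ (C.mul_mem (hccC p) (hccC p')) _ C.zero_mem h1
    have h3 := congrFun (congrFun h2 y) j
    rw [φ₂_mul, map_zero] at h3
    exact h3
  -- (P3) sum
  have P3 : ∀ y j, ∑ p, φ₂ (cc p) y j = 1 := by
    intro y j
    have h1 : φ₁ (∑ p, cc p) = φ₁ 1 := by
      funext y' i'
      rw [map_sum]
      show (∑ p, φ₁ (cc p)) y' i' = Ideal.Quotient.mk (m y') 1
      rw [Finset.sum_apply, Finset.sum_apply, map_one]
      have : ∀ p, φ₁ (cc p) y' i' = if p = (y', i') then (1 : N ⧸ m y') else 0 := by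
        intro p
        rw [hε]
        by_cases h : (y', i') = p
        · rw [if_pos h, if_pos h.symm]
        · rw [if_neg h, if_neg (fun h' => h h'.symm)]
      rw [Finset.sum_congr rfl fun p _ => this p, Finset.sum_ite_eq' Finset.univ (y', i')]
      simp
    have h2 := hker' _ (C.sum_mem fun p _ => hccC p) _ C.one_mem h1
    have h3 := congrFun (congrFun h2 y) j
    rw [map_sum, Finset.sum_apply, Finset.sum_apply] at h3
    rw [h3]
    show Ideal.Quotient.mk (m y) (F 1) = 1
    rw [map_one, map_one]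
  -- (P4) support
  have P4 : ∀ (p : Y × I₁) y j, y ≠ p.1 → φ₂ (cc p) y j = 0 := by
    intro p y j hy
    obtain ⟨a, ha⟩ := exists_forall_mk_eq m hmax hinj
      (fun y' => if y' = p.1 then (1 : N ⧸ m y') else 0)
    have h1 : φ₁ (cc p * dg a) = φ₁ (cc p) := by
      funext y' i'
      rw [φ₁_mul, φ₁_dg, ha y', hε]
      by_cases h : (y', i') = p
      · have h' : y' = p.1 := by rw [← h]
        rw [if_pos h, if_pos h', mul_one]
      · rw [if_neg h, zero_mul]
    have h2 := hker' _ (C.mul_mem (hccC p) (hdiag a)) _ (hccC p) h1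
    have h3 := congrFun (congrFun h2 y) j
    rw [φ₂_mul, φ₂_dg, ha y, if_neg hy, mul_zero] at h3
    exact h3.symm
  -- the matching
  have key : ∀ y (j : I₂), ∃ i : I₁, φ₂ (cc (y, i)) y j = 1 ∧
      ∀ p : Y × I₁, p ≠ (y, i) → φ₂ (cc p) y j = 0 := by
    intro y j
    have hne : ∃ p : Y × I₁, φ₂ (cc p) y j ≠ 0 := by
      by_contra hcon
      have hcon' : ∀ p : Y × I₁, φ₂ (cc p) y j = 0 := fun p =>
        by_contra fun h => hcon ⟨p, h⟩
      have := P3 y j
      rw [Finset.sum_eq_zero fun p _ => hcon' p] at this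
      exact zero_ne_one this
    obtain ⟨p, hp⟩ := hne
    have hp1 : p.1 = y := by
      by_contra h
      exact hp (P4 p y j (fun h' => h h'.symm))
    have hp' : p = (y, p.2) := Prod.ext hp1 rfl
    have hone : φ₂ (cc p) y j = 1 := by
      have h := P1 p y j
      have h' : φ₂ (cc p) y j * (φ₂ (cc p) y j - 1) = 0 := by rw [mul_sub, h, mul_one, sub_self]
      rcases mul_eq_zero.mp h' with h0 | h0
      · exact absurd h0 hp
      · exact sub_eq_zero.mp h0
    refine ⟨p.2, ?_, ?_⟩
    · rw [← hp']; exact hone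
    · intro p' hp'ne
      have hne' : p ≠ p' := fun h => hp'ne (by rw [← h]; exact hp')
      have h := P2 p p' hne' y j
      rw [hone, one_mul] at h
      exact h
  choose τ₀ hτ1 hτ0 using key
  -- (P5) the image of `C` is the graph of `τ₀`
  have P5 : ∀ c ∈ C, ∀ y j, φ₂ c y j = φ₁ c y (τ₀ y j) := by
    intro c hc y j
    set c' : (I₁ → N) × (I₂ → N) := ∑ p : Y × I₁, dg (c.1 p.2) * cc p with hc'
    have hc'C : c' ∈ C := C.sum_mem fun p _ => C.mul_mem (hdiag _) (hccC p)
    have h1 : φ₁ c' = φ₁ c := by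
      funext y' i'
      rw [hc', map_sum, Finset.sum_apply, Finset.sum_apply]
      have : ∀ p : Y × I₁, φ₁ (dg (c.1 p.2) * cc p) y' i' =
          if p = (y', i') then Ideal.Quotient.mk (m y') (c.1 i') else 0 := by
        intro p
        rw [φ₁_mul, φ₁_dg, hε]
        by_cases h : (y', i') = p
        · rw [if_pos h, if_pos h.symm, mul_one, ← h]
        · rw [if_neg h, if_neg (fun h' => h h'.symm), mul_zero]
      rw [Finset.sum_congr rfl fun p _ => this p, Finset.sum_ite_eq' Finset.univ (y', i')]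
      simp
      rfl
    have h2 := hker' _ hc'C _ hc h1
    have h3 := congrFun (congrFun h2 y) j
    rw [← h3, hc', map_sum, Finset.sum_apply, Finset.sum_apply]
    have : ∀ p : Y × I₁, φ₂ (dg (c.1 p.2) * cc p) y j =
        if p = (y, τ₀ y j) then Ideal.Quotient.mk (m y) (c.1 (τ₀ y j)) else 0 := by
      intro p
      rw [φ₂_mul, φ₂_dg]
      by_cases h : p = (y, τ₀ y j)
      · rw [if_pos h, h, hτ1, mul_one]
      · rw [if_neg h, hτ0 y j p h, mul_zero]
    rw [Finset.sum_congr rfl fun p _ => this p, Finset.sum_ite_eq' Finset.univ (y, τ₀ y j)]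
    simp
    rfl
  -- Step 5: bijectivity
  have hτsurj : ∀ y, Function.Surjective (τ₀ y) := by
    intro y i
    obtain ⟨j, hj⟩ := hGD₁ y i
    refine ⟨j, ?_⟩
    by_contra hne
    have h1 : φ₂ (cc (y, i)) y j = 0 := by
      rw [P5 _ (hccC _) y j, hε]
      rw [if_neg]
      intro h
      exact hne (Prod.ext_iff.mp h).2
    have h2 : F ((cc (y, i)).2 j) ∈ m y := Ideal.Quotient.eq_zero_iff_mem.mp h1
    have h3 : (cc (y, i)).1 i ∈ m y := hj _ (hccC _) h2
    have h4 : φ₁ (cc (y, i)) y i = 0 := Ideal.Quotient.eq_zero_iff_mem.mpr h3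
    rw [hε, if_pos rfl] at h4
    exact one_ne_zero h4
  have hτbij : ∀ y, Function.Bijective (τ₀ y) := fun y =>
    (Fintype.bijective_iff_surjective_and_card (τ₀ y)).mpr ⟨hτsurj y, hcard.symm⟩
  refine ⟨fun y => Equiv.ofBijective (τ₀ y) (hτbij y), fun c => ⟨fun hc y j => ?_, fun hc => ?_⟩⟩
  · have h := P5 c hc y j
    exact Ideal.Quotient.eq.mp h
  · obtain ⟨c₀, hc₀, h0⟩ := hsurj₁ (φ₁ c)
    refine hsat' c ⟨c₀, hc₀, h0, ?_⟩
    funext y j
    rw [P5 c₀ hc₀ y j, h0]
    exact (Ideal.Quotient.eq.mpr (hc y j)).symm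

end Main


section Final

variable {S N : Type*} [CommRing S] [CommRing N] [Algebra S N]
variable {Y I₁ I₂ : Type*} [Fintype Y] [Fintype I₁] [Fintype I₂]
variable (F : N →+* N) (m : Y → Ideal N)

/-- **Graph count.** See the module docstring. -/
theorem eq_glued (hmax : ∀ y, (m y).IsMaximal) (hinj : Function.Injective m)
    (hfix : ∀ y a, F (F a) - a ∈ m y)
    (hfin : ∀ y, Module.length S (N ⧸ m y) ≠ ⊤)
    (hcard : Fintype.card I₁ = Fintype.card I₂)
    (C : Subalgebra S ((I₁ → N) × (I₂ → N)))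
    (hdiag : ∀ a : N, ((fun _ => a, fun _ => F a) : (I₁ → N) × (I₂ → N)) ∈ C)
    (hGD₁ : ∀ y (i : I₁), ∃ j : I₂, ∀ c ∈ C, F (c.2 j) ∈ m y → c.1 i ∈ m y)
    (hGD₂ : ∀ y (j : I₂), ∃ i : I₁, ∀ c ∈ C, c.1 i ∈ m y → F (c.2 j) ∈ m y)
    (hlen : Module.length S (((I₁ → N) × (I₂ → N)) ⧸ Subalgebra.toSubmodule C) ≤
      (Fintype.card I₁ : ℕ∞) * ∑ y, Module.length S (N ⧸ m y)) :
    ∃ τ : Y → (I₂ ≃ I₁), ∀ c : (I₁ → N) × (I₂ → N),
      c ∈ C ↔ ∀ y j, F (c.2 j) - c.1 (τ y j) ∈ m y := by
  rcases isEmpty_or_nonempty I₂ with hI₂ | ⟨⟨j₀⟩⟩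
  · -- no branches at all
    have hI₁ : IsEmpty I₁ := by
      rw [← Fintype.card_eq_zero_iff, hcard, Fintype.card_eq_zero_iff]
      exact hI₂
    refine ⟨fun _ => Equiv.equivOfIsEmpty I₂ I₁, fun c => ⟨fun _ y j => isEmptyElim j, fun _ => ?_⟩⟩
    have hc : c = 0 := by
      refine Prod.ext (funext fun i => isEmptyElim i) (funext fun j => isEmptyElim j)
    rw [hc]
    exact C.zero_mem
  · -- `F` is compatible with the base ring at the nodes
    have hS : ∀ y (s : S), F (algebraMap S N s) - algebraMap S N s ∈ m y := by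
      intro y s
      obtain ⟨i, hi⟩ := hGD₂ y j₀
      set z : (I₁ → N) × (I₂ → N) :=
        algebraMap S ((I₁ → N) × (I₂ → N)) s -
          ((fun _ => algebraMap S N s, fun _ => F (algebraMap S N s)) : (I₁ → N) × (I₂ → N))
        with hz
      have hzC : z ∈ C := C.sub_mem (C.algebraMap_mem s) (hdiag _)
      have hz1 : z.1 i = 0 := by
        show algebraMap S N s - algebraMap S N s = 0
        exact sub_self _
      have hz2 : z.2 j₀ = algebraMap S N s - F (algebraMap S N s) := rfl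
      have h1 : F (z.2 j₀) ∈ m y := hi z hzC (by rw [hz1]; exact (m y).zero_mem)
      rw [hz2, map_sub] at h1
      have h2 := (m y).add_mem h1 (hfix y (algebraMap S N s))
      have h3 : F (algebraMap S N s) - F (F (algebraMap S N s)) +
          (F (F (algebraMap S N s)) - algebraMap S N s) =
          F (algebraMap S N s) - algebraMap S N s := by ring
      rw [h3] at h2
      exact h2
    exact eq_glued_core F m hmax hinj hfix hS hfin hcard C hdiag hGD₁ hGD₂ hlen

/-! ### Lengths: CRT and the glued ring -/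

/-- CRT for lengths: `length (N / ⨅ y, m y) = ∑ y, length (N / m y)`. -/
theorem length_quot_iInf (hmax : ∀ y, (m y).IsMaximal) (hinj : Function.Injective m) :
    Module.length S (N ⧸ ⨅ y, m y) = ∑ y, Module.length S (N ⧸ m y) := by
  let e := Ideal.quotientInfRingEquivPiQuotient m (pairwise_coprime m hmax hinj)
  let e' : (N ⧸ ⨅ y, m y) ≃ₗ[S] ((y : Y) → N ⧸ m y) :=
    { e with
      map_smul' := by
        intro s x
        obtain ⟨a, rfl⟩ := Ideal.Quotient.mk_surjective x
        funext y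
        show Ideal.Quotient.mkₐ S (m y) (s • a) = s • Ideal.Quotient.mkₐ S (m y) a
        exact map_smul _ _ _ }
  rw [e'.length_eq, Module.length_pi_of_fintype]

variable {F} in
/-- The difference map `(f, g) ↦ [f - F g]` as an `S`-linear map. -/
def deltaₗ (J : Ideal N) (hS : ∀ s : S, F (algebraMap S N s) - algebraMap S N s ∈ J) :
    (N × N) →ₗ[S] N ⧸ J where
  toFun x := Ideal.Quotient.mk J (x.1 - F x.2)
  map_add' a b := by
    show Ideal.Quotient.mk J ((a.1 + b.1) - F (a.2 + b.2)) =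
      Ideal.Quotient.mk J (a.1 - F a.2) + Ideal.Quotient.mk J (b.1 - F b.2)
    rw [← map_add]
    congr 1
    rw [map_add]
    ring
  map_smul' s a := by
    have h1 : Ideal.Quotient.mk J (F (algebraMap S N s)) =
        Ideal.Quotient.mk J (algebraMap S N s) := Ideal.Quotient.eq.mpr (hS s)
    have h2 : (s • a).1 = algebraMap S N s * a.1 := by
      rw [← Algebra.smul_def]; rfl
    have h3 : (s • a).2 = algebraMap S N s * a.2 := by
      rw [← Algebra.smul_def]; rfl
    show Ideal.Quotient.mk J ((s • a).1 - F (s • a).2) = s • Ideal.Quotient.mk J (a.1 - F a.2)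
    rw [h2, h3, map_sub, map_mul, map_mul, map_mul, h1, ← mul_sub, ← map_sub, ← map_mul,
      ← Algebra.smul_def]
    show Ideal.Quotient.mkₐ S J (s • (a.1 - F a.2)) = s • Ideal.Quotient.mkₐ S J (a.1 - F a.2)
    exact map_smul _ _ _

theorem deltaₗ_apply (J : Ideal N) (hS : ∀ s : S, F (algebraMap S N s) - algebraMap S N s ∈ J)
    (x : N × N) : deltaₗ J hS x = Ideal.Quotient.mk J (x.1 - F x.2) := rfl

theorem deltaₗ_surjective (J : Ideal N)
    (hS : ∀ s : S, F (algebraMap S N s) - algebraMap S N s ∈ J) :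
    Function.Surjective (deltaₗ J hS) := by
  intro q
  obtain ⟨a, rfl⟩ := Ideal.Quotient.mk_surjective q
  exact ⟨(a, 0), by simp [deltaₗ_apply]⟩

variable {F} in
/-- The glued ring `{(f, g) | f - F g ∈ J}` as an `S`-submodule of `N × N`. -/
def glueSubmodule (J : Ideal N) (hS : ∀ s : S, F (algebraMap S N s) - algebraMap S N s ∈ J) :
    Submodule S (N × N) := LinearMap.ker (deltaₗ J hS)

theorem mem_glueSubmodule (J : Ideal N)
    (hS : ∀ s : S, F (algebraMap S N s) - algebraMap S N s ∈ J) (x : N × N) :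
    x ∈ glueSubmodule J hS ↔ x.1 - F x.2 ∈ J := by
  rw [glueSubmodule, LinearMap.mem_ker, deltaₗ_apply, Ideal.Quotient.eq_zero_iff_mem]

theorem coe_glueSubmodule (J : Ideal N)
    (hS : ∀ s : S, F (algebraMap S N s) - algebraMap S N s ∈ J) :
    (glueSubmodule J hS : Set (N × N)) = (Glue.glueSubring F J : Set (N × N)) := by
  ext x
  exact mem_glueSubmodule F J hS x

/-- **Colength of the glued ring**, `S`-linear form of `Glue.quotEquiv`. -/
theorem length_quot_glue (J : Ideal N)
    (hS : ∀ s : S, F (algebraMap S N s) - algebraMap S N s ∈ J) :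
    Module.length S ((N × N) ⧸ glueSubmodule J hS) = Module.length S (N ⧸ J) :=
  ((deltaₗ J hS).quotKerEquivOfSurjective (deltaₗ_surjective F J hS)).length_eq

/-! ### Consequences of the graph-covering structure -/

section Consequences

variable {F m}
variable {C : Set ((I₁ → N) × (I₂ → N))} {τ : Y → (I₂ ≃ I₁)}

/-- The projection of `C` to the `∞`-branches is onto. -/
theorem exists_mem_fst_eq (hmax : ∀ y, (m y).IsMaximal) (hinj : Function.Injective m)
    (hfix : ∀ y a, F (F a) - a ∈ m y)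
    (hC : ∀ c : (I₁ → N) × (I₂ → N), c ∈ C ↔ ∀ y j, F (c.2 j) - c.1 (τ y j) ∈ m y)
    (u : I₁ → N) : ∃ c ∈ C, c.1 = u := by
  choose a ha using fun j : I₂ =>
    exists_forall_mk_eq m hmax hinj (fun y => Ideal.Quotient.mk (m y) (u (τ y j)))
  refine ⟨(u, fun j => F (a j)), (hC _).mpr fun y j => ?_, rfl⟩
  have h1 : F (F (a j)) - a j ∈ m y := hfix y (a j)
  have h2 : a j - u (τ y j) ∈ m y := Ideal.Quotient.eq.mp (ha j y)
  have h3 : F (F (a j)) - u (τ y j) = (F (F (a j)) - a j) + (a j - u (τ y j)) := by ring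
  show F (F (a j)) - u (τ y j) ∈ m y
  rw [h3]
  exact (m y).add_mem h1 h2

/-- The projection of `C` to the `0`-branches is onto. -/
theorem exists_mem_snd_eq (hmax : ∀ y, (m y).IsMaximal) (hinj : Function.Injective m)
    (hC : ∀ c : (I₁ → N) × (I₂ → N), c ∈ C ↔ ∀ y j, F (c.2 j) - c.1 (τ y j) ∈ m y)
    (v : I₂ → N) : ∃ c ∈ C, c.2 = v := by
  choose a ha using fun i : I₁ =>
    exists_forall_mk_eq m hmax hinj (fun y => Ideal.Quotient.mk (m y) (F (v ((τ y).symm i))))
  refine ⟨(a, v), (hC _).mpr fun y j => ?_, rfl⟩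
  have h2 : a (τ y j) - F (v ((τ y).symm (τ y j))) ∈ m y := Ideal.Quotient.eq.mp (ha (τ y j) y)
  rw [Equiv.symm_apply_apply] at h2
  have h3 : F (v j) - a (τ y j) = -(a (τ y j) - F (v j)) := by ring
  show F (v j) - a (τ y j) ∈ m y
  rw [h3]
  exact (m y).neg_mem h2

/-- Two distinct `∞`-branches are comaximal in `C`. -/
theorem exists_sep₁ (hmax : ∀ y, (m y).IsMaximal) (hinj : Function.Injective m)
    (hfix : ∀ y a, F (F a) - a ∈ m y)
    (hC : ∀ c : (I₁ → N) × (I₂ → N), c ∈ C ↔ ∀ y j, F (c.2 j) - c.1 (τ y j) ∈ m y)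
    {i i' : I₁} (hne : i ≠ i') : ∃ c ∈ C, c.1 i = 0 ∧ c.1 i' = 1 := by
  classical
  obtain ⟨c, hc, h⟩ := exists_mem_fst_eq hmax hinj hfix hC (Pi.single i' (1 : N))
  refine ⟨c, hc, ?_, ?_⟩
  · rw [h, Pi.single_eq_of_ne hne]
  · rw [h, Pi.single_eq_same]

/-- Two distinct `0`-branches are comaximal in `C`. -/
theorem exists_sep₂ (hmax : ∀ y, (m y).IsMaximal) (hinj : Function.Injective m)
    (hC : ∀ c : (I₁ → N) × (I₂ → N), c ∈ C ↔ ∀ y j, F (c.2 j) - c.1 (τ y j) ∈ m y)
    {j j' : I₂} (hne : j ≠ j') : ∃ c ∈ C, c.2 j = 0 ∧ c.2 j' = 1 := by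
  classical
  obtain ⟨c, hc, h⟩ := exists_mem_snd_eq hmax hinj hC (Pi.single j' (1 : N))
  refine ⟨c, hc, ?_, ?_⟩
  · rw [h, Pi.single_eq_of_ne hne]
  · rw [h, Pi.single_eq_same]

/-- **The node datum is canonical**: `τ y j = i` iff the point of the `0`-branch `j` above the
node `y` lies on the `∞`-branch `i`. -/
theorem tau_eq_iff (hmax : ∀ y, (m y).IsMaximal) (hinj : Function.Injective m)
    (hfix : ∀ y a, F (F a) - a ∈ m y)
    (hC : ∀ c : (I₁ → N) × (I₂ → N), c ∈ C ↔ ∀ y j, F (c.2 j) - c.1 (τ y j) ∈ m y)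
    (y : Y) (j : I₂) (i : I₁) :
    τ y j = i ↔ ∀ c ∈ C, c.1 i ∈ m y → F (c.2 j) ∈ m y := by
  classical
  constructor
  · rintro rfl c hc h
    have h1 := (hC c).mp hc y j
    have h2 : F (c.2 j) = (F (c.2 j) - c.1 (τ y j)) + c.1 (τ y j) := by ring
    rw [h2]
    exact (m y).add_mem h1 h
  · intro h
    by_contra hne
    obtain ⟨c, hc, hc1⟩ := exists_mem_fst_eq hmax hinj hfix hC (Pi.single (τ y j) (1 : N))
    have h1 : c.1 i ∈ m y := by
      rw [hc1, Pi.single_eq_of_ne (fun h' => hne h'.symm)]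
      exact (m y).zero_mem
    have h2 := h c hc h1
    have h3 := (hC c).mp hc y j
    rw [hc1, Pi.single_eq_same] at h3
    have h4 : (1 : N) ∈ m y := by
      have : (1 : N) = F (c.2 j) - (F (c.2 j) - 1) := by ring
      rw [this]
      exact (m y).sub_mem h2 h3
    exact (hmax y).ne_top ((Ideal.eq_top_iff_one _).mpr h4)

/-- Uniqueness of the node data: two families of bijections describing the same `C` agree. -/
theorem tau_unique (hmax : ∀ y, (m y).IsMaximal) (hinj : Function.Injective m)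
    (hfix : ∀ y a, F (F a) - a ∈ m y) {τ' : Y → (I₂ ≃ I₁)}
    (hC : ∀ c : (I₁ → N) × (I₂ → N), c ∈ C ↔ ∀ y j, F (c.2 j) - c.1 (τ y j) ∈ m y)
    (hC' : ∀ c : (I₁ → N) × (I₂ → N), c ∈ C ↔ ∀ y j, F (c.2 j) - c.1 (τ' y j) ∈ m y) :
    τ = τ' := by
  funext y
  ext j
  exact ((tau_eq_iff hmax hinj hfix hC' y j (τ y j)).mpr
    ((tau_eq_iff hmax hinj hfix hC y j (τ y j)).mp rfl)).symm

end Consequences

end Final

end Fermat.Agent.S34.GraphCount
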