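import Mathlib
import Fermat.Agent.S34.GraphCount

/-!
# S34 route, brick SSc-(4), general form: the branch count for two branch rings

Same theorem as `GraphCount.eq_glued`, in the shape needed by the `K`-level nodal contract
(`S34/Nodal/Defs.lean`), where the two components `B/p₁`, `B/p₂` are NOT identified:

* `S` : any commutative ring (in the application the DVR `R*/π`, `R* = O[u]_{x*}`);
* `N₁`, `N₂` : the two branch rings (`(B/p₁)_{x*}`, `(B/p₂)_{x*}`), `S`-algebras;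
* `k y` (`y : Y`, a fintype) : the residue fields at the crossing points above `x*`,
  `ρ₁ y : N₁ →ₐ[S] k y`, `ρ₂ y : N₂ →ₐ[S] k y` the two evaluations, jointly surjective
  (`hsurj₁`, `hsurj₂`: CRT), so that `B/π = {(f, g) | ∀ y, ρ₁ y f = ρ₂ y g}`
  (`= B/p₁ ×_{B/(p₁+p₂)} B/p₂`, `p₁ + p₂` radical);
* `I₁`, `I₂` : the branches of the cover over `p₁`, `p₂` (`card I₁ = card I₂ = d`);
* `C ⊆ (I₁ → N₁) × (I₂ → N₂)` : the special fibre of the cover, an `S`-subalgebra containing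
  the diagonal image of `B/π`.

**Theorem `eq_glued`.** Going-down (`hGD₁`, `hGD₂`) and the colength bound
`length_S (_ / C) ≤ d * ∑_y length_S (k y)` give bijections `τ y : I₂ ≃ I₁` with

  `C = {c | ∀ y j, ρ₂ y (c.2 j) = ρ₁ y (c.1 (τ y j))}`.

Also: `glueSubmodule`, `length_quot_glue` (`colength (B/π) = ∑_y length_S (k y)`), and the
consequences `exists_mem_fst_eq`, `exists_mem_snd_eq`, `exists_sep₁`, `exists_sep₂`, `tau_eq_iff`,
`tau_unique` (comaximality of branches of the same kind; `τ` is canonical).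

The special case `N₁ = N₂ = N`, `k y = N ⧸ m y`, `ρ₁ y = mk`, `ρ₂ y = mk ∘ F` is
`GraphCount.eq_glued`.
-/

set_option autoImplicit false
set_option linter.unusedSectionVars false

namespace Fermat.Agent.S34.GraphCountGen

open Module

section Core

variable {S N₁ N₂ : Type*} [CommRing S] [CommRing N₁] [CommRing N₂] [Algebra S N₁] [Algebra S N₂]
variable {Y I₁ I₂ : Type*}
variable {k : Y → Type*} [∀ y, Field (k y)] [∀ y, Algebra S (k y)]
variable (ρ₁ : ∀ y, N₁ →ₐ[S] k y) (ρ₂ : ∀ y, N₂ →ₐ[S] k y)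

/-- Evaluation of the branches over `p₁` at the crossing points. -/
def ev₁ : ((I₁ → N₁) × (I₂ → N₂)) →ₗ[S] ((y : Y) → I₁ → k y) where
  toFun c := fun y i => ρ₁ y (c.1 i)
  map_add' a b := by
    funext y i
    simp
  map_smul' s a := by
    funext y i
    show ρ₁ y (s • a.1 i) = s • ρ₁ y (a.1 i)
    exact map_smul _ _ _

@[simp]
theorem ev₁_apply (c : (I₁ → N₁) × (I₂ → N₂)) (y : Y) (i : I₁) :
    ev₁ (N₂ := N₂) (I₂ := I₂) ρ₁ c y i = ρ₁ y (c.1 i) := rfl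

/-- Evaluation of the branches over `p₂` at the crossing points. -/
def ev₂ : ((I₁ → N₁) × (I₂ → N₂)) →ₗ[S] ((y : Y) → I₂ → k y) where
  toFun c := fun y j => ρ₂ y (c.2 j)
  map_add' a b := by
    funext y j
    simp
  map_smul' s a := by
    funext y j
    show ρ₂ y (s • a.2 j) = s • ρ₂ y (a.2 j)
    exact map_smul _ _ _

@[simp]
theorem ev₂_apply (c : (I₁ → N₁) × (I₂ → N₂)) (y : Y) (j : I₂) :
    ev₂ (N₁ := N₁) (I₁ := I₁) ρ₂ c y j = ρ₂ y (c.2 j) := rfl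

end Core

section Main

variable {S N₁ N₂ : Type*} [CommRing S] [CommRing N₁] [CommRing N₂] [Algebra S N₁] [Algebra S N₂]
variable {Y I₁ I₂ : Type*} [Fintype Y] [Fintype I₁] [Fintype I₂]
variable {k : Y → Type*} [∀ y, Field (k y)] [∀ y, Algebra S (k y)]
variable (ρ₁ : ∀ y, N₁ →ₐ[S] k y) (ρ₂ : ∀ y, N₂ →ₐ[S] k y)

/-- The length of the product of the residue fields at the crossing points. -/
theorem length_pi_nodes (k : Y → Type*) [∀ y, Field (k y)] [∀ y, Algebra S (k y)]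
    (I : Type*) [Fintype I] :
    Module.length S ((y : Y) → I → k y) =
      (Fintype.card I : ℕ∞) * ∑ y, Module.length S (k y) := by
  rw [Module.length_pi_of_fintype, Finset.mul_sum]
  refine Finset.sum_congr rfl fun y _ => ?_
  rw [Module.length_pi, ENat.card_eq_coe_fintype_card]

/-- **Graph count, general form.** See the module docstring. -/
theorem eq_glued (hsurj₁ : ∀ u : (y : Y) → k y, ∃ a : N₁, ∀ y, ρ₁ y a = u y)
    (hsurj₂ : ∀ u : (y : Y) → k y, ∃ b : N₂, ∀ y, ρ₂ y b = u y)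
    (hfin : ∀ y, Module.length S (k y) ≠ ⊤)
    (hcard : Fintype.card I₁ = Fintype.card I₂)
    (C : Subalgebra S ((I₁ → N₁) × (I₂ → N₂)))
    (hdiag : ∀ (a : N₁) (b : N₂), (∀ y, ρ₁ y a = ρ₂ y b) →
      ((fun _ => a, fun _ => b) : (I₁ → N₁) × (I₂ → N₂)) ∈ C)
    (hGD₁ : ∀ y (i : I₁), ∃ j : I₂, ∀ c ∈ C, ρ₂ y (c.2 j) = 0 → ρ₁ y (c.1 i) = 0)
    (hGD₂ : ∀ y (j : I₂), ∃ i : I₁, ∀ c ∈ C, ρ₁ y (c.1 i) = 0 → ρ₂ y (c.2 j) = 0)
    (hlen : Module.length S (((I₁ → N₁) × (I₂ → N₂)) ⧸ Subalgebra.toSubmodule C) ≤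
      (Fintype.card I₁ : ℕ∞) * ∑ y, Module.length S (k y)) :
    ∃ τ : Y → (I₂ ≃ I₁), ∀ c : (I₁ → N₁) × (I₂ → N₂),
      c ∈ C ↔ ∀ y j, ρ₂ y (c.2 j) = ρ₁ y (c.1 (τ y j)) := by
  classical
  -- the two evaluation maps
  set φ₁ : ((I₁ → N₁) × (I₂ → N₂)) →ₗ[S] ((y : Y) → I₁ → k y) :=
    ev₁ (N₂ := N₂) (I₂ := I₂) ρ₁ with hφ₁
  set φ₂ : ((I₁ → N₁) × (I₂ → N₂)) →ₗ[S] ((y : Y) → I₂ → k y) :=
    ev₂ (N₁ := N₁) (I₁ := I₁) ρ₂ with hφ₂
  -- Step 1: `φ₁` is injective on the image of `C`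
  have hker : ∀ c ∈ C, φ₁ c = 0 → φ₂ c = 0 := by
    intro c hc h0
    funext y j
    obtain ⟨i, hi⟩ := hGD₂ y j
    have h1 : ρ₁ y (c.1 i) = 0 := congrFun (congrFun h0 y) i
    exact hi c hc h1
  have hker' : ∀ c ∈ C, ∀ c' ∈ C, φ₁ c = φ₁ c' → φ₂ c = φ₂ c' := by
    intro c hc c' hc' h
    have h1 : φ₁ (c - c') = 0 := by rw [map_sub, h, sub_self]
    have h2 := hker (c - c') (C.sub_mem hc hc') h1
    rw [map_sub, sub_eq_zero] at h2
    exact h2
  -- Step 2/3: the length squeeze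
  set L : ℕ∞ := (Fintype.card I₁ : ℕ∞) * ∑ y, Module.length S (k y) with hLdef
  have hL : L ≠ ⊤ :=
    WithTop.mul_ne_top (ENat.natCast_ne_top _) (ENat.sum_ne_top.mpr fun y _ => hfin y)
  have hP₁ : Module.length S ((y : Y) → I₁ → k y) = L := length_pi_nodes k I₁
  have hP₂ : Module.length S ((y : Y) → I₂ → k y) = L := by
    rw [length_pi_nodes k I₂, ← hcard]
  have hV : Module.length S (((y : Y) → I₁ → k y) × ((y : Y) → I₂ → k y)) = L + L := by
    rw [Module.length_prod, hP₁, hP₂]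
  have hsq := GraphCount.length_squeeze (Subalgebra.toSubmodule C) (φ₁.prod φ₂)
    (by
      rintro ⟨u, v⟩
      choose a ha using fun i => hsurj₁ (fun y => u y i)
      choose b hb using fun j => hsurj₂ (fun y => v y j)
      refine ⟨(a, b), Prod.ext ?_ ?_⟩
      · funext y i
        exact ha i y
      · funext y j
        exact hb j y)
    (LinearMap.fst S _ _)
    (by
      intro c hc h0
      have h1 : φ₁ c = 0 := h0
      exact Prod.ext h1 (hker c hc h1))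
    L hL hP₁ hV hlen
  obtain ⟨hsurj, hsat⟩ := hsq
  have hsurjC : ∀ u : (y : Y) → I₁ → k y, ∃ c ∈ C, φ₁ c = u := fun u => hsurj u
  have hsat' : ∀ x : (I₁ → N₁) × (I₂ → N₂), (∃ c ∈ C, φ₁ c = φ₁ x ∧ φ₂ c = φ₂ x) → x ∈ C := by
    rintro x ⟨c, hc, h1, h2⟩
    exact hsat x ⟨c, hc, Prod.ext h1 h2⟩
  -- pointwise formulas
  have φ₁_mul : ∀ a b : (I₁ → N₁) × (I₂ → N₂), ∀ y i,
      φ₁ (a * b) y i = φ₁ a y i * φ₁ b y i := by
    intro a b y i
    show ρ₁ y (a.1 i * b.1 i) = _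
    rw [map_mul]; rfl
  have φ₂_mul : ∀ a b : (I₁ → N₁) × (I₂ → N₂), ∀ y j,
      φ₂ (a * b) y j = φ₂ a y j * φ₂ b y j := by
    intro a b y j
    show ρ₂ y (a.2 j * b.2 j) = _
    rw [map_mul]; rfl
  -- the diagonal elements
  choose bb hbb using fun a : N₁ => hsurj₂ (fun y => ρ₁ y a)
  let dg : N₁ → (I₁ → N₁) × (I₂ → N₂) := fun a => (fun _ => a, fun _ => bb a)
  have hdg : ∀ a, dg a ∈ C := fun a => hdiag a (bb a) fun y => (hbb a y).symm
  have φ₁_dg : ∀ a y i, φ₁ (dg a) y i = ρ₁ y a := fun a y i => rfl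
  have φ₂_dg : ∀ a y j, φ₂ (dg a) y j = ρ₁ y a := fun a y j => hbb a y
  -- Step 4: the idempotents
  let ε : Y × I₁ → ((y : Y) → I₁ → k y) := fun p y i => if (y, i) = p then 1 else 0
  choose cc hccC hcc using fun p : Y × I₁ => hsurjC (ε p)
  have hε : ∀ (p : Y × I₁) y' i', φ₁ (cc p) y' i' = if (y', i') = p then (1 : k y') else 0 := by
    intro p y' i'
    rw [hcc p]
  -- (P1) idempotent
  have P1 : ∀ p y j, φ₂ (cc p) y j * φ₂ (cc p) y j = φ₂ (cc p) y j := by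
    intro p y j
    have h1 : φ₁ (cc p * cc p) = φ₁ (cc p) := by
      funext y' i'
      rw [φ₁_mul, hε]
      split_ifs <;> simp
    have h2 := hker' _ (C.mul_mem (hccC p) (hccC p)) _ (hccC p) h1
    have h3 := congrFun (congrFun h2 y) j
    rw [φ₂_mul] at h3
    exact h3
  -- (P2) orthogonal
  have P2 : ∀ p p', p ≠ p' → ∀ y j, φ₂ (cc p) y j * φ₂ (cc p') y j = 0 := by
    intro p p' hne y j
    have h1 : φ₁ (cc p * cc p') = φ₁ 0 := by
      funext y' i'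
      rw [φ₁_mul, hε, hε, map_zero]
      show (if (y', i') = p then (1 : k y') else 0) * (if (y', i') = p' then 1 else 0) = 0
      by_cases h : (y', i') = p
      · have h' : (y', i') ≠ p' := fun h'' => hne (h.symm.trans h'')
        rw [if_pos h, if_neg h', mul_zero]
      · rw [if_neg h, zero_mul]
    have h2 := hker' _ (C.mul_mem (hccC p) (hccC p')) _ C.zero_mem h1
    have h3 := congrFun (congrFun h2 y) j
    rw [φ₂_mul, map_zero] at h3
    exact h3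
  -- (P3) sum
  have P3 : ∀ y j, ∑ p, φ₂ (cc p) y j = 1 := by
    intro y j
    have h1 : φ₁ (∑ p, cc p) = φ₁ 1 := by
      funext y' i'
      rw [map_sum]
      show (∑ p, φ₁ (cc p)) y' i' = ρ₁ y' 1
      rw [Finset.sum_apply, Finset.sum_apply, map_one]
      have : ∀ p, φ₁ (cc p) y' i' = if p = (y', i') then (1 : k y') else 0 := by
        intro p
        rw [hε]
        by_cases h : (y', i') = p
        · rw [if_pos h, if_pos h.symm]
        · rw [if_neg h, if_neg (fun h' => h h'.symm)]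
      rw [Finset.sum_congr rfl fun p _ => this p, Finset.sum_ite_eq' Finset.univ (y', i')]
      simp
    have h2 := hker' _ (C.sum_mem fun p _ => hccC p) _ C.one_mem h1
    have h3 := congrFun (congrFun h2 y) j
    rw [map_sum, Finset.sum_apply, Finset.sum_apply] at h3
    rw [h3]
    show ρ₂ y 1 = 1
    rw [map_one]
  -- (P4) support
  have P4 : ∀ (p : Y × I₁) y j, y ≠ p.1 → φ₂ (cc p) y j = 0 := by
    intro p y j hy
    obtain ⟨a, ha⟩ := hsurj₁ (fun y' => if y' = p.1 then (1 : k y') else 0)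
    have h1 : φ₁ (cc p * dg a) = φ₁ (cc p) := by
      funext y' i'
      rw [φ₁_mul, φ₁_dg, ha y', hε]
      by_cases h : (y', i') = p
      · have h' : y' = p.1 := by rw [← h]
        rw [if_pos h, if_pos h', mul_one]
      · rw [if_neg h, zero_mul]
    have h2 := hker' _ (C.mul_mem (hccC p) (hdg a)) _ (hccC p) h1
    have h3 := congrFun (congrFun h2 y) j
    rw [φ₂_mul, φ₂_dg, ha y, if_neg hy, mul_zero] at h3
    exact h3.symm
  -- the matching
  have key : ∀ y (j : I₂), ∃ i : I₁, φ₂ (cc (y, i)) y j = 1 ∧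
      ∀ p : Y × I₁, p ≠ (y, i) → φ₂ (cc p) y j = 0 := by
    intro y j
    have hne : ∃ p : Y × I₁, φ₂ (cc p) y j ≠ 0 := by
      by_contra hcon
      have hcon' : ∀ p : Y × I₁, φ₂ (cc p) y j = 0 := fun p =>
        by_contra fun h => hcon ⟨p, h⟩
      have := P3 y j
      rw [Finset.sum_eq_zero fun p _ => hcon' p] at this
      exact zero_ne_one this
    obtain ⟨p, hp⟩ := hne
    have hp1 : p.1 = y := by
      by_contra h
      exact hp (P4 p y j (fun h' => h h'.symm))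
    have hp' : p = (y, p.2) := Prod.ext hp1 rfl
    have hone : φ₂ (cc p) y j = 1 := by
      have h := P1 p y j
      have h' : φ₂ (cc p) y j * (φ₂ (cc p) y j - 1) = 0 := by rw [mul_sub, h, mul_one, sub_self]
      rcases mul_eq_zero.mp h' with h0 | h0
      · exact absurd h0 hp
      · exact sub_eq_zero.mp h0
    refine ⟨p.2, ?_, ?_⟩
    · rw [← hp']; exact hone
    · intro p' hp'ne
      have hne' : p ≠ p' := fun h => hp'ne (by rw [← h]; exact hp')
      have h := P2 p p' hne' y j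
      rw [hone, one_mul] at h
      exact h
  choose τ₀ hτ1 hτ0 using key
  -- (P5) the image of `C` is the graph of `τ₀`
  have P5 : ∀ c ∈ C, ∀ y j, φ₂ c y j = φ₁ c y (τ₀ y j) := by
    intro c hc y j
    set c' : (I₁ → N₁) × (I₂ → N₂) := ∑ p : Y × I₁, dg (c.1 p.2) * cc p with hc'
    have hc'C : c' ∈ C := C.sum_mem fun p _ => C.mul_mem (hdg _) (hccC p)
    have h1 : φ₁ c' = φ₁ c := by
      funext y' i'
      rw [hc', map_sum, Finset.sum_apply, Finset.sum_apply]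
      have : ∀ p : Y × I₁, φ₁ (dg (c.1 p.2) * cc p) y' i' =
          if p = (y', i') then ρ₁ y' (c.1 i') else 0 := by
        intro p
        rw [φ₁_mul, φ₁_dg, hε]
        by_cases h : (y', i') = p
        · rw [if_pos h, if_pos h.symm, mul_one, ← h]
        · rw [if_neg h, if_neg (fun h' => h h'.symm), mul_zero]
      rw [Finset.sum_congr rfl fun p _ => this p, Finset.sum_ite_eq' Finset.univ (y', i')]
      simp
      rfl
    have h2 := hker' _ hc'C _ hc h1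
    have h3 := congrFun (congrFun h2 y) j
    rw [← h3, hc', map_sum, Finset.sum_apply, Finset.sum_apply]
    have : ∀ p : Y × I₁, φ₂ (dg (c.1 p.2) * cc p) y j =
        if p = (y, τ₀ y j) then ρ₁ y (c.1 (τ₀ y j)) else 0 := by
      intro p
      rw [φ₂_mul, φ₂_dg]
      by_cases h : p = (y, τ₀ y j)
      · rw [if_pos h, h, hτ1, mul_one]
      · rw [if_neg h, hτ0 y j p h, mul_zero]
    rw [Finset.sum_congr rfl fun p _ => this p, Finset.sum_ite_eq' Finset.univ (y, τ₀ y j)]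
    simp
    rfl
  -- Step 5: bijectivity
  have hτsurj : ∀ y, Function.Surjective (τ₀ y) := by
    intro y i
    obtain ⟨j, hj⟩ := hGD₁ y i
    refine ⟨j, ?_⟩
    by_contra hne
    have h1 : φ₂ (cc (y, i)) y j = 0 := by
      rw [P5 _ (hccC _) y j, hε]
      rw [if_neg]
      intro h
      exact hne (Prod.ext_iff.mp h).2
    have h3 : ρ₁ y ((cc (y, i)).1 i) = 0 := hj _ (hccC _) h1
    have h4 : φ₁ (cc (y, i)) y i = 0 := h3
    rw [hε, if_pos rfl] at h4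
    exact one_ne_zero h4
  have hτbij : ∀ y, Function.Bijective (τ₀ y) := fun y =>
    (Fintype.bijective_iff_surjective_and_card (τ₀ y)).mpr ⟨hτsurj y, hcard.symm⟩
  refine ⟨fun y => Equiv.ofBijective (τ₀ y) (hτbij y), fun c => ⟨fun hc y j => ?_, fun hc => ?_⟩⟩
  · exact P5 c hc y j
  · obtain ⟨c₀, hc₀, h0⟩ := hsurjC (φ₁ c)
    refine hsat' c ⟨c₀, hc₀, h0, ?_⟩
    funext y j
    rw [P5 c₀ hc₀ y j, h0]
    exact (hc y j).symm

/-! ### The glued ring and its colength -/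

/-- The difference map `(f, g) ↦ (ρ₁ y f - ρ₂ y g)_y`. -/
def deltaₗ : (N₁ × N₂) →ₗ[S] ((y : Y) → k y) where
  toFun x := fun y => ρ₁ y x.1 - ρ₂ y x.2
  map_add' a b := by
    funext y
    simp only [Prod.fst_add, Prod.snd_add, map_add, Pi.add_apply]
    ring
  map_smul' s a := by
    funext y
    show ρ₁ y (s • a.1) - ρ₂ y (s • a.2) = s • (ρ₁ y a.1 - ρ₂ y a.2)
    rw [map_smul, map_smul, smul_sub]

theorem deltaₗ_apply (x : N₁ × N₂) (y : Y) : deltaₗ ρ₁ ρ₂ x y = ρ₁ y x.1 - ρ₂ y x.2 := rfl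

theorem deltaₗ_surjective (hsurj₁ : ∀ u : (y : Y) → k y, ∃ a : N₁, ∀ y, ρ₁ y a = u y) :
    Function.Surjective (deltaₗ ρ₁ ρ₂) := by
  intro u
  obtain ⟨a, ha⟩ := hsurj₁ u
  refine ⟨(a, 0), ?_⟩
  funext y
  rw [deltaₗ_apply, ha y, map_zero, sub_zero]

/-- The glued ring `{(f, g) | ∀ y, ρ₁ y f = ρ₂ y g}` (`= B/π`) as an `S`-submodule of
`N₁ × N₂`. -/
def glueSubmodule : Submodule S (N₁ × N₂) := LinearMap.ker (deltaₗ ρ₁ ρ₂)

theorem mem_glueSubmodule (x : N₁ × N₂) :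
    x ∈ glueSubmodule ρ₁ ρ₂ ↔ ∀ y, ρ₁ y x.1 = ρ₂ y x.2 := by
  rw [glueSubmodule, LinearMap.mem_ker]
  constructor
  · intro h y
    have := congrFun h y
    rw [deltaₗ_apply] at this
    exact sub_eq_zero.mp this
  · intro h
    funext y
    rw [deltaₗ_apply, h y, sub_self]
    rfl

/-- **Colength of the glued ring**: one residue field per crossing point. -/
theorem length_quot_glue (hsurj₁ : ∀ u : (y : Y) → k y, ∃ a : N₁, ∀ y, ρ₁ y a = u y) :
    Module.length S ((N₁ × N₂) ⧸ glueSubmodule ρ₁ ρ₂) = ∑ y, Module.length S (k y) := by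
  have h := ((deltaₗ ρ₁ ρ₂).quotKerEquivOfSurjective
    (deltaₗ_surjective ρ₁ ρ₂ hsurj₁)).length_eq
  rw [Module.length_pi_of_fintype] at h
  exact h

/-! ### Consequences of the graph-covering structure -/

section Consequences

variable {ρ₁ ρ₂}
variable {C : Set ((I₁ → N₁) × (I₂ → N₂))} {τ : Y → (I₂ ≃ I₁)}

/-- The projection of `C` to the branches over `p₁` is onto. -/
theorem exists_mem_fst_eq (hsurj₂ : ∀ u : (y : Y) → k y, ∃ b : N₂, ∀ y, ρ₂ y b = u y)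
    (hC : ∀ c : (I₁ → N₁) × (I₂ → N₂), c ∈ C ↔ ∀ y j, ρ₂ y (c.2 j) = ρ₁ y (c.1 (τ y j)))
    (u : I₁ → N₁) : ∃ c ∈ C, c.1 = u := by
  choose b hb using fun j : I₂ => hsurj₂ (fun y => ρ₁ y (u (τ y j)))
  exact ⟨(u, b), (hC _).mpr fun y j => hb j y, rfl⟩

/-- The projection of `C` to the branches over `p₂` is onto. -/
theorem exists_mem_snd_eq (hsurj₁ : ∀ u : (y : Y) → k y, ∃ a : N₁, ∀ y, ρ₁ y a = u y)
    (hC : ∀ c : (I₁ → N₁) × (I₂ → N₂), c ∈ C ↔ ∀ y j, ρ₂ y (c.2 j) = ρ₁ y (c.1 (τ y j)))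
    (v : I₂ → N₂) : ∃ c ∈ C, c.2 = v := by
  choose a ha using fun i : I₁ => hsurj₁ (fun y => ρ₂ y (v ((τ y).symm i)))
  refine ⟨(a, v), (hC _).mpr fun y j => ?_, rfl⟩
  show ρ₂ y (v j) = ρ₁ y (a (τ y j))
  rw [ha (τ y j) y, Equiv.symm_apply_apply]

/-- Two distinct branches over `p₁` are comaximal in `C`. -/
theorem exists_sep₁ (hsurj₂ : ∀ u : (y : Y) → k y, ∃ b : N₂, ∀ y, ρ₂ y b = u y)
    (hC : ∀ c : (I₁ → N₁) × (I₂ → N₂), c ∈ C ↔ ∀ y j, ρ₂ y (c.2 j) = ρ₁ y (c.1 (τ y j)))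
    {i i' : I₁} (hne : i ≠ i') : ∃ c ∈ C, c.1 i = 0 ∧ c.1 i' = 1 := by
  classical
  obtain ⟨c, hc, h⟩ := exists_mem_fst_eq hsurj₂ hC (Pi.single i' (1 : N₁))
  refine ⟨c, hc, ?_, ?_⟩
  · rw [h, Pi.single_eq_of_ne hne]
  · rw [h, Pi.single_eq_same]

/-- Two distinct branches over `p₂` are comaximal in `C`. -/
theorem exists_sep₂ (hsurj₁ : ∀ u : (y : Y) → k y, ∃ a : N₁, ∀ y, ρ₁ y a = u y)
    (hC : ∀ c : (I₁ → N₁) × (I₂ → N₂), c ∈ C ↔ ∀ y j, ρ₂ y (c.2 j) = ρ₁ y (c.1 (τ y j)))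
    {j j' : I₂} (hne : j ≠ j') : ∃ c ∈ C, c.2 j = 0 ∧ c.2 j' = 1 := by
  classical
  obtain ⟨c, hc, h⟩ := exists_mem_snd_eq hsurj₁ hC (Pi.single j' (1 : N₂))
  refine ⟨c, hc, ?_, ?_⟩
  · rw [h, Pi.single_eq_of_ne hne]
  · rw [h, Pi.single_eq_same]

/-- **The node datum is canonical**: `τ y j = i` iff the point of the branch `j` (over `p₂`)
above the crossing point `y` lies on the branch `i` (over `p₁`). -/
theorem tau_eq_iff (hsurj₂ : ∀ u : (y : Y) → k y, ∃ b : N₂, ∀ y, ρ₂ y b = u y)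
    (hC : ∀ c : (I₁ → N₁) × (I₂ → N₂), c ∈ C ↔ ∀ y j, ρ₂ y (c.2 j) = ρ₁ y (c.1 (τ y j)))
    (y : Y) (j : I₂) (i : I₁) :
    τ y j = i ↔ ∀ c ∈ C, ρ₁ y (c.1 i) = 0 → ρ₂ y (c.2 j) = 0 := by
  classical
  constructor
  · rintro rfl c hc h
    rw [(hC c).mp hc y j, h]
  · intro h
    by_contra hne
    obtain ⟨c, hc, hc1⟩ := exists_mem_fst_eq hsurj₂ hC (Pi.single (τ y j) (1 : N₁))
    have h1 : ρ₁ y (c.1 i) = 0 := by
      rw [hc1, Pi.single_eq_of_ne (fun h' => hne h'.symm), map_zero]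
    have h2 := h c hc h1
    have h3 := (hC c).mp hc y j
    rw [hc1, Pi.single_eq_same, map_one, h2] at h3
    exact zero_ne_one h3

/-- Uniqueness of the node data. -/
theorem tau_unique (hsurj₂ : ∀ u : (y : Y) → k y, ∃ b : N₂, ∀ y, ρ₂ y b = u y)
    {τ' : Y → (I₂ ≃ I₁)}
    (hC : ∀ c : (I₁ → N₁) × (I₂ → N₂), c ∈ C ↔ ∀ y j, ρ₂ y (c.2 j) = ρ₁ y (c.1 (τ y j)))
    (hC' : ∀ c : (I₁ → N₁) × (I₂ → N₂), c ∈ C ↔ ∀ y j, ρ₂ y (c.2 j) = ρ₁ y (c.1 (τ' y j))) :
    τ = τ' := by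
  funext y
  ext j
  exact ((tau_eq_iff hsurj₂ hC' y j (τ y j)).mpr
    ((tau_eq_iff hsurj₂ hC y j (τ y j)).mp rfl)).symm

end Consequences

end Main

end Fermat.Agent.S34.GraphCountGen
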