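import Mathlib

/-!
# Local structure of a Kummer extension with unit radicand (S34 route, input of 3.2(1))

`A` an integrally closed domain with fraction field `F`, `L = F(θ)` with `θ ^ m = ε`, where `ε`
and `m` are units of `A`.  Then the integral closure `C` of `A` in `L` is `A[θ]`, free over `A`
with basis `1, θ, …, θ^(d-1)` (`d = [L : F]`), and the discriminant of this basis is a unit of `A`
(i.e. `C` is finite étale over `A`).

Intended use: `A = B_q`, the localisation of the normal model `B` at a height-one prime `q` of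
the base `R*` (a semilocal principal ideal domain), `θ = T / t` where `h = ε t ^ m` locally.
Mathlib only.
-/

set_option autoImplicit false

open Polynomial Module IntermediateField

namespace Fermat.Agent.S34.KummerLocal

variable {A F L : Type*} [CommRing A] [IsDomain A] [IsIntegrallyClosed A]
  [Field F] [Algebra A F] [IsFractionRing A F]
  [Field L] [Algebra F L] [Algebra A L] [IsScalarTower A F L] [FiniteDimensional F L]

omit [IsIntegrallyClosed A] [FiniteDimensional F L] in
theorem isIntegral_gen {m : ℕ} (hm : IsUnit (m : A)) (ε : A) (θ : L)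
    (hθ : θ ^ m = algebraMap A L ε) : IsIntegral A θ := by
  have hm0 : m ≠ 0 := by
    rintro rfl
    simp at hm
  exact ⟨X ^ m - C ε, monic_X_pow_sub_C ε hm0, by simp [hθ]⟩

/-- The discriminant of a power basis of `F(θ) / F`, `θ ^ m = ε`, is the image of a unit of
`A`. -/
theorem exists_isUnit_discr_powerBasis [Algebra.IsSeparable F L] {m : ℕ} (hm : IsUnit (m : A))
    (ε : A) (hε : IsUnit ε) (θ : L) (hθ : θ ^ m = algebraMap A L ε) (pb : PowerBasis F L)
    (hpb : pb.gen = θ) :
    ∃ δ : A, IsUnit δ ∧ algebraMap A F δ = Algebra.discr F pb.basis := by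
  have hint : IsIntegral A θ := isIntegral_gen hm ε θ hθ
  have hinjAF : Function.Injective (algebraMap A F) := IsFractionRing.injective A F
  have hinjAL : Function.Injective (algebraMap A L) := by
    rw [IsScalarTower.algebraMap_eq A F L]
    exact (algebraMap F L).injective.comp hinjAF
  have : FaithfulSMul A L := (faithfulSMul_iff_algebraMap_injective A L).mpr hinjAL
  -- the minimal polynomial over `A` divides `X ^ m - ε`
  obtain ⟨G2, hG2⟩ : minpoly A θ ∣ X ^ m - C ε :=
    minpoly.isIntegrallyClosed_dvd hint (by simp [hθ])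
  set G := minpoly A θ with hG
  set y : L := aeval θ (derivative G) with hy
  set z : L := aeval θ G2 * θ with hz
  have hyz : y * z = algebraMap A L ((m : A) * ε) := by
    have h1 := congrArg (fun P => aeval θ (derivative P)) hG2
    simp only [derivative_sub, derivative_X_pow, derivative_C, sub_zero, derivative_mul, map_add,
      map_mul, map_pow, aeval_X, map_natCast] at h1
    have hG0 : aeval θ G = 0 := minpoly.aeval A θ
    rw [hG0, zero_mul, add_zero] at h1
    have h2 : y * z = (aeval θ (derivative G) * aeval θ G2) * θ := by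
      rw [hy, hz]; ring
    have hm0 : m ≠ 0 := by
      rintro rfl
      simp at hm
    rw [h2, ← h1, map_mul, ← hθ, map_natCast, mul_assoc, pow_sub_one_mul hm0]
  -- integrality of `y` and `z`
  have hmem : ∀ P : A[X], IsIntegral A (aeval θ P) := by
    intro P
    have h1 : aeval θ P ∈ Algebra.adjoin A {θ} := aeval_mem_adjoin_singleton A θ
    have h2 : Algebra.adjoin A {θ} ≤ integralClosure A L :=
      Algebra.adjoin_le (Set.singleton_subset_iff.mpr hint)
    exact h2 h1
  have hyint : IsIntegral A y := hmem _
  have hzint : IsIntegral A z := (hmem G2).mul hint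
  obtain ⟨δ0, hδ0⟩ := IsIntegrallyClosed.isIntegral_iff.mp (Algebra.isIntegral_norm F hyint)
  obtain ⟨δ1, hδ1⟩ := IsIntegrallyClosed.isIntegral_iff.mp (Algebra.isIntegral_norm F hzint)
  have hδ : δ0 * δ1 = ((m : A) * ε) ^ Module.finrank F L := by
    apply hinjAF
    rw [map_mul, hδ0, hδ1, ← map_mul, hyz, IsScalarTower.algebraMap_apply A F L,
      Algebra.norm_algebraMap, map_pow]
  have hδ0u : IsUnit δ0 := by
    have h1 : IsUnit (δ0 * δ1) := by
      rw [hδ]; exact (hm.mul hε).pow _
    exact isUnit_of_mul_isUnit_left h1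
  -- the discriminant
  have hmin : minpoly F θ = G.map (algebraMap A F) :=
    minpoly.isIntegrallyClosed_eq_field_fractions' F hint
  have hy' : aeval pb.gen (derivative (minpoly F pb.gen)) = y := by
    rw [hpb, hmin, derivative_map, aeval_map_algebraMap]
  refine ⟨(-1) ^ (Module.finrank F L * (Module.finrank F L - 1) / 2) * δ0, ?_, ?_⟩
  · exact ((isUnit_one.neg).pow _).mul hδ0u
  · rw [Algebra.discr_powerBasis_eq_norm, hy', map_mul, map_pow, map_neg, map_one, hδ0]

/-- **Local structure of a Kummer extension with unit radicand.**  The integral closure `Cq` of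
`A` in `L = F(θ)`, `θ ^ m = ε` (`ε`, `m` units of `A`), has the `A`-basis `θ ^ i`,
`i < [L : F]`, and the discriminant of this basis is a unit. -/
theorem exists_basis_isUnit_discr {m : ℕ} (hm : IsUnit (m : A)) (ε : A) (hε : IsUnit ε) (θ : L)
    (hθ : θ ^ m = algebraMap A L ε) (hgen : Algebra.adjoin F {θ} = ⊤)
    (Cq : Type*) [CommRing Cq] [Algebra A Cq] [Algebra Cq L] [IsScalarTower A Cq L]
    [IsIntegralClosure Cq A L] :
    ∃ γ : Basis (Fin (Module.finrank F L)) A Cq,
      IsUnit (Algebra.discr A γ) ∧ ∀ i, algebraMap Cq L (γ i) = θ ^ (i : ℕ) := by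
  classical
  have hint : IsIntegral A θ := isIntegral_gen hm ε θ hθ
  have hinjAF : Function.Injective (algebraMap A F) := IsFractionRing.injective A F
  have hinjAL : Function.Injective (algebraMap A L) := by
    rw [IsScalarTower.algebraMap_eq A F L]
    exact (algebraMap F L).injective.comp hinjAF
  have hinjCL : Function.Injective (algebraMap Cq L) :=
    IsIntegralClosure.algebraMap_injective Cq A L
  have hinjAC : Function.Injective (algebraMap A Cq) := by
    intro a b hab
    apply hinjAL
    rw [IsScalarTower.algebraMap_apply A Cq L, hab, ← IsScalarTower.algebraMap_apply]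
  have : IsDomain Cq := hinjCL.isDomain
  have : FaithfulSMul A Cq := (faithfulSMul_iff_algebraMap_injective A Cq).mpr hinjAC
  have : FaithfulSMul A L := (faithfulSMul_iff_algebraMap_injective A L).mpr hinjAL
  -- separability
  have hm0F : (m : F) ≠ 0 := by
    have h := (hm.map (algebraMap A F)).ne_zero
    simpa using h
  have hε0F : algebraMap A F ε ≠ 0 := (hε.map (algebraMap A F)).ne_zero
  have hθF : IsIntegral F θ := hint.tower_top
  have hsepθ : IsSeparable F θ := by
    have h1 : (X ^ m - Polynomial.C (algebraMap A F ε)).Separable := separable_X_pow_sub_C _ hm0F hε0F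
    have h2 : minpoly F θ ∣ X ^ m - Polynomial.C (algebraMap A F ε) :=
      minpoly.dvd F θ (by simp [hθ, ← IsScalarTower.algebraMap_apply A F L])
    exact h1.of_dvd h2
  have : Algebra.IsSeparable F L := by
    have h1 : F⟮θ⟯ = ⊤ := IntermediateField.adjoin_eq_top_of_algebra F _ hgen
    have h2 : Algebra.IsSeparable F F⟮θ⟯ :=
      (IntermediateField.isSeparable_adjoin_simple_iff_isSeparable F L).mpr hsepθ
    rw [h1] at h2
    exact AlgEquiv.Algebra.isSeparable (IntermediateField.topEquiv : (⊤ : IntermediateField F L) ≃ₐ[F] L)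
  -- power basis over `F`
  let pbF : PowerBasis F L := PowerBasis.ofAdjoinEqTop' hθF hgen
  have hpbF : pbF.gen = θ := PowerBasis.ofAdjoinEqTop'_gen hθF hgen
  obtain ⟨δ, hδu, hδ⟩ := exists_isUnit_discr_powerBasis hm ε hε θ hθ pbF hpbF
  -- the generator in `Cq`
  let θC : Cq := IsIntegralClosure.mk' Cq θ hint
  have hθC : algebraMap Cq L θC = θ := IsIntegralClosure.algebraMap_mk' Cq θ hint
  have hintC : IsIntegral A θC := by
    apply (isIntegral_algebraMap_iff hinjCL).mp
    rw [hθC]; exact hint
  have htop : Algebra.adjoin A {θC} = ⊤ := by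
    rw [eq_top_iff]
    intro c _
    have hz : IsIntegral A (algebraMap Cq L c) :=
      (IsIntegralClosure.isIntegral A L c).algebraMap
    have hintg : IsIntegral A pbF.gen := by rw [hpbF]; exact hint
    have h1 := Algebra.discr_mul_isIntegral_mem_adjoin (K := F) (B := pbF) hintg hz
    rw [← hδ, hpbF, algebraMap_smul] at h1
    obtain ⟨δ', hδ'⟩ := hδu.exists_left_inv
    have h2 : algebraMap Cq L c ∈ Algebra.adjoin A {θ} := by
      have h := Subalgebra.smul_mem _ h1 δ'
      rwa [smul_smul, hδ', one_smul] at h
    have h3 : Algebra.adjoin A {θ} =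
        (Algebra.adjoin A {θC}).map (IsScalarTower.toAlgHom A Cq L) := by
      rw [AlgHom.map_adjoin, Set.image_singleton, IsScalarTower.coe_toAlgHom', hθC]
    rw [h3] at h2
    obtain ⟨c', hc', hcc'⟩ := h2
    have hcc : c' = c := hinjCL hcc'
    exact hcc ▸ hc'
  let pbC : PowerBasis A Cq := PowerBasis.ofAdjoinEqTop' hintC htop
  have hpbC : pbC.gen = θC := PowerBasis.ofAdjoinEqTop'_gen hintC htop
  have hdimF : pbF.dim = Module.finrank F L := pbF.finrank.symm
  have hdim : pbC.dim = Module.finrank F L := by
    rw [← hdimF]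
    show (minpoly A θC).natDegree = (minpoly F θ).natDegree
    rw [minpoly.isIntegrallyClosed_eq_field_fractions' F hint, ← hθC,
      minpoly.algebraMap_eq hinjCL, (minpoly.monic hintC).natDegree_map]
  let γ : Basis (Fin (Module.finrank F L)) A Cq := pbC.basis.reindex (finCongr hdim)
  have hγ : ∀ i, algebraMap Cq L (γ i) = θ ^ (i : ℕ) := by
    intro i
    simp [γ, hpbC, hθC]
  refine ⟨γ, ?_, hγ⟩
  have : IsLocalization (Algebra.algebraMapSubmonoid Cq (nonZeroDivisors A)) L :=
    IsIntegralClosure.isLocalization A F L Cq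
  have h1 := Algebra.discr_localizationLocalization A (nonZeroDivisors A) L γ (Rₘ := F)
  have h2 : (⇑(γ.localizationLocalization F (nonZeroDivisors A) L)) =
      fun i : Fin (Module.finrank F L) => θ ^ (i : ℕ) := by
    funext i
    rw [Basis.localizationLocalization_apply, hγ]
  have h3 : Algebra.discr F (fun i : Fin (Module.finrank F L) => θ ^ (i : ℕ)) =
      Algebra.discr F pbF.basis := by
    have h := Algebra.discr_reindex F pbF.basis (finCongr hdimF)
    rw [← h]
    congr 1
    funext i
    simp [hpbF]
  rw [h2, h3, ← hδ] at h1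
  rw [← hinjAF h1]
  exact hδu

end Fermat.Agent.S34.KummerLocal
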