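import Mathlib

/-!
# Program U (S34), brick (B): labels of branches and their separation

Level-free commutative algebra, Mathlib only.  `B` an integrally closed domain, `F = Frac B`,
`L` a field over `F`, `C' = integralClosure B L`, `t ∈ L` with `t ^ m = k ∈ F`.

* `HasLabel P t ξ` : "`t ≡ ξ` at the prime `P` of `C'`" (`s (t - ξ) ∈ P` for some `s ∈ B ∖ P`).
* `comaximal_of_label_ne` : if at every maximal ideal `y` of `B` below `P + P'` we have
  `k = u b ^ m` with `u ∈ B_y` and `b ≡ 1` at `P ∩ B` and at `P' ∩ B`, then two primes `P`, `P'` of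
  `C'` with labels `ξ`, `ξ'`, `ξ - ξ'` a unit, are comaximal.
* `locData_of_cart` : the local data for `k = τ h / h` from (CART) for `h` (`f ^ m h ∈ B ∖ y`) when
  `τ` is a ring endomorphism of `F` with `τ x - x ∈ π B` on `B`: `b = f / τ f`.
* `comaximal_of_cart` : the two combined.
* `exists_label`, `label_unique`.
-/

set_option autoImplicit false

namespace Fermat.Agent.S34.Label

variable {B F L : Type*} [CommRing B] [Field F] [Algebra B F] [IsFractionRing B F]
  [Field L] [Algebra F L] [Algebra B L] [IsScalarTower B F L]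

/-- "`t ≡ ξ` at the prime `P`": `s (t - ξ) ∈ P` for some `s ∈ B` outside `P`. -/
def HasLabel (P : Ideal (integralClosure B L)) (t : L) (ξ : B) : Prop :=
  ∃ s : B, algebraMap B (integralClosure B L) s ∉ P ∧
    ∃ c : integralClosure B L, c ∈ P ∧ (c : L) = algebraMap B L s * (t - algebraMap B L ξ)

/-- "`b ≡ 1` at the prime `p` of `B`": `s (b - 1) ∈ p` for some `s ∈ B ∖ p`. -/
def OneAt (p : Ideal B) (b : F) : Prop :=
  ∃ s c : B, s ∉ p ∧ c ∈ p ∧ algebraMap B F s * (b - 1) = algebraMap B F c

/-- "`h` is a unit at the prime `p` of `B`". -/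
def UnitAt (p : Ideal B) (h : F) : Prop :=
  ∃ s s' : B, s ∉ p ∧ s' ∉ p ∧ algebraMap B F s * h = algebraMap B F s'

/-- "`k / b ^ m ∈ B_y`". -/
def PowAt (y : Ideal B) (m : ℕ) (k b : F) : Prop :=
  ∃ s r : B, s ∉ y ∧ algebraMap B F s * k = b ^ m * algebraMap B F r

omit [IsFractionRing B F] in
theorem coe_algebraMap (x : B) :
    ((algebraMap B (integralClosure B L) x : integralClosure B L) : L) = algebraMap B L x := rfl

omit [IsFractionRing B F] in
/-- Key step: with local data `k = (r/s) b ^ m`, `b ≡ 1` at `P ∩ B`, and label `ξ` at `P`, the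
integral element `w = s t / b` satisfies `w - s ξ ∈ P`. -/
theorem sub_mem_of_label (m : ℕ) (hm : 0 < m) (k : F) (t : L) (ht : t ^ m = algebraMap F L k)
    (P : Ideal (integralClosure B L)) [P.IsPrime] (ξ : B) (hP : HasLabel P t ξ)
    (b : F) (hb0 : b ≠ 0) (s r : B) (hsr : algebraMap B F s * k = b ^ m * algebraMap B F r)
    (hb1 : OneAt (P.comap (algebraMap B (integralClosure B L))) b) :
    ∃ w : integralClosure B L, (w : L) = algebraMap B L s * t / algebraMap F L b ∧
      w - algebraMap B (integralClosure B L) (s * ξ) ∈ P := by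
  have hbL : algebraMap F L b ≠ 0 := by
    rwa [Ne, map_eq_zero]
  -- integrality of `w`
  have hwm : (algebraMap B L s * t / algebraMap F L b) ^ m = algebraMap B L (s ^ (m - 1) * r) := by
    have h1 : algebraMap B L s * algebraMap F L k = algebraMap F L b ^ m * algebraMap B L r := by
      have := congrArg (algebraMap F L) hsr
      rw [map_mul, map_mul, map_pow, ← IsScalarTower.algebraMap_apply,
        ← IsScalarTower.algebraMap_apply] at this
      exact this
    rw [div_pow, mul_pow, ht, div_eq_iff (pow_ne_zero m hbL), map_mul, map_pow]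
    have h2 : algebraMap B L s ^ m = algebraMap B L s ^ (m - 1) * algebraMap B L s := by
      rw [← pow_succ, Nat.sub_add_cancel hm]
    rw [h2, mul_assoc, h1]
    ring
  have hwint : IsIntegral B (algebraMap B L s * t / algebraMap F L b) := by
    refine IsIntegral.of_pow hm ?_
    rw [hwm]
    exact isIntegral_algebraMap
  refine ⟨⟨_, hwint⟩, rfl, ?_⟩
  obtain ⟨s₁, hs₁, c₁, hc₁, hc₁'⟩ := hP
  obtain ⟨s₂, c₂, hs₂, hc₂, hsc₂⟩ := hb1
  -- `s₂ b = s₂ + c₂`
  have hs₂b : algebraMap B L s₂ * algebraMap F L b = algebraMap B L (s₂ + c₂) := by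
    have h1 : algebraMap B F s₂ * b = algebraMap B F (s₂ + c₂) := by
      rw [map_add, ← hsc₂]; ring
    have := congrArg (algebraMap F L) h1
    rw [map_mul, ← IsScalarTower.algebraMap_apply, ← IsScalarTower.algebraMap_apply] at this
    exact this
  have hs₂c₂ : algebraMap B (integralClosure B L) (s₂ + c₂) ∉ P := by
    intro h
    have h1 : s₂ + c₂ ∈ P.comap (algebraMap B (integralClosure B L)) := h
    exact hs₂ (by simpa using (Ideal.sub_mem _ h1 hc₂))
  -- the product identity
  have hkey : algebraMap B (integralClosure B L) s₁ * algebraMap B (integralClosure B L) (s₂ + c₂) *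
      ((⟨_, hwint⟩ : integralClosure B L) - algebraMap B (integralClosure B L) (s * ξ)) =
      algebraMap B (integralClosure B L) (s * s₂) * c₁ -
        algebraMap B (integralClosure B L) (s₁ * s * ξ * c₂) := by
    apply Subtype.ext
    simp only [Subalgebra.coe_mul, Subalgebra.coe_sub, coe_algebraMap, hc₁']
    rw [← hs₂b]
    have hc₂L : algebraMap B L c₂ = algebraMap B L s₂ * (algebraMap F L b - 1) := by
      have := congrArg (algebraMap F L) hsc₂
      rw [map_mul, map_sub, map_one, ← IsScalarTower.algebraMap_apply,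
        ← IsScalarTower.algebraMap_apply] at this
      exact this.symm
    simp only [map_mul, hc₂L]
    field_simp
    ring
  have hmem : algebraMap B (integralClosure B L) s₁ * algebraMap B (integralClosure B L) (s₂ + c₂) *
      ((⟨_, hwint⟩ : integralClosure B L) - algebraMap B (integralClosure B L) (s * ξ)) ∈ P := by
    rw [hkey]
    refine P.sub_mem (P.mul_mem_left _ hc₁) ?_
    rw [map_mul]
    exact P.mul_mem_left _ hc₂
  rcases Ideal.IsPrime.mem_or_mem inferInstance hmem with h | h
  · rcases Ideal.IsPrime.mem_or_mem inferInstance h with h | h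
    · exact absurd h hs₁
    · exact absurd h hs₂c₂
  · exact h

omit [IsFractionRing B F] in
/-- **Separation of branches with different labels.** -/
theorem comaximal_of_label_ne (m : ℕ) (hm : 0 < m) (k : F) (t : L)
    (ht : t ^ m = algebraMap F L k)
    (P P' : Ideal (integralClosure B L)) [P.IsPrime] [P'.IsPrime] (ξ ξ' : B)
    (hu : IsUnit (ξ - ξ')) (hP : HasLabel P t ξ) (hP' : HasLabel P' t ξ')
    (hloc : ∀ y : Ideal B, y.IsMaximal →
      P.comap (algebraMap B (integralClosure B L)) ≤ y →
      P'.comap (algebraMap B (integralClosure B L)) ≤ y →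
      ∃ b : F, b ≠ 0 ∧ PowAt y m k b ∧
        OneAt (P.comap (algebraMap B (integralClosure B L))) b ∧
        OneAt (P'.comap (algebraMap B (integralClosure B L))) b) :
    P ⊔ P' = ⊤ := by
  by_contra hne
  obtain ⟨Q, hQ, hle⟩ := Ideal.exists_le_maximal _ hne
  have hPQ : P ≤ Q := le_sup_left.trans hle
  have hP'Q : P' ≤ Q := le_sup_right.trans hle
  have hy : (Q.comap (algebraMap B (integralClosure B L))).IsMaximal :=
    Ideal.isMaximal_comap_of_isIntegral_of_isMaximal Q
  obtain ⟨b, hb0, ⟨s, r, hs, hsr⟩, hb1, hb1'⟩ :=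
    hloc _ hy (Ideal.comap_mono hPQ) (Ideal.comap_mono hP'Q)
  obtain ⟨w, hw, hwP⟩ := sub_mem_of_label m hm k t ht P ξ hP b hb0 s r hsr hb1
  obtain ⟨w', hw', hwP'⟩ := sub_mem_of_label m hm k t ht P' ξ' hP' b hb0 s r hsr hb1'
  have hww' : w = w' := Subtype.ext (hw.trans hw'.symm)
  have h1 : algebraMap B (integralClosure B L) (s * (ξ - ξ')) ∈ Q := by
    have e : algebraMap B (integralClosure B L) (s * (ξ - ξ')) =
        (w' - algebraMap B (integralClosure B L) (s * ξ')) -
          (w - algebraMap B (integralClosure B L) (s * ξ)) := by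
      rw [hww']; simp only [map_mul, map_sub]; ring
    rw [e]
    exact Q.sub_mem (hP'Q hwP') (hPQ hwP)
  rw [map_mul] at h1
  rcases Ideal.IsPrime.mem_or_mem hQ.isPrime h1 with h | h
  · exact hs h
  · exact hQ.ne_top (Ideal.eq_top_of_isUnit_mem _ h (hu.map _))

section Cart

variable [IsIntegrallyClosed B]

omit [Field L] [Algebra F L] [Algebra B L] [IsScalarTower B F L] in
/-- `v f ^ m = u` with `u, v ∉ p` ⇒ `v f = r` with `r ∈ B ∖ p`. -/
theorem exists_eq_of_pow (p : Ideal B) [p.IsPrime] (m : ℕ) (hm : 0 < m) (f : F) (u v : B)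
    (hu : u ∉ p) (hv : v ∉ p) (h : algebraMap B F v * f ^ m = algebraMap B F u) :
    ∃ r : B, r ∉ p ∧ algebraMap B F v * f = algebraMap B F r := by
  have h1 : (algebraMap B F v * f) ^ m = algebraMap B F (v ^ (m - 1) * u) := by
    have h2 : algebraMap B F v ^ m = algebraMap B F v ^ (m - 1) * algebraMap B F v := by
      rw [← pow_succ, Nat.sub_add_cancel hm]
    rw [mul_pow, h2, mul_assoc, h, map_mul, map_pow]
  have hint : IsIntegral B (algebraMap B F v * f) := by
    refine IsIntegral.of_pow hm ?_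
    rw [h1]
    exact isIntegral_algebraMap
  obtain ⟨r, hr⟩ := IsIntegrallyClosed.isIntegral_iff.1 hint
  refine ⟨r, fun hrp => ?_, hr.symm⟩
  have h3 : r ^ m = v ^ (m - 1) * u := by
    apply IsFractionRing.injective B F
    rw [map_pow, hr, h1]
  have h4 : v ^ (m - 1) * u ∈ p := h3 ▸ p.pow_mem_of_mem hrp m hm
  rcases Ideal.IsPrime.mem_or_mem inferInstance h4 with h5 | h5
  · exact hv (Ideal.IsPrime.mem_of_pow_mem inferInstance _ h5)
  · exact hu h5

omit [Field L] [Algebra F L] [Algebra B L] [IsScalarTower B F L] in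
/-- **Local data for `k = τ h / h` from (CART) for `h`**: `b = f / τ f`. -/
theorem locData_of_cart (τ : F →+* F) (π : B)
    (hτ : ∀ x : B, ∃ r : B, τ (algebraMap B F x) = algebraMap B F (x + π * r))
    (m : ℕ) (hm : 0 < m) (h f : F) (hh : h ≠ 0) (a : B)
    (hfa : f ^ m * h = algebraMap B F a) (y : Ideal B) (hay : a ∉ y) :
    f / τ f ≠ 0 ∧ PowAt y m (τ h / h) (f / τ f) ∧
      ∀ p : Ideal B, p.IsPrime → π ∈ p → p ≤ y → UnitAt p h → OneAt p (f / τ f) := by
  have hinj := IsFractionRing.injective B F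
  have ha0 : algebraMap B F a ≠ 0 := by
    intro h0
    rw [map_eq_zero_iff _ hinj] at h0
    exact hay (h0 ▸ y.zero_mem)
  have hf0 : f ≠ 0 := by
    rintro rfl
    rw [zero_pow hm.ne', zero_mul] at hfa
    exact ha0 hfa.symm
  have hτf0 : τ f ≠ 0 := by rwa [Ne, map_eq_zero]
  have hτh0 : τ h ≠ 0 := by rwa [Ne, map_eq_zero]
  refine ⟨div_ne_zero hf0 hτf0, ?_, ?_⟩
  · obtain ⟨r, hr⟩ := hτ a
    refine ⟨a, a + π * r, hay, ?_⟩
    rw [← hr, ← hfa, map_mul, map_pow, div_pow]
    have e1 : f ^ m * h * (τ h / h) = f ^ m * τ h := by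
      rw [mul_assoc, mul_div_cancel₀ _ hh]
    have e2 : f ^ m / τ f ^ m * (τ f ^ m * τ h) = f ^ m * τ h := by
      rw [← mul_assoc, div_mul_cancel₀ _ (pow_ne_zero m hτf0)]
    rw [e1, e2]
  · intro p hp hπp hpy ⟨s₁, s₁', hs₁, hs₁', hs⟩
    have hap : a ∉ p := fun h => hay (hpy h)
    -- `s₁' f ^ m = a s₁`
    have h1 : algebraMap B F s₁' * f ^ m = algebraMap B F (a * s₁) := by
      rw [map_mul, ← hfa, ← hs]; ring
    have has₁ : a * s₁ ∉ p := fun h =>
      (Ideal.IsPrime.mem_or_mem hp h).elim hap hs₁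
    obtain ⟨r₁, hr₁, hr₁'⟩ := exists_eq_of_pow p m hm f (a * s₁) s₁' has₁ hs₁' h1
    obtain ⟨r₁', hτr₁⟩ := hτ r₁
    obtain ⟨v', hτv⟩ := hτ s₁'
    have hV0 : algebraMap B F s₁' ≠ 0 := by
      intro h0
      rw [map_eq_zero_iff _ hinj] at h0
      exact hs₁' (h0 ▸ p.zero_mem)
    have hf : f = algebraMap B F r₁ / algebraMap B F s₁' := by
      rw [← hr₁', mul_div_cancel_left₀ _ hV0]
    have hτf : τ f = algebraMap B F (r₁ + π * r₁') / algebraMap B F (s₁' + π * v') := by
      rw [hf, map_div₀, hτr₁, hτv]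
    have hτV0 : algebraMap B F (s₁' + π * v') ≠ 0 := by
      rw [← hτv, Ne, map_eq_zero]; exact hV0
    have hτR0 : algebraMap B F (r₁ + π * r₁') ≠ 0 := by
      intro h0
      rw [hτf, h0, zero_div] at hτf0
      exact hτf0 rfl
    refine ⟨s₁' * (r₁ + π * r₁'), π * (r₁ * v' - r₁' * s₁'), ?_, ?_, ?_⟩
    · intro h
      rcases Ideal.IsPrime.mem_or_mem hp h with h | h
      · exact hs₁' h
      · exact hr₁ (by simpa using p.sub_mem h (p.mul_mem_right r₁' hπp))
    · exact p.mul_mem_right _ hπp
    · rw [hτf, hf]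
      simp only [map_mul, map_add, map_sub] at hτV0 hτR0 ⊢
      field_simp
      ring

/-- **(B) for `k = τ h / h`**: two primes of `integralClosure B L` containing `π` with different
labels are comaximal, given (CART) for `h` at every maximal ideal of `B` containing `π`. -/
theorem comaximal_of_cart (τ : F →+* F) (π : B)
    (hτ : ∀ x : B, ∃ r : B, τ (algebraMap B F x) = algebraMap B F (x + π * r))
    (m : ℕ) (hm : 0 < m) (h : F) (hh : h ≠ 0)
    (hcart : ∀ y : Ideal B, y.IsMaximal → π ∈ y →
      ∃ (f : F) (a : B), a ∉ y ∧ f ^ m * h = algebraMap B F a)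
    (t : L) (ht : t ^ m = algebraMap F L (τ h / h))
    (P P' : Ideal (integralClosure B L)) [P.IsPrime] [P'.IsPrime]
    (hπP : algebraMap B (integralClosure B L) π ∈ P)
    (hπP' : algebraMap B (integralClosure B L) π ∈ P')
    (hhP : UnitAt (P.comap (algebraMap B (integralClosure B L))) h)
    (hhP' : UnitAt (P'.comap (algebraMap B (integralClosure B L))) h)
    (ξ ξ' : B) (hu : IsUnit (ξ - ξ')) (hP : HasLabel P t ξ) (hP' : HasLabel P' t ξ') :
    P ⊔ P' = ⊤ := by
  refine comaximal_of_label_ne m hm (τ h / h) t ht P P' ξ ξ' hu hP hP' fun y hy hPy hP'y => ?_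
  have hπy : π ∈ y := hPy hπP
  obtain ⟨f, a, hay, hfa⟩ := hcart y hy hπy
  obtain ⟨hb0, hpow, hone⟩ := locData_of_cart τ π hτ m hm h f hh a hfa y hay
  exact ⟨f / τ f, hb0, hpow, hone _ (Ideal.comap_isPrime _ P) hπP hPy hhP,
    hone _ (Ideal.comap_isPrime _ P') hπP' hP'y hhP'⟩

end Cart

section Exists

omit [IsFractionRing B F] in
/-- Uniqueness of labels. -/
theorem label_unique (t : L) (P : Ideal (integralClosure B L)) [P.IsPrime] (ξ ξ' : B)
    (hP : HasLabel P t ξ) (hP' : HasLabel P t ξ') :
    algebraMap B (integralClosure B L) (ξ - ξ') ∈ P := by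
  obtain ⟨s, hs, c, hc, hc'⟩ := hP
  obtain ⟨s', hs', c', hc2, hc2'⟩ := hP'
  have e : algebraMap B (integralClosure B L) s * algebraMap B (integralClosure B L) s' *
      algebraMap B (integralClosure B L) (ξ - ξ') =
      algebraMap B (integralClosure B L) s * c' - algebraMap B (integralClosure B L) s' * c := by
    apply Subtype.ext
    simp only [Subalgebra.coe_mul, Subalgebra.coe_sub, coe_algebraMap, hc', hc2', map_sub]
    ring
  have hmem : algebraMap B (integralClosure B L) s * algebraMap B (integralClosure B L) s' *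
      algebraMap B (integralClosure B L) (ξ - ξ') ∈ P := by
    rw [e]
    exact P.sub_mem (P.mul_mem_left _ hc2) (P.mul_mem_left _ hc)
  rcases Ideal.IsPrime.mem_or_mem inferInstance hmem with h | h
  · rcases Ideal.IsPrime.mem_or_mem inferInstance h with h | h
    · exact absurd h hs
    · exact absurd h hs'
  · exact h

theorem pow_sub_one_eq_prod_range {R : Type*} [CommRing R] [IsDomain R] {ζ : R} {m : ℕ}
    (hm : 0 < m) (hζ : IsPrimitiveRoot ζ m) (x : R) :
    x ^ m - 1 = ∏ i ∈ Finset.range m, (x - ζ ^ i) := by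
  classical
  have h1 := congrArg (Polynomial.eval x) (Polynomial.X_pow_sub_one_eq_prod hm hζ)
  simp only [Polynomial.eval_sub, Polynomial.eval_pow, Polynomial.eval_X, Polynomial.eval_one,
    Polynomial.eval_prod, Polynomial.eval_C] at h1
  rw [h1]
  have h2 : Polynomial.nthRootsFinset m (1 : R) = (Finset.range m).image (ζ ^ ·) := by
    rw [Polynomial.nthRootsFinset_def, hζ.nthRoots_eq (one_pow m)]
    ext a
    simp
  rw [h2, Finset.prod_image hζ.injOn_pow]

omit [IsFractionRing B F] in
/-- **Existence of labels**: if `k ≡ 1` at `P ∩ B` then `t ≡ ζ ^ i` at `P` for some `i < m`. -/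
theorem exists_label (m : ℕ) (hm : 0 < m) (ζ : B)
    (hζ : IsPrimitiveRoot (algebraMap B L ζ) m) (k : F) (t : L)
    (ht : t ^ m = algebraMap F L k) (P : Ideal (integralClosure B L)) [P.IsPrime]
    (hk : OneAt (P.comap (algebraMap B (integralClosure B L))) k) :
    ∃ i : ℕ, i < m ∧ HasLabel P t (ζ ^ i) := by
  classical
  obtain ⟨s, c, hs, hc, hsc⟩ := hk
  -- `s k = s + c`
  have hsk : algebraMap B L s * algebraMap F L k = algebraMap B L (s + c) := by
    have h1 : algebraMap B F s * k = algebraMap B F (s + c) := by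
      rw [map_add, ← hsc]; ring
    have := congrArg (algebraMap F L) h1
    rw [map_mul, ← IsScalarTower.algebraMap_apply, ← IsScalarTower.algebraMap_apply] at this
    exact this
  have hwm : (algebraMap B L s * t) ^ m = algebraMap B L (s ^ (m - 1) * (s + c)) := by
    have h2 : algebraMap B L s ^ m = algebraMap B L s ^ (m - 1) * algebraMap B L s := by
      rw [← pow_succ, Nat.sub_add_cancel hm]
    rw [mul_pow, ht, h2, mul_assoc, hsk, map_mul, map_pow]
  have hwint : IsIntegral B (algebraMap B L s * t) := by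
    refine IsIntegral.of_pow hm ?_
    rw [hwm]
    exact isIntegral_algebraMap
  set w : integralClosure B L := ⟨_, hwint⟩ with hw
  have hprod : ∏ i ∈ Finset.range m, (w - algebraMap B (integralClosure B L) (s * ζ ^ i)) =
      algebraMap B (integralClosure B L) (s ^ (m - 1) * c) := by
    apply Subtype.ext
    rw [coe_algebraMap]
    have h3 : ((∏ i ∈ Finset.range m, (w - algebraMap B (integralClosure B L) (s * ζ ^ i)) :
        integralClosure B L) : L) =
        ∏ i ∈ Finset.range m, (algebraMap B L s * (t - algebraMap B L ζ ^ i)) := by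
      rw [← Subalgebra.coe_val, map_prod]
      refine Finset.prod_congr rfl fun i _ => ?_
      simp only [Subalgebra.coe_val, Subalgebra.coe_sub, coe_algebraMap, hw]
      rw [map_mul, map_pow]
      ring
    rw [h3, Finset.prod_mul_distrib, Finset.prod_const, Finset.card_range,
      ← pow_sub_one_eq_prod_range hm hζ, ht]
    have h2 : algebraMap B L s ^ m = algebraMap B L s ^ (m - 1) * algebraMap B L s := by
      rw [← pow_succ, Nat.sub_add_cancel hm]
    rw [h2, mul_assoc, mul_sub, hsk, mul_one, map_mul, map_pow, map_add]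
    ring
  have hmem : ∏ i ∈ Finset.range m, (w - algebraMap B (integralClosure B L) (s * ζ ^ i)) ∈ P := by
    rw [hprod, map_mul]
    exact P.mul_mem_left _ hc
  obtain ⟨i, hi, hiP⟩ := Ideal.IsPrime.prod_mem_iff.1 hmem
  refine ⟨i, Finset.mem_range.1 hi, s, hs, _, hiP, ?_⟩
  simp only [Subalgebra.coe_sub, coe_algebraMap, hw]
  rw [map_mul, map_pow]
  ring

end Exists

end Fermat.Agent.S34.Label
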