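import Mathlib
import Fermat.Agent.S30.E2.JInputsAll
import Fermat.Agent.S34.ModelNormalMain
import Fermat.Agent.S30.Model.SFN.Dim
import Fermat.Agent.S34.Nodal.Transfer

/-!
# PROGRAM U, row `U.M1.LevelM`: the level-`M` inputs for the CONCRETE modular function field

Every modular brick of Program U ((M1) chartZero, (M2) cusp conditions, (M3) TrivMod/Sat) takes
as a hypothesis the conclusions of the Model theorem at the level `M` prime to the residue
characteristic.  This file discharges them for `L = LE M E ⊆ E((q))`, `u = j`, uniformly in the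
number field `E`:

* generic part (`O` a DVR with fraction field `E`, inputs `JInputs M O E p` and `1728 ∈ Oˣ`):
  `transcendental_jE`, `algClosedIn_LE`, `prime_zero`, `prime_inf`, `normal_zero`, `normal_inf`,
  `isDomain_zero`, `isDomain_inf`, `dedekind_zero`, `dedekind_inf`, `regAt_zero`, `regAt_inf`;
* the same for the canonical algebra structure `K1Main.algebraOL` (suffix `C`, input `JInputsC`);
* arithmetic part: `exists_levelM` : for `ℓ > 3`, `ℓ ∤ M` and a valuation ring `A` of `ℚ̄` over
  `ℓ` there is a finite set `S₀ ⊆ ℚ̄` such that `JInputsC M (OE A E) E p` (every `p`) and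
  `1728 ∈ (OE A E)ˣ` hold for every number field `E ⊇ S₀` with `OE A E` a DVR; and
  `mem_fracField` (every element of `LE M E` is a fraction of integral series).

`piC t π` is `ModelNormal.piC` (`= GlueChart.piElt (Algebra.adjoin O {t}) π` by `rfl`).
-/

set_option autoImplicit false
set_option synthInstance.maxHeartbeats 400000
set_option linter.style.haveILetI false
set_option linter.unusedSectionVars false

noncomputable section

open Polynomial IntermediateField ModularCurve

namespace Fermat.Agent.S34.LevelM

open Fermat.Agent.S18.K1Defs Fermat.Agent.S18.K1Main Fermat.Agent.S30 Fermat.Agent.S30.Model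
  Fermat.Agent.S34.ModelNormal

local notation "Qb" => AlgebraicClosure ℚ

/-! ### Generic: a normal integral special fibre of a chart ring is a Dedekind domain -/

section Chart

variable {O E L : Type*} [CommRing O] [IsDomain O] [IsDiscreteValuationRing O]
  [Field E] [CharZero E] [Algebra O E] [IsFractionRing O E]
  [Field L] [Algebra E L] [Algebra O L] [IsScalarTower O E L]

/-- For a chart ring `C_t` (the integral closure of `O[t]` in `L`, `t` transcendental,
`L / E(t)` finite): if `π` is prime in `C_t` and `C_t ⧸ (π)` is integrally closed, then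
`C_t ⧸ (π)` is a Dedekind domain. -/
theorem isDedekindDomain_quotient_chart (t : L) (ht : Transcendental E t)
    [FiniteDimensional (IntermediateField.adjoin E {t}) L] (π : O) (hπ : Irreducible π)
    (hp : Prime (piC t π))
    (hn : IsIntegrallyClosed (integralClosure (Algebra.adjoin O {t}) L ⧸
      Ideal.span {piC t π})) :
    IsDedekindDomain (integralClosure (Algebra.adjoin O {t}) L ⧸ Ideal.span {piC t π}) := by
  have htO : Transcendental O t := ChartProv.transcendental_base (E := E) t ht
  have := ChartProv.chart_finite (O := O) (E := E) t ht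
  have := GlueChart.isNoetherianRing_adjoin_singleton (O := O) t
  have : IsNoetherianRing (integralClosure (Algebra.adjoin O ({t} : Set L)) L) :=
    IsNoetherianRing.of_finite (Algebra.adjoin O ({t} : Set L)) _
  have hmax : (Ideal.span {π} : Ideal O).IsMaximal := by
    rw [← (IsDiscreteValuationRing.irreducible_iff_uniformizer π).mp hπ]
    exact IsLocalRing.maximalIdeal.isMaximal O
  have hpid := ChartInst.isPrincipalIdealRing_quotient_adjoin O t htO π
  have hπA : Prime (algebraMap O (Algebra.adjoin O {t}) π) :=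
    ChartInst.prime_algebraMap_adjoin O t htO hπ.prime
  have : (Ideal.span {algebraMap O (Algebra.adjoin O {t}) π}).IsPrime :=
    (Ideal.span_singleton_prime hπA.ne_zero).mpr hπA
  have : IsDomain (Algebra.adjoin O {t} ⧸ Ideal.span {algebraMap O (Algebra.adjoin O {t}) π}) :=
    Ideal.Quotient.isDomain _
  have : (Ideal.span {piC t π}).IsPrime := (Ideal.span_singleton_prime hp.ne_zero).mpr hp
  have : IsDomain (integralClosure (Algebra.adjoin O {t}) L ⧸ Ideal.span {piC t π}) :=
    Ideal.Quotient.isDomain _
  have hdim : Ring.DimensionLEOne (integralClosure (Algebra.adjoin O {t}) L ⧸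
      Ideal.span {piC t π}) :=
    SFN.dimensionLEOne_quotient (A := Algebra.adjoin O {t})
      (C := integralClosure (Algebra.adjoin O {t}) L) (algebraMap O (Algebra.adjoin O {t}) π)
  have := hn
  exact { }

end Chart

section Generic

variable (N : ℕ) [NeZero N] {O E : Type} [CommRing O] [IsDomain O] [IsDiscreteValuationRing O]
  [Field E] [CharZero E] [Algebra O E] [IsFractionRing O E] [Algebra ℚ E]

open Classical in
/-- The branch set `{0, 1728}` has unit differences as soon as `1728` is a unit. -/
theorem isUnit_sub_of_mem (h1728 : IsUnit (1728 : O)) :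
    ∀ c ∈ ({0, 1728} : Finset O), ∀ c' ∈ ({0, 1728} : Finset O), c ≠ c' → IsUnit (c - c') := by
  classical
  intro c hc c' hc' hne
  simp only [Finset.mem_insert, Finset.mem_singleton] at hc hc'
  rcases hc with rfl | rfl <;> rcases hc' with rfl | rfl
  · exact absurd rfl hne
  · rw [zero_sub]; exact h1728.neg
  · rw [sub_zero]; exact h1728
  · exact absurd rfl hne

include O in
/-- `j` is transcendental over `E` (the fraction field of a discrete valuation ring `O`). -/
theorem transcendental_jE : Transcendental E (jE N E) :=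
  transcendental_of_pole (O := O) (LE N E) (jE N E) (jqModC O)
    (coeffEmb_jq_eq_iota (O := O) (E := E)) (order_rho_jqModC_neg (O := O))

/-- `E` is algebraically closed in `LE N E`. -/
theorem algClosedIn_LE : AlgClosedIn E (LE N E) := algClosedIn_laurent (LE N E)

variable [Algebra O (LE N E)] [IsScalarTower O E (LE N E)]

/-- **`π` is a prime element of both level-`N` chart rings** (`u = j` and `u = 1/j`). -/
theorem prime_both {p : ℕ} (h : JInputs N O E p) (h1728 : IsUnit (1728 : O)) (π : O)
    (hπ : Irreducible π) : Prime (piC (jE N E) π) ∧ Prime (piC (jE N E)⁻¹ π) := by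
  classical
  haveI := h.fin
  exact main_a_prime π hπ (jE N E) (transcendental_jE (O := O) N) (algClosedIn_LE N)
    (h.gauss π hπ) {0, 1728} (isUnit_sub_of_mem h1728) (h.horiz _ (by simp) (by simp))

/-- `π` is prime in the integral closure of `O[j]` in `LE N E`. -/
theorem prime_zero {p : ℕ} (h : JInputs N O E p) (h1728 : IsUnit (1728 : O)) (π : O)
    (hπ : Irreducible π) : Prime (piC (jE N E) π) :=
  (prime_both N h h1728 π hπ).1

/-- `π` is prime in the integral closure of `O[1/j]` in `LE N E`. -/
theorem prime_inf {p : ℕ} (h : JInputs N O E p) (h1728 : IsUnit (1728 : O)) (π : O)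
    (hπ : Irreducible π) : Prime (piC (jE N E)⁻¹ π) :=
  (prime_both N h h1728 π hπ).2

/-- **The special fibres of both level-`N` chart rings are integrally closed.** -/
theorem normal_both {p : ℕ} (h : JInputs N O E p) (h1728 : IsUnit (1728 : O)) (π : O)
    (hπ : Irreducible π) :
    IsIntegrallyClosed (integralClosure (Algebra.adjoin O {jE N E}) (LE N E) ⧸
        Ideal.span {piC (jE N E) π}) ∧
      IsIntegrallyClosed (integralClosure (Algebra.adjoin O {(jE N E)⁻¹}) (LE N E) ⧸
        Ideal.span {piC (jE N E)⁻¹ π}) := by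
  classical
  haveI := h.fin
  exact main_a_normal π hπ (jE N E) (transcendental_jE (O := O) N) (algClosedIn_LE N)
    (h.gauss π hπ) {0, 1728} (isUnit_sub_of_mem h1728) (h.horiz _ (by simp) (by simp))

theorem normal_zero {p : ℕ} (h : JInputs N O E p) (h1728 : IsUnit (1728 : O)) (π : O)
    (hπ : Irreducible π) :
    IsIntegrallyClosed (integralClosure (Algebra.adjoin O {jE N E}) (LE N E) ⧸
        Ideal.span {piC (jE N E) π}) :=
  (normal_both N h h1728 π hπ).1

theorem normal_inf {p : ℕ} (h : JInputs N O E p) (h1728 : IsUnit (1728 : O)) (π : O)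
    (hπ : Irreducible π) :
    IsIntegrallyClosed (integralClosure (Algebra.adjoin O {(jE N E)⁻¹}) (LE N E) ⧸
        Ideal.span {piC (jE N E)⁻¹ π}) :=
  (normal_both N h h1728 π hπ).2

/-- The special fibre of the `j`-chart is a domain. -/
theorem isDomain_zero {p : ℕ} (h : JInputs N O E p) (h1728 : IsUnit (1728 : O)) (π : O)
    (hπ : Irreducible π) :
    IsDomain (integralClosure (Algebra.adjoin O {jE N E}) (LE N E) ⧸
        Ideal.span {piC (jE N E) π}) := by
  have hp := prime_zero N h h1728 π hπ
  have : (Ideal.span {piC (jE N E) π}).IsPrime := (Ideal.span_singleton_prime hp.ne_zero).mpr hp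
  exact Ideal.Quotient.isDomain _

/-- The special fibre of the `1/j`-chart is a domain. -/
theorem isDomain_inf {p : ℕ} (h : JInputs N O E p) (h1728 : IsUnit (1728 : O)) (π : O)
    (hπ : Irreducible π) :
    IsDomain (integralClosure (Algebra.adjoin O {(jE N E)⁻¹}) (LE N E) ⧸
        Ideal.span {piC (jE N E)⁻¹ π}) := by
  have hp := prime_inf N h h1728 π hπ
  have : (Ideal.span {piC (jE N E)⁻¹ π}).IsPrime :=
    (Ideal.span_singleton_prime hp.ne_zero).mpr hp
  exact Ideal.Quotient.isDomain _

/-- Pointwise regularity of the special fibre of the `j`-chart at every closed point. -/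
theorem regAt_zero' {p : ℕ} (h : JInputs N O E p) (h1728 : IsUnit (1728 : O)) (π : O)
    (hπ : Irreducible π)
    (M : Ideal (integralClosure (Algebra.adjoin O {jE N E}) (LE N E))) (hM : M.IsMaximal)
    (hπM : piC (jE N E) π ∈ M) : RegNB.RegAt (piC (jE N E) π) M := by
  classical
  haveI := h.fin
  exact regAt_zero π hπ (jE N E) (transcendental_jE (O := O) N) (h.gauss π hπ) {0, 1728}
    (isUnit_sub_of_mem h1728) (h.horiz _ (by simp) (by simp)) M hM hπM

/-- Pointwise regularity of the special fibre of the `1/j`-chart at the closed points over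
`j = ∞` (the cusps). -/
theorem regAt_inf' {p : ℕ} (h : JInputs N O E p) (π : O) (hπ : Irreducible π)
    (M : Ideal (integralClosure (Algebra.adjoin O {(jE N E)⁻¹}) (LE N E))) (hM : M.IsMaximal)
    (hπM : piC (jE N E)⁻¹ π ∈ M) (htM : ChartInf.tInf (jE N E) ∈ M) :
    RegNB.RegAt (piC (jE N E)⁻¹ π) M := by
  classical
  haveI := h.fin
  exact regAt_inf π hπ (jE N E) (transcendental_jE (O := O) N) (h.gauss π hπ) {0, 1728}
    (h.horiz _ (by simp) (by simp)) M hM hπM htM

/-- The special fibre of the `j`-chart is a Dedekind domain. -/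
theorem dedekind_zero {p : ℕ} (h : JInputs N O E p) (h1728 : IsUnit (1728 : O)) (π : O)
    (hπ : Irreducible π) :
    IsDedekindDomain (integralClosure (Algebra.adjoin O {jE N E}) (LE N E) ⧸
        Ideal.span {piC (jE N E) π}) := by
  haveI := h.fin
  exact isDedekindDomain_quotient_chart (E := E) (jE N E) (transcendental_jE (O := O) N) π hπ
    (prime_zero N h h1728 π hπ) (normal_zero N h h1728 π hπ)

/-- The special fibre of the `1/j`-chart is a Dedekind domain. -/
theorem dedekind_inf {p : ℕ} (h : JInputs N O E p) (h1728 : IsUnit (1728 : O)) (π : O)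
    (hπ : Irreducible π) :
    IsDedekindDomain (integralClosure (Algebra.adjoin O {(jE N E)⁻¹}) (LE N E) ⧸
        Ideal.span {piC (jE N E)⁻¹ π}) := by
  haveI := h.fin
  haveI : FiniteDimensional (IntermediateField.adjoin E {(jE N E)⁻¹}) (LE N E) :=
    Fermat.Agent.S34.Nodal.finiteDimensional_adjoin_inv (jE N E)
  exact isDedekindDomain_quotient_chart (E := E) (jE N E)⁻¹
    (Fermat.Agent.S34.Nodal.transcendental_inv (transcendental_jE (O := O) N)) π hπ
    (prime_inf N h h1728 π hπ) (normal_inf N h h1728 π hπ)

end Generic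

/-! ### The canonical algebra structure `algebraOL` -/

section Canonical

variable (N : ℕ) [NeZero N] {O E : Type} [CommRing O] [IsDomain O] [IsDiscreteValuationRing O]
  [Field E] [CharZero E] [Algebra O E] [IsFractionRing O E] [Algebra ℚ E]

/-- `JInputsC` is `JInputs` for the canonical algebra structure. -/
theorem jInputs_of_jInputsC {p : ℕ} (h : JInputsC N O E p) :
    letI := algebraOL O E (LE N E)
    haveI := isScalarTower_OL O E (LE N E)
    JInputs N O E p := h

/-- **All level-`N` facts at once**, for the canonical `O`-algebra structure on `LE N E`: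
`j` transcendental, `LE N E / E(j)` finite, `π` prime in both chart rings, both special fibres
Dedekind domains, pointwise regularity on the `j`-chart and at the cusps. -/
theorem factsC {p : ℕ} (h : JInputsC N O E p) (h1728 : IsUnit (1728 : O)) (π : O)
    (hπ : Irreducible π) :
    letI := algebraOL O E (LE N E)
    Transcendental E (jE N E) ∧
    FiniteDimensional (IntermediateField.adjoin E {jE N E}) (LE N E) ∧
    Prime (piC (jE N E) π) ∧ Prime (piC (jE N E)⁻¹ π) ∧
    IsDedekindDomain (integralClosure (Algebra.adjoin O {jE N E}) (LE N E) ⧸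
        Ideal.span {piC (jE N E) π}) ∧
    IsDedekindDomain (integralClosure (Algebra.adjoin O {(jE N E)⁻¹}) (LE N E) ⧸
        Ideal.span {piC (jE N E)⁻¹ π}) ∧
    (∀ M : Ideal (integralClosure (Algebra.adjoin O {jE N E}) (LE N E)), M.IsMaximal →
      piC (jE N E) π ∈ M → RegNB.RegAt (piC (jE N E) π) M) ∧
    (∀ M : Ideal (integralClosure (Algebra.adjoin O {(jE N E)⁻¹}) (LE N E)), M.IsMaximal →
      piC (jE N E)⁻¹ π ∈ M → ChartInf.tInf (jE N E) ∈ M →
      RegNB.RegAt (piC (jE N E)⁻¹ π) M) := by
  letI := algebraOL O E (LE N E)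
  haveI := isScalarTower_OL O E (LE N E)
  have h' : JInputs N O E p := h
  exact ⟨transcendental_jE (O := O) N, h'.fin, prime_zero N h' h1728 π hπ,
    prime_inf N h' h1728 π hπ, dedekind_zero N h' h1728 π hπ, dedekind_inf N h' h1728 π hπ,
    fun M hM hπM => regAt_zero' N h' h1728 π hπ M hM hπM,
    fun M hM hπM htM => regAt_inf' N h' π hπ M hM hπM htM⟩

end Canonical

/-! ### The arithmetic instance `O = A ∩ E` -/

section Arithmetic

/-- **The level-`M` inputs exist uniformly in the number field**: for a prime `ℓ > 3` not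
dividing `M` and a valuation ring `A` of `ℚ̄` over `ℓ`, there is a finite set `S₀ ⊆ ℚ̄` such that
for every number field `E ⊇ S₀` with `A ∩ E` a discrete valuation ring, the inputs of the Model
theorem hold for `(LE M E, j)` and `1728` is a unit of `A ∩ E`. -/
theorem exists_levelM (M : ℕ) [NeZero M] {ℓ : ℕ} [Fact ℓ.Prime] (hℓM : ¬ ℓ ∣ M) (h3 : 3 < ℓ)
    (A : ValuationSubring Qb) (hA : A.LiesOverPrime ℓ) :
    ∃ S₀ : Finset Qb, ∀ (E : IntermediateField ℚ Qb) [FiniteDimensional ℚ E]
      [IsDiscreteValuationRing (OE A E)], (∀ s ∈ S₀, s ∈ E) →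
      (∀ p : ℕ, JInputsC M (OE A E) E p) ∧ IsUnit (1728 : OE A E) := by
  have hℓp : ℓ.Prime := Fact.out
  have : NeZero (M : Qb) := ⟨Nat.cast_ne_zero.mpr (NeZero.ne M)⟩
  obtain ⟨z, hz⟩ := HasEnoughRootsOfUnity.exists_primitiveRoot Qb M
  have hMℓ : Nat.Coprime M ℓ := Nat.coprime_comm.mp ((Nat.Prime.coprime_iff_not_dvd hℓp).mpr hℓM)
  exact ⟨{z}, fun E _ _ hE => ⟨fun p =>
    E2.JInputsAll.jInputsC_OE M A E hA hMℓ hz (hE z (Finset.mem_singleton_self z)) p,
    isUnit_1728_OE A E hℓp hA h3⟩⟩

/-- Every element of `LE M E` is a fraction of two series with coefficients in `A ∩ E`. -/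
theorem mem_fracField (M : ℕ) [NeZero M] (A : ValuationSubring Qb)
    (E : IntermediateField ℚ Qb) [IsDiscreteValuationRing (OE A E)] {y : LaurentSeries E}
    (hy : y ∈ LE M E) : y ∈ GaussDVR.fracField (OE A E) E :=
  GaussDescent.mem_fracField_of_mem_laurentBaseChange A E _ (GaussDescent.intFrac_of_mem_full M) hy

/-- **The level-`M` facts, uniformly in the number field** (`ℓ > 3`, `ℓ ∤ M`): the finite set
`S₀` of `exists_levelM` works for all the conclusions of `factsC` at every uniformiser. -/
theorem exists_levelM_facts (M : ℕ) [NeZero M] {ℓ : ℕ} [Fact ℓ.Prime] (hℓM : ¬ ℓ ∣ M)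
    (h3 : 3 < ℓ) (A : ValuationSubring Qb) (hA : A.LiesOverPrime ℓ) :
    ∃ S₀ : Finset Qb, ∀ (E : IntermediateField ℚ Qb) [FiniteDimensional ℚ E]
      [IsDiscreteValuationRing (OE A E)], (∀ s ∈ S₀, s ∈ E) →
      ∀ π : OE A E, Irreducible π →
      letI := algebraOL (OE A E) E (LE M E)
      Transcendental E (jE M E) ∧
      FiniteDimensional (IntermediateField.adjoin E {jE M E}) (LE M E) ∧
      Prime (piC (jE M E) π) ∧ Prime (piC (jE M E)⁻¹ π) ∧
      IsDedekindDomain (integralClosure (Algebra.adjoin (OE A E) {jE M E}) (LE M E) ⧸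
          Ideal.span {piC (jE M E) π}) ∧
      IsDedekindDomain (integralClosure (Algebra.adjoin (OE A E) {(jE M E)⁻¹}) (LE M E) ⧸
          Ideal.span {piC (jE M E)⁻¹ π}) ∧
      (∀ Q : Ideal (integralClosure (Algebra.adjoin (OE A E) {jE M E}) (LE M E)), Q.IsMaximal →
        piC (jE M E) π ∈ Q → RegNB.RegAt (piC (jE M E) π) Q) ∧
      (∀ Q : Ideal (integralClosure (Algebra.adjoin (OE A E) {(jE M E)⁻¹}) (LE M E)),
        Q.IsMaximal → piC (jE M E)⁻¹ π ∈ Q → ChartInf.tInf (jE M E) ∈ Q →
        RegNB.RegAt (piC (jE M E)⁻¹ π) Q) := by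
  obtain ⟨S₀, hS₀⟩ := exists_levelM M hℓM h3 A hA
  refine ⟨S₀, fun E _ _ hE π hπ => ?_⟩
  obtain ⟨h, h1728⟩ := hS₀ E hE
  exact factsC M (h 0) h1728 π hπ

end Arithmetic

end Fermat.Agent.S34.LevelM
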