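import Mathlib
import Fermat.Agent.S34.ToricInertia

/-!
# S34 / S35, step (ii): the TORIC-SECTION lemma

The second half of `ToricInertia.mem_range_of_cartierRoot`, for an arbitrary `k : F` (no
automorphism).  `O` a DVR with uniformiser `π`, `F` a field over `O`, `u : F`; chart rings = the
integral closures of `O[u]`, `O[u⁻¹]`, `O[u, u⁻¹]` in `F`.

`mem_range_of_sections` : if there are "sections" `s0`, `sinf : F` with
`s0 ^ m / k ∈ 1 + π B₀`, `sinf ^ m / k ∈ 1 + π B_∞` and `((s0 - sinf) / π) ^ m / k ∈ B₀∞`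
(approximate `m`-th roots of `k` on the two charts, compatible modulo `π` on the overlap), then
`k` is an `m`-th power in `F`: any `θ` with `θ ^ m = k` generating a field `L = F(θ)` in which `O`
is integrally closed and whose chart ring is finite lies in `F`.

`pow_div_mem_chart_of_sum` : `{x : x ^ m / k integral}` is a module over the chart ring (used to
bring a difference `s0 - sinf = π ∑ xᵢ wᵢ` into the shape above).
-/

set_option autoImplicit false

namespace Fermat.Agent.S34.ToricInertia

open Polynomial Finset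
open Fermat.Agent.S30.Model.CechP1

section FPart

variable {O F : Type*} [CommRing O] [Field F] [Algebra O F]

/-- `{x : x ^ m / k ∈ B}` is stable under `B`-linear combinations (`B` a chart ring). -/
theorem pow_div_mem_chart_of_sum (t : Set F) (m : ℕ) (hm0 : 0 < m) (k : F) {n : ℕ}
    (x w : Fin n → F) (hx : ∀ i, x i ^ m / k ∈ chart O t) (hw : ∀ i, w i ∈ chart O t) :
    (∑ i, x i * w i) ^ m / k ∈ chart O t := by
  classical
  rw [Finset.sum_pow', Finset.sum_div]
  refine Subalgebra.sum_mem _ fun p _ => ?_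
  have h1 : (∏ j : Fin m, x (p j) * w (p j)) / k = ((∏ j : Fin m, x (p j)) / k) * ∏ j, w (p j) := by
    rw [Finset.prod_mul_distrib]; ring
  rw [h1]
  refine Subalgebra.mul_mem _ ?_ (Subalgebra.prod_mem _ fun j _ => hw (p j))
  have hpow : ((∏ j : Fin m, x (p j)) / k) ^ m = ∏ j : Fin m, (x (p j) ^ m / k) := by
    rw [div_pow, ← Finset.prod_pow, Finset.prod_div_distrib, Finset.prod_const,
      Finset.card_univ, Fintype.card_fin]
  apply IsIntegral.of_pow hm0
  rw [hpow]
  exact Subalgebra.prod_mem _ fun j _ => hx (p j)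

end FPart

section Main

variable {O F L : Type*} [CommRing O] [IsDomain O] [IsDiscreteValuationRing O]
  [Field F] [Algebra O F] [Field L] [Algebra F L] [Algebra O L] [IsScalarTower O F L]

/-- **TORIC-SECTION lemma.**  Approximate `m`-th roots `s0`, `sinf` of `k` on the two charts
(`s ^ m / k ≡ 1` modulo `π`), compatible modulo `π` on the overlap, force `k` to be an `m`-th
power in `F`, provided `L = F(θ)`, `θ ^ m = k`, has `O` integrally closed in it and a finite
chart ring. -/
theorem mem_range_of_sections (π : O) (hπ : Irreducible π)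
    (hinj : Function.Injective (algebraMap O F)) (u : F) (hu : u ≠ 0)
    (m : ℕ) (hm0 : 0 < m) (hmO : IsUnit (m : O)) (ζ : O) (hζ : IsPrimitiveRoot ζ m)
    (k : F) (hk : k ≠ 0) (s0 sinf : F)
    (h0 : ∃ a0 : F, IsIntegral (Algebra.adjoin O ({u} : Set F)) a0 ∧
      s0 ^ m = k * (1 + algebraMap O F π * a0))
    (hinf : ∃ ainf : F, IsIntegral (Algebra.adjoin O ({u⁻¹} : Set F)) ainf ∧
      sinf ^ m = k * (1 + algebraMap O F π * ainf))
    (h0inf : ∃ w : F, IsIntegral (Algebra.adjoin O ({u, u⁻¹} : Set F)) w ∧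
      (s0 - sinf) ^ m = algebraMap O F π ^ m * k * w)
    (hOL : ∀ x : L, IsIntegral O x → ∃ a : O, algebraMap O L a = x)
    (hfin : ∃ s : Finset L, (∀ β ∈ s, IsIntegral (Algebra.adjoin O {algebraMap F L u}) β) ∧
      ∀ x : L, IsIntegral (Algebra.adjoin O {algebraMap F L u}) x →
        ∃ f : L → O[X], x = ∑ β ∈ s, aeval (algebraMap F L u) (f β) * β)
    (θ : L) (hθ : θ ^ m = algebraMap F L k)
    (hgen : IntermediateField.adjoin F {θ} = ⊤) :
    θ ∈ Set.range (algebraMap F L) := by
  classical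
  by_contra hne
  have hinjL : Function.Injective (algebraMap O L) := by
    rw [IsScalarTower.algebraMap_eq O F L]
    exact (algebraMap F L).injective.comp hinj
  have hπL : ∀ x : F, algebraMap F L (algebraMap O F π * x) =
      algebraMap O L π * algebraMap F L x := by
    intro x
    rw [map_mul, ← IsScalarTower.algebraMap_apply O F L]
  have hπL0 : algebraMap O L π ≠ 0 := fun h => hπ.ne_zero (hinjL (by rw [h, map_zero]))
  have huL0 : algebraMap F L u ≠ 0 := (map_ne_zero (algebraMap F L)).mpr hu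
  have hkL0 : algebraMap F L k ≠ 0 := (map_ne_zero (algebraMap F L)).mpr hk
  have hθ0 : θ ≠ 0 := by
    intro h0
    rw [h0, zero_pow hm0.ne'] at hθ
    exact hkL0 hθ.symm
  obtain ⟨m', hm'⟩ := hmO.exists_left_inv
  obtain ⟨a0, ha0, hs0⟩ := h0
  obtain ⟨ainf, hainf, hsinf⟩ := hinf
  obtain ⟨w, hw, hsw⟩ := h0inf
  have himg0 : algebraMap F L '' ({u} : Set F) = {algebraMap F L u} := Set.image_singleton
  have himginf : algebraMap F L '' ({u⁻¹} : Set F) = {(algebraMap F L u)⁻¹} := by
    rw [Set.image_singleton, map_inv₀]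
  have himg0inf : algebraMap F L '' ({u, u⁻¹} : Set F) =
      {algebraMap F L u, (algebraMap F L u)⁻¹} := by
    rw [Set.image_pair, map_inv₀]
  have ha0L : algebraMap F L a0 ∈ chart O ({algebraMap F L u} : Set L) := by
    rw [← himg0]; exact map_mem_chart _ ha0
  have hainfL : algebraMap F L ainf ∈ chart O ({(algebraMap F L u)⁻¹} : Set L) := by
    rw [← himginf]; exact map_mem_chart _ hainf
  have hwL : algebraMap F L w ∈ chart O ({algebraMap F L u, (algebraMap F L u)⁻¹} : Set L) := by
    rw [← himg0inf]; exact map_mem_chart _ hw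
  have hpow : ∀ s : F, (algebraMap F L s / θ) ^ m = algebraMap F L (s ^ m / k) := by
    intro s
    rw [div_pow, hθ, ← map_pow, ← map_div₀]
  have h0 : (algebraMap F L s0 / θ) ^ m = 1 + algebraMap O L π * algebraMap F L a0 := by
    rw [hpow, hs0, mul_div_cancel_left₀ _ hk, map_add, map_one, hπL]
  have hinf : (algebraMap F L sinf / θ) ^ m = 1 + algebraMap O L π * algebraMap F L ainf := by
    rw [hpow, hsinf, mul_div_cancel_left₀ _ hk, map_add, map_one, hπL]
  have ht0 : algebraMap F L s0 / θ ∈ chart O ({algebraMap F L u} : Set L) := by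
    apply IsIntegral.of_pow hm0
    rw [h0]
    exact Subalgebra.add_mem _ (Subalgebra.one_mem _)
      (Subalgebra.mul_mem _ (Subalgebra.algebraMap_mem _ π) ha0L)
  have htinf : algebraMap F L sinf / θ ∈ chart O ({(algebraMap F L u)⁻¹} : Set L) := by
    apply IsIntegral.of_pow hm0
    rw [hinf]
    exact Subalgebra.add_mem _ (Subalgebra.one_mem _)
      (Subalgebra.mul_mem _ (Subalgebra.algebraMap_mem _ π) hainfL)
  set W : L := algebraMap F L (s0 - sinf) / (algebraMap O L π * θ) with hWdef
  have hWpow : W ^ m = algebraMap F L w := by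
    have h1 : algebraMap F L (s0 - sinf) ^ m =
        algebraMap O L π ^ m * algebraMap F L k * algebraMap F L w := by
      rw [← map_pow, hsw, map_mul, map_mul, map_pow, ← IsScalarTower.algebraMap_apply O F L]
    rw [hWdef, div_pow, mul_pow, hθ, h1]
    field_simp
  have hW : W ∈ chart O ({algebraMap F L u, (algebraMap F L u)⁻¹} : Set L) := by
    apply IsIntegral.of_pow hm0
    rw [hWpow]
    exact hwL
  have h0inf : algebraMap F L s0 / θ - algebraMap F L sinf / θ = algebraMap O L π * W := by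
    rw [hWdef, ← sub_div, ← map_sub]
    field_simp
  obtain ⟨a, -, c0, hc0, cinf, hcinf, he0, heinf⟩ :=
    exists_pow_mul_sub_one π hπ.prime hinjL hOL (algebraMap F L u) huL0 hfin m hm0 m' ζ hm'
      hζ.pow_eq_one (fun j hj0 hjm => sum_pow_pow_eq_zero hζ j hj0 hjm)
      (algebraMap F L s0 / θ) (algebraMap F L sinf / θ) (algebraMap F L a0)
      (algebraMap F L ainf) W ht0 htinf ha0L hainfL hW h0 hinf h0inf
  -- the Galois step
  have hmF : (m : F) ≠ 0 := by
    have h1 : IsUnit ((m : O) : O) := hmO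
    have h2 := h1.map (algebraMap O F)
    rw [map_natCast] at h2
    exact h2.ne_zero
  obtain ⟨σ, hσ⟩ := exists_algEquiv_ne hm0 hmF (hζ.map_of_injective hinj) hk hθ hgen hne
  set r : L := σ θ / θ with hr
  have hr1 : r ≠ 1 := by
    intro h1
    apply hσ
    rw [hr, div_eq_one_iff_eq hθ0] at h1
    exact h1
  have hrm : r ^ m = 1 := by
    rw [hr, div_pow, ← map_pow, hθ, σ.commutes, div_self hkL0]
  have hσθ : σ θ = r * θ := by rw [hr, div_mul_cancel₀ _ hθ0]
  have hr0 : r ≠ 0 := by
    intro h0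
    rw [h0, zero_pow hm0.ne'] at hrm
    exact zero_ne_one hrm
  have hσO : ∀ x : O, σ (algebraMap O L x) = algebraMap O L x := by
    intro x
    rw [IsScalarTower.algebraMap_apply O F L, σ.commutes]
  have hσt : ∀ s : F, σ (algebraMap F L s / θ) = (algebraMap F L s / θ) / r := by
    intro s
    rw [map_div₀, σ.commutes, hσθ]
    field_simp
  have hσchart : ∀ (t : Set F) (x : L), x ∈ chart O (algebraMap F L '' t) →
      σ x ∈ chart O (algebraMap F L '' t) := by
    intro t x hx
    refine ringEquiv_mem_chart (σ : L ≃+* L) (fun x => ⟨x, hσO x⟩) _ ?_ hx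
    rintro y ⟨z, hz, rfl⟩
    have : (σ : L ≃+* L) (algebraMap F L z) = algebraMap F L z := σ.commutes z
    rw [this]
    exact Algebra.subset_adjoin ⟨z, hz, rfl⟩
  have hrchart : ∀ t : Set L, r ∈ chart O t := by
    intro t
    apply IsIntegral.of_pow hm0
    rw [hrm]
    exact isIntegral_one
  set q : L := ∑ j ∈ range m, ∑ i ∈ range j, r ^ i with hq
  have hqchart : ∀ t : Set L, q ∈ chart O t := fun t =>
    Subalgebra.sum_mem _ fun j _ => Subalgebra.sum_mem _ fun i _ =>
      Subalgebra.pow_mem _ (hrchart t) i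
  have hmq : (m : L) = (1 - r) * q := natCast_eq_one_sub_mul m r hr1 hrm
  have hm'L : algebraMap O L m' * (m : L) = 1 := by
    rw [← map_natCast (algebraMap O L), ← map_mul, hm', map_one]
  -- on each chart, `1 = π * (integral)`
  have hfinal : ∀ (t : Set F) (x cx : L), cx ∈ chart O (algebraMap F L '' t) →
      σ x = x / r → algebraMap O L ζ ^ a * x - 1 = algebraMap O L π * cx →
      ∃ y : L, y ∈ chart O (algebraMap F L '' t) ∧ (1 : L) = algebraMap O L π * y := by
    intro t x cx hcx hσx hex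
    have h1 : algebraMap O L ζ ^ a * (x / r) - 1 = algebraMap O L π * σ cx := by
      have := congrArg σ hex
      rw [map_sub, map_mul, map_mul, map_pow, hσO, hσO, hσx, map_one] at this
      exact this
    have h2 : r - 1 = algebraMap O L π * (cx - r * σ cx) := by
      have h3 : algebraMap O L ζ ^ a * x = r * (algebraMap O L ζ ^ a * (x / r)) := by
        field_simp
      linear_combination hex - r * h1 - h3
    refine ⟨-(algebraMap O L m' * q * (cx - r * σ cx)), ?_, ?_⟩
    · exact Subalgebra.neg_mem _ (Subalgebra.mul_mem _ (Subalgebra.mul_mem _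
        (Subalgebra.algebraMap_mem _ m') (hqchart _))
        (Subalgebra.sub_mem _ hcx (Subalgebra.mul_mem _ (hrchart _) (hσchart t cx hcx))))
    · linear_combination (-1 : L) * hm'L + algebraMap O L m' * hmq -
        (algebraMap O L m' * q) * h2
  obtain ⟨y0, hy0, hy0e⟩ := hfinal ({u} : Set F) _ c0 (by rw [himg0]; exact hc0) (hσt s0) he0
  obtain ⟨yinf, hyinf, hyinfe⟩ :=
    hfinal ({u⁻¹} : Set F) _ cinf (by rw [himginf]; exact hcinf) (hσt sinf) heinf
  rw [himg0] at hy0
  rw [himginf] at hyinf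
  exact false_of_one_eq π hπ.prime hinjL hOL (algebraMap F L u) huL0 hy0 hyinf hy0e hyinfe

/-- **TORIC-SECTION lemma**, with the overlap condition in module form:
`s0 - sinf = π ∑ xᵢ wᵢ` with `xᵢ ^ m / k` and `wᵢ` integral over `O[u, u⁻¹]`. -/
theorem mem_range_of_sections_sum (π : O) (hπ : Irreducible π)
    (hinj : Function.Injective (algebraMap O F)) (u : F) (hu : u ≠ 0)
    (m : ℕ) (hm0 : 0 < m) (hmO : IsUnit (m : O)) (ζ : O) (hζ : IsPrimitiveRoot ζ m)
    (k : F) (hk : k ≠ 0) (s0 sinf : F)
    (h0 : ∃ a0 : F, IsIntegral (Algebra.adjoin O ({u} : Set F)) a0 ∧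
      s0 ^ m = k * (1 + algebraMap O F π * a0))
    (hinf : ∃ ainf : F, IsIntegral (Algebra.adjoin O ({u⁻¹} : Set F)) ainf ∧
      sinf ^ m = k * (1 + algebraMap O F π * ainf))
    (h0inf : ∃ (n : ℕ) (x w : Fin n → F),
      (∀ i, IsIntegral (Algebra.adjoin O ({u, u⁻¹} : Set F)) (x i ^ m / k)) ∧
      (∀ i, IsIntegral (Algebra.adjoin O ({u, u⁻¹} : Set F)) (w i)) ∧
      s0 - sinf = algebraMap O F π * ∑ i, x i * w i)
    (hOL : ∀ x : L, IsIntegral O x → ∃ a : O, algebraMap O L a = x)
    (hfin : ∃ s : Finset L, (∀ β ∈ s, IsIntegral (Algebra.adjoin O {algebraMap F L u}) β) ∧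
      ∀ x : L, IsIntegral (Algebra.adjoin O {algebraMap F L u}) x →
        ∃ f : L → O[X], x = ∑ β ∈ s, aeval (algebraMap F L u) (f β) * β)
    (θ : L) (hθ : θ ^ m = algebraMap F L k)
    (hgen : IntermediateField.adjoin F {θ} = ⊤) :
    θ ∈ Set.range (algebraMap F L) := by
  obtain ⟨n, x, w, hx, hw, hsw⟩ := h0inf
  refine mem_range_of_sections π hπ hinj u hu m hm0 hmO ζ hζ k hk s0 sinf h0 hinf
    ⟨(∑ i, x i * w i) ^ m / k, pow_div_mem_chart_of_sum _ m hm0 k x w hx hw, ?_⟩
    hOL hfin θ hθ hgen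
  rw [hsw, mul_pow]
  field_simp

end Main


end Fermat.Agent.S34.ToricInertia
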