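import Mathlib
import Fermat.Agent.S34.ToricSection

/-!
# S34 / S35, step (ii): the TORIC-SECTION lemma with a NILPOTENT overlap congruence

Same statement as `ToricInertia.mem_range_of_sections`, but the two sections only have to agree
on the overlap modulo the RADICAL of `π`:  `(s0 - sinf) ^ m / k ∈ π · B₀∞`  (one power of `π`)
instead of `((s0 - sinf) / π) ^ m / k ∈ B₀∞`.  The point: two idempotents modulo `π` whose
difference is nilpotent modulo `π` are congruent modulo `π` (`f ^ 3 ≡ f` for their difference).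

* `sub_mem_of_pow_mem` : the idempotent trick, in any commutative ring.
* `exists_pow_mul_sub_one_of_pow` : the connectedness core with `(t0 - tinf) ^ N ∈ π · C₀∞`.
* `mem_range_of_sections_pow` : the exit, with `(s0 - sinf) ^ m = π * k * w`.
-/

set_option autoImplicit false

namespace Fermat.Agent.S34.ToricInertia

open Polynomial Finset
open Fermat.Agent.S30.Model.CechP1

/-- Two idempotents modulo `I` whose difference is nilpotent modulo `I` are congruent modulo
`I`. -/
theorem sub_mem_of_pow_mem {R : Type*} [CommRing R] (I : Ideal R) (e e' : R)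
    (he : e ^ 2 - e ∈ I) (he' : e' ^ 2 - e' ∈ I) (N : ℕ) (hN : (e - e') ^ N ∈ I) :
    e - e' ∈ I := by
  have h3 : (e - e') ^ 3 - (e - e') ∈ I := by
    have h : (e - e') ^ 3 - (e - e') =
        (e + 1 - 3 * e') * (e ^ 2 - e) + (3 * e - e' - 1) * (e' ^ 2 - e') := by ring
    rw [h]
    exact I.add_mem (I.mul_mem_left _ he) (I.mul_mem_left _ he')
  have hn : ∀ n : ℕ, (e - e') ^ (3 ^ n) - (e - e') ∈ I := by
    intro n
    induction n with
    | zero => simp
    | succ n ih =>
      have h : (e - e') ^ (3 ^ (n + 1)) - (e - e') =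
          ((e - e') ^ (3 ^ n) - (e - e')) * (((e - e') ^ (3 ^ n)) ^ 2 +
            (e - e') ^ (3 ^ n) * (e - e') + (e - e') ^ 2) + ((e - e') ^ 3 - (e - e')) := by
        rw [pow_succ, pow_mul]; ring
      rw [h]
      exact I.add_mem (I.mul_mem_right _ ih) h3
  have hpow : (e - e') ^ (3 ^ N) ∈ I := by
    have hle : N ≤ 3 ^ N := (Nat.lt_pow_self (by norm_num)).le
    obtain ⟨k, hk⟩ := Nat.exists_eq_add_of_le hle
    rw [hk, pow_add]
    exact I.mul_mem_right _ hN
  have h := I.sub_mem hpow (hn N)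
  simpa using h

section Core

variable {O L : Type*} [CommRing O] [Field L] [Algebra O L]

/-- **Connectedness core, nilpotent overlap.**  As `exists_pow_mul_sub_one`, but the two chart
elements only agree modulo the radical of `π` on the overlap. -/
theorem exists_pow_mul_sub_one_of_pow [IsNoetherianRing O] (π : O) (hπ : Prime π)
    (hinj : Function.Injective (algebraMap O L))
    (hOL : ∀ x : L, IsIntegral O x → ∃ a : O, algebraMap O L a = x)
    (u : L) (hu : u ≠ 0)
    (hfin : ∃ s : Finset L, (∀ β ∈ s, IsIntegral (Algebra.adjoin O {u}) β) ∧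
      ∀ x : L, IsIntegral (Algebra.adjoin O {u}) x →
        ∃ f : L → O[X], x = ∑ β ∈ s, aeval u (f β) * β)
    (m : ℕ) (hm0 : 0 < m) (m' z : O) (hm : m' * (m : O) = 1) (hzm : z ^ m = 1)
    (hz : ∀ j : ℕ, 0 < j → j < m → ∑ a ∈ range m, (z ^ a) ^ j = 0)
    (t0 tinf a0 ainf w : L)
    (ht0 : t0 ∈ chart O ({u} : Set L)) (htinf : tinf ∈ chart O ({u⁻¹} : Set L))
    (ha0 : a0 ∈ chart O ({u} : Set L)) (hainf : ainf ∈ chart O ({u⁻¹} : Set L))
    (hw : w ∈ chart O ({u, u⁻¹} : Set L))
    (h0 : t0 ^ m = 1 + algebraMap O L π * a0) (hinf : tinf ^ m = 1 + algebraMap O L π * ainf)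
    (N : ℕ) (h0inf : (t0 - tinf) ^ N = algebraMap O L π * w) :
    ∃ a ∈ range m, ∃ c0 ∈ chart O ({u} : Set L), ∃ cinf ∈ chart O ({u⁻¹} : Set L),
      algebraMap O L z ^ a * t0 - 1 = algebraMap O L π * c0 ∧
      algebraMap O L z ^ a * tinf - 1 = algebraMap O L π * cinf := by
  classical
  set P : L := algebraMap O L π with hP
  set M' : L := algebraMap O L m' with hM'
  set Z : L := algebraMap O L z with hZ
  have hmL : M' * (m : L) = 1 := by
    rw [hM', ← map_natCast (algebraMap O L), ← map_mul, hm, map_one]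
  have hZm : Z ^ m = 1 := by rw [hZ, ← map_pow, hzm, map_one]
  have hzL : ∀ j : ℕ, 0 < j → j < m → ∑ a ∈ range m, (Z ^ a) ^ j = 0 := by
    intro j hj0 hjm
    have := congrArg (algebraMap O L) (hz j hj0 hjm)
    simpa [hZ, map_sum, map_pow] using this
  have hle0 : chart O ({u} : Set L) ≤ chart O ({u, u⁻¹} : Set L) := chart_mono (by simp)
  have hleinf : chart O ({u⁻¹} : Set L) ≤ chart O ({u, u⁻¹} : Set L) := chart_mono (by simp)
  -- membership helpers
  have hx0 : ∀ a : ℕ, Z ^ a * t0 ∈ chart O ({u} : Set L) := fun a =>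
    Subalgebra.mul_mem _ (Subalgebra.pow_mem _ (Subalgebra.algebraMap_mem _ z) a) ht0
  have hxinf : ∀ a : ℕ, Z ^ a * tinf ∈ chart O ({u⁻¹} : Set L) := fun a =>
    Subalgebra.mul_mem _ (Subalgebra.pow_mem _ (Subalgebra.algebraMap_mem _ z) a) htinf
  have hxm0 : ∀ a : ℕ, (Z ^ a * t0) ^ m - 1 = P * a0 := by
    intro a
    rw [mul_pow, ← pow_mul, mul_comm a m, pow_mul, hZm, one_pow, one_mul, h0]; ring
  have hxminf : ∀ a : ℕ, (Z ^ a * tinf) ^ m - 1 = P * ainf := by
    intro a
    rw [mul_pow, ← pow_mul, mul_comm a m, pow_mul, hZm, one_pow, one_mul, hinf]; ring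
  have havg0 : ∀ a : ℕ, avg m M' (Z ^ a * t0) ∈ chart O ({u} : Set L) := fun a =>
    Subalgebra.mul_mem _ (Subalgebra.algebraMap_mem _ m')
      (Subalgebra.sum_mem _ fun j _ => Subalgebra.pow_mem _ (hx0 a) j)
  have havginf : ∀ a : ℕ, avg m M' (Z ^ a * tinf) ∈ chart O ({u⁻¹} : Set L) := fun a =>
    Subalgebra.mul_mem _ (Subalgebra.algebraMap_mem _ m')
      (Subalgebra.sum_mem _ fun j _ => Subalgebra.pow_mem _ (hxinf a) j)
  -- the dichotomy for each `a`
  have hdich : ∀ a : ℕ,
      ((∃ w, IsIntegral (Algebra.adjoin O {u}) w ∧ avg m M' (Z ^ a * t0) = P * w) ∧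
        (∃ w, IsIntegral (Algebra.adjoin O {u⁻¹}) w ∧ avg m M' (Z ^ a * tinf) = P * w)) ∨
      ((∃ w, IsIntegral (Algebra.adjoin O {u}) w ∧ avg m M' (Z ^ a * t0) - 1 = P * w) ∧
        (∃ w, IsIntegral (Algebra.adjoin O {u⁻¹}) w ∧
          avg m M' (Z ^ a * tinf) - 1 = P * w)) := by
    intro a
    refine connected π hπ hinj hOL u hu hfin _ _ (havg0 a) (havginf a) ?_ ?_ ?_
    · refine ⟨M' ^ 2 * a0 * ∑ j ∈ range m, ∑ i ∈ range j, (Z ^ a * t0) ^ i, ?_, ?_⟩
      · exact Subalgebra.mul_mem _ (Subalgebra.mul_mem _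
          (Subalgebra.pow_mem _ (Subalgebra.algebraMap_mem _ m') 2) ha0)
          (Subalgebra.sum_mem _ fun j _ => Subalgebra.sum_mem _ fun i _ =>
            Subalgebra.pow_mem _ (hx0 a) i)
      · rw [avg_sq_sub m M' _ hmL, hxm0 a]; ring
    · refine ⟨M' ^ 2 * ainf * ∑ j ∈ range m, ∑ i ∈ range j, (Z ^ a * tinf) ^ i, ?_, ?_⟩
      · exact Subalgebra.mul_mem _ (Subalgebra.mul_mem _
          (Subalgebra.pow_mem _ (Subalgebra.algebraMap_mem _ m') 2) hainf)
          (Subalgebra.sum_mem _ fun j _ => Subalgebra.sum_mem _ fun i _ =>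
            Subalgebra.pow_mem _ (hxinf a) i)
      · rw [avg_sq_sub m M' _ hmL, hxminf a]; ring
    · -- the two idempotents differ by a multiple of `t0 - tinf`, which is nilpotent modulo `π`
      set G : L := M' * ∑ j ∈ range m, Z ^ a *
          ∑ i ∈ range j, (Z ^ a * t0) ^ i * (Z ^ a * tinf) ^ (j - 1 - i) with hG
      have hGmem : G ∈ chart O ({u, u⁻¹} : Set L) :=
        Subalgebra.mul_mem _ (Subalgebra.algebraMap_mem _ m')
          (Subalgebra.sum_mem _ fun j _ => Subalgebra.mul_mem _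
            (Subalgebra.pow_mem _ (Subalgebra.algebraMap_mem _ z) a)
            (Subalgebra.sum_mem _ fun i _ => Subalgebra.mul_mem _
              (Subalgebra.pow_mem _ (hle0 (hx0 a)) i)
              (Subalgebra.pow_mem _ (hleinf (hxinf a)) _)))
      have hdiff : avg m M' (Z ^ a * t0) - avg m M' (Z ^ a * tinf) = (t0 - tinf) * G := by
        unfold avg
        rw [← mul_sub, ← sum_sub_distrib, hG]
        have hterm : ∀ j ∈ range m, (Z ^ a * t0) ^ j - (Z ^ a * tinf) ^ j =
            (t0 - tinf) * (Z ^ a *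
              ∑ i ∈ range j, (Z ^ a * t0) ^ i * (Z ^ a * tinf) ^ (j - 1 - i)) := by
          intro j _
          have hg := (Commute.all (Z ^ a * t0) (Z ^ a * tinf)).geom_sum₂_mul j
          have hd : Z ^ a * t0 - Z ^ a * tinf = (t0 - tinf) * Z ^ a := by ring
          rw [← hg, hd]; ring
        rw [sum_congr rfl hterm, ← mul_sum]; ring
      -- pass to the ring `chart O {u, u⁻¹}` and its ideal `(π)`
      let S01 : Subalgebra O L := chart O ({u, u⁻¹} : Set L)
      let E0 : S01 := ⟨avg m M' (Z ^ a * t0), hle0 (havg0 a)⟩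
      let Einf : S01 := ⟨avg m M' (Z ^ a * tinf), hleinf (havginf a)⟩
      let Pi : S01 := ⟨P, Subalgebra.algebraMap_mem _ π⟩
      have hE0 : E0 ^ 2 - E0 ∈ Ideal.span ({Pi} : Set S01) := by
        rw [Ideal.mem_span_singleton]
        refine ⟨⟨M' ^ 2 * a0 * ∑ j ∈ range m, ∑ i ∈ range j, (Z ^ a * t0) ^ i, ?_⟩, ?_⟩
        · exact hle0 (Subalgebra.mul_mem _ (Subalgebra.mul_mem _
            (Subalgebra.pow_mem _ (Subalgebra.algebraMap_mem _ m') 2) ha0)
            (Subalgebra.sum_mem _ fun j _ => Subalgebra.sum_mem _ fun i _ =>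
              Subalgebra.pow_mem _ (hx0 a) i))
        · apply Subtype.ext
          show avg m M' (Z ^ a * t0) ^ 2 - avg m M' (Z ^ a * t0) = P * _
          rw [avg_sq_sub m M' _ hmL, hxm0 a]; ring
      have hEinf : Einf ^ 2 - Einf ∈ Ideal.span ({Pi} : Set S01) := by
        rw [Ideal.mem_span_singleton]
        refine ⟨⟨M' ^ 2 * ainf * ∑ j ∈ range m, ∑ i ∈ range j, (Z ^ a * tinf) ^ i, ?_⟩, ?_⟩
        · exact hleinf (Subalgebra.mul_mem _ (Subalgebra.mul_mem _
            (Subalgebra.pow_mem _ (Subalgebra.algebraMap_mem _ m') 2) hainf)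
            (Subalgebra.sum_mem _ fun j _ => Subalgebra.sum_mem _ fun i _ =>
              Subalgebra.pow_mem _ (hxinf a) i))
        · apply Subtype.ext
          show avg m M' (Z ^ a * tinf) ^ 2 - avg m M' (Z ^ a * tinf) = P * _
          rw [avg_sq_sub m M' _ hmL, hxminf a]; ring
      have hpowmem : (E0 - Einf) ^ N ∈ Ideal.span ({Pi} : Set S01) := by
        rw [Ideal.mem_span_singleton]
        refine ⟨⟨w * G ^ N, Subalgebra.mul_mem _ hw (Subalgebra.pow_mem _ hGmem N)⟩, ?_⟩
        apply Subtype.ext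
        show (avg m M' (Z ^ a * t0) - avg m M' (Z ^ a * tinf)) ^ N = P * (w * G ^ N)
        rw [hdiff, mul_pow, h0inf]; ring
      have hmem := sub_mem_of_pow_mem (Ideal.span ({Pi} : Set S01)) E0 Einf hE0 hEinf N hpowmem
      rw [Ideal.mem_span_singleton] at hmem
      obtain ⟨c, hc⟩ := hmem
      exact ⟨c.1, c.2, congrArg Subtype.val hc⟩
  -- conclusion
  by_contra hcon
  have hfirst : ∀ a ∈ range m,
      (∃ w, IsIntegral (Algebra.adjoin O {u}) w ∧ avg m M' (Z ^ a * t0) = P * w) ∧
        (∃ w, IsIntegral (Algebra.adjoin O {u⁻¹}) w ∧ avg m M' (Z ^ a * tinf) = P * w) := by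
    intro a ha
    rcases hdich a with h | ⟨⟨w0, hw0, he0⟩, ⟨winf, hwinf, heinf⟩⟩
    · exact h
    · exfalso
      apply hcon
      refine ⟨a, ha, M' * a0 - w0 * (Z ^ a * t0 - 1), ?_, M' * ainf - winf * (Z ^ a * tinf - 1),
        ?_, ?_, ?_⟩
      · exact Subalgebra.sub_mem _ (Subalgebra.mul_mem _ (Subalgebra.algebraMap_mem _ m') ha0)
          (Subalgebra.mul_mem _ hw0 (Subalgebra.sub_mem _ (hx0 a) (Subalgebra.one_mem _)))
      · exact Subalgebra.sub_mem _ (Subalgebra.mul_mem _ (Subalgebra.algebraMap_mem _ m') hainf)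
          (Subalgebra.mul_mem _ hwinf (Subalgebra.sub_mem _ (hxinf a) (Subalgebra.one_mem _)))
      · have h1 := avg_mul_sub_one m M' (Z ^ a * t0)
        rw [hxm0 a] at h1
        linear_combination h1 - (Z ^ a * t0 - 1) * he0
      · have h1 := avg_mul_sub_one m M' (Z ^ a * tinf)
        rw [hxminf a] at h1
        linear_combination h1 - (Z ^ a * tinf - 1) * heinf
  have hf0 : ∀ a ∈ range m, ∃ w, IsIntegral (Algebra.adjoin O {u}) w ∧
      avg m M' (Z ^ a * t0) = P * w := fun a ha => (hfirst a ha).1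
  have hfinf : ∀ a ∈ range m, ∃ w, IsIntegral (Algebra.adjoin O {u⁻¹}) w ∧
      avg m M' (Z ^ a * tinf) = P * w := fun a ha => (hfirst a ha).2
  choose! w0 hw0 using hf0
  choose! winf hwinf using hfinf
  have hsum0 : (1 : L) = P * ∑ a ∈ range m, w0 a := by
    rw [mul_sum, ← sum_avg m hm0 M' Z t0 hmL hzL]
    exact sum_congr rfl fun a ha => (hw0 a ha).2
  have hsuminf : (1 : L) = P * ∑ a ∈ range m, winf a := by
    rw [mul_sum, ← sum_avg m hm0 M' Z tinf hmL hzL]
    exact sum_congr rfl fun a ha => (hwinf a ha).2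
  exact false_of_one_eq π hπ hinj hOL u hu
    (Subalgebra.sum_mem _ fun a ha => (hw0 a ha).1)
    (Subalgebra.sum_mem _ fun a ha => (hwinf a ha).1) hsum0 hsuminf

end Core

section Main

variable {O F L : Type*} [CommRing O] [IsDomain O] [IsDiscreteValuationRing O]
  [Field F] [Algebra O F] [Field L] [Algebra F L] [Algebra O L] [IsScalarTower O F L]

/-- **TORIC-SECTION lemma, nilpotent overlap.**  Approximate `m`-th roots `s0`, `sinf` of `k` on
the two charts (`s ^ m / k ≡ 1` modulo `π`) with `(s0 - sinf) ^ m / k ∈ π · B₀∞` force `k` to be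
an `m`-th power in `F`, provided `L = F(θ)`, `θ ^ m = k`, has `O` integrally closed in it and a
finite chart ring. -/
theorem mem_range_of_sections_pow (π : O) (hπ : Irreducible π)
    (hinj : Function.Injective (algebraMap O F)) (u : F) (hu : u ≠ 0)
    (m : ℕ) (hm0 : 0 < m) (hmO : IsUnit (m : O)) (ζ : O) (hζ : IsPrimitiveRoot ζ m)
    (k : F) (hk : k ≠ 0) (s0 sinf : F)
    (h0 : ∃ a0 : F, IsIntegral (Algebra.adjoin O ({u} : Set F)) a0 ∧
      s0 ^ m = k * (1 + algebraMap O F π * a0))
    (hinf : ∃ ainf : F, IsIntegral (Algebra.adjoin O ({u⁻¹} : Set F)) ainf ∧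
      sinf ^ m = k * (1 + algebraMap O F π * ainf))
    (h0inf : ∃ w : F, IsIntegral (Algebra.adjoin O ({u, u⁻¹} : Set F)) w ∧
      (s0 - sinf) ^ m = algebraMap O F π * k * w)
    (hOL : ∀ x : L, IsIntegral O x → ∃ a : O, algebraMap O L a = x)
    (hfin : ∃ s : Finset L, (∀ β ∈ s, IsIntegral (Algebra.adjoin O {algebraMap F L u}) β) ∧
      ∀ x : L, IsIntegral (Algebra.adjoin O {algebraMap F L u}) x →
        ∃ f : L → O[X], x = ∑ β ∈ s, aeval (algebraMap F L u) (f β) * β)
    (θ : L) (hθ : θ ^ m = algebraMap F L k)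
    (hgen : IntermediateField.adjoin F {θ} = ⊤) :
    θ ∈ Set.range (algebraMap F L) := by
  classical
  by_contra hne
  have hinjL : Function.Injective (algebraMap O L) := by
    rw [IsScalarTower.algebraMap_eq O F L]
    exact (algebraMap F L).injective.comp hinj
  have hπL : ∀ x : F, algebraMap F L (algebraMap O F π * x) =
      algebraMap O L π * algebraMap F L x := by
    intro x
    rw [map_mul, ← IsScalarTower.algebraMap_apply O F L]
  have hπL0 : algebraMap O L π ≠ 0 := fun h => hπ.ne_zero (hinjL (by rw [h, map_zero]))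
  have huL0 : algebraMap F L u ≠ 0 := (map_ne_zero (algebraMap F L)).mpr hu
  have hkL0 : algebraMap F L k ≠ 0 := (map_ne_zero (algebraMap F L)).mpr hk
  have hθ0 : θ ≠ 0 := by
    intro h0
    rw [h0, zero_pow hm0.ne'] at hθ
    exact hkL0 hθ.symm
  obtain ⟨m', hm'⟩ := hmO.exists_left_inv
  obtain ⟨a0, ha0, hs0⟩ := h0
  obtain ⟨ainf, hainf, hsinf⟩ := hinf
  obtain ⟨w, hw, hsw⟩ := h0inf
  have himg0 : algebraMap F L '' ({u} : Set F) = {algebraMap F L u} := Set.image_singleton
  have himginf : algebraMap F L '' ({u⁻¹} : Set F) = {(algebraMap F L u)⁻¹} := by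
    rw [Set.image_singleton, map_inv₀]
  have himg0inf : algebraMap F L '' ({u, u⁻¹} : Set F) =
      {algebraMap F L u, (algebraMap F L u)⁻¹} := by
    rw [Set.image_pair, map_inv₀]
  have ha0L : algebraMap F L a0 ∈ chart O ({algebraMap F L u} : Set L) := by
    rw [← himg0]; exact map_mem_chart _ ha0
  have hainfL : algebraMap F L ainf ∈ chart O ({(algebraMap F L u)⁻¹} : Set L) := by
    rw [← himginf]; exact map_mem_chart _ hainf
  have hwL : algebraMap F L w ∈ chart O ({algebraMap F L u, (algebraMap F L u)⁻¹} : Set L) := by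
    rw [← himg0inf]; exact map_mem_chart _ hw
  have hpow : ∀ s : F, (algebraMap F L s / θ) ^ m = algebraMap F L (s ^ m / k) := by
    intro s
    rw [div_pow, hθ, ← map_pow, ← map_div₀]
  have h0 : (algebraMap F L s0 / θ) ^ m = 1 + algebraMap O L π * algebraMap F L a0 := by
    rw [hpow, hs0, mul_div_cancel_left₀ _ hk, map_add, map_one, hπL]
  have hinf : (algebraMap F L sinf / θ) ^ m = 1 + algebraMap O L π * algebraMap F L ainf := by
    rw [hpow, hsinf, mul_div_cancel_left₀ _ hk, map_add, map_one, hπL]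
  have ht0 : algebraMap F L s0 / θ ∈ chart O ({algebraMap F L u} : Set L) := by
    apply IsIntegral.of_pow hm0
    rw [h0]
    exact Subalgebra.add_mem _ (Subalgebra.one_mem _)
      (Subalgebra.mul_mem _ (Subalgebra.algebraMap_mem _ π) ha0L)
  have htinf : algebraMap F L sinf / θ ∈ chart O ({(algebraMap F L u)⁻¹} : Set L) := by
    apply IsIntegral.of_pow hm0
    rw [hinf]
    exact Subalgebra.add_mem _ (Subalgebra.one_mem _)
      (Subalgebra.mul_mem _ (Subalgebra.algebraMap_mem _ π) hainfL)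
  have h0inf : (algebraMap F L s0 / θ - algebraMap F L sinf / θ) ^ m =
      algebraMap O L π * algebraMap F L w := by
    have h1 : (s0 - sinf) ^ m / k = algebraMap O F π * w := by
      rw [hsw]
      field_simp
    rw [← sub_div, ← map_sub, hpow, h1, hπL]
  obtain ⟨a, -, c0, hc0, cinf, hcinf, he0, heinf⟩ :=
    exists_pow_mul_sub_one_of_pow π hπ.prime hinjL hOL (algebraMap F L u) huL0 hfin m hm0 m' ζ
      hm' hζ.pow_eq_one (fun j hj0 hjm => sum_pow_pow_eq_zero hζ j hj0 hjm)
      (algebraMap F L s0 / θ) (algebraMap F L sinf / θ) (algebraMap F L a0)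
      (algebraMap F L ainf) (algebraMap F L w) ht0 htinf ha0L hainfL hwL h0 hinf m h0inf
  -- the Galois step
  have hmF : (m : F) ≠ 0 := by
    have h1 : IsUnit ((m : O) : O) := hmO
    have h2 := h1.map (algebraMap O F)
    rw [map_natCast] at h2
    exact h2.ne_zero
  obtain ⟨σ, hσ⟩ := exists_algEquiv_ne hm0 hmF (hζ.map_of_injective hinj) hk hθ hgen hne
  set r : L := σ θ / θ with hr
  have hr1 : r ≠ 1 := by
    intro h1
    apply hσ
    rw [hr, div_eq_one_iff_eq hθ0] at h1
    exact h1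
  have hrm : r ^ m = 1 := by
    rw [hr, div_pow, ← map_pow, hθ, σ.commutes, div_self hkL0]
  have hσθ : σ θ = r * θ := by rw [hr, div_mul_cancel₀ _ hθ0]
  have hr0 : r ≠ 0 := by
    intro h0
    rw [h0, zero_pow hm0.ne'] at hrm
    exact zero_ne_one hrm
  have hσO : ∀ x : O, σ (algebraMap O L x) = algebraMap O L x := by
    intro x
    rw [IsScalarTower.algebraMap_apply O F L, σ.commutes]
  have hσt : ∀ s : F, σ (algebraMap F L s / θ) = (algebraMap F L s / θ) / r := by
    intro s
    rw [map_div₀, σ.commutes, hσθ]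
    field_simp
  have hσchart : ∀ (t : Set F) (x : L), x ∈ chart O (algebraMap F L '' t) →
      σ x ∈ chart O (algebraMap F L '' t) := by
    intro t x hx
    refine ringEquiv_mem_chart (σ : L ≃+* L) (fun x => ⟨x, hσO x⟩) _ ?_ hx
    rintro y ⟨z, hz, rfl⟩
    have : (σ : L ≃+* L) (algebraMap F L z) = algebraMap F L z := σ.commutes z
    rw [this]
    exact Algebra.subset_adjoin ⟨z, hz, rfl⟩
  have hrchart : ∀ t : Set L, r ∈ chart O t := by
    intro t
    apply IsIntegral.of_pow hm0
    rw [hrm]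
    exact isIntegral_one
  set q : L := ∑ j ∈ range m, ∑ i ∈ range j, r ^ i with hq
  have hqchart : ∀ t : Set L, q ∈ chart O t := fun t =>
    Subalgebra.sum_mem _ fun j _ => Subalgebra.sum_mem _ fun i _ =>
      Subalgebra.pow_mem _ (hrchart t) i
  have hmq : (m : L) = (1 - r) * q := natCast_eq_one_sub_mul m r hr1 hrm
  have hm'L : algebraMap O L m' * (m : L) = 1 := by
    rw [← map_natCast (algebraMap O L), ← map_mul, hm', map_one]
  -- on each chart, `1 = π * (integral)`
  have hfinal : ∀ (t : Set F) (x cx : L), cx ∈ chart O (algebraMap F L '' t) →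
      σ x = x / r → algebraMap O L ζ ^ a * x - 1 = algebraMap O L π * cx →
      ∃ y : L, y ∈ chart O (algebraMap F L '' t) ∧ (1 : L) = algebraMap O L π * y := by
    intro t x cx hcx hσx hex
    have h1 : algebraMap O L ζ ^ a * (x / r) - 1 = algebraMap O L π * σ cx := by
      have := congrArg σ hex
      rw [map_sub, map_mul, map_mul, map_pow, hσO, hσO, hσx, map_one] at this
      exact this
    have h2 : r - 1 = algebraMap O L π * (cx - r * σ cx) := by
      have h3 : algebraMap O L ζ ^ a * x = r * (algebraMap O L ζ ^ a * (x / r)) := by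
        field_simp
      linear_combination hex - r * h1 - h3
    refine ⟨-(algebraMap O L m' * q * (cx - r * σ cx)), ?_, ?_⟩
    · exact Subalgebra.neg_mem _ (Subalgebra.mul_mem _ (Subalgebra.mul_mem _
        (Subalgebra.algebraMap_mem _ m') (hqchart _))
        (Subalgebra.sub_mem _ hcx (Subalgebra.mul_mem _ (hrchart _) (hσchart t cx hcx))))
    · linear_combination (-1 : L) * hm'L + algebraMap O L m' * hmq -
        (algebraMap O L m' * q) * h2
  obtain ⟨y0, hy0, hy0e⟩ := hfinal ({u} : Set F) _ c0 (by rw [himg0]; exact hc0) (hσt s0) he0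
  obtain ⟨yinf, hyinf, hyinfe⟩ :=
    hfinal ({u⁻¹} : Set F) _ cinf (by rw [himginf]; exact hcinf) (hσt sinf) heinf
  rw [himg0] at hy0
  rw [himginf] at hyinf
  exact false_of_one_eq π hπ.prime hinjL hOL (algebraMap F L u) huL0 hy0 hyinf hy0e hyinfe

end Main

end Fermat.Agent.S34.ToricInertia
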