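import Mathlib
import Fermat.Agent.S34.ToricSectionNil

/-!
# The TORIC-SECTION lemma over a NON-REDUCED special fibre

`mem_range_of_sections_rad` : as `mem_range_of_sections`, but every congruence is only required
modulo the RADICAL of `π` in the chart rings:

* `s0 ^ m / k ∈ B₀`, `s0 ^ m / k - 1 ∈ rad(π B₀)`; the same for `sinf` on the chart at infinity;
* `(s0 - sinf) ^ m / k ∈ rad(π B₀∞)`.

Then `k` is an `m`-th power in `F` (any `θ` with `θ ^ m = k` generating `L = F(θ)`, with `O`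
integrally closed in `L` and a finite chart ring, lies in `F`).  No hypothesis on the special
fibre: components of multiplicity `> 1` are allowed (the consumer of S36, step (3d)).

Ingredients: idempotents modulo the radical lift to idempotents modulo `π`
(`exists_idem_lift`), two idempotents modulo `π` with nilpotent difference are congruent
(`sub_mem_of_pow_mem`), and `CechP1.connected`.
-/

set_option autoImplicit false

namespace Fermat.Agent.S34.ToricInertia

open Polynomial Finset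
open Fermat.Agent.S30.Model.CechP1

/-- Idempotents modulo the radical of `I` lift to idempotents modulo `I`. -/
theorem exists_idem_lift {C : Type*} [CommRing C] (I : Ideal C) (e : C)
    (he : e ^ 2 - e ∈ I.radical) : ∃ E : C, E ^ 2 - E ∈ I ∧ E - e ∈ I.radical := by
  obtain ⟨n, hn⟩ := he
  rcases Nat.eq_zero_or_pos n with rfl | hn0
  · have htop : I = ⊤ := (Ideal.eq_top_iff_one I).mpr (by simpa using hn)
    refine ⟨e, ?_, ?_⟩
    · rw [htop]; exact Submodule.mem_top
    · rw [htop, Ideal.radical_top]; exact Submodule.mem_top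
  · refine ⟨1 - (1 - e ^ n) ^ n, ?_, ?_⟩
    · have hx : ((Ideal.Quotient.mk I e) - (Ideal.Quotient.mk I e) ^ 2) ^ n = 0 := by
        rw [← map_pow, ← map_sub, ← map_pow, Ideal.Quotient.eq_zero_iff_mem]
        have h1 : (e - e ^ 2) ^ n = (-1) ^ n * (e ^ 2 - e) ^ n := by
          rw [← mul_pow]; ring
        rw [h1]
        exact I.mul_mem_left _ hn
      have hid := isIdempotentElem_one_sub_one_sub_pow_pow (Ideal.Quotient.mk I e) n hx
      have h2 : Ideal.Quotient.mk I ((1 - (1 - e ^ n) ^ n) ^ 2 - (1 - (1 - e ^ n) ^ n)) = 0 := by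
        have h3 : Ideal.Quotient.mk I (1 - (1 - e ^ n) ^ n) =
            1 - (1 - (Ideal.Quotient.mk I e) ^ n) ^ n := by
          simp only [map_sub, map_pow, map_one]
        rw [map_sub, map_pow, h3, pow_two, hid.eq, sub_self]
      exact Ideal.Quotient.eq_zero_iff_mem.mp h2
    · have hy : IsIdempotentElem (Ideal.Quotient.mk I.radical e) := by
        unfold IsIdempotentElem
        rw [← map_mul, Ideal.Quotient.eq]
        have h1 : e * e - e = e ^ 2 - e := by ring
        rw [h1]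
        exact ⟨n, hn⟩
      rw [← Ideal.Quotient.eq]
      simp only [map_sub, map_pow, map_one]
      obtain ⟨k, rfl⟩ : ∃ k, n = k + 1 := ⟨n - 1, (Nat.sub_add_cancel hn0).symm⟩
      rw [hy.pow_succ_eq, hy.one_sub.pow_succ_eq, sub_sub_cancel]

/-- The averaging idempotents of an `m`-th root of unity modulo the radical, lifted. -/
theorem exists_idem_avg {C : Type*} [CommRing C] (I : Ideal C) (m : ℕ) (m' ζ t : C)
    (hm : m' * (m : C) = 1) (hζ : ζ ^ m = 1) (ht : t ^ m - 1 ∈ I.radical) (a : ℕ) :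
    ∃ E : C, E ^ 2 - E ∈ I ∧ E - avg m m' (ζ ^ a * t) ∈ I.radical := by
  apply exists_idem_lift
  rw [avg_sq_sub m m' _ hm]
  have h1 : (ζ ^ a * t) ^ m - 1 = t ^ m - 1 := by
    rw [mul_pow, ← pow_mul, mul_comm a m, pow_mul, hζ, one_pow, one_mul]
  rw [h1]
  exact Ideal.mul_mem_right _ _ (Ideal.mul_mem_left _ _ ht)

section Sub

variable {O L : Type*} [CommRing O] [Field L] [Algebra O L]

/-- Membership in the ideal `(π)` of a subalgebra, elementwise. -/
theorem mem_span_pi_iff (S : Subalgebra O L) (π : O) (x : S) :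
    x ∈ Ideal.span ({algebraMap O S π} : Set S) ↔
      ∃ c : L, c ∈ S ∧ (x : L) = algebraMap O L π * c := by
  rw [Ideal.mem_span_singleton]
  constructor
  · rintro ⟨c, hc⟩
    exact ⟨c.1, c.2, by rw [hc]; rfl⟩
  · rintro ⟨c, hc, h⟩
    exact ⟨⟨c, hc⟩, Subtype.ext h⟩

/-- Membership in the radical of `(π)` of a subalgebra, elementwise. -/
theorem mem_radical_pi_iff (S : Subalgebra O L) (π : O) (x : S) :
    x ∈ (Ideal.span ({algebraMap O S π} : Set S)).radical ↔
      ∃ (n : ℕ) (c : L), c ∈ S ∧ (x : L) ^ n = algebraMap O L π * c := by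
  constructor
  · rintro ⟨n, hn⟩
    obtain ⟨c, hc, h⟩ := (mem_span_pi_iff S π _).mp hn
    exact ⟨n, c, hc, by rw [← h]; rfl⟩
  · rintro ⟨n, c, hc, h⟩
    exact ⟨n, (mem_span_pi_iff S π _).mpr ⟨c, hc, by rw [← h]; rfl⟩⟩

/-- The inclusion of subalgebras maps `rad (π)` into `rad (π)`. -/
theorem inclusion_mem_radical {S T : Subalgebra O L} (hST : S ≤ T) (π : O) (x : S)
    (hx : x ∈ (Ideal.span ({algebraMap O S π} : Set S)).radical) :
    Subalgebra.inclusion hST x ∈ (Ideal.span ({algebraMap O T π} : Set T)).radical := by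
  obtain ⟨n, c, hc, h⟩ := (mem_radical_pi_iff S π x).mp hx
  exact (mem_radical_pi_iff T π _).mpr ⟨n, c, hST hc, h⟩

theorem inclusion_mem_span {S T : Subalgebra O L} (hST : S ≤ T) (π : O) (x : S)
    (hx : x ∈ Ideal.span ({algebraMap O S π} : Set S)) :
    Subalgebra.inclusion hST x ∈ Ideal.span ({algebraMap O T π} : Set T) := by
  obtain ⟨c, hc, h⟩ := (mem_span_pi_iff S π x).mp hx
  exact (mem_span_pi_iff T π _).mpr ⟨c, hST hc, h⟩

end Sub

section Core

variable {O L : Type*} [CommRing O] [Field L] [Algebra O L]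

/-- **Connectedness core, everything modulo the radical.**  Two chart elements which are
`m`-th roots of unity modulo `rad (π)` and agree modulo `rad (π)` on the overlap are congruent
modulo `rad (π)` to one and the same root of unity on both charts. -/
theorem exists_pow_mul_sub_one_rad [IsNoetherianRing O] (π : O) (hπ : Prime π)
    (hinj : Function.Injective (algebraMap O L))
    (hOL : ∀ x : L, IsIntegral O x → ∃ a : O, algebraMap O L a = x)
    (u : L) (hu : u ≠ 0)
    (hfin : ∃ s : Finset L, (∀ β ∈ s, IsIntegral (Algebra.adjoin O {u}) β) ∧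
      ∀ x : L, IsIntegral (Algebra.adjoin O {u}) x →
        ∃ f : L → O[X], x = ∑ β ∈ s, aeval u (f β) * β)
    (m : ℕ) (hm0 : 0 < m) (m' z : O) (hm : m' * (m : O) = 1) (hzm : z ^ m = 1)
    (hz : ∀ j : ℕ, 0 < j → j < m → ∑ a ∈ range m, (z ^ a) ^ j = 0)
    (t0 tinf : L)
    (ht0 : t0 ∈ chart O ({u} : Set L)) (htinf : tinf ∈ chart O ({u⁻¹} : Set L))
    (h0 : ∃ (N : ℕ) (a0 : L), a0 ∈ chart O ({u} : Set L) ∧
      (t0 ^ m - 1) ^ N = algebraMap O L π * a0)
    (hinf : ∃ (N : ℕ) (ainf : L), ainf ∈ chart O ({u⁻¹} : Set L) ∧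
      (tinf ^ m - 1) ^ N = algebraMap O L π * ainf)
    (h0inf : ∃ (N : ℕ) (w : L), w ∈ chart O ({u, u⁻¹} : Set L) ∧
      (t0 - tinf) ^ N = algebraMap O L π * w) :
    ∃ a ∈ range m,
      (∃ (N : ℕ) (c0 : L), c0 ∈ chart O ({u} : Set L) ∧
        (algebraMap O L z ^ a * t0 - 1) ^ N = algebraMap O L π * c0) ∧
      (∃ (N : ℕ) (cinf : L), cinf ∈ chart O ({u⁻¹} : Set L) ∧
        (algebraMap O L z ^ a * tinf - 1) ^ N = algebraMap O L π * cinf) := by
  classical
  set S0 : Subalgebra O L := chart O ({u} : Set L) with hS0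
  set Sinf : Subalgebra O L := chart O ({u⁻¹} : Set L) with hSinf
  set S01 : Subalgebra O L := chart O ({u, u⁻¹} : Set L) with hS01
  have hle0 : S0 ≤ S01 := chart_mono (by simp)
  have hleinf : Sinf ≤ S01 := chart_mono (by simp)
  set I0 : Ideal S0 := Ideal.span {algebraMap O S0 π} with hI0
  set Iinf : Ideal Sinf := Ideal.span {algebraMap O Sinf π} with hIinf
  set I01 : Ideal S01 := Ideal.span {algebraMap O S01 π} with hI01
  set T0 : S0 := ⟨t0, ht0⟩ with hT0def
  set Tinf : Sinf := ⟨tinf, htinf⟩ with hTinfdef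
  set M0 : S0 := algebraMap O S0 m' with hM0
  set Minf : Sinf := algebraMap O Sinf m' with hMinf
  set Z0 : S0 := algebraMap O S0 z with hZ0
  set Zinf : Sinf := algebraMap O Sinf z with hZinf
  have hT0 : T0 ^ m - 1 ∈ I0.radical := by
    obtain ⟨N, a0, ha0, h⟩ := h0
    exact (mem_radical_pi_iff S0 π _).mpr ⟨N, a0, ha0, h⟩
  have hTinf : Tinf ^ m - 1 ∈ Iinf.radical := by
    obtain ⟨N, ainf, hainf, h⟩ := hinf
    exact (mem_radical_pi_iff Sinf π _).mpr ⟨N, ainf, hainf, h⟩
  have hmS0 : M0 * (m : S0) = 1 := by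
    rw [hM0, ← map_natCast (algebraMap O S0), ← map_mul, hm, map_one]
  have hmSinf : Minf * (m : Sinf) = 1 := by
    rw [hMinf, ← map_natCast (algebraMap O Sinf), ← map_mul, hm, map_one]
  have hZ0m : Z0 ^ m = 1 := by rw [hZ0, ← map_pow, hzm, map_one]
  have hZinfm : Zinf ^ m = 1 := by rw [hZinf, ← map_pow, hzm, map_one]
  have hzS0 : ∀ j : ℕ, 0 < j → j < m → ∑ a ∈ range m, (Z0 ^ a) ^ j = 0 := by
    intro j hj0 hjm
    have := congrArg (algebraMap O S0) (hz j hj0 hjm)
    simpa [hZ0, map_sum, map_pow] using this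
  have hzSinf : ∀ j : ℕ, 0 < j → j < m → ∑ a ∈ range m, (Zinf ^ a) ^ j = 0 := by
    intro j hj0 hjm
    have := congrArg (algebraMap O Sinf) (hz j hj0 hjm)
    simpa [hZinf, map_sum, map_pow] using this
  -- the lifted idempotents
  have hex0 : ∀ a : ℕ, ∃ E : S0, E ^ 2 - E ∈ I0 ∧ E - avg m M0 (Z0 ^ a * T0) ∈ I0.radical :=
    fun a => exists_idem_avg I0 m M0 Z0 T0 hmS0 hZ0m hT0 a
  have hexinf : ∀ a : ℕ, ∃ E : Sinf, E ^ 2 - E ∈ Iinf ∧
      E - avg m Minf (Zinf ^ a * Tinf) ∈ Iinf.radical :=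
    fun a => exists_idem_avg Iinf m Minf Zinf Tinf hmSinf hZinfm hTinf a
  choose E0 hE0 hE0r using hex0
  choose Einf hEinf hEinfr using hexinf
  -- agreement on the overlap
  have hD : Subalgebra.inclusion hle0 T0 - Subalgebra.inclusion hleinf Tinf ∈ I01.radical := by
    obtain ⟨N, w, hw, h⟩ := h0inf
    exact (mem_radical_pi_iff S01 π _).mpr ⟨N, w, hw, h⟩
  have key : ∀ a : ℕ,
      Subalgebra.inclusion hle0 (E0 a) - Subalgebra.inclusion hleinf (Einf a) ∈ I01 := by
    intro a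
    have hA : Subalgebra.inclusion hle0 (E0 a) ^ 2 - Subalgebra.inclusion hle0 (E0 a) ∈ I01 := by
      have := inclusion_mem_span hle0 π _ (hE0 a)
      rwa [map_sub, map_pow] at this
    have hB : Subalgebra.inclusion hleinf (Einf a) ^ 2 -
        Subalgebra.inclusion hleinf (Einf a) ∈ I01 := by
      have := inclusion_mem_span hleinf π _ (hEinf a)
      rwa [map_sub, map_pow] at this
    have h1 := inclusion_mem_radical hle0 π _ (hE0r a)
    have h2 := inclusion_mem_radical hleinf π _ (hEinfr a)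
    have h3 : Subalgebra.inclusion hle0 (avg m M0 (Z0 ^ a * T0)) -
        Subalgebra.inclusion hleinf (avg m Minf (Zinf ^ a * Tinf)) ∈ I01.radical := by
      set Z : L := algebraMap O L z with hZ
      set M' : L := algebraMap O L m' with hM'
      have hx0 : Z ^ a * t0 ∈ S01 :=
        Subalgebra.mul_mem _ (Subalgebra.pow_mem _ (Subalgebra.algebraMap_mem _ z) a) (hle0 ht0)
      have hxinf : Z ^ a * tinf ∈ S01 :=
        Subalgebra.mul_mem _ (Subalgebra.pow_mem _ (Subalgebra.algebraMap_mem _ z) a)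
          (hleinf htinf)
      have hGmem : M' * ∑ j ∈ range m, Z ^ a *
          ∑ i ∈ range j, (Z ^ a * t0) ^ i * (Z ^ a * tinf) ^ (j - 1 - i) ∈ S01 :=
        Subalgebra.mul_mem _ (Subalgebra.algebraMap_mem _ m')
          (Subalgebra.sum_mem _ fun j _ => Subalgebra.mul_mem _
            (Subalgebra.pow_mem _ (Subalgebra.algebraMap_mem _ z) a)
            (Subalgebra.sum_mem _ fun i _ => Subalgebra.mul_mem _
              (Subalgebra.pow_mem _ hx0 i) (Subalgebra.pow_mem _ hxinf _)))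
      have hfac : Subalgebra.inclusion hle0 (avg m M0 (Z0 ^ a * T0)) -
          Subalgebra.inclusion hleinf (avg m Minf (Zinf ^ a * Tinf)) =
          (Subalgebra.inclusion hle0 T0 - Subalgebra.inclusion hleinf Tinf) * ⟨_, hGmem⟩ := by
        apply Subtype.ext
        show ((avg m M0 (Z0 ^ a * T0) : S0) : L) - ((avg m Minf (Zinf ^ a * Tinf) : Sinf) : L) =
          (t0 - tinf) * (M' * ∑ j ∈ range m, Z ^ a *
            ∑ i ∈ range j, (Z ^ a * t0) ^ i * (Z ^ a * tinf) ^ (j - 1 - i))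
        have e0 : ((avg m M0 (Z0 ^ a * T0) : S0) : L) = avg m M' (Z ^ a * t0) := by
          simp [avg, hM0, hZ0, hT0def, hM', hZ]
        have einf : ((avg m Minf (Zinf ^ a * Tinf) : Sinf) : L) = avg m M' (Z ^ a * tinf) := by
          simp [avg, hMinf, hZinf, hTinfdef, hM', hZ]
        rw [e0, einf]
        unfold avg
        rw [← mul_sub, ← sum_sub_distrib]
        have hterm : ∀ j ∈ range m, (Z ^ a * t0) ^ j - (Z ^ a * tinf) ^ j =
            (t0 - tinf) * (Z ^ a *
              ∑ i ∈ range j, (Z ^ a * t0) ^ i * (Z ^ a * tinf) ^ (j - 1 - i)) := by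
          intro j _
          have hg := (Commute.all (Z ^ a * t0) (Z ^ a * tinf)).geom_sum₂_mul j
          have hd : Z ^ a * t0 - Z ^ a * tinf = (t0 - tinf) * Z ^ a := by ring
          rw [← hg, hd]; ring
        rw [sum_congr rfl hterm, ← mul_sum]; ring
      rw [hfac]
      exact Ideal.mul_mem_right _ _ hD
    have hsplit : Subalgebra.inclusion hle0 (E0 a) - Subalgebra.inclusion hleinf (Einf a) =
        Subalgebra.inclusion hle0 (E0 a - avg m M0 (Z0 ^ a * T0)) +
          (Subalgebra.inclusion hle0 (avg m M0 (Z0 ^ a * T0)) -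
            Subalgebra.inclusion hleinf (avg m Minf (Zinf ^ a * Tinf))) -
          Subalgebra.inclusion hleinf (Einf a - avg m Minf (Zinf ^ a * Tinf)) := by
      rw [map_sub, map_sub]; ring
    have hrad : Subalgebra.inclusion hle0 (E0 a) - Subalgebra.inclusion hleinf (Einf a) ∈
        I01.radical := by
      rw [hsplit]
      exact Ideal.sub_mem _ (Ideal.add_mem _ h1 h3) h2
    obtain ⟨N, hN⟩ := hrad
    exact sub_mem_of_pow_mem I01 _ _ hA hB N hN
  -- the dichotomy
  have hdich : ∀ a : ℕ, (E0 a ∈ I0 ∧ Einf a ∈ Iinf) ∨ (E0 a - 1 ∈ I0 ∧ Einf a - 1 ∈ Iinf) := by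
    intro a
    have h1 := (mem_span_pi_iff S0 π _).mp (hE0 a)
    have h2 := (mem_span_pi_iff Sinf π _).mp (hEinf a)
    have h3 := (mem_span_pi_iff S01 π _).mp (key a)
    rcases connected π hπ hinj hOL u hu hfin (E0 a : L) (Einf a : L) (E0 a).2 (Einf a).2
      h1 h2 h3 with ⟨h4, h5⟩ | ⟨h4, h5⟩
    · exact Or.inl ⟨(mem_span_pi_iff S0 π _).mpr h4, (mem_span_pi_iff Sinf π _).mpr h5⟩
    · exact Or.inr ⟨(mem_span_pi_iff S0 π _).mpr h4, (mem_span_pi_iff Sinf π _).mpr h5⟩
  by_cases hex : ∃ a ∈ range m, E0 a - 1 ∈ I0 ∧ Einf a - 1 ∈ Iinf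
  · obtain ⟨a, ha, h1, h2⟩ := hex
    refine ⟨a, ha, ?_, ?_⟩
    · have hrad : Z0 ^ a * T0 - 1 ∈ I0.radical := by
        have h3 : avg m M0 (Z0 ^ a * T0) * (Z0 ^ a * T0 - 1) = M0 * ((Z0 ^ a * T0) ^ m - 1) :=
          avg_mul_sub_one m M0 _
        have h4 : (Z0 ^ a * T0) ^ m - 1 = T0 ^ m - 1 := by
          rw [mul_pow, ← pow_mul, mul_comm a m, pow_mul, hZ0m, one_pow, one_mul]
        have h5 : avg m M0 (Z0 ^ a * T0) - 1 ∈ I0.radical := by
          have h6 : avg m M0 (Z0 ^ a * T0) - 1 =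
              (E0 a - 1) - (E0 a - avg m M0 (Z0 ^ a * T0)) := by ring
          rw [h6]
          exact Ideal.sub_mem _ (Ideal.le_radical h1) (hE0r a)
        have h7 : Z0 ^ a * T0 - 1 = M0 * (T0 ^ m - 1) -
            (avg m M0 (Z0 ^ a * T0) - 1) * (Z0 ^ a * T0 - 1) := by
          rw [← h4, ← h3]; ring
        rw [h7]
        exact Ideal.sub_mem _ (Ideal.mul_mem_left _ _ hT0) (Ideal.mul_mem_right _ _ h5)
      obtain ⟨N, c, hc, h⟩ := (mem_radical_pi_iff S0 π _).mp hrad
      exact ⟨N, c, hc, h⟩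
    · have hrad : Zinf ^ a * Tinf - 1 ∈ Iinf.radical := by
        have h3 : avg m Minf (Zinf ^ a * Tinf) * (Zinf ^ a * Tinf - 1) =
            Minf * ((Zinf ^ a * Tinf) ^ m - 1) := avg_mul_sub_one m Minf _
        have h4 : (Zinf ^ a * Tinf) ^ m - 1 = Tinf ^ m - 1 := by
          rw [mul_pow, ← pow_mul, mul_comm a m, pow_mul, hZinfm, one_pow, one_mul]
        have h5 : avg m Minf (Zinf ^ a * Tinf) - 1 ∈ Iinf.radical := by
          have h6 : avg m Minf (Zinf ^ a * Tinf) - 1 =
              (Einf a - 1) - (Einf a - avg m Minf (Zinf ^ a * Tinf)) := by ring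
          rw [h6]
          exact Ideal.sub_mem _ (Ideal.le_radical h2) (hEinfr a)
        have h7 : Zinf ^ a * Tinf - 1 = Minf * (Tinf ^ m - 1) -
            (avg m Minf (Zinf ^ a * Tinf) - 1) * (Zinf ^ a * Tinf - 1) := by
          rw [← h4, ← h3]; ring
        rw [h7]
        exact Ideal.sub_mem _ (Ideal.mul_mem_left _ _ hTinf) (Ideal.mul_mem_right _ _ h5)
      obtain ⟨N, c, hc, h⟩ := (mem_radical_pi_iff Sinf π _).mp hrad
      exact ⟨N, c, hc, h⟩
  · exfalso
    have hall : ∀ a ∈ range m, E0 a ∈ I0 ∧ Einf a ∈ Iinf := by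
      intro a ha
      rcases hdich a with h | h
      · exact h
      · exact absurd ⟨a, ha, h⟩ hex
    have h1 : (1 : S0) ∈ I0.radical := by
      have hs : ∑ a ∈ range m, avg m M0 (Z0 ^ a * T0) = 1 := sum_avg m hm0 M0 Z0 T0 hmS0 hzS0
      rw [← hs]
      refine Ideal.sum_mem _ fun a ha => ?_
      have h6 : avg m M0 (Z0 ^ a * T0) = E0 a - (E0 a - avg m M0 (Z0 ^ a * T0)) := by ring
      rw [h6]
      exact Ideal.sub_mem _ (Ideal.le_radical (hall a ha).1) (hE0r a)
    have h2 : (1 : Sinf) ∈ Iinf.radical := by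
      have hs : ∑ a ∈ range m, avg m Minf (Zinf ^ a * Tinf) = 1 :=
        sum_avg m hm0 Minf Zinf Tinf hmSinf hzSinf
      rw [← hs]
      refine Ideal.sum_mem _ fun a ha => ?_
      have h6 : avg m Minf (Zinf ^ a * Tinf) =
          Einf a - (Einf a - avg m Minf (Zinf ^ a * Tinf)) := by ring
      rw [h6]
      exact Ideal.sub_mem _ (Ideal.le_radical (hall a ha).2) (hEinfr a)
    have h1' : (1 : S0) ∈ I0 := by
      obtain ⟨n, hn⟩ := h1
      rwa [one_pow] at hn
    have h2' : (1 : Sinf) ∈ Iinf := by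
      obtain ⟨n, hn⟩ := h2
      rwa [one_pow] at hn
    obtain ⟨y0, hy0, hy0e⟩ := (mem_span_pi_iff S0 π _).mp h1'
    obtain ⟨yinf, hyinf, hyinfe⟩ := (mem_span_pi_iff Sinf π _).mp h2'
    exact false_of_one_eq π hπ hinj hOL u hu hy0 hyinf hy0e hyinfe

end Core

section Main

variable {O F L : Type*} [CommRing O] [IsDomain O] [IsDiscreteValuationRing O]
  [Field F] [Algebra O F] [Field L] [Algebra F L] [Algebra O L] [IsScalarTower O F L]

/-- **TORIC-SECTION lemma, non-reduced special fibre.**  Approximate `m`-th roots `s0`, `sinf`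
of `k` on the two charts, everything modulo the radical of `π`:
`s0 ^ m = k * b0` with `b0 - 1 ∈ rad (π B₀)`, the same at infinity, and
`(s0 - sinf) ^ m = k * b` with `b ∈ rad (π B₀∞)`.  Then `k` is an `m`-th power in `F`, provided
`L = F(θ)`, `θ ^ m = k`, has `O` integrally closed in it and a finite chart ring. -/
theorem mem_range_of_sections_rad (π : O) (hπ : Irreducible π)
    (hinj : Function.Injective (algebraMap O F)) (u : F) (hu : u ≠ 0)
    (m : ℕ) (hm0 : 0 < m) (hmO : IsUnit (m : O)) (ζ : O) (hζ : IsPrimitiveRoot ζ m)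
    (k : F) (hk : k ≠ 0) (s0 sinf : F)
    (h0 : ∃ (b0 a0 : F) (N : ℕ), IsIntegral (Algebra.adjoin O ({u} : Set F)) b0 ∧
      IsIntegral (Algebra.adjoin O ({u} : Set F)) a0 ∧
      s0 ^ m = k * b0 ∧ (b0 - 1) ^ N = algebraMap O F π * a0)
    (hinf : ∃ (binf ainf : F) (N : ℕ), IsIntegral (Algebra.adjoin O ({u⁻¹} : Set F)) binf ∧
      IsIntegral (Algebra.adjoin O ({u⁻¹} : Set F)) ainf ∧
      sinf ^ m = k * binf ∧ (binf - 1) ^ N = algebraMap O F π * ainf)
    (h0inf : ∃ (b w : F) (N : ℕ), IsIntegral (Algebra.adjoin O ({u, u⁻¹} : Set F)) b ∧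
      IsIntegral (Algebra.adjoin O ({u, u⁻¹} : Set F)) w ∧
      (s0 - sinf) ^ m = k * b ∧ b ^ N = algebraMap O F π * w)
    (hOL : ∀ x : L, IsIntegral O x → ∃ a : O, algebraMap O L a = x)
    (hfin : ∃ s : Finset L, (∀ β ∈ s, IsIntegral (Algebra.adjoin O {algebraMap F L u}) β) ∧
      ∀ x : L, IsIntegral (Algebra.adjoin O {algebraMap F L u}) x →
        ∃ f : L → O[X], x = ∑ β ∈ s, aeval (algebraMap F L u) (f β) * β)
    (θ : L) (hθ : θ ^ m = algebraMap F L k)
    (hgen : IntermediateField.adjoin F {θ} = ⊤) :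
    θ ∈ Set.range (algebraMap F L) := by
  classical
  by_contra hne
  have hinjL : Function.Injective (algebraMap O L) := by
    rw [IsScalarTower.algebraMap_eq O F L]
    exact (algebraMap F L).injective.comp hinj
  have hπL : ∀ x : F, algebraMap F L (algebraMap O F π * x) =
      algebraMap O L π * algebraMap F L x := by
    intro x
    rw [map_mul, ← IsScalarTower.algebraMap_apply O F L]
  have huL0 : algebraMap F L u ≠ 0 := (map_ne_zero (algebraMap F L)).mpr hu
  have hkL0 : algebraMap F L k ≠ 0 := (map_ne_zero (algebraMap F L)).mpr hk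
  have hθ0 : θ ≠ 0 := by
    intro h0
    rw [h0, zero_pow hm0.ne'] at hθ
    exact hkL0 hθ.symm
  obtain ⟨m', hm'⟩ := hmO.exists_left_inv
  obtain ⟨b0, a0, N0, hb0, ha0, hs0, hb0e⟩ := h0
  obtain ⟨binf, ainf, Ninf, hbinf, hainf, hsinf, hbinfe⟩ := hinf
  obtain ⟨b, w, N, hb, hw, hsw, hbe⟩ := h0inf
  have himg0 : algebraMap F L '' ({u} : Set F) = {algebraMap F L u} := Set.image_singleton
  have himginf : algebraMap F L '' ({u⁻¹} : Set F) = {(algebraMap F L u)⁻¹} := by
    rw [Set.image_singleton, map_inv₀]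
  have himg0inf : algebraMap F L '' ({u, u⁻¹} : Set F) =
      {algebraMap F L u, (algebraMap F L u)⁻¹} := by
    rw [Set.image_pair, map_inv₀]
  have hpow : ∀ s : F, (algebraMap F L s / θ) ^ m = algebraMap F L (s ^ m / k) := by
    intro s
    rw [div_pow, hθ, ← map_pow, ← map_div₀]
  have e0 : (algebraMap F L s0 / θ) ^ m = algebraMap F L b0 := by
    rw [hpow, hs0, mul_div_cancel_left₀ _ hk]
  have einf : (algebraMap F L sinf / θ) ^ m = algebraMap F L binf := by
    rw [hpow, hsinf, mul_div_cancel_left₀ _ hk]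
  have e0inf : (algebraMap F L s0 / θ - algebraMap F L sinf / θ) ^ m = algebraMap F L b := by
    rw [← sub_div, ← map_sub, hpow, hsw, mul_div_cancel_left₀ _ hk]
  have ht0 : algebraMap F L s0 / θ ∈ chart O ({algebraMap F L u} : Set L) := by
    apply IsIntegral.of_pow hm0
    rw [e0, ← himg0]
    exact map_mem_chart _ hb0
  have htinf : algebraMap F L sinf / θ ∈ chart O ({(algebraMap F L u)⁻¹} : Set L) := by
    apply IsIntegral.of_pow hm0
    rw [einf, ← himginf]
    exact map_mem_chart _ hbinf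
  have h0' : ∃ (N : ℕ) (a0 : L), a0 ∈ chart O ({algebraMap F L u} : Set L) ∧
      ((algebraMap F L s0 / θ) ^ m - 1) ^ N = algebraMap O L π * a0 := by
    refine ⟨N0, algebraMap F L a0, by rw [← himg0]; exact map_mem_chart _ ha0, ?_⟩
    rw [e0, ← map_one (algebraMap F L), ← map_sub, ← map_pow, hb0e, hπL]
  have hinf' : ∃ (N : ℕ) (ainf : L), ainf ∈ chart O ({(algebraMap F L u)⁻¹} : Set L) ∧
      ((algebraMap F L sinf / θ) ^ m - 1) ^ N = algebraMap O L π * ainf := by
    refine ⟨Ninf, algebraMap F L ainf, by rw [← himginf]; exact map_mem_chart _ hainf, ?_⟩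
    rw [einf, ← map_one (algebraMap F L), ← map_sub, ← map_pow, hbinfe, hπL]
  have h0inf' : ∃ (N : ℕ) (w : L),
      w ∈ chart O ({algebraMap F L u, (algebraMap F L u)⁻¹} : Set L) ∧
      (algebraMap F L s0 / θ - algebraMap F L sinf / θ) ^ N = algebraMap O L π * w := by
    refine ⟨m * N, algebraMap F L w, by rw [← himg0inf]; exact map_mem_chart _ hw, ?_⟩
    rw [pow_mul, e0inf, ← map_pow, hbe, hπL]
  obtain ⟨a, -, ⟨n0, c0, hc0, he0⟩, ⟨ninf, cinf, hcinf, heinf⟩⟩ :=
    exists_pow_mul_sub_one_rad π hπ.prime hinjL hOL (algebraMap F L u) huL0 hfin m hm0 m' ζ hm'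
      hζ.pow_eq_one (fun j hj0 hjm => sum_pow_pow_eq_zero hζ j hj0 hjm)
      (algebraMap F L s0 / θ) (algebraMap F L sinf / θ) ht0 htinf h0' hinf' h0inf'
  -- the Galois step
  have hmF : (m : F) ≠ 0 := by
    have h1 : IsUnit ((m : O) : O) := hmO
    have h2 := h1.map (algebraMap O F)
    rw [map_natCast] at h2
    exact h2.ne_zero
  obtain ⟨σ, hσ⟩ := exists_algEquiv_ne hm0 hmF (hζ.map_of_injective hinj) hk hθ hgen hne
  set r : L := σ θ / θ with hr
  have hr1 : r ≠ 1 := by
    intro h1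
    apply hσ
    rw [hr, div_eq_one_iff_eq hθ0] at h1
    exact h1
  have hrm : r ^ m = 1 := by
    rw [hr, div_pow, ← map_pow, hθ, σ.commutes, div_self hkL0]
  have hσθ : σ θ = r * θ := by rw [hr, div_mul_cancel₀ _ hθ0]
  have hr0 : r ≠ 0 := by
    intro h0
    rw [h0, zero_pow hm0.ne'] at hrm
    exact zero_ne_one hrm
  have hσO : ∀ x : O, σ (algebraMap O L x) = algebraMap O L x := by
    intro x
    rw [IsScalarTower.algebraMap_apply O F L, σ.commutes]
  have hσt : ∀ s : F, σ (algebraMap F L s / θ) = (algebraMap F L s / θ) / r := by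
    intro s
    rw [map_div₀, σ.commutes, hσθ]
    field_simp
  have hσchart : ∀ (t : Set F) (x : L), x ∈ chart O (algebraMap F L '' t) →
      σ x ∈ chart O (algebraMap F L '' t) := by
    intro t x hx
    refine ringEquiv_mem_chart (σ : L ≃+* L) (fun x => ⟨x, hσO x⟩) _ ?_ hx
    rintro y ⟨z, hz, rfl⟩
    have : (σ : L ≃+* L) (algebraMap F L z) = algebraMap F L z := σ.commutes z
    rw [this]
    exact Algebra.subset_adjoin ⟨z, hz, rfl⟩
  have hrchart : ∀ t : Set L, r ∈ chart O t := by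
    intro t
    apply IsIntegral.of_pow hm0
    rw [hrm]
    exact isIntegral_one
  set q : L := ∑ j ∈ range m, ∑ i ∈ range j, r ^ i with hq
  have hqchart : ∀ t : Set L, q ∈ chart O t := fun t =>
    Subalgebra.sum_mem _ fun j _ => Subalgebra.sum_mem _ fun i _ =>
      Subalgebra.pow_mem _ (hrchart t) i
  have hmq : (m : L) = (1 - r) * q := natCast_eq_one_sub_mul m r hr1 hrm
  have hm'L : algebraMap O L m' * (m : L) = 1 := by
    rw [← map_natCast (algebraMap O L), ← map_mul, hm', map_one]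
  -- on each chart, `1 = π * (integral)`
  have hfinal : ∀ (t : Set F) (x : L), x ∈ chart O (algebraMap F L '' t) → σ x = x / r →
      (∃ (n : ℕ) (c : L), c ∈ chart O (algebraMap F L '' t) ∧
        (algebraMap O L ζ ^ a * x - 1) ^ n = algebraMap O L π * c) →
      ∃ y : L, y ∈ chart O (algebraMap F L '' t) ∧ (1 : L) = algebraMap O L π * y := by
    intro t x hx hσx hex
    obtain ⟨n, c, hc, hnc⟩ := hex
    set S : Subalgebra O L := chart O (algebraMap F L '' t) with hS
    have hζS : algebraMap O L ζ ^ a ∈ S :=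
      Subalgebra.pow_mem _ (Subalgebra.algebraMap_mem _ ζ) a
    have hX : algebraMap O L ζ ^ a * x - 1 ∈ S :=
      Subalgebra.sub_mem _ (Subalgebra.mul_mem _ hζS hx) (Subalgebra.one_mem _)
    have hY : algebraMap O L ζ ^ a * (x / r) - 1 ∈ S := by
      rw [← hσx]
      exact Subalgebra.sub_mem _ (Subalgebra.mul_mem _ hζS (hσchart t x hx))
        (Subalgebra.one_mem _)
    have hXr : (⟨_, hX⟩ : S) ∈ (Ideal.span ({algebraMap O S π} : Set S)).radical :=
      (mem_radical_pi_iff S π _).mpr ⟨n, c, hc, hnc⟩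
    have hYr : (⟨_, hY⟩ : S) ∈ (Ideal.span ({algebraMap O S π} : Set S)).radical := by
      refine (mem_radical_pi_iff S π _).mpr ⟨n, σ c, hσchart t c hc, ?_⟩
      have := congrArg σ hnc
      rw [map_pow, map_sub, map_mul, map_pow, hσO, hσx, map_one, map_mul, hσO] at this
      exact this
    have h1r : (1 - ⟨r, hrchart _⟩ : S) ∈ (Ideal.span ({algebraMap O S π} : Set S)).radical := by
      have h2 : (1 - ⟨r, hrchart _⟩ : S) = ⟨r, hrchart _⟩ * ⟨_, hY⟩ - ⟨_, hX⟩ := by
        apply Subtype.ext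
        show (1 : L) - r = r * (algebraMap O L ζ ^ a * (x / r) - 1) -
          (algebraMap O L ζ ^ a * x - 1)
        field_simp
        ring
      rw [h2]
      exact Ideal.sub_mem _ (Ideal.mul_mem_left _ _ hYr) hXr
    have hone : (1 : S) ∈ (Ideal.span ({algebraMap O S π} : Set S)).radical := by
      have h3 : (1 : S) = (algebraMap O S m' * ⟨q, hqchart _⟩) * (1 - ⟨r, hrchart _⟩) := by
        apply Subtype.ext
        show (1 : L) = (algebraMap O L m' * q) * (1 - r)
        linear_combination (-1 : L) * hm'L + algebraMap O L m' * hmq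
      rw [h3]
      exact Ideal.mul_mem_left _ _ h1r
    have hone' : (1 : S) ∈ Ideal.span ({algebraMap O S π} : Set S) := by
      obtain ⟨n', hn'⟩ := hone
      rwa [one_pow] at hn'
    obtain ⟨y, hy, hye⟩ := (mem_span_pi_iff S π _).mp hone'
    exact ⟨y, hy, hye⟩
  obtain ⟨y0, hy0, hy0e⟩ := hfinal ({u} : Set F) _ (by rw [himg0]; exact ht0) (hσt s0)
    ⟨n0, c0, by rw [himg0]; exact hc0, he0⟩
  obtain ⟨yinf, hyinf, hyinfe⟩ := hfinal ({u⁻¹} : Set F) _ (by rw [himginf]; exact htinf)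
    (hσt sinf) ⟨ninf, cinf, by rw [himginf]; exact hcinf, heinf⟩
  rw [himg0] at hy0
  rw [himginf] at hyinf
  exact false_of_one_eq π hπ.prime hinjL hOL (algebraMap F L u) huL0 hy0 hyinf hy0e hyinfe

end Main

end Fermat.Agent.S34.ToricInertia
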