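import Mathlib
import Fermat.Agent.S34.InertiaAut
import Fermat.Agent.S34.Nodal.Transfer
import Fermat.Agent.S30.Model.KummerContra

/-!
# S34 / Program U, (M4)(a): Gauss data `red h = 1` ⟹ `CongrOneAt P h` ⟹ `D.Toric h`

The `K`-level theorem `Nodal.inj_ss_inertia` takes the hypothesis `D.Toric h`, i.e.
`CongrOneAt D.P₁ h ∧ CongrOneAt D.P₂ h` (`h = (b + a) / b`, `a ∈ P`, `b ∉ P`, in the overlap
chart).  On the modular side `h` is given with its `q`-expansion data: `h ∈ V` (Gauss ring) and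
`red h = 1`, resp. `W h ∈ V` and `red (W h) = 1`.  This file converts one into the other.

* `exists_congr_of_red` : the abstract core.  `B → L → F`, a subring `Vs ⊆ F` with a reduction
  `r : Vs → k` (`k` a domain), `P = {x ∈ B | r x = 0}`, the saturation
  `∀ x ∈ P, ∃ s ∉ P, ∃ c, s x = ϖ c` (i.e. `P B_P = ϖ B_P`), the factorisation `b = ϖ ^ n w`
  with `r w ≠ 0` of the nonzero elements of `B` inside `Vs`, and `L = Frac B`.  Then every
  `h : L` with `r h = 1` is `(b + a) / b` with `a ∈ P`, `b ∉ P`.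
* `exists_pow_mul_unit` : a nonzero element of the Gauss ring `V` is `ϖ ^ n` times an element
  of nonzero reduction.
* `exists_overlap_fraction` : `L` is the fraction field of the overlap chart.
* `congrOneAt_of_red`, `congrOneAt_of_red_swap` : the two `CongrOneAt` statements in the
  `GaussDVR` vocabulary (`L ⊆ E((q))`; the component `v_∞` and the component `v_0 = v_∞ ∘ W`).
* `exists_sat₁`, `exists_sat₂` : the saturation at `P₁`, `P₂` of a nodal
  datum (from `chartZero.inf_eq` and the incomparability of the two primes).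
* `toric_of_red` : for a nodal datum whose primes are `P₁ = {red = 0}`, `P₂ = {red ∘ W = 0}`,
  `red h = 1` and `red (W h) = 1` imply `D.Toric h`; `toric_LE` : the same for `L = LE N E`,
  `O = A ∩ E`.
-/

set_option autoImplicit false
set_option linter.style.haveILetI false

open ModularCurve

noncomputable section

namespace Fermat.Agent.S34.ToricOfRed

open Fermat.Agent.S30 Fermat.Agent.S30.Model Fermat.Agent.S30.Model.GlueChart
  Fermat.Agent.S34.TrivModE Fermat.Agent.S34.Nodal Fermat.Agent.S34.InertiaAut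

/-! ### The abstract core -/

section Core

variable {B L F k : Type*} [CommRing B] [Field L] [Field F] [CommRing k] [IsDomain k]

/-- **Core.**  `h ≡ 1` in the "valuation ring" `Vs` implies `h = (b + a) / b` with `a ∈ P`,
`b ∉ P`, where `P` is the centre of `Vs` on `B`. -/
theorem exists_congr_of_red (φ : B →+* L) (ψ : L →+* F) (Vs : Subring F) (r : Vs →+* k)
    (P : Ideal B) (hB : ∀ x : B, ψ (φ x) ∈ Vs)
    (hP : ∀ x : B, x ∈ P ↔ r ⟨ψ (φ x), hB x⟩ = 0)
    (ϖ : L) (hϖ : ϖ ≠ 0)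
    (hsat : ∀ x ∈ P, ∃ s : B, s ∉ P ∧ ∃ c : B, φ s * φ x = ϖ * φ c)
    (hord : ∀ b : B, φ b ≠ 0 → ∃ (n : ℕ) (w : Vs), r w ≠ 0 ∧ ψ (φ b) = ψ ϖ ^ n * (w : F))
    (hfrac : ∀ x : L, ∃ a b : B, φ b ≠ 0 ∧ x * φ b = φ a)
    (h : L) (hh : ψ h ∈ Vs) (h1 : r ⟨ψ h, hh⟩ = 1) :
    ∃ a b : B, a ∈ P ∧ b ∉ P ∧ h * φ b = φ b + φ a := by
  have hx : ψ (h - 1) ∈ Vs := by
    rw [map_sub, map_one]; exact Vs.sub_mem hh Vs.one_mem
  have hx0 : r ⟨ψ (h - 1), hx⟩ = 0 := by
    have e : (⟨ψ (h - 1), hx⟩ : Vs) = ⟨ψ h, hh⟩ - 1 :=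
      Subtype.ext (by show ψ (h - 1) = ψ h - 1; rw [map_sub, map_one])
    rw [e, map_sub, h1, map_one, sub_self]
  have hψϖ : ψ ϖ ≠ 0 := (map_ne_zero ψ).mpr hϖ
  -- every numerator is in `P`
  have hnum : ∀ a b : B, (h - 1) * φ b = φ a → a ∈ P := by
    intro a b hab
    rw [hP]
    have e : (⟨ψ (φ a), hB a⟩ : Vs) = ⟨ψ (h - 1), hx⟩ * ⟨ψ (φ b), hB b⟩ :=
      Subtype.ext (by show ψ (φ a) = ψ (h - 1) * ψ (φ b); rw [← hab, map_mul])
    rw [e, map_mul, hx0, zero_mul]
  have key : ∀ n : ℕ, ∀ (a b : B) (w : Vs), r w ≠ 0 → ψ (φ b) = ψ ϖ ^ n * (w : F) →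
      (h - 1) * φ b = φ a → ∃ a' b' : B, a' ∈ P ∧ b' ∉ P ∧ (h - 1) * φ b' = φ a' := by
    intro n
    induction n with
    | zero =>
      intro a b w hw hbw hab
      refine ⟨a, b, hnum a b hab, ?_, hab⟩
      rw [hP]
      have e : (⟨ψ (φ b), hB b⟩ : Vs) = w :=
        Subtype.ext (by show ψ (φ b) = (w : F); rw [hbw, pow_zero, one_mul])
      rw [e]; exact hw
    | succ n ih =>
      intro a b w hw hbw hab
      by_cases hbP : b ∈ P
      · obtain ⟨s, hs, c, hc⟩ := hsat b hbP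
        obtain ⟨s', hs', c', hc'⟩ := hsat (a * s) (P.mul_mem_right _ (hnum a b hab))
        have hrs : r ⟨ψ (φ s), hB s⟩ ≠ 0 := fun h0 => hs ((hP s).mpr h0)
        have hrs' : r ⟨ψ (φ s'), hB s'⟩ ≠ 0 := fun h0 => hs' ((hP s').mpr h0)
        have hcw : ψ (φ c) = ψ ϖ ^ n * (ψ (φ s) * (w : F)) := by
          apply mul_left_cancel₀ hψϖ
          rw [← map_mul ψ, ← hc, map_mul, hbw, pow_succ]; ring
        refine ih c' (s' * c) (⟨ψ (φ s'), hB s'⟩ * (⟨ψ (φ s), hB s⟩ * w)) ?_ ?_ ?_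
        · rw [map_mul, map_mul]
          exact mul_ne_zero hrs' (mul_ne_zero hrs hw)
        · rw [map_mul, map_mul, hcw]
          push_cast
          ring
        · apply mul_left_cancel₀ hϖ
          rw [← hc', map_mul, map_mul]
          linear_combination (-(h - 1) * φ s') * hc + φ s' * φ s * hab
      · exact ⟨a, b, hnum a b hab, hbP, hab⟩
  obtain ⟨a, b, hb0, hab⟩ := hfrac (h - 1)
  obtain ⟨n, w, hw, hbw⟩ := hord b hb0
  obtain ⟨a', b', ha', hb', hab'⟩ := key n a b w hw hbw hab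
  exact ⟨a', b', ha', hb', by linear_combination hab'⟩

end Core

/-! ### The Gauss ring -/

section Gauss

variable {O E : Type*} [CommRing O] [IsDomain O] [IsDiscreteValuationRing O] [Field E]
  [Algebra O E] [FaithfulSMul O E]

/-- A nonzero element of the Gauss ring is `ϖ ^ n` times an element of nonzero reduction. -/
theorem exists_pow_mul_unit (π : O) (hπ : Irreducible π) (x : LaurentSeries E)
    (hx : x ∈ GaussDVR.V O E) (hx0 : x ≠ 0) :
    ∃ (n : ℕ) (w : GaussDVR.V O E), GaussDVR.red O E w ≠ 0 ∧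
      x = GaussDVR.iota O E (HahnSeries.C π) ^ n * (w : LaurentSeries E) := by
  obtain ⟨i, k, y, hy, h⟩ :=
    GaussDVR.exists_unit_pow E π hπ x (GaussDVR.V_le_fracField O E hx) hx0
  have hu : ((GaussDVR.unif E π : GaussDVR.V O E) : LaurentSeries E) ≠ 0 :=
    GaussDVR.coe_unif_ne_zero E π hπ
  have hcoe : ((GaussDVR.unif E π : GaussDVR.V O E) : LaurentSeries E)
      = GaussDVR.iota O E (HahnSeries.C π) := rfl
  rcases le_or_gt k i with hki | hik
  · refine ⟨i - k, y, hy, ?_⟩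
    rw [← hcoe]
    apply mul_right_cancel₀ (pow_ne_zero k hu)
    rw [h, mul_right_comm, ← pow_add, Nat.sub_add_cancel hki]
  · exfalso
    apply hy
    obtain ⟨e, rfl⟩ := Nat.exists_eq_add_of_lt hik
    have hxy : x * ((GaussDVR.unif E π : GaussDVR.V O E) : LaurentSeries E) ^ (e + 1)
        = (y : LaurentSeries E) := by
      apply mul_left_cancel₀ (pow_ne_zero i hu)
      rw [← h]; ring
    have e' : y = ⟨x, hx⟩ * GaussDVR.unif E π ^ (e + 1) := Subtype.ext hxy.symm
    rw [e', map_mul, map_pow, GaussDVR.red_unif E π hπ, zero_pow (Nat.succ_ne_zero e), mul_zero]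

variable (L : IntermediateField E (LaurentSeries E)) [Algebra O L] [IsScalarTower O E L]

omit [IsDomain O] [IsDiscreteValuationRing O] in
theorem algebraMap_OL_ne_zero {π : O} (hπ0 : π ≠ 0) : algebraMap O L π ≠ 0 := by
  rw [IsScalarTower.algebraMap_apply O E L]
  exact (map_ne_zero _).mpr
    (fun h0 => hπ0 (FaithfulSMul.algebraMap_injective O E (by rw [h0, map_zero])))

/-- **`h ≡ 1` at the component `v_∞`.**  `P` is the centre of the Gauss valuation on the
overlap chart, saturated (`P B_P = π B_P`). -/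
theorem congrOneAt_of_red
    (hfrac : ∀ x : L, (x : LaurentSeries E) ∈ GaussDVR.fracField O E)
    (π : O) (hπ : Irreducible π) (u : L)
    (hu : ((u : L) : LaurentSeries E) ∈ GaussDVR.V O E)
    (hu' : ((u⁻¹ : L) : LaurentSeries E) ∈ GaussDVR.V O E)
    (hfracB : ∀ x : L, ∃ a b : Overlap O u, (b : L) ≠ 0 ∧ x * (b : L) = (a : L))
    (P : Ideal (Overlap O u))
    (hP : ∀ (x : Overlap O u)
      (hx : (((x : L) : L) : LaurentSeries E) ∈ GaussDVR.V O E),
      x ∈ P ↔ GaussDVR.red O E ⟨_, hx⟩ = 0)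
    (hsat : ∀ x ∈ P, ∃ s : Overlap O u, s ∉ P ∧ ∃ c : Overlap O u,
      (s : L) * (x : L) = algebraMap O L π * (c : L))
    (h : L) (hh : ((h : L) : LaurentSeries E) ∈ GaussDVR.V O E)
    (h1 : GaussDVR.red O E ⟨_, hh⟩ = 1) : CongrOneAt P h := by
  have hB := overlap_mem_V L hfrac π hπ u hu hu'
  refine exists_congr_of_red (B := Overlap O u)
    ((integralClosure (Algebra.adjoin O ({u, u⁻¹} : Set L)) L).val : Overlap O u →+* L)
    (L.val : L →+* LaurentSeries E) (GaussDVR.V O E) (GaussDVR.red O E) P hB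
    (fun x => hP x (hB x)) (algebraMap O L π) (algebraMap_OL_ne_zero L hπ.ne_zero) hsat ?_
    hfracB h hh h1
  intro b hb0
  have hb0' : (((b : L) : L) : LaurentSeries E) ≠ 0 := fun h0 => hb0 (Subtype.ext h0)
  obtain ⟨n, w, hw, hbw⟩ := exists_pow_mul_unit π hπ _ (hB b) hb0'
  refine ⟨n, w, hw, ?_⟩
  show (((b : L) : L) : LaurentSeries E) = ((algebraMap O L π : L) : LaurentSeries E) ^ n * _
  rw [coe_algebraMap_OL]
  exact hbw

/-- **`h ≡ 1` at the component `v_0 = v_∞ ∘ W`.**  `W` is an automorphism of `L` fixing the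
constants of `O`, with `W u, (W u)⁻¹` in the Gauss ring; `P` is the centre of `v_∞ ∘ W` on the
overlap chart, saturated. -/
theorem congrOneAt_of_red_swap
    (hfrac : ∀ x : L, (x : LaurentSeries E) ∈ GaussDVR.fracField O E)
    (π : O) (hπ : Irreducible π) (u : L) (W : L ≃+* L)
    (hWO : ∀ a : O, W (algebraMap O L a) = algebraMap O L a)
    (hWu : ((W u : L) : LaurentSeries E) ∈ GaussDVR.V O E)
    (hWu' : (((W u)⁻¹ : L) : LaurentSeries E) ∈ GaussDVR.V O E)
    (hfracB : ∀ x : L, ∃ a b : Overlap O u, (b : L) ≠ 0 ∧ x * (b : L) = (a : L))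
    (P : Ideal (Overlap O u))
    (hP : ∀ (x : Overlap O u)
      (hWx : ((W (x : L) : L) : LaurentSeries E) ∈ GaussDVR.V O E),
      x ∈ P ↔ GaussDVR.red O E ⟨_, hWx⟩ = 0)
    (hsat : ∀ x ∈ P, ∃ s : Overlap O u, s ∉ P ∧ ∃ c : Overlap O u,
      (s : L) * (x : L) = algebraMap O L π * (c : L))
    (h : L) (hh : ((W h : L) : LaurentSeries E) ∈ GaussDVR.V O E)
    (h1 : GaussDVR.red O E ⟨_, hh⟩ = 1) : CongrOneAt P h := by
  have hB := swap_mem_V L hfrac π hπ u W hWO hWu hWu'
  refine exists_congr_of_red (B := Overlap O u)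
    ((integralClosure (Algebra.adjoin O ({u, u⁻¹} : Set L)) L).val : Overlap O u →+* L)
    ((L.val : L →+* LaurentSeries E).comp (W : L →+* L)) (GaussDVR.V O E) (GaussDVR.red O E)
    P hB (fun x => hP x (hB x)) (algebraMap O L π) (algebraMap_OL_ne_zero L hπ.ne_zero) hsat ?_
    hfracB h hh h1
  intro b hb0
  have hb0' : ((W (b : L) : L) : LaurentSeries E) ≠ 0 := fun h0 =>
    hb0 ((map_eq_zero_iff W W.injective).mp (Subtype.ext h0))
  obtain ⟨n, w, hw, hbw⟩ := exists_pow_mul_unit π hπ _ (hB b) hb0'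
  refine ⟨n, w, hw, ?_⟩
  show ((W (b : L) : L) : LaurentSeries E)
    = ((W (algebraMap O L π) : L) : LaurentSeries E) ^ n * _
  rw [hWO, coe_algebraMap_OL]
  exact hbw

end Gauss

/-! ### Saturation at the two primes of a nodal datum; fractions of the overlap chart -/

section Datum

variable {O L : Type*} [CommRing O] [Field L] [Algebra O L]

/-- **Saturation at `P₁`**: `P₁ B_{P₁} = π B_{P₁}`, elementwise (from `P₁ ∩ P₂ = (π)` on the
chart `u` and `P₂ ⊄ P₁`). -/
theorem exists_sat₁ {π : O} {u : L} (D : NodalDatum π u) (hu : u ≠ 0) :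
    ∀ x ∈ D.P₁, ∃ s : Overlap O u, s ∉ D.P₁ ∧ ∃ c : Overlap O u,
      (s : L) * (x : L) = algebraMap O L π * (c : L) := by
  obtain ⟨y, hy₂, hy₁⟩ : ∃ y : Chart O u, y ∈ D.P₂.comap (toOverlapZero O u) ∧
      y ∉ D.P₁.comap (toOverlapZero O u) := by
    by_contra hne
    exact D.chartZero.not_le₂₁ (fun y hy => by_contra fun hy' => hne ⟨y, hy, hy'⟩)
  intro x hx
  obtain ⟨m, hm⟩ := ChartInf.exists_forall_ge_isIntegral (O := O) u hu (x : L) x.2
  let d : Chart O u := ⟨u ^ m * (x : L), hm m le_rfl⟩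
  have hd : toOverlapZero O u d = uOverlap (O := O) u ^ m * x := Subtype.ext rfl
  have hd₁ : d ∈ D.P₁.comap (toOverlapZero O u) := by
    rw [Ideal.mem_comap, hd]; exact D.P₁.mul_mem_left _ hx
  have hmem : y * d ∈ Ideal.span {piElt (Algebra.adjoin O ({u} : Set L)) π} := by
    rw [← D.chartZero.inf_eq]
    exact ⟨Ideal.mul_mem_left _ _ hd₁, Ideal.mul_mem_right _ _ hy₂⟩
  obtain ⟨c, hc⟩ := Ideal.mem_span_singleton.mp hmem
  refine ⟨toOverlapZero O u y * uOverlap (O := O) u ^ m, ?_, toOverlapZero O u c, ?_⟩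
  · intro hmem'
    rcases D.isPrime₁.mem_or_mem hmem' with h1 | h1
    · exact hy₁ (Ideal.mem_comap.mpr h1)
    · exact @uOverlap_pow_not_mem _ _ _ _ _ _ hu D.P₁ D.isPrime₁ m h1
  · have h2 := congrArg Subtype.val hc
    rw [Subalgebra.coe_mul, Subalgebra.coe_mul, coe_piElt] at h2
    rw [Subalgebra.coe_mul, Subalgebra.coe_pow, coe_inclHom, coe_inclHom, ← h2]
    show (y : L) * u ^ m * (x : L) = (y : L) * (u ^ m * (x : L))
    ring

/-- **Saturation at `P₂`**. -/
theorem exists_sat₂ {π : O} {u : L} (D : NodalDatum π u) (hu : u ≠ 0) :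
    ∀ x ∈ D.P₂, ∃ s : Overlap O u, s ∉ D.P₂ ∧ ∃ c : Overlap O u,
      (s : L) * (x : L) = algebraMap O L π * (c : L) := by
  obtain ⟨y, hy₁, hy₂⟩ : ∃ y : Chart O u, y ∈ D.P₁.comap (toOverlapZero O u) ∧
      y ∉ D.P₂.comap (toOverlapZero O u) := by
    by_contra hne
    exact D.chartZero.not_le₁₂ (fun y hy => by_contra fun hy' => hne ⟨y, hy, hy'⟩)
  intro x hx
  obtain ⟨m, hm⟩ := ChartInf.exists_forall_ge_isIntegral (O := O) u hu (x : L) x.2
  let d : Chart O u := ⟨u ^ m * (x : L), hm m le_rfl⟩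
  have hd : toOverlapZero O u d = uOverlap (O := O) u ^ m * x := Subtype.ext rfl
  have hd₂ : d ∈ D.P₂.comap (toOverlapZero O u) := by
    rw [Ideal.mem_comap, hd]; exact D.P₂.mul_mem_left _ hx
  have hmem : y * d ∈ Ideal.span {piElt (Algebra.adjoin O ({u} : Set L)) π} := by
    rw [← D.chartZero.inf_eq]
    exact ⟨Ideal.mul_mem_right _ _ hy₁, Ideal.mul_mem_left _ _ hd₂⟩
  obtain ⟨c, hc⟩ := Ideal.mem_span_singleton.mp hmem
  refine ⟨toOverlapZero O u y * uOverlap (O := O) u ^ m, ?_, toOverlapZero O u c, ?_⟩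
  · intro hmem'
    rcases D.isPrime₂.mem_or_mem hmem' with h1 | h1
    · exact hy₂ (Ideal.mem_comap.mpr h1)
    · exact @uOverlap_pow_not_mem _ _ _ _ _ _ hu D.P₂ D.isPrime₂ m h1
  · have h2 := congrArg Subtype.val hc
    rw [Subalgebra.coe_mul, Subalgebra.coe_mul, coe_piElt] at h2
    rw [Subalgebra.coe_mul, Subalgebra.coe_pow, coe_inclHom, coe_inclHom, ← h2]
    show (y : L) * u ^ m * (x : L) = (y : L) * (u ^ m * (x : L))
    ring

/-- `L` is the fraction field of the chart ring of `u` (`L / E(u)` finite). -/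
theorem isFractionRing_chart {E : Type*} [IsDomain O] [Field E] [Algebra O E]
    [IsFractionRing O E] [Algebra E L] [IsScalarTower O E L] (u : L)
    [FiniteDimensional (IntermediateField.adjoin E {u}) L] :
    IsFractionRing (integralClosure (Algebra.adjoin O ({u} : Set L)) L) L := by
  letI : Algebra (Algebra.adjoin O {u}) (IntermediateField.adjoin E {u}) :=
    (Model.KummerContra.incl (O := O) (E := E) u).toAlgebra
  haveI : IsFractionRing (Algebra.adjoin O {u}) (IntermediateField.adjoin E {u}) :=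
    Model.KummerContra.isFractionRing_adjoin _
  haveI : IsScalarTower (Algebra.adjoin O {u}) (IntermediateField.adjoin E {u}) L :=
    IsScalarTower.of_algebraMap_eq (fun _ => rfl)
  exact integralClosure.isFractionRing_of_finite_extension (IntermediateField.adjoin E {u}) L

/-- Every element of `L` is a fraction of elements of the chart ring of `u`. -/
theorem exists_chart_fraction (u : L)
    [IsFractionRing (integralClosure (Algebra.adjoin O ({u} : Set L)) L) L] (x : L) :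
    ∃ a b : Chart O u, (b : L) ≠ 0 ∧ x * (b : L) = (a : L) := by
  obtain ⟨a, b, hb, hab⟩ :=
    IsFractionRing.div_surjective (A := integralClosure (Algebra.adjoin O ({u} : Set L)) L) x
  have hb0 : (b : L) ≠ 0 := fun h0 =>
    nonZeroDivisors.ne_zero hb (Subtype.ext h0)
  refine ⟨a, b, hb0, ?_⟩
  rw [← hab]
  show (a : L) / (b : L) * (b : L) = (a : L)
  exact div_mul_cancel₀ _ hb0

/-- `L` is the fraction field of the overlap chart (`L / E(u)` finite). -/
theorem exists_overlap_fraction {E : Type*} [IsDomain O] [Field E] [Algebra O E]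
    [IsFractionRing O E] [Algebra E L] [IsScalarTower O E L] (u : L)
    [FiniteDimensional (IntermediateField.adjoin E {u}) L] (x : L) :
    ∃ a b : Overlap O u, (b : L) ≠ 0 ∧ x * (b : L) = (a : L) := by
  haveI := isFractionRing_chart (O := O) (E := E) u
  obtain ⟨a, b, hb, hab⟩ := exists_chart_fraction (O := O) u x
  refine ⟨toOverlapZero O u a, toOverlapZero O u b, ?_, ?_⟩
  · rw [coe_inclHom]; exact hb
  · rw [coe_inclHom, coe_inclHom]; exact hab

end Datum

/-! ### The contract corollary -/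

section Toric

variable {O E : Type*} [CommRing O] [IsDomain O] [IsDiscreteValuationRing O] [Field E]
  [Algebra O E] [FaithfulSMul O E] [IsFractionRing O E]
  (L : IntermediateField E (LaurentSeries E)) [Algebra O L] [IsScalarTower O E L]

/-- **Gauss data ⟹ toric.**  For a nodal datum whose two primes are the centres of the Gauss
valuation `v_∞` and of `v_0 = v_∞ ∘ W` on the overlap chart, an element `h` with
`red h = 1` and `red (W h) = 1` is toric. -/
theorem toric_of_red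
    (hfrac : ∀ x : L, (x : LaurentSeries E) ∈ GaussDVR.fracField O E)
    (π : O) (hπ : Irreducible π) (u : L) (hu0 : u ≠ 0)
    [FiniteDimensional (IntermediateField.adjoin E {u}) L]
    (hu : ((u : L) : LaurentSeries E) ∈ GaussDVR.V O E)
    (hu' : ((u⁻¹ : L) : LaurentSeries E) ∈ GaussDVR.V O E)
    (W : L ≃+* L)
    (hWO : ∀ a : O, W (algebraMap O L a) = algebraMap O L a)
    (hWu : ((W u : L) : LaurentSeries E) ∈ GaussDVR.V O E)
    (hWu' : (((W u)⁻¹ : L) : LaurentSeries E) ∈ GaussDVR.V O E)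
    (D : NodalDatum π u)
    (hP₁ : ∀ (x : Overlap O u)
      (hx : (((x : L) : L) : LaurentSeries E) ∈ GaussDVR.V O E),
      x ∈ D.P₁ ↔ GaussDVR.red O E ⟨_, hx⟩ = 0)
    (hP₂ : ∀ (x : Overlap O u)
      (hWx : ((W (x : L) : L) : LaurentSeries E) ∈ GaussDVR.V O E),
      x ∈ D.P₂ ↔ GaussDVR.red O E ⟨_, hWx⟩ = 0)
    (h : L) (hh : ((h : L) : LaurentSeries E) ∈ GaussDVR.V O E)
    (h1 : GaussDVR.red O E ⟨_, hh⟩ = 1)
    (hh' : ((W h : L) : LaurentSeries E) ∈ GaussDVR.V O E)
    (h1' : GaussDVR.red O E ⟨_, hh'⟩ = 1) : D.Toric h :=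
  ⟨congrOneAt_of_red L hfrac π hπ u hu hu' (exists_overlap_fraction (E := E) u) D.P₁ hP₁
      (exists_sat₁ D hu0) h hh h1,
    congrOneAt_of_red_swap L hfrac π hπ u W hWO hWu hWu' (exists_overlap_fraction (E := E) u)
      D.P₂ hP₂ (exists_sat₂ D hu0) h hh' h1'⟩

end Toric

/-! ### Modular form: `L = LE N E`, `O = A ∩ E` -/

section Modular

open Fermat.Agent.S18.K1Defs Fermat.Agent.S18.K1Top

local notation "Qb" => AlgebraicClosure ℚ

variable (A : ValuationSubring Qb) (E : IntermediateField ℚ Qb)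
  [IsDiscreteValuationRing (OE A E)] (N : ℕ) [NeZero N]
  [Algebra (OE A E) (LE N E)] [IsScalarTower (OE A E) E (LE N E)]

/-- **Gauss data ⟹ toric, modular function field.**  `D` a nodal datum on `LE N E` over
`O_E = A ∩ E` whose primes are `P₁ = {red = 0}`, `P₂ = {red ∘ W = 0}`. -/
theorem toric_LE (π : OE A E) (hπ : Irreducible π) (u : LE N E) (hu0 : u ≠ 0)
    [FiniteDimensional (IntermediateField.adjoin E {u}) (LE N E)]
    (hu : ((u : LE N E) : LaurentSeries E) ∈ GaussDVR.V (OE A E) E)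
    (hu' : ((u⁻¹ : LE N E) : LaurentSeries E) ∈ GaussDVR.V (OE A E) E)
    (W : LE N E ≃+* LE N E)
    (hWO : ∀ a : OE A E, W (algebraMap (OE A E) (LE N E) a) = algebraMap (OE A E) (LE N E) a)
    (hWu : ((W u : LE N E) : LaurentSeries E) ∈ GaussDVR.V (OE A E) E)
    (hWu' : (((W u)⁻¹ : LE N E) : LaurentSeries E) ∈ GaussDVR.V (OE A E) E)
    (D : NodalDatum π u)
    (hP₁ : ∀ (x : Overlap (OE A E) u)
      (hx : (((x : LE N E) : LE N E) : LaurentSeries E) ∈ GaussDVR.V (OE A E) E),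
      x ∈ D.P₁ ↔ GaussDVR.red (OE A E) E ⟨_, hx⟩ = 0)
    (hP₂ : ∀ (x : Overlap (OE A E) u)
      (hWx : ((W (x : LE N E) : LE N E) : LaurentSeries E) ∈ GaussDVR.V (OE A E) E),
      x ∈ D.P₂ ↔ GaussDVR.red (OE A E) E ⟨_, hWx⟩ = 0)
    (h : LE N E) (hh : ((h : LE N E) : LaurentSeries E) ∈ GaussDVR.V (OE A E) E)
    (h1 : GaussDVR.red (OE A E) E ⟨_, hh⟩ = 1)
    (hh' : ((W h : LE N E) : LaurentSeries E) ∈ GaussDVR.V (OE A E) E)
    (h1' : GaussDVR.red (OE A E) E ⟨_, hh'⟩ = 1) : D.Toric h :=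
  toric_of_red (LE N E) (mem_fracField_LE A E N) π hπ u hu0 hu hu' W hWO hWu hWu' D hP₁ hP₂
    h hh h1 hh' h1'

end Modular

end Fermat.Agent.S34.ToricOfRed
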