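import Mathlib
import Fermat.Agent.S34.ToricInertiaConv

/-!
# S34/S35: `CartierRoot` gives `(STAR)` at every prime of the chart ring

The converse of `ToricInertia.cartierRoot_of_star`: a partition of unity `∑ cᵢ c'ᵢ = 1` with
`cᵢ ^ m / h` and `c'ᵢ ^ m * h` integral over `O[t]` has a term outside every prime ideal `M` of
the chart ring, and for that term `c'ᵢ ^ m * h` is an element of the chart ring outside `M`.
So consumers that want the pointwise datum `∃ f a, a ∉ M ∧ f ^ m * h = a` can take it from
`CartierRoot`.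
-/

set_option autoImplicit false

namespace Fermat.Agent.S34.ToricInertia

section StarOfCartier

variable {O F : Type*} [CommRing O] [Field F] [Algebra O F]

/-- The terms `cᵢ c'ᵢ` of a `CartierRoot` partition of unity are integral over `O[t]`. -/
theorem isIntegral_mul_of_pow (t : Set F) (m : ℕ) (hm0 : 0 < m) (h : F) (hh : h ≠ 0) (c c' : F)
    (hc : IsIntegral (Algebra.adjoin O t) (c ^ m / h))
    (hc' : IsIntegral (Algebra.adjoin O t) (c' ^ m * h)) :
    IsIntegral (Algebra.adjoin O t) (c * c') := by
  have hpow : (c * c') ^ m = (c ^ m / h) * (c' ^ m * h) := by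
    rw [mul_pow]
    field_simp
  exact IsIntegral.of_pow hm0 (hpow ▸ hc.mul hc')

/-- **`CartierRoot` ⟹ `(STAR)`** at every prime ideal of the chart ring (`h ≠ 0`). -/
theorem star_of_cartierRoot (t : Set F) (m : ℕ) (hm0 : 0 < m) (h : F) (hh : h ≠ 0)
    (hC : CartierRoot O t m h) (M : Ideal (integralClosure (Algebra.adjoin O t) F))
    (hM : M.IsPrime) : Star O t m h M := by
  classical
  obtain ⟨n, c, c', hc, hc', hsum⟩ := hC
  have hprod : ∀ i, IsIntegral (Algebra.adjoin O t) (c i * c' i) := fun i =>
    isIntegral_mul_of_pow t m hm0 h hh (c i) (c' i) (hc i) (hc' i)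
  -- the terms as elements of the chart ring
  let p : Fin n → integralClosure (Algebra.adjoin O t) F := fun i => ⟨c i * c' i, hprod i⟩
  have hp1 : ∑ i, p i = 1 := by
    apply Subtype.ext
    rw [AddSubmonoidClass.coe_finsetSum]
    simpa [p] using hsum
  obtain ⟨i, hi⟩ : ∃ i, p i ∉ M := by
    by_contra hcon
    push Not at hcon
    have h1 : (1 : integralClosure (Algebra.adjoin O t) F) ∈ M := by
      rw [← hp1]
      exact M.sum_mem fun i _ => hcon i
    exact hM.ne_top ((Ideal.eq_top_iff_one M).2 h1)
  refine ⟨c' i, ⟨c' i ^ m * h, hc' i⟩, ?_, rfl⟩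
  intro ha
  apply hi
  have hpm : p i ^ m = ⟨c i ^ m / h, hc i⟩ * ⟨c' i ^ m * h, hc' i⟩ := by
    apply Subtype.ext
    simp only [p, SubmonoidClass.coe_pow, MulMemClass.coe_mul]
    rw [mul_pow]
    field_simp
  exact hM.mem_of_pow_mem m (hpm ▸ M.mul_mem_left _ ha)

/-- `CartierRoot` ⟺ `(STAR)` at every maximal ideal of the chart ring (`0 < m`, `h ≠ 0`). -/
theorem cartierRoot_iff_star (t : Set F) (m : ℕ) (hm0 : 0 < m) (h : F) (hh : h ≠ 0) :
    CartierRoot O t m h ↔
      ∀ M : Ideal (integralClosure (Algebra.adjoin O t) F), M.IsMaximal → Star O t m h M :=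
  ⟨fun hC M hM => star_of_cartierRoot t m hm0 h hh hC M hM.isPrime,
    cartierRoot_of_star t m hm0 h⟩

/-- The consumer form of `star_of_cartierRoot`, with `algebraMap` spelled out: this is the
hypothesis `hcart` of the `S35` node lemmas at the maximal ideal `y` of the chart ring. -/
theorem exists_pow_mul_eq_of_cartierRoot (t : Set F) (m : ℕ) (hm0 : 0 < m) (h : F) (hh : h ≠ 0)
    (hC : CartierRoot O t m h) (y : Ideal (integralClosure (Algebra.adjoin O t) F))
    (hy : y.IsMaximal) :
    ∃ (f : F) (a : integralClosure (Algebra.adjoin O t) F),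
      a ∉ y ∧ f ^ m * h = algebraMap (integralClosure (Algebra.adjoin O t) F) F a :=
  star_of_cartierRoot t m hm0 h hh hC y hy.isPrime

end StarOfCartier

end Fermat.Agent.S34.ToricInertia
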