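/-
S34 — the root datum of a GENERAL level-`M` coordinate (helper144; request #3794 (4) of the (M5)
owner).

For ANY level-`M` coordinate `u' ∈ LE M E` (`j`, a Hauptmodul `h_r`, …) with `q`-expansion
`ι U`, `ρ U ≠ 0`, fixed by the coefficientwise Galois action, `LE M E / E(u')` finite:

* `transcendental_alpha` : `α u'` is transcendental over `E` when `u'` is;
* `finite_adjoin_alpha` : `LE (M ℓ) E` is finite over `E(α u')` (`ℓ` prime, `ℓ ∤ M`);
* `hasRootDatum_alpha` : helper243's `RootGlue.HasRootDatum` at level `M ℓ` for the coordinate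
  `u = α u'` and the swap `HauptU.Plug.wHom` (restriction of `ToricSwap.wAL`), from NOTHING BUT
  a nodal datum `D` for `(π, α u')` and the two Gauss characterisations of its primes.  The 8
  side conjuncts of `HasRootDatum` are discharged here from the hypotheses `hσu`, `hρ` of
  `Modular.Datum.nodalDatum` / `HauptU.Datum.nodalDatum`.
-/
import Mathlib
import Fermat.Agent.S34.RootDatum
import Fermat.Agent.S34.HauptU.Plug
import Fermat.Agent.S34.Modular.Datum

set_option autoImplicit false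
set_option linter.unusedSectionVars false
set_option linter.style.haveILetI false
set_option synthInstance.maxHeartbeats 400000

open ModularCurve

noncomputable section

namespace Fermat.Agent.S34.RootDatumAlpha

open IntermediateField
open Fermat.Agent.S30 Fermat.Agent.S18.K1Defs Fermat.Agent.S18.K1Main
open Fermat.Agent.S34.TrivModE Fermat.Agent.S34.Nodal Fermat.Agent.S34.TwoPrimesRank
open Fermat.Agent.S34.Modular.SwapE Fermat.Agent.S34.HauptU

local notation "Qb" => AlgebraicClosure ℚ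
local notation "Gq" => (AlgebraicClosure ℚ ≃ₐ[ℚ] AlgebraicClosure ℚ)

/-! ### Transcendence and finiteness at level `M ℓ` -/

section AlphaFin

variable (M ℓ : ℕ) [NeZero M] [NeZero ℓ] (E : IntermediateField ℚ Qb)

/-- `α u'` is transcendental over `E` when `u'` is. -/
theorem transcendental_alpha (u' : LE M E) (hu : Transcendental E u') :
    Transcendental E (alphaHom M ℓ E u') := by
  intro h
  exact hu ((isAlgebraic_algHom_iff (heckeAlphaBar E M ℓ)
    (heckeAlphaBar E M ℓ).toRingHom.injective).mp h)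

theorem map_adjoin_alpha (u' : LE M E) (v : LE (M * ℓ) E) (hv : v = heckeAlphaBar E M ℓ u') :
    (E⟮u'⟯).map (heckeAlphaBar E M ℓ) = E⟮v⟯ := by
  rw [IntermediateField.adjoin_map, Set.image_singleton, hv]

set_option maxHeartbeats 4000000 in
theorem finite_adjoin_of_eq (hℓ : ℓ.Prime) (hℓM : ¬ ℓ ∣ M) (u' : LE M E)
    [FiniteDimensional (IntermediateField.adjoin E {u'}) (LE M E)]
    (v : LE (M * ℓ) E) (hv : v = heckeAlphaBar E M ℓ u') :
    FiniteDimensional (IntermediateField.adjoin E {v}) (LE (M * ℓ) E) := by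
  letI algLL : Algebra (LE M E) (LE (M * ℓ) E) := (alphaHom M ℓ E).toAlgebra
  haveI hfin : Module.Finite (LE M E) (LE (M * ℓ) E) := finite_alpha M ℓ E hℓ hℓM
  have hmap : (E⟮u'⟯).map (heckeAlphaBar E M ℓ) = E⟮v⟯ := map_adjoin_alpha M ℓ E u' v hv
  have hmem : ∀ x : E⟮u'⟯, heckeAlphaBar E M ℓ (x : LE M E) ∈ E⟮v⟯ := by
    intro x
    rw [← hmap]
    exact (IntermediateField.mem_map _).mpr ⟨x, x.2, rfl⟩
  have hbij : Function.Bijective (fun x : E⟮u'⟯ =>
      (⟨heckeAlphaBar E M ℓ (x : LE M E), hmem x⟩ : E⟮v⟯)) := by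
    constructor
    · intro x y hxy
      have h := congrArg (fun z : E⟮v⟯ => (z : LE (M * ℓ) E)) hxy
      exact Subtype.ext ((heckeAlphaBar E M ℓ).toRingHom.injective h)
    · intro y
      have hy : (y : LE (M * ℓ) E) ∈ (E⟮u'⟯).map (heckeAlphaBar E M ℓ) := by
        rw [hmap]; exact y.2
      obtain ⟨x, hx, hxy⟩ := (IntermediateField.mem_map _).mp hy
      exact ⟨⟨x, hx⟩, Subtype.ext hxy⟩
  have hrank : Module.rank E⟮u'⟯ (LE (M * ℓ) E) = Module.rank E⟮v⟯ (LE (M * ℓ) E) :=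
    rank_eq_of_equiv_equiv _ (AddEquiv.refl _) hbij (fun r m => by
      rw [AddEquiv.refl_apply, AddEquiv.refl_apply, IntermediateField.smul_def,
        IntermediateField.smul_def]
      rfl)
  have h1 : Module.finrank E⟮u'⟯ (LE (M * ℓ) E) = Module.finrank E⟮v⟯ (LE (M * ℓ) E) :=
    congrArg Cardinal.toNat hrank
  have h2 := Module.finrank_mul_finrank E⟮u'⟯ (LE M E) (LE (M * ℓ) E)
  have hpos1 : 0 < Module.finrank E⟮u'⟯ (LE M E) := Module.finrank_pos
  have hpos2 : 0 < Module.finrank (LE M E) (LE (M * ℓ) E) := Module.finrank_pos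
  apply Module.finite_of_finrank_pos
  rw [← h1, ← h2]
  exact Nat.mul_pos hpos1 hpos2

/-- `LE (M ℓ) E` is finite over `E(α u')` when `LE M E` is finite over `E(u')`. -/
theorem finite_adjoin_alpha (hℓ : ℓ.Prime) (hℓM : ¬ ℓ ∣ M) (u' : LE M E)
    [FiniteDimensional (IntermediateField.adjoin E {u'}) (LE M E)] :
    FiniteDimensional (IntermediateField.adjoin E {alphaHom M ℓ E u'}) (LE (M * ℓ) E) :=
  finite_adjoin_of_eq M ℓ E hℓ hℓM u' _ rfl

end AlphaFin

/-! ### The root datum -/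

section Datum

variable (M ℓ : ℕ) [NeZero M] [NeZero ℓ] (hℓ : ℓ.Prime) (hℓM : ¬ ℓ ∣ M)
  (A : ValuationSubring Qb) (E : IntermediateField ℚ Qb) [Normal ℚ E]
  [IsDiscreteValuationRing (OE A E)]

/-- **The root datum of the coordinate `u = α u'`** at level `M ℓ` (swap `Plug.wHom`), from a
nodal datum with the two Gauss characterisations of its primes. -/
theorem hasRootDatum_alpha (π : OE A E) (u' : LE M E) (hu' : Transcendental E u')
    [FiniteDimensional (IntermediateField.adjoin E {u'}) (LE M E)]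
    (U : LaurentSeries (OE A E))
    (hσu : ((alphaHom M ℓ E u' : LE (M * ℓ) E) : LaurentSeries E) = GaussDVR.iota (OE A E) E U)
    (hρ : GaussDVR.rho (OE A E) U ≠ 0)
    (hgal : ∀ τ : Gq, galE E M τ u' = u')
    (D : letI := algebraOL (OE A E) E (LE (M * ℓ) E); NodalDatum π (alphaHom M ℓ E u'))
    (hP₁ : letI := algebraOL (OE A E) E (LE (M * ℓ) E)
      ∀ (x : Overlap (OE A E) (alphaHom M ℓ E u'))
      (hx : (((x : LE (M * ℓ) E) : LE (M * ℓ) E) : LaurentSeries E) ∈ GaussDVR.V (OE A E) E),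
      x ∈ D.P₁ ↔ GaussDVR.red (OE A E) E ⟨_, hx⟩ = 0)
    (hP₂ : letI := algebraOL (OE A E) E (LE (M * ℓ) E)
      ∀ (x : Overlap (OE A E) (alphaHom M ℓ E u'))
      (hx : ((Plug.wHom M ℓ E hℓ hℓM (x : LE (M * ℓ) E) : LE (M * ℓ) E) : LaurentSeries E)
        ∈ GaussDVR.V (OE A E) E),
      x ∈ D.P₂ ↔ GaussDVR.red (OE A E) E ⟨_, hx⟩ = 0) :
    RootGlue.HasRootDatum (M * ℓ) A (ToricSwap.wAL M ℓ hℓ hℓM).toRingEquiv E π := by
  letI := algebraOL (OE A E) E (LE (M * ℓ) E)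
  have hσw : (Plug.sigmaHom (M * ℓ) E).comp
      (Plug.wHom M ℓ E hℓ hℓM : LE (M * ℓ) E →+* LE (M * ℓ) E) (alphaHom M ℓ E u')
        = GaussDVR.iota (OE A E) E (qExpand (OE A E) ℓ U) :=
    TwoPrimesGauss.sigmaW_u (alphaHom M ℓ E) (Plug.sigmaHom (M * ℓ) E) u' U hσu
      (Plug.wHom M ℓ E hℓ hℓM) ℓ (Plug.sigmaHom_wHom_alpha M ℓ E hℓ hℓM)
  have h1 : ((alphaHom M ℓ E u' : LE (M * ℓ) E) : LaurentSeries E) ∈ GaussDVR.V (OE A E) E :=
    Modular.Datum.tau_u_mem_V (Plug.sigmaHom (M * ℓ) E) (alphaHom M ℓ E u') U hσu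
  have h2 : (((alphaHom M ℓ E u')⁻¹ : LE (M * ℓ) E) : LaurentSeries E) ∈ GaussDVR.V (OE A E) E :=
    Modular.Datum.tau_inv_mem_V (Plug.sigmaHom (M * ℓ) E) (alphaHom M ℓ E u') U hσu hρ
  have h3 : ((Plug.wHom M ℓ E hℓ hℓM (alphaHom M ℓ E u') : LE (M * ℓ) E) : LaurentSeries E)
      ∈ GaussDVR.V (OE A E) E :=
    Modular.Datum.tau_u_mem_V ((Plug.sigmaHom (M * ℓ) E).comp
      (Plug.wHom M ℓ E hℓ hℓM : LE (M * ℓ) E →+* LE (M * ℓ) E)) (alphaHom M ℓ E u')
      (qExpand (OE A E) ℓ U) hσw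
  have h4 : (((Plug.wHom M ℓ E hℓ hℓM (alphaHom M ℓ E u'))⁻¹ : LE (M * ℓ) E) : LaurentSeries E)
      ∈ GaussDVR.V (OE A E) E := by
    have h := Modular.Datum.tau_inv_mem_V ((Plug.sigmaHom (M * ℓ) E).comp
      (Plug.wHom M ℓ E hℓ hℓM : LE (M * ℓ) E →+* LE (M * ℓ) E)) (alphaHom M ℓ E u')
      (qExpand (OE A E) ℓ U) hσw (Modular.Datum.rho_qExpand_ne_zero U ℓ hρ)
    rw [RingHom.comp_apply, RingEquiv.coe_toRingHom, map_inv₀] at h
    exact h
  haveI := finite_adjoin_alpha M ℓ E hℓ hℓM u'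
  exact ⟨alphaHom M ℓ E u', Plug.wHom M ℓ E hℓ hℓM, D, transcendental_alpha M ℓ E u' hu',
    finite_adjoin_alpha M ℓ E hℓ hℓM u', fun z => Plug.upE_wE M ℓ E hℓ hℓM z, h1, h2, h3, h4,
    fun τ _ => by
      show galE E (M * ℓ) τ (heckeAlphaBar E M ℓ u') = heckeAlphaBar E M ℓ u'
      rw [Plug.galE_alpha, hgal τ],
    hP₁, hP₂⟩

end Datum

end Fermat.Agent.S34.RootDatumAlpha
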