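import Fermat.Agent.S34.ToricK
import Fermat.Agent.S34.TrivModE

/-!
# PROGRAM U (S34), brick (M4a): `K`-level `Toric` from the Gauss valuations

`O` a discrete valuation ring with fraction field `E`, `L ⊆ E((q))` a field, `V` the Gauss ring
of `O` (`S30/GaussDVR.lean`) with reduction `red`.  For a ring automorphism `w` of `L` fixing `O`
(`w = id` for the component at `∞`, `w =` Atkin–Lehner for the component at `0`), the twisted
Gauss ring `{x | w x ∈ V}` with reduction `red ∘ w` is a discrete valuation ring of `L` with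
uniformiser `π`; if the coordinate satisfies `w u ∈ V^×`, it contains the overlap chart ring.
Hence (`ToricK.congrOneAt_of_val_chart`):

* `congrOneAt_of_gauss` : `P = {x ∈ B | red (w x) = 0}`, `P ∩ P' = (π)` on the chart `u`,
  `P' ⊄ P`, `w h ∈ V`, `red (w h) = 1`  ⟹  `CongrOneAt P h`.
* `toric_of_gauss` : for a nodal datum with `P₁ = {red x = 0}`, `P₂ = {red (w x) = 0}`:
  `h, w h ∈ V` with reduction `1`  ⟹  `D.Toric h`.
-/

set_option autoImplicit false

open Fermat.Agent.S30.Model Fermat.Agent.S30.Model.GlueChart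

noncomputable section

namespace Fermat.Agent.S34.ToricK

open Fermat.Agent.S30 Fermat.Agent.S34.Nodal

section Gauss

variable {O E : Type*} [CommRing O] [IsDomain O] [IsDiscreteValuationRing O] [Field E]
  [Algebra O E] [IsFractionRing O E]

/-- The Gauss ring of `L ⊆ E((q))` twisted by an automorphism `w`: `{x | w x ∈ V}`. -/
def gaussRingW (L : IntermediateField E (LaurentSeries E)) (w : L ≃+* L) : Subring L :=
  (GaussDVR.V O E).comap ((algebraMap L (LaurentSeries E)).comp (w : L →+* L))

theorem mem_gaussRingW (L : IntermediateField E (LaurentSeries E)) (w : L ≃+* L) (x : L) :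
    x ∈ gaussRingW (O := O) L w ↔ ((w x : L) : LaurentSeries E) ∈ GaussDVR.V O E := Iff.rfl

/-- The twisted reduction map `x ↦ red (w x)`. -/
def gaussRedW (L : IntermediateField E (LaurentSeries E)) (w : L ≃+* L) :
    gaussRingW (O := O) L w →+* LaurentSeries (IsLocalRing.ResidueField O) :=
  (GaussDVR.red O E).comp (RingHom.codRestrict
    (((algebraMap L (LaurentSeries E)).comp (w : L →+* L)).comp (gaussRingW (O := O) L w).subtype)
    (GaussDVR.V O E) (fun x => x.2))

theorem gaussRedW_apply (L : IntermediateField E (LaurentSeries E)) (w : L ≃+* L)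
    (x : gaussRingW (O := O) L w) :
    gaussRedW L w x = GaussDVR.red O E ⟨((w (x : L) : L) : LaurentSeries E), x.2⟩ := rfl

theorem gaussRedW_mk (L : IntermediateField E (LaurentSeries E)) (w : L ≃+* L) (x : L)
    (hx : ((w x : L) : LaurentSeries E) ∈ GaussDVR.V O E) :
    gaussRedW L w ⟨x, hx⟩ = GaussDVR.red O E ⟨((w x : L) : LaurentSeries E), hx⟩ := rfl

variable (L : IntermediateField E (LaurentSeries E)) [Algebra O L] [IsScalarTower O E L]

/-- The image of `O[u, u⁻¹]` under an automorphism fixing `O` is `O[w u, (w u)⁻¹]`. -/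
theorem map_mem_adjoin_pair (w : L ≃+* L) (hwO : ∀ a : O, w (algebraMap O L a) = algebraMap O L a)
    (u : L) {y : L} (hy : y ∈ Algebra.adjoin O ({u, u⁻¹} : Set L)) :
    w y ∈ Algebra.adjoin O ({w u, (w u)⁻¹} : Set L) := by
  induction hy using Algebra.adjoin_induction with
  | mem y hy =>
    rcases hy with rfl | rfl
    · exact Algebra.subset_adjoin (by simp)
    · rw [map_inv₀]; exact Algebra.subset_adjoin (by simp)
  | algebraMap a => rw [hwO]; exact Subalgebra.algebraMap_mem _ a
  | add y z _ _ hy hz => rw [map_add]; exact Subalgebra.add_mem _ hy hz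
  | mul y z _ _ hy hz => rw [map_mul]; exact Subalgebra.mul_mem _ hy hz

/-- If `w u` is a unit of the Gauss ring, `w` maps the overlap chart ring into the Gauss ring. -/
theorem overlap_le_gaussRingW (hfrac : ∀ x : L, (x : LaurentSeries E) ∈ GaussDVR.fracField O E)
    (π : O) (hπ : Irreducible π) (u : L) (w : L ≃+* L)
    (hwO : ∀ a : O, w (algebraMap O L a) = algebraMap O L a)
    (hwu : ((w u : L) : LaurentSeries E) ∈ GaussDVR.V O E)
    (hwu' : GaussDVR.red O E ⟨_, hwu⟩ ≠ 0) (x : Overlap O u) :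
    (x : L) ∈ gaussRingW (O := O) L w := by
  rw [mem_gaussRingW]
  set D' : Subalgebra O L := Algebra.adjoin O ({w u, (w u)⁻¹} : Set L) with hD'
  have hD'V : ∀ d : L, d ∈ D' → (d : LaurentSeries E) ∈ GaussDVR.V O E := by
    apply TrivModE.adjoin_le_V L
    intro s hs
    rcases hs with rfl | rfl
    · exact hwu
    · rw [IntermediateField.coe_inv]
      exact GaussDVR.inv_mem O E ⟨_, hwu⟩ hwu'
  refine TrivModE.mem_V_of_isIntegral L hfrac π hπ D' hD'V ?_
  let φ : Algebra.adjoin O ({u, u⁻¹} : Set L) →+* D' :=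
    RingHom.codRestrict ((w : L →+* L).comp (Algebra.adjoin O ({u, u⁻¹} : Set L)).val.toRingHom)
      D' (fun y => map_mem_adjoin_pair L w hwO u y.2)
  exact IsIntegral.map_of_comp_eq φ (w : L →+* L) (by ext y; rfl) x.2

/-- **`h ≡ 1` at a (twisted) Gauss valuation gives `CongrOneAt`.** -/
theorem congrOneAt_of_gauss (hfrac : ∀ x : L, (x : LaurentSeries E) ∈ GaussDVR.fracField O E)
    (π : O) (hπ : Irreducible π) (u : L) (hu0 : u ≠ 0)
    [FiniteDimensional (IntermediateField.adjoin E {u}) L]
    (w : L ≃+* L) (hwO : ∀ a : O, w (algebraMap O L a) = algebraMap O L a)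
    (hwu : ((w u : L) : LaurentSeries E) ∈ GaussDVR.V O E)
    (hwu' : GaussDVR.red O E ⟨_, hwu⟩ ≠ 0)
    (P P' : Ideal (Overlap O u))
    (hinf : P.comap (toOverlapZero O u) ⊓ P'.comap (toOverlapZero O u) =
      Ideal.span {piElt (Algebra.adjoin O ({u} : Set L)) π})
    (hnot : ¬ P'.comap (toOverlapZero O u) ≤ P.comap (toOverlapZero O u))
    (hP : ∀ (x : Overlap O u) (hx : ((w (x : L) : L) : LaurentSeries E) ∈ GaussDVR.V O E),
      x ∈ P ↔ GaussDVR.red O E ⟨_, hx⟩ = 0)
    (h : L) (hV : ((w h : L) : LaurentSeries E) ∈ GaussDVR.V O E)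
    (h1 : GaussDVR.red O E ⟨_, hV⟩ = 1) : CongrOneAt P h := by
  have hinjOL : Function.Injective (algebraMap O L) := by
    rw [IsScalarTower.algebraMap_eq O E L]
    exact (algebraMap E L).injective.comp (IsFractionRing.injective O E)
  have hπ0 : algebraMap O L π ≠ 0 := fun h0 => hπ.ne_zero (hinjOL (by rw [h0, map_zero]))
  have hcoeπ : ((algebraMap O L π : L) : LaurentSeries E) =
      ((GaussDVR.unif E π : GaussDVR.V O E) : LaurentSeries E) := by
    rw [TrivModE.coe_algebraMap_OL, GaussDVR.coe_unif, GaussDVR.iota_C]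
  have hπV : algebraMap O L π ∈ gaussRingW (O := O) L w := by
    rw [mem_gaussRingW, hwO, hcoeπ]
    exact (GaussDVR.unif E π).2
  have hπunif : (⟨((w (algebraMap O L π) : L) : LaurentSeries E), hπV⟩ : GaussDVR.V O E) =
      GaussDVR.unif E π := by
    apply Subtype.ext
    show ((w (algebraMap O L π) : L) : LaurentSeries E) = _
    rw [hwO, hcoeπ]
  have hrπ : gaussRedW L w ⟨_, hπV⟩ = 0 := by
    show GaussDVR.red O E ⟨((w (algebraMap O L π) : L) : LaurentSeries E), hπV⟩ = 0
    rw [hπunif, GaussDVR.red_unif E π hπ]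
  have hsymmO : ∀ a : O, w.symm (algebraMap O L a) = algebraMap O L a := by
    intro a
    rw [RingEquiv.symm_apply_eq, hwO]
  -- the valuation is discrete with uniformiser `π`
  have hord : ∀ x : gaussRingW (O := O) L w, (x : L) ≠ 0 →
      ∃ (n : ℕ) (y : gaussRingW (O := O) L w), gaussRedW L w y ≠ 0 ∧
        (x : L) = algebraMap O L π ^ n * y := by
    intro x hx0
    set z : L := w (x : L) with hz
    have hzV : (z : LaurentSeries E) ∈ GaussDVR.V O E := x.2
    have hz0 : (z : LaurentSeries E) ≠ 0 := by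
      intro h0
      apply hx0
      have : z = 0 := Subtype.ext h0
      rw [hz] at this
      exact (map_eq_zero_iff w w.injective).mp this
    obtain ⟨i, k, y, hy, hzy⟩ := GaussDVR.exists_unit_pow E π hπ (z : LaurentSeries E)
      (GaussDVR.V_le_fracField O E hzV) hz0
    rw [← hcoeπ] at hzy
    have hπLS : ((algebraMap O L π : L) : LaurentSeries E) ≠ 0 := by
      intro h0
      exact hπ0 (Subtype.ext h0)
    have hki : k ≤ i := by
      by_contra hlt
      rw [not_le] at hlt
      obtain ⟨d, rfl⟩ := Nat.exists_eq_add_of_lt hlt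
      apply hy
      have hyz : y = ⟨(z : LaurentSeries E), hzV⟩ * GaussDVR.unif E π ^ (d + 1) := by
        apply Subtype.ext
        apply mul_left_cancel₀ (pow_ne_zero i hπLS)
        rw [← hzy]
        show (z : LaurentSeries E) * ((algebraMap O L π : L) : LaurentSeries E) ^ (i + d + 1) =
          ((algebraMap O L π : L) : LaurentSeries E) ^ i *
            ((z : LaurentSeries E) * ((GaussDVR.unif E π : GaussDVR.V O E) : LaurentSeries E) ^ (d + 1))
        rw [← hcoeπ, show i + d + 1 = i + (d + 1) by ring, pow_add]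
        ring
      rw [hyz, map_mul, map_pow, GaussDVR.red_unif E π hπ, zero_pow (Nat.succ_ne_zero d),
        mul_zero]
    obtain ⟨d, rfl⟩ := Nat.exists_eq_add_of_le hki
    have hzy' : (z : LaurentSeries E) =
        ((algebraMap O L π : L) : LaurentSeries E) ^ d * (y : LaurentSeries E) := by
      apply mul_right_cancel₀ (pow_ne_zero k hπLS)
      rw [hzy, pow_add]
      ring
    -- `y` lies in `L`
    set yL : L := z * (algebraMap O L π ^ d)⁻¹ with hyL
    have hyLcoe : (yL : LaurentSeries E) = (y : LaurentSeries E) := by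
      rw [hyL, IntermediateField.coe_mul, IntermediateField.coe_inv, IntermediateField.coe_pow,
        hzy']
      field_simp
    have hzyL : z = algebraMap O L π ^ d * yL := by
      rw [hyL]
      field_simp
    have hmem : w.symm yL ∈ gaussRingW (O := O) L w := by
      rw [mem_gaussRingW, RingEquiv.apply_symm_apply, hyLcoe]
      exact y.2
    refine ⟨d, ⟨w.symm yL, hmem⟩, ?_, ?_⟩
    · show GaussDVR.red O E ⟨((w (w.symm yL) : L) : LaurentSeries E), hmem⟩ ≠ 0
      have : (⟨((w (w.symm yL) : L) : LaurentSeries E), hmem⟩ : GaussDVR.V O E) = y := by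
        apply Subtype.ext
        show ((w (w.symm yL) : L) : LaurentSeries E) = (y : LaurentSeries E)
        rw [RingEquiv.apply_symm_apply, hyLcoe]
      rw [this]
      exact hy
    · show (x : L) = algebraMap O L π ^ d * w.symm yL
      rw [← hsymmO π, ← map_pow, ← map_mul, ← hzyL, hz, RingEquiv.symm_apply_apply]
  have hBV : ∀ x : Overlap O u, (x : L) ∈ gaussRingW (O := O) L w :=
    overlap_le_gaussRingW L hfrac π hπ u w hwO hwu hwu'
  exact congrOneAt_of_val_chart (E := E) π hπ0 u hu0 P P' hinf hnot (gaussRingW (O := O) L w)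
    (gaussRedW L w) hπV hrπ hord hBV (fun x => hP x (hBV x)) h hV h1

/-- **`K`-level `Toric` from the two Gauss valuations.**  `D` a nodal datum whose primes are the
centres of the Gauss valuation `red` and of its twist `red ∘ w` on the overlap chart ring; `u`
and `w u` units of the Gauss ring.  If `h` and `w h` lie in the Gauss ring with reduction `1`,
then `h` is toric. -/
theorem toric_of_gauss (hfrac : ∀ x : L, (x : LaurentSeries E) ∈ GaussDVR.fracField O E)
    (π : O) (hπ : Irreducible π) (u : L) [FiniteDimensional (IntermediateField.adjoin E {u}) L]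
    (hu : ((u : L) : LaurentSeries E) ∈ GaussDVR.V O E) (hu' : GaussDVR.red O E ⟨_, hu⟩ ≠ 0)
    (w : L ≃+* L) (hwO : ∀ a : O, w (algebraMap O L a) = algebraMap O L a)
    (hwu : ((w u : L) : LaurentSeries E) ∈ GaussDVR.V O E)
    (hwu' : GaussDVR.red O E ⟨_, hwu⟩ ≠ 0)
    (D : NodalDatum π u)
    (hP₁ : ∀ (x : Overlap O u) (hx : ((x : L) : LaurentSeries E) ∈ GaussDVR.V O E),
      x ∈ D.P₁ ↔ GaussDVR.red O E ⟨_, hx⟩ = 0)
    (hP₂ : ∀ (x : Overlap O u) (hx : ((w (x : L) : L) : LaurentSeries E) ∈ GaussDVR.V O E),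
      x ∈ D.P₂ ↔ GaussDVR.red O E ⟨_, hx⟩ = 0)
    (h : L) (hV : ((h : L) : LaurentSeries E) ∈ GaussDVR.V O E)
    (h1 : GaussDVR.red O E ⟨_, hV⟩ = 1)
    (hV' : ((w h : L) : LaurentSeries E) ∈ GaussDVR.V O E)
    (h1' : GaussDVR.red O E ⟨_, hV'⟩ = 1) : D.Toric h := by
  have hu0 : u ≠ 0 := by
    rintro rfl
    apply hu'
    have : (⟨((0 : L) : LaurentSeries E), hu⟩ : GaussDVR.V O E) = 0 := rfl
    rw [this, map_zero]
  refine ⟨?_, ?_⟩
  · exact congrOneAt_of_gauss L hfrac π hπ u hu0 (RingEquiv.refl L) (fun _ => rfl) hu hu'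
      D.P₁ D.P₂ D.chartZero.inf_eq D.chartZero.not_le₂₁ hP₁ h hV h1
  · exact congrOneAt_of_gauss L hfrac π hπ u hu0 w hwO hwu hwu' D.P₂ D.P₁
      (by rw [inf_comm]; exact D.chartZero.inf_eq) D.chartZero.not_le₁₂ hP₂ h hV' h1'

end Gauss

end Fermat.Agent.S34.ToricK
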