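import Fermat.Agent.S34.DescendRoot
import Fermat.Agent.S34.ToricGauss
import Fermat.Agent.S34.InertiaAut
import Fermat.Agent.S34.LocPowK
import Fermat.Agent.S34.Nodal.Main

/-!
# S34, RootGlue: the number-field statement `InjSSRootE` from the `K`-level nodal theorem

`Nodal.inj_ss_inertia` (the `K`-level (INJ-ss), fully proved) is stated for an abstract nodal datum
over a DVR.  `Descend.InjSSRootE` (the statement consumed by the bridge to `ℚ̄`,
`Descend.injSS_of_rootModular`) is stated in the `q`-expansion vocabulary.  This file converts one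
into the other for `L = LE N E`, `O = A ∩ E`, a general coordinate `u` and a general swap `wE`:

* `injSSRootE_of_nodal'` : with the two `TrivialMod` statements as hypotheses;
* `injSSRootE_of_nodal`  : with `TrivialMod` discharged by `InertiaAut` (needs only that `wE`
  commutes with the coefficientwise action of inertia).

Inputs from the modular side: the nodal datum `D` for `(π, u)`, the membership
characterisations `x ∈ D.P₁ ↔ red x = 0`, `x ∈ D.P₂ ↔ red (wE x) = 0`, `u, wE u` units of the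
Gauss ring, `u` fixed by inertia, `m ∈ O^×`, `μ_m ⊆ O`.
-/

set_option autoImplicit false
set_option linter.unusedSectionVars false
set_option synthInstance.maxHeartbeats 400000
set_option maxHeartbeats 1000000

noncomputable section

namespace Fermat.Agent.S34.RootGlue

open ModularCurve AlgebraicCurve HahnSeries IntermediateField
open Fermat.Agent.S18.K1Defs Fermat.Agent.S18.K1Top
open Fermat.Agent.S30 Fermat.Agent.S30.E4 Fermat.Agent.S30.Model
open Fermat.Agent.S34.Nodal Fermat.Agent.S34.Descend Fermat.Agent.S34.TrivModE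

local notation "Qb" => AlgebraicClosure ℚ
local notation "Gq" => (AlgebraicClosure ℚ ≃ₐ[ℚ] AlgebraicClosure ℚ)

variable (N : ℕ) [NeZero N] (A : ValuationSubring Qb) (E : IntermediateField ℚ Qb) [Normal ℚ E]
  [IsDiscreteValuationRing (OE A E)]
  [Algebra (OE A E) (LE N E)] [IsScalarTower (OE A E) E (LE N E)]

/-- **RootGlue, core form.**  The `K`-level nodal theorem gives `InjSSRootE`. -/
theorem injSSRootE_of_nodal' (W : Fb N ≃+* Fb N) (m : ℕ)
    (π : OE A E) (hπ : Irreducible π) (u : LE N E) (hu : Transcendental E u)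
    [FiniteDimensional (IntermediateField.adjoin E {u}) (LE N E)]
    (huV : ((u : LE N E) : LaurentSeries E) ∈ GaussDVR.V (OE A E) E)
    (hu' : GaussDVR.red (OE A E) E ⟨_, huV⟩ ≠ 0)
    (wE : LE N E ≃+* LE N E) (hwE : ∀ z : LE N E, upF N E (wE z) = W (upF N E z))
    (hwO : ∀ a : OE A E, wE (algebraMap (OE A E) (LE N E) a) = algebraMap (OE A E) (LE N E) a)
    (hwu : ((wE u : LE N E) : LaurentSeries E) ∈ GaussDVR.V (OE A E) E)
    (hwu' : GaussDVR.red (OE A E) E ⟨_, hwu⟩ ≠ 0)
    (D : NodalDatum π u)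
    (hP₁ : ∀ (x : Overlap (OE A E) u)
      (hx : (((x : LE N E) : LE N E) : LaurentSeries E) ∈ GaussDVR.V (OE A E) E),
      x ∈ D.P₁ ↔ GaussDVR.red (OE A E) E ⟨_, hx⟩ = 0)
    (hP₂ : ∀ (x : Overlap (OE A E) u)
      (hx : ((wE (x : LE N E) : LE N E) : LaurentSeries E) ∈ GaussDVR.V (OE A E) E),
      x ∈ D.P₂ ↔ GaussDVR.red (OE A E) E ⟨_, hx⟩ = 0)
    (hm : IsUnit (m : OE A E)) (ζ : OE A E) (hζ : IsPrimitiveRoot ζ m)
    (hτu : ∀ τ : Gq, τ ∈ A.inertiaSubgroupIn ℚ → galE E N τ u = u)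
    (hT₁ : ∀ τ : Gq, τ ∈ A.inertiaSubgroupIn ℚ → TrivialMod D.P₁ (galE E N τ))
    (hT₂ : ∀ τ : Gq, τ ∈ A.inertiaSubgroupIn ℚ → TrivialMod D.P₂ (galE E N τ)) :
    InjSSRootE N A W m E := by
  intro τ hτ h h' hL hL' hW hV hV' hred hred' hdiv k hk M _ _ _ _ _ θ hθ hgen hconst
  -- `h ≠ 0`
  have hh0 : (⟨h, hL⟩ : LE N E) ≠ 0 := by
    intro h0
    have h00 : h = 0 := congrArg Subtype.val h0
    subst h00
    have : (⟨(0 : LaurentSeries E), hV⟩ : GaussDVR.V (OE A E) E) = 0 := rfl
    rw [this, map_zero] at hred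
    exact zero_ne_one hred
  -- the swap of `h` is `h'`
  have hwh : wE ⟨h, hL⟩ = ⟨h', hL'⟩ := by
    apply upF_injective N E
    rw [hwE]
    exact hW
  have hV'' : ((wE ⟨h, hL⟩ : LE N E) : LaurentSeries E) ∈ GaussDVR.V (OE A E) E := by
    rw [hwh]; exact hV'
  have hred'' : GaussDVR.red (OE A E) E ⟨_, hV''⟩ = 1 := by
    have : (⟨((wE ⟨h, hL⟩ : LE N E) : LaurentSeries E), hV''⟩ : GaussDVR.V (OE A E) E) =
        ⟨h', hV'⟩ := Subtype.ext (congrArg (fun z : LE N E => (z : LaurentSeries E)) hwh)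
    rw [this]; exact hred'
  -- toric
  have hh : D.Toric (⟨h, hL⟩ : LE N E) :=
    ToricK.toric_of_gauss (LE N E) (mem_fracField_LE A E N) π hπ u huV hu' wE hwO hwu hwu' D
      hP₁ hP₂ ⟨h, hL⟩ hV hred hV'' hred''
  -- divisibility on both charts
  obtain ⟨hdiv0, hdivinf⟩ :=
    Fermat.Agent.S34.LocPowK.locPow_both_of_places u hu m (⟨h, hL⟩ : LE N E) hh0 hdiv
  -- the automorphism
  have hσ : IsModelAut (OE A E) u (galE E N τ) :=
    Fermat.Agent.S34.InertiaAut.isModelAut_galE_of_mem A E N hτ u (hτu τ hτ)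
  have hkσ : galE E N τ ⟨h, hL⟩ / ⟨h, hL⟩ = k := by
    rw [div_eq_iff hh0]
    apply Subtype.ext
    rw [coe_galE]
    exact hk.symm
  -- the `O`-algebra structure of `M`
  letI : Algebra (OE A E) M := ((algebraMap E M).comp (algebraMap (OE A E) E)).toAlgebra
  haveI : IsScalarTower (OE A E) E M := IsScalarTower.of_algebraMap_eq (fun _ => rfl)
  haveI : IsScalarTower (OE A E) (LE N E) M := IsScalarTower.of_algebraMap_eq (fun a => by
    rw [IsScalarTower.algebraMap_apply (OE A E) E M,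
      IsScalarTower.algebraMap_apply E (LE N E) M,
      ← IsScalarTower.algebraMap_apply (OE A E) E (LE N E)])
  have hOM : ∀ x : M, IsIntegral (OE A E) x → ∃ a : OE A E, algebraMap (OE A E) M a = x := by
    intro x hx
    obtain ⟨c, hc⟩ := hconst x (hx.tower_top (A := E)).isAlgebraic
    have hcint : IsIntegral (OE A E) c := by
      rw [← isIntegral_algebraMap_iff (algebraMap E M).injective, hc]
      exact hx
    obtain ⟨a, ha⟩ := IsIntegrallyClosed.isIntegral_iff.mp hcint
    exact ⟨a, by rw [IsScalarTower.algebraMap_apply (OE A E) E M, ha, hc]⟩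
  obtain ⟨g, hg⟩ := inj_ss_inertia (E := E) π hπ u hu D m hm ζ hζ (galE E N τ) hσ (hT₁ τ hτ)
    (hT₂ τ hτ) (⟨h, hL⟩ : LE N E) hh hdiv0 hdivinf M θ (by rw [hkσ]; exact hθ) hgen hOM
  exact ⟨g, by rw [← hkσ]; exact hg⟩

/-! ### Discharging the side conditions on the swap -/

omit [IsDiscreteValuationRing (OE A E)] [Algebra (OE A E) (LE N E)]
  [IsScalarTower (OE A E) E (LE N E)] in
/-- Extension of constants intertwines the coefficientwise Galois actions. -/
theorem upF_galE (τ : Gq) (x : LE N E) : upF N E (galE E N τ x) = gal N τ (upF N E x) := by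
  apply Subtype.ext
  rw [coe_upF, coe_galE, coe_gal, coe_upF]
  exact coeffMap_restrictNormal τ E _

omit [IsDiscreteValuationRing (OE A E)] [Algebra (OE A E) (LE N E)]
  [IsScalarTower (OE A E) E (LE N E)] in
/-- A swap of `LE N E` lifting a swap `W` of `Fb N` that commutes with the Galois action commutes
with the coefficientwise action of `Gal(E/ℚ)`. -/
theorem swap_galE_comm (W : Fb N ≃+* Fb N)
    (hWgal : ∀ (σ : Gq) (x : Fb N), W (gal N σ x) = gal N σ (W x))
    (wE : LE N E ≃+* LE N E) (hwE : ∀ z : LE N E, upF N E (wE z) = W (upF N E z))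
    (τ : Gq) (x : LE N E) : wE (galE E N τ x) = galE E N τ (wE x) := by
  apply upF_injective N E
  rw [hwE, upF_galE, hWgal, upF_galE, hwE]

omit [Normal ℚ E] [IsDiscreteValuationRing (OE A E)] in
/-- A swap of `LE N E` lifting a swap `W` of `Fb N` that fixes the constants fixes the constants
of `O_E`. -/
theorem swap_algebraMap_OE (W : Fb N ≃+* Fb N)
    (hWc : ∀ c : Qb, W (algebraMap Qb (Fb N) c) = algebraMap Qb (Fb N) c)
    (wE : LE N E ≃+* LE N E) (hwE : ∀ z : LE N E, upF N E (wE z) = W (upF N E z))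
    (a : OE A E) :
    wE (algebraMap (OE A E) (LE N E) a) = algebraMap (OE A E) (LE N E) a := by
  apply upF_injective N E
  rw [hwE, IsScalarTower.algebraMap_apply (OE A E) E (LE N E), upF_algebraMap, hWc]

/-- **RootGlue.**  `InjSSRootE` from the `K`-level nodal theorem; the inertia action is trivial on
both residue rings by `InertiaAut` (the Gauss congruence), given that the swap commutes with the
coefficientwise action of inertia. -/
theorem injSSRootE_of_nodal (W : Fb N ≃+* Fb N) (m : ℕ)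
    (π : OE A E) (hπ : Irreducible π) (u : LE N E) (hu : Transcendental E u)
    [FiniteDimensional (IntermediateField.adjoin E {u}) (LE N E)]
    (huV : ((u : LE N E) : LaurentSeries E) ∈ GaussDVR.V (OE A E) E)
    (hu' : GaussDVR.red (OE A E) E ⟨_, huV⟩ ≠ 0)
    (wE : LE N E ≃+* LE N E) (hwE : ∀ z : LE N E, upF N E (wE z) = W (upF N E z))
    (hwO : ∀ a : OE A E, wE (algebraMap (OE A E) (LE N E) a) = algebraMap (OE A E) (LE N E) a)
    (hwu : ((wE u : LE N E) : LaurentSeries E) ∈ GaussDVR.V (OE A E) E)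
    (hwu' : GaussDVR.red (OE A E) E ⟨_, hwu⟩ ≠ 0)
    (D : NodalDatum π u)
    (hP₁ : ∀ (x : Overlap (OE A E) u)
      (hx : (((x : LE N E) : LE N E) : LaurentSeries E) ∈ GaussDVR.V (OE A E) E),
      x ∈ D.P₁ ↔ GaussDVR.red (OE A E) E ⟨_, hx⟩ = 0)
    (hP₂ : ∀ (x : Overlap (OE A E) u)
      (hx : ((wE (x : LE N E) : LE N E) : LaurentSeries E) ∈ GaussDVR.V (OE A E) E),
      x ∈ D.P₂ ↔ GaussDVR.red (OE A E) E ⟨_, hx⟩ = 0)
    (hm : IsUnit (m : OE A E)) (ζ : OE A E) (hζ : IsPrimitiveRoot ζ m)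
    (hτu : ∀ τ : Gq, τ ∈ A.inertiaSubgroupIn ℚ → galE E N τ u = u)
    (hwτ : ∀ τ : Gq, τ ∈ A.inertiaSubgroupIn ℚ →
      ∀ x : LE N E, wE (galE E N τ x) = galE E N τ (wE x)) :
    InjSSRootE N A W m E := by
  have huinv : (((u⁻¹ : LE N E) : LE N E) : LaurentSeries E) ∈ GaussDVR.V (OE A E) E := by
    rw [IntermediateField.coe_inv]
    exact GaussDVR.inv_mem (OE A E) E ⟨_, huV⟩ hu'
  have hwuinv : ((((wE u)⁻¹ : LE N E) : LE N E) : LaurentSeries E) ∈ GaussDVR.V (OE A E) E := by
    rw [IntermediateField.coe_inv]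
    exact GaussDVR.inv_mem (OE A E) E ⟨_, hwu⟩ hwu'
  exact injSSRootE_of_nodal' N A E W m π hπ u hu huV hu' wE hwE hwO hwu hwu' D hP₁ hP₂ hm ζ hζ
    hτu
    (fun τ hτ => Fermat.Agent.S34.InertiaAut.trivialMod_galE A E N π hπ hτ u huV huinv
      (hτu τ hτ) D.P₁ (fun x hx h0 => (hP₁ x hx).mpr h0))
    (fun τ hτ => Fermat.Agent.S34.InertiaAut.trivialMod_galE_swap A E N π hπ hτ u (hτu τ hτ) wE
      (hwτ τ hτ) hwO hwu hwuinv D.P₂ (fun x hx h0 => (hP₂ x hx).mpr h0))

end Fermat.Agent.S34.RootGlue
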