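/-
S34 (Program U) -- the Atkin–Lehner swap over a number field.

`Fermat.Agent.S37.SwapGal.exists_swap_gal` gives the Atkin–Lehner involution `w` of
`F_{Nℓ} = ℚ̄(j(q^d) : d ∣ Nℓ)` (a `ℚ̄`-algebra automorphism).  Here it is descended to every
intermediate field `E` of `ℚ̄ / ℚ`:

* `descEquiv` (generic, level-free): a `ℚ̄`-algebra automorphism of `laurentBaseChange ℚ̄ F₀` which
  (with its inverse) maps `F₀`-rational elements to `F₀`-rational elements restricts to an
  `E`-algebra automorphism of `laurentBaseChange E F₀`, compatibly with extension of coefficients.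
* `exists_swapE` : ONE automorphism `w` of `F_{Nℓ}` with the properties of `exists_swap_gal`
  and, for every `E`, an `E`-algebra automorphism `wE` of
  `laurentBaseChange E (modularFunctionFieldFull (N * ℓ))` (`= S18.K1Defs.LE (N * ℓ) E`)
  with `up (wE z) = w (up z)`, which is an involution, exchanges the degeneracy maps `α`, `β`,
  exchanges `j(q^d)` and `j(q^{dℓ})` and commutes with the coefficientwise action of the
  automorphisms of `E`.                                                        (helper114)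
-/
import Mathlib
import Fermat.Agent.S37.SwapGal
import Fermat.Agent.S30.GaussDescent

set_option autoImplicit false

noncomputable section

open ModularCurve HahnSeries

namespace Fermat.Agent.S34.SwapE

open Fermat.Agent.S30.GaussDescent

local notation "Qb" => AlgebraicClosure ℚ

/-! ### Generic descent of automorphisms -/

section Generic

variable (F₀ : IntermediateField ℚ (LaurentSeries ℚ)) (E : IntermediateField ℚ Qb)

/-- Extension of coefficients as a ring homomorphism
`laurentBaseChange E F₀ → laurentBaseChange ℚ̄ F₀`. -/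
def upHom : laurentBaseChange E F₀ →+* laurentBaseChange Qb F₀ where
  toFun y := ⟨up E (y : LaurentSeries E), up_mem E F₀ y.2⟩
  map_one' := Subtype.ext (map_one (up E))
  map_mul' _ _ := Subtype.ext (map_mul (up E) _ _)
  map_zero' := Subtype.ext (map_zero (up E))
  map_add' _ _ := Subtype.ext (map_add (up E) _ _)

@[simp] theorem coe_upHom (y : laurentBaseChange E F₀) :
    ((upHom F₀ E y : laurentBaseChange Qb F₀) : LaurentSeries Qb)
      = up E (y : LaurentSeries E) := rfl

theorem upHom_injective : Function.Injective (upHom F₀ E) := by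
  intro a b h
  apply Subtype.ext
  apply up_injective E
  exact congrArg (fun x : laurentBaseChange Qb F₀ => (x : LaurentSeries Qb)) h

theorem upHom_algebraMap (c : E) :
    upHom F₀ E (algebraMap E (laurentBaseChange E F₀) c)
      = algebraMap Qb (laurentBaseChange Qb F₀) (c : Qb) := by
  apply Subtype.ext
  exact up_algebraMap E c

/-- `w` maps `F₀`-rational elements to `F₀`-rational elements. -/
def RatStable (w : laurentBaseChange Qb F₀ → laurentBaseChange Qb F₀) : Prop :=
  ∀ z ∈ F₀, ∀ x : laurentBaseChange Qb F₀, (x : LaurentSeries Qb) = coeffEmb Qb z →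
    ∃ z' ∈ F₀, ((w x : laurentBaseChange Qb F₀) : LaurentSeries Qb) = coeffEmb Qb z'

variable {F₀}

/-- Rationality can be checked on field generators of `F₀`. -/
theorem ratStable_of_gens (S : Set (LaurentSeries ℚ)) (hS : F₀ = IntermediateField.adjoin ℚ S)
    (w : laurentBaseChange Qb F₀ →ₐ[Qb] laurentBaseChange Qb F₀)
    (h : ∀ z ∈ S, ∀ x : laurentBaseChange Qb F₀, (x : LaurentSeries Qb) = coeffEmb Qb z →
      ∃ z' ∈ F₀, ((w x : laurentBaseChange Qb F₀) : LaurentSeries Qb) = coeffEmb Qb z') :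
    RatStable F₀ w := by
  subst hS
  intro z hz
  induction hz using IntermediateField.adjoin_induction with
  | mem z hz => exact h z hz
  | algebraMap r =>
      intro x hx
      refine ⟨algebraMap ℚ (LaurentSeries ℚ) r, IntermediateField.algebraMap_mem _ r, ?_⟩
      have hr : coeffEmb Qb (algebraMap ℚ (LaurentSeries ℚ) r)
          = algebraMap Qb (LaurentSeries Qb) (algebraMap ℚ Qb r) := by
        rw [algebraMap_laurentSeries_eq_single, algebraMap_laurentSeries_eq_single]
        exact coeffMap_single _ _ _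
      have hx' : x = algebraMap Qb _ (algebraMap ℚ Qb r) := by
        apply Subtype.ext
        rw [hx, hr]
        rfl
      rw [hx', AlgHom.commutes, hr]
      rfl
  | add a b ha hb iha ihb =>
      intro x hx
      obtain ⟨a', ha', ea⟩ := iha ⟨coeffEmb Qb a, coeffEmb_mem_laurentBaseChange Qb ha⟩ rfl
      obtain ⟨b', hb', eb⟩ := ihb ⟨coeffEmb Qb b, coeffEmb_mem_laurentBaseChange Qb hb⟩ rfl
      refine ⟨a' + b', add_mem ha' hb', ?_⟩
      have hx' : x = ⟨coeffEmb Qb a, coeffEmb_mem_laurentBaseChange Qb ha⟩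
          + ⟨coeffEmb Qb b, coeffEmb_mem_laurentBaseChange Qb hb⟩ := by
        apply Subtype.ext
        rw [hx, map_add]
        rfl
      rw [hx', map_add, map_add, ← ea, ← eb]
      rfl
  | inv a ha iha =>
      intro x hx
      obtain ⟨a', ha', ea⟩ := iha ⟨coeffEmb Qb a, coeffEmb_mem_laurentBaseChange Qb ha⟩ rfl
      refine ⟨a'⁻¹, inv_mem ha', ?_⟩
      have hx' : x = (⟨coeffEmb Qb a, coeffEmb_mem_laurentBaseChange Qb ha⟩ :
          laurentBaseChange Qb _)⁻¹ := by
        apply Subtype.ext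
        rw [hx, map_inv₀]
        rfl
      rw [hx', map_inv₀, map_inv₀, ← ea]
      rfl
  | mul a b ha hb iha ihb =>
      intro x hx
      obtain ⟨a', ha', ea⟩ := iha ⟨coeffEmb Qb a, coeffEmb_mem_laurentBaseChange Qb ha⟩ rfl
      obtain ⟨b', hb', eb⟩ := ihb ⟨coeffEmb Qb b, coeffEmb_mem_laurentBaseChange Qb hb⟩ rfl
      refine ⟨a' * b', mul_mem ha' hb', ?_⟩
      have hx' : x = ⟨coeffEmb Qb a, coeffEmb_mem_laurentBaseChange Qb ha⟩
          * ⟨coeffEmb Qb b, coeffEmb_mem_laurentBaseChange Qb hb⟩ := by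
        apply Subtype.ext
        rw [hx, map_mul]
        rfl
      rw [hx', map_mul, map_mul, ← ea, ← eb]
      rfl

/-- Key descent step: a rationality-preserving `ℚ̄`-algebra endomorphism maps the image of
`laurentBaseChange E F₀` into itself. -/
theorem exists_up_eq (w : laurentBaseChange Qb F₀ →ₐ[Qb] laurentBaseChange Qb F₀)
    (hw : RatStable F₀ w) {y : LaurentSeries E} (hy : y ∈ laurentBaseChange E F₀) :
    ∀ x : laurentBaseChange Qb F₀, (x : LaurentSeries Qb) = up E y →
      ∃ y' ∈ laurentBaseChange E F₀,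
        ((w x : laurentBaseChange Qb F₀) : LaurentSeries Qb) = up E y' := by
  rw [mem_laurentBaseChange_iff] at hy
  induction hy using Subfield.closure_induction with
  | mem y hy =>
      intro x hx
      rcases hy with ⟨a, rfl⟩ | ⟨z, hz, rfl⟩
      · refine ⟨algebraMap E (LaurentSeries E) a, (laurentBaseChange E F₀).algebraMap_mem a, ?_⟩
        have hx' : x = algebraMap Qb _ (a : Qb) := by
          apply Subtype.ext
          rw [hx, up_algebraMap]
          rfl
        rw [hx', AlgHom.commutes, up_algebraMap]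
        rfl
      · rw [up_coeffEmb] at hx
        obtain ⟨z', hz', e⟩ := hw z hz x hx
        exact ⟨coeffEmb E z', coeffEmb_mem_laurentBaseChange E hz', by rw [e, up_coeffEmb]⟩
  | one =>
      intro x hx
      refine ⟨1, one_mem _, ?_⟩
      have hx' : x = 1 := by
        apply Subtype.ext
        rw [hx, map_one]
        rfl
      rw [hx', map_one, map_one]
      rfl
  | add a b ha hb iha ihb =>
      intro x hx
      have ha' : a ∈ laurentBaseChange E F₀ := mem_laurentBaseChange_iff.mpr ha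
      have hb' : b ∈ laurentBaseChange E F₀ := mem_laurentBaseChange_iff.mpr hb
      obtain ⟨a₁, ha₁, ea⟩ := iha ⟨up E a, up_mem E F₀ ha'⟩ rfl
      obtain ⟨b₁, hb₁, eb⟩ := ihb ⟨up E b, up_mem E F₀ hb'⟩ rfl
      refine ⟨a₁ + b₁, add_mem ha₁ hb₁, ?_⟩
      have hx' : x = ⟨up E a, up_mem E F₀ ha'⟩ + ⟨up E b, up_mem E F₀ hb'⟩ := by
        apply Subtype.ext
        rw [hx, map_add]
        rfl
      rw [hx', map_add, map_add, ← ea, ← eb]
      rfl
  | neg a ha iha =>
      intro x hx
      have ha' : a ∈ laurentBaseChange E F₀ := mem_laurentBaseChange_iff.mpr ha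
      obtain ⟨a₁, ha₁, ea⟩ := iha ⟨up E a, up_mem E F₀ ha'⟩ rfl
      refine ⟨-a₁, neg_mem ha₁, ?_⟩
      have hx' : x = -⟨up E a, up_mem E F₀ ha'⟩ := by
        apply Subtype.ext
        rw [hx, map_neg]
        rfl
      rw [hx', map_neg, map_neg, ← ea]
      rfl
  | inv a ha iha =>
      intro x hx
      have ha' : a ∈ laurentBaseChange E F₀ := mem_laurentBaseChange_iff.mpr ha
      obtain ⟨a₁, ha₁, ea⟩ := iha ⟨up E a, up_mem E F₀ ha'⟩ rfl
      refine ⟨a₁⁻¹, inv_mem ha₁, ?_⟩
      have hx' : x = (⟨up E a, up_mem E F₀ ha'⟩ : laurentBaseChange Qb F₀)⁻¹ := by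
        apply Subtype.ext
        rw [hx, map_inv₀]
        rfl
      rw [hx', map_inv₀, map_inv₀, ← ea]
      rfl
  | mul a b ha hb iha ihb =>
      intro x hx
      have ha' : a ∈ laurentBaseChange E F₀ := mem_laurentBaseChange_iff.mpr ha
      have hb' : b ∈ laurentBaseChange E F₀ := mem_laurentBaseChange_iff.mpr hb
      obtain ⟨a₁, ha₁, ea⟩ := iha ⟨up E a, up_mem E F₀ ha'⟩ rfl
      obtain ⟨b₁, hb₁, eb⟩ := ihb ⟨up E b, up_mem E F₀ hb'⟩ rfl
      refine ⟨a₁ * b₁, mul_mem ha₁ hb₁, ?_⟩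
      have hx' : x = ⟨up E a, up_mem E F₀ ha'⟩ * ⟨up E b, up_mem E F₀ hb'⟩ := by
        apply Subtype.ext
        rw [hx, map_mul]
        rfl
      rw [hx', map_mul, map_mul, ← ea, ← eb]
      rfl

theorem exists_upHom_eq (w : laurentBaseChange Qb F₀ →ₐ[Qb] laurentBaseChange Qb F₀)
    (hw : RatStable F₀ w) (y : laurentBaseChange E F₀) :
    ∃ y' : laurentBaseChange E F₀, upHom F₀ E y' = w (upHom F₀ E y) := by
  obtain ⟨y', hy', e⟩ := exists_up_eq E w hw y.2 (upHom F₀ E y) rfl
  exact ⟨⟨y', hy'⟩, Subtype.ext e.symm⟩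

/-- The descended endomorphism, as a function. -/
def descFun (w : laurentBaseChange Qb F₀ →ₐ[Qb] laurentBaseChange Qb F₀)
    (hw : RatStable F₀ w) (y : laurentBaseChange E F₀) : laurentBaseChange E F₀ :=
  (exists_upHom_eq E w hw y).choose

theorem upHom_descFun (w : laurentBaseChange Qb F₀ →ₐ[Qb] laurentBaseChange Qb F₀)
    (hw : RatStable F₀ w) (y : laurentBaseChange E F₀) :
    upHom F₀ E (descFun E w hw y) = w (upHom F₀ E y) :=
  (exists_upHom_eq E w hw y).choose_spec

/-- **Descent of endomorphisms**: the `E`-algebra endomorphism of `laurentBaseChange E F₀`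
induced by a rationality-preserving `ℚ̄`-algebra endomorphism of `laurentBaseChange ℚ̄ F₀`. -/
def descHom (w : laurentBaseChange Qb F₀ →ₐ[Qb] laurentBaseChange Qb F₀)
    (hw : RatStable F₀ w) : laurentBaseChange E F₀ →ₐ[E] laurentBaseChange E F₀ where
  toFun := descFun E w hw
  map_one' := by
    apply upHom_injective F₀ E
    rw [upHom_descFun, map_one, map_one]
  map_mul' a b := by
    apply upHom_injective F₀ E
    rw [upHom_descFun, map_mul, map_mul, map_mul, upHom_descFun, upHom_descFun]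
  map_zero' := by
    apply upHom_injective F₀ E
    rw [upHom_descFun, map_zero, map_zero]
  map_add' a b := by
    apply upHom_injective F₀ E
    rw [upHom_descFun, map_add, map_add, map_add, upHom_descFun, upHom_descFun]
  commutes' c := by
    apply upHom_injective F₀ E
    rw [upHom_descFun, upHom_algebraMap, AlgHom.commutes]

theorem upHom_descHom (w : laurentBaseChange Qb F₀ →ₐ[Qb] laurentBaseChange Qb F₀)
    (hw : RatStable F₀ w) (y : laurentBaseChange E F₀) :
    upHom F₀ E (descHom E w hw y) = w (upHom F₀ E y) :=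
  upHom_descFun E w hw y

/-- **Descent of automorphisms.** -/
def descEquiv (w : laurentBaseChange Qb F₀ ≃ₐ[Qb] laurentBaseChange Qb F₀)
    (hw : RatStable F₀ w) (hw' : RatStable F₀ w.symm) :
    laurentBaseChange E F₀ ≃ₐ[E] laurentBaseChange E F₀ :=
  AlgEquiv.ofAlgHom (descHom E (w : _ →ₐ[Qb] _) hw) (descHom E (w.symm : _ →ₐ[Qb] _) hw')
    (by
      apply AlgHom.ext
      intro y
      apply upHom_injective F₀ E
      rw [AlgHom.comp_apply, upHom_descHom, upHom_descHom]
      simp)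
    (by
      apply AlgHom.ext
      intro y
      apply upHom_injective F₀ E
      rw [AlgHom.comp_apply, upHom_descHom, upHom_descHom]
      simp)

theorem upHom_descEquiv (w : laurentBaseChange Qb F₀ ≃ₐ[Qb] laurentBaseChange Qb F₀)
    (hw : RatStable F₀ w) (hw' : RatStable F₀ w.symm) (y : laurentBaseChange E F₀) :
    upHom F₀ E (descEquiv E w hw hw' y) = w (upHom F₀ E y) := by
  have h := upHom_descHom E (w : laurentBaseChange Qb F₀ →ₐ[Qb] laurentBaseChange Qb F₀) hw y
  exact h

end Generic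

/-! ### The Atkin–Lehner swap -/

section Swap

open Fermat.Agent.S24.Modular Fermat.Agent.S24.Theta Fermat.Agent.S37.Swap
  Fermat.Agent.S37.SwapGal

local notation "Gq" => (AlgebraicClosure ℚ ≃ₐ[ℚ] AlgebraicClosure ℚ)

variable (N ℓ : ℕ) [NeZero N] [NeZero ℓ]

omit [NeZero N] in
/-- An automorphism of `F_{Nℓ}` exchanging the generators `j(q^d)` and `j(q^{dℓ})` (`d ∣ N`)
preserves rationality. -/
theorem ratStable_of_gen (hℓ : ℓ.Prime) (w : FN (N * ℓ) ≃ₐ[Kbar] FN (N * ℓ))
    (h5 : ∀ (d : ℕ) [NeZero d] (hd : d ∣ N),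
      w (gen (N * ℓ) d (Dvd.dvd.mul_right hd ℓ) : FN (N * ℓ))
        = (gen (N * ℓ) (d * ℓ) (mul_dvd_mul_right hd ℓ) : FN (N * ℓ)))
    (h6 : ∀ (d : ℕ) [NeZero d] (hd : d ∣ N),
      w (gen (N * ℓ) (d * ℓ) (mul_dvd_mul_right hd ℓ) : FN (N * ℓ))
        = (gen (N * ℓ) d (Dvd.dvd.mul_right hd ℓ) : FN (N * ℓ))) :
    RatStable (modularFunctionFieldFull (N * ℓ))
      (w : FN (N * ℓ) →ₐ[Kbar] FN (N * ℓ)) := by
  refine ratStable_of_gens (divisorExpansions (N * ℓ)) rfl _ ?_
  rintro z ⟨e, he0, he, rfl⟩ x hx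
  rcases dvd_cases hℓ he with he' | ⟨d, hd, rfl⟩
  · have hx' : x = (gen (N * ℓ) e (Dvd.dvd.mul_right he' ℓ) : FN (N * ℓ)) :=
      Subtype.ext (by rw [hx, coe_gen])
    refine ⟨qExpand ℚ (e * ℓ) jq, jqd_mem_full (N * ℓ) (mul_dvd_mul_right he' ℓ), ?_⟩
    rw [hx']
    show ((w (gen (N * ℓ) e (Dvd.dvd.mul_right he' ℓ) : FN (N * ℓ)) : FN (N * ℓ)) :
      LaurentSeries Kbar) = _
    rw [h5 e he', coe_gen]
  · have : NeZero d := ⟨fun h0 => by
      have := NeZero.ne (d * ℓ)
      rw [h0, zero_mul] at this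
      exact this rfl⟩
    have hx' : x = (gen (N * ℓ) (d * ℓ) (mul_dvd_mul_right hd ℓ) : FN (N * ℓ)) :=
      Subtype.ext (by rw [hx, coe_gen])
    refine ⟨qExpand ℚ d jq, jqd_mem_full (N * ℓ) (Dvd.dvd.mul_right hd ℓ), ?_⟩
    rw [hx']
    show ((w (gen (N * ℓ) (d * ℓ) (mul_dvd_mul_right hd ℓ) : FN (N * ℓ)) : FN (N * ℓ)) :
      LaurentSeries Kbar) = _
    rw [h6 d hd, coe_gen]

variable {N ℓ}

/-- **The Atkin–Lehner involution `W_ℓ` of `F_{Nℓ}` over `ℚ̄`** (one fixed choice of the
automorphism of `SwapGal.exists_swap_gal`). -/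
def swapQ (hℓ : ℓ.Prime) (hℓN : ¬ ℓ ∣ N) : FN (N * ℓ) ≃ₐ[Kbar] FN (N * ℓ) :=
  (exists_swap_gal N ℓ hℓ hℓN).choose

variable (hℓ : ℓ.Prime) (hℓN : ¬ ℓ ∣ N)

theorem swapQ_alpha (f : FN N) :
    swapQ hℓ hℓN (heckeAlphaBar Kbar N ℓ f) = heckeBetaBar Kbar N ℓ f :=
  (exists_swap_gal N ℓ hℓ hℓN).choose_spec.1 f

theorem swapQ_beta (f : FN N) :
    swapQ hℓ hℓN (heckeBetaBar Kbar N ℓ f) = heckeAlphaBar Kbar N ℓ f :=
  (exists_swap_gal N ℓ hℓ hℓN).choose_spec.2.1 f

theorem swapQ_swapQ (z : FN (N * ℓ)) : swapQ hℓ hℓN (swapQ hℓ hℓN z) = z :=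
  (exists_swap_gal N ℓ hℓ hℓN).choose_spec.2.2.1 z

theorem swapQ_gal (σ : Gq) (z : FN (N * ℓ)) :
    swapQ hℓ hℓN (arithmeticRingAut (modularFunctionFieldFull (N * ℓ)) σ z)
      = arithmeticRingAut (modularFunctionFieldFull (N * ℓ)) σ (swapQ hℓ hℓN z) :=
  (exists_swap_gal N ℓ hℓ hℓN).choose_spec.2.2.2.1 σ z

theorem swapQ_gen (d : ℕ) [NeZero d] (hd : d ∣ N) :
    swapQ hℓ hℓN (gen (N * ℓ) d (Dvd.dvd.mul_right hd ℓ) : FN (N * ℓ))
      = (gen (N * ℓ) (d * ℓ) (mul_dvd_mul_right hd ℓ) : FN (N * ℓ)) :=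
  (exists_swap_gal N ℓ hℓ hℓN).choose_spec.2.2.2.2.1 d hd

theorem swapQ_gen_mul (d : ℕ) [NeZero d] (hd : d ∣ N) :
    swapQ hℓ hℓN (gen (N * ℓ) (d * ℓ) (mul_dvd_mul_right hd ℓ) : FN (N * ℓ))
      = (gen (N * ℓ) d (Dvd.dvd.mul_right hd ℓ) : FN (N * ℓ)) :=
  (exists_swap_gal N ℓ hℓ hℓN).choose_spec.2.2.2.2.2 d hd

theorem swapQ_symm : (swapQ hℓ hℓN).symm = swapQ hℓ hℓN := by
  apply AlgEquiv.ext
  intro z
  rw [AlgEquiv.symm_apply_eq, swapQ_swapQ]

theorem ratStable_swapQ :
    RatStable (modularFunctionFieldFull (N * ℓ))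
      (swapQ hℓ hℓN : FN (N * ℓ) →ₐ[Kbar] FN (N * ℓ)) :=
  ratStable_of_gen N ℓ hℓ _ (fun d _ hd => swapQ_gen hℓ hℓN d hd)
    (fun d _ hd => swapQ_gen_mul hℓ hℓN d hd)

theorem ratStable_swapQ_symm :
    RatStable (modularFunctionFieldFull (N * ℓ))
      ((swapQ hℓ hℓN).symm : FN (N * ℓ) →ₐ[Kbar] FN (N * ℓ)) := by
  rw [swapQ_symm]
  exact ratStable_swapQ hℓ hℓN

variable (E : IntermediateField ℚ Qb)

/-- **The Atkin–Lehner involution `W_ℓ` of the level-`Nℓ` function field over `E`**,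
`E` any intermediate field of `ℚ̄ / ℚ`. -/
def swapE : laurentBaseChange E (modularFunctionFieldFull (N * ℓ)) ≃ₐ[E]
    laurentBaseChange E (modularFunctionFieldFull (N * ℓ)) :=
  descEquiv E (swapQ hℓ hℓN) (ratStable_swapQ hℓ hℓN) (ratStable_swapQ_symm hℓ hℓN)

/-- `swapE` is the restriction of `swapQ`. -/
theorem upHom_swapE (z : laurentBaseChange E (modularFunctionFieldFull (N * ℓ))) :
    upHom (modularFunctionFieldFull (N * ℓ)) E (swapE hℓ hℓN E z)
      = swapQ hℓ hℓN (upHom (modularFunctionFieldFull (N * ℓ)) E z) :=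
  upHom_descEquiv E _ _ _ z

/-- `swapE` is the restriction of `swapQ`, on `q`-expansions. -/
theorem up_swapE (z : laurentBaseChange E (modularFunctionFieldFull (N * ℓ))) :
    up E ((swapE hℓ hℓN E z : laurentBaseChange E (modularFunctionFieldFull (N * ℓ))) :
        LaurentSeries E)
      = ((swapQ hℓ hℓN ⟨up E (z : LaurentSeries E), up_mem E _ z.2⟩ : FN (N * ℓ)) :
        LaurentSeries Kbar) :=
  congrArg (fun x : FN (N * ℓ) => (x : LaurentSeries Kbar)) (upHom_swapE hℓ hℓN E z)

/-- `swapE` is an involution. -/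
theorem swapE_swapE (z : laurentBaseChange E (modularFunctionFieldFull (N * ℓ))) :
    swapE hℓ hℓN E (swapE hℓ hℓN E z) = z := by
  apply upHom_injective (modularFunctionFieldFull (N * ℓ)) E
  rw [upHom_swapE, upHom_swapE, swapQ_swapQ]

theorem swapE_symm : (swapE hℓ hℓN E).symm = swapE hℓ hℓN E := by
  apply AlgEquiv.ext
  intro z
  rw [AlgEquiv.symm_apply_eq, swapE_swapE]

theorem upHom_heckeAlphaBar (f : laurentBaseChange E (modularFunctionFieldFull N)) :
    upHom (modularFunctionFieldFull (N * ℓ)) E (heckeAlphaBar E N ℓ f)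
      = heckeAlphaBar Kbar N ℓ (upHom (modularFunctionFieldFull N) E f) := by
  apply Subtype.ext
  rw [coe_upHom, coe_heckeAlphaBar, coe_heckeAlphaBar, coe_upHom]

omit [NeZero N] in
theorem upHom_heckeBetaBar (f : laurentBaseChange E (modularFunctionFieldFull N)) :
    upHom (modularFunctionFieldFull (N * ℓ)) E (heckeBetaBar E N ℓ f)
      = heckeBetaBar Kbar N ℓ (upHom (modularFunctionFieldFull N) E f) := by
  apply Subtype.ext
  rw [coe_upHom, coe_heckeBetaBar, coe_heckeBetaBar, coe_upHom]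
  exact coeffMap_qExpand _ ℓ _

/-- `swapE ∘ α = β`. -/
theorem swapE_alpha (f : laurentBaseChange E (modularFunctionFieldFull N)) :
    swapE hℓ hℓN E (heckeAlphaBar E N ℓ f) = heckeBetaBar E N ℓ f := by
  apply upHom_injective (modularFunctionFieldFull (N * ℓ)) E
  rw [upHom_swapE, upHom_heckeAlphaBar, swapQ_alpha, upHom_heckeBetaBar]

/-- `swapE ∘ β = α`. -/
theorem swapE_beta (f : laurentBaseChange E (modularFunctionFieldFull N)) :
    swapE hℓ hℓN E (heckeBetaBar E N ℓ f) = heckeAlphaBar E N ℓ f := by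
  apply upHom_injective (modularFunctionFieldFull (N * ℓ)) E
  rw [upHom_swapE, upHom_heckeBetaBar, swapQ_beta, upHom_heckeAlphaBar]

/-- `swapE` sends `j(q^d)` to `j(q^{dℓ})`, `d ∣ N`. -/
theorem swapE_gen (d : ℕ) [NeZero d] (hd : d ∣ N)
    (z : laurentBaseChange E (modularFunctionFieldFull (N * ℓ)))
    (hz : (z : LaurentSeries E) = coeffEmb E (qExpand ℚ d jq)) :
    ((swapE hℓ hℓN E z : laurentBaseChange E (modularFunctionFieldFull (N * ℓ))) :
      LaurentSeries E) = coeffEmb E (qExpand ℚ (d * ℓ) jq) := by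
  apply up_injective E
  rw [up_swapE, up_coeffEmb]
  have hx : (⟨up E (z : LaurentSeries E), up_mem E _ z.2⟩ : FN (N * ℓ))
      = (gen (N * ℓ) d (Dvd.dvd.mul_right hd ℓ) : FN (N * ℓ)) := by
    apply Subtype.ext
    show up E (z : LaurentSeries E) = _
    rw [coe_gen, hz, up_coeffEmb]
  rw [hx, swapQ_gen hℓ hℓN d hd, coe_gen]

/-- `swapE` sends `j(q^{dℓ})` to `j(q^d)`, `d ∣ N`. -/
theorem swapE_gen_mul (d : ℕ) [NeZero d] (hd : d ∣ N)
    (z : laurentBaseChange E (modularFunctionFieldFull (N * ℓ)))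
    (hz : (z : LaurentSeries E) = coeffEmb E (qExpand ℚ (d * ℓ) jq)) :
    ((swapE hℓ hℓN E z : laurentBaseChange E (modularFunctionFieldFull (N * ℓ))) :
      LaurentSeries E) = coeffEmb E (qExpand ℚ d jq) := by
  apply up_injective E
  rw [up_swapE, up_coeffEmb]
  have hx : (⟨up E (z : LaurentSeries E), up_mem E _ z.2⟩ : FN (N * ℓ))
      = (gen (N * ℓ) (d * ℓ) (mul_dvd_mul_right hd ℓ) : FN (N * ℓ)) := by
    apply Subtype.ext
    show up E (z : LaurentSeries E) = _
    rw [coe_gen, hz, up_coeffEmb]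
  rw [hx, swapQ_gen_mul hℓ hℓN d hd, coe_gen]

/-- `swapE` sends `j` to `j(q^ℓ)`. -/
theorem swapE_j (z : laurentBaseChange E (modularFunctionFieldFull (N * ℓ)))
    (hz : (z : LaurentSeries E) = coeffEmb E jq) :
    ((swapE hℓ hℓN E z : laurentBaseChange E (modularFunctionFieldFull (N * ℓ))) :
      LaurentSeries E) = coeffEmb E (qExpand ℚ ℓ jq) := by
  rw [swapE_gen hℓ hℓN E 1 (one_dvd N) z (by rw [hz, qExpand_one_apply]),
    qExpand_congr (one_mul ℓ)]

/-- `swapE` sends `j(q^ℓ)` to `j`. -/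
theorem swapE_jl (z : laurentBaseChange E (modularFunctionFieldFull (N * ℓ)))
    (hz : (z : LaurentSeries E) = coeffEmb E (qExpand ℚ ℓ jq)) :
    ((swapE hℓ hℓN E z : laurentBaseChange E (modularFunctionFieldFull (N * ℓ))) :
      LaurentSeries E) = coeffEmb E jq := by
  rw [swapE_gen_mul hℓ hℓN E 1 (one_dvd N) z (by rw [hz, qExpand_congr (one_mul ℓ)]),
    qExpand_one_apply]

/-- `swapE` commutes with the coefficientwise action of an automorphism `s` of `E` which is the
restriction of an automorphism `σ` of `ℚ̄`. -/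
theorem swapE_arith (σ : Gq) (s : E ≃ₐ[ℚ] E)
    (hs : ∀ x : E, algebraMap E Qb (s x) = σ (algebraMap E Qb x))
    (z : laurentBaseChange E (modularFunctionFieldFull (N * ℓ))) :
    swapE hℓ hℓN E (arithmeticRingAut (modularFunctionFieldFull (N * ℓ)) s z)
      = arithmeticRingAut (modularFunctionFieldFull (N * ℓ)) s (swapE hℓ hℓN E z) := by
  have key : ∀ y : laurentBaseChange E (modularFunctionFieldFull (N * ℓ)),
      upHom (modularFunctionFieldFull (N * ℓ)) E
          (arithmeticRingAut (modularFunctionFieldFull (N * ℓ)) s y)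
        = arithmeticRingAut (modularFunctionFieldFull (N * ℓ)) σ
          (upHom (modularFunctionFieldFull (N * ℓ)) E y) := by
    intro y
    apply Subtype.ext
    rw [coe_upHom, coe_arithmeticRingAut_apply, coe_arithmeticRingAut_apply, coe_upHom]
    show coeffMap (algebraMap E Qb) (coeffMap (s : E →+* E) (y : LaurentSeries E))
      = coeffMap (σ : Qb →+* Qb) (coeffMap (algebraMap E Qb) (y : LaurentSeries E))
    rw [coeffMap_coeffMap, coeffMap_coeffMap]
    exact coeffMap_congr (RingHom.ext fun x => hs x) _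
  apply upHom_injective (modularFunctionFieldFull (N * ℓ)) E
  rw [upHom_swapE, key, swapQ_gal, key, upHom_swapE]

/-- `swapE` commutes with the coefficientwise action of `τ|_E`, `E / ℚ` normal. -/
theorem swapE_restrictNormal [Normal ℚ E] (τ : Gq)
    (z : laurentBaseChange E (modularFunctionFieldFull (N * ℓ))) :
    swapE hℓ hℓN E
        (arithmeticRingAut (modularFunctionFieldFull (N * ℓ)) (τ.restrictNormal E) z)
      = arithmeticRingAut (modularFunctionFieldFull (N * ℓ)) (τ.restrictNormal E)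
        (swapE hℓ hℓN E z) :=
  swapE_arith hℓ hℓN E τ (τ.restrictNormal E) (fun x => AlgEquiv.restrictNormal_commutes τ E x) z

/-- `swapE` commutes with the coefficientwise action of every automorphism of `E`. -/
theorem swapE_arith' (s : E ≃ₐ[ℚ] E)
    (z : laurentBaseChange E (modularFunctionFieldFull (N * ℓ))) :
    swapE hℓ hℓN E (arithmeticRingAut (modularFunctionFieldFull (N * ℓ)) s z)
      = arithmeticRingAut (modularFunctionFieldFull (N * ℓ)) s (swapE hℓ hℓN E z) := by
  have : Normal ℚ Qb := by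
    have h : (DivisionRing.toRatAlgebra : Algebra ℚ (AlgebraicClosure ℚ)) =
        AlgebraicClosure.instAlgebra ℚ := Subsingleton.elim _ _
    rw [h]; infer_instance
  exact swapE_arith hℓ hℓN E (s.liftNormal Qb) s (fun x => (AlgEquiv.liftNormal_commutes s Qb x).symm) z

/-- **Packaged form**: one automorphism `w` of `F_{Nℓ}` over `ℚ̄` with the properties of
`SwapGal.exists_swap_gal`, together with its restriction `wE` to the level-`Nℓ` function field
over every intermediate field `E` of `ℚ̄ / ℚ`. -/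
theorem exists_swapE (N ℓ : ℕ) [NeZero N] [NeZero ℓ] (hℓ : ℓ.Prime) (hℓN : ¬ ℓ ∣ N) :
    ∃ w : FN (N * ℓ) ≃ₐ[Kbar] FN (N * ℓ),
      ((∀ f : FN N, w (heckeAlphaBar Kbar N ℓ f) = heckeBetaBar Kbar N ℓ f) ∧
        (∀ f : FN N, w (heckeBetaBar Kbar N ℓ f) = heckeAlphaBar Kbar N ℓ f) ∧
        (∀ z : FN (N * ℓ), w (w z) = z) ∧
        (∀ (σ : Gq) (z : FN (N * ℓ)),
          w (arithmeticRingAut (modularFunctionFieldFull (N * ℓ)) σ z)
            = arithmeticRingAut (modularFunctionFieldFull (N * ℓ)) σ (w z))) ∧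
      ∀ E : IntermediateField ℚ Qb,
        ∃ wE : laurentBaseChange E (modularFunctionFieldFull (N * ℓ)) ≃ₐ[E]
            laurentBaseChange E (modularFunctionFieldFull (N * ℓ)),
          (∀ z, up E ((wE z : laurentBaseChange E (modularFunctionFieldFull (N * ℓ))) :
              LaurentSeries E)
            = ((w ⟨up E (z : LaurentSeries E), up_mem E _ z.2⟩ : FN (N * ℓ)) :
              LaurentSeries Kbar)) ∧
          (∀ z, wE (wE z) = z) ∧
          (∀ f : laurentBaseChange E (modularFunctionFieldFull N),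
            wE (heckeAlphaBar E N ℓ f) = heckeBetaBar E N ℓ f) ∧
          (∀ f : laurentBaseChange E (modularFunctionFieldFull N),
            wE (heckeBetaBar E N ℓ f) = heckeAlphaBar E N ℓ f) ∧
          (∀ z : laurentBaseChange E (modularFunctionFieldFull (N * ℓ)),
            (z : LaurentSeries E) = coeffEmb E jq →
            ((wE z : laurentBaseChange E (modularFunctionFieldFull (N * ℓ))) : LaurentSeries E)
              = coeffEmb E (qExpand ℚ ℓ jq)) ∧
          (∀ z : laurentBaseChange E (modularFunctionFieldFull (N * ℓ)),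
            (z : LaurentSeries E) = coeffEmb E (qExpand ℚ ℓ jq) →
            ((wE z : laurentBaseChange E (modularFunctionFieldFull (N * ℓ))) : LaurentSeries E)
              = coeffEmb E jq) ∧
          (∀ (σ : Gq) (s : E ≃ₐ[ℚ] E), (∀ x : E, algebraMap E Qb (s x) = σ (algebraMap E Qb x)) →
            ∀ z, wE (arithmeticRingAut (modularFunctionFieldFull (N * ℓ)) s z)
              = arithmeticRingAut (modularFunctionFieldFull (N * ℓ)) s (wE z)) :=
  ⟨swapQ hℓ hℓN,
    ⟨swapQ_alpha hℓ hℓN, swapQ_beta hℓ hℓN, swapQ_swapQ hℓ hℓN, swapQ_gal hℓ hℓN⟩,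
    fun E => ⟨swapE hℓ hℓN E, up_swapE hℓ hℓN E, swapE_swapE hℓ hℓN E, swapE_alpha hℓ hℓN E,
      swapE_beta hℓ hℓN E, swapE_j hℓ hℓN E, swapE_jl hℓ hℓN E,
      fun σ s hs z => swapE_arith hℓ hℓN E σ s hs z⟩⟩

end Swap

end Fermat.Agent.S34.SwapE

end
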