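import Fermat.Agent.S30.E4.Exit

/-!
# S34, step (i): `(τ - 1)` maps Kummer classes to TORIC classes

`F = Fb N = ℚ̄(j(q^d) : d ∣ N) ⊆ ℚ̄((q))`, `A` a valuation subring of `ℚ̄`, `W` a ring
automorphism of `F` fixing the constants and commuting with the coefficientwise Galois action
(the Atkin–Lehner involution `W_ℓ` in the application, `ℓ ∥ N`).

* `GaussOne N A h` : `h ≡ 1` at the Gauss valuation `v_∞` attached to `A`, i.e. `h = U / V` with
  `U, V` integral `q`-series of `F` with the same nonzero reduction.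
* `IsToric N A W h` : `h ≡ 1` at `v_∞` and at `v_0 = v_∞ ∘ W`.
* `exists_toric` : for `τ` in the inertia group of `A` and `f ∈ F^×` with `m ∣ div f`,
  `τ f / f = w ^ m * h` with `h` toric and `m ∣ div h`.

The only input about the two valuations being different is a "separator": integral series
`b, b' ∈ F` with `W b = b'`, `W b' = b`, `red b = 0`, `red b' ≠ 0`
(`b = j(q^ℓ) - j(q)^ℓ`, `b' = j(q) - j(q^ℓ)^ℓ` in the application).
-/

set_option autoImplicit false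

open HahnSeries ModularCurve AlgebraicCurve

namespace Fermat.Agent.S34.Toric

open Fermat.Agent.S30 Fermat.Agent.S30.E4

local notation "Qb" => AlgebraicClosure ℚ
local notation "Gq" => (AlgebraicClosure ℚ ≃ₐ[ℚ] AlgebraicClosure ℚ)

/-! ### Units of `A` -/

section Units

variable (A : ValuationSubring Qb)

/-- An element of `ℚ̄` one of whose positive powers lies in `A` lies in `A`. -/
theorem mem_of_pow_mem {x : Qb} {n : ℕ} (hn : 0 < n) (h : x ^ n ∈ A) : x ∈ A := by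
  rcases A.mem_or_inv_mem x with h1 | h1
  · exact h1
  · by_cases hx : x = 0
    · rw [hx]; exact A.zero_mem
    have h2 : x = x ^ n * (x⁻¹) ^ (n - 1) := by
      have : x ^ n = x ^ (n - 1) * x := by rw [← pow_succ, Nat.sub_add_cancel hn]
      rw [this, inv_pow, mul_comm (x ^ (n - 1)), mul_assoc,
        mul_inv_cancel₀ (pow_ne_zero _ hx), mul_one]
    rw [h2]
    exact A.mul_mem _ _ h (A.pow_mem h1 _)

/-- For `τ` in the decomposition group of `A` and `c ≠ 0`, the quotient `τ c / c` lies in `A`. -/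
theorem decomp_div_mem (τ : A.decompositionSubgroup ℚ) {c : Qb} (hc : c ≠ 0) :
    (τ : Gq) c / c ∈ A := by
  classical
  -- `τ` has finite order on `c`
  obtain ⟨n, hn, hfix⟩ : ∃ n : ℕ, 0 < n ∧ ((τ : Gq) ^ n) c = c := by
    have hfin : ((minpoly ℚ c).rootSet Qb).Finite := Polynomial.rootSet_finite _ _
    have hint : IsIntegral ℚ c := ((AlgebraicClosure.isAlgebraic ℚ).isAlgebraic c).isIntegral
    have hmem : ∀ i : ℕ, ((τ : Gq) ^ i) c ∈ (minpoly ℚ c).rootSet Qb := by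
      intro i
      rw [Polynomial.mem_rootSet]
      refine ⟨minpoly.ne_zero hint, ?_⟩
      have h1 : minpoly ℚ (((τ : Gq) ^ i) c) = minpoly ℚ c := minpoly.algEquiv_eq _ c
      rw [← h1]
      exact minpoly.aeval ℚ _
    obtain ⟨i, j, hij, heq⟩ : ∃ i j : ℕ, i < j ∧ ((τ : Gq) ^ i) c = ((τ : Gq) ^ j) c := by
      by_contra hcon
      have hinj : Function.Injective fun i : ℕ => ((τ : Gq) ^ i) c := by
        intro i j hij
        by_contra hne
        rcases lt_or_gt_of_ne hne with h | h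
        · exact hcon ⟨i, j, h, hij⟩
        · exact hcon ⟨j, i, h, hij.symm⟩
      exact Set.infinite_of_injective_forall_mem hinj hmem hfin
    refine ⟨j - i, Nat.sub_pos_of_lt hij, ?_⟩
    have h1 : ((τ : Gq) ^ j) c = ((τ : Gq) ^ i) (((τ : Gq) ^ (j - i)) c) := by
      rw [← AlgEquiv.mul_apply, ← _root_.pow_add, Nat.add_sub_cancel' hij.le]
    rw [h1] at heq
    exact (((τ : Gq) ^ i).injective heq).symm
  set u : Qb := (τ : Gq) c / c with hu
  have hτc : (τ : Gq) c ≠ 0 := (map_ne_zero _).2 hc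
  have hu0 : u ≠ 0 := div_ne_zero hτc hc
  by_contra hnot
  -- then `u⁻¹` is a non-unit of `A`
  have hinv : u⁻¹ ∈ A := (A.mem_or_inv_mem u).resolve_left hnot
  set v : A := ⟨u⁻¹, hinv⟩ with hv
  have hvnu : v ∈ IsLocalRing.maximalIdeal A := by
    rw [IsLocalRing.mem_maximalIdeal, mem_nonunits_iff]
    intro hunit
    obtain ⟨w, hw⟩ := hunit.exists_left_inv
    apply hnot
    have h1 : ((w : A) : Qb) * u⁻¹ = 1 := by
      have := congrArg (fun a : A => (a : Qb)) hw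
      simpa [hv] using this
    have h2 : u = (w : Qb) := by
      field_simp at h1
      exact h1.symm
    rw [h2]
    exact w.2
  -- all conjugates `τ^i v` are non-units
  have hconj : ∀ i : ℕ, (Congr.sA A (τ ^ i)) v ∈ IsLocalRing.maximalIdeal A := by
    intro i
    rw [IsLocalRing.mem_maximalIdeal, mem_nonunits_iff]
    intro hunit
    have h1 : IsUnit ((Congr.sA A (τ ^ i)⁻¹) ((Congr.sA A (τ ^ i)) v)) := hunit.map _
    have h2 : (Congr.sA A (τ ^ i)⁻¹) ((Congr.sA A (τ ^ i)) v) = v := by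
      apply Subtype.ext
      rw [Congr.coe_sA, Congr.coe_sA]
      exact AlgEquiv.symm_apply_apply ((τ ^ i : A.decompositionSubgroup ℚ) : Gq) (v : Qb)
    rw [h2] at h1
    exact (IsLocalRing.mem_maximalIdeal _).1 hvnu h1
  -- the product of the conjugates is `1`
  have hprod : ∀ k : ℕ, ∏ i ∈ Finset.range k, (((Congr.sA A (τ ^ i)) v : A) : Qb)
      = c / ((τ : Gq) ^ k) c := by
    intro k
    induction k with
    | zero => simp [hc]
    | succ k ih =>
      rw [Finset.prod_range_succ, ih, Congr.coe_sA]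
      have h3 : ((τ ^ k : A.decompositionSubgroup ℚ) : Gq) = (τ : Gq) ^ k := rfl
      rw [h3, hv]
      show c / ((τ : Gq) ^ k) c * ((τ : Gq) ^ k) (u⁻¹) = c / ((τ : Gq) ^ (k + 1)) c
      have hk0 : ((τ : Gq) ^ k) c ≠ 0 := (map_ne_zero _).2 hc
      have hk1 : ((τ : Gq) ^ (k + 1)) c ≠ 0 := (map_ne_zero _).2 hc
      have h4 : ((τ : Gq) ^ k) (u⁻¹) = ((τ : Gq) ^ k) c / ((τ : Gq) ^ (k + 1)) c := by
        rw [hu, map_inv₀, map_div₀, inv_div, pow_succ, AlgEquiv.mul_apply]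
      rw [h4]
      field_simp
  have hone : (∏ i ∈ Finset.range n, (Congr.sA A (τ ^ i)) v : A) = 1 := by
    apply Subtype.ext
    have h5 : ((∏ i ∈ Finset.range n, (Congr.sA A (τ ^ i)) v : A) : Qb)
        = ∏ i ∈ Finset.range n, (((Congr.sA A (τ ^ i)) v : A) : Qb) :=
      map_prod A.subtype _ _
    rw [h5, hprod n, hfix, div_self hc]
    rfl
  have hmem : (∏ i ∈ Finset.range n, (Congr.sA A (τ ^ i)) v : A) ∈ IsLocalRing.maximalIdeal A := by
    have h0 : (0 : ℕ) ∈ Finset.range n := Finset.mem_range.2 hn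
    rw [← Finset.mul_prod_erase _ _ h0]
    exact Ideal.mul_mem_right _ _ (hconj 0)
  rw [hone] at hmem
  exact (IsLocalRing.mem_maximalIdeal _).1 hmem isUnit_one

/-- For `τ` in the decomposition group of `A` and `c ≠ 0`, `c / τ c` lies in `A`. -/
theorem decomp_div_mem' (τ : A.decompositionSubgroup ℚ) {c : Qb} (hc : c ≠ 0) :
    c / (τ : Gq) c ∈ A := by
  have hτc : (τ : Gq) c ≠ 0 := (map_ne_zero _).2 hc
  have h := decomp_div_mem A τ⁻¹ hτc
  have h1 : ((τ⁻¹ : A.decompositionSubgroup ℚ) : Gq) ((τ : Gq) c) = c := by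
    simp
  rwa [h1] at h

end Units

/-! ### `GaussOne` and `Toric` -/

section GaussOne

variable (N : ℕ) (A : ValuationSubring Qb)

/-- `h ≡ 1` at the Gauss valuation attached to `A`: `h = U / V` with `U`, `V` integral
`q`-series of `Fb N` having the same nonzero reduction. -/
def GaussOne (h : Fb N) : Prop :=
  ∃ U V : LaurentSeries A, Congr.incl A U ∈ Fb N ∧ Congr.incl A V ∈ Fb N ∧
    Congr.red A U = Congr.red A V ∧ Congr.red A U ≠ 0 ∧
    (h : LaurentSeries Qb) * Congr.incl A V = Congr.incl A U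

/-- `h ≡ 1` at the Gauss valuation `v_∞` and at `v_0 = v_∞ ∘ W`. -/
def IsToric (W : Fb N ≃+* Fb N) (h : Fb N) : Prop :=
  GaussOne N A h ∧ GaussOne N A (W h)

variable {N A}

theorem incl_ne_zero_of_red_ne_zero {P : LaurentSeries A} (hP : Congr.red A P ≠ 0) :
    Congr.incl A P ≠ 0 := by
  intro h
  apply hP
  have h2 : P = 0 := Congr.incl_injective A (by rw [h, map_zero])
  rw [h2, map_zero]

theorem GaussOne.ne_zero {h : Fb N} (hh : GaussOne N A h) : h ≠ 0 := by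
  obtain ⟨U, V, -, -, -, hne, heq⟩ := hh
  rintro rfl
  apply incl_ne_zero_of_red_ne_zero hne
  rw [← heq]
  show (0 : LaurentSeries Qb) * _ = 0
  rw [zero_mul]

theorem gaussOne_one : GaussOne N A (1 : Fb N) := by
  refine ⟨1, 1, ?_, ?_, rfl, ?_, ?_⟩
  · rw [map_one]; exact (Fb N).one_mem
  · rw [map_one]; exact (Fb N).one_mem
  · rw [map_one]; exact one_ne_zero
  · rw [map_one]
    show (1 : LaurentSeries Qb) * 1 = 1
    rw [mul_one]

theorem GaussOne.mul {h₁ h₂ : Fb N} (H₁ : GaussOne N A h₁) (H₂ : GaussOne N A h₂) :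
    GaussOne N A (h₁ * h₂) := by
  obtain ⟨U₁, V₁, hU₁, hV₁, hr₁, hn₁, he₁⟩ := H₁
  obtain ⟨U₂, V₂, hU₂, hV₂, hr₂, hn₂, he₂⟩ := H₂
  refine ⟨U₁ * U₂, V₁ * V₂, ?_, ?_, ?_, ?_, ?_⟩
  · rw [map_mul]; exact (Fb N).mul_mem hU₁ hU₂
  · rw [map_mul]; exact (Fb N).mul_mem hV₁ hV₂
  · rw [map_mul, map_mul, hr₁, hr₂]
  · rw [map_mul]; exact mul_ne_zero hn₁ hn₂
  · rw [map_mul, map_mul, ← he₁, ← he₂]
    show (h₁ : LaurentSeries Qb) * (h₂ : LaurentSeries Qb) * _ = _
    ring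

theorem GaussOne.pow {h : Fb N} (H : GaussOne N A h) (k : ℕ) : GaussOne N A (h ^ k) := by
  induction k with
  | zero => rw [pow_zero]; exact gaussOne_one
  | succ k ih => rw [pow_succ]; exact ih.mul H

/-- Subtype form of the defining relation. -/
theorem gaussOne_of_mul_eq {h : Fb N} (U V : LaurentSeries A) (hU : Congr.incl A U ∈ Fb N)
    (hV : Congr.incl A V ∈ Fb N) (hr : Congr.red A U = Congr.red A V) (hn : Congr.red A U ≠ 0)
    (heq : h * (⟨_, hV⟩ : Fb N) = ⟨_, hU⟩) : GaussOne N A h :=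
  ⟨U, V, hU, hV, hr, hn, congrArg Subtype.val heq⟩

end GaussOne

/-! ### The inertia quotient is `≡ 1` up to a constant -/

section Inertia

variable {N : ℕ} (A : ValuationSubring Qb)

/-- For `τ` in the inertia group and `f ≠ 0`: `τ f / f = (τ c / c) · g₀` with `c` a nonzero
constant and `g₀ ≡ 1` at the Gauss valuation. -/
theorem exists_gaussOne_gal (hG : HasGaussNorm N A) (τ : A.decompositionSubgroup ℚ)
    (hτ : τ ∈ A.inertiaSubgroup ℚ) (f : Fb N) (hf : f ≠ 0) :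
    ∃ (c : Qb) (g₀ : Fb N), c ≠ 0 ∧ GaussOne N A g₀ ∧
      gal N (τ : Gq) f * algebraMap Qb (Fb N) c
        = algebraMap Qb (Fb N) ((τ : Gq) c) * f * g₀ := by
  obtain ⟨c, P, Q, hPm, hQm, hc, hP, hQ, hfPQ⟩ := hG f hf
  set g : Fb N ≃+* Fb N := gal N (τ : Gq) with hg
  set P' : Fb N := ⟨_, hPm⟩ with hP'
  set Q' : Fb N := ⟨_, hQm⟩ with hQ'
  have hP0 : P' ≠ 0 := mk_ne_zero_of_red_ne_zero A hPm hP
  have hQ0 : Q' ≠ 0 := mk_ne_zero_of_red_ne_zero A hQm hQ
  have hgP0 : g P' ≠ 0 := (map_ne_zero_iff g g.injective).2 hP0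
  have hgQ0 : g Q' ≠ 0 := (map_ne_zero_iff g g.injective).2 hQ0
  set U : LaurentSeries A := Congr.actA A τ P * Q with hU
  set V : LaurentSeries A := Congr.actA A τ Q * P with hV
  have hU' : Congr.incl A U = ((g P' * Q' : Fb N) : LaurentSeries Qb) := by
    rw [hU, map_mul, Congr.incl_actA]
    rfl
  have hV' : Congr.incl A V = ((g Q' * P' : Fb N) : LaurentSeries Qb) := by
    rw [hV, map_mul, Congr.incl_actA]
    rfl
  have hUm : Congr.incl A U ∈ Fb N := by rw [hU']; exact (g P' * Q').2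
  have hVm : Congr.incl A V ∈ Fb N := by rw [hV']; exact (g Q' * P').2
  set g₀ : Fb N := (g P' * Q') / (g Q' * P') with hg₀
  have hg₀' : g₀ * (g Q' * P') = g P' * Q' := by
    rw [hg₀]; exact div_mul_cancel₀ _ (mul_ne_zero hgQ0 hP0)
  refine ⟨c, g₀, hc, ?_, ?_⟩
  · refine ⟨U, V, hUm, hVm, Congr.red_unr A τ hτ P Q, Congr.red_unr_ne_zero A τ hτ hP hQ, ?_⟩
    rw [hU', hV']
    exact congrArg Subtype.val hg₀'
  · have hgc : g (algebraMap Qb (Fb N) c) = algebraMap Qb (Fb N) ((τ : Gq) c) :=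
      arithmeticRingAut_algebraMap (modularFunctionFieldFull N) (τ : Gq) c
    have h1 : g f * g Q' = algebraMap Qb (Fb N) ((τ : Gq) c) * g P' := by
      rw [← map_mul, hfPQ, map_mul, hgc]
    apply mul_right_cancel₀ (mul_ne_zero hgQ0 hP0)
    linear_combination (algebraMap Qb (Fb N) c * P') * h1
      - (algebraMap Qb (Fb N) ((τ : Gq) c) * f) * hg₀'
      - (algebraMap Qb (Fb N) ((τ : Gq) c) * g P') * hfPQ

end Inertia

/-! ### Weak approximation and the main statement -/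

section Main

variable {N : ℕ} (A : ValuationSubring Qb)

theorem incl_single_zero (x : A) :
    Congr.incl A (HahnSeries.single 0 x) = algebraMap Qb (LaurentSeries Qb) (x : Qb) := by
  rw [algebraMap_laurentSeries_eq_single]
  exact coeffMap_single _ _ _

theorem red_single_zero (x : A) :
    Congr.red A (HahnSeries.single 0 x) = HahnSeries.single 0 (IsLocalRing.residue A x) :=
  coeffMap_single _ _ _

/-- **Weak approximation** for the two valuations `v_∞`, `v_0 = v_∞ ∘ W`, from a separator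
`b, b'`: for every unit `a` of `A` there is `w ≡ 1` at `v_∞` with `W w ≡ a` at `v_∞`. -/
theorem exists_sep (W : Fb N ≃+* Fb N)
    (hWc : ∀ c : Qb, W (algebraMap Qb (Fb N) c) = algebraMap Qb (Fb N) c)
    (b b' : LaurentSeries A) (hbm : Congr.incl A b ∈ Fb N) (hbm' : Congr.incl A b' ∈ Fb N)
    (hb : Congr.red A b = 0) (hb' : Congr.red A b' ≠ 0)
    (hWb : W ⟨_, hbm⟩ = ⟨_, hbm'⟩) (hWb' : W ⟨_, hbm'⟩ = ⟨_, hbm⟩)
    {a : Qb} (ha : a ∈ A) (ha' : a⁻¹ ∈ A) (ha0 : a ≠ 0) :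
    ∃ w w₁ : Fb N, GaussOne N A w ∧ GaussOne N A w₁ ∧
      W w = algebraMap Qb (Fb N) a * w₁ := by
  set bF : Fb N := ⟨_, hbm⟩ with hbF
  set bF' : Fb N := ⟨_, hbm'⟩ with hbF'
  set aF : Fb N := algebraMap Qb (Fb N) a with haF
  have haF0 : aF ≠ 0 := (map_ne_zero (algebraMap Qb (Fb N))).2 ha0
  -- the common denominator
  set S : LaurentSeries A := b + b' with hS
  have hSr : Congr.red A S = Congr.red A b' := by rw [hS, map_add, hb, zero_add]
  have hSm : Congr.incl A S ∈ Fb N := by rw [hS, map_add]; exact (Fb N).add_mem hbm hbm'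
  have hSF : (⟨_, hSm⟩ : Fb N) = bF + bF' :=
    Subtype.ext (show Congr.incl A S = Congr.incl A b + Congr.incl A b' by rw [hS, map_add])
  have hs0 : bF + bF' ≠ 0 := by
    rw [← hSF]; exact mk_ne_zero_of_red_ne_zero A hSm (by rw [hSr]; exact hb')
  -- the numerators
  set U : LaurentSeries A := HahnSeries.single 0 (⟨a, ha⟩ : A) * b + b' with hU
  set U₁ : LaurentSeries A := b' + HahnSeries.single 0 (⟨a⁻¹, ha'⟩ : A) * b with hU₁
  have hUr : Congr.red A U = Congr.red A b' := by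
    rw [hU, map_add, map_mul, hb, mul_zero, zero_add]
  have hU₁r : Congr.red A U₁ = Congr.red A b' := by
    rw [hU₁, map_add, map_mul, hb, mul_zero, add_zero]
  have hUi : Congr.incl A U = ((aF * bF + bF' : Fb N) : LaurentSeries Qb) := by
    rw [hU, map_add, map_mul, incl_single_zero]
    rfl
  have hU₁i : Congr.incl A U₁ = ((bF' + aF⁻¹ * bF : Fb N) : LaurentSeries Qb) := by
    rw [hU₁, map_add, map_mul, incl_single_zero, haF, ← map_inv₀]
    rfl
  have hUm : Congr.incl A U ∈ Fb N := by rw [hUi]; exact (aF * bF + bF').2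
  have hU₁m : Congr.incl A U₁ ∈ Fb N := by rw [hU₁i]; exact (bF' + aF⁻¹ * bF).2
  have hUF : (⟨_, hUm⟩ : Fb N) = aF * bF + bF' := Subtype.ext hUi
  have hU₁F : (⟨_, hU₁m⟩ : Fb N) = bF' + aF⁻¹ * bF := Subtype.ext hU₁i
  refine ⟨(aF * bF + bF') / (bF + bF'), (bF' + aF⁻¹ * bF) / (bF + bF'), ?_, ?_, ?_⟩
  · refine gaussOne_of_mul_eq U S hUm hSm (by rw [hUr, hSr]) (by rw [hUr]; exact hb') ?_
    rw [hSF, hUF]
    exact div_mul_cancel₀ _ hs0
  · refine gaussOne_of_mul_eq U₁ S hU₁m hSm (by rw [hU₁r, hSr]) (by rw [hU₁r]; exact hb') ?_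
    rw [hSF, hU₁F]
    exact div_mul_cancel₀ _ hs0
  · rw [map_div₀, map_add, map_add, map_mul, haF, hWc, ← haF, hWb, hWb']
    have hs0' : bF' + bF ≠ 0 := by rw [add_comm]; exact hs0
    field_simp
    ring

/-- **Step (i) of the S34 route.**  For `τ` in the inertia group of `A` and `f ∈ F^×` with
`m ∣ div f`: `τ f = f · w ^ m · h` with `h` toric (`≡ 1` at `v_∞` and at `v_0 = v_∞ ∘ W`) and
`m ∣ div h`. -/
theorem exists_toric {m : ℕ} (hG : HasGaussNorm N A) (W : Fb N ≃+* Fb N)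
    (hWc : ∀ c : Qb, W (algebraMap Qb (Fb N) c) = algebraMap Qb (Fb N) c)
    (hWgal : ∀ (σ : Gq) (x : Fb N), W (gal N σ x) = gal N σ (W x))
    (b b' : LaurentSeries A) (hbm : Congr.incl A b ∈ Fb N) (hbm' : Congr.incl A b' ∈ Fb N)
    (hb : Congr.red A b = 0) (hb' : Congr.red A b' ≠ 0)
    (hWb : W ⟨_, hbm⟩ = ⟨_, hbm'⟩) (hWb' : W ⟨_, hbm'⟩ = ⟨_, hbm⟩)
    (hm : 0 < m) {τ : Gq} (hτ : τ ∈ A.inertiaSubgroupIn ℚ)
    (f : Fb N) (hf : f ≠ 0) (hdiv : DivBy N m f) :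
    ∃ h w : Fb N, w ≠ 0 ∧ gal N τ f = f * w ^ m * h ∧ IsToric N A W h ∧ DivBy N m h := by
  obtain ⟨τ', hτ', rfl⟩ := hτ
  set g : Fb N ≃+* Fb N := gal N ((A.decompositionSubgroup ℚ).subtype τ') with hg
  have hWf : W f ≠ 0 := (map_ne_zero_iff W W.injective).2 hf
  obtain ⟨c, g₀, hc, hg₀, h1⟩ := exists_gaussOne_gal A hG τ' hτ' f hf
  obtain ⟨c₁, g₁, hc₁, hg₁, h2⟩ := exists_gaussOne_gal A hG τ' hτ' (W f) hWf
  have h1 : g f * algebraMap Qb (Fb N) c = algebraMap Qb (Fb N) ((τ' : Gq) c) * f * g₀ := h1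
  have h2 : g (W f) * algebraMap Qb (Fb N) c₁
      = algebraMap Qb (Fb N) ((τ' : Gq) c₁) * W f * g₁ := h2
  have hτc : (τ' : Gq) c ≠ 0 := (map_ne_zero _).2 hc
  have hτc₁ : (τ' : Gq) c₁ ≠ 0 := (map_ne_zero _).2 hc₁
  set cF : Fb N := algebraMap Qb (Fb N) c with hcF
  set cF₁ : Fb N := algebraMap Qb (Fb N) c₁ with hcF₁
  set tF : Fb N := algebraMap Qb (Fb N) ((τ' : Gq) c) with htF
  set tF₁ : Fb N := algebraMap Qb (Fb N) ((τ' : Gq) c₁) with htF₁
  have hcF0 : cF ≠ 0 := (map_ne_zero (algebraMap Qb (Fb N))).2 hc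
  have hcF₁0 : cF₁ ≠ 0 := (map_ne_zero (algebraMap Qb (Fb N))).2 hc₁
  have htF0 : tF ≠ 0 := (map_ne_zero (algebraMap Qb (Fb N))).2 hτc
  have htF₁0 : tF₁ ≠ 0 := (map_ne_zero (algebraMap Qb (Fb N))).2 hτc₁
  -- transport the first relation by `W`
  have h1' : g (W f) * cF = tF * W f * W g₀ := by
    have := congrArg W h1
    rw [map_mul, map_mul, map_mul, hcF, hWc, htF, hWc, hg, hWgal] at this
    exact this
  have h3 : W g₀ * (tF * cF₁) = g₁ * (tF₁ * cF) := by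
    apply mul_left_cancel₀ hWf
    linear_combination (-cF₁) * h1' + cF * h2
  -- the constants
  obtain ⟨d, hd⟩ := IsAlgClosed.exists_pow_nat_eq ((τ' : Gq) c / c) hm
  obtain ⟨a, ha⟩ := IsAlgClosed.exists_pow_nat_eq (((τ' : Gq) c * c₁) / ((τ' : Gq) c₁ * c)) hm
  have ha0 : a ≠ 0 := by
    rintro rfl
    rw [zero_pow hm.ne'] at ha
    exact (div_ne_zero (mul_ne_zero hτc hc₁) (mul_ne_zero hτc₁ hc)) ha.symm
  have haA : a ∈ A := by
    apply mem_of_pow_mem A hm
    rw [ha]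
    have e : (τ' : Gq) c * c₁ / ((τ' : Gq) c₁ * c) = ((τ' : Gq) c / c) * (c₁ / (τ' : Gq) c₁) := by
      field_simp
    rw [e]
    exact A.mul_mem _ _ (decomp_div_mem A τ' hc) (decomp_div_mem' A τ' hc₁)
  have haA' : a⁻¹ ∈ A := by
    apply mem_of_pow_mem A hm
    rw [inv_pow, ha]
    have e : ((τ' : Gq) c * c₁ / ((τ' : Gq) c₁ * c))⁻¹
        = (c / (τ' : Gq) c) * ((τ' : Gq) c₁ / c₁) := by
      field_simp
    rw [e]
    exact A.mul_mem _ _ (decomp_div_mem' A τ' hc) (decomp_div_mem A τ' hc₁)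
  obtain ⟨w₀, w₁, hw₀, hw₁, hWw⟩ :=
    exists_sep A W hWc b b' hbm hbm' hb hb' hWb hWb' haA haA' ha0
  have hw₀0 : w₀ ≠ 0 := hw₀.ne_zero
  set dF : Fb N := algebraMap Qb (Fb N) d with hdF
  set aF : Fb N := algebraMap Qb (Fb N) a with haF
  have hdF' : dF ^ m * cF = tF := by
    rw [hdF, hcF, htF, ← map_pow, ← map_mul, hd, div_mul_cancel₀ _ hc]
  have haF' : aF ^ m * (tF₁ * cF) = tF * cF₁ := by
    rw [haF, hcF, htF, htF₁, hcF₁, ← map_pow, ← map_mul, ← map_mul, ← map_mul, ha,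
      div_mul_cancel₀ _ (mul_ne_zero hτc₁ hc)]
  have hd0 : dF ≠ 0 := by
    intro h0
    rw [h0, zero_pow hm.ne', zero_mul] at hdF'
    exact htF0 hdF'.symm
  have hgf0 : g f ≠ 0 := (map_ne_zero_iff g g.injective).2 hf
  have hw0 : dF / w₀ ≠ 0 := div_ne_zero hd0 hw₀0
  have e1 : (dF / w₀) ^ m * w₀ ^ m = dF ^ m := by
    rw [div_pow, div_mul_cancel₀ _ (pow_ne_zero _ hw₀0)]
  have hmain : g f = f * (dF / w₀) ^ m * (g₀ * w₀ ^ m) := by
    apply mul_right_cancel₀ hcF0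
    calc g f * cF = tF * f * g₀ := h1
      _ = f * (dF / w₀) ^ m * (g₀ * w₀ ^ m) * cF := by rw [← hdF', ← e1]; ring
  refine ⟨g₀ * w₀ ^ m, dF / w₀, hw0, hmain, ⟨hg₀.mul (hw₀.pow m), ?_⟩, ?_⟩
  · -- `W h = g₁ * w₁ ^ m`
    have hWh : W (g₀ * w₀ ^ m) = g₁ * w₁ ^ m := by
      rw [map_mul, map_pow, hWw, mul_pow, ← mul_assoc]
      congr 1
      apply mul_right_cancel₀ (mul_ne_zero htF₁0 hcF0)
      rw [mul_assoc, haF', h3]
    rw [hWh]
    exact hg₁.mul (hw₁.pow m)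
  · have hden : f * (dF / w₀) ^ m ≠ 0 := mul_ne_zero hf (pow_ne_zero _ hw0)
    have hh : g₀ * w₀ ^ m = g f * (f * (dF / w₀) ^ m)⁻¹ := by
      rw [hmain, mul_comm (f * (dF / w₀) ^ m), mul_assoc, mul_inv_cancel₀ hden, mul_one]
    rw [hh]
    exact (hdiv.gal _).mul hgf0 (inv_ne_zero hden)
      (hdiv.mul hf (pow_ne_zero _ hw0) (divBy_pow_self N m _)).inv

end Main

end Fermat.Agent.S34.Toric
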