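import Fermat.Agent.S34.Toric
import Fermat.Agent.S30.E4.GaussNorm

/-!
# S34, step (i): the separator `j(q^ℓ) - j(q)^ℓ`

For a valuation subring `A` of `ℚ̄` over a prime `ℓ`:

* `jA A` : the `q`-expansion of `j` as an integral Laurent series (`incl_jA`);
* `bSep`, `bSep'` : the integral series `b = j(q^ℓ) - j(q)^ℓ`, `b' = j(q) - j(q^ℓ)^ℓ`, with
  `red b = 0` (Frobenius congruence) and `red b' ≠ 0` (coefficient of `q⁻¹`);
* `exists_toric_of_swap` : `Toric.exists_toric` for any ring automorphism `W` of `Fb N` fixing the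
  constants, commuting with the Galois action and swapping `j(q)` and `j(q^ℓ)`.
-/

set_option autoImplicit false

open HahnSeries ModularCurve AlgebraicCurve

namespace Fermat.Agent.S34.ToricJ

open Fermat.Agent.S30 Fermat.Agent.S30.E4 Fermat.Agent.S34.Toric

local notation "Qb" => AlgebraicClosure ℚ
local notation "Gq" => (AlgebraicClosure ℚ ≃ₐ[ℚ] AlgebraicClosure ℚ)

/-- The `q`-expansion of `j` with integer coefficients. -/
noncomputable def jZ : LaurentSeries ℤ :=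
  HahnSeries.single (-1 : ℤ) 1 * HahnSeries.ofPowerSeries ℤ ℤ jNum

theorem coeffMap_jZ : coeffMap (Int.castRingHom ℚ) jZ = jq := jq_eq_coeffMap.symm

theorem coeff_jZ_neg_one : jZ.coeff (-1 : ℤ) = 1 := by
  have h := coeff_jq_neg_one
  rw [← coeffMap_jZ, coeffMap_coeff] at h
  have h' : ((jZ.coeff (-1 : ℤ) : ℤ) : ℚ) = ((1 : ℤ) : ℚ) := by simpa using h
  exact Int.cast_injective h'

variable (A : ValuationSubring Qb)

/-- The `q`-expansion of `j` as an integral Laurent series over `A`. -/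
noncomputable def jA : LaurentSeries A := coeffMap (Int.castRingHom A) jZ

theorem incl_jA : Congr.incl A (jA A) = coeffEmb Qb jq := by
  rw [← coeffMap_jZ]
  unfold jA Congr.incl coeffEmb
  rw [coeffMap_coeffMap, coeffMap_coeffMap]
  exact coeffMap_congr (RingHom.ext_int _ _) jZ

/-- The reduction of `j`: the `q`-expansion of `j` over the residue field. -/
theorem red_jA : Congr.red A (jA A)
    = coeffMap (Int.castRingHom (IsLocalRing.ResidueField A)) jZ := by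
  unfold jA Congr.red
  rw [coeffMap_coeffMap]
  exact coeffMap_congr (RingHom.ext_int _ _) jZ

theorem coeff_red_jA_neg_one : (Congr.red A (jA A)).coeff (-1 : ℤ) = 1 := by
  rw [red_jA, coeffMap_coeff, coeff_jZ_neg_one, map_one]

/-- Frobenius congruence: `j(q^ℓ) ≡ j(q)^ℓ` modulo `ℓ`. -/
theorem expand_red_jA {ℓ : ℕ} [Fact ℓ.Prime] (hℓ : 0 < ℓ) (hA : A.LiesOverPrime ℓ) :
    Congr.expand ℓ hℓ (Congr.red A (jA A)) = Congr.red A (jA A) ^ ℓ := by
  have : CharP (IsLocalRing.ResidueField A) ℓ := Congr.charP_residue A hA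
  rw [← Congr.expand_coeffMap_frobenius ℓ hℓ]
  congr 1
  rw [red_jA, coeffMap_coeffMap]
  exact coeffMap_congr (RingHom.ext_int _ _) jZ

/-- `b = j(q^ℓ) - j(q)^ℓ`. -/
noncomputable def bSep (ℓ : ℕ) (hℓ : 0 < ℓ) : LaurentSeries A :=
  Congr.expand ℓ hℓ (jA A) - jA A ^ ℓ

/-- `b' = j(q) - j(q^ℓ)^ℓ`. -/
noncomputable def bSep' (ℓ : ℕ) (hℓ : 0 < ℓ) : LaurentSeries A :=
  jA A - Congr.expand ℓ hℓ (jA A) ^ ℓ

theorem red_expand (ℓ : ℕ) (hℓ : 0 < ℓ) (x : LaurentSeries A) :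
    Congr.red A (Congr.expand ℓ hℓ x) = Congr.expand ℓ hℓ (Congr.red A x) :=
  Congr.coeffMap_expand _ ℓ hℓ x

theorem incl_expand (ℓ : ℕ) (hℓ : 0 < ℓ) (x : LaurentSeries A) :
    Congr.incl A (Congr.expand ℓ hℓ x) = Congr.expand ℓ hℓ (Congr.incl A x) :=
  Congr.coeffMap_expand _ ℓ hℓ x

theorem red_bSep {ℓ : ℕ} [Fact ℓ.Prime] (hℓ : 0 < ℓ) (hA : A.LiesOverPrime ℓ) :
    Congr.red A (bSep A ℓ hℓ) = 0 := by
  unfold bSep
  rw [map_sub, map_pow, red_expand, expand_red_jA A hℓ hA, sub_self]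

theorem red_bSep'_ne_zero {ℓ : ℕ} [Fact ℓ.Prime] (hℓ : 0 < ℓ) :
    Congr.red A (bSep' A ℓ hℓ) ≠ 0 := by
  have hℓ2 : 2 ≤ ℓ := (Fact.out : ℓ.Prime).two_le
  intro h
  have h1 := congrArg (fun x : LaurentSeries (IsLocalRing.ResidueField A) => x.coeff (-1 : ℤ)) h
  simp only [HahnSeries.coeff_zero] at h1
  unfold bSep' at h1
  rw [map_sub, map_pow, red_expand, ← map_pow, HahnSeries.coeff_sub, coeff_red_jA_neg_one,
    Congr.coeff_expand_of_not_dvd ℓ hℓ] at h1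
  · simp at h1
  · intro hdvd
    have h2 : ((ℓ : ℤ)) ∣ 1 := by
      obtain ⟨k, hk⟩ := hdvd
      exact ⟨-k, by linarith⟩
    have h3 : (ℓ : ℤ) ≤ 1 := Int.le_of_dvd one_pos h2
    omega

/-- **Step (i) of the S34 route** for any swap `W`: `W` a ring automorphism of `Fb N` fixing the
constants, commuting with the coefficientwise Galois action, and exchanging `J = j(q)` and
`Jℓ = j(q^ℓ)`. -/
theorem exists_toric_of_swap {N ℓ m : ℕ} [Fact ℓ.Prime] (hℓ : 0 < ℓ) (hA : A.LiesOverPrime ℓ)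
    (W : Fb N ≃+* Fb N)
    (hWc : ∀ c : Qb, W (algebraMap Qb (Fb N) c) = algebraMap Qb (Fb N) c)
    (hWgal : ∀ (σ : Gq) (x : Fb N), W (gal N σ x) = gal N σ (W x))
    (J Jℓ : Fb N) (hJ : (J : LaurentSeries Qb) = coeffEmb Qb jq)
    (hJℓ : (Jℓ : LaurentSeries Qb) = Congr.expand ℓ hℓ (coeffEmb Qb jq))
    (hWJ : W J = Jℓ) (hWJℓ : W Jℓ = J)
    (hm : 0 < m) {τ : Gq} (hτ : τ ∈ A.inertiaSubgroupIn ℚ)
    (f : Fb N) (hf : f ≠ 0) (hdiv : DivBy N m f) :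
    ∃ h w : Fb N, w ≠ 0 ∧ gal N τ f = f * w ^ m * h ∧ IsToric N A W h ∧ DivBy N m h := by
  have hb : Congr.incl A (bSep A ℓ hℓ) = ((Jℓ - J ^ ℓ : Fb N) : LaurentSeries Qb) := by
    unfold bSep
    rw [map_sub, map_pow, incl_expand, incl_jA, ← hJℓ, ← hJ]
    rfl
  have hb' : Congr.incl A (bSep' A ℓ hℓ) = ((J - Jℓ ^ ℓ : Fb N) : LaurentSeries Qb) := by
    unfold bSep'
    rw [map_sub, map_pow, incl_expand, incl_jA, ← hJℓ, ← hJ]
    rfl
  have hbm : Congr.incl A (bSep A ℓ hℓ) ∈ Fb N := by rw [hb]; exact (Jℓ - J ^ ℓ).2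
  have hbm' : Congr.incl A (bSep' A ℓ hℓ) ∈ Fb N := by rw [hb']; exact (J - Jℓ ^ ℓ).2
  have e1 : (⟨_, hbm⟩ : Fb N) = Jℓ - J ^ ℓ := Subtype.ext hb
  have e2 : (⟨_, hbm'⟩ : Fb N) = J - Jℓ ^ ℓ := Subtype.ext hb'
  refine exists_toric A (hasGaussNorm N ℓ A hA) W hWc hWgal (bSep A ℓ hℓ) (bSep' A ℓ hℓ)
    hbm hbm' (red_bSep A hℓ hA) (red_bSep'_ne_zero A hℓ) ?_ ?_ hm hτ f hf hdiv
  · rw [e1, e2, map_sub, map_pow, hWJ, hWJℓ]
  · rw [e1, e2, map_sub, map_pow, hWJ, hWJℓ]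

end Fermat.Agent.S34.ToricJ
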