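import Mathlib
import Fermat.Agent.S34.Nodal.Defs
import Fermat.Agent.S30.Model.KummerContra

/-!
# PROGRAM U (S34), brick (M4a): `K`-level `Toric` from valuation data

`CongrOneAt P h` (`Nodal/Defs.lean`) asks for `h = (b + a) / b` with `a ∈ P`, `b ∉ P` in the
overlap chart ring `B`.  The modular side knows `h ≡ 1` in terms of a *valuation*: `h` lies in a
valuation ring `V ⊇ B` of `L` and its reduction is `1`.  This file converts one into the other:
if `P = B ∩ 𝔪_V`, `V` is discrete with uniformiser `ϖ`, and `P ∩ P' ⊆ ϖ B` for a second ideal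
`P' ⊄ P` (the other component), then `B_P = V`, so `h ≡ 1` at `V` gives `CongrOneAt P h`.

* `exists_mul_eq_pow_mul`   : the order step (`x = ϖ^n · unit ⇒ b₀^n x = ϖ^n x'`, `x' ∉ P`).
* `congrOneAt_of_val`       : the abstract statement.
* `NodalDatum.congrOneAt₁_of_val`, `NodalDatum.congrOneAt₂_of_val` : for the two primes of a
  nodal datum (`P ∩ P' ⊆ ϖ B` and `P' ⊄ P` come from the fields `inf_eq`, `not_le` of
  `chartZero`; fractions from `L / E(u)` finite).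
-/

set_option autoImplicit false

open Fermat.Agent.S30.Model Fermat.Agent.S30.Model.GlueChart

namespace Fermat.Agent.S34.ToricK

open Fermat.Agent.S34.Nodal

section Abstract

variable {O L : Type*} [CommRing O] [Field L] [Algebra O L] {u : L}
variable {K : Type*} [CommRing K] [IsDomain K] (V : Subring L) (r : V →+* K) (ϖ : L)

/-- **Order step.**  `P = B ∩ ker r`, `P ∩ P' ⊆ ϖ B`, `b₀ ∈ P' ∖ P`.  If `x ∈ B` is `ϖ ^ n` times
an element of `V` with nonzero reduction, then `b₀ ^ n * x = ϖ ^ n * x'` with `x' ∈ B ∖ P`. -/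
theorem exists_mul_eq_pow_mul (P P' : Ideal (Overlap O u)) (hϖV : ϖ ∈ V) (hϖ0 : ϖ ≠ 0)
    (hrϖ : r ⟨ϖ, hϖV⟩ = 0) (hBV : ∀ x : Overlap O u, (x : L) ∈ V)
    (hP : ∀ x : Overlap O u, x ∈ P ↔ r ⟨x, hBV x⟩ = 0)
    (hinf : ∀ x : Overlap O u, x ∈ P → x ∈ P' → ∃ y : Overlap O u, (x : L) = ϖ * y)
    (b₀ : Overlap O u) (hb₀ : b₀ ∈ P') (hb₀' : b₀ ∉ P) :
    ∀ (n : ℕ) (x : Overlap O u) (y : V), r y ≠ 0 → (x : L) = ϖ ^ n * y →
      ∃ x' : Overlap O u, x' ∉ P ∧ (b₀ : L) ^ n * x = ϖ ^ n * x' := by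
  intro n
  induction n with
  | zero =>
    intro x y hy hxy
    refine ⟨x, ?_, by rw [pow_zero, pow_zero]⟩
    rw [hP]
    have : (⟨x, hBV x⟩ : V) = y := Subtype.ext (by rw [hxy, pow_zero, one_mul])
    rw [this]
    exact hy
  | succ n ih =>
    intro x y hy hxy
    have hxP : x ∈ P := by
      rw [hP]
      have : (⟨x, hBV x⟩ : V) = ⟨ϖ, hϖV⟩ ^ (n + 1) * y := Subtype.ext hxy
      rw [this, map_mul, map_pow, hrϖ, zero_pow (Nat.succ_ne_zero n), zero_mul]
    obtain ⟨x₁, hx₁⟩ := hinf (b₀ * x) (P.mul_mem_left b₀ hxP) (P'.mul_mem_right x hb₀)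
    have hx₁' : (x₁ : L) = ϖ ^ n * ((⟨b₀, hBV b₀⟩ * y : V) : L) := by
      apply mul_left_cancel₀ hϖ0
      rw [← hx₁]
      show (b₀ : L) * (x : L) = ϖ * (ϖ ^ n * ((b₀ : L) * (y : L)))
      rw [hxy, pow_succ]
      ring
    have hb₀r : r ⟨b₀, hBV b₀⟩ ≠ 0 := fun h => hb₀' ((hP b₀).mpr h)
    obtain ⟨x', hx'P, hx'⟩ := ih x₁ (⟨b₀, hBV b₀⟩ * y)
      (by rw [map_mul]; exact mul_ne_zero hb₀r hy) hx₁'
    refine ⟨x', hx'P, ?_⟩
    have h2 : (b₀ : L) * (x : L) = ϖ * (x₁ : L) := hx₁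
    calc (b₀ : L) ^ (n + 1) * (x : L) = (b₀ : L) ^ n * ((b₀ : L) * (x : L)) := by
          rw [pow_succ]; ring
      _ = ϖ * ((b₀ : L) ^ n * (x₁ : L)) := by rw [h2]; ring
      _ = ϖ ^ (n + 1) * (x' : L) := by rw [hx', pow_succ]; ring

/-- **`h ≡ 1` at a discrete valuation ring `V` centred at `P` gives `CongrOneAt P h`.**
`B` the overlap chart ring, `V ⊇ B` a subring of `L` with a reduction map `r` (to a domain),
`ϖ` a uniformiser (`r ϖ = 0`, every nonzero element of `V` is `ϖ ^ n` times an element with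
nonzero reduction), `P = B ∩ ker r`, `P ∩ P' ⊆ ϖ B`, `b₀ ∈ P' ∖ P`, `L = Frac B`. -/
theorem congrOneAt_of_val (P P' : Ideal (Overlap O u)) (hϖV : ϖ ∈ V) (hϖ0 : ϖ ≠ 0)
    (hrϖ : r ⟨ϖ, hϖV⟩ = 0)
    (hord : ∀ x : V, (x : L) ≠ 0 → ∃ (n : ℕ) (y : V), r y ≠ 0 ∧ (x : L) = ϖ ^ n * y)
    (hBV : ∀ x : Overlap O u, (x : L) ∈ V)
    (hP : ∀ x : Overlap O u, x ∈ P ↔ r ⟨x, hBV x⟩ = 0)
    (hinf : ∀ x : Overlap O u, x ∈ P → x ∈ P' → ∃ y : Overlap O u, (x : L) = ϖ * y)
    (b₀ : Overlap O u) (hb₀ : b₀ ∈ P') (hb₀' : b₀ ∉ P)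
    (hfrac : ∀ h : L, ∃ x y : Overlap O u, (y : L) ≠ 0 ∧ h * y = x)
    (h : L) (hV : h ∈ V) (h1 : r ⟨h, hV⟩ = 1) : CongrOneAt P h := by
  have hh0 : h ≠ 0 := by
    rintro rfl
    have : (⟨0, hV⟩ : V) = 0 := rfl
    rw [this, map_zero] at h1
    exact zero_ne_one h1
  obtain ⟨x, y, hy0, hxy⟩ := hfrac h
  have hx0 : (x : L) ≠ 0 := by rw [← hxy]; exact mul_ne_zero hh0 hy0
  obtain ⟨n, xt, hxt, hxn⟩ := hord ⟨x, hBV x⟩ hx0
  obtain ⟨k, yt, hyt, hyk⟩ := hord ⟨y, hBV y⟩ hy0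
  have hxn' : (x : L) = ϖ ^ n * (xt : L) := hxn
  have hyk' : (y : L) = ϖ ^ k * (yt : L) := hyk
  have hrel : h * (ϖ ^ k * (yt : L)) = ϖ ^ n * (xt : L) := by rw [← hxn', ← hyk', hxy]
  have hnk : n = k := by
    rcases lt_trichotomy n k with hlt | heq | hgt
    · exfalso
      obtain ⟨d, rfl⟩ := Nat.exists_eq_add_of_lt hlt
      apply hxt
      have : xt = ⟨ϖ, hϖV⟩ ^ (d + 1) * (⟨h, hV⟩ * yt) := by
        apply Subtype.ext
        apply mul_left_cancel₀ (pow_ne_zero n hϖ0)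
        rw [← hrel]
        show h * (ϖ ^ (n + d + 1) * (yt : L)) = ϖ ^ n * (ϖ ^ (d + 1) * (h * (yt : L)))
        rw [show n + d + 1 = n + (d + 1) by ring, pow_add]
        ring
      rw [this, map_mul, map_pow, hrϖ, zero_pow (Nat.succ_ne_zero d), zero_mul]
    · exact heq
    · exfalso
      obtain ⟨d, rfl⟩ := Nat.exists_eq_add_of_lt hgt
      have : ⟨h, hV⟩ * yt = ⟨ϖ, hϖV⟩ ^ (d + 1) * xt := by
        apply Subtype.ext
        apply mul_left_cancel₀ (pow_ne_zero k hϖ0)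
        show ϖ ^ k * (h * (yt : L)) = ϖ ^ k * (ϖ ^ (d + 1) * (xt : L))
        rw [← mul_assoc (ϖ ^ k) (ϖ ^ (d + 1)), ← pow_add, ← show k + d + 1 = k + (d + 1) by ring,
          ← hrel]
        ring
      have h2 := congrArg r this
      rw [map_mul, h1, one_mul, map_mul, map_pow, hrϖ, zero_pow (Nat.succ_ne_zero d),
        zero_mul] at h2
      exact hyt h2
  subst hnk
  obtain ⟨x', hx'P, hx'⟩ :=
    exists_mul_eq_pow_mul V r ϖ P P' hϖV hϖ0 hrϖ hBV hP hinf b₀ hb₀ hb₀' n x xt hxt hxn'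
  obtain ⟨y', hy'P, hy'⟩ :=
    exists_mul_eq_pow_mul V r ϖ P P' hϖV hϖ0 hrϖ hBV hP hinf b₀ hb₀ hb₀' n y yt hyt hyk'
  have hxy' : h * (y' : L) = (x' : L) := by
    apply mul_left_cancel₀ (pow_ne_zero n hϖ0)
    rw [← hx', ← hxy]
    calc ϖ ^ n * (h * (y' : L)) = h * (ϖ ^ n * (y' : L)) := by ring
      _ = h * ((b₀ : L) ^ n * (y : L)) := by rw [hy']
      _ = (b₀ : L) ^ n * (h * (y : L)) := by ring
  refine ⟨x' - y', y', ?_, hy'P, ?_⟩
  · rw [hP]
    have : (⟨((x' - y' : Overlap O u) : L), hBV (x' - y')⟩ : V) =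
        ⟨h, hV⟩ * ⟨y', hBV y'⟩ - ⟨y', hBV y'⟩ := by
      apply Subtype.ext
      show ((x' - y' : Overlap O u) : L) = h * (y' : L) - (y' : L)
      rw [hxy']
      rfl
    rw [this, map_sub, map_mul, h1, one_mul, sub_self]
  · rw [hxy']
    show (x' : L) = (y' : L) + ((x' : L) - (y' : L))
    ring

end Abstract

/-! ### The two primes of a nodal datum -/

section Datum

variable {O L : Type*} [CommRing O] [Field L] [Algebra O L]

/-- The coordinate `u` as an element of the overlap chart ring. -/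
def genOverlap (u : L) : Overlap O u :=
  ⟨u, CechP1.isIntegral_adjoin_of_mem (Algebra.subset_adjoin (by simp))⟩

/-- The coordinate `u⁻¹` as an element of the overlap chart ring. -/
def genInvOverlap (u : L) : Overlap O u :=
  ⟨u⁻¹, CechP1.isIntegral_adjoin_of_mem (Algebra.subset_adjoin (by simp))⟩

/-- `P ∩ P' ⊆ π B` on the overlap from the same statement on the chart `u`. -/
theorem exists_eq_pi_mul_of_inf_eq (π : O) (u : L) (hu0 : u ≠ 0) (P P' : Ideal (Overlap O u))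
    (hinf : P.comap (toOverlapZero O u) ⊓ P'.comap (toOverlapZero O u) =
      Ideal.span {piElt (Algebra.adjoin O ({u} : Set L)) π})
    (x : Overlap O u) (hx : x ∈ P) (hx' : x ∈ P') :
    ∃ y : Overlap O u, (x : L) = algebraMap O L π * y := by
  obtain ⟨n, hn⟩ := CechP1.exists_pow_mul_isIntegral u hu0 (x : L) x.2
  have hzx : toOverlapZero O u (⟨u ^ n * (x : L), hn⟩ : Chart O u) = genOverlap u ^ n * x := by
    apply Subtype.ext
    rw [coe_inclHom, Subalgebra.coe_mul, Subalgebra.coe_pow]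
    rfl
  have hzmem : (⟨u ^ n * (x : L), hn⟩ : Chart O u) ∈
      P.comap (toOverlapZero O u) ⊓ P'.comap (toOverlapZero O u) := by
    rw [Ideal.mem_inf, Ideal.mem_comap, Ideal.mem_comap, hzx]
    exact ⟨P.mul_mem_left _ hx, P'.mul_mem_left _ hx'⟩
  rw [hinf, Ideal.mem_span_singleton, piElt_dvd_iff] at hzmem
  obtain ⟨w, hw, hzw⟩ := hzmem
  have hzw' : u ^ n * (x : L) = algebraMap O L π * w := hzw
  refine ⟨⟨w, CechP1.isIntegral_mono (adjoin_le_overlap O u) hw⟩ * genInvOverlap u ^ n, ?_⟩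
  rw [Subalgebra.coe_mul, Subalgebra.coe_pow]
  show (x : L) = algebraMap O L π * (w * u⁻¹ ^ n)
  have hun : u ^ n ≠ 0 := pow_ne_zero n hu0
  rw [← mul_assoc, ← hzw', inv_pow]
  field_simp

variable {E : Type*} [IsDomain O] [Field E] [Algebra O E] [IsFractionRing O E]
  [Algebra E L] [IsScalarTower O E L]

/-- `L` is the fraction field of the chart ring of `u`. -/
theorem exists_frac_chart (u : L) [FiniteDimensional (IntermediateField.adjoin E {u}) L]
    (h : L) : ∃ x y : Chart O u, (y : L) ≠ 0 ∧ h * y = x := by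
  letI : Algebra (Algebra.adjoin O ({u} : Set L)) (IntermediateField.adjoin E {u}) :=
    (KummerContra.incl (O := O) (E := E) u).toAlgebra
  haveI : IsFractionRing (Algebra.adjoin O ({u} : Set L)) (IntermediateField.adjoin E {u}) :=
    KummerContra.isFractionRing_adjoin u
  haveI : IsScalarTower (Algebra.adjoin O ({u} : Set L)) (IntermediateField.adjoin E {u}) L :=
    IsScalarTower.of_algebraMap_eq (fun _ => rfl)
  haveI : IsFractionRing (integralClosure (Algebra.adjoin O ({u} : Set L)) L) L :=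
    integralClosure.isFractionRing_of_finite_extension (IntermediateField.adjoin E {u}) L
  obtain ⟨x, y, hy, hxy⟩ := IsFractionRing.div_surjective
    (A := integralClosure (Algebra.adjoin O ({u} : Set L)) L) h
  have e : ∀ z : integralClosure (Algebra.adjoin O ({u} : Set L)) L,
      algebraMap (integralClosure (Algebra.adjoin O ({u} : Set L)) L) L z = (z : L) := fun _ => rfl
  have hy0 : (y : L) ≠ 0 := by
    intro h0
    exact nonZeroDivisors.ne_zero hy (Subtype.ext h0)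
  refine ⟨x, y, hy0, ?_⟩
  rw [← hxy, e, e, div_mul_cancel₀ _ hy0]

/-- `L` is the fraction field of the overlap chart ring. -/
theorem exists_frac_overlap (u : L) [FiniteDimensional (IntermediateField.adjoin E {u}) L]
    (h : L) : ∃ x y : Overlap O u, (y : L) ≠ 0 ∧ h * y = x := by
  obtain ⟨x, y, hy0, hxy⟩ := exists_frac_chart (O := O) (E := E) u h
  refine ⟨toOverlapZero O u x, toOverlapZero O u y, ?_, ?_⟩
  · rw [coe_inclHom]; exact hy0
  · rw [coe_inclHom, coe_inclHom]; exact hxy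

/-- **`h ≡ 1` at a valuation centred at one prime of a crossing pair.**  `P`, `P'` primes of the
overlap chart with `P ∩ P' = (π)` on the chart `u` and `P' ⊄ P`; `V ⊇ B` a discrete valuation
ring of `L` with uniformiser `π` and reduction `r`, `P = B ∩ ker r`.  Then `h ∈ V`, `r h = 1`
gives `CongrOneAt P h`. -/
theorem congrOneAt_of_val_chart (π : O) (hπ0 : algebraMap O L π ≠ 0) (u : L) (hu0 : u ≠ 0)
    [FiniteDimensional (IntermediateField.adjoin E {u}) L] (P P' : Ideal (Overlap O u))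
    (hinf : P.comap (toOverlapZero O u) ⊓ P'.comap (toOverlapZero O u) =
      Ideal.span {piElt (Algebra.adjoin O ({u} : Set L)) π})
    (hnot : ¬ P'.comap (toOverlapZero O u) ≤ P.comap (toOverlapZero O u))
    {K : Type*} [CommRing K] [IsDomain K] (V : Subring L) (r : V →+* K)
    (hπV : algebraMap O L π ∈ V) (hrπ : r ⟨_, hπV⟩ = 0)
    (hord : ∀ x : V, (x : L) ≠ 0 →
      ∃ (n : ℕ) (y : V), r y ≠ 0 ∧ (x : L) = algebraMap O L π ^ n * y)
    (hBV : ∀ x : Overlap O u, (x : L) ∈ V)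
    (hP : ∀ x : Overlap O u, x ∈ P ↔ r ⟨x, hBV x⟩ = 0)
    (h : L) (hV : h ∈ V) (h1 : r ⟨h, hV⟩ = 1) : CongrOneAt P h := by
  obtain ⟨b, hb, hb'⟩ := SetLike.not_le_iff_exists.mp hnot
  exact congrOneAt_of_val V r (algebraMap O L π) P P' hπV hπ0 hrπ hord hBV hP
    (exists_eq_pi_mul_of_inf_eq π u hu0 P P' hinf) (toOverlapZero O u b) (Ideal.mem_comap.mp hb)
    (fun hc => hb' (Ideal.mem_comap.mpr hc)) (exists_frac_overlap (E := E) u) h hV h1

/-- `h ≡ 1` at a valuation centred at the first component of a nodal datum. -/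
theorem _root_.Fermat.Agent.S34.Nodal.NodalDatum.congrOneAt₁_of_val {π : O} {u : L}
    (D : NodalDatum π u) (hπ0 : algebraMap O L π ≠ 0) (hu0 : u ≠ 0)
    [FiniteDimensional (IntermediateField.adjoin E {u}) L]
    {K : Type*} [CommRing K] [IsDomain K] (V : Subring L) (r : V →+* K)
    (hπV : algebraMap O L π ∈ V) (hrπ : r ⟨_, hπV⟩ = 0)
    (hord : ∀ x : V, (x : L) ≠ 0 →
      ∃ (n : ℕ) (y : V), r y ≠ 0 ∧ (x : L) = algebraMap O L π ^ n * y)
    (hBV : ∀ x : Overlap O u, (x : L) ∈ V)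
    (hP : ∀ x : Overlap O u, x ∈ D.P₁ ↔ r ⟨x, hBV x⟩ = 0)
    (h : L) (hV : h ∈ V) (h1 : r ⟨h, hV⟩ = 1) : CongrOneAt D.P₁ h :=
  congrOneAt_of_val_chart (E := E) π hπ0 u hu0 D.P₁ D.P₂ D.chartZero.inf_eq D.chartZero.not_le₂₁
    V r hπV hrπ hord hBV hP h hV h1

/-- `h ≡ 1` at a valuation centred at the second component of a nodal datum. -/
theorem _root_.Fermat.Agent.S34.Nodal.NodalDatum.congrOneAt₂_of_val {π : O} {u : L}
    (D : NodalDatum π u) (hπ0 : algebraMap O L π ≠ 0) (hu0 : u ≠ 0)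
    [FiniteDimensional (IntermediateField.adjoin E {u}) L]
    {K : Type*} [CommRing K] [IsDomain K] (V : Subring L) (r : V →+* K)
    (hπV : algebraMap O L π ∈ V) (hrπ : r ⟨_, hπV⟩ = 0)
    (hord : ∀ x : V, (x : L) ≠ 0 →
      ∃ (n : ℕ) (y : V), r y ≠ 0 ∧ (x : L) = algebraMap O L π ^ n * y)
    (hBV : ∀ x : Overlap O u, (x : L) ∈ V)
    (hP : ∀ x : Overlap O u, x ∈ D.P₂ ↔ r ⟨x, hBV x⟩ = 0)
    (h : L) (hV : h ∈ V) (h1 : r ⟨h, hV⟩ = 1) : CongrOneAt D.P₂ h :=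
  congrOneAt_of_val_chart (E := E) π hπ0 u hu0 D.P₂ D.P₁
    (by rw [inf_comm]; exact D.chartZero.inf_eq) D.chartZero.not_le₁₂
    V r hπV hrπ hord hBV hP h hV h1

end Datum

end Fermat.Agent.S34.ToricK
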