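import Mathlib
import Fermat.Agent.S34.TrivModE
import Fermat.Agent.S34.Modular.SwapE
import Fermat.Agent.S34.ToricInertia
import Fermat.Agent.S18.K1Main.JBase

/-!
# S34 / Program U, (T): `TrivMod` on the two charts of `u* = j + W j` at level `M ℓ`

`E ⊆ ℚ̄` a number field normal over `ℚ`, `O = A ∩ E`, `L = LE (M ℓ) E`, `ℓ ∤ M` prime.

* `uStar M ℓ E : LE (M ℓ) E` : the element `u* = j(q) + j(q^ℓ) = α j + β j`; it is
  `O`-integral (`coe_uStar_eq_iota`), its inverse lies in the Gauss ring (`inv_uStar_mem_V`), it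
  is fixed by every swap `w_E` (`swap_uStar`) and by the coefficientwise Galois action
  (`galE_uStar`).
* `trivMod_uStar`, `trivMod_uStar_inv` : for `τ` in the inertia group of `A` and any swap
  `w_E` (an `E`-algebra automorphism exchanging `α` and `β`), the saturation `(SAT)` of the chart
  ring of `u*` (resp. of `1/u*`) for the two Gauss valuations `red`, `red ∘ w_E` gives
  `ToricInertia.TrivMod π {u*} τ_E` (resp. `{u*⁻¹}`): hypothesis (T) of step (ii).
-/

set_option autoImplicit false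

open ModularCurve

noncomputable section

namespace Fermat.Agent.S34.TrivModStar

open Fermat.Agent.S30 Fermat.Agent.S18.K1Defs Fermat.Agent.S18.K1Main
open Fermat.Agent.S34.TrivModE Fermat.Agent.S34.Modular.SwapE

/-! ### The integral series `j(q) + j(q^ℓ)` -/

section Series

variable (R : Type*) [CommRing R] (ℓ : ℕ) [NeZero ℓ]

/-- The series `j(q) + j(q^ℓ)` over any commutative ring. -/
def uSer : LaurentSeries R := jqModC R + qExpand R ℓ (jqModC R)

theorem coeffMap_uSer {S : Type*} [CommRing S] (f : R →+* S) :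
    coeffMap f (uSer R ℓ) = uSer S ℓ := by
  unfold uSer
  rw [map_add, ModularCurve.coeffMap_qExpand, coeffMap_jqModC]

/-- The coefficient of `q^(-ℓ)` in `j(q) + j(q^ℓ)` is `1` (for `ℓ > 1`). -/
theorem coeff_uSer_neg (hℓ : 1 < ℓ) : (uSer R ℓ).coeff (-(ℓ : ℤ)) = 1 := by
  unfold uSer
  rw [HahnSeries.coeff_add]
  have h1 : (jqModC R).coeff (-(ℓ : ℤ)) = 0 := by
    have h := ModularCurve.coeff_jqModC_pow_of_lt R (b := 1) (m := -(ℓ : ℤ))
      (by push_cast; omega)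
    rwa [pow_one] at h
  have h2 : (qExpand R ℓ (jqModC R)).coeff (-(ℓ : ℤ)) = 1 := by
    have h := qExpand_coeff_mul (R := R) ℓ (jqModC R) (-1)
    rw [mul_neg_one] at h
    rw [h, ModSep.jqModC_coeff_neg_one]
  rw [h1, h2, zero_add]

theorem uSer_ne_zero [Nontrivial R] (hℓ : 1 < ℓ) : uSer R ℓ ≠ 0 := by
  intro h
  have h1 := coeff_uSer_neg R ℓ hℓ
  rw [h] at h1
  exact zero_ne_one h1

end Series

/-! ### The element `u*` of the level-`M ℓ` function field over `E` -/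

section UStar

local notation "Qb" => AlgebraicClosure ℚ
local notation "Gq" => (AlgebraicClosure ℚ ≃ₐ[ℚ] AlgebraicClosure ℚ)

variable (M ℓ : ℕ) [NeZero M] [NeZero ℓ] (E : IntermediateField ℚ Qb)

/-- `u* = j(q) + j(q^ℓ) = α j + β j` in the level-`M ℓ` function field over `E`. -/
def uStar : LE (M * ℓ) E :=
  heckeAlphaBar E M ℓ (jE M E) + heckeBetaBar E M ℓ (jE M E)

theorem coe_uStar :
    ((uStar M ℓ E : LE (M * ℓ) E) : LaurentSeries E)
      = coeffEmb E jq + qExpand E ℓ (coeffEmb E jq) := by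
  unfold uStar
  rw [AddMemClass.coe_add, coe_heckeAlphaBar, coe_heckeBetaBar, coe_jE]

/-- Every swap fixes `u*`. -/
theorem swap_uStar (wE : LE (M * ℓ) E ≃ₐ[E] LE (M * ℓ) E)
    (hα : ∀ f, wE (heckeAlphaBar E M ℓ f) = heckeBetaBar E M ℓ f)
    (hβ : ∀ f, wE (heckeBetaBar E M ℓ f) = heckeAlphaBar E M ℓ f) :
    wE (uStar M ℓ E) = uStar M ℓ E := by
  unfold uStar
  rw [map_add, hα, hβ, add_comm]

/-- The coefficientwise Galois action fixes `u*` (rational coefficients). -/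
theorem arithmeticRingAut_uStar (σ : E ≃ₐ[ℚ] E) :
    arithmeticRingAut (modularFunctionFieldFull (M * ℓ)) σ (uStar M ℓ E) = uStar M ℓ E := by
  apply Subtype.ext
  rw [coe_arithmeticRingAut_apply, coe_uStar, map_add, ModularCurve.coeffMap_qExpand,
    coeffMap_coeffEmb]

variable (A : ValuationSubring Qb) [IsDiscreteValuationRing (OE A E)]

/-- `u*` is the image of the integral series `j(q) + j(q^ℓ)`. -/
theorem coe_uStar_eq_iota :
    ((uStar M ℓ E : LE (M * ℓ) E) : LaurentSeries E)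
      = GaussDVR.iota (OE A E) E (uSer (OE A E) ℓ) := by
  rw [coe_uStar, coeffMap_uSer]
  unfold uSer
  rw [coeffEmb_jq_eq_iota (O := OE A E) (E := E), coeffMap_jqModC]

theorem uStar_mem_V :
    ((uStar M ℓ E : LE (M * ℓ) E) : LaurentSeries E) ∈ GaussDVR.V (OE A E) E := by
  rw [coe_uStar_eq_iota M ℓ E A]
  exact GaussDVR.mem_of_int _ _ _

theorem inv_uStar_mem_V (hℓ : 1 < ℓ) :
    (((uStar M ℓ E)⁻¹ : LE (M * ℓ) E) : LaurentSeries E) ∈ GaussDVR.V (OE A E) E := by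
  have h1 : GaussDVR.rho (OE A E) (uSer (OE A E) ℓ) ≠ 0 := by
    show coeffMap (IsLocalRing.residue (OE A E)) (uSer (OE A E) ℓ) ≠ 0
    rw [coeffMap_uSer]
    exact uSer_ne_zero _ ℓ hℓ
  have h2 := GaussDVR.inv_mem (OE A E) E (GaussDVR.ofInt (OE A E) E (uSer (OE A E) ℓ))
    (by rw [GaussDVR.red_ofInt]; exact h1)
  rw [GaussDVR.coe_ofInt, ← coe_uStar_eq_iota M ℓ E A] at h2
  exact h2

end UStar

/-! ### `TrivMod` on the two charts of `u*` -/

section Main

local notation "Qb" => AlgebraicClosure ℚ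
local notation "Gq" => (AlgebraicClosure ℚ ≃ₐ[ℚ] AlgebraicClosure ℚ)

variable (M ℓ : ℕ) [NeZero M] [NeZero ℓ] (E : IntermediateField ℚ Qb) [Normal ℚ E]
  (A : ValuationSubring Qb) [IsDiscreteValuationRing (OE A E)]
  [Algebra (OE A E) (LE (M * ℓ) E)] [IsScalarTower (OE A E) E (LE (M * ℓ) E)]

omit [NeZero M] [NeZero ℓ] [Normal ℚ E] [IsDiscreteValuationRing (OE A E)] in
/-- An `E`-algebra automorphism fixes the constants of `O_E`. -/
theorem swap_algebraMap_OE (wE : LE (M * ℓ) E ≃ₐ[E] LE (M * ℓ) E) (a : OE A E) :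
    wE (algebraMap (OE A E) (LE (M * ℓ) E) a) = algebraMap (OE A E) (LE (M * ℓ) E) a := by
  rw [IsScalarTower.algebraMap_apply (OE A E) E (LE (M * ℓ) E), AlgEquiv.commutes]

/-- **(T) on the chart `u*`.**  For `τ` in the inertia group of `A` and a swap `w_E` of the
level-`M ℓ` function field over `E`: if the chart ring `B` (integral closure of `O_E[u*]`) is
saturated for the two Gauss valuations `red`, `red ∘ w_E`, then `τ_E` is the identity modulo
`π` on `B`. -/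
theorem trivMod_uStar (hℓ : ℓ.Prime) (π : OE A E) (hπ : Irreducible π)
    {τ : Gq} (hτ : τ ∈ A.inertiaSubgroupIn ℚ)
    (wE : LE (M * ℓ) E ≃ₐ[E] LE (M * ℓ) E)
    (hα : ∀ f, wE (heckeAlphaBar E M ℓ f) = heckeBetaBar E M ℓ f)
    (hβ : ∀ f, wE (heckeBetaBar E M ℓ f) = heckeAlphaBar E M ℓ f)
    (hsat : ∀ (x : LE (M * ℓ) E) (hx : (x : LaurentSeries E) ∈ GaussDVR.V (OE A E) E)
      (hWx : ((wE x : LE (M * ℓ) E) : LaurentSeries E) ∈ GaussDVR.V (OE A E) E),
      IsIntegral (Algebra.adjoin (OE A E) ({uStar M ℓ E} : Set (LE (M * ℓ) E))) x →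
      GaussDVR.red (OE A E) E ⟨_, hx⟩ = 0 → GaussDVR.red (OE A E) E ⟨_, hWx⟩ = 0 →
      ∃ c : LE (M * ℓ) E,
        IsIntegral (Algebra.adjoin (OE A E) ({uStar M ℓ E} : Set (LE (M * ℓ) E))) c ∧
        x = algebraMap (OE A E) (LE (M * ℓ) E) π * c) :
    ToricInertia.TrivMod π ({uStar M ℓ E} : Set (LE (M * ℓ) E)) (galE E (M * ℓ) τ) :=
  trivMod_inertia A E (M * ℓ) π hπ hτ {uStar M ℓ E}
    (by rintro s rfl; exact uStar_mem_V M ℓ E A)
    (by rintro s rfl; exact arithmeticRingAut_uStar M ℓ E _)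
    wE.toRingEquiv
    (fun x => swap_arithmeticRingAut M ℓ hℓ wE hα hβ (τ.restrictNormal E) x)
    (swap_algebraMap_OE M ℓ E A wE)
    (by rintro s rfl; exact swap_uStar M ℓ E wE hα hβ)
    hsat

/-- **(T) on the chart `1/u*`.** -/
theorem trivMod_uStar_inv (hℓ : ℓ.Prime) (π : OE A E) (hπ : Irreducible π)
    {τ : Gq} (hτ : τ ∈ A.inertiaSubgroupIn ℚ)
    (wE : LE (M * ℓ) E ≃ₐ[E] LE (M * ℓ) E)
    (hα : ∀ f, wE (heckeAlphaBar E M ℓ f) = heckeBetaBar E M ℓ f)
    (hβ : ∀ f, wE (heckeBetaBar E M ℓ f) = heckeAlphaBar E M ℓ f)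
    (hsat : ∀ (x : LE (M * ℓ) E) (hx : (x : LaurentSeries E) ∈ GaussDVR.V (OE A E) E)
      (hWx : ((wE x : LE (M * ℓ) E) : LaurentSeries E) ∈ GaussDVR.V (OE A E) E),
      IsIntegral (Algebra.adjoin (OE A E) ({(uStar M ℓ E)⁻¹} : Set (LE (M * ℓ) E))) x →
      GaussDVR.red (OE A E) E ⟨_, hx⟩ = 0 → GaussDVR.red (OE A E) E ⟨_, hWx⟩ = 0 →
      ∃ c : LE (M * ℓ) E,
        IsIntegral (Algebra.adjoin (OE A E) ({(uStar M ℓ E)⁻¹} : Set (LE (M * ℓ) E))) c ∧
        x = algebraMap (OE A E) (LE (M * ℓ) E) π * c) :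
    ToricInertia.TrivMod π ({(uStar M ℓ E)⁻¹} : Set (LE (M * ℓ) E)) (galE E (M * ℓ) τ) :=
  trivMod_inertia A E (M * ℓ) π hπ hτ {(uStar M ℓ E)⁻¹}
    (by rintro s rfl; exact inv_uStar_mem_V M ℓ E A hℓ.one_lt)
    (by
      rintro s rfl
      rw [map_inv₀]
      exact congrArg _ (arithmeticRingAut_uStar M ℓ E _))
    wE.toRingEquiv
    (fun x => swap_arithmeticRingAut M ℓ hℓ wE hα hβ (τ.restrictNormal E) x)
    (swap_algebraMap_OE M ℓ E A wE)
    (by
      rintro s rfl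
      show wE ((uStar M ℓ E)⁻¹) = (uStar M ℓ E)⁻¹
      rw [map_inv₀, swap_uStar M ℓ E wE hα hβ])
    hsat

end Main

end Fermat.Agent.S34.TrivModStar
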