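import Mathlib
import Fermat.Agent.S34.TwoPrimesGaussZ

/-!
# S34: the two Gauss primes of a chart ring from an element `y` (RULING #7 (TP))

`TwoPrimesGauss.package` with the hypotheses `hwu` (integrality of `w (α u')`) and `hww`
(`w ∘ w = 1`) replaced by an ELEMENT `y` of the chart ring `C = Chart O (α u')` with

  `hyI : redInf y = ρU ^ ℓ`,   `hyZ : redZero y = ρU`.

Chart `u' = j`: `y = w (α u')` (this is `TwoPrimesGauss`).  Chart `u' = 1 / j`, ε-route: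
`y = ε · w (α u')` with `ε ≡ 1`.  Everything is derived from the witness form
`TwoPrimesGaussZ` (`z := y`, `g := 1`), the separating element being `y - u ^ ℓ`.

* `sep` : the two explicit separators `y - u ^ ℓ ∈ p_∞ ∖ p_0`, `u - y ^ ℓ ∈ p_0 ∖ p_∞`
  (`u = incl (polyChart u' X)` is `α u'` as an element of `C`);
* `exists_sep_inf`, `exists_sep_zero`, `dvd_of_redInf_redZero` (SAT), `sat` (elementwise),
  `eq_ker_or_eq_ker`, `exists_redInf_sub_eq_zero` (ONTO).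
-/

set_option autoImplicit false
set_option linter.unusedSectionVars false
set_option linter.style.haveILetI false

noncomputable section

namespace Fermat.Agent.S34.TwoPrimesGaussY

open ModularCurve Polynomial
open Fermat.Agent.S30 Fermat.Agent.S34.TwoPrimesGauss

section Package

variable {O E : Type*} [CommRing O] [IsDomain O] [IsDiscreteValuationRing O] [Field E]
  [Algebra O E] [FaithfulSMul O E]
  {L' L : Type*} [Field L'] [Field L] [Algebra O L'] [Algebra O L]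
  (ϖ : O) (hϖ : Irreducible ϖ)
  (α : L' →+* L) (hαO : ∀ r : O, α (algebraMap O L' r) = algebraMap O L r)
  (σ : L →+* LaurentSeries E)
  (hσO : ∀ r : O, σ (algebraMap O L r) = HahnSeries.C (algebraMap O E r))
  (hσfrac : ∀ x : L, σ x ∈ GaussDVR.fracField O E)
  (u' : L') (U : LaurentSeries O) (hσu : σ (α u') = GaussDVR.iota O E U)
  (w : L ≃+* L) (hwO : ∀ r : O, w (algebraMap O L r) = algebraMap O L r)
  (ℓ : ℕ) [NeZero ℓ]
  (hwα : ∀ x : L', σ (w (α x)) = qExpand E ℓ (σ (α x)))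
  (hprime : Prime (piC u' ϖ))
  (hcop : IsCoprime (GaussDVR.rho O U).order (ℓ : ℤ)) (hord : (GaussDVR.rho O U).order ≠ 0)
  (hℓ : 2 ≤ ℓ)
  (hfrob : qExpand (IsLocalRing.ResidueField O) ℓ (GaussDVR.rho O U) = GaussDVR.rho O U ^ ℓ)
  (hrank : ∀ v : Option (Fin 1 ⊕ Fin ℓ) → Chart O (α u'),
    ∃ c : Option (Fin 1 ⊕ Fin ℓ) → Chart O u', c ≠ 0 ∧ ∑ i, incl α hαO u' (c i) * v i = 0)
  (y : Chart O (α u'))
  (hyI : redInf ϖ hϖ α σ hσO hσfrac u' U hσu y = GaussDVR.rho O U ^ ℓ)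
  (hyZ : redZero ϖ hϖ α σ hσO hσfrac u' U hσu w hwO ℓ hwα y = GaussDVR.rho O U)

local notation "rI" => redInf ϖ hϖ α σ hσO hσfrac u' U hσu
local notation "rZ" => redZero ϖ hϖ α σ hσO hσfrac u' U hσu w hwO ℓ hwα
local notation "rM" => redM ϖ hϖ α hαO σ hσO hσfrac u' U hσu
local notation "ι" => incl α hαO u'
local notation "ρU" => GaussDVR.rho O U

include hord hℓ hfrob hyI hyZ in
/-- The two explicit separators `y - u ^ ℓ` and `u - y ^ ℓ` (`u = ι (polyChart u' X)` is the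
coordinate `α u'` as an element of the chart ring). -/
theorem sep :
    (rI (y - ι (polyChart u' X) ^ ℓ) = 0 ∧ rZ (y - ι (polyChart u' X) ^ ℓ) ≠ 0) ∧
    (rZ (ι (polyChart u' X) - y ^ ℓ) = 0 ∧ rI (ι (polyChart u' X) - y ^ ℓ) ≠ 0) := by
  have huR : rM (polyChart u' X) = ρU := by
    rw [redM_polyChart, Polynomial.map_X, eval₂_X]
  have huI : rI (ι (polyChart u' X)) = ρU := by
    rw [redInf_incl]; exact huR
  have huZ : rZ (ι (polyChart u' X)) = ρU ^ ℓ := by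
    rw [redZero_incl, huR, hfrob]
  have hpow : ρU - ρU ^ (ℓ * ℓ) ≠ 0 := by
    intro h
    have h1 : ρU = ρU ^ (ℓ * ℓ) := sub_eq_zero.mp h
    have h2 := congrArg HahnSeries.order h1
    rw [HahnSeries.order_pow, nsmul_eq_mul] at h2
    have h3 : ((ℓ * ℓ : ℕ) : ℤ) = 1 := by
      have h4 : ((ℓ * ℓ : ℕ) : ℤ) * (ρU).order = 1 * (ρU).order := by
        rw [one_mul]; exact h2.symm
      exact mul_right_cancel₀ hord h4
    have h5 : ℓ * ℓ = 1 := by exact_mod_cast h3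
    nlinarith
  refine ⟨⟨?_, ?_⟩, ⟨?_, ?_⟩⟩
  · rw [map_sub, map_pow, hyI, huI, sub_self]
  · rw [map_sub, map_pow, hyZ, huZ, ← pow_mul]
    exact hpow
  · rw [map_sub, map_pow, hyZ, huZ, sub_self]
  · rw [map_sub, map_pow, hyI, huI, ← pow_mul]
    exact hpow

include hαO hord hℓ hfrob hyI hyZ in
/-- `p_∞ ⊄ p_0`. -/
theorem exists_sep_inf : ∃ c : Chart O (α u'), rI c = 0 ∧ rZ c ≠ 0 :=
  ⟨_, (sep ϖ hϖ α hαO σ hσO hσfrac u' U hσu w hwO ℓ hwα hord hℓ hfrob y hyI hyZ).1⟩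

include hαO hord hℓ hfrob hyI hyZ in
/-- `p_0 ⊄ p_∞`. -/
theorem exists_sep_zero : ∃ c : Chart O (α u'), rZ c = 0 ∧ rI c ≠ 0 :=
  ⟨_, (sep ϖ hϖ α hαO σ hσO hσfrac u' U hσu w hwO ℓ hwα hord hℓ hfrob y hyI hyZ).2⟩

include hyZ in
/-- `hyZ` in the witness shape of `TwoPrimesGaussZ` (`g = 1`). -/
theorem hzZ :
    rZ y = qExpand (IsLocalRing.ResidueField O) ℓ
      (1 : LaurentSeries (IsLocalRing.ResidueField O)) * ρU := by
  rw [map_one, one_mul]; exact hyZ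

include hprime hcop hord hℓ hfrob hrank hyI hyZ in
/-- **(SAT)** `p_∞ ∩ p_0 = (ϖ)`. -/
theorem dvd_of_redInf_redZero (c : Chart O (α u')) (hI : rI c = 0) (hZ : rZ c = 0) :
    piC (α u') ϖ ∣ c :=
  TwoPrimesGaussZ.dvd_of_redInf_redZero ϖ hϖ α hαO σ hσO hσfrac u' U hσu w hwO ℓ hwα hprime hcop
    hord hrank y 1 one_ne_zero (hzZ ϖ hϖ α σ hσO hσfrac u' U hσu w hwO ℓ hwα y hyZ)
    (exists_sep_inf ϖ hϖ α hαO σ hσO hσfrac u' U hσu w hwO ℓ hwα hord hℓ hfrob y hyI hyZ)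
    c hI hZ

include hprime hcop hord hℓ hfrob hrank hyI hyZ in
/-- **(SAT), elementwise** (the shape consumed by `TrivModE.trivMod_of_sat`). -/
theorem sat (x : L) (hx : σ x ∈ GaussDVR.V O E) (hWx : σ (w x) ∈ GaussDVR.V O E)
    (hint : IsIntegral (Algebra.adjoin O {α u'}) x)
    (h1 : GaussDVR.red O E ⟨σ x, hx⟩ = 0) (h2 : GaussDVR.red O E ⟨σ (w x), hWx⟩ = 0) :
    ∃ c : L, IsIntegral (Algebra.adjoin O {α u'}) c ∧ x = algebraMap O L ϖ * c :=
  TwoPrimesGaussZ.sat ϖ hϖ α hαO σ hσO hσfrac u' U hσu w hwO ℓ hwα hprime hcop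
    hord hrank y 1 one_ne_zero (hzZ ϖ hϖ α σ hσO hσfrac u' U hσu w hwO ℓ hwα y hyZ)
    (exists_sep_inf ϖ hϖ α hαO σ hσO hσfrac u' U hσu w hwO ℓ hwα hord hℓ hfrob y hyI hyZ)
    x hx hWx hint h1 h2

include hprime hcop hord hℓ hfrob hrank hyI hyZ in
/-- The only primes of the chart ring lying over `(ϖ)` of the level-`M` chart ring are the
kernels of the two reductions. -/
theorem eq_ker_or_eq_ker (Q : Ideal (Chart O (α u'))) [hQ : Q.IsPrime]
    (hπQ : piC (α u') ϖ ∈ Q) (hQc : ∀ a : Chart O u', ι a ∈ Q → piC u' ϖ ∣ a) :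
    Q = RingHom.ker rI ∨ Q = RingHom.ker rZ :=
  TwoPrimesGaussZ.eq_ker_or_eq_ker ϖ hϖ α hαO σ hσO hσfrac u' U hσu w hwO ℓ hwα hprime hcop
    hord hrank y 1 one_ne_zero (hzZ ϖ hϖ α σ hσO hσfrac u' U hσu w hwO ℓ hwα y hyZ)
    (exists_sep_inf ϖ hϖ α hαO σ hσO hσfrac u' U hσu w hwO ℓ hwα hord hℓ hfrob y hyI hyZ)
    Q hπQ hQc

include hprime hcop hord hℓ hfrob hrank hyI hyZ in
/-- **(ONTO)** `C / p_∞ = R / ϖ` when the special fibre of the level-`M` chart is normal. -/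
theorem exists_redInf_sub_eq_zero
    (hnormal : IsIntegrallyClosed (Chart O u' ⧸ Ideal.span {piC u' ϖ})) (c : Chart O (α u')) :
    ∃ a : Chart O u', rI (c - ι a) = 0 :=
  TwoPrimesGaussZ.exists_redInf_sub_eq_zero ϖ hϖ α hαO σ hσO hσfrac u' U hσu w hwO ℓ hwα hprime
    hcop hord hrank y 1 one_ne_zero (hzZ ϖ hϖ α σ hσO hσfrac u' U hσu w hwO ℓ hwα y hyZ)
    (exists_sep_inf ϖ hϖ α hαO σ hσO hσfrac u' U hσu w hwO ℓ hwα hord hℓ hfrob y hyI hyZ)
    hnormal c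

end Package

end Fermat.Agent.S34.TwoPrimesGaussY
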